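import Mathlib
import Fermat.Agent.S18.PlaceModel_helper74
import Fermat.Agent.S18.Desc_helper61
import Fermat.Agent.S18.PrincDiv_helper98
import Fermat.Agent.S18.ConstK_helper2

/-!
# S37, node (RAT) (helper14): rationality of finitely many places over a number field

`Fbar_L = modularFunctionFieldBar L` over `Qbar`, `F0 = modularFunctionFieldFullC K0 L` the
`K0`-model, `toBar = H74.toBar K0 L` the comparison map.

* `IsRat K0 L P` : every function of the `K0`-model which is regular at the place `P` of
  `Fbar_L` takes its value at `P` in `K0`.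
* `exists_finset_smul_eq` : the stabiliser of a place under the arithmetic Galois action contains
  `Gal(Qbar / K0)` for every `K0` containing a suitable finite set of constants.
* `exists_finset_isRat` : **(RAT)** finitely many places are `K0`-rational for all such `K0`.
* `exists_finset_injOn` : **(INJ)** finitely many places have pairwise distinct restrictions to
  the `K0`-model for all `K0` containing a suitable finite set.
-/

set_option autoImplicit false

noncomputable section

namespace Fermat.Agent.S37.H14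

open ModularCurve AlgebraicCurve IntermediateField
open scoped Pointwise

local notation "Qb" => AlgebraicClosure ℚ

/-! ### Generic facts on places -/

section General

variable {K F : Type*} [Field K] [Field F] [Algebra K F]

/-- a nonzero element lies in the maximal ideal of a valuation subring iff its inverse is not in
the subring -/
theorem mem_nonunits_iff_inv_notMem (V : ValuationSubring F) {a : F} (ha : a ≠ 0) :
    a ∈ V.nonunits ↔ a⁻¹ ∉ V := by
  rw [ValuationSubring.mem_nonunits_iff, ← ValuationSubring.valuation_le_one_iff, not_le,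
    map_inv₀]
  have h0 : V.valuation a ≠ 0 := (Valuation.ne_zero_iff _).mpr ha
  constructor
  · intro h
    exact (one_lt_inv₀ (zero_lt_iff.mpr h0)).mpr h
  · intro h
    exact (one_lt_inv₀ (zero_lt_iff.mpr h0)).mp h

/-- the maximal ideal of a valuation subring is closed under subtraction -/
theorem sub_mem_nonunits (V : ValuationSubring F) {a b : F} (ha : a ∈ V.nonunits)
    (hb : b ∈ V.nonunits) : a - b ∈ V.nonunits := by
  rw [ValuationSubring.mem_nonunits_iff] at ha hb ⊢
  exact lt_of_le_of_lt (Valuation.map_sub _ a b) (max_lt ha hb)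

/-- a constant in the maximal ideal of a place is zero -/
theorem const_eq_zero_of_mem_nonunits (P : Place K F) {c : K}
    (hc : algebraMap K F c ∈ P.toValuationSubring.nonunits) : c = 0 := by
  by_contra h
  have h1 : algebraMap K F c ≠ 0 := by
    rw [Ne, map_eq_zero]; exact h
  have h2 := (mem_nonunits_iff_inv_notMem P.toValuationSubring h1).mp hc
  apply h2
  rw [← map_inv₀]
  exact P.algebraMap_mem' c⁻¹

/-- two distinct places are separated by a function regular at the first one and not at the
second one -/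
theorem exists_mem_notMem_of_ne {P P' : Place K F} (h : P ≠ P') :
    ∃ y : F, y ∈ P.toValuationSubring ∧ y ∉ P'.toValuationSubring := by
  by_contra hcon
  push Not at hcon
  apply h
  refine Fermat.Agent.S24.H19.place_ext_of_ord P P' fun f => ?_
  rw [← Fermat.Agent.S24.H19.mem_iff', ← Fermat.Agent.S24.H19.mem_iff']
  refine ⟨hcon f, fun hz => ?_⟩
  by_contra hzP
  -- `f ∈ O_{P'}`, `f ∉ O_P`
  obtain ⟨π', hπ'⟩ := Fermat.Agent.S24.H19.exists_ord_eq_one P'
  have hπ0 : π' ≠ 0 := by
    rintro rfl
    simp at hπ'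
  have hf0 : f ≠ 0 := by
    rintro rfl
    exact hzP (zero_mem _)
  set x : F := π'⁻¹ with hx
  have hx0 : x ≠ 0 := inv_ne_zero hπ0
  have hxP' : P'.ord x = -1 := by rw [hx, Place.ord_inv, hπ']
  have hxP : P.ord x < 0 := by
    by_contra hge
    push Not at hge
    have h1 := hcon x (Fermat.Agent.S24.H19.mem_of_ord_nonneg P hge)
    have h2 := Fermat.Agent.S24.H19.ord_nonneg_of_mem P' h1
    omega
  have hfP : P.ord f < 0 := by
    by_contra hge
    push Not at hge
    exact hzP (Fermat.Agent.S24.H19.mem_of_ord_nonneg P hge)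
  have hfP' : 0 ≤ P'.ord f := Fermat.Agent.S24.H19.ord_nonneg_of_mem P' hz
  -- `w = x ^ b / f ^ a` with `a = - ord_P x`, `b = - ord_P f`
  set a : ℕ := (-P.ord x).toNat with ha
  set b : ℕ := (-P.ord f).toNat with hb
  have ha' : (a : ℤ) = -P.ord x := by rw [ha]; exact Int.toNat_of_nonneg (by omega)
  have hb' : (b : ℤ) = -P.ord f := by rw [hb]; exact Int.toNat_of_nonneg (by omega)
  have hw : P.ord (x ^ b / f ^ a) = 0 := by
    rw [Fermat.Agent.S24.H19.ord_div P (pow_ne_zero _ hx0) (pow_ne_zero _ hf0),
      Fermat.Agent.S24.H19.ord_pow, Fermat.Agent.S24.H19.ord_pow, ha', hb']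
    ring
  have hw' : P'.ord (x ^ b / f ^ a) < 0 := by
    rw [Fermat.Agent.S24.H19.ord_div P' (pow_ne_zero _ hx0) (pow_ne_zero _ hf0),
      Fermat.Agent.S24.H19.ord_pow, Fermat.Agent.S24.H19.ord_pow, hxP']
    have hb1 : (1 : ℤ) ≤ b := by omega
    have : 0 ≤ (a : ℤ) * P'.ord f := mul_nonneg (by omega) hfP'
    nlinarith
  have h1 := hcon _ (Fermat.Agent.S24.H19.mem_of_ord_nonneg P (le_of_eq hw.symm))
  have h2 := Fermat.Agent.S24.H19.ord_nonneg_of_mem P' h1
  omega

end General

/-! ### The arithmetic Galois action and the `K0`-model -/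

section Model

variable (K0 : Type*) [Field K0] [Algebra K0 Qb] (L : ℕ) [NeZero L]

/-- **(GALFIX)** an automorphism of `Qbar` fixing `K0` pointwise fixes the image of the
`K0`-model pointwise. -/
theorem arith_smul_toBar (σ : Qb ≃ₐ[ℚ] Qb)
    (hσ : ∀ c : K0, σ (algebraMap K0 Qb c) = algebraMap K0 Qb c)
    (y : ↥(modularFunctionFieldFullC K0 L)) :
    arithmeticGalois (modularFunctionFieldFull L) σ • (Fermat.Agent.S18.H74.toBar K0 L y) =
      Fermat.Agent.S18.H74.toBar K0 L y := by
  apply Subtype.ext
  rw [coe_arithmeticGalois_smul, Fermat.Agent.S18.H74.coe_toBar, coeffMap_coeffMap]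
  exact coeffMap_congr (RingHom.ext hσ) _

omit [NeZero L] in
/-- the same for a Laurent series defined over `K0` -/
theorem arith_smul_of_coeffMap (σ : Qb ≃ₐ[ℚ] Qb)
    (hσ : ∀ c : K0, σ (algebraMap K0 Qb c) = algebraMap K0 Qb c)
    (y : ↥(modularFunctionFieldBar L)) (y0 : LaurentSeries K0)
    (hy : coeffMap (algebraMap K0 Qb) y0 = (y : LaurentSeries Qb)) :
    arithmeticGalois (modularFunctionFieldFull L) σ • y = y := by
  apply Subtype.ext
  rw [coe_arithmeticGalois_smul, ← hy, coeffMap_coeffMap]
  exact coeffMap_congr (RingHom.ext hσ) _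

end Model

/-! ### The stabiliser of a place -/

section Stab

variable {K F : Type*} [Field K] [Field F] [Algebra K F]

/-- the image of the maximal ideal under a semilinear automorphism -/
theorem smul_mem_nonunits (g : SemilinearAut K F) (P : Place K F) {z : F}
    (hz : z ∈ P.toValuationSubring.nonunits) : g • z ∈ (g • P).toValuationSubring.nonunits := by
  rcases eq_or_ne z 0 with rfl | hz0
  · rw [smul_zero]
    exact (ValuationSubring.mem_nonunits_iff _).mpr (by simp)
  have hgz0 : g • z ≠ 0 := by
    rw [Ne, smul_eq_zero_iff_eq]; exact hz0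
  rw [mem_nonunits_iff_inv_notMem _ hgz0, SemilinearAut.smul_toValuationSubring]
  rw [mem_nonunits_iff_inv_notMem _ hz0] at hz
  intro h
  apply hz
  have h2 : (g • z)⁻¹ = g • z⁻¹ := (smul_inv'' g z).symm
  rw [h2, ValuationSubring.mem_pointwise_smul_iff_inv_smul_mem, inv_smul_smul] at h
  exact h

/-- a semilinear automorphism fixing a function `y0` with a zero or pole at `P` and separating
functions for the other zeros and poles of `y0` fixes `P`. -/
theorem smul_place_eq_self (P : Place K F) (y0 : F) (hy0 : P.ord y0 ≠ 0) (sep : Place K F → F)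
    (hsep : ∀ P' : Place K F, P'.ord y0 ≠ 0 → P' ≠ P →
      sep P' ∈ P.toValuationSubring ∧ sep P' ∉ P'.toValuationSubring)
    (g : SemilinearAut K F) (hg0 : g • y0 = y0)
    (hg : ∀ P' : Place K F, P'.ord y0 ≠ 0 → P' ≠ P → g • sep P' = sep P') : g • P = P := by
  by_contra h
  have h1 : (g • P).ord y0 ≠ 0 := by
    have := SemilinearAut.ord_smul g P y0
    rw [hg0] at this
    rw [this]; exact hy0
  obtain ⟨h2, h3⟩ := hsep (g • P) h1 h
  apply h3
  have h4 := ValuationSubring.smul_mem_pointwise_smul g (sep (g • P)) P.toValuationSubring h2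
  rw [hg (g • P) h1 h] at h4
  exact h4

end Stab

/-! ### Rational places -/

section Rat

variable (K0 : Type*) [Field K0] [Algebra K0 Qb] (L : ℕ) [NeZero L]

/-- `P` is `K0`-rational: every function of the `K0`-model regular at `P` has its value at `P`
in `K0`. -/
def IsRat (P : Place Qb ↥(modularFunctionFieldBar L)) : Prop :=
  ∀ y : ↥(modularFunctionFieldFullC K0 L),
    Fermat.Agent.S18.H74.toBar K0 L y ∈ P.toValuationSubring →
    ∃ c : K0, Fermat.Agent.S18.H74.toBar K0 L y -
      algebraMap Qb ↥(modularFunctionFieldBar L) (algebraMap K0 Qb c) ∈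
        P.toValuationSubring.nonunits

variable {K0 L}

/-- the value of a regular function at a place of `Fbar_L` -/
theorem exists_value (P : Place Qb ↥(modularFunctionFieldBar L))
    {z : ↥(modularFunctionFieldBar L)} (hz : z ∈ P.toValuationSubring) :
    ∃ c : Qb, z - algebraMap Qb ↥(modularFunctionFieldBar L) c ∈
      P.toValuationSubring.nonunits := by
  obtain ⟨c, hc | hc⟩ := Fermat.Agent.S18.H2.exists_value_of_deg_one P
    (Fermat.Agent.S18.H2.deg_bar L P) z (Fermat.Agent.S24.H19.ord_nonneg_of_mem P hz)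
  · refine ⟨c, ?_⟩
    rw [hc, sub_self]
    exact (ValuationSubring.mem_nonunits_iff _).mpr (by simp)
  · refine ⟨c, ?_⟩
    have hmem : z - algebraMap Qb ↥(modularFunctionFieldBar L) c ∈ P.toValuationSubring :=
      sub_mem hz (P.algebraMap_mem' c)
    rw [ValuationSubring.mem_nonunits_iff_exists_mem_maximalIdeal]
    exact ⟨hmem, Fermat.Agent.S24.H19.mem_maximalIdeal_of_ord_pos P
      (a := ⟨_, hmem⟩) hc⟩

/-- a place fixed by every automorphism of `Qbar` over `K0` is `K0`-rational. -/
theorem isRat_of_forall_smul_eq [Algebra.IsAlgebraic K0 Qb] [CharZero K0]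
    (P : Place Qb ↥(modularFunctionFieldBar L))
    (hfix : ∀ σ : Qb ≃ₐ[ℚ] Qb, (∀ c : K0, σ (algebraMap K0 Qb c) = algebraMap K0 Qb c) →
      arithmeticGalois (modularFunctionFieldFull L) σ • P = P) : IsRat K0 L P := by
  intro y hy
  obtain ⟨c, hc⟩ := exists_value P hy
  have : IsAlgClosure K0 Qb := ⟨inferInstance, inferInstance⟩
  have : IsGalois K0 Qb := IsAlgClosure.isGalois K0 Qb
  have hcK : c ∈ Set.range (algebraMap K0 Qb) := by
    rw [InfiniteGalois.mem_range_algebraMap_iff_fixed]
    intro f
    set σ : Qb ≃ₐ[ℚ] Qb := (f : Qb ≃+* Qb).toRatAlgEquiv with hσ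
    have hσK : ∀ c' : K0, σ (algebraMap K0 Qb c') = algebraMap K0 Qb c' := fun c' => f.commutes c'
    have hP := hfix σ hσK
    set g := arithmeticGalois (modularFunctionFieldFull L) σ with hg
    have h1 := smul_mem_nonunits g P hc
    rw [hP, smul_sub, arith_smul_toBar K0 L σ hσK y, SemilinearAut.smul_algebraMap] at h1
    have h2 := sub_mem_nonunits _ hc h1
    have h3 : Fermat.Agent.S18.H74.toBar K0 L y - algebraMap Qb ↥(modularFunctionFieldBar L) c -
        (Fermat.Agent.S18.H74.toBar K0 L y -
          algebraMap Qb ↥(modularFunctionFieldBar L) ((SemilinearAut.baseAut g) c)) =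
        algebraMap Qb ↥(modularFunctionFieldBar L) ((SemilinearAut.baseAut g) c - c) := by
      rw [map_sub]; ring
    rw [h3] at h2
    have h4 := const_eq_zero_of_mem_nonunits P h2
    have h5 : (SemilinearAut.baseAut g) c = f c := rfl
    rw [h5, sub_eq_zero] at h4
    exact h4
  obtain ⟨c0, rfl⟩ := hcK
  exact ⟨c0, hc⟩

/-- membership in the maximal ideal of the restricted place -/
theorem mem_nonunits_restrictModel_iff [Algebra.IsAlgebraic K0 Qb]
    (P : Place Qb ↥(modularFunctionFieldBar L)) (z : ↥(modularFunctionFieldFullC K0 L)) :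
    z ∈ (Fermat.Agent.S18.H74.restrictModel K0 L P).toValuationSubring.nonunits ↔
      Fermat.Agent.S18.H74.toBar K0 L z ∈ P.toValuationSubring.nonunits := by
  rcases eq_or_ne z 0 with rfl | hz
  · rw [map_zero]
    exact ⟨fun _ => (ValuationSubring.mem_nonunits_iff _).mpr (by simp),
      fun _ => (ValuationSubring.mem_nonunits_iff _).mpr (by simp)⟩
  have hz' : Fermat.Agent.S18.H74.toBar K0 L z ≠ 0 := by
    rw [Ne, map_eq_zero]; exact hz
  rw [mem_nonunits_iff_inv_notMem _ hz, mem_nonunits_iff_inv_notMem _ hz',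
    Fermat.Agent.S18.H74.mem_restrictModel_iff, map_inv₀]

/-- **(RAT'), model form**: the restriction of a `K0`-rational place to the `K0`-model has all
its values in `K0`. -/
theorem IsRat.exists_value_model [Algebra.IsAlgebraic K0 Qb]
    {P : Place Qb ↥(modularFunctionFieldBar L)} (hP : IsRat K0 L P)
    (y : ↥(modularFunctionFieldFullC K0 L))
    (hy : y ∈ (Fermat.Agent.S18.H74.restrictModel K0 L P).toValuationSubring) :
    ∃ c : K0, y - algebraMap K0 ↥(modularFunctionFieldFullC K0 L) c ∈
      (Fermat.Agent.S18.H74.restrictModel K0 L P).toValuationSubring.nonunits := by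
  obtain ⟨c, hc⟩ := hP y ((Fermat.Agent.S18.H74.mem_restrictModel_iff K0 L P y).mp hy)
  refine ⟨c, ?_⟩
  rw [mem_nonunits_restrictModel_iff, map_sub, Fermat.Agent.S18.H74.toBar_algebraMap]
  exact hc

/-- the restriction of a `K0`-rational place to the `K0`-model has degree one. -/
theorem IsRat.deg_restrictModel [Algebra.IsAlgebraic K0 Qb]
    {P : Place Qb ↥(modularFunctionFieldBar L)} (hP : IsRat K0 L P) :
    (Fermat.Agent.S18.H74.restrictModel K0 L P).deg = 1 := by
  set O := Fermat.Agent.S18.H74.restrictModel K0 L P with hO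
  refine (finrank_eq_one_iff_of_nonzero' (K := K0) (1 : O.ResidueField) one_ne_zero).mpr ?_
  intro w
  obtain ⟨⟨y, hy⟩, rfl⟩ := IsLocalRing.residue_surjective w
  obtain ⟨c, hc⟩ := hP.exists_value_model y hy
  refine ⟨c, ?_⟩
  rw [Algebra.smul_def, mul_one,
    IsScalarTower.algebraMap_apply K0 O.toValuationSubring O.ResidueField c,
    IsLocalRing.ResidueField.algebraMap_eq]
  symm
  rw [← sub_eq_zero, ← map_sub, IsLocalRing.residue_eq_zero_iff]
  rw [ValuationSubring.mem_nonunits_iff_exists_mem_maximalIdeal] at hc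
  obtain ⟨hmem, hmax⟩ := hc
  exact hmax

/-- **(SEC-A0)**: at a `K0`-rational place, a function of the `K0`-model whose value lies in the
valuation subring `A` of `Qbar` has its value in `A ∩ K0`. -/
theorem IsRat.exists_value_mem_comap {P : Place Qb ↥(modularFunctionFieldBar L)}
    (hP : IsRat K0 L P) (A : ValuationSubring Qb) (b : ↥(modularFunctionFieldFullC K0 L))
    (a : Qb) (ha : a ∈ A)
    (hb : Fermat.Agent.S18.H74.toBar K0 L b - algebraMap Qb ↥(modularFunctionFieldBar L) a ∈
      P.toValuationSubring.nonunits) :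
    ∃ c : K0, c ∈ A.comap (algebraMap K0 Qb) ∧
      Fermat.Agent.S18.H74.toBar K0 L b -
        algebraMap Qb ↥(modularFunctionFieldBar L) (algebraMap K0 Qb c) ∈
          P.toValuationSubring.nonunits := by
  have hmem : Fermat.Agent.S18.H74.toBar K0 L b ∈ P.toValuationSubring := by
    have h1 := (ValuationSubring.mem_nonunits_iff_exists_mem_maximalIdeal.mp hb).1
    have h2 := add_mem h1 (P.algebraMap_mem' a)
    rwa [sub_add_cancel] at h2
  obtain ⟨c, hc⟩ := hP b hmem
  refine ⟨c, ?_, hc⟩
  have h3 := sub_mem_nonunits _ hc hb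
  have h4 : Fermat.Agent.S18.H74.toBar K0 L b -
        algebraMap Qb ↥(modularFunctionFieldBar L) (algebraMap K0 Qb c) -
      (Fermat.Agent.S18.H74.toBar K0 L b - algebraMap Qb ↥(modularFunctionFieldBar L) a) =
      algebraMap Qb ↥(modularFunctionFieldBar L) (a - algebraMap K0 Qb c) := by
    rw [map_sub]; ring
  rw [h4] at h3
  have h5 := const_eq_zero_of_mem_nonunits P h3
  rw [sub_eq_zero] at h5
  show algebraMap K0 Qb c ∈ A
  rw [← h5]; exact ha

/-- separating functions in the model make the restriction injective on a set of places. -/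
theorem injOn_restrictModel_of_sep [Algebra.IsAlgebraic K0 Qb]
    (S : Set (Place Qb ↥(modularFunctionFieldBar L)))
    (hsep : ∀ P ∈ S, ∀ P' ∈ S, P ≠ P' → ∃ y : ↥(modularFunctionFieldFullC K0 L),
      Fermat.Agent.S18.H74.toBar K0 L y ∈ P.toValuationSubring ∧
        Fermat.Agent.S18.H74.toBar K0 L y ∉ P'.toValuationSubring) :
    Set.InjOn (Fermat.Agent.S18.H74.restrictModel K0 L) S := by
  intro P hP P' hP' heq
  by_contra hne
  obtain ⟨y, h1, h2⟩ := hsep P hP P' hP' hne
  apply h2
  rw [← Fermat.Agent.S18.H74.mem_restrictModel_iff, ← heq,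
    Fermat.Agent.S18.H74.mem_restrictModel_iff]
  exact h1

end Rat

/-! ### Number fields: the statements with a finite set of constants -/

section NumberField

/-- a number field inside `Qbar` is contained in every subfield containing a suitable finite
set. -/
theorem exists_finset_le (K1 : IntermediateField ℚ Qb) [FiniteDimensional ℚ K1] :
    ∃ C : Finset Qb, ∀ K0 : IntermediateField ℚ Qb, (∀ c ∈ C, c ∈ K0) → K1 ≤ K0 := by
  classical
  let b := Module.finBasis ℚ K1
  refine ⟨Finset.univ.image (fun i => ((b i : K1) : Qb)), fun K0 hC x hx => ?_⟩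
  have h := b.sum_repr ⟨x, hx⟩
  have h2 : x = ∑ i, (b.repr ⟨x, hx⟩ i) • ((b i : K1) : Qb) := by
    have := congrArg (fun z : K1 => (z : Qb)) h
    simp only [IntermediateField.coe_sum, IntermediateField.coe_smul] at this
    exact this.symm
  rw [h2]
  exact K0.sum_mem
    (fun i _ => K0.smul_mem (hC _ (Finset.mem_image_of_mem _ (Finset.mem_univ i))))

variable (L : ℕ) [NeZero L]

/-- **(GALFIX), places**: the stabiliser of a place of `Fbar_L` under the arithmetic Galois action
contains the Galois group of every subfield `K0` containing a suitable finite set. -/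
theorem exists_finset_smul_eq (P : Place Qb ↥(modularFunctionFieldBar L)) :
    ∃ C : Finset Qb, ∀ K0 : IntermediateField ℚ Qb, (∀ c ∈ C, c ∈ K0) →
      ∀ σ : Qb ≃ₐ[ℚ] Qb, (∀ c : K0, σ (algebraMap K0 Qb c) = algebraMap K0 Qb c) →
        arithmeticGalois (modularFunctionFieldFull L) σ • P = P := by
  classical
  obtain ⟨y0, hy0⟩ := Fermat.Agent.S24.H19.exists_ord_eq_one P
  have hfin := Fermat.Agent.S18.H98.finite_ord_ne_zero L y0
  have hsepex : ∀ P' : Place Qb ↥(modularFunctionFieldBar L), P' ≠ P →
      ∃ y, y ∈ P.toValuationSubring ∧ y ∉ P'.toValuationSubring :=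
    fun P' h => exists_mem_notMem_of_ne (Ne.symm h)
  let sep : Place Qb ↥(modularFunctionFieldBar L) → ↥(modularFunctionFieldBar L) :=
    fun P' => if h : P' ≠ P then Classical.choose (hsepex P' h) else 0
  have hsep : ∀ P', P' ≠ P → sep P' ∈ P.toValuationSubring ∧ sep P' ∉ P'.toValuationSubring := by
    intro P' h
    simp only [sep, dif_pos h]
    exact Classical.choose_spec (hsepex P' h)
  let S : Finset (LaurentSeries Qb) := insert (y0 : LaurentSeries Qb)
    (hfin.toFinset.image (fun P' => (sep P' : LaurentSeries Qb)))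
  have hS : ∀ y ∈ S, y ∈ modularFunctionFieldBar L := by
    intro y hy
    rcases Finset.mem_insert.mp hy with rfl | hy
    · exact y0.2
    · obtain ⟨P', -, rfl⟩ := Finset.mem_image.mp hy
      exact (sep P').2
  obtain ⟨K1, hK1fin, -, hK1⟩ := Fermat.Agent.S18.H61.exists_defOver_finset L S hS ∅
  obtain ⟨C, hC⟩ := exists_finset_le K1
  refine ⟨C, fun K0 hCK0 σ hσ => ?_⟩
  have hle := hC K0 hCK0
  have hfixS : ∀ y : ↥(modularFunctionFieldBar L), (y : LaurentSeries Qb) ∈ S →
      arithmeticGalois (modularFunctionFieldFull L) σ • y = y := by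
    intro y hy
    obtain ⟨y', -, hy'⟩ := (hK1 _ hy).mono hle
    exact arith_smul_of_coeffMap (↥K0) L σ hσ y y' hy'
  refine smul_place_eq_self P y0 (by rw [hy0]; norm_num) sep (fun P' _ h => hsep P' h) _
    (hfixS y0 (Finset.mem_insert_self _ _)) (fun P' h1 _ => hfixS _ ?_)
  exact Finset.mem_insert_of_mem (Finset.mem_image_of_mem _ (hfin.mem_toFinset.mpr h1))

/-- **(RAT)**: finitely many places of `Fbar_L` are `K0`-rational for every subfield `K0` of
`Qbar` containing a suitable finite set of constants. -/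
theorem exists_finset_isRat (S : Finset (Place Qb ↥(modularFunctionFieldBar L))) :
    ∃ C : Finset Qb, ∀ K0 : IntermediateField ℚ Qb, (∀ c ∈ C, c ∈ K0) →
      ∀ P ∈ S, IsRat (↥K0) L P := by
  classical
  choose C hC using fun P => exists_finset_smul_eq L P
  refine ⟨S.biUnion C, fun K0 hK0 P hP => ?_⟩
  have : Algebra.IsAlgebraic ℚ Qb := AlgebraicClosure.isAlgebraic ℚ
  have : Algebra.IsAlgebraic (↥K0) Qb := Algebra.IsAlgebraic.tower_top (K := ℚ) (↥K0)
  exact isRat_of_forall_smul_eq P
    (fun σ hσ => hC P K0 (fun c hc => hK0 c (Finset.mem_biUnion.mpr ⟨P, hP, hc⟩)) σ hσ)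

/-- **(INJ), separating form**: finitely many places of `Fbar_L` are pairwise separated by
functions of the `K0`-model, for every `K0` containing a suitable finite set of constants. -/
theorem exists_finset_sep (S : Finset (Place Qb ↥(modularFunctionFieldBar L))) :
    ∃ C : Finset Qb, ∀ K0 : IntermediateField ℚ Qb, (∀ c ∈ C, c ∈ K0) →
      ∀ P ∈ S, ∀ P' ∈ S, P ≠ P' → ∃ y : ↥(modularFunctionFieldFullC (↥K0) L),
        Fermat.Agent.S18.H74.toBar (↥K0) L y ∈ P.toValuationSubring ∧
          Fermat.Agent.S18.H74.toBar (↥K0) L y ∉ P'.toValuationSubring := by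
  classical
  have hsepex : ∀ P P' : Place Qb ↥(modularFunctionFieldBar L), P ≠ P' →
      ∃ y, y ∈ P.toValuationSubring ∧ y ∉ P'.toValuationSubring :=
    fun P P' h => exists_mem_notMem_of_ne h
  let sep : Place Qb ↥(modularFunctionFieldBar L) → Place Qb ↥(modularFunctionFieldBar L) →
      ↥(modularFunctionFieldBar L) :=
    fun P P' => if h : P ≠ P' then Classical.choose (hsepex P P' h) else 0
  have hsep : ∀ P P', P ≠ P' →
      sep P P' ∈ P.toValuationSubring ∧ sep P P' ∉ P'.toValuationSubring := by
    intro P P' h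
    simp only [sep, dif_pos h]
    exact Classical.choose_spec (hsepex P P' h)
  let T : Finset (LaurentSeries Qb) :=
    (S ×ˢ S).image (fun pq => (sep pq.1 pq.2 : LaurentSeries Qb))
  have hT : ∀ y ∈ T, y ∈ modularFunctionFieldBar L := by
    intro y hy
    obtain ⟨pq, -, rfl⟩ := Finset.mem_image.mp hy
    exact (sep pq.1 pq.2).2
  obtain ⟨K1, hK1fin, -, hK1⟩ := Fermat.Agent.S18.H61.exists_defOver_finset L T hT ∅
  obtain ⟨C, hC⟩ := exists_finset_le K1
  refine ⟨C, fun K0 hCK0 P hP P' hP' hne => ?_⟩
  have hle := hC K0 hCK0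
  have hmem : (sep P P' : LaurentSeries Qb) ∈ T :=
    Finset.mem_image.mpr ⟨(P, P'), Finset.mem_product.mpr ⟨hP, hP'⟩, rfl⟩
  obtain ⟨y', hy'mem, hy'⟩ := (hK1 _ hmem).mono hle
  have heq : Fermat.Agent.S18.H74.toBar (↥K0) L ⟨y', hy'mem⟩ = sep P P' := Subtype.ext hy'
  exact ⟨⟨y', hy'mem⟩, by rw [heq]; exact (hsep P P' hne).1, by rw [heq]; exact (hsep P P' hne).2⟩

/-- `Qbar` is algebraic over each of its subfields (the instance `H74.restrictModel` asks for). -/
theorem isAlgebraic_intermediate (K0 : IntermediateField ℚ Qb) : Algebra.IsAlgebraic (↥K0) Qb := by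
  have : Algebra.IsAlgebraic ℚ Qb := AlgebraicClosure.isAlgebraic ℚ
  exact Algebra.IsAlgebraic.tower_top (K := ℚ) (↥K0)

set_option synthInstance.maxHeartbeats 400000 in
/-- **(RAT) + (INJ)**, combined, in the vocabulary of the `K0`-model: for every subfield `K0` of
`Qbar` containing a suitable finite set of constants, the restrictions of the places of `S` to
the `K0`-model are pairwise distinct places of degree one, with all values in `K0`. -/
theorem exists_finset_rat_inj (S : Finset (Place Qb ↥(modularFunctionFieldBar L))) :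
    ∃ C : Finset Qb, ∀ K0 : IntermediateField ℚ Qb, (∀ c ∈ C, c ∈ K0) →
      haveI := isAlgebraic_intermediate K0
      (∀ P ∈ S, IsRat (↥K0) L P) ∧
      (∀ P ∈ S, (Fermat.Agent.S18.H74.restrictModel (↥K0) L P).deg = 1) ∧
      Set.InjOn (Fermat.Agent.S18.H74.restrictModel (↥K0) L) (S : Set _) := by
  classical
  obtain ⟨C1, hC1⟩ := exists_finset_isRat L S
  obtain ⟨C2, hC2⟩ := exists_finset_sep L S
  refine ⟨C1 ∪ C2, fun K0 hK0 => ?_⟩
  have h1 := hC1 K0 (fun c hc => hK0 c (Finset.mem_union_left _ hc))
  have h2 := hC2 K0 (fun c hc => hK0 c (Finset.mem_union_right _ hc))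
  have := isAlgebraic_intermediate K0
  exact ⟨h1, fun P hP => (h1 P hP).deg_restrictModel,
    injOn_restrictModel_of_sep (S : Set _) (fun P hP P' hP' hne => h2 P hP P' hP' hne)⟩

end NumberField

end Fermat.Agent.S37.H14
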