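/-
S37, node (CONJ) (helper16), frozen-vocabulary form.

For a prime `ℓ ∤ N`, the function field `Fbar_{Nℓ}` has degree `ℓ + 1` over `Fbar_N` along
`β = heckeBetaBar` (`y ↦ y(q^ℓ)`), and the `ℓ + 1` embeddings over `β(Fbar_N)` into `Qbar((q))`
are the `ℓ` twists `q ↦ ζ^b q` and one more embedding `σ` with `σ(y(q)) = y(q^(ℓ²))` on
`α(Fbar_N)`.  Consequently

  `(Norm_β (α y))(q^ℓ) = y(q^(ℓ²)) · ∏_{b<ℓ} y(ζ^b q)`      (`qExpand_norm_alpha`).

Main exports (namespace `Fermat.Agent.S37.H16`):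
* `norm_eq_prod_of_ringHoms`, `exists_ringHom_of_primitive`, `ringHom_ext_of_primitive`
  (abstract embedding layer in ring-hom form);
* `natDegree_minpoly_kl`, `relfinrank_kl_bar`, `relfinrank_Lβ_bar` (degree counts);
* `finrank_along_beta'`, `finiteDimensional_along_beta`, `minpoly_xE`, `exists_sigma`,
  `qExpand_norm_alpha'` (instance form, with the local instance `algebraAlong β`);
* `finrank_along_beta`, `qExpand_norm_alpha` (frozen vocabulary, `letI := algebraAlong β`).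
-/
import Mathlib
import Fermat.Agent.S18.Deg_helper16
import Fermat.Agent.S18.Desc_helper61
import Fermat.Agent.S28.ModEq2_helper20
import Fermat.Prelude.Def_ModularCurve_HeckeOperator

set_option autoImplicit false

open IntermediateField ModularCurve Polynomial

namespace Fermat.Agent.S37.H16

open Fermat.Agent.S18.H16 (Kbar Ebar jE)
open Fermat.Agent.S28.H20 (twist)

noncomputable section

/-! ### Abstract part: embeddings in ring-hom form -/

section Abstract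

variable {F E W : Type*} [Field F] [Field E] [Field W] [Algebra F E]

/-- A ring hom `φ : E → W` restricting to `g` on `F` maps `x` to a root of `minpoly F x` (pushed
along `g`). -/
theorem eval_map_minpoly_eq_zero (g : F →+* W) (φ : E →+* W)
    (hφ : ∀ a, φ (algebraMap F E a) = g a) (x : E) :
    ((minpoly F x).map g).eval (φ x) = 0 := by
  have hg : g = φ.comp (algebraMap F E) := RingHom.ext fun a => (hφ a).symm
  rw [hg, ← Polynomial.map_map, Polynomial.eval_map_apply, eval_map_algebraMap, minpoly.aeval,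
    map_zero]

/-- The number of distinct roots of `minpoly F x` in `W` is at most its degree. -/
theorem card_le_natDegree_minpoly (g : F →+* W) {x : E} (hx : IsIntegral F x) (S : Finset W)
    (hS : ∀ r ∈ S, ((minpoly F x).map g).eval r = 0) :
    S.card ≤ (minpoly F x).natDegree := by
  classical
  have hne : (minpoly F x).map g ≠ 0 := (Polynomial.map_ne_zero_iff g.injective).mpr (minpoly.ne_zero hx)
  have h := Polynomial.card_le_degree_of_subset_roots (p := (minpoly F x).map g) (Z := S)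
    (fun r hr => (Polynomial.mem_roots hne).mpr (hS r (Finset.mem_val.mp hr)))
  rwa [Polynomial.natDegree_map] at h

variable [FiniteDimensional F E]

/-- A primitive element determines a ring hom out of `E` with prescribed restriction to `F`. -/
theorem ringHom_ext_of_primitive (g : F →+* W) {x : E}
    (hx : (minpoly F x).natDegree = Module.finrank F E) (φ ψ : E →+* W)
    (hφ : ∀ a, φ (algebraMap F E a) = g a) (hψ : ∀ a, ψ (algebraMap F E a) = g a)
    (h : φ x = ψ x) : φ = ψ := by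
  letI : Algebra F W := g.toAlgebra
  let φ' : E →ₐ[F] W := { φ with commutes' := hφ }
  let ψ' : E →ₐ[F] W := { ψ with commutes' := hψ }
  have htop : F⟮x⟯ = ⊤ := (Field.primitive_element_iff_minpoly_natDegree_eq F x).mpr hx
  have hadj : Algebra.adjoin F {x} = ⊤ := by
    have h1 := IntermediateField.adjoin_simple_toSubalgebra_of_isAlgebraic
      (Algebra.IsAlgebraic.isAlgebraic (R := F) x)
    rw [htop] at h1
    rw [← h1]; rfl
  have : φ' = ψ' := AlgHom.ext_of_adjoin_eq_top hadj (by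
    intro y hy
    rw [Set.mem_singleton_iff.mp hy]
    exact h)
  ext y
  exact DFunLike.congr_fun this y

/-- For a primitive element `x` and a root `r` of its minimal polynomial in `W` there is a ring
hom `E → W` restricting to `g` on `F` and mapping `x` to `r`. -/
theorem exists_ringHom_of_primitive (g : F →+* W) {x : E}
    (hx : (minpoly F x).natDegree = Module.finrank F E) (r : W)
    (hr : ((minpoly F x).map g).eval r = 0) :
    ∃ φ : E →+* W, (∀ a, φ (algebraMap F E a) = g a) ∧ φ x = r := by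
  letI : Algebra F W := g.toAlgebra
  have hint : IsIntegral F x := Algebra.IsIntegral.isIntegral x
  have htop : F⟮x⟯ = ⊤ := (Field.primitive_element_iff_minpoly_natDegree_eq F x).mpr hx
  have hr' : r ∈ (minpoly F x).aroots W := by
    rw [Polynomial.mem_aroots]
    exact ⟨minpoly.ne_zero hint, by rw [Polynomial.aeval_def, Polynomial.eval₂_eq_eval_map]; exact hr⟩
  let φ0 : F⟮x⟯ →ₐ[F] W := (IntermediateField.algHomAdjoinIntegralEquiv F hint).symm ⟨r, hr'⟩
  have hφ0 : φ0 (AdjoinSimple.gen F x) = r :=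
    IntermediateField.algHomAdjoinIntegralEquiv_symm_apply_gen F hint ⟨r, hr'⟩
  let e : E ≃ₐ[F] F⟮x⟯ := (IntermediateField.topEquiv (F := F) (E := E)).symm.trans
    (IntermediateField.equivOfEq htop.symm)
  refine ⟨(φ0.comp e.toAlgHom).toRingHom, fun a => ?_, ?_⟩
  · exact (φ0.comp e.toAlgHom).commutes a
  · show φ0 (e x) = r
    have : e x = AdjoinSimple.gen F x := Subtype.ext rfl
    rw [this, hφ0]

/-- **Norm as a product over an explicit full list of embeddings**, in ring-hom form. -/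
theorem norm_eq_prod_of_ringHoms [CharZero F] {ι : Type*} [Fintype ι] (g : F →+* W)
    (s : ι → E →+* W) (hs : ∀ i a, s i (algebraMap F E a) = g a)
    (hinj : Function.Injective s) (hcard : Fintype.card ι = Module.finrank F E) (z : E) :
    g (Algebra.norm F z) = ∏ i, s i z := by
  classical
  letI : Algebra F W := g.toAlgebra
  let Ω := AlgebraicClosure W
  let σ : ι → (E →ₐ[F] Ω) := fun i =>
    { (algebraMap W Ω).comp (s i) with
      commutes' := fun a => by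
        show algebraMap W Ω (s i (algebraMap F E a)) = algebraMap F Ω a
        rw [hs i a]
        rfl }
  have hσinj : Function.Injective σ := by
    intro i j hij
    apply hinj
    ext y
    have := DFunLike.congr_fun hij y
    exact (algebraMap W Ω).injective this
  have hcard' : Fintype.card ι = Fintype.card (E →ₐ[F] Ω) := by
    rw [hcard, AlgHom.card F E Ω]
  have hbij : Function.Bijective σ :=
    (Fintype.bijective_iff_injective_and_card σ).mpr ⟨hσinj, hcard'⟩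
  have h1 := Algebra.norm_eq_prod_embeddings F Ω z
  rw [← Function.Bijective.prod_comp hbij (fun τ : E →ₐ[F] Ω => τ z)] at h1
  have h2 : algebraMap F Ω (Algebra.norm F z) = algebraMap W Ω (g (Algebra.norm F z)) := rfl
  rw [h2] at h1
  apply (algebraMap W Ω).injective
  rw [h1, map_prod]
  rfl

end Abstract

/-! ### Modular part: notation and elementary facts -/

/-- `j(q^d)` over `Qbar`. -/
abbrev Jd (d : ℕ) [NeZero d] : Ebar := qExpand Kbar d (jqModC Kbar)

theorem jE_eq : jE = jqModC Kbar := by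
  show coeffEmb Kbar jq = jqModC Kbar
  rw [S18.H61.coeffEmb_eq_coeffMap, ← jqModC_rat, coeffMap_jqModC]

theorem qExpand_congr {R : Type*} [CommRing R] {M N : ℕ} [NeZero M] [NeZero N] (h : M = N)
    (f : LaurentSeries R) : qExpand R M f = qExpand R N f := by
  subst h; rfl

theorem qExpand_comm {R : Type*} [CommRing R] (M N : ℕ) [NeZero M] [NeZero N]
    (f : LaurentSeries R) : qExpand R M (qExpand R N f) = qExpand R N (qExpand R M f) := by
  rw [qExpand_qExpand, qExpand_qExpand]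
  exact qExpand_congr (Nat.mul_comm M N) f

theorem Jd_mem_bar {d N : ℕ} [NeZero d] (h : d ∣ N) : Jd d ∈ modularFunctionFieldBar N := by
  rw [S18.H61.modularFunctionFieldBar_eq_fullC]
  exact jqModCd_mem_full Kbar N h

theorem J_mem_bar (N : ℕ) : jqModC Kbar ∈ modularFunctionFieldBar N := by
  rw [S18.H61.modularFunctionFieldBar_eq_fullC]
  exact jqModC_mem_full Kbar N

/-- `Fbar_N ≤ M` as soon as `M` contains the generators `j(q^d)`, `d ∣ N`. -/
theorem bar_le_of_gens (N : ℕ) (M : IntermediateField Kbar Ebar)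
    (h : ∀ (d : ℕ) [NeZero d], d ∣ N → Jd d ∈ M) : modularFunctionFieldBar N ≤ M := by
  rw [S18.H61.modularFunctionFieldBar_eq_fullC, modularFunctionFieldFullC,
    IntermediateField.adjoin_le_iff]
  rintro _ ⟨d, hd, hdN, rfl⟩
  exact h d hdN

/-- the coefficient of `q^(-1)` in a twisted `j` -/
theorem coeff_twist_J (u : Kbarˣ) : (twist u (jqModC Kbar)).coeff (-1) = ((u⁻¹ : Kbarˣ) : Kbar) := by
  rw [S28.H20.coeff_twist_neg_one, coeff_jqModC_neg_one, mul_one]

/-- the coefficient of `q^(-1)` in `j(q^n)`, `n ≥ 2`, vanishes -/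
theorem coeff_Jd_neg_one {n : ℕ} [NeZero n] (hn : 2 ≤ n) (f : Ebar) :
    (qExpand Kbar n f).coeff (-1) = 0 := by
  apply qExpand_coeff_of_not_dvd
  intro h
  have h1 : (n : ℤ) ∣ 1 := (Int.dvd_neg).mp h
  have h2 := Int.le_of_dvd one_pos h1
  omega

/-- twists by distinct powers `< ℓ` of a primitive `ℓ`-th root of unity give distinct conjugates
of `j`. -/
theorem twist_J_injOn {ℓ : ℕ} {ζ : Kbarˣ} (hζ : IsPrimitiveRoot ζ ℓ) {b c : ℕ} (hb : b < ℓ)
    (hc : c < ℓ) (h : twist (ζ ^ b) (jqModC Kbar) = twist (ζ ^ c) (jqModC Kbar)) : b = c := by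
  have h1 := congrArg (fun f : Ebar => f.coeff (-1)) h
  simp only [coeff_twist_J] at h1
  have h2 : (ζ ^ b)⁻¹ = (ζ ^ c)⁻¹ := Units.ext h1
  exact hζ.pow_inj hb hc (inv_injective h2)

/-- The modular equation of prime level `ℓ`, product form, at every "level" `d`:
`Φ(j(q^(dℓ)))(X) = (X - j(q^(dℓ²))) ∏_{b<ℓ} (X - j(ζ^b q^d))`. -/
theorem exists_modPoly (ℓ : ℕ) [NeZero ℓ] (hℓ : ℓ.Prime) (ζ : Kbarˣ) (hζ : IsPrimitiveRoot ζ ℓ) :
    ∃ Φ : Kbar[X][X], Φ.Monic ∧ Φ.natDegree = ℓ + 1 ∧ ∀ (d : ℕ) [NeZero d],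
      Φ.map (aeval (R := Kbar) (qExpand Kbar ℓ (Jd d))).toRingHom
        = (X - C (qExpand Kbar (ℓ * ℓ) (Jd d)))
          * ∏ b ∈ Finset.range ℓ, (X - C (qExpand Kbar d (twist (ζ ^ b) (jqModC Kbar)))) := by
  obtain ⟨Φ, hmonic, hdeg, hΦ⟩ := S28.H20.exists_modEq ℓ hℓ Kbar ζ hζ
  refine ⟨Φ, hmonic, hdeg, fun d _ => ?_⟩
  have h1 := congrArg (Polynomial.map (qExpand Kbar d : Ebar →+* Ebar)) hΦ
  rw [Polynomial.map_map, Polynomial.map_mul, Polynomial.map_sub, Polynomial.map_X,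
    Polynomial.map_C, Polynomial.map_prod] at h1
  have h2 : (qExpand Kbar d : Ebar →+* Ebar).comp
      (aeval (R := Kbar) (qExpand Kbar ℓ (jqModC Kbar))).toRingHom
      = (aeval (R := Kbar) (qExpand Kbar ℓ (Jd d))).toRingHom := by
    have : (qExpandAlgHomC Kbar d).comp (aeval (R := Kbar) (qExpand Kbar ℓ (jqModC Kbar)))
        = aeval (R := Kbar) (qExpand Kbar ℓ (Jd d)) := by
      rw [← aeval_algHom, qExpandAlgHomC_apply, qExpand_comm]
    rw [← this]; rfl
  rw [h2] at h1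
  rw [h1, qExpand_comm d (ℓ * ℓ)]
  congr 1
  refine Finset.prod_congr rfl fun b _ => ?_
  rw [Polynomial.map_sub, Polynomial.map_X, Polynomial.map_C]

/-! ### (C1) `[Qbar(j, j(q^ℓ)) : Qbar(j(q^ℓ))] = ℓ + 1` -/

/-- `Qbar(j(q^ℓ))`, as the image of `Qbar(j)` under `q ↦ q^ℓ`. -/
abbrev kl (ℓ : ℕ) [NeZero ℓ] : IntermediateField Kbar Ebar :=
  (Kbar⟮jqModC Kbar⟯).map (qExpandAlgHomC Kbar ℓ)

theorem mem_kl {ℓ : ℕ} [NeZero ℓ] {x : Ebar} :
    x ∈ kl ℓ ↔ ∃ y ∈ Kbar⟮jqModC Kbar⟯, qExpand Kbar ℓ y = x :=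
  IntermediateField.mem_map _

theorem Jl_mem_kl (ℓ : ℕ) [NeZero ℓ] : Jd ℓ ∈ kl ℓ :=
  mem_kl.mpr ⟨jqModC Kbar, mem_adjoin_simple_self Kbar _, rfl⟩

/-- a twist by an `ℓ`-th root of unity fixes every series in `q^ℓ` -/
theorem twist_qExpand_fix {ℓ : ℕ} [NeZero ℓ] {ζ : Kbarˣ} (hζ : IsPrimitiveRoot ζ ℓ) (b : ℕ)
    (f : Ebar) : twist (ζ ^ b) (qExpand Kbar ℓ f) = qExpand Kbar ℓ f := by
  apply S28.H20.twist_qExpand_of_pow_eq_one
  rw [← pow_mul, mul_comm, pow_mul, hζ.pow_eq_one, one_pow]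

theorem kl_le_bar (ℓ : ℕ) [NeZero ℓ] : kl ℓ ≤ modularFunctionFieldBar ℓ := by
  intro x hx
  obtain ⟨y, hy, rfl⟩ := mem_kl.mp hx
  have h : Kbar⟮jqModC Kbar⟯ ≤ (modularFunctionFieldBar ℓ).comap (qExpandAlgHomC Kbar ℓ) := by
    rw [IntermediateField.adjoin_le_iff, Set.singleton_subset_iff]
    exact Jd_mem_bar (dvd_refl ℓ)
  exact h hy

theorem dedekindPsi_prime' {ℓ : ℕ} (hℓ : ℓ.Prime) : dedekindPsi ℓ = ℓ + 1 := by
  have h := S24.H35.dedekindPsi_prime_mul_of_not_dvd hℓ one_ne_zero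
    (fun h => hℓ.one_lt.ne' (Nat.dvd_one.mp h))
  rwa [mul_one, dedekindPsi_one, mul_one] at h

/-- `j(q^ℓ) ∉ Qbar(j)`. -/
theorem Jl_not_mem {ℓ : ℕ} [NeZero ℓ] (hℓ : ℓ.Prime) : Jd ℓ ∉ Kbar⟮jqModC Kbar⟯ := by
  intro hmem
  have hle : modularFunctionFieldBar ℓ ≤ Kbar⟮jqModC Kbar⟯ := by
    apply bar_le_of_gens
    intro d _ hd
    rcases (Nat.dvd_prime hℓ).mp hd with rfl | rfl
    · rw [Jd, qExpand_one_apply]
      exact mem_adjoin_simple_self Kbar _
    · exact hmem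
  have h1 := S18.H16.relfinrank_adjoin_j_bar ℓ
  rw [jE_eq, relfinrank_eq_one_of_le hle, dedekindPsi_prime' hℓ] at h1
  have := hℓ.pos
  omega

/-- **(C1)** `j` has degree `ℓ + 1` over `Qbar(j(q^ℓ))`. -/
theorem natDegree_minpoly_kl (ℓ : ℕ) [NeZero ℓ] (hℓ : ℓ.Prime) :
    IsIntegral (kl ℓ) (jqModC Kbar) ∧ (minpoly (kl ℓ) (jqModC Kbar)).natDegree = ℓ + 1 := by
  classical
  have hℓK : ((ℓ : ℕ) : Kbar) ≠ 0 := Nat.cast_ne_zero.mpr hℓ.ne_zero
  obtain ⟨ζ, hζ⟩ := S28.H20.exists_isPrimitiveRoot_unit Kbar ℓ hℓ hℓK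
  obtain ⟨Φ, hmonic, hdeg, hΦ⟩ := S28.H20.exists_modEq ℓ hℓ Kbar ζ hζ
  -- the polynomial over `kl`
  let φl : Kbar[X] →+* ↥(kl ℓ) := (aeval (R := Kbar) (⟨Jd ℓ, Jl_mem_kl ℓ⟩ : ↥(kl ℓ))).toRingHom
  have hφl : (algebraMap ↥(kl ℓ) Ebar).comp φl
      = (aeval (R := Kbar) (qExpand Kbar ℓ (jqModC Kbar))).toRingHom := by
    apply Polynomial.ringHom_ext
    · intro a
      simp [φl]
    · simp [φl]
  let P : (↥(kl ℓ))[X] := Φ.map φl
  have hPmonic : P.Monic := hmonic.map φl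
  have hPdeg : P.natDegree = ℓ + 1 := by rw [hmonic.natDegree_map, hdeg]
  have hPmap : P.map (algebraMap ↥(kl ℓ) Ebar)
      = (X - C (qExpand Kbar (ℓ * ℓ) (jqModC Kbar)))
        * ∏ b ∈ Finset.range ℓ, (X - C (twist (ζ ^ b) (jqModC Kbar))) := by
    rw [Polynomial.map_map, hφl, hΦ]
  have hPJ : aeval (jqModC Kbar) P = 0 := by
    rw [Polynomial.aeval_def, Polynomial.eval₂_eq_eval_map, hPmap, eval_mul, eval_prod,
      Finset.prod_eq_zero (Finset.mem_range.mpr hℓ.pos) (by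
        rw [pow_zero, S28.H20.twist_one, eval_sub, eval_X, eval_C]
        exact sub_self _), mul_zero]
  have hint : IsIntegral (↥(kl ℓ)) (jqModC Kbar) := ⟨P, hPmonic, hPJ⟩
  refine ⟨hint, ?_⟩
  set m := minpoly (↥(kl ℓ)) (jqModC Kbar) with hm
  have hmP : m ∣ P := minpoly.dvd _ _ hPJ
  have hupper : m.natDegree ≤ ℓ + 1 := by
    rw [← hPdeg]; exact Polynomial.natDegree_le_of_dvd hmP hPmonic.ne_zero
  -- the twists are roots
  have hroot : ∀ b : ℕ, (m.map (algebraMap ↥(kl ℓ) Ebar)).eval (twist (ζ ^ b) (jqModC Kbar)) = 0 := by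
    intro b
    refine eval_map_minpoly_eq_zero (algebraMap ↥(kl ℓ) Ebar) (twist (ζ ^ b)) ?_ (jqModC Kbar)
    intro a
    obtain ⟨y, -, hy⟩ := mem_kl.mp a.2
    show twist (ζ ^ b) (a : Ebar) = (a : Ebar)
    rw [← hy]
    exact twist_qExpand_fix hζ b y
  let S : Finset Ebar := (Finset.range ℓ).image (fun b => twist (ζ ^ b) (jqModC Kbar))
  have hScard : S.card = ℓ := by
    rw [Finset.card_image_of_injOn, Finset.card_range]
    intro b hb c hc h
    exact twist_J_injOn hζ (Finset.mem_range.mp hb) (Finset.mem_range.mp hc) h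
  have hSroot : ∀ r ∈ S, (m.map (algebraMap ↥(kl ℓ) Ebar)).eval r = 0 := by
    intro r hr
    obtain ⟨b, -, rfl⟩ := Finset.mem_image.mp hr
    exact hroot b
  have hlower : ℓ ≤ m.natDegree := by
    have h1 : S.card ≤ m.natDegree :=
      card_le_natDegree_minpoly (algebraMap ↥(kl ℓ) Ebar) hint S hSroot
    omega
  by_contra hne
  have hdegm : m.natDegree = ℓ := by omega
  obtain ⟨g, hg⟩ := hmP
  have hmmonic : m.Monic := minpoly.monic hint
  have hgmonic : g.Monic := hmmonic.of_mul_monic_left (hg ▸ hPmonic)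
  have hgdeg : g.natDegree = 1 := by
    have := congrArg Polynomial.natDegree hg
    rw [hmmonic.natDegree_mul hgmonic, hPdeg, hdegm] at this
    omega
  have hgX := hgmonic.eq_X_add_C hgdeg
  -- evaluate at `j(q^(ℓ²))`
  have h0 : (P.map (algebraMap ↥(kl ℓ) Ebar)).eval (qExpand Kbar (ℓ * ℓ) (jqModC Kbar)) = 0 := by
    rw [hPmap, eval_mul, eval_sub, eval_X, eval_C, sub_self, zero_mul]
  rw [hg, Polynomial.map_mul, eval_mul] at h0
  rcases mul_eq_zero.mp h0 with h1 | h1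
  · -- one root too many
    have hnot : qExpand Kbar (ℓ * ℓ) (jqModC Kbar) ∉ S := by
      intro hmem
      obtain ⟨b, -, hb⟩ := Finset.mem_image.mp hmem
      have h2 := congrArg (fun f : Ebar => f.coeff (-1)) hb
      simp only [coeff_twist_J] at h2
      rw [coeff_Jd_neg_one (by nlinarith [hℓ.two_le])] at h2
      exact Units.ne_zero _ h2
    have hcard : (insert (qExpand Kbar (ℓ * ℓ) (jqModC Kbar)) S).card ≤ m.natDegree :=
      card_le_natDegree_minpoly (algebraMap ↥(kl ℓ) Ebar) hint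
        (insert (qExpand Kbar (ℓ * ℓ) (jqModC Kbar)) S) (by
          intro r hr
          rcases Finset.mem_insert.mp hr with rfl | hr
          · exact h1
          · exact hSroot r hr)
    rw [Finset.card_insert_of_notMem hnot] at hcard
    omega
  · -- `j(q^(ℓ²)) ∈ kl`, hence `j(q^ℓ) ∈ Qbar(j)`
    rw [hgX, Polynomial.map_add, Polynomial.map_X, Polynomial.map_C, eval_add, eval_X, eval_C] at h1
    have hmem : qExpand Kbar (ℓ * ℓ) (jqModC Kbar) ∈ kl ℓ := by
      have : qExpand Kbar (ℓ * ℓ) (jqModC Kbar) = -(algebraMap ↥(kl ℓ) Ebar (g.coeff 0)) :=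
        eq_neg_of_add_eq_zero_left h1
      rw [this]
      exact neg_mem (g.coeff 0).2
    obtain ⟨y, hy, hy'⟩ := mem_kl.mp hmem
    rw [← qExpand_qExpand] at hy'
    have h3 : y = Jd ℓ := qExpand_injective (R := Kbar) ℓ hy'
    rw [h3] at hy
    exact Jl_not_mem hℓ hy


/-- relative degree of a simple extension inside an ambient field -/
theorem relfinrank_adjoin_simple' {K E : Type*} [Field K] [Field E] [Algebra K E]
    (A B : IntermediateField K E) (x : E) (hB : B = adjoin K ((A : Set E) ∪ {x}))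
    (hint : IsIntegral A x) : relfinrank A B = (minpoly A x).natDegree := by
  have h : A ≤ B := by
    rw [hB]; intro y hy; exact subset_adjoin K _ (Or.inl hy)
  rw [relfinrank_eq_finrank_of_le h]
  have : extendScalars h = A⟮x⟯ := by
    apply IntermediateField.restrictScalars_injective K
    rw [extendScalars_restrictScalars, restrictScalars_adjoin, hB]
  rw [this, adjoin.finrank hint]

/-- **(C1)** `[Fbar_ℓ : Qbar(j(q^ℓ))] = ℓ + 1`. -/
theorem relfinrank_kl_bar (ℓ : ℕ) [NeZero ℓ] (hℓ : ℓ.Prime) :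
    relfinrank (kl ℓ) (modularFunctionFieldBar ℓ) = ℓ + 1 := by
  obtain ⟨hint, hdeg⟩ := natDegree_minpoly_kl ℓ hℓ
  rw [relfinrank_adjoin_simple' (kl ℓ) (modularFunctionFieldBar ℓ) (jqModC Kbar) ?_ hint, hdeg]
  apply le_antisymm
  · apply bar_le_of_gens
    intro d _ hd
    rcases (Nat.dvd_prime hℓ).mp hd with rfl | rfl
    · rw [Jd, qExpand_one_apply]
      exact subset_adjoin Kbar _ (Or.inr rfl)
    · exact subset_adjoin Kbar _ (Or.inl (Jl_mem_kl _))
  · rw [IntermediateField.adjoin_le_iff]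
    rintro y (hy | hy)
    · exact kl_le_bar ℓ hy
    · rw [Set.mem_singleton_iff.mp hy]
      exact J_mem_bar ℓ

/-! ### (C2) `[Fbar_{Nℓ} : β(Fbar_N)] = ℓ + 1` -/

/-- `β(Fbar_N)`: the image of `Fbar_N` under `q ↦ q^ℓ`. -/
abbrev Lβ (N ℓ : ℕ) [NeZero ℓ] : IntermediateField Kbar Ebar :=
  (modularFunctionFieldBar N).map (qExpandAlgHomC Kbar ℓ)

theorem qExpand_mem_bar_mul {N ℓ : ℕ} [NeZero N] [NeZero ℓ] {y : Ebar}
    (hy : y ∈ modularFunctionFieldBar N) : qExpand Kbar ℓ y ∈ modularFunctionFieldBar (N * ℓ) := by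
  have h : modularFunctionFieldBar N
      ≤ (modularFunctionFieldBar (N * ℓ)).comap (qExpandAlgHomC Kbar ℓ) := by
    apply bar_le_of_gens
    intro d _ hd
    show qExpand Kbar ℓ (Jd d) ∈ modularFunctionFieldBar (N * ℓ)
    rw [Jd, qExpand_qExpand]
    exact Jd_mem_bar (by rw [mul_comm]; exact Nat.mul_dvd_mul_right hd ℓ)
  exact h hy

theorem Lβ_le_bar (N ℓ : ℕ) [NeZero N] [NeZero ℓ] : Lβ N ℓ ≤ modularFunctionFieldBar (N * ℓ) := by
  intro x hx
  obtain ⟨y, hy, rfl⟩ := (IntermediateField.mem_map _).mp hx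
  exact qExpand_mem_bar_mul hy

/-- **(C2)** `[Fbar_{Nℓ} : β(Fbar_N)] = ℓ + 1` for a prime `ℓ ∤ N`. -/
theorem relfinrank_Lβ_bar (N ℓ : ℕ) [NeZero N] [NeZero ℓ] (hℓ : ℓ.Prime) (hℓN : ¬ ℓ ∣ N) :
    relfinrank (Lβ N ℓ) (modularFunctionFieldBar (N * ℓ)) = ℓ + 1 := by
  have h1 : kl ℓ ≤ Lβ N ℓ := by
    apply IntermediateField.map_mono
    have := S18.H16.adjoin_jE_le_bar N
    rwa [jE_eq] at this
  have h2 := Lβ_le_bar N ℓ
  have h3 := kl_le_bar ℓ
  have h4 : modularFunctionFieldBar ℓ ≤ modularFunctionFieldBar (N * ℓ) :=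
    S18.H16.bar_mono (dvd_mul_left ℓ N)
  have e1 := relfinrank_kl_bar ℓ hℓ
  have e2 : relfinrank (modularFunctionFieldBar ℓ) (modularFunctionFieldBar (N * ℓ))
      = dedekindPsi N := by
    have h := S18.H16.relfinrank_bar_mul_psi (N := ℓ) (N' := N * ℓ) (dvd_mul_left ℓ N)
    have hpsi : dedekindPsi (N * ℓ) = (ℓ + 1) * dedekindPsi N := by
      rw [mul_comm]
      exact S24.H35.dedekindPsi_prime_mul_of_not_dvd hℓ (NeZero.ne N) hℓN
    rw [dedekindPsi_prime' hℓ, hpsi, mul_comm] at h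
    exact Nat.eq_of_mul_eq_mul_left (Nat.succ_pos ℓ) h
  have e3 : relfinrank (kl ℓ) (Lβ N ℓ) = dedekindPsi N := by
    rw [relfinrank_map_map, ← jE_eq]
    exact S18.H16.relfinrank_adjoin_j_bar N
  have t1 := relfinrank_mul_relfinrank h3 h4
  have t2 := relfinrank_mul_relfinrank h1 h2
  rw [e1, e2] at t1
  rw [e3, ← t1, mul_comm] at t2
  exact Nat.eq_of_mul_eq_mul_right (S18.H16.dedekindPsi_pos' N) t2


/-! ### (C3)/(C4) the extension `Fbar_{Nℓ} / β(Fbar_N)` with the Prelude structure "along `β`" -/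

/-- the function field `Fbar_N` as a type -/
abbrev FN (N : ℕ) : Type := ↥(modularFunctionFieldBar N)

section Concrete

variable (N ℓ : ℕ) [NeZero N] [NeZero ℓ]

/-- the Prelude algebra structure along `β = heckeBetaBar` -/
local instance algAlongBeta :
    Algebra ↥(modularFunctionFieldBar N) ↥(modularFunctionFieldBar (N * ℓ)) :=
  AlgebraicCurve.algebraAlong (heckeBetaBar Kbar N ℓ)

/-- `y ↦ y(q^ℓ)`, from `Fbar_N` to `Qbar((q))` -/
def gβ : ↥(modularFunctionFieldBar N) →+* Ebar :=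
  (qExpand Kbar ℓ : Ebar →+* Ebar).comp (algebraMap ↥(modularFunctionFieldBar N) Ebar)

/-- the inclusion of `Fbar_{Nℓ}` into `Qbar((q))` -/
def ιE : ↥(modularFunctionFieldBar (N * ℓ)) →+* Ebar :=
  algebraMap ↥(modularFunctionFieldBar (N * ℓ)) Ebar

theorem gβ_apply (a : ↥(modularFunctionFieldBar N)) : gβ N ℓ a = qExpand Kbar ℓ (a : Ebar) := rfl

theorem ιE_apply (z : ↥(modularFunctionFieldBar (N * ℓ))) : ιE N ℓ z = (z : Ebar) := rfl

theorem ιE_injective : Function.Injective (ιE N ℓ) := (ιE N ℓ).injective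

theorem ιE_algebraMap (a : ↥(modularFunctionFieldBar N)) :
    ιE N ℓ (algebraMap ↥(modularFunctionFieldBar N) ↥(modularFunctionFieldBar (N * ℓ)) a)
      = gβ N ℓ a := rfl

/-- **(C2), frozen form**: the degree of `Fbar_{Nℓ}` over `Fbar_N` along `β` is `ℓ + 1`. -/
theorem finrank_along_beta' (hℓ : ℓ.Prime) (hℓN : ¬ ℓ ∣ N) :
    Module.finrank ↥(modularFunctionFieldBar N) ↥(modularFunctionFieldBar (N * ℓ)) = ℓ + 1 := by
  have hle := Lβ_le_bar N ℓ
  rw [← relfinrank_Lβ_bar N ℓ hℓ hℓN, relfinrank_eq_finrank_of_le hle]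
  let i : ↥(modularFunctionFieldBar N) ≃+* ↥(Lβ N ℓ) :=
    ((modularFunctionFieldBar N).equivMap (qExpandAlgHomC Kbar ℓ)).toRingEquiv
  let j : ↥(modularFunctionFieldBar (N * ℓ)) ≃+* ↥(extendScalars hle) :=
    { toFun := fun z => ⟨z.1, (mem_extendScalars hle).mpr z.2⟩
      invFun := fun z => ⟨z.1, (mem_extendScalars hle).mp z.2⟩
      left_inv := fun _ => rfl
      right_inv := fun _ => rfl
      map_mul' := fun _ _ => rfl
      map_add' := fun _ _ => rfl }
  refine Algebra.finrank_eq_of_equiv_equiv i j ?_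
  ext a
  rfl



theorem finiteDimensional_along_beta (hℓ : ℓ.Prime) (hℓN : ¬ ℓ ∣ N) : FiniteDimensional (FN N) (FN (N * ℓ)) :=
  Module.finite_of_finrank_pos (by rw [finrank_along_beta' N ℓ hℓ hℓN]; omega)

/-- the twist conjugates `z ↦ z(ζ^b q)` of `Fbar_{Nℓ}` over `β(Fbar_N)` -/
def sTw (ζ : Kbarˣ) (b : ℕ) : (FN (N * ℓ)) →+* Ebar := (twist (ζ ^ b)).comp (ιE N ℓ)

theorem sTw_apply (ζ : Kbarˣ) (b : ℕ) (z : (FN (N * ℓ))) : sTw N ℓ ζ b z = twist (ζ ^ b) (z : Ebar) := rfl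

theorem sTw_algebraMap {ζ : Kbarˣ} (hζ : IsPrimitiveRoot ζ ℓ) (b : ℕ) (a : (FN N)) :
    sTw N ℓ ζ b (algebraMap (FN N) (FN (N * ℓ)) a) = gβ N ℓ a :=
  twist_qExpand_fix hζ b _

/-- the generator `j(q^d)` of `Fbar_N`, as an element of `Fbar_{Nℓ}` -/
def xE (d : ℕ) [NeZero d] (hd : d ∣ N) : (FN (N * ℓ)) := ⟨Jd d, Jd_mem_bar (Dvd.dvd.mul_right hd ℓ)⟩

/-- `Φ(j(q^d))`, a polynomial over `Fbar_N` -/
def polyF (Φ : Kbar[X][X]) (d : ℕ) [NeZero d] (hd : d ∣ N) : (FN N)[X] :=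
  Φ.map (aeval (R := Kbar) (⟨Jd d, Jd_mem_bar hd⟩ : (FN N))).toRingHom

theorem polyF_map (Φ : Kbar[X][X]) (d : ℕ) [NeZero d] (hd : d ∣ N) :
    (polyF N Φ d hd).map (gβ N ℓ)
      = Φ.map (aeval (R := Kbar) (qExpand Kbar ℓ (Jd d))).toRingHom := by
  rw [polyF, Polynomial.map_map]
  congr 1
  apply Polynomial.ringHom_ext
  · intro a
    show qExpand Kbar ℓ (((aeval (R := Kbar) (⟨Jd d, Jd_mem_bar hd⟩ : (FN N))) (C a) : (FN N)) : Ebar)
      = aeval (R := Kbar) (qExpand Kbar ℓ (Jd d)) (C a)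
    rw [aeval_C, aeval_C]
    exact (qExpandAlgHomC Kbar ℓ).commutes a
  · show qExpand Kbar ℓ (((aeval (R := Kbar) (⟨Jd d, Jd_mem_bar hd⟩ : (FN N))) X : (FN N)) : Ebar)
      = aeval (R := Kbar) (qExpand Kbar ℓ (Jd d)) X
    rw [aeval_X, aeval_X]

theorem ιE_aeval (P : (FN N)[X]) (z : (FN (N * ℓ))) :
    ιE N ℓ (aeval z P) = (P.map (gβ N ℓ)).eval (z : Ebar) := by
  rw [Polynomial.aeval_def, Polynomial.hom_eval₂, Polynomial.eval₂_eq_eval_map]
  rfl



/-- **(C3)** every generator `x_d = j(q^d)`, `d ∣ N`, of `Fbar_N` is a primitive element of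
`Fbar_{Nℓ}` over `β(Fbar_N)`: its minimal polynomial is `Φ(j(q^d))`, of degree `ℓ + 1`. -/
theorem minpoly_xE (hℓ : ℓ.Prime) (hℓN : ¬ ℓ ∣ N) {ζ : Kbarˣ} (hζ : IsPrimitiveRoot ζ ℓ)
    {Φ : Kbar[X][X]} (hmonic : Φ.Monic) (hdeg : Φ.natDegree = ℓ + 1)
    (hΦ : ∀ (d : ℕ) [NeZero d],
      Φ.map (aeval (R := Kbar) (qExpand Kbar ℓ (Jd d))).toRingHom
        = (X - C (qExpand Kbar (ℓ * ℓ) (Jd d)))
          * ∏ b ∈ Finset.range ℓ, (X - C (qExpand Kbar d (twist (ζ ^ b) (jqModC Kbar)))))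
    (d : ℕ) [NeZero d] (hd : d ∣ N) :
    minpoly (FN N) (xE N ℓ d hd) = polyF N Φ d hd := by
  classical
  haveI := finiteDimensional_along_beta N ℓ hℓ hℓN
  have hint : IsIntegral (FN N) (xE N ℓ d hd) := Algebra.IsIntegral.isIntegral _
  have hPmonic : (polyF N Φ d hd).Monic := hmonic.map _
  have hPdeg : (polyF N Φ d hd).natDegree = ℓ + 1 := by
    rw [polyF, hmonic.natDegree_map, hdeg]
  have hPx : aeval (xE N ℓ d hd) (polyF N Φ d hd) = 0 := by
    apply ιE_injective N ℓ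
    rw [ιE_aeval, polyF_map, hΦ d, map_zero, eval_mul, eval_prod,
      Finset.prod_eq_zero (Finset.mem_range.mpr hℓ.pos) (by
        rw [pow_zero, S28.H20.twist_one, eval_sub, eval_X, eval_C]
        exact sub_self _), mul_zero]
  have hdvd : minpoly (FN N) (xE N ℓ d hd) ∣ polyF N Φ d hd := minpoly.dvd _ _ hPx
  -- `ℓ` distinct conjugates
  have hcop : Nat.Coprime d ℓ :=
    ((Nat.Prime.coprime_iff_not_dvd hℓ).mpr (fun h => hℓN (h.trans hd))).symm
  let S : Finset Ebar := (Finset.range ℓ).image (fun b => twist (ζ ^ b) (Jd d))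
  have hScard : S.card = ℓ := by
    rw [Finset.card_image_of_injOn, Finset.card_range]
    intro b hb c hc h
    simp only [Jd, S28.H20.twist_qExpand] at h
    have h1 := qExpand_injective (R := Kbar) d h
    have h2 := congrArg (fun f : Ebar => f.coeff (-1)) h1
    simp only [coeff_twist_J] at h2
    have h3 : ((ζ ^ b) ^ d)⁻¹ = ((ζ ^ c) ^ d)⁻¹ := Units.ext h2
    have h4 : (ζ ^ d) ^ b = (ζ ^ d) ^ c := by
      rw [← pow_mul, ← pow_mul, mul_comm d b, mul_comm d c, pow_mul, pow_mul]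
      exact inv_injective h3
    exact (hζ.pow_of_coprime d hcop).pow_inj (Finset.mem_range.mp hb) (Finset.mem_range.mp hc) h4
  have hSroot : ∀ r ∈ S, ((minpoly (FN N) (xE N ℓ d hd)).map (gβ N ℓ)).eval r = 0 := by
    intro r hr
    obtain ⟨b, -, rfl⟩ := Finset.mem_image.mp hr
    exact eval_map_minpoly_eq_zero (gβ N ℓ) (sTw N ℓ ζ b) (sTw_algebraMap N ℓ hζ b) (xE N ℓ d hd)
  have hlower : ℓ ≤ (minpoly (FN N) (xE N ℓ d hd)).natDegree := by
    have h1 : S.card ≤ (minpoly (FN N) (xE N ℓ d hd)).natDegree :=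
      card_le_natDegree_minpoly (gβ N ℓ) hint S hSroot
    rw [hScard] at h1
    exact h1
  have hdiv : (minpoly (FN N) (xE N ℓ d hd)).natDegree ∣ ℓ + 1 := by
    have := minpoly.degree_dvd hint
    rwa [finrank_along_beta' N ℓ hℓ hℓN] at this
  have hnat : (minpoly (FN N) (xE N ℓ d hd)).natDegree = ℓ + 1 := by
    have hle := Nat.le_of_dvd (Nat.succ_pos ℓ) hdiv
    rcases Nat.lt_or_ge (minpoly (FN N) (xE N ℓ d hd)).natDegree (ℓ + 1) with hlt | hge
    · exfalso
      have heq : (minpoly (FN N) (xE N ℓ d hd)).natDegree = ℓ := by omega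
      rw [heq] at hdiv
      have h1 := Nat.dvd_one.mp ((Nat.dvd_add_right (dvd_refl ℓ)).mp hdiv)
      have := hℓ.one_lt
      omega
    · omega
  exact (Polynomial.eq_of_monic_of_dvd_of_natDegree_le (minpoly.monic hint) hPmonic hdvd
    (by rw [hPdeg, hnat])).symm

/-- **(C4)** the `(ℓ+1)`-th embedding: a ring hom `σ : Fbar_{Nℓ} → Qbar((q))` which restricts to
`y(q^ℓ) ↦ y(q^ℓ)` on `β(Fbar_N)` and satisfies `σ(y(q)) = y(q^(ℓ²))` for `y ∈ Fbar_N`. -/
theorem exists_sigma (hℓ : ℓ.Prime) (hℓN : ¬ ℓ ∣ N) {ζ : Kbarˣ} (hζ : IsPrimitiveRoot ζ ℓ) :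
    ∃ σ : FN (N * ℓ) →+* Ebar,
      (∀ a : FN N, σ (algebraMap (FN N) (FN (N * ℓ)) a) = gβ N ℓ a) ∧
      (∀ y : FN N, σ (heckeAlphaBar Kbar N ℓ y) = qExpand Kbar (ℓ * ℓ) (y : Ebar)) := by
  classical
  haveI := finiteDimensional_along_beta N ℓ hℓ hℓN
  obtain ⟨Φ, hmonic, hdeg, hΦ⟩ := exists_modPoly ℓ hℓ ζ hζ
  have hmin : ∀ (d : ℕ) [NeZero d] (hd : d ∣ N),
      minpoly (FN N) (xE N ℓ d hd) = polyF N Φ d hd :=
    fun d _ hd => minpoly_xE N ℓ hℓ hℓN hζ hmonic hdeg hΦ d hd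
  have hfin := finrank_along_beta' N ℓ hℓ hℓN
  have hprim : ∀ (d : ℕ) [NeZero d] (hd : d ∣ N),
      (minpoly (FN N) (xE N ℓ d hd)).natDegree = Module.finrank (FN N) (FN (N * ℓ)) := by
    intro d _ hd
    rw [hmin d hd, hfin, polyF, hmonic.natDegree_map, hdeg]
  -- the `(ℓ+1)`-th embedding
  have hr1 : ((minpoly (FN N) (xE N ℓ 1 (one_dvd N))).map (gβ N ℓ)).eval
      (qExpand Kbar (ℓ * ℓ) (Jd 1)) = 0 := by
    rw [hmin 1 (one_dvd N), polyF_map, hΦ 1, eval_mul, eval_sub, eval_X, eval_C, sub_self, zero_mul]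
  obtain ⟨σ, hσ, hσ1⟩ := exists_ringHom_of_primitive (gβ N ℓ) (hprim 1 (one_dvd N)) _ hr1
  refine ⟨σ, hσ, ?_⟩
  -- values on the generators
  have hgen : ∀ (d : ℕ) [NeZero d] (hd : d ∣ N),
      σ (xE N ℓ d hd) = qExpand Kbar (ℓ * ℓ) (Jd d) := by
    intro d _ hd
    have hroot := eval_map_minpoly_eq_zero (gβ N ℓ) σ hσ (xE N ℓ d hd)
    rw [hmin d hd, polyF_map, hΦ d, eval_mul, eval_sub, eval_X, eval_C, eval_prod] at hroot
    rcases mul_eq_zero.mp hroot with h | h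
    · exact sub_eq_zero.mp h
    · exfalso
      obtain ⟨b, hb, hb0⟩ := Finset.prod_eq_zero_iff.mp h
      rw [eval_sub, eval_X, eval_C, sub_eq_zero] at hb0
      have hcop : Nat.Coprime d ℓ :=
        ((Nat.Prime.coprime_iff_not_dvd hℓ).mpr (fun h => hℓN (h.trans hd))).symm
      obtain ⟨m, -, hm⟩ := Nat.exists_mul_mod_eq_one_of_coprime hcop hℓ.one_lt
      have hmod : b * m * d ≡ b [MOD ℓ] := by
        have h1 : d * m ≡ 1 [MOD ℓ] := by
          unfold Nat.ModEq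
          rw [hm, Nat.mod_eq_of_lt hℓ.one_lt]
        have h2 := h1.mul_left b
        rw [mul_one] at h2
        calc b * m * d = b * (d * m) := by ring
          _ ≡ b [MOD ℓ] := h2
      have hcd : (ζ ^ (b * m)) ^ d = ζ ^ b := by
        rw [← pow_mul]
        exact pow_eq_pow_iff_modEq.mpr (by rw [← hζ.eq_orderOf]; exact hmod)
      have hval : σ (xE N ℓ d hd) = sTw N ℓ ζ (b * m) (xE N ℓ d hd) := by
        rw [hb0]
        show _ = twist (ζ ^ (b * m)) (qExpand Kbar d (jqModC Kbar))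
        rw [S28.H20.twist_qExpand, hcd]
      have heq : σ = sTw N ℓ ζ (b * m) :=
        ringHom_ext_of_primitive (gβ N ℓ) (hprim d hd) σ (sTw N ℓ ζ (b * m)) hσ
          (sTw_algebraMap N ℓ hζ (b * m)) hval
      have h1 : qExpand Kbar (ℓ * ℓ) (Jd 1) = twist (ζ ^ (b * m)) (Jd 1) := by
        rw [← hσ1, heq]; rfl
      have h2 := congrArg (fun f : Ebar => f.coeff (-1)) h1
      simp only [Jd, qExpand_one_apply, coeff_twist_J] at h2
      rw [coeff_Jd_neg_one (by nlinarith [hℓ.two_le])] at h2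
      exact Units.ne_zero _ h2.symm
  -- `σ ∘ α = (q ↦ q^(ℓ²))` on `Fbar_N`, by induction on the generation of `Fbar_N`
  have key : ∀ x (_ : x ∈ IntermediateField.adjoin Kbar (divisorExpansionsC Kbar N))
      (hx' : x ∈ modularFunctionFieldBar N),
      σ (heckeAlphaBar Kbar N ℓ ⟨x, hx'⟩) = qExpand Kbar (ℓ * ℓ) x := by
    have hmemF : ∀ x, x ∈ IntermediateField.adjoin Kbar (divisorExpansionsC Kbar N) →
        x ∈ modularFunctionFieldBar N := by
      intro x hx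
      rw [S18.H61.modularFunctionFieldBar_eq_fullC]
      exact hx
    intro x hx
    induction hx using IntermediateField.adjoin_induction with
    | mem y hy =>
      intro hx'
      obtain ⟨d, hd, hdN, rfl⟩ := hy
      have : heckeAlphaBar Kbar N ℓ ⟨qExpand Kbar d (jqModC Kbar), hx'⟩ = xE N ℓ d hdN :=
        Subtype.ext rfl
      rw [this]
      exact hgen d hdN
    | algebraMap c =>
      intro hx'
      have h1 : heckeAlphaBar Kbar N ℓ ⟨algebraMap Kbar Ebar c, hx'⟩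
          = algebraMap (FN N) (FN (N * ℓ)) (algebraMap Kbar (FN N) c) := by
        apply Subtype.ext
        show algebraMap Kbar Ebar c = qExpand Kbar ℓ (algebraMap Kbar Ebar c)
        exact ((qExpandAlgHomC Kbar ℓ).commutes c).symm
      rw [h1, hσ]
      show qExpand Kbar ℓ (algebraMap Kbar Ebar c) = qExpand Kbar (ℓ * ℓ) (algebraMap Kbar Ebar c)
      rw [show qExpand Kbar ℓ (algebraMap Kbar Ebar c) = algebraMap Kbar Ebar c from
          (qExpandAlgHomC Kbar ℓ).commutes c,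
        show qExpand Kbar (ℓ * ℓ) (algebraMap Kbar Ebar c) = algebraMap Kbar Ebar c from
          (qExpandAlgHomC Kbar (ℓ * ℓ)).commutes c]
    | add x y hx hy ihx ihy =>
      intro hx'
      have hx1 := hmemF x hx
      have hy1 := hmemF y hy
      have : (⟨x + y, hx'⟩ : FN N) = ⟨x, hx1⟩ + ⟨y, hy1⟩ := rfl
      rw [this, map_add, map_add, ihx hx1, ihy hy1, map_add]
    | inv x hx ih =>
      intro hx'
      have hx1 := hmemF x hx
      have : (⟨x⁻¹, hx'⟩ : FN N) = (⟨x, hx1⟩ : FN N)⁻¹ := rfl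
      rw [this, map_inv₀, map_inv₀, ih hx1, map_inv₀]
    | mul x y hx hy ihx ihy =>
      intro hx'
      have hx1 := hmemF x hx
      have hy1 := hmemF y hy
      have : (⟨x * y, hx'⟩ : FN N) = ⟨x, hx1⟩ * ⟨y, hy1⟩ := rfl
      rw [this, map_mul, map_mul, ihx hx1, ihy hy1, map_mul]
  intro y
  have hle : modularFunctionFieldBar N
      ≤ IntermediateField.adjoin Kbar (divisorExpansionsC Kbar N) :=
    le_of_eq (S18.H61.modularFunctionFieldBar_eq_fullC N)
  have hy : (y : Ebar) ∈ IntermediateField.adjoin Kbar (divisorExpansionsC Kbar N) := hle y.2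
  exact key y.1 hy y.2


/-- the family of `ℓ + 1` embeddings of `Fbar_{Nℓ}` over `β(Fbar_N)` -/
def sFam (σ : FN (N * ℓ) →+* Ebar) (ζ : Kbarˣ) : Option (Fin ℓ) → (FN (N * ℓ) →+* Ebar)
  | none => σ
  | some b => sTw N ℓ ζ b.1

theorem sFam_none (σ : FN (N * ℓ) →+* Ebar) (ζ : Kbarˣ) : sFam N ℓ σ ζ none = σ := rfl

theorem sFam_some (σ : FN (N * ℓ) →+* Ebar) (ζ : Kbarˣ) (b : Fin ℓ) :
    sFam N ℓ σ ζ (some b) = sTw N ℓ ζ b.1 := rfl

theorem sTw_alpha (ζ : Kbarˣ) (b : ℕ) (y : FN N) :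
    sTw N ℓ ζ b (heckeAlphaBar Kbar N ℓ y) = twist (ζ ^ b) (y : Ebar) := by
  rw [sTw_apply, coe_heckeAlphaBar]

/-- **(CONJ)**, instance form: the norm of `α(y)` along `β` is `y(q^(ℓ²)) ∏_b y(ζ^b q)`,
read after `q ↦ q^ℓ`. -/
theorem qExpand_norm_alpha' (hℓ : ℓ.Prime) (hℓN : ¬ ℓ ∣ N) (ζ : Kbarˣ)
    (hζ : IsPrimitiveRoot ζ ℓ) (y : FN N) :
    qExpand Kbar ℓ ((Algebra.norm (FN N) (heckeAlphaBar Kbar N ℓ y) : FN N) : Ebar)
      = qExpand Kbar (ℓ * ℓ) (y : Ebar) * ∏ b ∈ Finset.range ℓ, twist (ζ ^ b) (y : Ebar) := by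
  classical
  haveI := finiteDimensional_along_beta N ℓ hℓ hℓN
  obtain ⟨σ, hσ, hσα⟩ := exists_sigma N ℓ hℓ hℓN hζ
  have hs : ∀ o a, sFam N ℓ σ ζ o (algebraMap (FN N) (FN (N * ℓ)) a) = gβ N ℓ a := by
    intro o a
    cases o with
    | none => rw [sFam_none]; exact hσ a
    | some b => rw [sFam_some]; exact sTw_algebraMap N ℓ hζ b.1 a
  have hne : ∀ b : ℕ, qExpand Kbar (ℓ * ℓ) (jqModC Kbar) ≠ twist (ζ ^ b) (jqModC Kbar) := by
    intro b h
    have h2 := congrArg (fun f : Ebar => f.coeff (-1)) h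
    simp only [coeff_twist_J] at h2
    rw [coeff_Jd_neg_one (by nlinarith [hℓ.two_le])] at h2
    exact Units.ne_zero _ h2.symm
  have hinj : Function.Injective (sFam N ℓ σ ζ) := by
    intro o1 o2 h
    have h1 := DFunLike.congr_fun h (heckeAlphaBar Kbar N ℓ ⟨jqModC Kbar, J_mem_bar N⟩)
    cases o1 with
    | none =>
      cases o2 with
      | none => rfl
      | some c =>
        rw [sFam_none, sFam_some, hσα, sTw_alpha] at h1
        exact absurd h1 (hne c.1)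
    | some b =>
      cases o2 with
      | none =>
        rw [sFam_none, sFam_some, hσα, sTw_alpha] at h1
        exact absurd h1.symm (hne b.1)
      | some c =>
        rw [sFam_some, sFam_some, sTw_alpha, sTw_alpha] at h1
        exact congrArg some (Fin.ext (twist_J_injOn hζ b.2 c.2 h1))
  have hcard : Fintype.card (Option (Fin ℓ)) = Module.finrank (FN N) (FN (N * ℓ)) := by
    rw [finrank_along_beta' N ℓ hℓ hℓN, Fintype.card_option, Fintype.card_fin]
  have hnorm := norm_eq_prod_of_ringHoms (gβ N ℓ) (sFam N ℓ σ ζ) hs hinj hcard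
    (heckeAlphaBar Kbar N ℓ y)
  rw [Fintype.prod_option, sFam_none, hσα, gβ_apply] at hnorm
  rw [hnorm]
  congr 1
  rw [← Fin.prod_univ_eq_prod_range (fun b => twist (ζ ^ b) (y : Ebar)) ℓ]
  refine Finset.prod_congr rfl fun b _ => ?_
  rw [sFam_some, sTw_alpha]

/-! ### Frozen-vocabulary exports -/

/-- **(C2), frozen vocabulary**: `finrankAlong β = ℓ + 1` for `β = heckeBetaBar`, `ℓ ∤ N` prime. -/
theorem finrank_along_beta (hℓ : ℓ.Prime) (hℓN : ¬ ℓ ∣ N) :
    (letI := AlgebraicCurve.algebraAlong (heckeBetaBar (AlgebraicClosure ℚ) N ℓ)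
     Module.finrank ↥(modularFunctionFieldBar N) ↥(modularFunctionFieldBar (N * ℓ))) = ℓ + 1 :=
  finrank_along_beta' N ℓ hℓ hℓN

/-- **(CONJ), frozen vocabulary**: for `ℓ ∤ N` prime, `ζ` a primitive `ℓ`-th root of unity and
`y ∈ Fbar_N`, the norm `N'(y) := Norm_β(α y) ∈ Fbar_N` along `β = heckeBetaBar` of
`α y = heckeAlphaBar y` satisfies `N'(y)(q^ℓ) = y(q^(ℓ²)) · ∏_{b<ℓ} y(ζ^b q)`. -/
theorem qExpand_norm_alpha (hℓ : ℓ.Prime) (hℓN : ¬ ℓ ∣ N) (ζ : (AlgebraicClosure ℚ)ˣ)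
    (hζ : IsPrimitiveRoot ζ ℓ) (y : ↥(modularFunctionFieldBar N)) :
    qExpand (AlgebraicClosure ℚ) ℓ
        ((letI := AlgebraicCurve.algebraAlong (heckeBetaBar (AlgebraicClosure ℚ) N ℓ)
          Algebra.norm ↥(modularFunctionFieldBar N) (heckeAlphaBar (AlgebraicClosure ℚ) N ℓ y) :
            ↥(modularFunctionFieldBar N)) : LaurentSeries (AlgebraicClosure ℚ))
      = qExpand (AlgebraicClosure ℚ) (ℓ * ℓ) (y : LaurentSeries (AlgebraicClosure ℚ))
        * ∏ b ∈ Finset.range ℓ,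
            Fermat.Agent.S28.H20.twist (ζ ^ b) (y : LaurentSeries (AlgebraicClosure ℚ)) :=
  qExpand_norm_alpha' N ℓ hℓ hℓN ζ hζ y

end Concrete

end

end Fermat.Agent.S37.H16
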