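/-
S37, node (CONJ) (helper16), addendum: the root of unity is chosen once and for all, so that
consumers of `qExpand_norm_alpha` (for instance an `(ES-val)` statement taking
`ζ ^ ℓ = 1` and the norm identity as hypotheses) need no root-of-unity bookkeeping.
-/
import Mathlib
import Fermat.Agent.S37.Conj_helper16

set_option autoImplicit false

namespace Fermat.Agent.S37.H16

open ModularCurve

/-- `AlgebraicClosure ℚ` contains a primitive `ℓ`-th root of unity (as a unit). -/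
theorem exists_primitiveRoot_units (ℓ : ℕ) [NeZero ℓ] :
    ∃ ζ : (AlgebraicClosure ℚ)ˣ, IsPrimitiveRoot ζ ℓ := by
  obtain ⟨ζ, hζ⟩ := HasEnoughRootsOfUnity.exists_primitiveRoot (AlgebraicClosure ℚ) ℓ
  exact ⟨(hζ.isUnit (NeZero.ne ℓ)).unit, IsPrimitiveRoot.coe_units_iff.mp (by simpa using hζ)⟩

/-- **(CONJ)** with the root of unity supplied: there is `ζ` with `ζ ^ ℓ = 1` (primitive) such
that for every `y ∈ Fbar_N` the norm `Norm_β (α y)` satisfies
`(Norm_β (α y))(q^ℓ) = y(q^(ℓ²)) · ∏_{b<ℓ} y(ζ^b q)`. -/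
theorem exists_zeta_qExpand_norm_alpha (N ℓ : ℕ) [NeZero N] [NeZero ℓ] (hℓ : ℓ.Prime)
    (hℓN : ¬ ℓ ∣ N) :
    ∃ ζ : (AlgebraicClosure ℚ)ˣ, ζ ^ ℓ = 1 ∧ IsPrimitiveRoot ζ ℓ ∧
      ∀ y : ↥(modularFunctionFieldBar N),
        qExpand (AlgebraicClosure ℚ) ℓ
            ((letI := AlgebraicCurve.algebraAlong (heckeBetaBar (AlgebraicClosure ℚ) N ℓ)
              Algebra.norm ↥(modularFunctionFieldBar N)
                (heckeAlphaBar (AlgebraicClosure ℚ) N ℓ y) :
                ↥(modularFunctionFieldBar N)) : LaurentSeries (AlgebraicClosure ℚ))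
          = qExpand (AlgebraicClosure ℚ) (ℓ * ℓ) (y : LaurentSeries (AlgebraicClosure ℚ))
            * ∏ b ∈ Finset.range ℓ,
                Fermat.Agent.S28.H20.twist (ζ ^ b) (y : LaurentSeries (AlgebraicClosure ℚ)) := by
  obtain ⟨ζ, hζ⟩ := exists_primitiveRoot_units ℓ
  exact ⟨ζ, hζ.pow_eq_one, hζ, fun y => qExpand_norm_alpha N ℓ hℓ hℓN ζ hζ y⟩

end Fermat.Agent.S37.H16
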