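import Mathlib
import Fermat.Agent.S18.IntQ_helper58
import Fermat.Agent.S18.GaussFull_helper93
import Fermat.Agent.S18.Desc_helper61
import Fermat.Agent.S18.DvrK0_helper86
import Fermat.Agent.S28.Gauss_helper36

/-!
# S37, node (SAT-A): the chart rings over the frozen valuation ring (helper58)

`A` is a valuation subring of `Qbar = AlgebraicClosure ℚ` lying over a prime `ℓ ∤ N`, and
`F = modularFunctionFieldBar N = Qbar(X₀(N)) ⊆ Qbar((q))`.

* `chartHom A N x : A[X] →+* F` (`X ↦ x`), `chartRing A N x : Subring F` = the elements of `F`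
  integral over `A[x]`.  The two charts are `x = jBar N` and `x = (jBar N)⁻¹`.
* (B1) `exists_series_of_mem_chartRing`: an element of a chart ring has an `A`-integral
  `q`-expansion (from the landed INT-Q node).
* (B2) = (SAT-A) `sat_chartRing`: an element of a chart ring whose `q`-expansion reduces to `0`
  is a non-unit constant of `A` times an element of the chart ring.
* (B3) Galois stability of the chart rings under the decomposition group of `A`.
-/

set_option autoImplicit false

noncomputable section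

open HahnSeries ModularCurve Polynomial
open Fermat.Agent.S18 Fermat.Agent.S28

namespace Fermat.Agent.S37.H58

local notation "Qb" => AlgebraicClosure ℚ

/-! ### Chart rings -/

section Defs

variable (A : ValuationSubring Qb) (N : ℕ)

/-- The constants of `A` inside `Qbar(X₀(N))`. -/
def constHom : A →+* ↥(modularFunctionFieldBar N) :=
  (algebraMap Qb ↥(modularFunctionFieldBar N)).comp A.subtype

theorem constHom_apply (a : A) :
    constHom A N a = algebraMap Qb ↥(modularFunctionFieldBar N) (a : Qb) := rfl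

theorem coe_constHom (a : A) :
    ((constHom A N a : ↥(modularFunctionFieldBar N)) : LaurentSeries Qb) =
      HahnSeries.C (a : Qb) := by
  rw [H93.C_eq_algebraMap]
  rfl

/-- The chart homomorphism `A[X] → Qbar(X₀(N))`, `X ↦ x`. -/
def chartHom (x : ↥(modularFunctionFieldBar N)) : A[X] →+* ↥(modularFunctionFieldBar N) :=
  Polynomial.eval₂RingHom (constHom A N) x

theorem chartHom_C (x : ↥(modularFunctionFieldBar N)) (a : A) :
    chartHom A N x (C a) = constHom A N a := by
  simp [chartHom]

theorem chartHom_X (x : ↥(modularFunctionFieldBar N)) : chartHom A N x X = x := by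
  simp [chartHom]

/-- The chart ring: the elements of `Qbar(X₀(N))` integral over `A[x]`. -/
def chartRing (x : ↥(modularFunctionFieldBar N)) : Subring ↥(modularFunctionFieldBar N) where
  carrier := {y | (chartHom A N x).IsIntegralElem y}
  mul_mem' := fun hx hy => RingHom.IsIntegralElem.mul _ hx hy
  one_mem' := RingHom.isIntegralElem_one _
  add_mem' := fun hx hy => RingHom.IsIntegralElem.add _ hx hy
  zero_mem' := RingHom.isIntegralElem_zero _
  neg_mem' := fun hx => RingHom.IsIntegralElem.neg _ hx

theorem mem_chartRing_iff {x y : ↥(modularFunctionFieldBar N)} :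
    y ∈ chartRing A N x ↔ (chartHom A N x).IsIntegralElem y := Iff.rfl

theorem chartHom_mem_chartRing (x : ↥(modularFunctionFieldBar N)) (P : A[X]) :
    chartHom A N x P ∈ chartRing A N x :=
  RingHom.isIntegralElem_map _

theorem constHom_mem_chartRing (x : ↥(modularFunctionFieldBar N)) (a : A) :
    constHom A N a ∈ chartRing A N x := by
  rw [← chartHom_C A N x a]
  exact chartHom_mem_chartRing A N x _

theorem self_mem_chartRing (x : ↥(modularFunctionFieldBar N)) : x ∈ chartRing A N x := by
  have h := chartHom_mem_chartRing A N x X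
  rwa [chartHom_X] at h

/-- The expansion of `P(x)` when `x` has the `A`-integral expansion `xA`. -/
theorem coe_chartHom (x : ↥(modularFunctionFieldBar N)) (xA : LaurentSeries A)
    (hx : coeffMap A.subtype xA = (x : LaurentSeries Qb)) (P : A[X]) :
    ((chartHom A N x P : ↥(modularFunctionFieldBar N)) : LaurentSeries Qb) =
      coeffMap A.subtype (H93.evC P xA) := by
  have h1 : ((chartHom A N x P : ↥(modularFunctionFieldBar N)) : LaurentSeries Qb) =
      Polynomial.eval₂ (((modularFunctionFieldBar N).val : ↥(modularFunctionFieldBar N) →+*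
        LaurentSeries Qb).comp (constHom A N)) (x : LaurentSeries Qb) P := by
    have := Polynomial.hom_eval₂ P (constHom A N)
      ((modularFunctionFieldBar N).val : ↥(modularFunctionFieldBar N) →+* LaurentSeries Qb) x
    exact this
  rw [h1, H93.coeffMap_evC, ← hx]
  unfold H93.evC
  rw [Polynomial.eval₂_map]
  congr 1
  ext a : 1
  show ((constHom A N a : ↥(modularFunctionFieldBar N)) : LaurentSeries Qb) = _
  rw [coe_constHom]
  rfl

end Defs

/-! ### (B1) chart elements have integral expansions -/

section B1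

variable {A : ValuationSubring Qb} {N : ℕ}

/-- **(B1)** An element of a chart ring (chart coordinate with an `A`-integral expansion) has an
`A`-integral `q`-expansion. -/
theorem exists_series_of_mem_chartRing {ℓ : ℕ} (hℓ : ℓ.Prime) (hA : A.LiesOverPrime ℓ)
    (x : ↥(modularFunctionFieldBar N)) (xA : LaurentSeries A)
    (hx : coeffMap A.subtype xA = (x : LaurentSeries Qb))
    {y : ↥(modularFunctionFieldBar N)} (hy : y ∈ chartRing A N x) :
    ∃ Y : LaurentSeries A, coeffMap A.subtype Y = (y : LaurentSeries Qb) := by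
  obtain ⟨p, hp, hroot⟩ := hy
  set φ : ↥(modularFunctionFieldBar N) →+* LaurentSeries Qb :=
    ((modularFunctionFieldBar N).val : ↥(modularFunctionFieldBar N) →+* LaurentSeries Qb) with hφ
  refine H58.exists_laurent_of_monic hℓ hA N (y : LaurentSeries Qb) y.2
    (p.map (φ.comp (chartHom A N x))) (hp.map _) ?_ ?_
  · intro i
    rw [Polynomial.coeff_map]
    exact ⟨H93.evC (p.coeff i) xA, (coe_chartHom A N x xA hx (p.coeff i)).symm⟩
  · rw [Polynomial.eval_map]
    have h := Polynomial.hom_eval₂ p (chartHom A N x) φ y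
    rw [hroot, map_zero] at h
    exact h.symm

end B1

/-! ### (B3) Galois stability -/

section B3

variable (A : ValuationSubring Qb) (N : ℕ)

/-- The restriction to `A` of an element of the decomposition group. -/
def decompHom (g : A.decompositionSubgroup ℚ) : A →+* A :=
  MulSemiringAction.toRingHom (A.decompositionSubgroup ℚ) A g

theorem coe_decompHom (g : A.decompositionSubgroup ℚ) (a : A) :
    ((decompHom A g a : A) : Qb) = (g : Qb ≃ₐ[ℚ] Qb) (a : Qb) := rfl

/-- The induced map on the residue field. -/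
def decompResHom (g : A.decompositionSubgroup ℚ) :
    IsLocalRing.ResidueField A →+* IsLocalRing.ResidueField A :=
  MulSemiringAction.toRingHom (A.decompositionSubgroup ℚ) (IsLocalRing.ResidueField A) g

theorem decompResHom_apply (g : A.decompositionSubgroup ℚ) (z : IsLocalRing.ResidueField A) :
    decompResHom A g z = g • z := rfl

theorem decompResHom_residue (g : A.decompositionSubgroup ℚ) (a : A) :
    decompResHom A g (IsLocalRing.residue A a) = IsLocalRing.residue A (decompHom A g a) := rfl

theorem residue_comp_decompHom (g : A.decompositionSubgroup ℚ) :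
    (IsLocalRing.residue A).comp (decompHom A g) =
      (decompResHom A g).comp (IsLocalRing.residue A) := rfl

/-- Expansions: the Galois action on an `A`-integral series. -/
theorem coeffMap_subtype_decompHom (g : A.decompositionSubgroup ℚ) (Y : LaurentSeries A) :
    coeffMap A.subtype (coeffMap (decompHom A g) Y) =
      coeffMap (((g : Qb ≃ₐ[ℚ] Qb)) : Qb →+* Qb) (coeffMap A.subtype Y) := by
  rw [coeffMap_coeffMap, coeffMap_coeffMap]
  rfl

/-- Reductions: the Galois action commutes with the coefficientwise reduction. -/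
theorem coeffMap_residue_decompHom (g : A.decompositionSubgroup ℚ) (Y : LaurentSeries A) :
    coeffMap (IsLocalRing.residue A) (coeffMap (decompHom A g) Y) =
      coeffMap (decompResHom A g) (coeffMap (IsLocalRing.residue A) Y) := by
  rw [coeffMap_coeffMap, coeffMap_coeffMap, residue_comp_decompHom]

theorem arithmeticRingAut_comp_chartHom (g : A.decompositionSubgroup ℚ)
    (x : ↥(modularFunctionFieldBar N))
    (hx : arithmeticRingAut (modularFunctionFieldFull N) (g : Qb ≃ₐ[ℚ] Qb) x = x) :
    ((arithmeticRingAut (modularFunctionFieldFull N) (g : Qb ≃ₐ[ℚ] Qb) :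
        ↥(modularFunctionFieldBar N) ≃+* ↥(modularFunctionFieldBar N)) :
        ↥(modularFunctionFieldBar N) →+* ↥(modularFunctionFieldBar N)).comp (chartHom A N x) =
      (chartHom A N x).comp (Polynomial.mapRingHom (decompHom A g)) := by
  refine Polynomial.ringHom_ext (fun a => ?_) ?_
  · simp only [RingHom.comp_apply, RingHom.coe_coe, Polynomial.coe_mapRingHom, Polynomial.map_C,
      chartHom_C]
    rw [constHom_apply, constHom_apply, arithmeticRingAut_algebraMap]
    rfl
  · simp only [RingHom.comp_apply, RingHom.coe_coe, Polynomial.coe_mapRingHom, Polynomial.map_X,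
      chartHom_X]
    exact hx

/-- **(B3)** The chart ring is stable under the decomposition group of `A` (chart coordinate
fixed by the group element). -/
theorem arithmeticRingAut_mem_chartRing (g : A.decompositionSubgroup ℚ)
    (x : ↥(modularFunctionFieldBar N))
    (hx : arithmeticRingAut (modularFunctionFieldFull N) (g : Qb ≃ₐ[ℚ] Qb) x = x)
    {y : ↥(modularFunctionFieldBar N)} (hy : y ∈ chartRing A N x) :
    arithmeticRingAut (modularFunctionFieldFull N) (g : Qb ≃ₐ[ℚ] Qb) y ∈ chartRing A N x := by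
  obtain ⟨p, hp, hroot⟩ := hy
  refine ⟨p.map (Polynomial.mapRingHom (decompHom A g)), hp.map _, ?_⟩
  rw [Polynomial.eval₂_map, ← arithmeticRingAut_comp_chartHom A N g x hx]
  have h := Polynomial.hom_eval₂ p (chartHom A N x)
    ((arithmeticRingAut (modularFunctionFieldFull N) (g : Qb ≃ₐ[ℚ] Qb) :
        ↥(modularFunctionFieldBar N) ≃+* ↥(modularFunctionFieldBar N)) :
        ↥(modularFunctionFieldBar N) →+* ↥(modularFunctionFieldBar N)) y
  rw [hroot, map_zero] at h
  exact h.symm

end B3

/-! ### (B2) = (SAT-A): saturation of the chart rings -/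

section SatCore

/-! The statement over a discrete valuation ring (a restatement of the landed Gauss chart). -/

variable {L : Type*} [Field L] [CharZero L] {N : ℕ} [NeZero N] {A : ValuationSubring L}
  {ℓ : ℕ} [Fact ℓ.Prime] [CharP (IsLocalRing.ResidueField A) ℓ] [IsDiscreteValuationRing A]

/-- Dividing an integral element by a power of the uniformiser inside the Gauss ring keeps it
integral. -/
theorem isIntegralElem_of_pow_mul (hℓN : ¬ ℓ ∣ N) {pi : A} (hpi : Irreducible pi)
    (x : ↥(modularFunctionFieldFullC L N)) (xA : LaurentSeries A)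
    (hxA : (x : LaurentSeries L) = H93.iotaA A xA)
    (hxtr : Transcendental (IsLocalRing.ResidueField A) (H93.redA A xA))
    (hJx : H93.jFullC L N ∈ IntermediateField.adjoin L {x}) (n : ℕ) :
    ∀ z w : ↥(modularFunctionFieldFullC L N), (H93.chartHom A x).IsIntegralElem z →
      w ∈ H93.gaussWFull L N A ℓ hℓN →
      z = H93.constHom A (modularFunctionFieldFullC L N) (pi ^ n) * w →
      (H93.chartHom A x).IsIntegralElem w := by
  induction n with
  | zero =>
    intro z w hz _ hzw
    rw [pow_zero, map_one, one_mul] at hzw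
    exact hzw ▸ hz
  | succ n ih =>
    intro z w hz hw hzw
    have hw' : H93.constHom A (modularFunctionFieldFullC L N) (pi ^ n) * w ∈
        H93.gaussWFull L N A ℓ hℓN :=
      mul_mem (H93.constHom_mem_gaussW (H93.fullData L N A ℓ hℓN) (pi ^ n)) hw
    have hz' : z = H93.constHom A (modularFunctionFieldFullC L N) pi *
        (H93.constHom A (modularFunctionFieldFullC L N) (pi ^ n) * w) := by
      rw [hzw, pow_succ, map_mul]
      ring
    have h1 := (H93.gauss_chart_full L N A ℓ hℓN hpi x xA hxA hxtr hJx z hz).2 _ hw' hz'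
    exact ih _ w h1 hw rfl

/-- **Saturation over a discrete valuation ring.**  An element integral over `A[x]` whose
expansion reduces to `0` is a non-unit constant times an element integral over `A[x]`. -/
theorem sat_dvr (hℓN : ¬ ℓ ∣ N)
    (x : ↥(modularFunctionFieldFullC L N)) (xA : LaurentSeries A)
    (hxA : (x : LaurentSeries L) = H93.iotaA A xA)
    (hxtr : Transcendental (IsLocalRing.ResidueField A) (H93.redA A xA))
    (hJx : H93.jFullC L N ∈ IntermediateField.adjoin L {x})
    (y : ↥(modularFunctionFieldFullC L N)) (hy : (H93.chartHom A x).IsIntegralElem y)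
    (Y : LaurentSeries A) (hY : H93.iotaA A Y = (y : LaurentSeries L))
    (hred : H93.redA A Y = 0) :
    ∃ a : A, a ∈ IsLocalRing.maximalIdeal A ∧ ∃ w : ↥(modularFunctionFieldFullC L N),
      (H93.chartHom A x).IsIntegralElem w ∧
        y = H93.constHom A (modularFunctionFieldFullC L N) a * w := by
  have hYmem : H93.iotaA A Y ∈ modularFunctionFieldFullC L N := hY ▸ y.2
  obtain ⟨a, Y', ha, hYY'⟩ := H93.exists_dvd_of_red_eq_zero_full L N A ℓ hℓN Y hYmem hred
  have ham : a ∈ IsLocalRing.maximalIdeal A := (IsLocalRing.residue_eq_zero_iff a).mp ha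
  by_cases ha0 : a = 0
  · refine ⟨0, Ideal.zero_mem _, 0, RingHom.isIntegralElem_zero _, ?_⟩
    rw [map_zero, zero_mul]
    apply Subtype.ext
    rw [← hY, hYY', ha0, map_zero, zero_mul, map_zero]
    rfl
  · have hcoe : (y : LaurentSeries L) = HahnSeries.C (a : L) * H93.iotaA A Y' := by
      rw [← hY, hYY', map_mul, H93.coeffMap_C]
      rfl
    have haL : (a : L) ≠ 0 := fun h => ha0 (Subtype.ext h)
    have hCne : (HahnSeries.C (a : L) : LaurentSeries L) ≠ 0 := by
      intro h
      apply haL
      have := congrArg (fun z : LaurentSeries L => z.coeff 0) h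
      simpa using this
    have hCmem : (HahnSeries.C (a : L) : LaurentSeries L) ∈ modularFunctionFieldFullC L N := by
      rw [H93.C_eq_algebraMap]
      exact (modularFunctionFieldFullC L N).algebraMap_mem _
    have hY'mem : H93.iotaA A Y' ∈ modularFunctionFieldFullC L N := by
      have h1 : H93.iotaA A Y' = (HahnSeries.C (a : L))⁻¹ * (y : LaurentSeries L) := by
        rw [hcoe, ← mul_assoc, inv_mul_cancel₀ hCne, one_mul]
      rw [h1]
      exact mul_mem (inv_mem hCmem) y.2
    set w : ↥(modularFunctionFieldFullC L N) := ⟨H93.iotaA A Y', hY'mem⟩ with hw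
    have hwW : w ∈ H93.gaussWFull L N A ℓ hℓN := H93.iota_mem_gaussWFull L N A ℓ hℓN Y' hY'mem
    have hyw : y = H93.constHom A (modularFunctionFieldFullC L N) a * w := by
      apply Subtype.ext
      show (y : LaurentSeries L) =
        ((H93.constHom A (modularFunctionFieldFullC L N) a :
          ↥(modularFunctionFieldFullC L N)) : LaurentSeries L) * H93.iotaA A Y'
      rw [hcoe, H93.coe_constHom, H93.coeffMap_C]
      rfl
    obtain ⟨pi, hpi⟩ := IsDiscreteValuationRing.exists_irreducible A
    obtain ⟨n, u, hu⟩ := IsDiscreteValuationRing.eq_unit_mul_pow_irreducible ha0 hpi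
    refine ⟨a, ham, w, ?_, hyw⟩
    have hz : (H93.chartHom A x).IsIntegralElem
        (H93.constHom A (modularFunctionFieldFullC L N) ((u⁻¹ : Aˣ) : A) * y) := by
      refine RingHom.IsIntegralElem.mul _ ?_ hy
      rw [← H93.chartHom_C x]
      exact RingHom.isIntegralElem_map _
    refine isIntegralElem_of_pow_mul hℓN hpi x xA hxA hxtr hJx n _ w hz hwW ?_
    rw [hyw, ← mul_assoc, ← map_mul, hu, ← mul_assoc, Units.inv_mul, one_mul]

end SatCore

section Descent

set_option synthInstance.maxHeartbeats 400000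

variable (A : ValuationSubring Qb) (N : ℕ)

/-- The comparison map from the model over a subfield `K0 ⊆ Qbar`. -/
def modelHom (K0 : IntermediateField ℚ Qb) :
    ↥(modularFunctionFieldFullC K0 N) →+* ↥(modularFunctionFieldBar N) where
  toFun y := ⟨coeffMap (algebraMap K0 Qb) (y : LaurentSeries K0),
    H61.DefOver.mem_bar (K0 := K0) (N := N) ⟨(y : LaurentSeries K0), y.2, rfl⟩⟩
  map_one' := Subtype.ext (map_one _)
  map_mul' _ _ := Subtype.ext (map_mul _ _ _)
  map_zero' := Subtype.ext (map_zero _)
  map_add' _ _ := Subtype.ext (map_add _ _ _)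

theorem coe_modelHom (K0 : IntermediateField ℚ Qb) (y : ↥(modularFunctionFieldFullC K0 N)) :
    ((modelHom N K0 y : ↥(modularFunctionFieldBar N)) : LaurentSeries Qb) =
      coeffMap (algebraMap K0 Qb) (y : LaurentSeries K0) := rfl

theorem modelHom_constHom (K0 : IntermediateField ℚ Qb) (a : H86.A0 A K0) :
    modelHom N K0 (H93.constHom (H86.A0 A K0) (modularFunctionFieldFullC K0 N) a) =
      constHom A N (H86.incl A K0 a) := by
  apply Subtype.ext
  rw [coe_modelHom, H93.coe_constHom, coe_constHom, H93.coeffMap_C, H93.coeffMap_C]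
  rfl

theorem modelHom_comp_chartHom (K0 : IntermediateField ℚ Qb)
    (x0 : ↥(modularFunctionFieldFullC K0 N)) (x : ↥(modularFunctionFieldBar N))
    (hx : modelHom N K0 x0 = x) :
    (modelHom N K0).comp (H93.chartHom (H86.A0 A K0) x0) =
      (chartHom A N x).comp (Polynomial.mapRingHom (H86.incl A K0)) := by
  refine Polynomial.ringHom_ext (fun a => ?_) ?_
  · simp only [RingHom.comp_apply, Polynomial.coe_mapRingHom, Polynomial.map_C, chartHom_C,
      H93.chartHom_C]
    exact modelHom_constHom A N K0 a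
  · simp only [RingHom.comp_apply, Polynomial.coe_mapRingHom, Polynomial.map_X, chartHom_X,
      H93.chartHom_X]
    exact hx

variable [NeZero N]

/-- A chart coordinate which, over every subfield `K0 ⊆ Qbar`, comes from a coordinate of the
`K0`-model with an integral expansion, transcendental reduction, and generating `K0(j)`. -/
def IsGoodCoord (x : ↥(modularFunctionFieldBar N)) : Prop :=
  ∀ K0 : IntermediateField ℚ Qb, ∃ (x0 : ↥(modularFunctionFieldFullC K0 N))
    (xA0 : LaurentSeries (H86.A0 A K0)),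
    modelHom N K0 x0 = x ∧ (x0 : LaurentSeries K0) = H93.iotaA (H86.A0 A K0) xA0 ∧
    Transcendental (IsLocalRing.ResidueField (H86.A0 A K0)) (H93.redA (H86.A0 A K0) xA0) ∧
    H93.jFullC K0 N ∈ IntermediateField.adjoin K0 {x0}

variable {A N}

/-- **(B2) = (SAT-A), general chart coordinate.** -/
theorem sat_chartRing_of_isGoodCoord {ℓ : ℕ} [Fact ℓ.Prime] (hℓN : ¬ ℓ ∣ N)
    (hA : A.LiesOverPrime ℓ) {x : ↥(modularFunctionFieldBar N)} (hx : IsGoodCoord A N x)
    {y : ↥(modularFunctionFieldBar N)} (hy : y ∈ chartRing A N x) (Y : LaurentSeries A)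
    (hY : coeffMap A.subtype Y = (y : LaurentSeries Qb))
    (hred : coeffMap (IsLocalRing.residue A) Y = 0) :
    ∃ a : A, a ∈ IsLocalRing.maximalIdeal A ∧
      ∃ y' ∈ chartRing A N x, y = constHom A N a * y' := by
  classical
  have hℓ : ℓ.Prime := Fact.out
  obtain ⟨p, hp, hroot⟩ := hy
  obtain ⟨K0, hfin, hC, hdef⟩ := H61.exists_defOver_finset N {(y : LaurentSeries Qb)}
    (by
      intro z hz
      rw [Finset.mem_singleton.mp hz]
      exact y.2)
    (p.coeffs.biUnion (fun c => c.coeffs.image (fun a : A => (a : Qb))))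
  have := hfin
  have := H86.isDiscreteValuationRing_A0 A K0 hℓ hA
  have := H86.charP_residueField_A0 A K0 hℓ hA
  obtain ⟨y0s, hy0mem, hy0⟩ := hdef _ (Finset.mem_singleton_self _)
  set y0 : ↥(modularFunctionFieldFullC K0 N) := ⟨y0s, hy0mem⟩ with hy0def
  have hy0' : modelHom N K0 y0 = y := Subtype.ext hy0
  obtain ⟨x0, xA0, hx0, hxA0, hxtr, hJx⟩ := hx K0
  have hlift : p ∈ Polynomial.lifts (Polynomial.mapRingHom (H86.incl A K0)) := by
    rw [Polynomial.lifts_iff_coeff_lifts]
    intro n
    have h2 : p.coeff n ∈ Polynomial.lifts (H86.incl A K0) := by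
      rw [Polynomial.lifts_iff_coeff_lifts]
      intro m
      by_cases hnm : (p.coeff n).coeff m = 0
      · exact ⟨0, by rw [map_zero, hnm]⟩
      · have hn : p.coeff n ≠ 0 := by
          rintro h
          apply hnm
          rw [h, Polynomial.coeff_zero]
        have hmemK : (((p.coeff n).coeff m : A) : Qb) ∈ K0 := by
          apply hC
          rw [Finset.mem_biUnion]
          exact ⟨p.coeff n, Polynomial.coeff_mem_coeffs hn,
            Finset.mem_image.mpr ⟨_, Polynomial.coeff_mem_coeffs hnm, rfl⟩⟩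
        obtain ⟨z, hz⟩ := H86.exists_incl_eq A K0 hmemK
        exact ⟨z, hz⟩
    obtain ⟨q, hq⟩ := (Polynomial.mem_lifts _).mp h2
    exact ⟨q, hq⟩
  obtain ⟨p0, hp0, -, hp0m⟩ := Polynomial.lifts_and_degree_eq_and_monic hlift hp
  have hy0int : (H93.chartHom (H86.A0 A K0) x0).IsIntegralElem y0 := by
    refine ⟨p0, hp0m, ?_⟩
    apply (modelHom N K0).injective
    rw [map_zero, Polynomial.hom_eval₂, modelHom_comp_chartHom A N K0 x0 x hx0,
      ← Polynomial.eval₂_map, hp0, hy0', hroot]
  obtain ⟨Y0, hY0, hY0'⟩ := H86.exists_coeffMap_subtype_eq A K0 Y (y0 : LaurentSeries K0)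
    (hy0.trans hY.symm)
  have hred0 : H93.redA (H86.A0 A K0) Y0 = 0 :=
    (H86.coeffMap_residue_incl_eq_zero_iff A K0 Y0).mp (by rw [hY0', hred])
  obtain ⟨a0, ha0, w0, hw0, hyw0⟩ :=
    sat_dvr hℓN x0 xA0 hxA0 hxtr hJx y0 hy0int Y0 hY0 hred0
  refine ⟨H86.incl A K0 a0, (H86.incl_mem_maximalIdeal_iff A K0 a0).mpr ha0,
    modelHom N K0 w0, ?_, ?_⟩
  · obtain ⟨q0, hq0, hroot0⟩ := hw0
    refine ⟨q0.map (Polynomial.mapRingHom (H86.incl A K0)), hq0.map _, ?_⟩
    rw [Polynomial.eval₂_map, ← modelHom_comp_chartHom A N K0 x0 x hx0, ← Polynomial.hom_eval₂,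
      hroot0, map_zero]
  · rw [← hy0', hyw0, map_mul, modelHom_constHom]

end Descent

/-! ### The two charts `x = j` and `x = 1/j` -/

section Charts

set_option synthInstance.maxHeartbeats 400000

variable (A : ValuationSubring Qb) (N : ℕ)

/-- `j` as an element of `Qbar(X₀(N))`. -/
def jBar : ↥(modularFunctionFieldBar N) :=
  ⟨jqModC Qb, by
    rw [H61.modularFunctionFieldBar_eq_fullC]
    exact jqModC_mem_full Qb N⟩

theorem coe_jBar : ((jBar N : ↥(modularFunctionFieldBar N)) : LaurentSeries Qb) = jqModC Qb := rfl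

/-- The `A`-integral expansion of `j`. -/
theorem coeffMap_subtype_jqModC : coeffMap A.subtype (jqModC A) = (jBar N : LaurentSeries Qb) :=
  coeffMap_jqModC _

/-- The `A`-integral expansion of `1/j`. -/
theorem coeffMap_subtype_jInv :
    coeffMap A.subtype (H36.jInv A) = (((jBar N)⁻¹ : ↥(modularFunctionFieldBar N)) :
      LaurentSeries Qb) := by
  rw [H36.coeffMap_jInv, H36.jInv_eq_inv]
  rfl

theorem modelHom_jFullC (K0 : IntermediateField ℚ Qb) :
    modelHom N K0 (H93.jFullC K0 N) = jBar N :=
  Subtype.ext (coeffMap_jqModC _)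

theorem isGoodCoord_jBar : IsGoodCoord A N (jBar N) := by
  intro K0
  refine ⟨H93.jFullC K0 N, jqModC (H86.A0 A K0), modelHom_jFullC N K0,
    (coeffMap_jqModC _).symm, ?_, IntermediateField.mem_adjoin_simple_self _ _⟩
  show Transcendental _ (coeffMap _ (jqModC (H86.A0 A K0)))
  rw [coeffMap_jqModC]
  exact H36.transcendental_jqModC _

theorem isGoodCoord_jBar_inv : IsGoodCoord A N (jBar N)⁻¹ := by
  intro K0
  refine ⟨(H93.jFullC K0 N)⁻¹, H36.jInv (H86.A0 A K0), ?_, ?_, ?_, ?_⟩
  · rw [map_inv₀, modelHom_jFullC]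
  · show (((H93.jFullC K0 N)⁻¹ : ↥(modularFunctionFieldFullC K0 N)) : LaurentSeries K0) =
      coeffMap _ (H36.jInv (H86.A0 A K0))
    rw [H36.coeffMap_jInv, H36.jInv_eq_inv]
    rfl
  · show Transcendental _ (coeffMap _ (H36.jInv (H86.A0 A K0)))
    rw [H36.coeffMap_jInv, H36.jInv_eq_inv]
    intro h
    exact H36.transcendental_jqModC _ (by simpa using h.inv)
  · have h := inv_mem (IntermediateField.mem_adjoin_simple_self K0 (H93.jFullC K0 N)⁻¹)
    rwa [inv_inv] at h

variable {A N}

/-- **(B1), chart `j`.** -/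
theorem exists_series_of_mem_chartRing_j {ℓ : ℕ} (hℓ : ℓ.Prime) (hA : A.LiesOverPrime ℓ)
    {y : ↥(modularFunctionFieldBar N)} (hy : y ∈ chartRing A N (jBar N)) :
    ∃ Y : LaurentSeries A, coeffMap A.subtype Y = (y : LaurentSeries Qb) :=
  exists_series_of_mem_chartRing hℓ hA (jBar N) (jqModC A) (coeffMap_subtype_jqModC A N) hy

/-- **(B1), chart `1/j`.** -/
theorem exists_series_of_mem_chartRing_jInv {ℓ : ℕ} (hℓ : ℓ.Prime) (hA : A.LiesOverPrime ℓ)
    {y : ↥(modularFunctionFieldBar N)} (hy : y ∈ chartRing A N (jBar N)⁻¹) :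
    ∃ Y : LaurentSeries A, coeffMap A.subtype Y = (y : LaurentSeries Qb) :=
  exists_series_of_mem_chartRing hℓ hA (jBar N)⁻¹ (H36.jInv A) (coeffMap_subtype_jInv A N) hy

variable [NeZero N]

/-- **(SAT-A), chart `j`.**  An element of `B` (integral over `A[j]`) whose `q`-expansion reduces
to `0` lies in `𝔪_A · B`. -/
theorem sat_chartRing_j {ℓ : ℕ} [Fact ℓ.Prime] (hℓN : ¬ ℓ ∣ N) (hA : A.LiesOverPrime ℓ)
    {y : ↥(modularFunctionFieldBar N)} (hy : y ∈ chartRing A N (jBar N)) (Y : LaurentSeries A)
    (hY : coeffMap A.subtype Y = (y : LaurentSeries Qb))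
    (hred : coeffMap (IsLocalRing.residue A) Y = 0) :
    ∃ a : A, a ∈ IsLocalRing.maximalIdeal A ∧
      ∃ y' ∈ chartRing A N (jBar N), y = constHom A N a * y' :=
  sat_chartRing_of_isGoodCoord hℓN hA (isGoodCoord_jBar A N) hy Y hY hred

/-- **(SAT-A), chart `1/j`.**  An element of `B∞` (integral over `A[1/j]`) whose `q`-expansion
reduces to `0` lies in `𝔪_A · B∞`. -/
theorem sat_chartRing_jInv {ℓ : ℕ} [Fact ℓ.Prime] (hℓN : ¬ ℓ ∣ N) (hA : A.LiesOverPrime ℓ)
    {y : ↥(modularFunctionFieldBar N)} (hy : y ∈ chartRing A N (jBar N)⁻¹) (Y : LaurentSeries A)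
    (hY : coeffMap A.subtype Y = (y : LaurentSeries Qb))
    (hred : coeffMap (IsLocalRing.residue A) Y = 0) :
    ∃ a : A, a ∈ IsLocalRing.maximalIdeal A ∧
      ∃ y' ∈ chartRing A N (jBar N)⁻¹, y = constHom A N a * y' :=
  sat_chartRing_of_isGoodCoord hℓN hA (isGoodCoord_jBar_inv A N) hy Y hY hred

/-- **(SAT-A), ratio form** (general good coordinate with an `A`-integral expansion): if
`y = P/Q` with `A`-integral series `P, Q`, `red Q ≠ 0`, `red P = 0`, then `y ∈ 𝔪_A · B`. -/
theorem sat_chartRing_of_ratio {ℓ : ℕ} [Fact ℓ.Prime] (hℓN : ¬ ℓ ∣ N) (hA : A.LiesOverPrime ℓ)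
    {x : ↥(modularFunctionFieldBar N)} (hx : IsGoodCoord A N x) (xA : LaurentSeries A)
    (hxA : coeffMap A.subtype xA = (x : LaurentSeries Qb))
    {y : ↥(modularFunctionFieldBar N)} (hy : y ∈ chartRing A N x) (P Q : LaurentSeries A)
    (hPQ : (y : LaurentSeries Qb) * coeffMap A.subtype Q = coeffMap A.subtype P)
    (hQ : coeffMap (IsLocalRing.residue A) Q ≠ 0)
    (hP : coeffMap (IsLocalRing.residue A) P = 0) :
    ∃ a : A, a ∈ IsLocalRing.maximalIdeal A ∧
      ∃ y' ∈ chartRing A N x, y = constHom A N a * y' := by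
  have hℓ : ℓ.Prime := Fact.out
  obtain ⟨Y, hY⟩ := exists_series_of_mem_chartRing hℓ hA x xA hxA hy
  refine sat_chartRing_of_isGoodCoord hℓN hA hx hy Y hY ?_
  have h1 : Y * Q = P := by
    apply H58.coeffMap_subtype_inj (A := A)
    rw [map_mul, hY, hPQ]
  have h2 : coeffMap (IsLocalRing.residue A) Y * coeffMap (IsLocalRing.residue A) Q = 0 := by
    rw [← map_mul, h1, hP]
  exact (mul_eq_zero.mp h2).resolve_right hQ

end Charts

/-! ### Inertia and Frobenius on the chart rings -/

section Galois

set_option synthInstance.maxHeartbeats 400000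

variable (A : ValuationSubring Qb) (N : ℕ)

theorem arithmeticRingAut_jBar (σ : Qb ≃ₐ[ℚ] Qb) :
    arithmeticRingAut (modularFunctionFieldFull N) σ (jBar N) = jBar N :=
  Subtype.ext (coeffMap_jqModC _)

theorem arithmeticRingAut_jBar_inv (σ : Qb ≃ₐ[ℚ] Qb) :
    arithmeticRingAut (modularFunctionFieldFull N) σ (jBar N)⁻¹ = (jBar N)⁻¹ := by
  rw [map_inv₀, arithmeticRingAut_jBar]

variable {A N}

/-- The expansion of a Galois conjugate. -/
theorem coe_arithmeticRingAut_of_series (g : A.decompositionSubgroup ℚ)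
    {y : ↥(modularFunctionFieldBar N)} (Y : LaurentSeries A)
    (hY : coeffMap A.subtype Y = (y : LaurentSeries Qb)) :
    coeffMap A.subtype (coeffMap (decompHom A g) Y) =
      ((arithmeticRingAut (modularFunctionFieldFull N) (g : Qb ≃ₐ[ℚ] Qb) y :
        ↥(modularFunctionFieldBar N)) : LaurentSeries Qb) := by
  rw [coeffMap_subtype_decompHom, hY]
  rfl

variable [NeZero N]

/-- **Inertia acts trivially modulo `𝔪_A`** on a chart ring: for `σ` in the inertia group of `A`
and `y` in the chart ring, `σ y - y ∈ 𝔪_A · B`. -/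
theorem inertia_sub_mem {ℓ : ℕ} [Fact ℓ.Prime] (hℓN : ¬ ℓ ∣ N) (hA : A.LiesOverPrime ℓ)
    {x : ↥(modularFunctionFieldBar N)} (hx : IsGoodCoord A N x) (xA : LaurentSeries A)
    (hxA : coeffMap A.subtype xA = (x : LaurentSeries Qb))
    (σ : Qb ≃ₐ[ℚ] Qb) (hσ : σ ∈ A.inertiaSubgroupIn ℚ)
    (hσx : arithmeticRingAut (modularFunctionFieldFull N) σ x = x)
    {y : ↥(modularFunctionFieldBar N)} (hy : y ∈ chartRing A N x) :
    ∃ a : A, a ∈ IsLocalRing.maximalIdeal A ∧ ∃ y' ∈ chartRing A N x,
      arithmeticRingAut (modularFunctionFieldFull N) σ y - y = constHom A N a * y' := by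
  have hℓ : ℓ.Prime := Fact.out
  obtain ⟨g, hg, rfl⟩ := hσ
  obtain ⟨Y, hY⟩ := exists_series_of_mem_chartRing hℓ hA x xA hxA hy
  have hσy := arithmeticRingAut_mem_chartRing A N g x hσx hy
  refine sat_chartRing_of_isGoodCoord hℓN hA hx ((chartRing A N x).sub_mem hσy hy)
    (coeffMap (decompHom A g) Y - Y) ?_ ?_
  · rw [map_sub, coe_arithmeticRingAut_of_series g Y hY, hY]
    rfl
  · rw [map_sub, coeffMap_residue_decompHom, sub_eq_zero]
    have hg' : MulSemiringAction.toRingAut (A.decompositionSubgroup ℚ)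
        (IsLocalRing.ResidueField A) g = 1 := hg
    have hid : decompResHom A g = RingHom.id _ := by
      ext z
      have := congrArg (fun e : RingAut (IsLocalRing.ResidueField A) => e z) hg'
      exact this
    rw [hid, coeffMap_id]

/-- **Frobenius on expansions**: for a Frobenius element `σ` at `A`, the reduction of the
expansion of `σ y` is the coefficientwise `ℓ`-th power of the reduction of the expansion of `y`. -/
theorem frobenius_red {ℓ : ℕ} (σ : Qb ≃ₐ[ℚ] Qb) (hσ : A.IsFrobeniusAt σ ℓ) (Y : LaurentSeries A)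
    (n : ℤ) :
    (coeffMap (IsLocalRing.residue A)
      (coeffMap (decompHom A ⟨σ, hσ.mem_decompositionSubgroup⟩) Y)).coeff n =
      ((coeffMap (IsLocalRing.residue A) Y).coeff n) ^ ℓ := by
  rw [coeffMap_residue_decompHom, coeffMap_coeff, decompResHom_apply]
  exact hσ.smul_residue_eq _

end Galois

end Fermat.Agent.S37.H58
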