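import Mathlib
import Fermat.Agent.S37.SatA_helper58
import Fermat.Agent.S28.Frobenius_helper55

/-!
# S37: the function side of the congruence relation on a chart ring (helper58)

`A` a valuation subring of `Qbar` over `ℓ ∤ N`, `σ` a Frobenius element at `A`, `B = chartRing A N x`
a chart ring (good coordinate `x`, fixed by `σ`).

* `frobenius_red_eq`, `frobenius_inv_red_pow`: the reductions of the expansions of `σ y` and of
  `(σ⁻¹ y) ^ ℓ`;
* `es_congr`: if `z ∈ B` has an expansion whose reduction is `ȳ(q^ℓ) * Frob(ȳ)` (the output of the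
  Kronecker congruence for `z = Norm_β(α y)`), then `z - (σ⁻¹ y) ^ ℓ * σ y ∈ 𝔪_A · B`.
-/

set_option autoImplicit false

noncomputable section

open HahnSeries ModularCurve Polynomial
open Fermat.Agent.S18 Fermat.Agent.S28

namespace Fermat.Agent.S37.H58

local notation "Qb" => AlgebraicClosure ℚ

section ESRed

variable {A : ValuationSubring Qb} {ℓ : ℕ} [Fact ℓ.Prime] [CharP (IsLocalRing.ResidueField A) ℓ]

/-- The reduction of the expansion of `σ y`, `σ` a Frobenius element: coefficientwise Frobenius. -/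
theorem frobenius_red_eq (σ : Qb ≃ₐ[ℚ] Qb) (hσ : A.IsFrobeniusAt σ ℓ) (Y : LaurentSeries A) :
    coeffMap (IsLocalRing.residue A)
        (coeffMap (decompHom A ⟨σ, hσ.mem_decompositionSubgroup⟩) Y) =
      coeffMap (frobenius (IsLocalRing.ResidueField A) ℓ) (coeffMap (IsLocalRing.residue A) Y) := by
  ext n
  rw [frobenius_red σ hσ Y n, coeffMap_coeff (frobenius (IsLocalRing.ResidueField A) ℓ),
    frobenius_def]

theorem coeffMap_decompHom_inv (g : A.decompositionSubgroup ℚ) (Y : LaurentSeries A) :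
    coeffMap (decompHom A g) (coeffMap (decompHom A g⁻¹) Y) = Y := by
  rw [coeffMap_coeffMap]
  have h : (decompHom A g).comp (decompHom A g⁻¹) = RingHom.id A := by
    ext a
    show (((g • (g⁻¹ • a) : A)) : Qb) = (a : Qb)
    rw [smul_inv_smul]
  rw [h, coeffMap_id]

/-- The reduction of the expansion of `(σ⁻¹ y) ^ ℓ` is `ȳ(q^ℓ)`. -/
theorem frobenius_inv_red_pow [NeZero ℓ] (σ : Qb ≃ₐ[ℚ] Qb) (hσ : A.IsFrobeniusAt σ ℓ)
    (Y : LaurentSeries A) :
    (coeffMap (IsLocalRing.residue A)
        (coeffMap (decompHom A (⟨σ, hσ.mem_decompositionSubgroup⟩ :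
          A.decompositionSubgroup ℚ)⁻¹) Y)) ^ ℓ =
      qExpand (IsLocalRing.ResidueField A) ℓ (coeffMap (IsLocalRing.residue A) Y) := by
  rw [H55.pow_char_eq_qExpand_coeffMap_frobenius ℓ, ← frobenius_red_eq σ hσ,
    coeffMap_decompHom_inv]

variable {N : ℕ} [NeZero N]

/-- **Function side of the congruence relation.**  `σ` a Frobenius element at `A`, `y, z` in the
chart ring of a good coordinate `x` fixed by `σ` and `σ⁻¹`; if the reduction of the expansion of
`z` is `ȳ(q^ℓ) * Frob(ȳ)`, then `z - (σ⁻¹ y) ^ ℓ * σ y ∈ 𝔪_A · B`. -/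
theorem es_congr [NeZero ℓ] (hℓN : ¬ ℓ ∣ N) (hA : A.LiesOverPrime ℓ)
    {x : ↥(modularFunctionFieldBar N)} (hx : IsGoodCoord A N x)
    (σ : Qb ≃ₐ[ℚ] Qb) (hσ : A.IsFrobeniusAt σ ℓ)
    (hσx : arithmeticRingAut (modularFunctionFieldFull N) σ x = x)
    (hσx' : arithmeticRingAut (modularFunctionFieldFull N) σ⁻¹ x = x)
    {y z : ↥(modularFunctionFieldBar N)} (hy : y ∈ chartRing A N x) (hz : z ∈ chartRing A N x)
    (Y G : LaurentSeries A) (hY : coeffMap A.subtype Y = (y : LaurentSeries Qb))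
    (hG : coeffMap A.subtype G = (z : LaurentSeries Qb))
    (hred : coeffMap (IsLocalRing.residue A) G =
      qExpand (IsLocalRing.ResidueField A) ℓ (coeffMap (IsLocalRing.residue A) Y) *
        coeffMap (frobenius (IsLocalRing.ResidueField A) ℓ) (coeffMap (IsLocalRing.residue A) Y)) :
    ∃ a : A, a ∈ IsLocalRing.maximalIdeal A ∧ ∃ e ∈ chartRing A N x,
      z - (arithmeticRingAut (modularFunctionFieldFull N) σ⁻¹ y) ^ ℓ *
        arithmeticRingAut (modularFunctionFieldFull N) σ y = constHom A N a * e := by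
  set g : A.decompositionSubgroup ℚ := ⟨σ, hσ.mem_decompositionSubgroup⟩ with hg
  have h1 : arithmeticRingAut (modularFunctionFieldFull N) σ y ∈ chartRing A N x :=
    arithmeticRingAut_mem_chartRing A N g x hσx hy
  have h2 : arithmeticRingAut (modularFunctionFieldFull N) σ⁻¹ y ∈ chartRing A N x :=
    arithmeticRingAut_mem_chartRing A N g⁻¹ x hσx' hy
  have hmem : z - (arithmeticRingAut (modularFunctionFieldFull N) σ⁻¹ y) ^ ℓ *
      arithmeticRingAut (modularFunctionFieldFull N) σ y ∈ chartRing A N x :=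
    (chartRing A N x).sub_mem hz ((chartRing A N x).mul_mem ((chartRing A N x).pow_mem h2 ℓ) h1)
  refine sat_chartRing_of_isGoodCoord hℓN hA hx hmem
    (G - (coeffMap (decompHom A g⁻¹) Y) ^ ℓ * coeffMap (decompHom A g) Y) ?_ ?_
  · rw [map_sub, map_mul, map_pow, hG, coe_arithmeticRingAut_of_series g Y hY,
      coe_arithmeticRingAut_of_series g⁻¹ Y hY]
    rfl
  · rw [map_sub, map_mul, map_pow, hred, frobenius_inv_red_pow σ hσ Y, frobenius_red_eq σ hσ Y,
      sub_self]

end ESRed

end Fermat.Agent.S37.H58
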