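import Mathlib
import Fermat.Prelude.Def_ModularCurve_ArithmeticGalois
import Fermat.Prelude.Def_FLTPrelim_Ramification
import Fermat.Prelude.Def_EllipticCurve_FrobeniusTrace

/-!
# S37 node (GAL): the Galois side of the residue characters (helper34)

`EvalAt P y c` : the function `y` is regular at the place `P` with value `c`.
-/

set_option autoImplicit false

open ModularCurve AlgebraicCurve
open scoped Pointwise

namespace Fermat.Agent.S37.H34

noncomputable section

section Generic

variable {K F : Type*} [Field K] [Field F] [Algebra K F]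

/-- `y` is regular at `P` with value `c`. -/
def EvalAt (P : Place K F) (y : F) (c : K) : Prop :=
  y - algebraMap K F c ∈ P.toValuationSubring.nonunits

theorem evalAt_iff (P : Place K F) (y : F) (c : K) :
    EvalAt P y c ↔ y - algebraMap K F c ∈ P.toValuationSubring.nonunits := Iff.rfl

theorem EvalAt.mem {P : Place K F} {y : F} {c : K} (h : EvalAt P y c) :
    y ∈ P.toValuationSubring := by
  have h1 : y - algebraMap K F c ∈ P.toValuationSubring :=
    ValuationSubring.nonunits_subset h
  have h2 := add_mem h1 (P.algebraMap_mem' c)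
  rwa [sub_add_cancel] at h2

theorem algebraMap_mem_nonunits_iff (P : Place K F) (c : K) :
    algebraMap K F c ∈ P.toValuationSubring.nonunits ↔ c = 0 := by
  constructor
  · intro h
    by_contra hc
    rcases (ValuationSubring.mem_nonunits_iff_or _).mp h with h0 | h0
    · exact hc ((map_eq_zero _).mp h0)
    · apply h0
      rw [← map_inv₀]
      exact P.algebraMap_mem' _
  · rintro rfl
    rw [map_zero]
    exact zero_mem _

theorem EvalAt.unique {P : Place K F} {y : F} {c c' : K} (h : EvalAt P y c)
    (h' : EvalAt P y c') : c = c' := by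
  have h1 := sub_mem h' h
  have h2 : y - algebraMap K F c' - (y - algebraMap K F c) = algebraMap K F (c - c') := by
    rw [map_sub]; ring
  rw [h2, algebraMap_mem_nonunits_iff] at h1
  exact sub_eq_zero.mp h1

theorem evalAt_algebraMap (P : Place K F) (c : K) : EvalAt P (algebraMap K F c) c := by
  unfold EvalAt
  rw [sub_self]
  exact zero_mem _

theorem evalAt_zero (P : Place K F) : EvalAt P (0 : F) (0 : K) := by
  simpa using evalAt_algebraMap P (0 : K)

theorem evalAt_one (P : Place K F) : EvalAt P (1 : F) (1 : K) := by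
  simpa using evalAt_algebraMap P (1 : K)

theorem EvalAt.add {P : Place K F} {y y' : F} {c c' : K} (h : EvalAt P y c)
    (h' : EvalAt P y' c') : EvalAt P (y + y') (c + c') := by
  unfold EvalAt at *
  have := add_mem h h'
  rw [map_add]
  convert this using 1
  ring

theorem EvalAt.neg {P : Place K F} {y : F} {c : K} (h : EvalAt P y c) :
    EvalAt P (-y) (-c) := by
  unfold EvalAt at *
  have := neg_mem h
  rw [map_neg]
  convert this using 1
  ring

theorem EvalAt.sub {P : Place K F} {y y' : F} {c c' : K} (h : EvalAt P y c)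
    (h' : EvalAt P y' c') : EvalAt P (y - y') (c - c') := by
  rw [sub_eq_add_neg, sub_eq_add_neg]
  exact h.add h'.neg

theorem mul_mem_nonunits {V : ValuationSubring F} {a b : F} (ha : a ∈ V)
    (hb : b ∈ V.nonunits) : a * b ∈ V.nonunits := by
  rw [ValuationSubring.mem_nonunits_iff] at hb ⊢
  rw [map_mul]
  have h1 : V.valuation a ≤ 1 := (V.valuation_le_one_iff a).mpr ha
  calc V.valuation a * V.valuation b ≤ 1 * V.valuation b := mul_le_mul_left h1 _
    _ = V.valuation b := one_mul _
    _ < 1 := hb

theorem EvalAt.mul {P : Place K F} {y y' : F} {c c' : K} (h : EvalAt P y c)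
    (h' : EvalAt P y' c') : EvalAt P (y * y') (c * c') := by
  have hy := h.mem
  unfold EvalAt at *
  have h1 := mul_mem_nonunits hy h'
  have h2 := mul_mem_nonunits (P.algebraMap_mem' c') h
  have := add_mem h1 h2
  rw [map_mul]
  convert this using 1
  ring

theorem EvalAt.pow {P : Place K F} {y : F} {c : K} (h : EvalAt P y c) (n : ℕ) :
    EvalAt P (y ^ n) (c ^ n) := by
  induction n with
  | zero => simpa using evalAt_one P
  | succ n ih => rw [pow_succ, pow_succ]; exact ih.mul h

theorem EvalAt.sum {ι : Type*} {P : Place K F} (s : Finset ι) {y : ι → F} {c : ι → K}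
    (h : ∀ i ∈ s, EvalAt P (y i) (c i)) : EvalAt P (∑ i ∈ s, y i) (∑ i ∈ s, c i) := by
  classical
  induction s using Finset.induction_on with
  | empty => simpa using evalAt_zero P
  | insert a s ha ih =>
    rw [Finset.sum_insert ha, Finset.sum_insert ha]
    exact (h a (Finset.mem_insert_self a s)).add
      (ih fun i hi => h i (Finset.mem_insert_of_mem hi))

/-- a function with nonzero value is a unit at `P` and the inverse has the inverse value. -/
theorem EvalAt.inv {P : Place K F} {y : F} {c : K} (h : EvalAt P y c) (hc : c ≠ 0) :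
    EvalAt P y⁻¹ c⁻¹ := by
  have hy := h.mem
  have hy0 : y ≠ 0 := by
    rintro rfl
    have := h.unique (evalAt_zero P)
    exact hc this
  have hyinv : y⁻¹ ∈ P.toValuationSubring := by
    by_contra hcon
    have h1 : y ∈ P.toValuationSubring.nonunits :=
      (ValuationSubring.mem_nonunits_iff_or _).mpr (Or.inr hcon)
    have h2 := sub_mem h1 h
    rw [sub_sub_cancel, algebraMap_mem_nonunits_iff] at h2
    exact hc h2
  unfold EvalAt at *
  have h1 := mul_mem_nonunits (mul_mem hyinv (P.algebraMap_mem' c⁻¹)) h
  have h2 := neg_mem h1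
  convert h2 using 1
  rw [map_inv₀]
  have hc' : algebraMap K F c ≠ 0 := (map_ne_zero _).mpr hc
  field_simp
  ring

/-- at a place of degree one every regular function has a value. -/
theorem exists_evalAt (P : Place K F) (hP : P.deg = 1) {y : F}
    (hy : y ∈ P.toValuationSubring) : ∃ c : K, EvalAt P y c := by
  have hspan := (finrank_eq_one_iff_of_nonzero' (K := K) (1 : P.ResidueField) one_ne_zero).mp hP
  obtain ⟨c, hc⟩ := hspan (IsLocalRing.residue P.toValuationSubring ⟨y, hy⟩)
  refine ⟨c, ?_⟩
  have humem : (⟨y, hy⟩ - algebraMap K P.toValuationSubring c : P.toValuationSubring) ∈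
      IsLocalRing.maximalIdeal P.toValuationSubring := by
    rw [← IsLocalRing.residue_eq_zero_iff, map_sub, sub_eq_zero, ← hc, Algebra.smul_def, mul_one,
      IsScalarTower.algebraMap_apply K P.toValuationSubring P.ResidueField c,
      IsLocalRing.ResidueField.algebraMap_eq]
  exact ValuationSubring.coe_mem_nonunits_iff.mpr humem

/-- evaluation of polynomial expressions. -/
theorem EvalAt.eval₂ {R : Type*} [CommSemiring R] {P : Place K F} (φ : R →+* F) (ψ : R →+* K)
    (hφ : ∀ r, EvalAt P (φ r) (ψ r)) (q : Polynomial R) {y : F} {c : K} (h : EvalAt P y c) :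
    EvalAt P (q.eval₂ φ y) (q.eval₂ ψ c) := by
  rw [Polynomial.eval₂_eq_sum_range, Polynomial.eval₂_eq_sum_range]
  exact EvalAt.sum _ fun i _ => (hφ _).mul (h.pow i)

/-! ### `B`-finite places and their residue characters -/

/-- `P` is `B`-finite with respect to `A`: every function of `B` is regular at `P` with value
in `A`. -/
def IsFin (A : ValuationSubring K) (B : Subring F) (P : Place K F) : Prop :=
  ∀ y ∈ B, ∃ c ∈ A, EvalAt P y c

section Char

variable {A : ValuationSubring K} {B : Subring F} {P : Place K F}

/-- the value of `y ∈ B` at a `B`-finite place, as an element of `A`. -/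
def valOf (h : IsFin A B P) (y : B) : A :=
  ⟨(h y y.2).choose, (h y y.2).choose_spec.1⟩

theorem evalAt_valOf (h : IsFin A B P) (y : B) : EvalAt P (y : F) (valOf h y : K) :=
  (h y y.2).choose_spec.2

theorem valOf_eq_of_evalAt (h : IsFin A B P) (y : B) {c : K} (hc : EvalAt P (y : F) c) :
    (valOf h y : K) = c :=
  (evalAt_valOf h y).unique hc

/-- the value homomorphism `B → A` of a `B`-finite place. -/
def valHom (h : IsFin A B P) : B →+* A where
  toFun := valOf h
  map_one' := Subtype.ext (valOf_eq_of_evalAt h 1 (evalAt_one P))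
  map_zero' := Subtype.ext (valOf_eq_of_evalAt h 0 (evalAt_zero P))
  map_add' y y' := Subtype.ext
    (valOf_eq_of_evalAt h (y + y') ((evalAt_valOf h y).add (evalAt_valOf h y')))
  map_mul' y y' := Subtype.ext
    (valOf_eq_of_evalAt h (y * y') ((evalAt_valOf h y).mul (evalAt_valOf h y')))

theorem evalAt_valHom (h : IsFin A B P) (y : B) : EvalAt P (y : F) (valHom h y : K) :=
  evalAt_valOf h y

theorem valHom_eq_of_evalAt (h : IsFin A B P) (y : B) {c : K} (hc : EvalAt P (y : F) c) :
    (valHom h y : K) = c :=
  valOf_eq_of_evalAt h y hc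

/-- **the residue character** `χ_P : B → A / m` of a `B`-finite place. -/
def charOf (h : IsFin A B P) : B →+* IsLocalRing.ResidueField A :=
  (IsLocalRing.residue A).comp (valHom h)

theorem charOf_apply (h : IsFin A B P) (y : B) :
    charOf h y = IsLocalRing.residue A (valHom h y) := rfl

theorem charOf_eq_of_evalAt (h : IsFin A B P) (y : B) {c : K} (hc : EvalAt P (y : F) c)
    (hcA : c ∈ A) : charOf h y = IsLocalRing.residue A ⟨c, hcA⟩ := by
  rw [charOf_apply]
  congr 1
  exact Subtype.ext (valHom_eq_of_evalAt h y hc)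

/-- the residue character is a character of `A`-algebras. -/
theorem charOf_algebraMap (h : IsFin A B P) (a : A) (ha : algebraMap K F (a : K) ∈ B) :
    charOf h ⟨algebraMap K F (a : K), ha⟩ = IsLocalRing.residue A a :=
  charOf_eq_of_evalAt h _ (evalAt_algebraMap P (a : K)) a.2

theorem residue_eq_residue_iff (a b : A) :
    IsLocalRing.residue A a = IsLocalRing.residue A b ↔ (a : K) - (b : K) ∈ A.nonunits := by
  rw [← sub_eq_zero, ← map_sub, IsLocalRing.residue_eq_zero_iff,
    ← ValuationSubring.coe_mem_nonunits_iff]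
  rfl

/-- equality of residue characters in relational form. -/
theorem charOf_eq_iff {P' : Place K F} (h : IsFin A B P) (h' : IsFin A B P') :
    charOf h = charOf h' ↔
      ∀ y ∈ B, ∀ c c' : K, EvalAt P y c → EvalAt P' y c' → c - c' ∈ A.nonunits := by
  constructor
  · intro heq y hy c c' hc hc'
    have h1 := congrArg (fun χ : B →+* IsLocalRing.ResidueField A => χ ⟨y, hy⟩) heq
    simp only [charOf_apply] at h1
    rw [residue_eq_residue_iff] at h1
    rwa [valHom_eq_of_evalAt h ⟨y, hy⟩ hc, valHom_eq_of_evalAt h' ⟨y, hy⟩ hc'] at h1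
  · intro hrel
    ext y
    rw [charOf_apply, charOf_apply, residue_eq_residue_iff]
    exact hrel y y.2 _ _ (evalAt_valHom h y) (evalAt_valHom h' y)

end Char

/-! ### (G1): transport of values by semilinear automorphisms -/

theorem smul_mem_nonunits (g : SemilinearAut K F) {V : ValuationSubring F} {x : F}
    (hx : x ∈ V.nonunits) : g • x ∈ (g • V).nonunits := by
  rw [ValuationSubring.mem_nonunits_iff_or] at hx ⊢
  rcases hx with rfl | hx
  · left; exact smul_zero g
  · right
    intro hcon
    apply hx
    rw [← smul_inv''] at hcon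
    exact ValuationSubring.smul_mem_pointwise_smul_iff.mp hcon

/-- **(G1)** `(g y)(g P) = g (y(P))`. -/
theorem EvalAt.smul (g : SemilinearAut K F) {P : Place K F} {y : F} {c : K}
    (h : EvalAt P y c) : EvalAt (g • P) (g • y) (SemilinearAut.baseAut g c) := by
  unfold EvalAt at *
  have h1 := smul_mem_nonunits g h
  rw [smul_sub, SemilinearAut.smul_algebraMap] at h1
  exact h1

theorem EvalAt.of_inv_smul (g : SemilinearAut K F) {P : Place K F} {y : F} {c : K}
    (h : EvalAt P (g⁻¹ • y) c) : EvalAt (g • P) y (SemilinearAut.baseAut g c) := by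
  have := h.smul g
  rwa [smul_inv_smul] at this

/-- a semilinear automorphism whose base automorphism preserves `A` and which preserves `B`
preserves `B`-finiteness. -/
theorem IsFin.smul (g : SemilinearAut K F) {A : ValuationSubring K} {B : Subring F}
    {P : Place K F} (h : IsFin A B P)
    (hgA : ∀ a ∈ A, SemilinearAut.baseAut g a ∈ A) (hgB : ∀ y ∈ B, g⁻¹ • y ∈ B) :
    IsFin A B (g • P) := by
  intro y hy
  obtain ⟨d, hd, hev⟩ := h _ (hgB y hy)
  exact ⟨_, hgA d hd, hev.of_inv_smul g⟩

/-- **(G3), abstract form**: if `g⁻¹` acts trivially on `B / m B` and the base automorphism acts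
trivially on `A / m`, then `g P` and `P` have the same residue character. -/
theorem evalAt_smul_congr (g : SemilinearAut K F) {A : ValuationSubring K} {B : Subring F}
    {P : Place K F} (h : IsFin A B P)
    (hgA : ∀ a ∈ A, SemilinearAut.baseAut g a - a ∈ A.nonunits)
    (hgB : ∀ y ∈ B, g⁻¹ • y ∈ B)
    (htriv : ∀ y ∈ B, ∃ a ∈ A.nonunits, ∃ y' ∈ B, g⁻¹ • y - y = algebraMap K F a * y')
    {y : F} (hy : y ∈ B) {c c' : K} (hc : EvalAt P y c) (hc' : EvalAt (g • P) y c') :
    c' - c ∈ A.nonunits := by
  obtain ⟨d, hd, hev⟩ := h _ (hgB y hy)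
  have e1 : c' = SemilinearAut.baseAut g d := hc'.unique (hev.of_inv_smul g)
  obtain ⟨a, ha, y', hy', hyy'⟩ := htriv y hy
  obtain ⟨e, he, hev'⟩ := h y' hy'
  have e2 : d - c = a * e := by
    have h1 : EvalAt P (g⁻¹ • y - y) (d - c) := hev.sub hc
    rw [hyy'] at h1
    exact h1.unique ((evalAt_algebraMap P a).mul hev')
  have h3 : d - c ∈ A.nonunits := by
    rw [e2, mul_comm]
    exact mul_mem_nonunits he ha
  have h4 := add_mem (hgA d hd) h3
  rw [e1]
  convert h4 using 1
  ring

end Generic

end

end Fermat.Agent.S37.H34
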