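/-
S37 (shadow work, helper17): the Kronecker congruence (KRON) for Laurent series.

For a ring `A` with a reduction `res : A →+* k` to a ring of prime characteristic `l` and a
unit `ζ` of `A` with `res ζ = 1` (e.g. an `l`-th root of unity when `k` is reduced):

* (K1) twisting `q ↦ ζ ^ i q` is invisible after reduction;
* (K2) `∏_{i<l} Y(ζ^i q)` reduces to `Ȳ ^ l = (Frob Ȳ)(q^l)`;
* (K3) `∏_{i<l} (X - Y(ζ^i q))` reduces to `X ^ l - (Frob Ȳ)(q^l)`;
* (K4) if `g(q^l) = Y(q^(l^2)) * ∏_{i<l} Y(ζ^i q)` over an overring `K ⊇ A`, then `g` has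
  coefficients in `A` and reduces to `Ȳ(q^l) * Frob Ȳ`.

Everything is generic; `twist` is `Fermat.Agent.S28.H20.twist`.
-/
import Mathlib
import Fermat.Prelude.Def_ModularCurve_X0
import Fermat.Prelude.Def_ModularCurve_LaurentCoeff
import Fermat.Prelude.Thm_ModularCurve_coeffMap_qExpand
import Fermat.Agent.S28.Twist_helper20
import Fermat.Agent.S28.Frobenius_helper55

set_option autoImplicit false

noncomputable section

namespace Fermat.Agent.S37.H17

open ModularCurve Polynomial
open Fermat.Agent.S28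

/-! ### Generalities -/

section General

variable {A K : Type*} [CommRing A] [CommRing K]

/-- `coeffMap` along an injective ring hom is injective. -/
theorem coeffMap_injective_of_injective (ι : A →+* K) (hι : Function.Injective ι) :
    Function.Injective (coeffMap ι) := by
  intro x y h
  ext n
  apply hι
  have := congrArg (fun z : LaurentSeries K => z.coeff n) h
  simpa using this

/-- **Descent along `q ↦ q ^ l`**: if `g(q^l)` has coefficients in `A`, so has `g`. -/
theorem exists_coeffMap_eq_of_qExpand (ι : A →+* K) (hι : Function.Injective ι)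
    (l : ℕ) [NeZero l] (g : LaurentSeries K) (Z : LaurentSeries A)
    (h : qExpand K l g = coeffMap ι Z) :
    ∃ G : LaurentSeries A, coeffMap ι G = g ∧ qExpand A l G = Z := by
  have hcoeff : ∀ n : ℤ, g.coeff n = ι (Z.coeff ((l : ℤ) * n)) := by
    intro n
    have := congrArg (fun z : LaurentSeries K => z.coeff ((l : ℤ) * n)) h
    simpa using this
  have hsupp : (Function.support fun n : ℤ => Z.coeff ((l : ℤ) * n)) ⊆ g.support := by
    intro n hn
    simp only [Function.mem_support, ne_eq] at hn
    simp only [HahnSeries.mem_support, ne_eq, hcoeff n]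
    intro h0
    exact hn (hι (by rw [h0, map_zero]))
  let G : LaurentSeries A :=
    { coeff := fun n => Z.coeff ((l : ℤ) * n)
      isPWO_support' := g.isPWO_support.mono hsupp }
  have hG : ∀ n, G.coeff n = Z.coeff ((l : ℤ) * n) := fun _ => rfl
  have h1 : coeffMap ι G = g := by
    ext n
    rw [coeffMap_coeff, hG, hcoeff]
  refine ⟨G, h1, ?_⟩
  apply coeffMap_injective_of_injective ι hι
  rw [coeffMap_qExpand, h1, h]

end General

/-! ### The congruence -/

section Kron

variable {A k : Type*} [CommRing A] [CommRing k]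

/-- (K0) In a reduced ring of prime characteristic `l`, an `l`-th root of unity is `1`. -/
theorem eq_one_of_pow_char_eq_one (l : ℕ) [Fact l.Prime] [CharP k l] [IsReduced k] (x : k)
    (hx : x ^ l = 1) : x = 1 := by
  have h : (x - 1) ^ l = 0 := by
    rw [sub_pow_char, hx, one_pow, sub_self]
  have := IsReduced.eq_zero (x - 1) ⟨l, h⟩
  exact sub_eq_zero.mp this

/-- a unit reducing to `1` has all its integer powers reducing to `1` -/
theorem units_map_zpow_eq_one (res : A →+* k) (ζ : Aˣ) (hζ : res ζ = 1) (n : ℤ) :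
    res ((ζ ^ n : Aˣ) : A) = 1 := by
  have h1 : Units.map (res : A →* k) ζ = 1 := by
    ext
    simpa using hζ
  have h2 : Units.map (res : A →* k) (ζ ^ n) = 1 := by
    rw [map_zpow, h1, one_zpow]
  have h3 := congrArg Units.val h2
  rwa [Units.coe_map, Units.val_one] at h3

/-- (K1) twisting by a unit which reduces to `1` is invisible after reduction. -/
theorem coeffMap_twist_of_map_eq_one (res : A →+* k) (ζ : Aˣ) (hζ : res ζ = 1)
    (Y : LaurentSeries A) : coeffMap res (H20.twist ζ Y) = coeffMap res Y := by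
  ext n
  rw [coeffMap_coeff, H20.coeff_twist, map_mul, units_map_zpow_eq_one res ζ hζ n, one_mul,
    coeffMap_coeff]

/-- (K1), powers -/
theorem coeffMap_twist_pow_of_map_eq_one (res : A →+* k) (ζ : Aˣ) (hζ : res ζ = 1) (i : ℕ)
    (Y : LaurentSeries A) : coeffMap res (H20.twist (ζ ^ i) Y) = coeffMap res Y := by
  apply coeffMap_twist_of_map_eq_one
  rw [Units.val_pow_eq_pow_val, map_pow, hζ, one_pow]

variable (l : ℕ) [Fact l.Prime] [CharP k l]

/-- (K2) **Kronecker congruence, norm form**: `∏_{i<l} Y(ζ^i q) ≡ Ȳ^l = (Frob Ȳ)(q^l)`. -/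
theorem coeffMap_prod_twist [NeZero l] (res : A →+* k) (ζ : Aˣ) (hζ : res ζ = 1)
    (Y : LaurentSeries A) :
    coeffMap res (∏ i ∈ Finset.range l, H20.twist (ζ ^ i) Y)
      = qExpand k l (coeffMap (frobenius k l) (coeffMap res Y)) := by
  rw [map_prod, ← H55.pow_char_eq_qExpand_coeffMap_frobenius l (coeffMap res Y)]
  rw [Finset.prod_congr rfl fun i _ => coeffMap_twist_pow_of_map_eq_one res ζ hζ i Y]
  rw [Finset.prod_const, Finset.card_range]

omit [Fact l.Prime] [CharP k l] in
/-- (K2'), the same with the `l`-th power on the right (any ring `k`, any `l`). -/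
theorem coeffMap_prod_twist_eq_pow (res : A →+* k) (ζ : Aˣ) (hζ : res ζ = 1)
    (Y : LaurentSeries A) :
    coeffMap res (∏ i ∈ Finset.range l, H20.twist (ζ ^ i) Y) = coeffMap res Y ^ l := by
  rw [map_prod]
  rw [Finset.prod_congr rfl fun i _ => coeffMap_twist_pow_of_map_eq_one res ζ hζ i Y]
  rw [Finset.prod_const, Finset.card_range]

/-- (K3) **Kronecker congruence, characteristic polynomial form**:
`∏_{i<l} (X - Y(ζ^i q)) ≡ X^l - (Frob Ȳ)(q^l)`. -/
theorem map_prod_X_sub_C_twist [NeZero l] (res : A →+* k) (ζ : Aˣ) (hζ : res ζ = 1)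
    (Y : LaurentSeries A) :
    (∏ i ∈ Finset.range l, (X - C (H20.twist (ζ ^ i) Y))).map (coeffMap res)
      = X ^ l - C (qExpand k l (coeffMap (frobenius k l) (coeffMap res Y))) := by
  have hC : CharP (LaurentSeries k) l :=
    charP_of_injective_ringHom (f := (HahnSeries.C : k →+* LaurentSeries k))
      HahnSeries.C_injective l
  have hP : CharP (LaurentSeries k)[X] l :=
    charP_of_injective_ringHom (f := (Polynomial.C : LaurentSeries k →+* (LaurentSeries k)[X]))
      Polynomial.C_injective l
  rw [Polynomial.map_prod]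
  have h1 : ∀ i ∈ Finset.range l,
      (X - C (H20.twist (ζ ^ i) Y)).map (coeffMap res) = X - C (coeffMap res Y) := by
    intro i _
    rw [Polynomial.map_sub, Polynomial.map_X, Polynomial.map_C,
      coeffMap_twist_pow_of_map_eq_one res ζ hζ i Y]
  rw [Finset.prod_congr rfl h1, Finset.prod_const, Finset.card_range, sub_pow_char,
    ← C_pow, H55.pow_char_eq_qExpand_coeffMap_frobenius l (coeffMap res Y)]

/-- (K4) **(KRON), consumer form.**  If `g(q^l) = Y(q^(l^2)) * ∏_{i<l} Y(ζ^i q)` over an
overring `K` of `A`, then `g` has coefficients in `A` and its reduction is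
`Ȳ(q^l) * Frob(Ȳ)`. -/
theorem kron {K : Type*} [CommRing K] [NeZero l] [NeZero (l * l)] (ι : A →+* K)
    (hι : Function.Injective ι) (res : A →+* k) (ζ : Aˣ) (hζ : res ζ = 1)
    (Y : LaurentSeries A) (g : LaurentSeries K)
    (hg : qExpand K l g = qExpand K (l * l) (coeffMap ι Y)
        * ∏ i ∈ Finset.range l, H20.twist (Units.map (ι : A →* K) ζ ^ i) (coeffMap ι Y)) :
    ∃ G : LaurentSeries A, coeffMap ι G = g ∧
      coeffMap res G
        = qExpand k l (coeffMap res Y) * coeffMap (frobenius k l) (coeffMap res Y) := by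
  have hZ : qExpand K l g
      = coeffMap ι (qExpand A (l * l) Y * ∏ i ∈ Finset.range l, H20.twist (ζ ^ i) Y) := by
    rw [hg, map_mul, coeffMap_qExpand, map_prod]
    congr 1
    refine Finset.prod_congr rfl fun i _ => ?_
    rw [H20.coeffMap_twist, map_pow]
  obtain ⟨G, hG1, hG2⟩ := exists_coeffMap_eq_of_qExpand ι hι l g _ hZ
  refine ⟨G, hG1, ?_⟩
  apply qExpand_injective (R := k) l
  rw [← coeffMap_qExpand, hG2, map_mul, coeffMap_prod_twist l res ζ hζ Y, map_mul,
    coeffMap_qExpand, qExpand_qExpand]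

end Kron

/-! ### The instance at a valuation subring -/

section ValuationSubring

variable {L : Type*} [Field L]

/-- a root of unity lies in every valuation subring -/
theorem mem_valuationSubring_of_pow_eq_one (A : ValuationSubring L) {n : ℕ} (hn : n ≠ 0) (x : L)
    (hx : x ^ n = 1) : x ∈ A := by
  rcases A.mem_or_inv_mem x with h | h
  · exact h
  · have hx0 : x ≠ 0 := by
      rintro rfl
      rw [zero_pow hn] at hx
      exact zero_ne_one hx
    have e : x = x⁻¹ ^ (n - 1) := by
      have h1 : x ^ n = x ^ (n - 1) * x := by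
        rw [← pow_succ, Nat.sub_add_cancel (Nat.pos_of_ne_zero hn)]
      rw [inv_pow]
      refine (eq_inv_of_mul_eq_one_left ?_)
      rw [mul_comm, ← h1, hx]
    rw [e]
    exact A.pow_mem h _

/-- a root of unity of `L` as a unit of a valuation subring -/
def rootUnit (A : ValuationSubring L) {n : ℕ} (hn : n ≠ 0) (ζ : Lˣ) (hζ : ζ ^ n = 1) : (↥A)ˣ where
  val := ⟨(ζ : L), mem_valuationSubring_of_pow_eq_one A hn ζ (by
    rw [← Units.val_pow_eq_pow_val, hζ, Units.val_one])⟩
  inv := ⟨((ζ⁻¹ : Lˣ) : L), mem_valuationSubring_of_pow_eq_one A hn _ (by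
    rw [← Units.val_pow_eq_pow_val, inv_pow, hζ, inv_one, Units.val_one])⟩
  val_inv := Subtype.ext (by simp)
  inv_val := Subtype.ext (by simp)

@[simp]
theorem coe_rootUnit (A : ValuationSubring L) {n : ℕ} (hn : n ≠ 0) (ζ : Lˣ) (hζ : ζ ^ n = 1) :
    (((rootUnit A hn ζ hζ : (↥A)ˣ) : ↥A) : L) = (ζ : L) := rfl

theorem map_subtype_rootUnit (A : ValuationSubring L) {n : ℕ} (hn : n ≠ 0) (ζ : Lˣ)
    (hζ : ζ ^ n = 1) :
    Units.map (A.subtype : ↥A →* L) (rootUnit A hn ζ hζ) = ζ :=
  Units.ext rfl

variable (l : ℕ) [Fact l.Prime]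

/-- an `l`-th root of unity reduces to `1` in a residue field of characteristic `l` -/
theorem residue_rootUnit (A : ValuationSubring L) [CharP (IsLocalRing.ResidueField ↥A) l]
    (ζ : Lˣ) (hζ : ζ ^ l = 1) :
    IsLocalRing.residue ↥A (rootUnit A (Fact.out : l.Prime).ne_zero ζ hζ : (↥A)ˣ) = 1 := by
  apply eq_one_of_pow_char_eq_one l
  rw [← map_pow]
  have : ((rootUnit A (Fact.out : l.Prime).ne_zero ζ hζ : (↥A)ˣ) : ↥A) ^ l = 1 := by
    apply Subtype.ext
    push_cast
    rw [coe_rootUnit, ← Units.val_pow_eq_pow_val, hζ, Units.val_one]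
  rw [this, map_one]

/-- **(KRON) at a valuation subring** `A` of a field `L` with residue characteristic `l`:
if `g(q^l) = y(q^(l^2)) * ∏_{b<l} y(ζ^b q)` for a series `y = ι Y` with coefficients in `A`
and an `l`-th root of unity `ζ` of `L`, then `g = ι G` with `G` over `A` and
`red G = (red Y)(q^l) * Frob(red Y)`. -/
theorem kron_valuationSubring (A : ValuationSubring L)
    [CharP (IsLocalRing.ResidueField ↥A) l] [NeZero l] [NeZero (l * l)]
    (ζ : Lˣ) (hζ : ζ ^ l = 1) (Y : LaurentSeries ↥A) (g : LaurentSeries L)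
    (hg : qExpand L l g = qExpand L (l * l) (coeffMap A.subtype Y)
        * ∏ b ∈ Finset.range l, H20.twist (ζ ^ b) (coeffMap A.subtype Y)) :
    ∃ G : LaurentSeries ↥A, coeffMap A.subtype G = g ∧
      coeffMap (IsLocalRing.residue ↥A) G
        = qExpand (IsLocalRing.ResidueField ↥A) l (coeffMap (IsLocalRing.residue ↥A) Y)
          * coeffMap (frobenius (IsLocalRing.ResidueField ↥A) l)
              (coeffMap (IsLocalRing.residue ↥A) Y) := by
  refine kron l A.subtype Subtype.val_injective (IsLocalRing.residue ↥A)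
    (rootUnit A (Fact.out : l.Prime).ne_zero ζ hζ) (residue_rootUnit l A ζ hζ) Y g ?_
  rw [map_subtype_rootUnit]
  exact hg

end ValuationSubring

end Fermat.Agent.S37.H17
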