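import Mathlib
import Fermat.Agent.S37.ESRed_helper58
import Fermat.Agent.S37.Conj_helper16
import Fermat.Agent.S37.Kron_helper17
import Fermat.Agent.S37.Gal_helper34

/-!
# S37: the congruence relation for the Hecke norm on a chart ring (helper58)

Fusion of `(CONJ)` (`H16.qExpand_norm_alpha`), `(KRON)` (`H17.kron_valuationSubring`) and
`(SAT-A)` (`H58.es_congr`).  `A` a valuation subring of `Qbar` over `ℓ ∤ N`, `σ` a Frobenius
element at `A`, `B = chartRing A N x` a chart ring, `N'(y) = Norm_β(α y)` (`heckeNorm`).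

* `exists_series_heckeNorm`: `N'(y)` has an `A`-integral expansion with reduction
  `ȳ(q^ℓ) * Frob(ȳ)`;
* `es_congr_norm_mul`: for `h, y ∈ B` with `h * N'(y) ∈ B`:
  `h * N'(y) - h * ((σ⁻¹ y) ^ ℓ * σ y) ∈ 𝔪_A · B`;
* `es_congr_norm`: the case `h = 1`;
* `es_val_mul`, `es_val`: the same at a `B`-finite place `P`, in terms of values
  (`H34.EvalAt`): `res (h N'(y))(P) = res h(P) * res y(σ P) * (res y(σ⁻¹ P)) ^ ℓ`;
* `charOf_heckeNorm_mul`, `charOf_heckeNorm`: the same for the residue characters `H34.charOf`.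
-/

set_option autoImplicit false

noncomputable section

open HahnSeries ModularCurve Polynomial
open Fermat.Agent.S18 Fermat.Agent.S28

namespace Fermat.Agent.S37.H58

local notation "Qb" => AlgebraicClosure ℚ

/-- `N'(y) = Norm_β(α y)`: the norm along `β = heckeBetaBar` of `α y = heckeAlphaBar y`
(literally the element of `H16.qExpand_norm_alpha`). -/
def heckeNorm (N ℓ : ℕ) [NeZero N] [NeZero ℓ] (y : ↥(modularFunctionFieldBar N)) :
    ↥(modularFunctionFieldBar N) :=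
  letI := AlgebraicCurve.algebraAlong (heckeBetaBar (AlgebraicClosure ℚ) N ℓ)
  Algebra.norm ↥(modularFunctionFieldBar N) (heckeAlphaBar (AlgebraicClosure ℚ) N ℓ y)

theorem heckeNorm_def (N ℓ : ℕ) [NeZero N] [NeZero ℓ] (y : ↥(modularFunctionFieldBar N)) :
    heckeNorm N ℓ y =
      (letI := AlgebraicCurve.algebraAlong (heckeBetaBar (AlgebraicClosure ℚ) N ℓ)
       Algebra.norm ↥(modularFunctionFieldBar N) (heckeAlphaBar (AlgebraicClosure ℚ) N ℓ y)) :=
  rfl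

section ESNorm

variable {A : ValuationSubring Qb} {ℓ : ℕ} [Fact ℓ.Prime] [CharP (IsLocalRing.ResidueField A) ℓ]
variable {N : ℕ} [NeZero N]

/-- **(CONJ) + (KRON).**  For `y` with an `A`-integral expansion `Y`, the Hecke norm `N'(y)`
has an `A`-integral expansion `G` with `red G = ȳ(q^ℓ) * Frob(ȳ)`. -/
theorem exists_series_heckeNorm [NeZero ℓ] (hℓN : ¬ ℓ ∣ N) (y : ↥(modularFunctionFieldBar N))
    (Y : LaurentSeries A) (hY : coeffMap A.subtype Y = (y : LaurentSeries Qb)) :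
    ∃ G : LaurentSeries A, coeffMap A.subtype G = (heckeNorm N ℓ y : LaurentSeries Qb) ∧
      coeffMap (IsLocalRing.residue A) G =
        qExpand (IsLocalRing.ResidueField A) ℓ (coeffMap (IsLocalRing.residue A) Y) *
          coeffMap (frobenius (IsLocalRing.ResidueField A) ℓ)
            (coeffMap (IsLocalRing.residue A) Y) := by
  have hℓ : ℓ.Prime := Fact.out
  have : NeZero (ℓ * ℓ) := ⟨mul_ne_zero hℓ.ne_zero hℓ.ne_zero⟩
  obtain ⟨ζ0, hζ0⟩ := HasEnoughRootsOfUnity.exists_primitiveRoot Qb ℓ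
  set ζ : Qbˣ := (hζ0.isUnit hℓ.ne_zero).unit with hζdef
  have hζ : IsPrimitiveRoot ζ ℓ := by
    rw [← IsPrimitiveRoot.coe_units_iff]
    exact hζ0
  refine H17.kron_valuationSubring ℓ A ζ hζ.pow_eq_one Y _ ?_
  rw [hY]
  exact H16.qExpand_norm_alpha N ℓ hℓ hℓN ζ hζ y

/-- **Congruence relation on a chart ring, with a multiplier.**  `σ` a Frobenius element at
`A`, `x` a good coordinate fixed by `σ` and `σ⁻¹`, `h, y ∈ B = chartRing A N x` with
`h * N'(y) ∈ B`.  Then `h * N'(y) - h * ((σ⁻¹ y) ^ ℓ * σ y) ∈ 𝔪_A · B`. -/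
theorem es_congr_norm_mul [NeZero ℓ] (hℓN : ¬ ℓ ∣ N) (hA : A.LiesOverPrime ℓ)
    {x : ↥(modularFunctionFieldBar N)} (hx : IsGoodCoord A N x)
    (σ : Qb ≃ₐ[ℚ] Qb) (hσ : A.IsFrobeniusAt σ ℓ)
    (hσx : arithmeticRingAut (modularFunctionFieldFull N) σ x = x)
    (hσx' : arithmeticRingAut (modularFunctionFieldFull N) σ⁻¹ x = x)
    {h y : ↥(modularFunctionFieldBar N)} (hh : h ∈ chartRing A N x) (hy : y ∈ chartRing A N x)
    (hz : h * heckeNorm N ℓ y ∈ chartRing A N x)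
    (H Y : LaurentSeries A) (hH : coeffMap A.subtype H = (h : LaurentSeries Qb))
    (hY : coeffMap A.subtype Y = (y : LaurentSeries Qb)) :
    ∃ a : A, a ∈ IsLocalRing.maximalIdeal A ∧ ∃ e ∈ chartRing A N x,
      h * heckeNorm N ℓ y - h * ((arithmeticRingAut (modularFunctionFieldFull N) σ⁻¹ y) ^ ℓ *
        arithmeticRingAut (modularFunctionFieldFull N) σ y) = constHom A N a * e := by
  obtain ⟨G, hG, hGred⟩ := exists_series_heckeNorm (A := A) (ℓ := ℓ) hℓN y Y hY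
  set g : A.decompositionSubgroup ℚ := ⟨σ, hσ.mem_decompositionSubgroup⟩ with hg
  have h1 : arithmeticRingAut (modularFunctionFieldFull N) σ y ∈ chartRing A N x :=
    arithmeticRingAut_mem_chartRing A N g x hσx hy
  have h2 : arithmeticRingAut (modularFunctionFieldFull N) σ⁻¹ y ∈ chartRing A N x :=
    arithmeticRingAut_mem_chartRing A N g⁻¹ x hσx' hy
  have hmem : h * heckeNorm N ℓ y - h * ((arithmeticRingAut (modularFunctionFieldFull N) σ⁻¹ y) ^ ℓ *
      arithmeticRingAut (modularFunctionFieldFull N) σ y) ∈ chartRing A N x :=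
    (chartRing A N x).sub_mem hz ((chartRing A N x).mul_mem hh
      ((chartRing A N x).mul_mem ((chartRing A N x).pow_mem h2 ℓ) h1))
  refine sat_chartRing_of_isGoodCoord hℓN hA hx hmem
    (H * G - H * ((coeffMap (decompHom A g⁻¹) Y) ^ ℓ * coeffMap (decompHom A g) Y)) ?_ ?_
  · rw [map_sub, map_mul, map_mul, map_mul, map_pow, hG, hH,
      coe_arithmeticRingAut_of_series g Y hY, coe_arithmeticRingAut_of_series g⁻¹ Y hY]
    rfl
  · rw [map_sub, map_mul, map_mul, map_mul, map_pow, hGred, frobenius_inv_red_pow σ hσ Y,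
      frobenius_red_eq σ hσ Y, sub_self]

/-- **Congruence relation on a chart ring** (`h = 1`): if `y ∈ B` and `N'(y) ∈ B`, then
`N'(y) - (σ⁻¹ y) ^ ℓ * σ y ∈ 𝔪_A · B`. -/
theorem es_congr_norm [NeZero ℓ] (hℓN : ¬ ℓ ∣ N) (hA : A.LiesOverPrime ℓ)
    {x : ↥(modularFunctionFieldBar N)} (hx : IsGoodCoord A N x)
    (σ : Qb ≃ₐ[ℚ] Qb) (hσ : A.IsFrobeniusAt σ ℓ)
    (hσx : arithmeticRingAut (modularFunctionFieldFull N) σ x = x)
    (hσx' : arithmeticRingAut (modularFunctionFieldFull N) σ⁻¹ x = x)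
    {y : ↥(modularFunctionFieldBar N)} (hy : y ∈ chartRing A N x)
    (hz : heckeNorm N ℓ y ∈ chartRing A N x)
    (Y : LaurentSeries A) (hY : coeffMap A.subtype Y = (y : LaurentSeries Qb)) :
    ∃ a : A, a ∈ IsLocalRing.maximalIdeal A ∧ ∃ e ∈ chartRing A N x,
      heckeNorm N ℓ y - (arithmeticRingAut (modularFunctionFieldFull N) σ⁻¹ y) ^ ℓ *
        arithmeticRingAut (modularFunctionFieldFull N) σ y = constHom A N a * e := by
  obtain ⟨G, hG, hGred⟩ := exists_series_heckeNorm (A := A) (ℓ := ℓ) hℓN y Y hY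
  exact es_congr hℓN hA hx σ hσ hσx hσx' hy hz Y G hY hG hGred

/-! ### Values at `B`-finite places -/

open AlgebraicCurve

omit [NeZero N] in
/-- `σ y = g_σ • y` for the semilinear automorphism `g_σ = arithmeticGalois _ σ`. -/
theorem arithmeticGalois_smul_eq (σ : Qb ≃ₐ[ℚ] Qb) (y : ↥(modularFunctionFieldBar N)) :
    arithmeticGalois (modularFunctionFieldFull N) σ • y =
      arithmeticRingAut (modularFunctionFieldFull N) σ y := rfl

omit [NeZero N] in
/-- Elements of the decomposition group preserve `B`-finiteness (`B` the chart ring of a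
coordinate fixed by `g⁻¹`). -/
theorem isFin_arithmeticGalois_smul (g : A.decompositionSubgroup ℚ)
    {x : ↥(modularFunctionFieldBar N)}
    (hx' : arithmeticRingAut (modularFunctionFieldFull N)
      ((g⁻¹ : A.decompositionSubgroup ℚ) : Qb ≃ₐ[ℚ] Qb) x = x)
    {P : Place Qb ↥(modularFunctionFieldBar N)} (hP : H34.IsFin A (chartRing A N x) P) :
    H34.IsFin A (chartRing A N x)
      (arithmeticGalois (modularFunctionFieldFull N) (g : Qb ≃ₐ[ℚ] Qb) • P) := by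
  refine H34.IsFin.smul _ hP ?_ ?_
  · intro a ha
    exact (decompHom A g ⟨a, ha⟩).2
  · intro y hy
    rw [← map_inv]
    exact arithmeticRingAut_mem_chartRing A N g⁻¹ x hx' hy

omit [Fact ℓ.Prime] [CharP (IsLocalRing.ResidueField A) ℓ] in
/-- The residue of `σ d` for a Frobenius element `σ` at `A` is the `ℓ`-th power of the residue
of `d`. -/
theorem residue_frobenius_apply (σ : Qb ≃ₐ[ℚ] Qb) (hσ : A.IsFrobeniusAt σ ℓ) (d : A) :
    IsLocalRing.residue A (decompHom A ⟨σ, hσ.mem_decompositionSubgroup⟩ d) =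
      IsLocalRing.residue A d ^ ℓ := by
  rw [← decompResHom_residue, decompResHom_apply]
  exact hσ.smul_residue_eq _

/-- **Congruence relation at a `B`-finite place, with a multiplier (value form).**
`σ` a Frobenius element at `A`, `B = chartRing A N x` for a good coordinate `x` fixed by `σ` and
`σ⁻¹`, `P` a `B`-finite place, `h, y ∈ B` with `h * N'(y) ∈ B`.  If `h * N'(y)`, `h` have the
values `c0`, `ch` at `P` and `y` has the values `c1` at `σ P` and `c2` at `σ⁻¹ P`, then all four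
lie in `A` and `res c0 = res ch * (res c1 * (res c2) ^ ℓ)`. -/
theorem es_val_mul [NeZero ℓ] (hℓN : ¬ ℓ ∣ N) (hA : A.LiesOverPrime ℓ)
    {x : ↥(modularFunctionFieldBar N)} (hx : IsGoodCoord A N x)
    (σ : Qb ≃ₐ[ℚ] Qb) (hσ : A.IsFrobeniusAt σ ℓ)
    (hσx : arithmeticRingAut (modularFunctionFieldFull N) σ x = x)
    (hσx' : arithmeticRingAut (modularFunctionFieldFull N) σ⁻¹ x = x)
    {P : Place Qb ↥(modularFunctionFieldBar N)} (hP : H34.IsFin A (chartRing A N x) P)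
    {h y : ↥(modularFunctionFieldBar N)} (hh : h ∈ chartRing A N x) (hy : y ∈ chartRing A N x)
    (hz : h * heckeNorm N ℓ y ∈ chartRing A N x)
    (H Y : LaurentSeries A) (hH : coeffMap A.subtype H = (h : LaurentSeries Qb))
    (hY : coeffMap A.subtype Y = (y : LaurentSeries Qb))
    {c0 ch c1 c2 : Qb} (hc0 : H34.EvalAt P (h * heckeNorm N ℓ y) c0) (hch : H34.EvalAt P h ch)
    (hc1 : H34.EvalAt (arithmeticGalois (modularFunctionFieldFull N) σ • P) y c1)
    (hc2 : H34.EvalAt (arithmeticGalois (modularFunctionFieldFull N) σ⁻¹ • P) y c2) :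
    ∃ (h0 : c0 ∈ A) (hh' : ch ∈ A) (h1 : c1 ∈ A) (h2 : c2 ∈ A),
      IsLocalRing.residue A ⟨c0, h0⟩ = IsLocalRing.residue A ⟨ch, hh'⟩ *
        (IsLocalRing.residue A ⟨c1, h1⟩ * IsLocalRing.residue A ⟨c2, h2⟩ ^ ℓ) := by
  obtain ⟨a, ha, e, he, hae⟩ :=
    es_congr_norm_mul hℓN hA hx σ hσ hσx hσx' hh hy hz H Y hH hY
  set g : A.decompositionSubgroup ℚ := ⟨σ, hσ.mem_decompositionSubgroup⟩ with hg
  have hy1 : arithmeticRingAut (modularFunctionFieldFull N) σ y ∈ chartRing A N x :=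
    arithmeticRingAut_mem_chartRing A N g x hσx hy
  have hy2 : arithmeticRingAut (modularFunctionFieldFull N) σ⁻¹ y ∈ chartRing A N x :=
    arithmeticRingAut_mem_chartRing A N g⁻¹ x hσx' hy
  -- values in `A` at `P`
  obtain ⟨c0', hc0A, hc0'⟩ := hP _ hz
  obtain rfl : c0 = c0' := hc0.unique hc0'
  obtain ⟨ch', hchA, hch'⟩ := hP _ hh
  obtain rfl : ch = ch' := hch.unique hch'
  obtain ⟨d1, hd1A, hd1⟩ := hP _ hy1
  obtain ⟨d2, hd2A, hd2⟩ := hP _ hy2
  obtain ⟨ce, hceA, hce⟩ := hP _ he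
  -- the values of `y` at `σ P`, `σ⁻¹ P`
  have e1 : c1 = σ d2 := by
    have h3 : H34.EvalAt P ((arithmeticGalois (modularFunctionFieldFull N) σ)⁻¹ • y) d2 := by
      rw [← map_inv]
      exact hd2
    exact hc1.unique (h3.of_inv_smul _)
  have e2 : c2 = σ⁻¹ d1 := by
    have h3 : H34.EvalAt P ((arithmeticGalois (modularFunctionFieldFull N) σ⁻¹)⁻¹ • y) d1 := by
      rw [← map_inv, inv_inv]
      exact hd1
    exact hc2.unique (h3.of_inv_smul _)
  have hc1A : c1 ∈ A := by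
    rw [e1]
    exact (decompHom A g ⟨d2, hd2A⟩).2
  have hc2A : c2 ∈ A := by
    rw [e2]
    exact (decompHom A g⁻¹ ⟨d1, hd1A⟩).2
  refine ⟨hc0A, hchA, hc1A, hc2A, ?_⟩
  -- the congruence in `A`
  have hval : c0 - ch * (d2 ^ ℓ * d1) = (a : Qb) * ce := by
    have h4 : H34.EvalAt P (h * heckeNorm N ℓ y -
        h * ((arithmeticRingAut (modularFunctionFieldFull N) σ⁻¹ y) ^ ℓ *
          arithmeticRingAut (modularFunctionFieldFull N) σ y)) (c0 - ch * (d2 ^ ℓ * d1)) :=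
      hc0.sub (hch.mul ((hd2.pow ℓ).mul hd1))
    rw [hae] at h4
    exact h4.unique ((H34.evalAt_algebraMap P (a : Qb)).mul hce)
  have hres : IsLocalRing.residue A ⟨c0, hc0A⟩ = IsLocalRing.residue A ⟨ch, hchA⟩ *
      (IsLocalRing.residue A ⟨d2, hd2A⟩ ^ ℓ * IsLocalRing.residue A ⟨d1, hd1A⟩) := by
    rw [← map_pow, ← map_mul, ← map_mul, ← sub_eq_zero, ← map_sub,
      IsLocalRing.residue_eq_zero_iff]
    have h5 : (⟨c0, hc0A⟩ - ⟨ch, hchA⟩ * (⟨d2, hd2A⟩ ^ ℓ * ⟨d1, hd1A⟩) : A) = a * ⟨ce, hceA⟩ :=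
      Subtype.ext hval
    rw [h5]
    exact Ideal.mul_mem_right _ _ ha
  have r1 : IsLocalRing.residue A ⟨c1, hc1A⟩ = IsLocalRing.residue A ⟨d2, hd2A⟩ ^ ℓ := by
    rw [← residue_frobenius_apply σ hσ ⟨d2, hd2A⟩]
    congr 1
    exact Subtype.ext e1
  have r2 : IsLocalRing.residue A ⟨d1, hd1A⟩ = IsLocalRing.residue A ⟨c2, hc2A⟩ ^ ℓ := by
    rw [← residue_frobenius_apply σ hσ ⟨c2, hc2A⟩]
    congr 1
    apply Subtype.ext
    show d1 = σ c2
    rw [e2]
    exact (AlgEquiv.apply_symm_apply σ d1).symm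
  rw [hres, r1, r2]

/-- **Congruence relation at a `B`-finite place (value form)**, `h = 1`. -/
theorem es_val [NeZero ℓ] (hℓN : ¬ ℓ ∣ N) (hA : A.LiesOverPrime ℓ)
    {x : ↥(modularFunctionFieldBar N)} (hx : IsGoodCoord A N x)
    (σ : Qb ≃ₐ[ℚ] Qb) (hσ : A.IsFrobeniusAt σ ℓ)
    (hσx : arithmeticRingAut (modularFunctionFieldFull N) σ x = x)
    (hσx' : arithmeticRingAut (modularFunctionFieldFull N) σ⁻¹ x = x)
    {P : Place Qb ↥(modularFunctionFieldBar N)} (hP : H34.IsFin A (chartRing A N x) P)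
    {y : ↥(modularFunctionFieldBar N)} (hy : y ∈ chartRing A N x)
    (hz : heckeNorm N ℓ y ∈ chartRing A N x)
    (Y : LaurentSeries A) (hY : coeffMap A.subtype Y = (y : LaurentSeries Qb))
    {c0 c1 c2 : Qb} (hc0 : H34.EvalAt P (heckeNorm N ℓ y) c0)
    (hc1 : H34.EvalAt (arithmeticGalois (modularFunctionFieldFull N) σ • P) y c1)
    (hc2 : H34.EvalAt (arithmeticGalois (modularFunctionFieldFull N) σ⁻¹ • P) y c2) :
    ∃ (h0 : c0 ∈ A) (h1 : c1 ∈ A) (h2 : c2 ∈ A),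
      IsLocalRing.residue A ⟨c0, h0⟩ =
        IsLocalRing.residue A ⟨c1, h1⟩ * IsLocalRing.residue A ⟨c2, h2⟩ ^ ℓ := by
  have hz' : (1 : ↥(modularFunctionFieldBar N)) * heckeNorm N ℓ y ∈ chartRing A N x := by
    rw [one_mul]
    exact hz
  have hc0' : H34.EvalAt P ((1 : ↥(modularFunctionFieldBar N)) * heckeNorm N ℓ y) c0 := by
    rw [one_mul]
    exact hc0
  obtain ⟨h0, hh', h1, h2, hres⟩ := es_val_mul hℓN hA hx σ hσ hσx hσx' hP
    (chartRing A N x).one_mem hy hz' 1 Y (by rw [map_one]; rfl) hY hc0' (H34.evalAt_one P) hc1 hc2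
  refine ⟨h0, h1, h2, ?_⟩
  rw [hres]
  have : IsLocalRing.residue A ⟨1, hh'⟩ = 1 := map_one _
  rw [this, one_mul]

/-- **Congruence relation for residue characters, with a multiplier**: for `P`, `σ P`, `σ⁻¹ P`
`B`-finite, `χ_P(h N'(y)) = χ_P(h) * (χ_{σP}(y) * χ_{σ⁻¹P}(y) ^ ℓ)`. -/
theorem charOf_heckeNorm_mul [NeZero ℓ] (hℓN : ¬ ℓ ∣ N) (hA : A.LiesOverPrime ℓ)
    {x : ↥(modularFunctionFieldBar N)} (hx : IsGoodCoord A N x) (xA : LaurentSeries A)
    (hxA : coeffMap A.subtype xA = (x : LaurentSeries Qb))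
    (σ : Qb ≃ₐ[ℚ] Qb) (hσ : A.IsFrobeniusAt σ ℓ)
    (hσx : arithmeticRingAut (modularFunctionFieldFull N) σ x = x)
    (hσx' : arithmeticRingAut (modularFunctionFieldFull N) σ⁻¹ x = x)
    {P : Place Qb ↥(modularFunctionFieldBar N)} (hP : H34.IsFin A (chartRing A N x) P)
    (hP1 : H34.IsFin A (chartRing A N x)
      (arithmeticGalois (modularFunctionFieldFull N) σ • P))
    (hP2 : H34.IsFin A (chartRing A N x)
      (arithmeticGalois (modularFunctionFieldFull N) σ⁻¹ • P))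
    {h y : ↥(modularFunctionFieldBar N)} (hh : h ∈ chartRing A N x) (hy : y ∈ chartRing A N x)
    (hz : h * heckeNorm N ℓ y ∈ chartRing A N x) :
    H34.charOf hP ⟨h * heckeNorm N ℓ y, hz⟩ =
      H34.charOf hP ⟨h, hh⟩ * (H34.charOf hP1 ⟨y, hy⟩ * H34.charOf hP2 ⟨y, hy⟩ ^ ℓ) := by
  have hℓ : ℓ.Prime := Fact.out
  obtain ⟨H, hH⟩ := exists_series_of_mem_chartRing hℓ hA x xA hxA hh
  obtain ⟨Y, hY⟩ := exists_series_of_mem_chartRing hℓ hA x xA hxA hy
  obtain ⟨h0, hh', h1, h2, hres⟩ := es_val_mul hℓN hA hx σ hσ hσx hσx' hP hh hy hz H Y hH hY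
    (H34.evalAt_valHom hP ⟨_, hz⟩) (H34.evalAt_valHom hP ⟨h, hh⟩)
    (H34.evalAt_valHom hP1 ⟨y, hy⟩) (H34.evalAt_valHom hP2 ⟨y, hy⟩)
  exact hres

/-- **Congruence relation for residue characters**: for `P`, `σ P`, `σ⁻¹ P` `B`-finite and
`y, N'(y) ∈ B`: `χ_P(N'(y)) = χ_{σP}(y) * χ_{σ⁻¹P}(y) ^ ℓ`. -/
theorem charOf_heckeNorm [NeZero ℓ] (hℓN : ¬ ℓ ∣ N) (hA : A.LiesOverPrime ℓ)
    {x : ↥(modularFunctionFieldBar N)} (hx : IsGoodCoord A N x) (xA : LaurentSeries A)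
    (hxA : coeffMap A.subtype xA = (x : LaurentSeries Qb))
    (σ : Qb ≃ₐ[ℚ] Qb) (hσ : A.IsFrobeniusAt σ ℓ)
    (hσx : arithmeticRingAut (modularFunctionFieldFull N) σ x = x)
    (hσx' : arithmeticRingAut (modularFunctionFieldFull N) σ⁻¹ x = x)
    {P : Place Qb ↥(modularFunctionFieldBar N)} (hP : H34.IsFin A (chartRing A N x) P)
    (hP1 : H34.IsFin A (chartRing A N x)
      (arithmeticGalois (modularFunctionFieldFull N) σ • P))
    (hP2 : H34.IsFin A (chartRing A N x)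
      (arithmeticGalois (modularFunctionFieldFull N) σ⁻¹ • P))
    {y : ↥(modularFunctionFieldBar N)} (hy : y ∈ chartRing A N x)
    (hz : heckeNorm N ℓ y ∈ chartRing A N x) :
    H34.charOf hP ⟨heckeNorm N ℓ y, hz⟩ =
      H34.charOf hP1 ⟨y, hy⟩ * H34.charOf hP2 ⟨y, hy⟩ ^ ℓ := by
  have hℓ : ℓ.Prime := Fact.out
  obtain ⟨Y, hY⟩ := exists_series_of_mem_chartRing hℓ hA x xA hxA hy
  obtain ⟨h0, h1, h2, hres⟩ := es_val hℓN hA hx σ hσ hσx hσx' hP hy hz Y hY
    (H34.evalAt_valHom hP ⟨_, hz⟩) (H34.evalAt_valHom hP1 ⟨y, hy⟩)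
    (H34.evalAt_valHom hP2 ⟨y, hy⟩)
  exact hres

end ESNorm

end Fermat.Agent.S37.H58
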