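import Mathlib
import Fermat.Prelude.Def_AlgebraicCurve_DivisorPushPull
import Fermat.Agent.S24.FundId_helper32
import Fermat.Agent.S24.Basics_helper19

/-!
# S37 (HI), part 1: places above a place, through the integral closure of `O_v` (helper37)

`K ⊆ F ⊆ F'` fields, `F'/F` finite, characteristic zero.  For a place `v` of `F` the integral
closure `C` of the discrete valuation ring `O_v` in `F'` is a Dedekind domain, finite free over
`O_v` of rank `[F' : F]`, and the primes of `C` over the maximal ideal of `O_v` are in bijection
with the places of `F'` restricting to `v`; the ramification index of Mathlib is the ramification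
index of the prelude.
-/

set_option autoImplicit false
set_option linter.unusedSectionVars false

open AlgebraicCurve IsDedekindDomain WithZero

namespace Fermat.Agent.S37.H37

section Rel

variable {K F F' : Type*} [Field K] [Field F] [Field F'] [Algebra K F] [Algebra K F']
  [Algebra F F'] [IsScalarTower K F F']

/-- the `O_v`-algebra structure of the big field. -/
@[reducible] def valAlg (F' : Type*) [Field F'] [Algebra F F'] (v : Place K F) :
    Algebra v.toValuationSubring F' :=
  ((algebraMap F F').comp (algebraMap v.toValuationSubring F)).toAlgebra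

attribute [local instance 50] valAlg

theorem valAlg_algebraMap (v : Place K F) (a : v.toValuationSubring) :
    algebraMap v.toValuationSubring F' a = algebraMap F F' (a : F) := rfl

instance valAlg_isScalarTower (v : Place K F) : IsScalarTower v.toValuationSubring F F' :=
  IsScalarTower.of_algebraMap_eq fun _ => rfl

theorem valAlg_injective (v : Place K F) :
    Function.Injective (algebraMap v.toValuationSubring F') :=
  (algebraMap F F').injective.comp Subtype.val_injective

instance valAlg_faithful (v : Place K F) : FaithfulSMul v.toValuationSubring F' :=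
  (faithfulSMul_iff_algebraMap_injective _ _).mpr (valAlg_injective v)

variable (F') in
/-- the integral closure of `O_v` in the big field. -/
abbrev intClV (v : Place K F) : Subalgebra v.toValuationSubring F' :=
  integralClosure v.toValuationSubring F'

/-- the `K`-algebra structure of the integral closure. -/
@[reducible] def intClV_algK (v : Place K F) : Algebra K (intClV F' v) :=
  ((algebraMap v.toValuationSubring (intClV F' v)).comp
    (algebraMap K v.toValuationSubring)).toAlgebra

attribute [local instance] intClV_algK

instance intClV_towerK (v : Place K F) : IsScalarTower K (intClV F' v) F' :=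
  IsScalarTower.of_algebraMap_eq fun a => by
    show algebraMap K F' a = algebraMap F F' (algebraMap K F a)
    rw [← IsScalarTower.algebraMap_apply]

section Fin

variable [FiniteDimensional F F'] [CharZero F]

instance intClV_dedekind (v : Place K F) : IsDedekindDomain (intClV F' v) :=
  IsIntegralClosure.isDedekindDomain v.toValuationSubring F F' (intClV F' v)

instance intClV_fraction (v : Place K F) : IsFractionRing (intClV F' v) F' :=
  integralClosure.isFractionRing_of_finite_extension F F'

instance intClV_finite (v : Place K F) : Module.Finite v.toValuationSubring (intClV F' v) :=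
  IsIntegralClosure.finite v.toValuationSubring F F' (intClV F' v)

instance intClV_free (v : Place K F) : Module.Free v.toValuationSubring (intClV F' v) :=
  IsIntegralClosure.module_free v.toValuationSubring F F' (intClV F' v)

theorem finrank_intClV (v : Place K F) :
    Module.finrank v.toValuationSubring (intClV F' v) = Module.finrank F F' :=
  IsIntegralClosure.rank v.toValuationSubring F F' (intClV F' v)

end Fin

section Dict

variable [FiniteDimensional F F'] [CharZero F]

open Fermat.Agent.S24

/-- inclusion `O_v → O_w` for `v = w|F`. -/
def valToVal (w : Place K F') : (w.restrict F).toValuationSubring →+* w.toValuationSubring :=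
  (algebraMap (w.restrict F).toValuationSubring F').codRestrict w.toValuationSubring.toSubring
    (fun x => x.2)

theorem intClV_le (w : Place K F') :
    ∀ b ∈ intClV F' (w.restrict F), b ∈ w.toValuationSubring := by
  intro b hb
  obtain ⟨P, hP, hPb⟩ := hb
  have hint : IsIntegral w.toValuationSubring b := by
    refine ⟨P.map (valToVal w), hP.map _, ?_⟩
    rw [Polynomial.eval₂_map]
    exact hPb
  obtain ⟨c, hc⟩ :=
    (IsIntegrallyClosed.isIntegral_iff (R := w.toValuationSubring) (K := F')).mp hint
  rw [← hc]
  exact c.2

/-- inclusion of the integral closure of `O_v` into `O_w`. -/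
def intClToVal (w : Place K F') : intClV F' (w.restrict F) →+* w.toValuationSubring :=
  (algebraMap (intClV F' (w.restrict F)) F').codRestrict w.toValuationSubring.toSubring
    (fun b => intClV_le w b b.2)

/-- the prime of the integral closure cut out by a place. -/
def primeOf (w : Place K F') : Ideal (intClV F' (w.restrict F)) :=
  Ideal.comap (intClToVal w) (IsLocalRing.maximalIdeal w.toValuationSubring)

instance primeOf_isPrime (w : Place K F') : (primeOf (F := F) w).IsPrime :=
  Ideal.comap_isPrime _ _

theorem primeOf_mem_iff (w : Place K F') (b : intClV F' (w.restrict F)) :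
    b ∈ primeOf w ↔ intClToVal w b ∈ IsLocalRing.maximalIdeal w.toValuationSubring :=
  Iff.rfl

theorem primeOf_mem_primesOver (w : Place K F') :
    primeOf w ∈ (IsLocalRing.maximalIdeal (w.restrict F).toValuationSubring).primesOver
      (intClV F' (w.restrict F)) := by
  refine ⟨inferInstance, ⟨?_⟩⟩
  refine Ideal.IsMaximal.eq_of_le inferInstance (Ideal.IsPrime.ne_top (Ideal.comap_isPrime _ _)) ?_
  intro x hx
  show intClToVal w (algebraMap (w.restrict F).toValuationSubring (intClV F' (w.restrict F)) x)
    ∈ IsLocalRing.maximalIdeal w.toValuationSubring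
  have hcoe : ((intClToVal w (algebraMap (w.restrict F).toValuationSubring
      (intClV F' (w.restrict F)) x) : w.toValuationSubring) : F') = algebraMap F F' (x : F) := rfl
  by_cases hx0 : (x : F) = 0
  · have h0 : intClToVal w (algebraMap (w.restrict F).toValuationSubring
        (intClV F' (w.restrict F)) x) = 0 := Subtype.ext (by
      rw [hcoe, hx0, map_zero]; rfl)
    rw [h0]
    exact zero_mem _
  · apply H19.mem_maximalIdeal_of_ord_pos
    rw [hcoe, w.ord_restrict]
    have h1 := H19.ord_pos_of_mem_maximalIdeal (w.restrict F) hx hx0
    have h2 := w.ramificationIndex_pos (F := F)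
    positivity

theorem maximalIdeal_ne_bot (v : Place K F) :
    IsLocalRing.maximalIdeal v.toValuationSubring ≠ ⊥ :=
  IsDiscreteValuationRing.not_a_field _

theorem algebraMap_intClV_injective (v : Place K F) :
    Function.Injective (algebraMap v.toValuationSubring (intClV F' v)) := by
  intro a b hab
  apply valAlg_injective (F' := F') v
  exact congrArg (algebraMap (intClV F' v) F') hab

theorem ne_bot_of_mem_primesOver (v : Place K F)
    (q : (IsLocalRing.maximalIdeal v.toValuationSubring).primesOver (intClV F' v)) :
    q.1 ≠ ⊥ := by
  intro h
  have hlies : q.1.LiesOver (IsLocalRing.maximalIdeal v.toValuationSubring) := q.2.2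
  obtain ⟨π, hπ⟩ := IsDiscreteValuationRing.exists_irreducible v.toValuationSubring
  have hmem : π ∈ IsLocalRing.maximalIdeal v.toValuationSubring := by
    rw [IsLocalRing.mem_maximalIdeal, mem_nonunits_iff]
    exact hπ.not_isUnit
  rw [hlies.over] at hmem
  have h1 : algebraMap v.toValuationSubring (intClV F' v) π ∈ q.1 := hmem
  rw [h, Ideal.mem_bot] at h1
  exact hπ.ne_zero (algebraMap_intClV_injective v (h1.trans (map_zero _).symm))

/-- the height one prime attached to a prime over the maximal ideal of `O_v`. -/
def toHOS (v : Place K F)
    (q : (IsLocalRing.maximalIdeal v.toValuationSubring).primesOver (intClV F' v)) :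
    HeightOneSpectrum (intClV F' v) :=
  ⟨q.1, q.2.1, ne_bot_of_mem_primesOver v q⟩

/-- the place attached to a prime over the maximal ideal of `O_v`. -/
noncomputable def toPlace (v : Place K F)
    (q : (IsLocalRing.maximalIdeal v.toValuationSubring).primesOver (intClV F' v)) :
    Place K F' :=
  Place.ofHeightOneSpectrum (K := K) (toHOS v q)

theorem ord_toPlace (v : Place K F)
    (q : (IsLocalRing.maximalIdeal v.toValuationSubring).primesOver (intClV F' v)) (f : F') :
    (toPlace v q).ord f = -(WithZero.log ((toHOS v q).valuation F' f)) :=
  H32.ord_eq_of_valuation (toPlace v q) ((toHOS v q).valuation F') rfl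
    ((toHOS v q).valuation_exists_uniformizer F') f

theorem restrict_toPlace (v : Place K F)
    (q : (IsLocalRing.maximalIdeal v.toValuationSubring).primesOver (intClV F' v)) :
    (toPlace v q).restrict F = v := by
  apply Place.ext
  symm
  refine ValuationSubring.eq_of_le_of_ne_top _ ?_ ((toPlace v q).restrict F).ne_top'
  intro x hx
  show algebraMap F F' x ∈ ((toHOS v q).valuation F').valuationSubring
  rw [Valuation.mem_valuationSubring_iff]
  exact (toHOS v q).valuation_le_one (algebraMap v.toValuationSubring (intClV F' v) ⟨x, hx⟩)

theorem toPlace_injective (v : Place K F) :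
    Function.Injective (toPlace (F' := F') v) := by
  intro q q' h
  have h1 : ((toHOS v q).valuation F').valuationSubring
      = ((toHOS v q').valuation F').valuationSubring :=
    congrArg Place.toValuationSubring h
  have h2 : ((toHOS v q).valuation F').IsEquiv ((toHOS v q').valuation F') :=
    (Valuation.isEquiv_iff_valuationSubring _ _).mpr h1
  have h3 : toHOS v q = toHOS v q' := HeightOneSpectrum.eq_of_valuation_isEquiv_valuation h2
  exact Subtype.ext (congrArg HeightOneSpectrum.asIdeal h3)

theorem toPlace_primeOf (w : Place K F') :
    toPlace (w.restrict F) ⟨primeOf w, primeOf_mem_primesOver w⟩ = w := by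
  set q : (IsLocalRing.maximalIdeal (w.restrict F).toValuationSubring).primesOver
      (intClV F' (w.restrict F)) := ⟨primeOf w, primeOf_mem_primesOver w⟩ with hq
  apply Place.ext
  show ((toHOS _ q).valuation F').valuationSubring = w.toValuationSubring
  rw [← HeightOneSpectrum.valuationSubringAtPrime_eq_valuationSubring]
  refine ValuationSubring.eq_of_le_of_ne_top _ ?_ w.ne_top'
  rw [HeightOneSpectrum.valuationSubringAtPrime_eq_valuationSubring]
  intro x hx
  rw [Valuation.mem_valuationSubring_iff] at hx
  obtain ⟨n, d, hnd⟩ := HeightOneSpectrum.exists_primeCompl_mul_eq_of_integer (toHOS _ q) x hx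
  have hd : (d : intClV F' (w.restrict F)) ∉ primeOf w := d.2
  rw [primeOf_mem_iff, IsLocalRing.mem_maximalIdeal, mem_nonunits_iff, not_not] at hd
  obtain ⟨u, hu⟩ := hd
  have hd' : ((u : w.toValuationSubring) : F') = algebraMap (intClV F' (w.restrict F)) F' d := by
    rw [hu]; rfl
  have hx' : x = ((intClToVal w n * ((u⁻¹ : w.toValuationSubringˣ) : w.toValuationSubring) :
      w.toValuationSubring) : F') := by
    have h3 : ((u : w.toValuationSubring) : F') *
        (((u⁻¹ : w.toValuationSubringˣ) : w.toValuationSubring) : F') = 1 := by
      rw [← MulMemClass.coe_mul, Units.mul_inv]; rfl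
    have hn' : ((intClToVal w n : w.toValuationSubring) : F')
        = algebraMap (intClV F' (w.restrict F)) F' n := rfl
    rw [MulMemClass.coe_mul, hn', ← hnd, ← hd', mul_assoc, h3, mul_one]
  rw [hx']
  exact SetLike.coe_mem _

theorem exists_toPlace_eq (v : Place K F) (w : Place K F') (hw : w.restrict F = v) :
    ∃ q : (IsLocalRing.maximalIdeal v.toValuationSubring).primesOver (intClV F' v),
      toPlace v q = w := by
  subst hw
  exact ⟨⟨primeOf w, primeOf_mem_primesOver w⟩, toPlace_primeOf w⟩

/-- the order at `toPlace q` of a uniformizer of `v` is the Mathlib ramification index. -/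
theorem ord_toPlace_algebraMap_irreducible (v : Place K F)
    (q : (IsLocalRing.maximalIdeal v.toValuationSubring).primesOver (intClV F' v))
    {π : v.toValuationSubring} (hπ : Irreducible π) :
    (toPlace v q).ord (algebraMap F F' (π : F))
      = (q.1.ramificationIdx v.toValuationSubring : ℤ) := by
  classical
  have hlies : q.1.LiesOver (IsLocalRing.maximalIdeal v.toValuationSubring) := q.2.2
  set πC : intClV F' v := algebraMap v.toValuationSubring (intClV F' v) π with hπC
  have hπC0 : πC ≠ 0 := fun h =>
    hπ.ne_zero (algebraMap_intClV_injective v (h.trans (map_zero _).symm))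
  have hmapeq : (IsLocalRing.maximalIdeal v.toValuationSubring).map
      (algebraMap v.toValuationSubring (intClV F' v)) = Ideal.span {πC} := by
    rw [hπ.maximalIdeal_eq, Ideal.map_span, Set.image_singleton]
  have hmap : (IsLocalRing.maximalIdeal v.toValuationSubring).map
      (algebraMap v.toValuationSubring (intClV F' v)) ≠ ⊥ := by
    rw [hmapeq, Ne, Ideal.span_singleton_eq_bot]
    exact hπC0
  rw [ord_toPlace, Ideal.IsDedekindDomain.ramificationIdx_eq_normalizedFactors_count _ _ hmap,
    hmapeq]
  have h1 : (toHOS v q).valuation F' (algebraMap F F' (π : F)) = (toHOS v q).intValuation πC := by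
    rw [← (toHOS v q).valuation_of_algebraMap (K := F') πC]
    rfl
  rw [h1, (toHOS v q).intValuation_if_neg hπC0, WithZero.log_exp, neg_neg]
  congr 1
  exact Ideal.count_associates_factors_eq
    (by rwa [Ne, Ideal.zero_eq_bot, Ideal.span_singleton_eq_bot]) q.2.1
    (ne_bot_of_mem_primesOver v q)

/-- the prelude ramification index of `toPlace q` is the Mathlib ramification index of `q`. -/
theorem ramificationIndex_toPlace (v : Place K F)
    (q : (IsLocalRing.maximalIdeal v.toValuationSubring).primesOver (intClV F' v)) :
    ((toPlace v q).ramificationIndex F : ℤ) = (q.1.ramificationIdx v.toValuationSubring : ℤ) := by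
  obtain ⟨π, hπ⟩ := IsDiscreteValuationRing.exists_irreducible v.toValuationSubring
  have h1 := ord_toPlace_algebraMap_irreducible v q hπ
  rw [(toPlace v q).ord_restrict (π : F), restrict_toPlace, v.ord_coe_irreducible hπ, mul_one]
    at h1
  exact h1

theorem bijective_algebraMap_residue (v : Place K F) (hv : v.deg = 1) :
    Function.Bijective (algebraMap K v.ResidueField) := by
  refine ⟨(algebraMap K v.ResidueField).injective, ?_⟩
  rw [Algebra.surjective_algebraMap_iff]
  exact (Subalgebra.bot_eq_top_iff_finrank_eq_one.mpr hv).symm

theorem inertiaDeg_eq_one [IsAlgClosed K] (v : Place K F) (hv : v.deg = 1)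
    (q : (IsLocalRing.maximalIdeal v.toValuationSubring).primesOver (intClV F' v)) :
    q.1.inertiaDeg v.toValuationSubring = 1 := by
  have : q.1.LiesOver (IsLocalRing.maximalIdeal v.toValuationSubring) := q.2.2
  have : q.1.IsPrime := q.2.1
  have : q.1.IsMaximal := Ideal.IsPrime.isMaximal q.2.1 (ne_bot_of_mem_primesOver v q)
  rw [Ideal.inertiaDeg_eq_of_isMaximal (IsLocalRing.maximalIdeal v.toValuationSubring) q.1]
  let _ : Field (v.toValuationSubring ⧸ IsLocalRing.maximalIdeal v.toValuationSubring) :=
    Ideal.Quotient.field _
  let _ : Field (intClV F' v ⧸ q.1) := Ideal.Quotient.field _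
  let e : K ≃+* (v.toValuationSubring ⧸ IsLocalRing.maximalIdeal v.toValuationSubring) :=
    RingEquiv.ofBijective (algebraMap K v.ResidueField) (bijective_algebraMap_residue v hv)
  have : IsAlgClosed (v.toValuationSubring ⧸ IsLocalRing.maximalIdeal v.toValuationSubring) :=
    H32.isAlgClosed_of_ringEquiv e
  have : Module.Finite (v.toValuationSubring ⧸ IsLocalRing.maximalIdeal v.toValuationSubring)
      (intClV F' v ⧸ q.1) := inferInstance
  have hbij : Function.Bijective
      (algebraMap (v.toValuationSubring ⧸ IsLocalRing.maximalIdeal v.toValuationSubring)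
        (intClV F' v ⧸ q.1)) :=
    IsAlgClosed.algebraMap_bijective_of_isIntegral
  rw [← Module.finrank_self (v.toValuationSubring ⧸ IsLocalRing.maximalIdeal v.toValuationSubring)]
  exact ((AlgEquiv.ofBijective (Algebra.ofId _ _) hbij).toLinearEquiv.finrank_eq).symm

theorem finite_primesOver (v : Place K F) :
    ((IsLocalRing.maximalIdeal v.toValuationSubring).primesOver (intClV F' v)).Finite :=
  Algebra.QuasiFinite.finite_primesOver (IsLocalRing.maximalIdeal v.toValuationSubring)

/-- sums over the fibre of a place are sums over the primes of the integral closure. -/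
theorem sum_fiber_eq [HasPrincipalDivisors K F'] (v : Place K F)
    [Fintype ((IsLocalRing.maximalIdeal v.toValuationSubring).primesOver (intClV F' v))]
    {M : Type*} [AddCommMonoid M] (g : Place K F' → M) :
    ∑ w ∈ v.fiber F', g w
      = ∑ q : (IsLocalRing.maximalIdeal v.toValuationSubring).primesOver (intClV F' v),
          g (toPlace v q) := by
  symm
  refine Finset.sum_bij (fun q _ => toPlace v q) (fun q _ => ?_) (fun q _ q' _ h => ?_)
    (fun w hw => ?_) (fun q _ => rfl)
  · exact Place.mem_fiber.mpr (restrict_toPlace v q)
  · exact toPlace_injective v h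
  · obtain ⟨q, hq⟩ := exists_toPlace_eq v w (Place.mem_fiber.mp hw)
    exact ⟨q, Finset.mem_univ _, hq⟩

/-- **Fundamental identity, ramification form**: over an algebraically closed constant field the
ramification indices of the places above `v` add up to the degree. -/
theorem sum_ramificationIndex [IsAlgClosed K] [HasPrincipalDivisors K F'] (v : Place K F)
    (hv : v.deg = 1) :
    ∑ w ∈ v.fiber F', (w.ramificationIndex F : ℤ) = (Module.finrank F F' : ℤ) := by
  let _ : Fintype ((IsLocalRing.maximalIdeal v.toValuationSubring).primesOver (intClV F' v)) :=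
    (finite_primesOver v).fintype
  rw [sum_fiber_eq v, ← finrank_intClV (F' := F') v,
    ← Ideal.sum_ramification_inertia_eq_finrank (IsLocalRing.maximalIdeal v.toValuationSubring)
      (intClV F' v), Nat.cast_sum]
  refine Finset.sum_congr rfl fun q _ => ?_
  rw [ramificationIndex_toPlace, inertiaDeg_eq_one v hv q, mul_one]

theorem inertiaDeg_eq_one_of_deg (hdeg : ∀ v : Place K F, v.deg = 1)
    (hdeg' : ∀ w : Place K F', w.deg = 1) (w : Place K F') : w.inertiaDeg F = 1 := by
  have h := w.deg_restrict_mul_inertiaDeg (F := F)
  rw [hdeg, hdeg', one_mul] at h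
  exact h

/-- **Fundamental identity** in the prelude form. -/
theorem sumRamificationInertia [IsAlgClosed K] [HasPrincipalDivisors K F']
    (hdeg : ∀ v : Place K F, v.deg = 1) (hdeg' : ∀ w : Place K F', w.deg = 1) :
    SumRamificationInertia K F F' where
  sum_ramificationIndex_mul_inertiaDeg v := by
    rw [← sum_ramificationIndex v (hdeg v)]
    refine Finset.sum_congr rfl fun w _ => ?_
    rw [inertiaDeg_eq_one_of_deg hdeg hdeg' w, Nat.cast_one, mul_one]

end Dict

end Rel

end Fermat.Agent.S37.H37
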