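import Mathlib
import Fermat.Agent.S37.RelPlaces_helper37

/-!
# S37 (HI), part 2: the norm formula for divisors (helper37)

`K` algebraically closed, `F ⊆ F'` finite, characteristic zero, all places of degree one.
For `g ≠ 0` in `F'` and a place `v` of `F`: `∑_{w | v} ord_w g = ord_v (N_{F'/F} g)`, hence the
prelude's `Divisor.PushforwardNormFormula K F F'`.
-/

set_option autoImplicit false
set_option linter.unusedSectionVars false

open AlgebraicCurve IsDedekindDomain WithZero UniqueFactorizationMonoid

namespace Fermat.Agent.S37.H37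

section Norm

variable {K F F' : Type*} [Field K] [Field F] [Field F'] [Algebra K F] [Algebra K F']
  [Algebra F F'] [IsScalarTower K F F'] [FiniteDimensional F F'] [CharZero F]

attribute [local instance 50] valAlg
attribute [local instance] intClV_algK

open Fermat.Agent.S24

/-- the order of an integral element at `toPlace q` is the multiplicity of `q` in its ideal. -/
theorem ord_toPlace_coe (v : Place K F)
    (q : (IsLocalRing.maximalIdeal v.toValuationSubring).primesOver (intClV F' v))
    {c : intClV F' v} (hc : c ≠ 0) :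
    (toPlace v q).ord (algebraMap (intClV F' v) F' c)
      = (Multiset.count q.1 (normalizedFactors (Ideal.span {c})) : ℤ) := by
  classical
  rw [ord_toPlace, (toHOS v q).valuation_of_algebraMap (K := F') c,
    (toHOS v q).intValuation_if_neg hc, WithZero.log_exp, neg_neg]
  congr 1
  exact Ideal.count_associates_factors_eq
    (by rwa [Ne, Ideal.zero_eq_bot, Ideal.span_singleton_eq_bot]) q.2.1
    (ne_bot_of_mem_primesOver v q)

/-- every prime factor of a nonzero ideal of the integral closure lies over the maximal ideal. -/
theorem mem_primesOver_of_mem_normalizedFactors (v : Place K F) {I P : Ideal (intClV F' v)}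
    (hP : P ∈ normalizedFactors I) :
    P ∈ (IsLocalRing.maximalIdeal v.toValuationSubring).primesOver (intClV F' v) := by
  have hprime : Prime P := prime_of_normalized_factor P hP
  have hPp : P.IsPrime := Ideal.isPrime_of_prime hprime
  have hP0 : P ≠ ⊥ := hprime.ne_zero
  have hmax : P.IsMaximal := Ideal.IsPrime.isMaximal hPp hP0
  have hint : Algebra.IsIntegral v.toValuationSubring (intClV F' v) := inferInstance
  have hcm : (P.under v.toValuationSubring).IsMaximal :=
    Ideal.isMaximal_comap_of_isIntegral_of_isMaximal P
  exact ⟨hPp, ⟨(IsLocalRing.eq_maximalIdeal hcm).symm⟩⟩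

instance intClV_faithful (v : Place K F) : FaithfulSMul v.toValuationSubring (intClV F' v) :=
  (faithfulSMul_iff_algebraMap_injective _ _).mpr (algebraMap_intClV_injective v)

theorem relNorm_of_mem_primesOver [IsAlgClosed K] (v : Place K F) (hv : v.deg = 1)
    (q : (IsLocalRing.maximalIdeal v.toValuationSubring).primesOver (intClV F' v)) :
    Ideal.relNorm v.toValuationSubring q.1 = IsLocalRing.maximalIdeal v.toValuationSubring := by
  have : q.1.LiesOver (IsLocalRing.maximalIdeal v.toValuationSubring) := q.2.2
  have : q.1.IsMaximal := Ideal.IsPrime.isMaximal q.2.1 (ne_bot_of_mem_primesOver v q)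
  have h := Ideal.relNorm_eq_pow_of_isMaximal q.1 (IsLocalRing.maximalIdeal v.toValuationSubring)
  rw [h, inertiaDeg_eq_one v hv q, pow_one]

theorem relNorm_span_singleton [IsAlgClosed K] (v : Place K F) (hv : v.deg = 1)
    {c : intClV F' v} (hc : c ≠ 0) :
    Ideal.relNorm v.toValuationSubring (Ideal.span {c})
      = IsLocalRing.maximalIdeal v.toValuationSubring ^
          Multiset.card (normalizedFactors (Ideal.span {c})) := by
  have hI : Ideal.span {c} ≠ ⊥ := by rwa [Ne, Ideal.span_singleton_eq_bot]
  conv_lhs => rw [← Ideal.prod_normalizedFactors_eq_self hI]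
  rw [map_multiset_prod]
  have hrep : (normalizedFactors (Ideal.span {c})).map (Ideal.relNorm v.toValuationSubring)
      = Multiset.replicate (Multiset.card (normalizedFactors (Ideal.span {c})))
          (IsLocalRing.maximalIdeal v.toValuationSubring) := by
    refine Multiset.eq_replicate.mpr ⟨Multiset.card_map _ _, fun b hb => ?_⟩
    obtain ⟨P, hP, rfl⟩ := Multiset.mem_map.mp hb
    exact relNorm_of_mem_primesOver v hv ⟨P, mem_primesOver_of_mem_normalizedFactors v hP⟩
  rw [hrep, Multiset.prod_replicate]

theorem ord_eq_of_span_eq_pow (v : Place K F) {x : v.toValuationSubring} {m : ℕ}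
    (h : Ideal.span {x} = IsLocalRing.maximalIdeal v.toValuationSubring ^ m) :
    v.ord (x : F) = m := by
  obtain ⟨π, hπ⟩ := IsDiscreteValuationRing.exists_irreducible v.toValuationSubring
  rw [hπ.maximalIdeal_eq, Ideal.span_singleton_pow, Ideal.span_singleton_eq_span_singleton] at h
  obtain ⟨u, hu⟩ := h
  have hxF : (x : F) * ((u : v.toValuationSubring) : F) = (π : F) ^ m := by
    have := congrArg Subtype.val hu
    simpa using this
  have hπ0 : (π : F) ≠ 0 := by
    simpa [ne_eq, ZeroMemClass.coe_eq_zero] using hπ.ne_zero
  have hx0 : (x : F) ≠ 0 := by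
    intro h0
    rw [h0, zero_mul] at hxF
    exact pow_ne_zero m hπ0 hxF.symm
  have hu0 : ((u : v.toValuationSubring) : F) ≠ 0 := by
    simp [ne_eq, ZeroMemClass.coe_eq_zero]
  have h1 := v.ord_mul hx0 hu0
  rw [hxF, H19.ord_pow, v.ord_coe_irreducible hπ, v.ord_coe_unit u] at h1
  linarith

theorem sum_count_primesOver (v : Place K F)
    [Fintype ((IsLocalRing.maximalIdeal v.toValuationSubring).primesOver (intClV F' v))]
    [DecidableEq (Ideal (intClV F' v))]
    (s : Multiset (Ideal (intClV F' v)))
    (hs : ∀ P ∈ s, P ∈ (IsLocalRing.maximalIdeal v.toValuationSubring).primesOver (intClV F' v)) :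
    ∑ q : (IsLocalRing.maximalIdeal v.toValuationSubring).primesOver (intClV F' v),
      Multiset.count q.1 s = Multiset.card s := by
  rw [← Multiset.toFinset_sum_count_eq s]
  refine Finset.sum_bij_ne_zero (fun q _ _ => q.1) (fun q _ hq => ?_) (fun a _ _ b _ _ h => ?_)
    (fun b hb _ => ?_) (fun q _ _ => rfl)
  · rw [Multiset.mem_toFinset]
    exact Multiset.count_ne_zero.mp hq
  · exact Subtype.ext h
  · rw [Multiset.mem_toFinset] at hb
    exact ⟨⟨b, hs b hb⟩, Finset.mem_univ _, Multiset.count_ne_zero.mpr hb, rfl⟩

/-- the norm formula for integral elements. -/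
theorem sum_ord_integral [IsAlgClosed K] [HasPrincipalDivisors K F'] (v : Place K F)
    (hv : v.deg = 1) {c : intClV F' v} (hc : c ≠ 0) :
    ∑ w ∈ v.fiber F', w.ord (algebraMap (intClV F' v) F' c)
      = v.ord (Algebra.norm F (algebraMap (intClV F' v) F' c)) := by
  classical
  let _ : Fintype ((IsLocalRing.maximalIdeal v.toValuationSubring).primesOver (intClV F' v)) :=
    (finite_primesOver v).fintype
  rw [sum_fiber_eq v]
  have hx : algebraMap v.toValuationSubring F
      (Algebra.intNorm v.toValuationSubring (intClV F' v) c)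
        = Algebra.norm F (algebraMap (intClV F' v) F' c) := Algebra.algebraMap_intNorm c
  have hspan : Ideal.span {Algebra.intNorm v.toValuationSubring (intClV F' v) c}
      = IsLocalRing.maximalIdeal v.toValuationSubring ^
          Multiset.card (normalizedFactors (Ideal.span {c})) := by
    rw [← Ideal.relNorm_singleton, relNorm_span_singleton v hv hc]
  have hord := ord_eq_of_span_eq_pow v hspan
  rw [← hx]
  show _ = v.ord ((Algebra.intNorm v.toValuationSubring (intClV F' v) c : v.toValuationSubring) : F)
  rw [hord]
  simp_rw [ord_toPlace_coe v _ hc]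
  rw [← Nat.cast_sum]
  congr 1
  exact sum_count_primesOver v _ fun P hP => mem_primesOver_of_mem_normalizedFactors v hP

/-- **Norm formula**: `∑_{w | v} ord_w g = ord_v (N g)`. -/
theorem sum_ord_eq_ord_norm [IsAlgClosed K] [HasPrincipalDivisors K F'] (v : Place K F)
    (hv : v.deg = 1) {g : F'} (hg : g ≠ 0) :
    ∑ w ∈ v.fiber F', w.ord g = v.ord (Algebra.norm F g) := by
  have halg : IsAlgebraic v.toValuationSubring g :=
    (IsFractionRing.isAlgebraic_iff v.toValuationSubring F F').mpr
      (Algebra.IsAlgebraic.isAlgebraic g)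
  obtain ⟨d, hd0, hdint⟩ := halg.exists_integral_multiple
  set c : intClV F' v := ⟨d • g, hdint⟩ with hcdef
  have hdF : (d : F) ≠ 0 := by
    simpa [ne_eq, ZeroMemClass.coe_eq_zero] using hd0
  have hdF' : algebraMap F F' (d : F) ≠ 0 := by simpa using hdF
  have hc : algebraMap (intClV F' v) F' c = algebraMap F F' (d : F) * g := by
    show d • g = _
    rw [Algebra.smul_def]
    rfl
  have hc0 : c ≠ 0 := by
    intro h0
    have h1 : algebraMap (intClV F' v) F' c = 0 := by rw [h0, map_zero]
    rw [hc] at h1
    exact mul_ne_zero hdF' hg h1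
  have h1 := sum_ord_integral v hv hc0
  rw [hc, map_mul, Algebra.norm_algebraMap] at h1
  have hN : Algebra.norm F g ≠ 0 := Algebra.norm_ne_zero_iff.mpr hg
  rw [v.ord_mul (pow_ne_zero _ hdF) hN, H19.ord_pow] at h1
  have h2 : ∑ w ∈ v.fiber F', w.ord (algebraMap F F' (d : F) * g)
      = (Module.finrank F F' : ℤ) * v.ord (d : F) + ∑ w ∈ v.fiber F', w.ord g := by
    rw [← sum_ramificationIndex v hv, Finset.sum_mul, ← Finset.sum_add_distrib]
    refine Finset.sum_congr rfl fun w hw => ?_
    rw [w.ord_mul hdF' hg, w.ord_restrict (d : F), Place.mem_fiber.mp hw]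
  rw [h2] at h1
  linarith

/-- **The prelude's norm formula** for a finite extension of function fields over an
algebraically closed field of characteristic zero, all of whose places have degree one. -/
theorem pushforwardNormFormula [IsAlgClosed K] [HasPrincipalDivisors K F']
    (hdeg : ∀ v : Place K F, v.deg = 1) (hdeg' : ∀ w : Place K F', w.deg = 1) :
    Divisor.PushforwardNormFormula K F F' := by
  classical
  intro g hg D hD v
  rw [Divisor.pushforward_apply, ← sum_ord_eq_ord_norm v (hdeg v) hg, ← Finset.sum_filter]
  have hsub : D.support.filter (fun w => w.restrict F = v) ⊆ v.fiber F' := by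
    intro w hw
    exact Place.mem_fiber.mpr (Finset.mem_filter.mp hw).2
  rw [← Finset.sum_subset hsub]
  · refine Finset.sum_congr rfl fun w _ => ?_
    rw [inertiaDeg_eq_one_of_deg hdeg hdeg' w, Nat.cast_one, mul_one, hD w]
  · intro w hw hnot
    have hw' : w.restrict F = v := Place.mem_fiber.mp hw
    have : w ∉ D.support := fun h => hnot (Finset.mem_filter.mpr ⟨h, hw'⟩)
    rw [Finsupp.mem_support_iff, not_not, hD w] at this
    exact this

end Norm

end Fermat.Agent.S37.H37
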