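import Mathlib
import Fermat.Prelude.Def_ModularCurve_HeckeModule
import Fermat.Agent.S18.PrincDiv_helper98
import Fermat.Agent.S37.NormFormula_helper37

/-!
# S37 (HI): the Hecke inputs hold (helper37)

`heckeInputsAlong N ℓ : HeckeInputsAlong (AlgebraicClosure ℚ) N ℓ` for all `N`, `ℓ`, so that the
frozen `heckeOperatorAlong` (hence `T_ℓ` on `JZero N`) is the true correspondence
`α_* ∘ β^*` and not the junk value `0`.
-/

set_option autoImplicit false
set_option linter.unusedSectionVars false

open AlgebraicCurve IntermediateField ModularCurve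
open Fermat.Agent.S24 Fermat.Agent.S24.H98

namespace Fermat.Agent.S37.H37

section Generic

variable {K F F' : Type*} [Field K] [Field F] [Field F'] [Algebra K F] [Algebra K F']

/-- a field which is finite over `K(φ x)` is finite over `F` along `φ : F →ₐ[K] F'`. -/
theorem finiteAlong_of_finite_adjoin (φ : F →ₐ[K] F') (x : F)
    (h : FiniteDimensional K⟮φ x⟯ F') : FiniteAlong K φ := by
  letI := algebraAlong φ
  show Module.Finite F F'
  obtain ⟨S, hS⟩ := (Module.Finite.fg_top : (⊤ : Submodule K⟮φ x⟯ F').FG)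
  have hle : K⟮φ x⟯ ≤ φ.fieldRange :=
    IntermediateField.adjoin_simple_le_iff.mpr ⟨x, rfl⟩
  refine ⟨⟨S, ?_⟩⟩
  rw [eq_top_iff]
  intro y _
  have hy : y ∈ Submodule.span K⟮φ x⟯ (S : Set F') := by rw [hS]; trivial
  induction hy using Submodule.span_induction with
  | mem z hz => exact Submodule.subset_span hz
  | zero => exact zero_mem _
  | add a b _ _ ha hb => exact add_mem (ha trivial) (hb trivial)
  | smul c z _ hz =>
    obtain ⟨f, hf⟩ := hle c.2
    have hf' : φ f = (c : F') := hf
    have : c • z = f • z := by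
      show (c : F') * z = φ f * z
      rw [hf']
    rw [this]
    exact Submodule.smul_mem _ f (hz trivial)

theorem isIntegral_of_finiteAlong (φ : F →ₐ[K] F') (h : FiniteAlong K φ) :
    φ.toRingHom.IsIntegral := by
  letI := algebraAlong φ
  haveI : Module.Finite F F' := h
  exact fun y => Algebra.IsIntegral.isIntegral (R := F) y

/-- the two relative inputs along a `K`-embedding of function fields with degree-one places. -/
theorem fundamentalIdentityAlong [CharZero F] [IsAlgClosed K] [HasPrincipalDivisors K F']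
    (φ : F →ₐ[K] F') (hfin : FiniteAlong K φ) (hφ : φ.toRingHom.IsIntegral)
    (hdeg : ∀ v : Place K F, v.deg = 1) (hdeg' : ∀ w : Place K F', w.deg = 1) :
    FundamentalIdentityAlong K φ hφ := by
  letI := algebraAlong φ
  haveI := isScalarTower_along φ
  haveI : FiniteDimensional F F' := hfin
  haveI := sumRamificationInertia (K := K) (F := F) (F' := F') hdeg hdeg'
  show FundamentalIdentity K F F'
  infer_instance

theorem normFormulaAlong [CharZero F] [IsAlgClosed K] [HasPrincipalDivisors K F']
    (φ : F →ₐ[K] F') (hfin : FiniteAlong K φ)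
    (hdeg : ∀ v : Place K F, v.deg = 1) (hdeg' : ∀ w : Place K F', w.deg = 1) :
    NormFormulaAlong K φ hfin := by
  letI := algebraAlong φ
  haveI := isScalarTower_along φ
  haveI : FiniteDimensional F F' := hfin
  exact pushforwardNormFormula (K := K) (F := F) (F' := F') hdeg hdeg'

end Generic

section Modular

variable (N ℓ : ℕ) [NeZero N] [NeZero ℓ]

/-- `F_{Nℓ}` is finite over `F_N` along any `Qbar`-embedding. -/
theorem finiteAlong_FN (M : ℕ) [NeZero M] (φ : FN N →ₐ[Kbar] FN M) : FiniteAlong Kbar φ := by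
  have htr : Transcendental Kbar (φ (jBar N)) := by
    intro halg
    exact Fermat.Agent.S18.H10.transcendental_jBar N
      ((isAlgebraic_algHom_iff φ φ.injective).mp halg)
  have hfin : FiniteDimensional Kbar⟮φ (jBar N)⟯ (FN M) :=
    H19.finiteDimensional_adjoin (jBar M) (φ (jBar N))
      (Fermat.Agent.S18.H10.transcendental_jBar M) (Fermat.Agent.S18.H10.finiteDimensional_FN M) htr
  exact finiteAlong_of_finite_adjoin φ (jBar N) hfin

/-- **(HI)** the Hecke inputs hold at every level and every `ℓ`. -/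
theorem heckeInputsAlong : HeckeInputsAlong (AlgebraicClosure ℚ) N ℓ := by
  haveI : HasPrincipalDivisors Kbar (FN (N * ℓ)) :=
    Fermat.Agent.S18.H98.hasPrincipalDivisors_FN (N * ℓ)
  have hfα := finiteAlong_FN N (N * ℓ) (heckeAlphaBar (AlgebraicClosure ℚ) N ℓ)
  have hfβ := finiteAlong_FN N (N * ℓ) (heckeBetaBar (AlgebraicClosure ℚ) N ℓ)
  have hα : HeckeAlphaBarIntegral (AlgebraicClosure ℚ) N ℓ := isIntegral_of_finiteAlong _ hfα
  have hβ : HeckeBetaBarIntegral (AlgebraicClosure ℚ) N ℓ := isIntegral_of_finiteAlong _ hfβ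
  have hdeg := Fermat.Agent.S18.H98.deg_eq_one N
  have hdeg' := Fermat.Agent.S18.H98.deg_eq_one (N * ℓ)
  exact heckeInputsAlong_intro hα hβ
    (fundamentalIdentityAlong (heckeBetaBar (AlgebraicClosure ℚ) N ℓ) hfβ hβ hdeg hdeg') hfα
    (normFormulaAlong (heckeAlphaBar (AlgebraicClosure ℚ) N ℓ) hfα hdeg hdeg')

/-- the degree-zero part of the Hecke correspondence. -/
theorem heckeDivBar_mem_degZero
    (hα : HeckeAlphaBarIntegral (AlgebraicClosure ℚ) N ℓ)
    (hβ : HeckeBetaBarIntegral (AlgebraicClosure ℚ) N ℓ)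
    [HasPrincipalDivisors (AlgebraicClosure ℚ) (modularFunctionFieldBar (N * ℓ))]
    {D : Divisor (AlgebraicClosure ℚ) (modularFunctionFieldBar N)}
    (hD : D ∈ Divisor.degZero (K := AlgebraicClosure ℚ) (F := modularFunctionFieldBar N)) :
    heckeDivBar hα hβ D ∈
      Divisor.degZero (K := AlgebraicClosure ℚ) (F := modularFunctionFieldBar N) := by
  have hfβ := finiteAlong_FN N (N * ℓ) (heckeBetaBar (AlgebraicClosure ℚ) N ℓ)
  exact Divisor.correspondence_mem_degZero _ _ hβ hα
    (fundamentalIdentityAlong (heckeBetaBar (AlgebraicClosure ℚ) N ℓ) hfβ hβ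
      (Fermat.Agent.S18.H98.deg_eq_one N) (Fermat.Agent.S18.H98.deg_eq_one (N * ℓ))) hD

/-- **`T_q` on a class is the class of the correspondence `α_* β^*`** (no junk value): the form in
which the congruence relation consumes (HI). -/
theorem heckeGen_smul_mk (hcomm : HeckeOperatorsCommuteBar N) (q : Nat.Primes) [NeZero (q : ℕ)]
    (hα : HeckeAlphaBarIntegral (AlgebraicClosure ℚ) N q)
    (hβ : HeckeBetaBarIntegral (AlgebraicClosure ℚ) N q)
    [HasPrincipalDivisors (AlgebraicClosure ℚ) (modularFunctionFieldBar (N * q))]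
    (D : Divisor.degZero (K := AlgebraicClosure ℚ) (F := modularFunctionFieldBar N)) :
    (letI := heckeModuleBar N; heckeGen q • (Pic0.mk D : JZero N)) =
      Pic0.mk ⟨heckeDivBar hα hβ (D : Divisor (AlgebraicClosure ℚ) (modularFunctionFieldBar N)),
        heckeDivBar_mem_degZero N q hα hβ D.2⟩ := by
  have hfα := finiteAlong_FN N (N * q) (heckeAlphaBar (AlgebraicClosure ℚ) N q)
  have hfβ := finiteAlong_FN N (N * q) (heckeBetaBar (AlgebraicClosure ℚ) N q)
  have hdeg := Fermat.Agent.S18.H98.deg_eq_one N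
  have hdeg' := Fermat.Agent.S18.H98.deg_eq_one (N * q)
  have hFI := fundamentalIdentityAlong (heckeBetaBar (AlgebraicClosure ℚ) N q) hfβ hβ hdeg hdeg'
  have hN := normFormulaAlong (heckeAlphaBar (AlgebraicClosure ℚ) N q) hfα hdeg hdeg'
  rw [heckeModuleBar_heckeGen_smul hcomm, heckeOperatorBar_apply]
  have h := heckeOperatorAlong_eq hα hβ hFI hfα hN
  rw [h]
  rfl

/-- integrality of the two degeneracy maps (for consumers that need the proofs by name). -/
theorem heckeAlphaBarIntegral : HeckeAlphaBarIntegral (AlgebraicClosure ℚ) N ℓ :=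
  isIntegral_of_finiteAlong _ (finiteAlong_FN N (N * ℓ) (heckeAlphaBar (AlgebraicClosure ℚ) N ℓ))

theorem heckeBetaBarIntegral : HeckeBetaBarIntegral (AlgebraicClosure ℚ) N ℓ :=
  isIntegral_of_finiteAlong _ (finiteAlong_FN N (N * ℓ) (heckeBetaBar (AlgebraicClosure ℚ) N ℓ))

end Modular

end Fermat.Agent.S37.H37
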