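import Mathlib
import Fermat.Prelude.Def_ModularCurve_ArithmeticGalois
import Fermat.Agent.S18.ConstExtModel_helper39
import Fermat.Agent.S18.PrincDiv_helper98

/-!
# S37, node (RAT) (helper94): rationality of finitely many places over a number field

`Fbar_L = modularFunctionFieldBar L` over `Qbar`, `K0 ⊆ Qbar` a subfield,
`F0 = modularFunctionFieldFullC K0 L` the `K0`-model, `toBar = H74.toBar K0 L`.

* `exists_finset_fix`      : the stabiliser of a place of `Fbar_L` in `Gal(Qbar/ℚ)` contains the
  pointwise stabiliser of a finite subset of `Qbar` (it is open);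
* `value_mem`              : a place fixed by `Gal(Qbar/K0)` is `K0`-rational: the value at it of
  every function of the `K0`-model regular there lies in `K0`;
* `exists_finset_rational` : finitely many places are simultaneously `K0`-rational for all `K0`
  containing a suitable finite set of constants;
* `eq_of_restrictModel_eq` : a `K0`-rational place is the only place of `Fbar_L` above its
  restriction to the `K0`-model.
-/

set_option autoImplicit false

noncomputable section

namespace Fermat.Agent.S37.H94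

open ModularCurve AlgebraicCurve IntermediateField
open Fermat.Agent.S24 Fermat.Agent.S18
open scoped Pointwise

/-- the algebraic closure of `ℚ` -/
abbrev Qb : Type := AlgebraicClosure ℚ

/-- the semilinear automorphism of `Fbar_L` attached to `σ ∈ Gal(Qbar/ℚ)` -/
abbrev gal (L : ℕ) (σ : Qb ≃ₐ[ℚ] Qb) : SemilinearAut Qb ↥(modularFunctionFieldBar L) :=
  arithmeticGalois (modularFunctionFieldFull L) σ

/-! ### generalities on places -/

section Places

variable {K F : Type*} [Field K] [Field F] [Algebra K F]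

/-- nonunits of the valuation ring of a place = zero or positive order -/
theorem mem_nonunits_iff_ord (v : Place K F) (x : F) :
    x ∈ v.toValuationSubring.nonunits ↔ x = 0 ∨ 0 < v.ord x := by
  rw [ValuationSubring.mem_nonunits_iff]
  constructor
  · intro hlt
    by_cases h0 : x = 0
    · exact Or.inl h0
    · refine Or.inr ?_
      have hx : x ∈ v.toValuationSubring :=
        (v.toValuationSubring.valuation_le_one_iff x).mp hlt.le
      have hx' : x⁻¹ ∉ v.toValuationSubring := by
        intro hinv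
        have h1 := H74.val_eq_one_of_mem_of_inv_mem v.toValuationSubring h0 hx hinv
        rw [h1] at hlt
        exact lt_irrefl _ hlt
      have h2 := H19.ord_nonneg_of_mem v hx
      have h3 : ¬ 0 ≤ v.ord x⁻¹ := fun h => hx' (H19.mem_of_ord_nonneg v h)
      rw [v.ord_inv] at h3
      omega
  · rintro (rfl | h)
    · rw [map_zero]
      exact zero_lt_one
    · have hx : x ∈ v.toValuationSubring := H19.mem_of_ord_nonneg v h.le
      refine H74.val_lt_one_of_mem_of_inv_not_mem v.toValuationSubring hx ?_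
      intro hinv
      have := H19.ord_nonneg_of_mem v hinv
      rw [v.ord_inv] at this
      omega

/-- the nonunits of a valuation ring are closed under subtraction -/
theorem nonunits_sub_mem (A : ValuationSubring F) {a b : F} (ha : a ∈ A.nonunits)
    (hb : b ∈ A.nonunits) : a - b ∈ A.nonunits := by
  rw [ValuationSubring.mem_nonunits_iff] at ha hb ⊢
  exact lt_of_le_of_lt (Valuation.map_sub _ a b) (max_lt ha hb)

/-- a constant in the maximal ideal of a place is zero -/
theorem eq_zero_of_algebraMap_mem_nonunits (v : Place K F) {c : K}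
    (h : algebraMap K F c ∈ v.toValuationSubring.nonunits) : c = 0 := by
  by_contra hc
  rcases (mem_nonunits_iff_ord v _).mp h with h0 | h0
  · exact hc ((map_eq_zero _).mp h0)
  · rw [H19.ord_algebraMap] at h0
    exact lt_irrefl _ h0

/-- two places with comparable valuation rings are equal -/
theorem eq_of_le (v v' : Place K F) (h : v.toValuationSubring ≤ v'.toValuationSubring) :
    v' = v := by
  apply Place.ext
  refine le_antisymm ?_ h
  intro x hx
  by_contra hxv
  apply v'.ne_top'
  refine eq_top_iff.mpr fun y _ => ?_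
  have hxo : v.ord x < 0 := by
    by_contra hcon
    exact hxv (H19.mem_of_ord_nonneg v (not_lt.mp hcon))
  have hx0 : x ≠ 0 := by
    rintro rfl
    exact hxv v.toValuationSubring.zero_mem
  by_cases hy0 : y = 0
  · rw [hy0]; exact v'.toValuationSubring.zero_mem
  -- `y * x⁻¹ ^ n ∈ O_v` for `n` large
  obtain ⟨n, hn⟩ : ∃ n : ℕ, 0 ≤ v.ord (y * x⁻¹ ^ n) := by
    refine ⟨(-(v.ord y)).toNat, ?_⟩
    rw [v.ord_mul hy0 (pow_ne_zero _ (inv_ne_zero hx0)), H19.ord_pow, v.ord_inv]
    have h1 : (-(v.ord y)) ≤ ((-(v.ord y)).toNat : ℤ) := Int.self_le_toNat _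
    have h2 : (0 : ℤ) ≤ ((-(v.ord y)).toNat : ℤ) := Int.natCast_nonneg _
    nlinarith
  have h1 : y * x⁻¹ ^ n ∈ v'.toValuationSubring := h (H19.mem_of_ord_nonneg v hn)
  have h2 : y = (y * x⁻¹ ^ n) * x ^ n := by
    rw [mul_assoc, ← mul_pow, inv_mul_cancel₀ hx0, one_pow, mul_one]
  rw [h2]
  exact v'.toValuationSubring.mul_mem _ _ h1 (pow_mem hx n)

/-- distinct places are separated by a function regular at the first one only -/
theorem exists_mem_not_mem (v v' : Place K F) (h : v' ≠ v) :
    ∃ y : F, y ∈ v.toValuationSubring ∧ y ∉ v'.toValuationSubring := by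
  by_contra hcon
  push Not at hcon
  exact h (eq_of_le v v' hcon)

/-- transport of the maximal ideal under a semilinear automorphism -/
theorem smul_mem_nonunits (g : SemilinearAut K F) (v : Place K F) {x : F}
    (hx : x ∈ v.toValuationSubring.nonunits) : g • x ∈ (g • v).toValuationSubring.nonunits := by
  rw [mem_nonunits_iff_ord] at hx ⊢
  rcases hx with rfl | hx
  · exact Or.inl (smul_zero g)
  · exact Or.inr (by rw [SemilinearAut.ord_smul]; exact hx)

end Places

/-! ### fields of definition, Galois form -/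

/-- every element of `Fbar_L` is fixed by the pointwise stabiliser of a finite set of
constants -/
theorem exists_finset_fix_series (L : ℕ) {x : LaurentSeries Qb}
    (hx : x ∈ modularFunctionFieldBar L) :
    ∃ C : Finset Qb, ∀ σ : Qb ≃ₐ[ℚ] Qb, (∀ c ∈ C, σ c = c) →
      coeffMap (σ : Qb →+* Qb) x = x := by
  classical
  change x ∈ IntermediateField.adjoin Qb
    (⇑(coeffEmb Qb) '' ((modularFunctionFieldFull L : IntermediateField ℚ (LaurentSeries ℚ)) :
      Set (LaurentSeries ℚ))) at hx
  induction hx using IntermediateField.adjoin_induction with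
  | mem y hy =>
    obtain ⟨z, _, rfl⟩ := hy
    exact ⟨∅, fun σ _ => coeffMap_coeffEmb σ z⟩
  | algebraMap c =>
    refine ⟨{c}, fun σ h => ?_⟩
    rw [coeffMap_algebraMap]
    exact congrArg _ (h c (Finset.mem_singleton_self c))
  | add y z _ _ ihy ihz =>
    obtain ⟨C1, h1⟩ := ihy
    obtain ⟨C2, h2⟩ := ihz
    refine ⟨C1 ∪ C2, fun σ h => ?_⟩
    rw [map_add, h1 σ (fun c hc => h c (Finset.mem_union_left _ hc)),
      h2 σ (fun c hc => h c (Finset.mem_union_right _ hc))]
  | inv y _ ih =>
    obtain ⟨C1, h1⟩ := ih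
    exact ⟨C1, fun σ h => by rw [map_inv₀, h1 σ h]⟩
  | mul y z _ _ ihy ihz =>
    obtain ⟨C1, h1⟩ := ihy
    obtain ⟨C2, h2⟩ := ihz
    refine ⟨C1 ∪ C2, fun σ h => ?_⟩
    rw [map_mul, h1 σ (fun c hc => h c (Finset.mem_union_left _ hc)),
      h2 σ (fun c hc => h c (Finset.mem_union_right _ hc))]

/-- the same for elements of the field `Fbar_L` and the semilinear action -/
theorem exists_finset_fix_elt (L : ℕ) (y : ↥(modularFunctionFieldBar L)) :
    ∃ C : Finset Qb, ∀ σ : Qb ≃ₐ[ℚ] Qb, (∀ c ∈ C, σ c = c) → gal L σ • y = y := by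
  obtain ⟨C, hC⟩ := exists_finset_fix_series L y.2
  refine ⟨C, fun σ h => Subtype.ext ?_⟩
  rw [coe_arithmeticGalois_smul]
  exact hC σ h

/-! ### (R1) the stabiliser of a place is open -/

/-- **(R1)** A place of `Fbar_L` is fixed by every `σ ∈ Gal(Qbar/ℚ)` fixing a suitable finite
set of constants. -/
theorem exists_finset_fix (L : ℕ) [NeZero L] (P : Place Qb ↥(modularFunctionFieldBar L)) :
    ∃ C : Finset Qb, ∀ σ : Qb ≃ₐ[ℚ] Qb, (∀ c ∈ C, σ c = c) → gal L σ • P = P := by
  classical
  obtain ⟨τ, hτ⟩ := H19.exists_ord_eq_one P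
  obtain ⟨Cτ, hCτ⟩ := exists_finset_fix_elt L τ
  have hfin := H98.finite_ord_ne_zero L τ
  -- separating functions
  have hsep : ∀ P' : Place Qb ↥(modularFunctionFieldBar L), ∃ C : Finset Qb, P' ≠ P →
      ∃ y : ↥(modularFunctionFieldBar L), y ∈ P.toValuationSubring ∧
        y ∉ P'.toValuationSubring ∧
        ∀ σ : Qb ≃ₐ[ℚ] Qb, (∀ c ∈ C, σ c = c) → gal L σ • y = y := by
    intro P'
    by_cases h : P' = P
    · exact ⟨∅, fun h' => absurd h h'⟩
    · obtain ⟨y, hy1, hy2⟩ := exists_mem_not_mem P P' h
      obtain ⟨C, hC⟩ := exists_finset_fix_elt L y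
      exact ⟨C, fun _ => ⟨y, hy1, hy2, hC⟩⟩
  choose Csep hCsep using hsep
  refine ⟨Cτ ∪ hfin.toFinset.biUnion Csep, fun σ hσ => ?_⟩
  have hτσ : gal L σ • τ = τ := hCτ σ (fun c hc => hσ c (Finset.mem_union_left _ hc))
  have hmem : gal L σ • P ∈ hfin.toFinset := by
    rw [Set.Finite.mem_toFinset]
    show (gal L σ • P).ord τ ≠ 0
    have h1 := SemilinearAut.ord_smul (gal L σ) P τ
    rw [hτσ] at h1
    rw [h1, hτ]
    exact one_ne_zero
  by_contra hne
  obtain ⟨y, hy1, hy2, hy3⟩ := hCsep (gal L σ • P) hne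
  have hyσ : gal L σ • y = y := hy3 σ (fun c hc => hσ c (Finset.mem_union_right _
    (Finset.mem_biUnion.mpr ⟨_, hmem, hc⟩)))
  apply hy2
  have h2 := ValuationSubring.smul_mem_pointwise_smul (gal L σ) y P.toValuationSubring hy1
  rw [hyσ] at h2
  exact h2

/-! ### (R2), (R3) rationality -/

section RationalDef

variable (K0 : Type*) [Field K0] [Algebra K0 Qb] (L : ℕ) [NeZero L]

/-- a place of `Fbar_L` is `K0`-rational: the value at it of every function of the
`K0`-model regular there lies in `K0` -/
def IsRational (P : Place Qb ↥(modularFunctionFieldBar L)) : Prop :=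
  ∀ y : ↥(modularFunctionFieldFullC K0 L), H74.toBar K0 L y ∈ P.toValuationSubring →
    ∃ c : K0, H74.toBar K0 L y -
      algebraMap Qb ↥(modularFunctionFieldBar L) (algebraMap K0 Qb c) ∈
        P.toValuationSubring.nonunits

end RationalDef

section Rational

variable (K0 : IntermediateField ℚ Qb) (L : ℕ) [NeZero L]

/-- `Qbar` is algebraic over each of its subfields -/
theorem isAlgebraic_intermediateField : Algebra.IsAlgebraic K0 Qb := by
  have h : Algebra.IsAlgebraic ℚ Qb := AlgebraicClosure.isAlgebraic ℚ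
  exact Algebra.IsAlgebraic.tower_top (K := ℚ) K0

/-- functions of the `K0`-model are fixed by `Gal(Qbar/K0)` -/
theorem gal_smul_toBar (σ : Qb ≃ₐ[ℚ] Qb) (hσ : ∀ c ∈ K0, σ c = c)
    (y : ↥(modularFunctionFieldFullC K0 L)) :
    gal L σ • H74.toBar K0 L y = H74.toBar K0 L y := by
  apply Subtype.ext
  rw [coe_arithmeticGalois_smul, H74.coe_toBar, coeffMap_coeffMap]
  refine coeffMap_congr (RingHom.ext fun c => ?_) _
  exact hσ c c.2

/-- **(R2)** A place fixed by `Gal(Qbar/K0)` is `K0`-rational. -/
theorem value_mem (P : Place Qb ↥(modularFunctionFieldBar L))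
    (hfix : ∀ σ : Qb ≃ₐ[ℚ] Qb, (∀ c ∈ K0, σ c = c) → gal L σ • P = P) :
    IsRational K0 L P := by
  intro y hy
  obtain ⟨a, ha⟩ := H19.residue_eq (H98.jBar L) (H10.transcendental_jBar L)
    (H10.finiteDimensional_FN L) P hy
  have ha' : H74.toBar K0 L y - algebraMap Qb ↥(modularFunctionFieldBar L) a ∈
      P.toValuationSubring.nonunits := by
    rw [mem_nonunits_iff_ord]
    rcases ha with ha | ha
    · exact Or.inl (sub_eq_zero.mpr ha)
    · exact Or.inr ha
  suffices haK : a ∈ K0 from ⟨⟨a, haK⟩, ha'⟩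
  have : IsAlgClosure ℚ Qb := AlgebraicClosure.instIsAlgClosure ℚ
  have : IsGalois ℚ Qb := IsAlgClosure.isGalois ℚ Qb
  rw [← InfiniteGalois.fixedField_fixingSubgroup K0, IntermediateField.mem_fixedField_iff]
  intro σ hσ
  have hσ' : ∀ c ∈ K0, σ c = c := fun c hc =>
    (IntermediateField.mem_fixingSubgroup_iff K0 σ).mp hσ c hc
  have h1 := smul_mem_nonunits (gal L σ) P ha'
  rw [hfix σ hσ', smul_sub, gal_smul_toBar K0 L σ hσ', SemilinearAut.smul_algebraMap] at h1
  have h2 := nonunits_sub_mem _ ha' h1
  have h3 : H74.toBar K0 L y - algebraMap Qb ↥(modularFunctionFieldBar L) a -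
      (H74.toBar K0 L y - algebraMap Qb ↥(modularFunctionFieldBar L)
        (SemilinearAut.baseAut (gal L σ) a)) =
      algebraMap Qb ↥(modularFunctionFieldBar L) (σ a - a) := by
    rw [map_sub]
    have : SemilinearAut.baseAut (gal L σ) a = σ a := rfl
    rw [this]
    ring
  rw [h3] at h2
  exact sub_eq_zero.mp (eq_zero_of_algebraMap_mem_nonunits P h2)

end Rational

/-- **(R3)** Finitely many places of `Fbar_L` are `K0`-rational for every subfield `K0` of
`Qbar` containing a suitable finite set of constants. -/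
theorem exists_finset_rational (L : ℕ) [NeZero L]
    (S : Finset (Place Qb ↥(modularFunctionFieldBar L))) :
    ∃ C : Finset Qb, ∀ K0 : IntermediateField ℚ Qb, (∀ c ∈ C, c ∈ K0) →
      ∀ P ∈ S, IsRational K0 L P := by
  classical
  choose CP hCP using fun P : Place Qb ↥(modularFunctionFieldBar L) => exists_finset_fix L P
  refine ⟨S.biUnion CP, fun K0 hK0 P hP => ?_⟩
  refine value_mem K0 L P (fun σ hσ => hCP P σ fun c hc => hσ c ?_)
  exact hK0 c (Finset.mem_biUnion.mpr ⟨P, hP, hc⟩)

/-! ### (R4) a rational place is alone above its restriction -/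

section Unique

variable (K0 : Type*) [Field K0] [Algebra K0 Qb] (L : ℕ) [NeZero L]

attribute [local instance] H74.algModel H74.algK0Bar H74.isScalarTower_K0_bar
  H74.isScalarTower_model

/-- the `Qbar`-algebra generated by the functions of the `K0`-model regular at `P` -/
def ringW (P : Place Qb ↥(modularFunctionFieldBar L)) :
    Subalgebra Qb ↥(modularFunctionFieldBar L) :=
  Algebra.adjoin Qb (⇑(H74.toBar K0 L) '' {y | H74.toBar K0 L y ∈ P.toValuationSubring})

variable {K0 L}

theorem toBar_mem_ringW {P : Place Qb ↥(modularFunctionFieldBar L)}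
    {y : ↥(modularFunctionFieldFullC K0 L)} (hy : H74.toBar K0 L y ∈ P.toValuationSubring) :
    H74.toBar K0 L y ∈ ringW K0 L P :=
  Algebra.subset_adjoin ⟨y, hy, rfl⟩

/-- `W` lies in the valuation ring of every place with the same regular model functions -/
theorem mem_of_mem_ringW {P P' : Place Qb ↥(modularFunctionFieldBar L)}
    (h : ∀ y : ↥(modularFunctionFieldFullC K0 L), H74.toBar K0 L y ∈ P.toValuationSubring →
      H74.toBar K0 L y ∈ P'.toValuationSubring)
    {w : ↥(modularFunctionFieldBar L)} (hw : w ∈ ringW K0 L P) : w ∈ P'.toValuationSubring := by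
  unfold ringW at hw
  induction hw using Algebra.adjoin_induction with
  | mem x hx =>
    obtain ⟨y, hy, rfl⟩ := hx
    exact h y hy
  | algebraMap c => exact P'.algebraMap_mem' c
  | add x y _ _ hx hy => exact add_mem hx hy
  | mul x y _ _ hx hy => exact mul_mem hx hy

/-- a nonzero constant plus an element of the maximal ideal has order zero -/
theorem ord_algebraMap_add {K F : Type*} [Field K] [Field F] [Algebra K F] (v : Place K F)
    {a : K} (ha : a ≠ 0) {x : F} (hx : x ∈ v.toValuationSubring.nonunits) :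
    algebraMap K F a + x ≠ 0 ∧ v.ord (algebraMap K F a + x) = 0 := by
  have hne : algebraMap K F a + x ≠ 0 := by
    intro h0
    have hx' : x = algebraMap K F (-a) := by
      rw [map_neg]
      exact eq_neg_of_add_eq_zero_right h0
    rw [hx'] at hx
    exact ha (neg_eq_zero.mp (eq_zero_of_algebraMap_mem_nonunits v hx))
  refine ⟨hne, ?_⟩
  have hxO : x ∈ v.toValuationSubring := by
    rcases (mem_nonunits_iff_ord v x).mp hx with rfl | h
    · exact zero_mem _
    · exact H19.mem_of_ord_nonneg v h.le
  have h1 : 0 ≤ v.ord (algebraMap K F a + x) :=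
    H19.ord_nonneg_of_mem v (add_mem (v.algebraMap_mem' a) hxO)
  by_contra hcon
  have hpos : 0 < v.ord (algebraMap K F a + x) := lt_of_le_of_ne h1 (Ne.symm hcon)
  have h2 : algebraMap K F a + x ∈ v.toValuationSubring.nonunits :=
    (mem_nonunits_iff_ord v _).mpr (Or.inr hpos)
  have h3 := nonunits_sub_mem _ h2 hx
  rw [add_sub_cancel_right] at h3
  exact ha (eq_zero_of_algebraMap_mem_nonunits v h3)

/-- first-order expansion in `W` at a rational place -/
theorem ringW_decomp {P : Place Qb ↥(modularFunctionFieldBar L)} (hrat : IsRational K0 L P)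
    (t : ↥(modularFunctionFieldFullC K0 L)) (ht : P.ord (H74.toBar K0 L t) = 1)
    {w : ↥(modularFunctionFieldBar L)} (hw : w ∈ ringW K0 L P) :
    ∃ a : Qb, ∃ w' ∈ ringW K0 L P,
      w = algebraMap Qb ↥(modularFunctionFieldBar L) a + H74.toBar K0 L t * w' := by
  have htW : H74.toBar K0 L t ∈ ringW K0 L P :=
    toBar_mem_ringW (H19.mem_of_ord_nonneg P (by rw [ht]; exact zero_le_one))
  have ht0 : H74.toBar K0 L t ≠ 0 := by
    intro h0
    rw [h0, Place.ord_zero] at ht
    exact zero_ne_one ht
  have ht0' : t ≠ 0 := fun h => ht0 (by rw [h, map_zero])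
  unfold ringW at hw
  induction hw using Algebra.adjoin_induction with
  | mem x hx =>
    obtain ⟨y, hy, rfl⟩ := hx
    obtain ⟨c, hc⟩ := hrat y hy
    refine ⟨algebraMap K0 Qb c,
      H74.toBar K0 L ((y - algebraMap K0 ↥(modularFunctionFieldFullC K0 L) c) / t), ?_, ?_⟩
    · apply toBar_mem_ringW
      rw [map_div₀, map_sub, H74.toBar_algebraMap]
      rcases (mem_nonunits_iff_ord P _).mp hc with h0 | hpos
      · rw [h0, zero_div]
        exact zero_mem _
      · apply H19.mem_of_ord_nonneg
        have hne : H74.toBar K0 L y - algebraMap Qb ↥(modularFunctionFieldBar L)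
            (algebraMap K0 Qb c) ≠ 0 := by
          intro h0
          rw [h0, Place.ord_zero] at hpos
          exact lt_irrefl _ hpos
        rw [H19.ord_div P hne ht0, ht]
        omega
    · rw [map_div₀, map_sub, H74.toBar_algebraMap, mul_div_cancel₀ _ ht0]
      ring
  | algebraMap c => exact ⟨c, 0, zero_mem _, by rw [mul_zero, add_zero]⟩
  | add x y _ _ hx hy =>
    obtain ⟨a1, w1, hw1, rfl⟩ := hx
    obtain ⟨a2, w2, hw2, rfl⟩ := hy
    exact ⟨a1 + a2, w1 + w2, add_mem hw1 hw2, by rw [map_add]; ring⟩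
  | mul x y _ _ hx hy =>
    obtain ⟨a1, w1, hw1, rfl⟩ := hx
    obtain ⟨a2, w2, hw2, rfl⟩ := hy
    refine ⟨a1 * a2, algebraMap Qb ↥(modularFunctionFieldBar L) a1 * w2 +
      algebraMap Qb ↥(modularFunctionFieldBar L) a2 * w1 + H74.toBar K0 L t * (w1 * w2), ?_, ?_⟩
    · exact add_mem (add_mem (mul_mem (Subalgebra.algebraMap_mem _ a1) hw2)
        (mul_mem (Subalgebra.algebraMap_mem _ a2) hw1)) (mul_mem htW (mul_mem hw1 hw2))
    · rw [map_mul]; ring

/-- the two orders agree on `W` -/
theorem ord_eq_of_mem_ringW {P P' : Place Qb ↥(modularFunctionFieldBar L)}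
    (hrat : IsRational K0 L P)
    (h : ∀ y : ↥(modularFunctionFieldFullC K0 L), H74.toBar K0 L y ∈ P.toValuationSubring →
      H74.toBar K0 L y ∈ P'.toValuationSubring)
    (t : ↥(modularFunctionFieldFullC K0 L)) (ht : P.ord (H74.toBar K0 L t) = 1)
    (ht' : P'.ord (H74.toBar K0 L t) = 1) :
    ∀ (n : ℕ) (w : ↥(modularFunctionFieldBar L)), w ∈ ringW K0 L P → w ≠ 0 → P.ord w = n →
      P'.ord w = n := by
  have ht0 : H74.toBar K0 L t ≠ 0 := by
    intro h0
    rw [h0, Place.ord_zero] at ht
    exact zero_ne_one ht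
  intro n
  induction n with
  | zero =>
    intro w hw hw0 hn
    obtain ⟨a, w', hw', rfl⟩ := ringW_decomp hrat t ht hw
    by_cases ha : a = 0
    · exfalso
      rw [ha, map_zero, zero_add] at hn hw0
      have hw'0 : w' ≠ 0 := fun h0 => hw0 (by rw [h0, mul_zero])
      rw [P.ord_mul ht0 hw'0, ht] at hn
      have := H19.ord_nonneg_of_mem P (mem_of_mem_ringW (P' := P) (fun _ hy => hy) hw')
      omega
    · have hx' : H74.toBar K0 L t * w' ∈ P'.toValuationSubring.nonunits := by
        rw [mem_nonunits_iff_ord]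
        by_cases hw'0 : w' = 0
        · exact Or.inl (by rw [hw'0, mul_zero])
        · refine Or.inr ?_
          rw [P'.ord_mul ht0 hw'0, ht']
          have := H19.ord_nonneg_of_mem P' (mem_of_mem_ringW h hw')
          omega
      rw [(ord_algebraMap_add P' ha hx').2]
      rfl
  | succ n ih =>
    intro w hw hw0 hn
    obtain ⟨a, w', hw', rfl⟩ := ringW_decomp hrat t ht hw
    by_cases ha : a = 0
    · rw [ha, map_zero, zero_add] at hn hw0 ⊢
      have hw'0 : w' ≠ 0 := fun h0 => hw0 (by rw [h0, mul_zero])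
      rw [P.ord_mul ht0 hw'0, ht] at hn
      rw [P'.ord_mul ht0 hw'0, ht', ih w' hw' hw'0 (by push_cast at hn ⊢; omega)]
      push_cast
      ring
    · exfalso
      have hx : H74.toBar K0 L t * w' ∈ P.toValuationSubring.nonunits := by
        rw [mem_nonunits_iff_ord]
        by_cases hw'0 : w' = 0
        · exact Or.inl (by rw [hw'0, mul_zero])
        · refine Or.inr ?_
          rw [P.ord_mul ht0 hw'0, ht]
          have := H19.ord_nonneg_of_mem P (mem_of_mem_ringW (P' := P) (fun _ hy => hy) hw')
          omega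
      rw [(ord_algebraMap_add P ha hx).2] at hn
      push_cast at hn
      omega

variable [Algebra.IsAlgebraic K0 Qb]

/-- every element of `Fbar_L` is an element of `W` divided by a power of the uniformiser -/
theorem exists_pow_mul_mem_ringW (P : Place Qb ↥(modularFunctionFieldBar L))
    (t : ↥(modularFunctionFieldFullC K0 L)) (ht : P.ord (H74.toBar K0 L t) = 1)
    (y : ↥(modularFunctionFieldBar L)) : ∃ n : ℕ, H74.toBar K0 L t ^ n * y ∈ ringW K0 L P := by
  have htW : H74.toBar K0 L t ∈ ringW K0 L P :=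
    toBar_mem_ringW (H19.mem_of_ord_nonneg P (by rw [ht]; exact zero_le_one))
  have ht0 : H74.toBar K0 L t ≠ 0 := by
    intro h0
    rw [h0, Place.ord_zero] at ht
    exact zero_ne_one ht
  have hmodel : ∀ y0 : ↥(modularFunctionFieldFullC K0 L),
      ∃ n : ℕ, H74.toBar K0 L t ^ n * H74.toBar K0 L y0 ∈ ringW K0 L P := by
    intro y0
    by_cases hy0 : y0 = 0
    · exact ⟨0, by rw [hy0, map_zero, mul_zero]; exact zero_mem _⟩
    have hy0' : H74.toBar K0 L y0 ≠ 0 := fun h => hy0 ((map_eq_zero _).mp h)
    refine ⟨(-(P.ord (H74.toBar K0 L y0))).toNat, ?_⟩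
    rw [← map_pow, ← map_mul]
    apply toBar_mem_ringW
    apply H19.mem_of_ord_nonneg
    rw [map_mul, map_pow, P.ord_mul (pow_ne_zero _ ht0) hy0', H19.ord_pow, ht]
    have h1 : (-(P.ord (H74.toBar K0 L y0))) ≤
        ((-(P.ord (H74.toBar K0 L y0))).toNat : ℤ) := Int.self_le_toNat _
    omega
  -- the set `M` as a subalgebra over the model
  let S0 : Subalgebra ↥(modularFunctionFieldFullC K0 L) ↥(modularFunctionFieldBar L) :=
    { carrier := {y | ∃ n : ℕ, H74.toBar K0 L t ^ n * y ∈ ringW K0 L P}
      mul_mem' := by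
        rintro a b ⟨n1, h1⟩ ⟨n2, h2⟩
        refine ⟨n1 + n2, ?_⟩
        have e : H74.toBar K0 L t ^ (n1 + n2) * (a * b) =
            (H74.toBar K0 L t ^ n1 * a) * (H74.toBar K0 L t ^ n2 * b) := by ring
        rw [e]
        exact mul_mem h1 h2
      add_mem' := by
        rintro a b ⟨n1, h1⟩ ⟨n2, h2⟩
        refine ⟨n1 + n2, ?_⟩
        have e : H74.toBar K0 L t ^ (n1 + n2) * (a + b) =
            H74.toBar K0 L t ^ n2 * (H74.toBar K0 L t ^ n1 * a) +
              H74.toBar K0 L t ^ n1 * (H74.toBar K0 L t ^ n2 * b) := by ring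
        rw [e]
        exact add_mem (mul_mem (pow_mem htW _) h1) (mul_mem (pow_mem htW _) h2)
      algebraMap_mem' := fun y0 => hmodel y0 }
  have hS0 : ∀ z : ↥(modularFunctionFieldBar L), z ∈ S0 ↔
      ∃ n : ℕ, H74.toBar K0 L t ^ n * z ∈ ringW K0 L P := fun z => Iff.rfl
  have halg := H74.isAlgebraic_model K0 L
  have hinv : ∀ z : ↥(modularFunctionFieldBar L), z ∈ S0 → z⁻¹ ∈ S0 := by
    intro z hz
    exact Subalgebra.inv_mem_of_algebraic S0 (x := ⟨z, hz⟩) (Algebra.IsAlgebraic.isAlgebraic z)
  have hall : ∀ z ∈ IntermediateField.adjoin Qb (Set.range (algebraMap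
      ↥(modularFunctionFieldFullC K0 L) ↥(modularFunctionFieldBar L))), z ∈ S0 := by
    intro z hz
    induction hz using IntermediateField.adjoin_induction with
    | mem x hx =>
      obtain ⟨y0, rfl⟩ := hx
      exact S0.algebraMap_mem y0
    | algebraMap c =>
      exact (hS0 _).mpr ⟨0, by rw [pow_zero, one_mul]; exact Subalgebra.algebraMap_mem _ c⟩
    | add x y _ _ hx hy => exact S0.add_mem hx hy
    | inv x _ hx => exact hinv x hx
    | mul x y _ _ hx hy => exact S0.mul_mem hx hy
  have hy : y ∈ IntermediateField.adjoin Qb (Set.range (algebraMap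
      ↥(modularFunctionFieldFullC K0 L) ↥(modularFunctionFieldBar L))) := by
    rw [H39.adjoin_range_toBar_eq_top K0 L]
    exact IntermediateField.mem_top
  exact (hS0 y).mp (hall y hy)

variable (K0 L)

/-- **(R4)** A `K0`-rational place is the only place of `Fbar_L` above its restriction to the
`K0`-model. -/
theorem eq_of_restrictModel_eq (P P' : Place Qb ↥(modularFunctionFieldBar L))
    (hrat : IsRational K0 L P)
    (h : H74.restrictModel K0 L P' = H74.restrictModel K0 L P) : P' = P := by
  have hiff : ∀ y : ↥(modularFunctionFieldFullC K0 L),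
      H74.toBar K0 L y ∈ P.toValuationSubring → H74.toBar K0 L y ∈ P'.toValuationSubring := by
    intro y hy
    rw [← H74.mem_restrictModel_iff] at hy ⊢
    rw [h]
    exact hy
  obtain ⟨t, ht⟩ := H39.exists_ord_toBar_eq_one K0 L P
  have ht' : P'.ord (H74.toBar K0 L t) = 1 := by
    rw [H39.ord_toBar_eq_ord_restrictModel K0 L P', h,
      ← H39.ord_toBar_eq_ord_restrictModel K0 L P, ht]
  have ht0 : H74.toBar K0 L t ≠ 0 := by
    intro h0
    rw [h0, Place.ord_zero] at ht
    exact zero_ne_one ht
  have key : ∀ f : ↥(modularFunctionFieldBar L), f ≠ 0 → P'.ord f = P.ord f := by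
    intro f hf
    obtain ⟨n, hn⟩ := exists_pow_mul_mem_ringW P t ht f
    have hw0 : H74.toBar K0 L t ^ n * f ≠ 0 := mul_ne_zero (pow_ne_zero _ ht0) hf
    have hnn : 0 ≤ P.ord (H74.toBar K0 L t ^ n * f) :=
      H19.ord_nonneg_of_mem P (mem_of_mem_ringW (P' := P) (fun _ hy => hy) hn)
    have h1 := ord_eq_of_mem_ringW hrat hiff t ht ht'
      (P.ord (H74.toBar K0 L t ^ n * f)).toNat _ hn hw0 (Int.toNat_of_nonneg hnn).symm
    rw [Int.toNat_of_nonneg hnn, P.ord_mul (pow_ne_zero _ ht0) hf,
      P'.ord_mul (pow_ne_zero _ ht0) hf, H19.ord_pow, H19.ord_pow, ht, ht'] at h1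
    linarith
  apply H19.place_ext_of_ord
  intro f
  by_cases hf : f = 0
  · rw [hf, Place.ord_zero, Place.ord_zero]
  · rw [key f hf]

/-- restriction to the `K0`-model is injective on `K0`-rational places -/
theorem restrictModel_injOn (S : Set (Place Qb ↥(modularFunctionFieldBar L)))
    (hS : ∀ P ∈ S, IsRational K0 L P) : Set.InjOn (H74.restrictModel K0 L) S :=
  fun P hP P' _ h => (eq_of_restrictModel_eq K0 L P P' (hS P hP) h.symm).symm

/-! ### (R5) the restriction of a rational place -/

/-- the maximal ideal of the restricted place -/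
theorem mem_nonunits_restrictModel_iff (P : Place Qb ↥(modularFunctionFieldBar L))
    (y : ↥(modularFunctionFieldFullC K0 L)) :
    y ∈ (H74.restrictModel K0 L P).toValuationSubring.nonunits ↔
      H74.toBar K0 L y ∈ P.toValuationSubring.nonunits := by
  rw [mem_nonunits_iff_ord, mem_nonunits_iff_ord, H39.ord_toBar_eq_ord_restrictModel K0 L P y,
    map_eq_zero]

/-- **(R5)** the restriction of a `K0`-rational place to the `K0`-model has values in `K0` -/
theorem exists_sub_mem_nonunits_restrictModel (P : Place Qb ↥(modularFunctionFieldBar L))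
    (hrat : IsRational K0 L P) (y : ↥(modularFunctionFieldFullC K0 L))
    (hy : y ∈ (H74.restrictModel K0 L P).toValuationSubring) :
    ∃ c : K0, y - algebraMap K0 ↥(modularFunctionFieldFullC K0 L) c ∈
      (H74.restrictModel K0 L P).toValuationSubring.nonunits := by
  obtain ⟨c, hc⟩ := hrat y ((H74.mem_restrictModel_iff K0 L P y).mp hy)
  refine ⟨c, ?_⟩
  rw [mem_nonunits_restrictModel_iff, map_sub, H74.toBar_algebraMap]
  exact hc

/-- **(R5)** the restriction of a `K0`-rational place has degree one -/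
theorem deg_restrictModel_eq_one (P : Place Qb ↥(modularFunctionFieldBar L))
    (hrat : IsRational K0 L P) : (H74.restrictModel K0 L P).deg = 1 := by
  set O := H74.restrictModel K0 L P with hO
  have hsurj : Function.Surjective (algebraMap K0 O.ResidueField) := by
    intro z
    obtain ⟨y, rfl⟩ := IsLocalRing.residue_surjective z
    obtain ⟨c, hc⟩ := exists_sub_mem_nonunits_restrictModel K0 L P hrat (y : _) y.2
    refine ⟨c, ?_⟩
    rw [IsScalarTower.algebraMap_apply K0 O.toValuationSubring O.ResidueField]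
    show IsLocalRing.residue _ (algebraMap K0 O.toValuationSubring c) = IsLocalRing.residue _ y
    rw [eq_comm, ← sub_eq_zero, ← map_sub, IsLocalRing.residue_eq_zero_iff]
    rw [ValuationSubring.mem_nonunits_iff_exists_mem_maximalIdeal] at hc
    obtain ⟨h1, h2⟩ := hc
    exact h2
  have hbij : Function.Bijective (algebraMap K0 O.ResidueField) :=
    ⟨(algebraMap K0 O.ResidueField).injective, hsurj⟩
  unfold Place.deg
  have e : K0 ≃ₗ[K0] O.ResidueField :=
    LinearEquiv.ofBijective (Algebra.linearMap K0 O.ResidueField) hbij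
  rw [← e.finrank_eq, Module.finrank_self]

end Unique

end Fermat.Agent.S37.H94
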