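import Mathlib
import Fermat.Agent.S18.GaussKC_helper92
import Fermat.Agent.S18.GaussFull_helper93
import Fermat.Agent.S18.TopGen_helper19

/-!
# S37, (a)-assembly, node (A3): the chart package (helper92)

The consumer forms of (UNIT') (`H66.unit_mod_of_places`, `H66.unit_mod_of_centred_places`,
`H25.unit_mod_of_rational_places`, `H42.unit_mod_of_sections`) take, for one chart `B` of the
`K0`-model, the hypotheses

`hπ hinj harch hAmax hπV hVπ hBV hnoeth hfrac hsat`   (and `hreg`).

`ChartPkg A F π V B` bundles exactly these ten (in that order, literally); `chartPkg` proves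
them for the Gauss valuation ring `V = H93.gaussWFull K0 L A0 ℓ _` and the two integral-closure
charts `H97.chartU A0 ξ`, `H97.chartV A0 ξ` of a chart coordinate `ξ` given by an `A0`-integral
series with `A0`-integral inverse, transcendental reduction and `j ∈ K0(ξ)` (the chart
coordinate data of `H19.modelKum_of_chart`, literally).  No hypothesis on the level beyond
`ℓ ∤ L`; `(REG)` is not part of the package.
-/

set_option autoImplicit false
set_option synthInstance.maxHeartbeats 400000

open ModularCurve IntermediateField Polynomial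

namespace Fermat.Agent.S37.H92

noncomputable section

open Fermat.Agent.S18

/-- The non-divisor hypotheses of (UNIT') for one chart `B` (Gauss valuation ring `V`,
uniformiser `π` of the base `A`). -/
structure ChartPkg (A F : Type) [CommRing A] [IsDomain A] [Field F] [Algebra A F] (π : A)
    (V : ValuationSubring F) (B : Subalgebra A F) : Prop where
  pi_ne : π ≠ 0
  inj : Function.Injective (algebraMap A F)
  arch : ∀ c : A, c ≠ 0 → ∃ n : ℕ, c ∣ π ^ n
  amax : ∀ a : A, ¬ π ∣ a → IsUnit a
  pi_mem : algebraMap A F π ∈ V.nonunits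
  nonunits : ∀ x ∈ V.nonunits, ∃ y ∈ V, x = algebraMap A F π * y
  le : ∀ x ∈ B, x ∈ V
  noeth : IsNoetherianRing B
  frac : ∀ x : F, ∃ a ∈ B, ∃ b ∈ B, b ≠ 0 ∧ x * b = a
  sat : ∀ x ∈ B, (∃ y ∈ V, x = algebraMap A F π * y) → ∃ b ∈ B, x = algebraMap A F π * b

section DVR

variable {R : Type*} [CommRing R] [IsDomain R] [IsDiscreteValuationRing R]

/-- In a DVR every nonzero element divides a power of a uniformiser. -/
theorem dvd_pow_of_irreducible {π : R} (hπ : Irreducible π) (c : R) (hc : c ≠ 0) :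
    ∃ n : ℕ, c ∣ π ^ n := by
  obtain ⟨n, hn⟩ := IsDiscreteValuationRing.associated_pow_irreducible hc hπ
  exact ⟨n, hn.dvd⟩

/-- In a DVR an element not divisible by a uniformiser is a unit. -/
theorem isUnit_of_not_dvd {π : R} (hπ : Irreducible π) (a : R) (ha : ¬ π ∣ a) : IsUnit a := by
  have hmax : IsLocalRing.maximalIdeal R = Ideal.span {π} :=
    (IsDiscreteValuationRing.irreducible_iff_uniformizer π).mp hπ
  rw [← IsLocalRing.notMem_maximalIdeal, hmax, Ideal.mem_span_singleton]
  exact ha

end DVR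

section Generic

variable {K0 : Type} [Field K0] [CharZero K0] (A0 : ValuationSubring K0)
  [IsDiscreteValuationRing A0] (ℓ : ℕ) [Fact ℓ.Prime]
  [CharP (IsLocalRing.ResidueField A0) ℓ] (L : ℕ) [NeZero L] (hℓL : ¬ ℓ ∣ L)

set_option maxHeartbeats 1600000 in
/-- **The chart package.**  For a chart coordinate `ξ = ι xA` of the `K0`-model (an
`A0`-integral series with `A0`-integral inverse, transcendental reduction, `j ∈ K0(ξ)`), the
Gauss valuation ring and the two integral-closure charts of `ξ` satisfy all the non-divisor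
hypotheses of (UNIT'). -/
theorem chartPkg (π : A0) (hπ : Irreducible π)
    (xA xA' : LaurentSeries A0) (hxx : xA * xA' = 1)
    (hx : H93.iotaA A0 xA ∈ modularFunctionFieldFullC K0 L)
    (hxtr : ∀ P : Polynomial (IsLocalRing.ResidueField A0),
      H93.evC P (H93.redA A0 xA) = 0 → P = 0)
    (hJx : (⟨jqModC K0, jqModC_mem_full K0 L⟩ : modularFunctionFieldFullC K0 L) ∈
      K0⟮(⟨H93.iotaA A0 xA, hx⟩ : modularFunctionFieldFullC K0 L)⟯) :
    ChartPkg ↥A0 ↥(modularFunctionFieldFullC K0 L) π (H93.gaussWFull K0 L A0 ℓ hℓL)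
        (H97.chartU (↥A0) (⟨H93.iotaA A0 xA, hx⟩ : modularFunctionFieldFullC K0 L)) ∧
      ChartPkg ↥A0 ↥(modularFunctionFieldFullC K0 L) π (H93.gaussWFull K0 L A0 ℓ hℓL)
        (H97.chartV (↥A0) (⟨H93.iotaA A0 xA, hx⟩ : modularFunctionFieldFullC K0 L)) ∧
      (∀ a : A0, algebraMap ↥A0 ↥(modularFunctionFieldFullC K0 L) a ∈
        H93.gaussWFull K0 L A0 ℓ hℓL) ∧
      (⟨H93.iotaA A0 xA, hx⟩ : modularFunctionFieldFullC K0 L) ∈ H93.gaussWFull K0 L A0 ℓ hℓL ∧
      (⟨H93.iotaA A0 xA, hx⟩ : modularFunctionFieldFullC K0 L)⁻¹ ∈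
        H93.gaussWFull K0 L A0 ℓ hℓL ∧
      Transcendental K0 (⟨H93.iotaA A0 xA, hx⟩ : modularFunctionFieldFullC K0 L) ∧
      FiniteDimensional K0⟮(⟨H93.iotaA A0 xA, hx⟩ : modularFunctionFieldFullC K0 L)⟯
        ↥(modularFunctionFieldFullC K0 L) := by
  have : IsScalarTower ↥A0 K0 ↥(modularFunctionFieldFullC K0 L) := H19.isScalarTower_A0 A0 _
  set hD := H93.fullData K0 L A0 ℓ hℓL with hDdef
  set F0 : IntermediateField K0 (LaurentSeries K0) := modularFunctionFieldFullC K0 L with hF0
  set ξ : F0 := ⟨H93.iotaA A0 xA, hx⟩ with hξdef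
  have hJ : H93.jElt hD = (⟨jqModC K0, jqModC_mem_full K0 L⟩ : F0) :=
    Subtype.ext (coeffMap_jqModC _)
  have hJx1 : H93.jElt hD ∈ K0⟮ξ⟯ := by rw [hJ]; exact hJx
  have hξ : Transcendental K0 ξ :=
    H19.transcendental_of_mem_adjoin_simple (H19.transcendental_jElt hD) hJx1
  have hfin : FiniteDimensional K0⟮ξ⟯ F0 :=
    H19.finite_of_mem_adjoin_simple hJx1 (H19.finite_adjoin_jElt hD)
  obtain ⟨hAV, hxV, hxV', hπV, hVπ, hsatU, hsatV⟩ :=
    S18.H92.gauss_kc hD hπ xA xA' hxx hx hxtr hJx1
  have hinj : Function.Injective (algebraMap ↥A0 ↥F0) :=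
    H97.algebraMap_injective_of_isFractionRing ↥A0 K0 ↥F0
  refine ⟨?_, ?_, hAV, hxV, hxV', hξ, hfin⟩
  · exact
      { pi_ne := hπ.ne_zero
        inj := hinj
        arch := dvd_pow_of_irreducible hπ
        amax := isUnit_of_not_dvd hπ
        pi_mem := hπV
        nonunits := hVπ
        le := fun y hy => H97.chartU_le_valuationSubring _ hAV hxV hy
        noeth := H97.isNoetherianRing_chartU (A := ↥A0) (K := K0) hξ
        frac := fun y => H97.exists_chartU_mul_eq_of_finiteDimensional (A := ↥A0) (K := K0) ξ y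
        sat := hsatU }
  · exact
      { pi_ne := hπ.ne_zero
        inj := hinj
        arch := dvd_pow_of_irreducible hπ
        amax := isUnit_of_not_dvd hπ
        pi_mem := hπV
        nonunits := hVπ
        le := fun y hy => H97.chartV_le_valuationSubring _ hAV hxV' hy
        noeth := H97.isNoetherianRing_chartV (A := ↥A0) (K := K0) hξ
        frac := fun y => H97.exists_chartV_mul_eq_of_finiteDimensional (A := ↥A0) (K := K0) ξ y
        sat := hsatV }

end Generic

end

end Fermat.Agent.S37.H92
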