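import Mathlib
import Fermat.Agent.S37.ChartPkg_helper92
import Fermat.Agent.S18.TopFin_helper19

/-!
# S37, (a)-assembly, node (A3): the chart package with `(REG)` (helper92)

`ChartReg A F π V B` = `ChartPkg A F π V B` + the literal `(REG)` hypothesis `hreg` of the
consumer forms of (UNIT') (`H66.unit_mod_of_places`, `H66.unit_mod_of_centred_places`,
`H25.unit_mod_of_rational_places`, `H42.unit_mod_of_sections`, `H89.unit_congr`).

* `coordReg_of_chart`: chart-generic (the hypotheses of `H19.modelKumGen_of_chart`), output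
  `CoordReg A0 ℓ L hℓL π ξ` = both chart packages with `(REG)` + the facts on `ξ`.
* `coordReg_j`, `coordReg_two`, `coordReg_three`: the three coordinates `j`, `t_2`, `t_3` over a
  generic field `K0 ⊆ Qbar` with a discrete valuation subring `A0` (any `ξ` of the model with
  the stated `q`-expansion).

In all cases `V = H93.gaussWFull K0 L A0 ℓ _` and the charts are `H97.chartU A0 ξ`,
`H97.chartV A0 ξ`.
-/

set_option autoImplicit false
set_option synthInstance.maxHeartbeats 400000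

open ModularCurve IntermediateField Polynomial

namespace Fermat.Agent.S37.H92

noncomputable section

open Fermat.Agent.S18

/-- The chart package together with the literal `(REG)` hypothesis of (UNIT'). -/
structure ChartReg (A F : Type) [CommRing A] [IsDomain A] [Field F] [Algebra A F] (π : A)
    (V : ValuationSubring F) (B : Subalgebra A F) : Prop extends ChartPkg A F π V B where
  reg : ∀ n : Ideal B, n.IsMaximal → algebraMap A B π ∈ n →
      ∃ τ ∈ n, ∀ a : B, a ∉ Ideal.span {algebraMap A B π} →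
        ∃ (e : ℕ) (d u : B), d ∉ n ∧ u ∉ n ∧
          a * d - u * τ ^ e ∈ Ideal.span {algebraMap A B π}

/-- The data exported for one chart coordinate `ξ`: the two chart packages with `(REG)` and
the facts about `ξ` used by the end of the (a)-assembly. -/
structure CoordReg {K0 : Type} [Field K0] [CharZero K0] (A0 : ValuationSubring K0)
    [IsDiscreteValuationRing A0] (ℓ : ℕ) [Fact ℓ.Prime]
    [CharP (IsLocalRing.ResidueField A0) ℓ] (L : ℕ) [NeZero L] (hℓL : ¬ ℓ ∣ L) (π : A0)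
    (ξ : modularFunctionFieldFullC K0 L) : Prop where
  regU : ChartReg ↥A0 ↥(modularFunctionFieldFullC K0 L) π (H93.gaussWFull K0 L A0 ℓ hℓL)
    (H97.chartU (↥A0) ξ)
  regV : ChartReg ↥A0 ↥(modularFunctionFieldFullC K0 L) π (H93.gaussWFull K0 L A0 ℓ hℓL)
    (H97.chartV (↥A0) ξ)
  const_mem : ∀ a : A0, algebraMap ↥A0 ↥(modularFunctionFieldFullC K0 L) a ∈
    H93.gaussWFull K0 L A0 ℓ hℓL
  coord_mem : ξ ∈ H93.gaussWFull K0 L A0 ℓ hℓL
  inv_mem : ξ⁻¹ ∈ H93.gaussWFull K0 L A0 ℓ hℓL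
  transc : Transcendental K0 ξ
  fin : FiniteDimensional K0⟮ξ⟯ ↥(modularFunctionFieldFullC K0 L)

section Generic

variable {K0 : Type} [Field K0] [CharZero K0]
  (A0 : ValuationSubring K0) [IsDiscreteValuationRing A0] (ℓ : ℕ) [Fact ℓ.Prime]
  [CharP (IsLocalRing.ResidueField A0) ℓ] [PerfectField (IsLocalRing.ResidueField A0)]
  (L : ℕ) [NeZero L]

set_option maxHeartbeats 1600000 in
/-- **The chart package with `(REG)`, chart-generic.**  Chart data (`xA`, `xA'` mutually inverse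
integral series with `ι xA`, `ι xA'` in the model, `j ∈ K0(ξ)`, the reduction of `xA`
transcendental with `θ ≠ 0`) and, for each of the two charts, a branch polynomial with
squarefree reduction and the unramifiedness statement. -/
theorem coordReg_of_chart (hℓL : ¬ ℓ ∣ L) (π : A0) (hπ : Irreducible π)
    (xA xA' : LaurentSeries A0) (hxx : xA * xA' = 1)
    (hx : H93.iotaA A0 xA ∈ modularFunctionFieldFullC K0 L)
    (hx' : H93.iotaA A0 xA' ∈ modularFunctionFieldFullC K0 L)
    (hxtr : ∀ P : Polynomial (IsLocalRing.ResidueField A0),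
      H93.evC P (H93.redA A0 xA) = 0 → P = 0)
    (hJx : (⟨jqModC K0, jqModC_mem_full K0 L⟩ : modularFunctionFieldFullC K0 L) ∈
      K0⟮(⟨H93.iotaA A0 xA, hx⟩ : modularFunctionFieldFullC K0 L)⟯)
    (hθ : H85.theta (H93.redA A0 xA) ≠ 0)
    (Pi Pi' : (↥A0)[X])
    (hPi : Squarefree (Pi.map (Ideal.Quotient.mk (Ideal.span {π}))))
    (hPi' : Squarefree (Pi'.map (Ideal.Quotient.mk (Ideal.span {π}))))
    (hunr : letI : Algebra K0[X] ↥(modularFunctionFieldFullC K0 L) :=
        H19.polyAlg (⟨H93.iotaA A0 xA, hx⟩ : modularFunctionFieldFullC K0 L)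
      ∀ p : Ideal K0[X], p.IsMaximal → Pi.map (algebraMap (↥A0) K0) ∉ p →
        (p.map (algebraMap K0[X]
          (integralClosure K0[X] ↥(modularFunctionFieldFullC K0 L)))).IsRadical)
    (hunr' : letI : Algebra K0[X] ↥(modularFunctionFieldFullC K0 L) :=
        H19.polyAlg (⟨H93.iotaA A0 xA', hx'⟩ : modularFunctionFieldFullC K0 L)
      ∀ p : Ideal K0[X], p.IsMaximal → Pi'.map (algebraMap (↥A0) K0) ∉ p →
        (p.map (algebraMap K0[X]
          (integralClosure K0[X] ↥(modularFunctionFieldFullC K0 L)))).IsRadical) :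
    CoordReg A0 ℓ L hℓL π (⟨H93.iotaA A0 xA, hx⟩ : modularFunctionFieldFullC K0 L) := by
  set F0 : IntermediateField K0 (LaurentSeries K0) := modularFunctionFieldFullC K0 L with hF0
  set ξ : F0 := ⟨H93.iotaA A0 xA, hx⟩ with hξdef
  set ξ' : F0 := ⟨H93.iotaA A0 xA', hx'⟩ with hξ'def
  have hιxx : H93.iotaA A0 xA * H93.iotaA A0 xA' = 1 := by rw [← map_mul, hxx, map_one]
  have hξinv : ξ⁻¹ = ξ' := by
    apply Subtype.ext
    show (H93.iotaA A0 xA)⁻¹ = H93.iotaA A0 xA'
    exact (eq_inv_of_mul_eq_one_right hιxx).symm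
  have hJx' : (⟨jqModC K0, jqModC_mem_full K0 L⟩ : F0) ∈ K0⟮ξ'⟯ := by
    rw [← hξinv]
    exact H93.mem_adjoin_inv_of_mem_adjoin hJx
  have hrr : H93.redA A0 xA * H93.redA A0 xA' = 1 := by rw [← map_mul, hxx, map_one]
  have hxtr' : ∀ P : Polynomial (IsLocalRing.ResidueField A0),
      H93.evC P (H93.redA A0 xA') = 0 → P = 0 :=
    H19.evC_inj_of_mul_eq_one hrr hxtr
  have hθ' : H85.theta (H93.redA A0 xA') ≠ 0 := H19.theta_ne_zero_of_mul_eq_one hrr hθ
  have hregU := H19.regU_core A0 ℓ L hℓL π hπ xA hx hxtr hJx hθ Pi hPi hunr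
  have hregV' := H19.regU_core A0 ℓ L hℓL π hπ xA' hx' hxtr' hJx' hθ' Pi' hPi' hunr'
  have hregV : ∀ n : Ideal (H97.chartV (↥A0) ξ), n.IsMaximal →
      algebraMap (↥A0) (H97.chartV (↥A0) ξ) π ∈ n →
      ∃ τ ∈ n, ∀ a : H97.chartV (↥A0) ξ,
        a ∉ Ideal.span {algebraMap (↥A0) (H97.chartV (↥A0) ξ) π} →
        ∃ (e : ℕ) (d u : H97.chartV (↥A0) ξ), d ∉ n ∧ u ∉ n ∧
          a * d - u * τ ^ e ∈ Ideal.span {algebraMap (↥A0) (H97.chartV (↥A0) ξ) π} := by
    show ∀ n : Ideal (H97.chartU (↥A0) ξ⁻¹), n.IsMaximal →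
      algebraMap (↥A0) (H97.chartU (↥A0) ξ⁻¹) π ∈ n →
      ∃ τ ∈ n, ∀ a : H97.chartU (↥A0) ξ⁻¹,
        a ∉ Ideal.span {algebraMap (↥A0) (H97.chartU (↥A0) ξ⁻¹) π} →
        ∃ (e : ℕ) (d u : H97.chartU (↥A0) ξ⁻¹), d ∉ n ∧ u ∉ n ∧
          a * d - u * τ ^ e ∈ Ideal.span {algebraMap (↥A0) (H97.chartU (↥A0) ξ⁻¹) π}
    rw [hξinv]
    exact hregV'
  obtain ⟨pU, pV, hAV, hxV, hxV', htr, hfin⟩ :=
    chartPkg A0 ℓ L hℓL π hπ xA xA' hxx hx hxtr hJx
  exact
    { regU := { toChartPkg := pU, reg := hregU }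
      regV := { toChartPkg := pV, reg := hregV }
      const_mem := hAV
      coord_mem := hxV
      inv_mem := hxV'
      transc := htr
      fin := hfin }

end Generic

/-! ### the three chart coordinates over a generic field `K0 ⊆ Qbar` -/

section Coords

variable {K0 : Type} [Field K0] [CharZero K0] [Algebra K0 (AlgebraicClosure ℚ)]
  [Algebra.IsAlgebraic K0 (AlgebraicClosure ℚ)]
  (A0 : ValuationSubring K0) [IsDiscreteValuationRing A0] (ℓ : ℕ) [Fact ℓ.Prime]
  [CharP (IsLocalRing.ResidueField A0) ℓ] [PerfectField (IsLocalRing.ResidueField A0)]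
  (L : ℕ) [NeZero L]

set_option maxHeartbeats 1600000 in
/-- **The chart `ξ = j`**, for `1728` a unit of `A0` (residue characteristic `≥ 5`). -/
theorem coordReg_j (hℓL : ¬ ℓ ∣ L) (h1728 : IsUnit (1728 : A0)) (π : A0) (hπ : Irreducible π)
    (ξ : modularFunctionFieldFullC K0 L) (hξ : (ξ : LaurentSeries K0) = jqModC K0) :
    CoordReg A0 ℓ L hℓL π ξ := by
  have hιj : H93.iotaA A0 (jqModC A0) = jqModC K0 := coeffMap_jqModC _
  have hrj : H93.redA A0 (jqModC A0) = jqModC (IsLocalRing.ResidueField A0) :=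
    coeffMap_jqModC _
  have hx : H93.iotaA A0 (jqModC A0) ∈ modularFunctionFieldFullC K0 L := by
    rw [hιj]; exact jqModC_mem_full K0 L
  have hιmul : H93.iotaA A0 (jqModC A0) * H93.iotaA A0 (H19.jqInv A0) = 1 := by
    rw [← map_mul, H19.jqModC_mul_jqInv, map_one]
  have hx' : H93.iotaA A0 (H19.jqInv A0) ∈ modularFunctionFieldFullC K0 L := by
    rw [eq_inv_of_mul_eq_one_right hιmul]
    exact inv_mem hx
  obtain rfl : ξ = ⟨H93.iotaA A0 (jqModC A0), hx⟩ := Subtype.ext (hξ.trans hιj.symm)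
  refine coordReg_of_chart A0 ℓ L hℓL π hπ (jqModC A0) (H19.jqInv A0)
    (H19.jqModC_mul_jqInv A0) hx hx' ?_ ?_ ?_ (X * (X - C 1728)) (X * (C 1728 * X - 1))
    ?_ ?_ ?_ ?_
  · intro P h
    rw [hrj] at h
    exact H93.evC_jqModC_eq_zero _ P h
  · have e : (⟨jqModC K0, jqModC_mem_full K0 L⟩ : modularFunctionFieldFullC K0 L) =
        ⟨H93.iotaA A0 (jqModC A0), hx⟩ := Subtype.ext hιj.symm
    rw [e]
    exact IntermediateField.mem_adjoin_simple_self K0 _
  · rw [hrj]
    exact H85.theta_jqModC_ne_zero _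
  · exact H51.squarefree_map_X_mul_X_sub_C' π hπ (H19.not_dvd_of_isUnit A0 hπ h1728)
  · exact H51.squarefree_map_X_mul_C_mul_X_sub_one π
      (PrincipalIdealRing.isMaximal_of_irreducible hπ)
      (H51.notMem_span_of_isUnit π (PrincipalIdealRing.isMaximal_of_irreducible hπ) h1728)
  · let _ : Algebra K0[X] ↥(modularFunctionFieldFullC K0 L) :=
      H19.polyAlg (⟨H93.iotaA A0 (jqModC A0), hx⟩ : modularFunctionFieldFullC K0 L)
    intro p hp hPip
    refine H10.isRadical_model_j_std K0 L _ hιj (fun _ => rfl) p hp ?_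
    have e : (X * (X - C 1728) : (↥A0)[X]).map (algebraMap ↥A0 K0) = X * (X - C 1728) := by
      rw [Polynomial.map_mul, Polynomial.map_sub, Polynomial.map_X, Polynomial.map_C,
        map_ofNat]
    rwa [e] at hPip
  · let _ : Algebra K0[X] ↥(modularFunctionFieldFullC K0 L) :=
      H19.polyAlg (⟨H93.iotaA A0 (H19.jqInv A0), hx'⟩ : modularFunctionFieldFullC K0 L)
    intro p hp hPip
    refine H10.isRadical_model_j_inv_std K0 L _ ?_ (fun _ => rfl) p hp ?_
    · show H93.iotaA A0 (H19.jqInv A0) * jqModC K0 = 1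
      rw [← hιj, mul_comm]
      exact hιmul
    · have e : (X * (C 1728 * X - 1) : (↥A0)[X]).map (algebraMap ↥A0 K0) =
          X * (C 1728 * X - 1) := by
        rw [Polynomial.map_mul, Polynomial.map_sub, Polynomial.map_mul, Polynomial.map_X,
          Polynomial.map_C, Polynomial.map_one, map_ofNat]
      rwa [e] at hPip

set_option maxHeartbeats 1600000 in
/-- **The chart `ξ = t_2`** (`2 ∣ L`), for `64` a unit of `A0` (odd residue characteristic). -/
theorem coordReg_two (hℓL : ¬ ℓ ∣ L) (hML : 2 ∣ L) (hc : IsUnit (64 : A0)) (π : A0)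
    (hπ : Irreducible π) (ξ : modularFunctionFieldFullC K0 L)
    (hξ : (ξ : LaurentSeries K0) = H69.haupt2 K0) :
    CoordReg A0 ℓ L hℓL π ξ := by
  have hιt : H93.iotaA A0 (H69.haupt2 ↥A0) = H69.haupt2 K0 := H69.coeffMap_haupt2 _
  have hιt' : H93.iotaA A0 (H69.haupt2Inv ↥A0) = H69.haupt2Inv K0 :=
    H69.coeffMap_haupt2Inv _
  have hrt : H93.redA A0 (H69.haupt2 ↥A0) = H69.haupt2 (IsLocalRing.ResidueField A0) :=
    H69.coeffMap_haupt2 _
  have hx : H93.iotaA A0 (H69.haupt2 ↥A0) ∈ modularFunctionFieldFullC K0 L := by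
    rw [hιt]; exact H69.haupt2_mem_full K0 L hML
  have hx' : H93.iotaA A0 (H69.haupt2Inv ↥A0) ∈ modularFunctionFieldFullC K0 L := by
    rw [hιt']; exact H69.haupt2Inv_mem_full K0 L hML
  obtain rfl : ξ = ⟨H93.iotaA A0 (H69.haupt2 ↥A0), hx⟩ := Subtype.ext (hξ.trans hιt.symm)
  refine coordReg_of_chart A0 ℓ L hℓL π hπ (H69.haupt2 ↥A0) (H69.haupt2Inv ↥A0)
    (H69.haupt2_mul_inv ↥A0) hx hx' ?_ ?_ ?_ (X * (X + C 64)) (X * (C 64 * X + 1))
    ?_ ?_ ?_ ?_
  · intro P h
    rw [hrt] at h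
    exact H36.Coord.evC_eq_zero_of_transcendental
      (H36.Coord.transcendental_haupt2 (IsLocalRing.ResidueField A0)) P h
  · exact H36.Coord.j_mem_adjoin_haupt2 (modularFunctionFieldFullC K0 L) _ _ rfl hιt
  · rw [hrt]
    exact H85.theta_ne_zero_of_coeff_neg_one _ (H69.coeff_haupt2_neg_one _)
  · exact H51.squarefree_map_X_mul_X_add_C' π hπ (H19.not_dvd_of_isUnit A0 hπ hc)
  · exact H51.squarefree_map_X_mul_C_mul_X_add_one π
      (PrincipalIdealRing.isMaximal_of_irreducible hπ)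
      (H51.notMem_span_of_isUnit π (PrincipalIdealRing.isMaximal_of_irreducible hπ) hc)
  · let _ : Algebra K0[X] ↥(modularFunctionFieldFullC K0 L) :=
      H19.polyAlg (⟨H93.iotaA A0 (H69.haupt2 ↥A0), hx⟩ : modularFunctionFieldFullC K0 L)
    intro p hp hPip
    refine H10.isRadical_model_two_std K0 L _ hιt (fun _ => rfl) p hp ?_
    have e : (X * (X + C 64) : (↥A0)[X]).map (algebraMap ↥A0 K0) = X * (X + C 64) := by
      rw [Polynomial.map_mul, Polynomial.map_add, Polynomial.map_X, Polynomial.map_C,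
        map_ofNat]
    rwa [e] at hPip
  · let _ : Algebra K0[X] ↥(modularFunctionFieldFullC K0 L) :=
      H19.polyAlg (⟨H93.iotaA A0 (H69.haupt2Inv ↥A0), hx'⟩ : modularFunctionFieldFullC K0 L)
    intro p hp hPip
    refine H10.isRadical_model_two_inv_std K0 L _ hιt' (fun _ => rfl) p hp ?_
    have e : (X * (C 64 * X + 1) : (↥A0)[X]).map (algebraMap ↥A0 K0) =
        X * (C 64 * X + 1) := by
      rw [Polynomial.map_mul, Polynomial.map_add, Polynomial.map_mul, Polynomial.map_X,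
        Polynomial.map_C, Polynomial.map_one, map_ofNat]
    rwa [e] at hPip

set_option maxHeartbeats 1600000 in
/-- **The chart `ξ = t_3`** (`3 ∣ L`), for `27` a unit of `A0` (residue characteristic
`≠ 3`). -/
theorem coordReg_three (hℓL : ¬ ℓ ∣ L) (hML : 3 ∣ L) (hc : IsUnit (27 : A0)) (π : A0)
    (hπ : Irreducible π) (ξ : modularFunctionFieldFullC K0 L)
    (hξ : (ξ : LaurentSeries K0) = H69.haupt3 K0) :
    CoordReg A0 ℓ L hℓL π ξ := by
  have hιt : H93.iotaA A0 (H69.haupt3 ↥A0) = H69.haupt3 K0 := H69.coeffMap_haupt3 _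
  have hιt' : H93.iotaA A0 (H69.haupt3Inv ↥A0) = H69.haupt3Inv K0 :=
    H69.coeffMap_haupt3Inv _
  have hrt : H93.redA A0 (H69.haupt3 ↥A0) = H69.haupt3 (IsLocalRing.ResidueField A0) :=
    H69.coeffMap_haupt3 _
  have hx : H93.iotaA A0 (H69.haupt3 ↥A0) ∈ modularFunctionFieldFullC K0 L := by
    rw [hιt]; exact H69.haupt3_mem_full K0 L hML
  have hx' : H93.iotaA A0 (H69.haupt3Inv ↥A0) ∈ modularFunctionFieldFullC K0 L := by
    rw [hιt']; exact H69.haupt3Inv_mem_full K0 L hML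
  obtain rfl : ξ = ⟨H93.iotaA A0 (H69.haupt3 ↥A0), hx⟩ := Subtype.ext (hξ.trans hιt.symm)
  refine coordReg_of_chart A0 ℓ L hℓL π hπ (H69.haupt3 ↥A0) (H69.haupt3Inv ↥A0)
    (H69.haupt3_mul_inv ↥A0) hx hx' ?_ ?_ ?_ (X * (X + C 27)) (X * (C 27 * X + 1))
    ?_ ?_ ?_ ?_
  · intro P h
    rw [hrt] at h
    exact H36.Coord.evC_eq_zero_of_transcendental
      (H36.Coord.transcendental_haupt3 (IsLocalRing.ResidueField A0)) P h
  · exact H36.Coord.j_mem_adjoin_haupt3 (modularFunctionFieldFullC K0 L) _ _ rfl hιt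
  · rw [hrt]
    exact H85.theta_ne_zero_of_coeff_neg_one _ (H69.coeff_haupt3_neg_one _)
  · exact H51.squarefree_map_X_mul_X_add_C' π hπ (H19.not_dvd_of_isUnit A0 hπ hc)
  · exact H51.squarefree_map_X_mul_C_mul_X_add_one π
      (PrincipalIdealRing.isMaximal_of_irreducible hπ)
      (H51.notMem_span_of_isUnit π (PrincipalIdealRing.isMaximal_of_irreducible hπ) hc)
  · let _ : Algebra K0[X] ↥(modularFunctionFieldFullC K0 L) :=
      H19.polyAlg (⟨H93.iotaA A0 (H69.haupt3 ↥A0), hx⟩ : modularFunctionFieldFullC K0 L)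
    intro p hp hPip
    refine H10.isRadical_model_three_std K0 L _ hιt (fun _ => rfl) p hp ?_
    have e : (X * (X + C 27) : (↥A0)[X]).map (algebraMap ↥A0 K0) = X * (X + C 27) := by
      rw [Polynomial.map_mul, Polynomial.map_add, Polynomial.map_X, Polynomial.map_C,
        map_ofNat]
    rwa [e] at hPip
  · let _ : Algebra K0[X] ↥(modularFunctionFieldFullC K0 L) :=
      H19.polyAlg (⟨H93.iotaA A0 (H69.haupt3Inv ↥A0), hx'⟩ : modularFunctionFieldFullC K0 L)
    intro p hp hPip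
    refine H10.isRadical_model_three_inv_std K0 L _ hιt' (fun _ => rfl) p hp ?_
    have e : (X * (C 27 * X + 1) : (↥A0)[X]).map (algebraMap ↥A0 K0) =
        X * (C 27 * X + 1) := by
      rw [Polynomial.map_mul, Polynomial.map_add, Polynomial.map_mul, Polynomial.map_X,
        Polynomial.map_C, Polynomial.map_one, map_ofNat]
    rwa [e] at hPip

end Coords

end

end Fermat.Agent.S37.H92
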