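import Mathlib
import Fermat.Agent.S37.ChartReg_helper92
import Fermat.Agent.S18.HauptInst_helper69

/-!
# S37, (a)-assembly: the chart data of the three coordinates, literal form (helper92)

For the three chart coordinates `x = j` (`ℓ ∤ 6`), `x = t_2` (`ℓ ≠ 2`, `2 ∣ L`), `x = t_3`
(`ℓ ≠ 3`, `3 ∣ L`) of `Fbar_L = modularFunctionFieldBar L`, every number field
`K0 : IntermediateField ℚ Qbar` and `A0 = A ∩ K0`, this file produces the chart data

`∃ xA xA' hx, xA * xA' = 1 ∧ H74.toBar K0 L ⟨ι xA, hx⟩ = x ∧ hxtr ∧ hJx ∧ hregU ∧ hregV`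

where `hxtr`, `hJx`, `hregU`, `hregV` are LITERALLY the arguments of `H19.modelKum_of_chart`
(`TopGen_helper19`): `chartLit_j`, `chartLit_two`, `chartLit_three`.

Generic forms (`K0 : Type`, `A0` a discrete valuation subring): `chartLitGen_j`,
`chartLitGen_two`, `chartLitGen_three`, with `ι xA = j / t_2 / t_3` in place of the `toBar`
clause.

Also the frozen-vocabulary forms of `CoordReg` (both chart packages with `(REG)`, for the Gauss
valuation ring `H93.gaussWFull`): `coordReg_j_model`, `coordReg_two_model`,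
`coordReg_three_model`.
-/

set_option autoImplicit false
set_option synthInstance.maxHeartbeats 400000

open ModularCurve IntermediateField Polynomial

namespace Fermat.Agent.S37.H92

noncomputable section

open Fermat.Agent.S18

local notation "Qb" => AlgebraicClosure ℚ

/-! ### generic `K0` -/

section Gen

variable {K0 : Type} [Field K0] [CharZero K0] [Algebra K0 (AlgebraicClosure ℚ)]
  [Algebra.IsAlgebraic K0 (AlgebraicClosure ℚ)]
  (A0 : ValuationSubring K0) [IsDiscreteValuationRing A0] (ℓ : ℕ) [Fact ℓ.Prime]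
  [CharP (IsLocalRing.ResidueField A0) ℓ] [PerfectField (IsLocalRing.ResidueField A0)]
  (L : ℕ) [NeZero L]

set_option maxHeartbeats 1600000 in
/-- **The chart data of `ξ = j`**, generic `K0`, for `1728` a unit of `A0`. -/
theorem chartLitGen_j (hℓL : ¬ ℓ ∣ L) (h1728 : IsUnit (1728 : A0)) :
    ∃ (xA xA' : LaurentSeries A0) (hx : H93.iotaA A0 xA ∈ modularFunctionFieldFullC K0 L),
      xA * xA' = 1 ∧ H93.iotaA A0 xA = jqModC K0 ∧
      (∀ P : Polynomial (IsLocalRing.ResidueField A0),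
        H93.evC P (H93.redA A0 xA) = 0 → P = 0) ∧
      (⟨jqModC K0, jqModC_mem_full K0 L⟩ : modularFunctionFieldFullC K0 L) ∈
        IntermediateField.adjoin K0
          {(⟨H93.iotaA A0 xA, hx⟩ : modularFunctionFieldFullC K0 L)} ∧
      ∀ π : A0, Irreducible π →
        CoordReg A0 ℓ L hℓL π (⟨H93.iotaA A0 xA, hx⟩ : modularFunctionFieldFullC K0 L) := by
  have hιj : H93.iotaA A0 (jqModC A0) = jqModC K0 := coeffMap_jqModC _
  have hrj : H93.redA A0 (jqModC A0) = jqModC (IsLocalRing.ResidueField A0) :=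
    coeffMap_jqModC _
  have hx : H93.iotaA A0 (jqModC A0) ∈ modularFunctionFieldFullC K0 L := by
    rw [hιj]; exact jqModC_mem_full K0 L
  refine ⟨jqModC A0, H19.jqInv A0, hx, H19.jqModC_mul_jqInv A0, hιj, ?_, ?_, ?_⟩
  · intro P h
    rw [hrj] at h
    exact H93.evC_jqModC_eq_zero _ P h
  · have e : (⟨jqModC K0, jqModC_mem_full K0 L⟩ : modularFunctionFieldFullC K0 L) =
        ⟨H93.iotaA A0 (jqModC A0), hx⟩ := Subtype.ext hιj.symm
    rw [e]
    exact IntermediateField.mem_adjoin_simple_self K0 _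
  · intro π hπ
    exact coordReg_j A0 ℓ L hℓL h1728 π hπ _ hιj

set_option maxHeartbeats 1600000 in
/-- **The chart data of `ξ = t_2`** (`2 ∣ L`), generic `K0`, for `64` a unit of `A0`. -/
theorem chartLitGen_two (hℓL : ¬ ℓ ∣ L) (hML : 2 ∣ L) (hc : IsUnit (64 : A0)) :
    ∃ (xA xA' : LaurentSeries A0) (hx : H93.iotaA A0 xA ∈ modularFunctionFieldFullC K0 L),
      xA * xA' = 1 ∧ H93.iotaA A0 xA = H69.haupt2 K0 ∧
      (∀ P : Polynomial (IsLocalRing.ResidueField A0),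
        H93.evC P (H93.redA A0 xA) = 0 → P = 0) ∧
      (⟨jqModC K0, jqModC_mem_full K0 L⟩ : modularFunctionFieldFullC K0 L) ∈
        IntermediateField.adjoin K0
          {(⟨H93.iotaA A0 xA, hx⟩ : modularFunctionFieldFullC K0 L)} ∧
      ∀ π : A0, Irreducible π →
        CoordReg A0 ℓ L hℓL π (⟨H93.iotaA A0 xA, hx⟩ : modularFunctionFieldFullC K0 L) := by
  have hιt : H93.iotaA A0 (H69.haupt2 ↥A0) = H69.haupt2 K0 := H69.coeffMap_haupt2 _
  have hrt : H93.redA A0 (H69.haupt2 ↥A0) = H69.haupt2 (IsLocalRing.ResidueField A0) :=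
    H69.coeffMap_haupt2 _
  have hx : H93.iotaA A0 (H69.haupt2 ↥A0) ∈ modularFunctionFieldFullC K0 L := by
    rw [hιt]; exact H69.haupt2_mem_full K0 L hML
  refine ⟨H69.haupt2 ↥A0, H69.haupt2Inv ↥A0, hx, H69.haupt2_mul_inv ↥A0, hιt, ?_, ?_, ?_⟩
  · intro P h
    rw [hrt] at h
    exact H36.Coord.evC_eq_zero_of_transcendental
      (H36.Coord.transcendental_haupt2 (IsLocalRing.ResidueField A0)) P h
  · exact H36.Coord.j_mem_adjoin_haupt2 (modularFunctionFieldFullC K0 L) _ _ rfl hιt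
  · intro π hπ
    exact coordReg_two A0 ℓ L hℓL hML hc π hπ _ hιt

set_option maxHeartbeats 1600000 in
/-- **The chart data of `ξ = t_3`** (`3 ∣ L`), generic `K0`, for `27` a unit of `A0`. -/
theorem chartLitGen_three (hℓL : ¬ ℓ ∣ L) (hML : 3 ∣ L) (hc : IsUnit (27 : A0)) :
    ∃ (xA xA' : LaurentSeries A0) (hx : H93.iotaA A0 xA ∈ modularFunctionFieldFullC K0 L),
      xA * xA' = 1 ∧ H93.iotaA A0 xA = H69.haupt3 K0 ∧
      (∀ P : Polynomial (IsLocalRing.ResidueField A0),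
        H93.evC P (H93.redA A0 xA) = 0 → P = 0) ∧
      (⟨jqModC K0, jqModC_mem_full K0 L⟩ : modularFunctionFieldFullC K0 L) ∈
        IntermediateField.adjoin K0
          {(⟨H93.iotaA A0 xA, hx⟩ : modularFunctionFieldFullC K0 L)} ∧
      ∀ π : A0, Irreducible π →
        CoordReg A0 ℓ L hℓL π (⟨H93.iotaA A0 xA, hx⟩ : modularFunctionFieldFullC K0 L) := by
  have hιt : H93.iotaA A0 (H69.haupt3 ↥A0) = H69.haupt3 K0 := H69.coeffMap_haupt3 _
  have hrt : H93.redA A0 (H69.haupt3 ↥A0) = H69.haupt3 (IsLocalRing.ResidueField A0) :=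
    H69.coeffMap_haupt3 _
  have hx : H93.iotaA A0 (H69.haupt3 ↥A0) ∈ modularFunctionFieldFullC K0 L := by
    rw [hιt]; exact H69.haupt3_mem_full K0 L hML
  refine ⟨H69.haupt3 ↥A0, H69.haupt3Inv ↥A0, hx, H69.haupt3_mul_inv ↥A0, hιt, ?_, ?_, ?_⟩
  · intro P h
    rw [hrt] at h
    exact H36.Coord.evC_eq_zero_of_transcendental
      (H36.Coord.transcendental_haupt3 (IsLocalRing.ResidueField A0)) P h
  · exact H36.Coord.j_mem_adjoin_haupt3 (modularFunctionFieldFullC K0 L) _ _ rfl hιt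
  · intro π hπ
    exact coordReg_three A0 ℓ L hℓL hML hc π hπ _ hιt

set_option maxHeartbeats 1600000 in
omit [PerfectField (IsLocalRing.ResidueField A0)] [Algebra K0 (AlgebraicClosure ℚ)]
  [Algebra.IsAlgebraic K0 (AlgebraicClosure ℚ)] in
/-- **From the literal chart data to the two chart packages with `(REG)`** (one uniformiser):
the chart data of `H19.modelKum_of_chart` (with `(REG)` of the two charts at `π`) give
`CoordReg`, i.e. all the chart hypotheses of (UNIT') for `V = H93.gaussWFull`, `B = chartU ξ`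
and `B = chartV ξ`. -/
theorem coordReg_of_reg (hℓL : ¬ ℓ ∣ L) (π : A0) (hπ : Irreducible π)
    (xA xA' : LaurentSeries A0) (hxx : xA * xA' = 1)
    (hx : H93.iotaA A0 xA ∈ modularFunctionFieldFullC K0 L)
    (hxtr : ∀ P : Polynomial (IsLocalRing.ResidueField A0),
      H93.evC P (H93.redA A0 xA) = 0 → P = 0)
    (hJx : (⟨jqModC K0, jqModC_mem_full K0 L⟩ : modularFunctionFieldFullC K0 L) ∈
      IntermediateField.adjoin K0
        {(⟨H93.iotaA A0 xA, hx⟩ : modularFunctionFieldFullC K0 L)})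
    (hregU : ∀ n : Ideal (H97.chartU (↥A0) (⟨H93.iotaA A0 xA, hx⟩ : modularFunctionFieldFullC K0 L)), n.IsMaximal →
      algebraMap (↥A0) (H97.chartU (↥A0) (⟨H93.iotaA A0 xA, hx⟩ : modularFunctionFieldFullC K0 L)) π ∈ n →
      ∃ τ ∈ n, ∀ a : H97.chartU (↥A0) (⟨H93.iotaA A0 xA, hx⟩ : modularFunctionFieldFullC K0 L),
        a ∉ Ideal.span {algebraMap (↥A0) (H97.chartU (↥A0) (⟨H93.iotaA A0 xA, hx⟩ : modularFunctionFieldFullC K0 L)) π} →
        ∃ (e : ℕ) (d u : H97.chartU (↥A0) (⟨H93.iotaA A0 xA, hx⟩ : modularFunctionFieldFullC K0 L)), d ∉ n ∧ u ∉ n ∧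
          a * d - u * τ ^ e ∈ Ideal.span {algebraMap (↥A0) (H97.chartU (↥A0) (⟨H93.iotaA A0 xA, hx⟩ : modularFunctionFieldFullC K0 L)) π})
    (hregV : ∀ n : Ideal (H97.chartV (↥A0) (⟨H93.iotaA A0 xA, hx⟩ : modularFunctionFieldFullC K0 L)), n.IsMaximal →
      algebraMap (↥A0) (H97.chartV (↥A0) (⟨H93.iotaA A0 xA, hx⟩ : modularFunctionFieldFullC K0 L)) π ∈ n →
      ∃ τ ∈ n, ∀ a : H97.chartV (↥A0) (⟨H93.iotaA A0 xA, hx⟩ : modularFunctionFieldFullC K0 L),
        a ∉ Ideal.span {algebraMap (↥A0) (H97.chartV (↥A0) (⟨H93.iotaA A0 xA, hx⟩ : modularFunctionFieldFullC K0 L)) π} →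
        ∃ (e : ℕ) (d u : H97.chartV (↥A0) (⟨H93.iotaA A0 xA, hx⟩ : modularFunctionFieldFullC K0 L)), d ∉ n ∧ u ∉ n ∧
          a * d - u * τ ^ e ∈ Ideal.span {algebraMap (↥A0) (H97.chartV (↥A0) (⟨H93.iotaA A0 xA, hx⟩ : modularFunctionFieldFullC K0 L)) π}) :
    CoordReg A0 ℓ L hℓL π (⟨H93.iotaA A0 xA, hx⟩ : modularFunctionFieldFullC K0 L) := by
  obtain ⟨pU, pV, hAV, hxV, hxV', htr, hfin⟩ :=
    chartPkg A0 ℓ L hℓL π hπ xA xA' hxx hx hxtr hJx
  exact
    { regU := { toChartPkg := pU, reg := hregU }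
      regV := { toChartPkg := pV, reg := hregV }
      const_mem := hAV
      coord_mem := hxV
      inv_mem := hxV'
      transc := htr
      fin := hfin }

end Gen

/-! ### the frozen vocabulary: `K0` a number field inside `Qbar`, `A0 = A ∩ K0` -/

section Frozen

variable (A : ValuationSubring (AlgebraicClosure ℚ))
  (K0 : IntermediateField ℚ (AlgebraicClosure ℚ))
  (L : ℕ) [NeZero L] (ℓ : ℕ) [Fact ℓ.Prime]

/-- `Qbar` is algebraic over every intermediate field. -/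
theorem isAlgebraic_bar : Algebra.IsAlgebraic K0 (AlgebraicClosure ℚ) := by
  have h := AlgebraicClosure.isAlgebraic ℚ
  exact ⟨fun x => (h.isAlgebraic x).tower_top K0⟩

set_option maxHeartbeats 1600000 in
/-- the generic chart data (with `ι xA = xq`) give the literal chart data for every `x` of
`Fbar_L` whose `q`-expansion is the base change of `xq`. -/
theorem chartLit_of_gen [IsDiscreteValuationRing ↥(H61.A0 A K0)]
    [CharP (IsLocalRing.ResidueField ↥(H61.A0 A K0)) ℓ] (hℓL : ¬ ℓ ∣ L)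
    (x : ↥(modularFunctionFieldBar L)) (xq : LaurentSeries K0)
    (hxq : (x : LaurentSeries Qb) = coeffMap (algebraMap K0 Qb) xq)
    (h : ∃ (xA xA' : LaurentSeries (H61.A0 A K0))
      (hx : H93.iotaA (H61.A0 A K0) xA ∈ modularFunctionFieldFullC K0 L),
      xA * xA' = 1 ∧ H93.iotaA (H61.A0 A K0) xA = xq ∧
      (∀ P : Polynomial (IsLocalRing.ResidueField (H61.A0 A K0)),
        H93.evC P (H93.redA (H61.A0 A K0) xA) = 0 → P = 0) ∧
      (⟨jqModC K0, jqModC_mem_full K0 L⟩ : modularFunctionFieldFullC K0 L) ∈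
        IntermediateField.adjoin K0
          {(⟨H93.iotaA (H61.A0 A K0) xA, hx⟩ : modularFunctionFieldFullC K0 L)} ∧
      ∀ π : H61.A0 A K0, Irreducible π →
        CoordReg (H61.A0 A K0) ℓ L hℓL π (⟨H93.iotaA (H61.A0 A K0) xA, hx⟩ : modularFunctionFieldFullC K0 L)) :
    ∃ (xA xA' : LaurentSeries (H61.A0 A K0))
      (hx : H93.iotaA (H61.A0 A K0) xA ∈ modularFunctionFieldFullC K0 L),
      xA * xA' = 1 ∧
      H74.toBar K0 L (⟨H93.iotaA (H61.A0 A K0) xA, hx⟩ : modularFunctionFieldFullC K0 L) = x ∧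
      (∀ P : Polynomial (IsLocalRing.ResidueField (H61.A0 A K0)),
        H93.evC P (H93.redA (H61.A0 A K0) xA) = 0 → P = 0) ∧
      (⟨jqModC K0, jqModC_mem_full K0 L⟩ : modularFunctionFieldFullC K0 L) ∈
        IntermediateField.adjoin K0
          {(⟨H93.iotaA (H61.A0 A K0) xA, hx⟩ : modularFunctionFieldFullC K0 L)} ∧
      (∀ π : H61.A0 A K0, Irreducible π →
        ∀ n : Ideal (H97.chartU (↥(H61.A0 A K0))
            (⟨H93.iotaA (H61.A0 A K0) xA, hx⟩ : modularFunctionFieldFullC K0 L)), n.IsMaximal →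
        algebraMap (↥(H61.A0 A K0)) (H97.chartU (↥(H61.A0 A K0))
            (⟨H93.iotaA (H61.A0 A K0) xA, hx⟩ : modularFunctionFieldFullC K0 L)) π ∈ n →
        ∃ τ ∈ n, ∀ a : H97.chartU (↥(H61.A0 A K0))
            (⟨H93.iotaA (H61.A0 A K0) xA, hx⟩ : modularFunctionFieldFullC K0 L),
          a ∉ Ideal.span {algebraMap (↥(H61.A0 A K0)) (H97.chartU (↥(H61.A0 A K0))
            (⟨H93.iotaA (H61.A0 A K0) xA, hx⟩ : modularFunctionFieldFullC K0 L)) π} →
          ∃ (e : ℕ) (d u : H97.chartU (↥(H61.A0 A K0))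
            (⟨H93.iotaA (H61.A0 A K0) xA, hx⟩ : modularFunctionFieldFullC K0 L)),
            d ∉ n ∧ u ∉ n ∧
            a * d - u * τ ^ e ∈ Ideal.span {algebraMap (↥(H61.A0 A K0)) (H97.chartU (↥(H61.A0 A K0))
            (⟨H93.iotaA (H61.A0 A K0) xA, hx⟩ : modularFunctionFieldFullC K0 L)) π}) ∧
      (∀ π : H61.A0 A K0, Irreducible π →
        ∀ n : Ideal (H97.chartV (↥(H61.A0 A K0))
            (⟨H93.iotaA (H61.A0 A K0) xA, hx⟩ : modularFunctionFieldFullC K0 L)), n.IsMaximal →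
        algebraMap (↥(H61.A0 A K0)) (H97.chartV (↥(H61.A0 A K0))
            (⟨H93.iotaA (H61.A0 A K0) xA, hx⟩ : modularFunctionFieldFullC K0 L)) π ∈ n →
        ∃ τ ∈ n, ∀ a : H97.chartV (↥(H61.A0 A K0))
            (⟨H93.iotaA (H61.A0 A K0) xA, hx⟩ : modularFunctionFieldFullC K0 L),
          a ∉ Ideal.span {algebraMap (↥(H61.A0 A K0)) (H97.chartV (↥(H61.A0 A K0))
            (⟨H93.iotaA (H61.A0 A K0) xA, hx⟩ : modularFunctionFieldFullC K0 L)) π} →
          ∃ (e : ℕ) (d u : H97.chartV (↥(H61.A0 A K0))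
            (⟨H93.iotaA (H61.A0 A K0) xA, hx⟩ : modularFunctionFieldFullC K0 L)),
            d ∉ n ∧ u ∉ n ∧
            a * d - u * τ ^ e ∈ Ideal.span {algebraMap (↥(H61.A0 A K0)) (H97.chartV (↥(H61.A0 A K0))
            (⟨H93.iotaA (H61.A0 A K0) xA, hx⟩ : modularFunctionFieldFullC K0 L)) π}) := by
  obtain ⟨xA, xA', hx, hxx, hι, hxtr, hJx, hreg⟩ := h
  refine ⟨xA, xA', hx, hxx, ?_, hxtr, hJx, fun π hπ => (hreg π hπ).regU.reg,
    fun π hπ => (hreg π hπ).regV.reg⟩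
  apply Subtype.ext
  rw [H74.coe_toBar, hxq]
  exact congrArg _ hι

variable [FiniteDimensional ℚ K0]

set_option maxHeartbeats 1600000 in
/-- **The chart data of `x = j`, literal form** (`ℓ ∤ 6`): for every number field `K0` and
`A0 = A ∩ K0`, the arguments `xA xA' hxx hx hxtr hJx hregU hregV` of `H19.modelKum_of_chart`
with `H74.toBar K0 L ⟨ι xA, hx⟩ = x`. -/
theorem chartLit_j (hℓL : ¬ ℓ ∣ L) (hA : A.LiesOverPrime ℓ) (h2 : ℓ ≠ 2) (h3 : ℓ ≠ 3)
    (x : ↥(modularFunctionFieldBar L)) (hxq : (x : LaurentSeries Qb) = jqModC Qb) :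
    ∃ (xA xA' : LaurentSeries (H61.A0 A K0))
      (hx : H93.iotaA (H61.A0 A K0) xA ∈ modularFunctionFieldFullC K0 L),
      xA * xA' = 1 ∧
      H74.toBar K0 L (⟨H93.iotaA (H61.A0 A K0) xA, hx⟩ : modularFunctionFieldFullC K0 L) = x ∧
      (∀ P : Polynomial (IsLocalRing.ResidueField (H61.A0 A K0)),
        H93.evC P (H93.redA (H61.A0 A K0) xA) = 0 → P = 0) ∧
      (⟨jqModC K0, jqModC_mem_full K0 L⟩ : modularFunctionFieldFullC K0 L) ∈
        IntermediateField.adjoin K0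
          {(⟨H93.iotaA (H61.A0 A K0) xA, hx⟩ : modularFunctionFieldFullC K0 L)} ∧
      (∀ π : H61.A0 A K0, Irreducible π →
        ∀ n : Ideal (H97.chartU (↥(H61.A0 A K0))
            (⟨H93.iotaA (H61.A0 A K0) xA, hx⟩ : modularFunctionFieldFullC K0 L)), n.IsMaximal →
        algebraMap (↥(H61.A0 A K0)) (H97.chartU (↥(H61.A0 A K0))
            (⟨H93.iotaA (H61.A0 A K0) xA, hx⟩ : modularFunctionFieldFullC K0 L)) π ∈ n →
        ∃ τ ∈ n, ∀ a : H97.chartU (↥(H61.A0 A K0))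
            (⟨H93.iotaA (H61.A0 A K0) xA, hx⟩ : modularFunctionFieldFullC K0 L),
          a ∉ Ideal.span {algebraMap (↥(H61.A0 A K0)) (H97.chartU (↥(H61.A0 A K0))
            (⟨H93.iotaA (H61.A0 A K0) xA, hx⟩ : modularFunctionFieldFullC K0 L)) π} →
          ∃ (e : ℕ) (d u : H97.chartU (↥(H61.A0 A K0))
            (⟨H93.iotaA (H61.A0 A K0) xA, hx⟩ : modularFunctionFieldFullC K0 L)),
            d ∉ n ∧ u ∉ n ∧
            a * d - u * τ ^ e ∈ Ideal.span {algebraMap (↥(H61.A0 A K0)) (H97.chartU (↥(H61.A0 A K0))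
            (⟨H93.iotaA (H61.A0 A K0) xA, hx⟩ : modularFunctionFieldFullC K0 L)) π}) ∧
      (∀ π : H61.A0 A K0, Irreducible π →
        ∀ n : Ideal (H97.chartV (↥(H61.A0 A K0))
            (⟨H93.iotaA (H61.A0 A K0) xA, hx⟩ : modularFunctionFieldFullC K0 L)), n.IsMaximal →
        algebraMap (↥(H61.A0 A K0)) (H97.chartV (↥(H61.A0 A K0))
            (⟨H93.iotaA (H61.A0 A K0) xA, hx⟩ : modularFunctionFieldFullC K0 L)) π ∈ n →
        ∃ τ ∈ n, ∀ a : H97.chartV (↥(H61.A0 A K0))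
            (⟨H93.iotaA (H61.A0 A K0) xA, hx⟩ : modularFunctionFieldFullC K0 L),
          a ∉ Ideal.span {algebraMap (↥(H61.A0 A K0)) (H97.chartV (↥(H61.A0 A K0))
            (⟨H93.iotaA (H61.A0 A K0) xA, hx⟩ : modularFunctionFieldFullC K0 L)) π} →
          ∃ (e : ℕ) (d u : H97.chartV (↥(H61.A0 A K0))
            (⟨H93.iotaA (H61.A0 A K0) xA, hx⟩ : modularFunctionFieldFullC K0 L)),
            d ∉ n ∧ u ∉ n ∧
            a * d - u * τ ^ e ∈ Ideal.span {algebraMap (↥(H61.A0 A K0)) (H97.chartV (↥(H61.A0 A K0))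
            (⟨H93.iotaA (H61.A0 A K0) xA, hx⟩ : modularFunctionFieldFullC K0 L)) π}) := by
  have hℓ : ℓ.Prime := Fact.out
  have : IsDiscreteValuationRing ↥(H61.A0 A K0) := H86.isDiscreteValuationRing_A0 A K0 hℓ hA
  have : CharP (IsLocalRing.ResidueField ↥(H61.A0 A K0)) ℓ :=
    H86.charP_residueField_A0 A K0 hℓ hA
  have : Finite (IsLocalRing.ResidueField ↥(H61.A0 A K0)) :=
    H86.finite_residueField_A0 A K0 hℓ hA
  have : Algebra.IsAlgebraic K0 (AlgebraicClosure ℚ) := isAlgebraic_bar K0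
  have h1728 : ¬ ℓ ∣ 1728 := by
    intro hd
    have e : (1728 : ℕ) = 2 ^ 6 * 3 ^ 3 := by norm_num
    rw [e] at hd
    rcases (Nat.Prime.dvd_mul hℓ).mp hd with h | h
    · exact h2 ((Nat.prime_dvd_prime_iff_eq hℓ Nat.prime_two).mp (hℓ.dvd_of_dvd_pow h))
    · exact h3 ((Nat.prime_dvd_prime_iff_eq hℓ Nat.prime_three).mp (hℓ.dvd_of_dvd_pow h))
  have hc : IsUnit ((1728 : ℕ) : ↥(H61.A0 A K0)) := H86.isUnit_natCast_A0 A K0 hℓ hA h1728
  refine chartLit_of_gen A K0 L ℓ hℓL x (jqModC K0) ?_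
    (chartLitGen_j (H61.A0 A K0) ℓ L hℓL (by exact_mod_cast hc))
  rw [hxq, coeffMap_jqModC]

set_option maxHeartbeats 1600000 in
/-- **The chart data of `x = t_2`, literal form** (`ℓ ≠ 2`, `2 ∣ L`). -/
theorem chartLit_two (hℓL : ¬ ℓ ∣ L) (hA : A.LiesOverPrime ℓ) (h2 : ℓ ≠ 2) (hML : 2 ∣ L)
    (x : ↥(modularFunctionFieldBar L)) (hxq : (x : LaurentSeries Qb) = H69.haupt2 Qb) :
    ∃ (xA xA' : LaurentSeries (H61.A0 A K0))
      (hx : H93.iotaA (H61.A0 A K0) xA ∈ modularFunctionFieldFullC K0 L),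
      xA * xA' = 1 ∧
      H74.toBar K0 L (⟨H93.iotaA (H61.A0 A K0) xA, hx⟩ : modularFunctionFieldFullC K0 L) = x ∧
      (∀ P : Polynomial (IsLocalRing.ResidueField (H61.A0 A K0)),
        H93.evC P (H93.redA (H61.A0 A K0) xA) = 0 → P = 0) ∧
      (⟨jqModC K0, jqModC_mem_full K0 L⟩ : modularFunctionFieldFullC K0 L) ∈
        IntermediateField.adjoin K0
          {(⟨H93.iotaA (H61.A0 A K0) xA, hx⟩ : modularFunctionFieldFullC K0 L)} ∧
      (∀ π : H61.A0 A K0, Irreducible π →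
        ∀ n : Ideal (H97.chartU (↥(H61.A0 A K0))
            (⟨H93.iotaA (H61.A0 A K0) xA, hx⟩ : modularFunctionFieldFullC K0 L)), n.IsMaximal →
        algebraMap (↥(H61.A0 A K0)) (H97.chartU (↥(H61.A0 A K0))
            (⟨H93.iotaA (H61.A0 A K0) xA, hx⟩ : modularFunctionFieldFullC K0 L)) π ∈ n →
        ∃ τ ∈ n, ∀ a : H97.chartU (↥(H61.A0 A K0))
            (⟨H93.iotaA (H61.A0 A K0) xA, hx⟩ : modularFunctionFieldFullC K0 L),
          a ∉ Ideal.span {algebraMap (↥(H61.A0 A K0)) (H97.chartU (↥(H61.A0 A K0))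
            (⟨H93.iotaA (H61.A0 A K0) xA, hx⟩ : modularFunctionFieldFullC K0 L)) π} →
          ∃ (e : ℕ) (d u : H97.chartU (↥(H61.A0 A K0))
            (⟨H93.iotaA (H61.A0 A K0) xA, hx⟩ : modularFunctionFieldFullC K0 L)),
            d ∉ n ∧ u ∉ n ∧
            a * d - u * τ ^ e ∈ Ideal.span {algebraMap (↥(H61.A0 A K0)) (H97.chartU (↥(H61.A0 A K0))
            (⟨H93.iotaA (H61.A0 A K0) xA, hx⟩ : modularFunctionFieldFullC K0 L)) π}) ∧
      (∀ π : H61.A0 A K0, Irreducible π →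
        ∀ n : Ideal (H97.chartV (↥(H61.A0 A K0))
            (⟨H93.iotaA (H61.A0 A K0) xA, hx⟩ : modularFunctionFieldFullC K0 L)), n.IsMaximal →
        algebraMap (↥(H61.A0 A K0)) (H97.chartV (↥(H61.A0 A K0))
            (⟨H93.iotaA (H61.A0 A K0) xA, hx⟩ : modularFunctionFieldFullC K0 L)) π ∈ n →
        ∃ τ ∈ n, ∀ a : H97.chartV (↥(H61.A0 A K0))
            (⟨H93.iotaA (H61.A0 A K0) xA, hx⟩ : modularFunctionFieldFullC K0 L),
          a ∉ Ideal.span {algebraMap (↥(H61.A0 A K0)) (H97.chartV (↥(H61.A0 A K0))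
            (⟨H93.iotaA (H61.A0 A K0) xA, hx⟩ : modularFunctionFieldFullC K0 L)) π} →
          ∃ (e : ℕ) (d u : H97.chartV (↥(H61.A0 A K0))
            (⟨H93.iotaA (H61.A0 A K0) xA, hx⟩ : modularFunctionFieldFullC K0 L)),
            d ∉ n ∧ u ∉ n ∧
            a * d - u * τ ^ e ∈ Ideal.span {algebraMap (↥(H61.A0 A K0)) (H97.chartV (↥(H61.A0 A K0))
            (⟨H93.iotaA (H61.A0 A K0) xA, hx⟩ : modularFunctionFieldFullC K0 L)) π}) := by
  have hℓ : ℓ.Prime := Fact.out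
  have : IsDiscreteValuationRing ↥(H61.A0 A K0) := H86.isDiscreteValuationRing_A0 A K0 hℓ hA
  have : CharP (IsLocalRing.ResidueField ↥(H61.A0 A K0)) ℓ :=
    H86.charP_residueField_A0 A K0 hℓ hA
  have : Finite (IsLocalRing.ResidueField ↥(H61.A0 A K0)) :=
    H86.finite_residueField_A0 A K0 hℓ hA
  have : Algebra.IsAlgebraic K0 (AlgebraicClosure ℚ) := isAlgebraic_bar K0
  have h64 : ¬ ℓ ∣ 64 := by
    intro hd
    have e : (64 : ℕ) = 2 ^ 6 := by norm_num
    rw [e] at hd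
    exact h2 ((Nat.prime_dvd_prime_iff_eq hℓ Nat.prime_two).mp (hℓ.dvd_of_dvd_pow hd))
  have hc : IsUnit ((64 : ℕ) : ↥(H61.A0 A K0)) := H86.isUnit_natCast_A0 A K0 hℓ hA h64
  refine chartLit_of_gen A K0 L ℓ hℓL x (H69.haupt2 K0) ?_
    (chartLitGen_two (H61.A0 A K0) ℓ L hℓL hML (by exact_mod_cast hc))
  rw [hxq, H69.coeffMap_haupt2]

set_option maxHeartbeats 1600000 in
/-- **The chart data of `x = t_3`, literal form** (`ℓ ≠ 3`, `3 ∣ L`). -/
theorem chartLit_three (hℓL : ¬ ℓ ∣ L) (hA : A.LiesOverPrime ℓ) (h3 : ℓ ≠ 3) (hML : 3 ∣ L)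
    (x : ↥(modularFunctionFieldBar L)) (hxq : (x : LaurentSeries Qb) = H69.haupt3 Qb) :
    ∃ (xA xA' : LaurentSeries (H61.A0 A K0))
      (hx : H93.iotaA (H61.A0 A K0) xA ∈ modularFunctionFieldFullC K0 L),
      xA * xA' = 1 ∧
      H74.toBar K0 L (⟨H93.iotaA (H61.A0 A K0) xA, hx⟩ : modularFunctionFieldFullC K0 L) = x ∧
      (∀ P : Polynomial (IsLocalRing.ResidueField (H61.A0 A K0)),
        H93.evC P (H93.redA (H61.A0 A K0) xA) = 0 → P = 0) ∧
      (⟨jqModC K0, jqModC_mem_full K0 L⟩ : modularFunctionFieldFullC K0 L) ∈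
        IntermediateField.adjoin K0
          {(⟨H93.iotaA (H61.A0 A K0) xA, hx⟩ : modularFunctionFieldFullC K0 L)} ∧
      (∀ π : H61.A0 A K0, Irreducible π →
        ∀ n : Ideal (H97.chartU (↥(H61.A0 A K0))
            (⟨H93.iotaA (H61.A0 A K0) xA, hx⟩ : modularFunctionFieldFullC K0 L)), n.IsMaximal →
        algebraMap (↥(H61.A0 A K0)) (H97.chartU (↥(H61.A0 A K0))
            (⟨H93.iotaA (H61.A0 A K0) xA, hx⟩ : modularFunctionFieldFullC K0 L)) π ∈ n →
        ∃ τ ∈ n, ∀ a : H97.chartU (↥(H61.A0 A K0))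
            (⟨H93.iotaA (H61.A0 A K0) xA, hx⟩ : modularFunctionFieldFullC K0 L),
          a ∉ Ideal.span {algebraMap (↥(H61.A0 A K0)) (H97.chartU (↥(H61.A0 A K0))
            (⟨H93.iotaA (H61.A0 A K0) xA, hx⟩ : modularFunctionFieldFullC K0 L)) π} →
          ∃ (e : ℕ) (d u : H97.chartU (↥(H61.A0 A K0))
            (⟨H93.iotaA (H61.A0 A K0) xA, hx⟩ : modularFunctionFieldFullC K0 L)),
            d ∉ n ∧ u ∉ n ∧
            a * d - u * τ ^ e ∈ Ideal.span {algebraMap (↥(H61.A0 A K0)) (H97.chartU (↥(H61.A0 A K0))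
            (⟨H93.iotaA (H61.A0 A K0) xA, hx⟩ : modularFunctionFieldFullC K0 L)) π}) ∧
      (∀ π : H61.A0 A K0, Irreducible π →
        ∀ n : Ideal (H97.chartV (↥(H61.A0 A K0))
            (⟨H93.iotaA (H61.A0 A K0) xA, hx⟩ : modularFunctionFieldFullC K0 L)), n.IsMaximal →
        algebraMap (↥(H61.A0 A K0)) (H97.chartV (↥(H61.A0 A K0))
            (⟨H93.iotaA (H61.A0 A K0) xA, hx⟩ : modularFunctionFieldFullC K0 L)) π ∈ n →
        ∃ τ ∈ n, ∀ a : H97.chartV (↥(H61.A0 A K0))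
            (⟨H93.iotaA (H61.A0 A K0) xA, hx⟩ : modularFunctionFieldFullC K0 L),
          a ∉ Ideal.span {algebraMap (↥(H61.A0 A K0)) (H97.chartV (↥(H61.A0 A K0))
            (⟨H93.iotaA (H61.A0 A K0) xA, hx⟩ : modularFunctionFieldFullC K0 L)) π} →
          ∃ (e : ℕ) (d u : H97.chartV (↥(H61.A0 A K0))
            (⟨H93.iotaA (H61.A0 A K0) xA, hx⟩ : modularFunctionFieldFullC K0 L)),
            d ∉ n ∧ u ∉ n ∧
            a * d - u * τ ^ e ∈ Ideal.span {algebraMap (↥(H61.A0 A K0)) (H97.chartV (↥(H61.A0 A K0))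
            (⟨H93.iotaA (H61.A0 A K0) xA, hx⟩ : modularFunctionFieldFullC K0 L)) π}) := by
  have hℓ : ℓ.Prime := Fact.out
  have : IsDiscreteValuationRing ↥(H61.A0 A K0) := H86.isDiscreteValuationRing_A0 A K0 hℓ hA
  have : CharP (IsLocalRing.ResidueField ↥(H61.A0 A K0)) ℓ :=
    H86.charP_residueField_A0 A K0 hℓ hA
  have : Finite (IsLocalRing.ResidueField ↥(H61.A0 A K0)) :=
    H86.finite_residueField_A0 A K0 hℓ hA
  have : Algebra.IsAlgebraic K0 (AlgebraicClosure ℚ) := isAlgebraic_bar K0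
  have h27 : ¬ ℓ ∣ 27 := by
    intro hd
    have e : (27 : ℕ) = 3 ^ 3 := by norm_num
    rw [e] at hd
    exact h3 ((Nat.prime_dvd_prime_iff_eq hℓ Nat.prime_three).mp (hℓ.dvd_of_dvd_pow hd))
  have hc : IsUnit ((27 : ℕ) : ↥(H61.A0 A K0)) := H86.isUnit_natCast_A0 A K0 hℓ hA h27
  refine chartLit_of_gen A K0 L ℓ hℓL x (H69.haupt3 K0) ?_
    (chartLitGen_three (H61.A0 A K0) ℓ L hℓL hML (by exact_mod_cast hc))
  rw [hxq, H69.coeffMap_haupt3]

end Frozen

end

end Fermat.Agent.S37.H92
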