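import Mathlib
import Fermat.Agent.S18.ModelArrow_helper60
import Fermat.Agent.S18.GaussFull_helper93
import Fermat.Agent.S18.Desc_helper92
import Fermat.Agent.S18.ValRing_helper86

/-!
# S37, node (a)-TOP (helper84): injectivity on torsion from a constant Gauss reduction

The statement (a) of the S37 route: a divisor `D` of `Fbar_N` with `m • D = div f`, `ℓ ∤ m`, is
principal as soon as the Gauss reduction of `f` (suitably scaled) is a constant.

The only input from S18 is its TOP statement `H60.ModelKumStmt` (through the landed arrows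
`H60.kumPowStmt_of_modelKumStmt` and `H60.kumPow_of_dvd`), i.e. the Kummer statement
`H60.KumPow A N m` over the frozen valuation ring `A` at the level `N` itself.  No chart, no
number-field model, no norm descent is needed on the S37 side.

* `kumPow_of_modelKumStmt` : `ModelKumStmt → KumPow A N m` for every `N` prime to `ℓ`;
* `principal_of_gaussRing_ratio` : `m • D = div f`, `f * ι Y2 = c * ι Y1` with `Y1, Y2` in the
  Gauss ring, equal nonzero reductions `⟹ D` principal (given `KumPow A N m`);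
* `principal_of_ratio` : the same for ANY integral presentation `f * ι Z2 = c * ι Z1` with
  `red Z1 = red Z2 ≠ 0` (no membership condition on `Z1, Z2`);
* `principal_of_ratio_of_modelKumStmt` : the two combined (hypothesis `H60.ModelKumStmt`).
-/

set_option autoImplicit false
set_option synthInstance.maxHeartbeats 400000

open ModularCurve AlgebraicCurve

namespace Fermat.Agent.S37.H84

noncomputable section

open Fermat.Agent.S18

/-- **(KUMPOW) at every level prime to `ℓ`**, from the S18 TOP statement. -/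
theorem kumPow_of_modelKumStmt (hM : H60.ModelKumStmt) (N : ℕ) [NeZero N] (ℓ : ℕ)
    [Fact ℓ.Prime] (hℓN : ¬ ℓ ∣ N) (A : ValuationSubring (AlgebraicClosure ℚ))
    (hA : A.LiesOverPrime ℓ) (m : ℕ) (hm : ¬ ℓ ∣ m) : H60.KumPow A N m := by
  obtain ⟨-, -, hcop⟩ := H16.coprime_relfinrank_bar_aux N ℓ m (Fact.out : ℓ.Prime) hm
  exact H60.kumPow_of_dvd A (Nat.dvd_lcm_left N (H16.auxM ℓ)) hcop
    (H60.kumPowStmt_of_modelKumStmt hM (Nat.lcm N (H16.auxM ℓ)) ℓ
      (H16.not_dvd_lcm_auxM (Fact.out : ℓ.Prime) hℓN) (Nat.dvd_lcm_right N (H16.auxM ℓ))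
      A hA m hm)

variable {A : ValuationSubring (AlgebraicClosure ℚ)} {N : ℕ} [NeZero N]

/-- **(a), Gauss-ring form.** If `m • D = div f` and `f = c * (ι Y1 / ι Y2)` with `Y1, Y2`
Gauss-integral with equal nonzero reductions, then `D` is principal. -/
theorem principal_of_gaussRing_ratio {m : ℕ} (hm0 : m ≠ 0) (hkum : H60.KumPow A N m)
    (D : Divisor (AlgebraicClosure ℚ) (modularFunctionFieldBar N))
    (f : modularFunctionFieldBar N)
    (hD : ∀ P : Place (AlgebraicClosure ℚ) (modularFunctionFieldBar N), (m • D) P = P.ord f)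
    (c : AlgebraicClosure ℚ) (hc : c ≠ 0) (Y1 Y2 : LaurentSeries A)
    (h1 : Y1 ∈ H18.gaussRing A N) (h2 : Y2 ∈ H18.gaussRing A N)
    (hne : coeffMap (IsLocalRing.residue A) Y1 ≠ 0)
    (heq : coeffMap (IsLocalRing.residue A) Y1 = coeffMap (IsLocalRing.residue A) Y2)
    (hfY : (f : LaurentSeries (AlgebraicClosure ℚ)) * coeffMap A.subtype Y2 =
      HahnSeries.C c * coeffMap A.subtype Y1) :
    D ∈ Divisor.principal (K := AlgebraicClosure ℚ) (F := modularFunctionFieldBar N) := by
  have hY1 : coeffMap A.subtype Y1 ≠ 0 := H18.coeffMap_subtype_ne_zero A hne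
  have hY2 : coeffMap A.subtype Y2 ≠ 0 := H18.coeffMap_subtype_ne_zero A (heq ▸ hne)
  set y1 : modularFunctionFieldBar N := ⟨coeffMap A.subtype Y1, h1.1⟩ with hy1
  set y2 : modularFunctionFieldBar N := ⟨coeffMap A.subtype Y2, h2.1⟩ with hy2
  have hy1 : y1 ≠ 0 := fun h0 => hY1 (congrArg Subtype.val h0)
  have hy2 : y2 ≠ 0 := fun h0 => hY2 (congrArg Subtype.val h0)
  have hcF : algebraMap (AlgebraicClosure ℚ) (modularFunctionFieldBar N) c ≠ 0 := by
    rw [Ne, map_eq_zero]
    exact hc
  -- `f = c * (y1 / y2)`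
  have hf' : f = algebraMap (AlgebraicClosure ℚ) (modularFunctionFieldBar N) c * (y1 / y2) := by
    rw [← mul_div_assoc, eq_div_iff hy2]
    apply Subtype.ext
    show (f : LaurentSeries (AlgebraicClosure ℚ)) * coeffMap A.subtype Y2 =
      algebraMap (AlgebraicClosure ℚ) (LaurentSeries (AlgebraicClosure ℚ)) c *
        coeffMap A.subtype Y1
    rw [hfY, H93.C_eq_algebraMap]
  have hg0 : y1 / y2 ≠ 0 := div_ne_zero hy1 hy2
  have hord : ∀ P : Place (AlgebraicClosure ℚ) (modularFunctionFieldBar N),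
      P.ord f = P.ord (y1 / y2) := by
    intro P
    rw [hf', P.ord_mul hcF hg0, H18.ord_algebraMap_eq_zero P hc, zero_add]
  obtain ⟨w, hw, hwm⟩ := hkum Y1 Y2 h1 h2 hne heq (fun P => by
    rw [← hord P, ← hD P, Finsupp.smul_apply, nsmul_eq_mul]
    exact dvd_mul_right _ _)
  have hw0 : (⟨w, hw⟩ : modularFunctionFieldBar N) ≠ 0 := by
    intro h0
    have h1' : w = 0 := congrArg Subtype.val h0
    rw [h1', zero_pow hm0, zero_mul] at hwm
    exact hY1 hwm.symm
  have hq : y1 / y2 = (⟨w, hw⟩ : modularFunctionFieldBar N) ^ m := by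
    rw [div_eq_iff hy2]
    exact Subtype.ext hwm.symm
  rw [Divisor.mem_principal]
  refine ⟨⟨w, hw⟩, hw0, fun P => ?_⟩
  have h3 : (m : ℤ) * D P = (m : ℤ) * P.ord (⟨w, hw⟩ : modularFunctionFieldBar N) := by
    have := hD P
    rw [Finsupp.smul_apply, nsmul_eq_mul] at this
    rw [this, hord P, hq, H18.ord_pow]
  exact mul_left_cancel₀ (Nat.cast_ne_zero.mpr hm0) h3

/-- **(a), ratio form.** If `m • D = div f` and `f * ι Z2 = c * ι Z1` for ANY `A`-integral
Laurent series `Z1, Z2` with equal nonzero reductions (no membership condition), then `D` is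
principal.  The Gauss-integral presentation is supplied by the landed GAUSS structure theorem
(`H93.fullData … .exists_structure`) over the frozen valuation ring `A`. -/
theorem principal_of_ratio {m : ℕ} (hm0 : m ≠ 0) (hkum : H60.KumPow A N m)
    (ℓ : ℕ) [Fact ℓ.Prime] [CharP (IsLocalRing.ResidueField A) ℓ] (hℓN : ¬ ℓ ∣ N)
    (D : Divisor (AlgebraicClosure ℚ) (modularFunctionFieldBar N))
    (f : modularFunctionFieldBar N) (hf : f ≠ 0)
    (hD : ∀ P : Place (AlgebraicClosure ℚ) (modularFunctionFieldBar N), (m • D) P = P.ord f)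
    (c : AlgebraicClosure ℚ) (hc : c ≠ 0) (Z1 Z2 : LaurentSeries A)
    (hne : coeffMap (IsLocalRing.residue A) Z2 ≠ 0)
    (heq : coeffMap (IsLocalRing.residue A) Z1 = coeffMap (IsLocalRing.residue A) Z2)
    (hfZ : (f : LaurentSeries (AlgebraicClosure ℚ)) * coeffMap A.subtype Z2 =
      HahnSeries.C c * coeffMap A.subtype Z1) :
    D ∈ Divisor.principal (K := AlgebraicClosure ℚ) (F := modularFunctionFieldBar N) := by
  have hfF : (f : LaurentSeries (AlgebraicClosure ℚ)) ∈
      modularFunctionFieldFullC (AlgebraicClosure ℚ) N := by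
    rw [← H92.bar_eq_fullC]
    exact f.2
  have hf0 : (f : LaurentSeries (AlgebraicClosure ℚ)) ≠ 0 := fun h => hf (Subtype.ext h)
  obtain ⟨c', P, u, hc', hPF, huF, hPred, hured, hPk, huk, h⟩ :=
    (H93.fullData (AlgebraicClosure ℚ) N A ℓ hℓN).exists_structure _ hfF hf0
  -- `c' * ι u * ι Z2 = c * ι Z1 * ι P`
  have hcross : HahnSeries.C c' * (coeffMap A.subtype u * coeffMap A.subtype Z2) =
      HahnSeries.C c * (coeffMap A.subtype Z1 * coeffMap A.subtype P) := by
    have e1 : H93.iotaA A P * (f : LaurentSeries (AlgebraicClosure ℚ)) =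
        HahnSeries.C c' * H93.iotaA A u := h
    calc HahnSeries.C c' * (coeffMap A.subtype u * coeffMap A.subtype Z2)
        = (HahnSeries.C c' * coeffMap A.subtype u) * coeffMap A.subtype Z2 := by ring
      _ = (coeffMap A.subtype P * (f : LaurentSeries (AlgebraicClosure ℚ))) *
            coeffMap A.subtype Z2 := by rw [← e1]
      _ = coeffMap A.subtype P * ((f : LaurentSeries (AlgebraicClosure ℚ)) *
            coeffMap A.subtype Z2) := by ring
      _ = HahnSeries.C c * (coeffMap A.subtype Z1 * coeffMap A.subtype P) := by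
            rw [hfZ]; ring
  have hZ1red : coeffMap (IsLocalRing.residue A) Z1 ≠ 0 := heq ▸ hne
  set a : AlgebraicClosure ℚ := c / c' with ha
  have ha0 : a ≠ 0 := div_ne_zero hc hc'
  have hac : a * c' = c := div_mul_cancel₀ c hc'
  -- `ι (u * Z2) = a * ι (Z1 * P)`
  have hcross' : coeffMap A.subtype (u * Z2) =
      HahnSeries.C a * coeffMap A.subtype (Z1 * P) := by
    have hCc' : (HahnSeries.C c' : LaurentSeries (AlgebraicClosure ℚ)) ≠ 0 := by
      rw [Ne, map_eq_zero]
      exact hc'
    apply mul_left_cancel₀ hCc'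
    rw [map_mul, map_mul, hcross, ← hac, map_mul]
    ring
  -- `a` is a unit of `A`
  have haA : a ∈ A := by
    by_contra hna
    have hinv : a⁻¹ ∈ A := (A.mem_or_inv_mem a).resolve_left hna
    have hres : IsLocalRing.residue A ⟨a⁻¹, hinv⟩ = 0 :=
      H93.residue_eq_zero_of_inv_not_mem A a hna rfl
    have e2 : coeffMap A.subtype (Z1 * P) =
        coeffMap A.subtype (HahnSeries.C (⟨a⁻¹, hinv⟩ : A) * (u * Z2)) := by
      rw [map_mul (coeffMap A.subtype) (HahnSeries.C _), H93.coeffMap_C, hcross',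
        ← mul_assoc, ← map_mul]
      show _ = HahnSeries.C (a⁻¹ * a) * _
      rw [inv_mul_cancel₀ ha0, map_one, one_mul]
    have e3 := H18.coeffMap_subtype_injective A e2
    have e4 := congrArg (coeffMap (IsLocalRing.residue A)) e3
    rw [map_mul, map_mul, H93.coeffMap_C, hres, map_zero, zero_mul] at e4
    rcases mul_eq_zero.mp e4 with h0 | h0
    · exact hZ1red h0
    · exact hPred h0
  -- the reductions
  have e2 : coeffMap A.subtype (u * Z2) =
      coeffMap A.subtype (HahnSeries.C (⟨a, haA⟩ : A) * (Z1 * P)) := by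
    rw [map_mul (coeffMap A.subtype) (HahnSeries.C _), H93.coeffMap_C, hcross']
    rfl
  have e3 := H18.coeffMap_subtype_injective A e2
  have e4 := congrArg (coeffMap (IsLocalRing.residue A)) e3
  rw [map_mul, map_mul, map_mul, H93.coeffMap_C, heq] at e4
  have e5 : coeffMap (IsLocalRing.residue A) u =
      HahnSeries.C (IsLocalRing.residue A ⟨a, haA⟩) * coeffMap (IsLocalRing.residue A) P := by
    apply mul_right_cancel₀ hne
    rw [e4]
    ring
  -- the Gauss-integral presentation `Y1 = u`, `Y2 = a * P`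
  have hu : u ∈ H18.gaussRing A N := by
    rw [H18.mem_gaussRing]
    refine ⟨?_, huk⟩
    rw [H92.bar_eq_fullC]
    exact huF
  have hP : P ∈ H18.gaussRing A N := by
    rw [H18.mem_gaussRing]
    refine ⟨?_, hPk⟩
    rw [H92.bar_eq_fullC]
    exact hPF
  have haP : HahnSeries.C (⟨a, haA⟩ : A) * P ∈ H18.gaussRing A N :=
    mul_mem (H18.single_zero_mem_gaussRing A N ⟨a, haA⟩) hP
  refine principal_of_gaussRing_ratio hm0 hkum D f hD c hc u (HahnSeries.C (⟨a, haA⟩ : A) * P)
    hu haP hured ?_ ?_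
  · rw [map_mul, H93.coeffMap_C, e5]
  · have e1 : coeffMap A.subtype P * (f : LaurentSeries (AlgebraicClosure ℚ)) =
        HahnSeries.C c' * coeffMap A.subtype u := h
    rw [map_mul, H93.coeffMap_C]
    show (f : LaurentSeries (AlgebraicClosure ℚ)) * (HahnSeries.C a * coeffMap A.subtype P) = _
    calc (f : LaurentSeries (AlgebraicClosure ℚ)) * (HahnSeries.C a * coeffMap A.subtype P)
        = HahnSeries.C a * (coeffMap A.subtype P * (f : LaurentSeries (AlgebraicClosure ℚ))) := by
          ring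
      _ = HahnSeries.C c * coeffMap A.subtype u := by
          rw [e1, ← mul_assoc, ← map_mul, hac]

/-- **(a) from the S18 TOP statement.** `ℓ ∤ N`, `A` over `ℓ`, `ℓ ∤ m`, `m • D = div f`, and the
Gauss reduction of `f / c` is `1` (in any integral ratio presentation): then `D` is principal. -/
theorem principal_of_ratio_of_modelKumStmt (hM : H60.ModelKumStmt) (ℓ : ℕ) [Fact ℓ.Prime]
    (hℓN : ¬ ℓ ∣ N) (hA : A.LiesOverPrime ℓ) {m : ℕ} (hm : ¬ ℓ ∣ m)
    (D : Divisor (AlgebraicClosure ℚ) (modularFunctionFieldBar N))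
    (f : modularFunctionFieldBar N) (hf : f ≠ 0)
    (hD : ∀ P : Place (AlgebraicClosure ℚ) (modularFunctionFieldBar N), (m • D) P = P.ord f)
    (c : AlgebraicClosure ℚ) (hc : c ≠ 0) (Z1 Z2 : LaurentSeries A)
    (hne : coeffMap (IsLocalRing.residue A) Z2 ≠ 0)
    (heq : coeffMap (IsLocalRing.residue A) Z1 = coeffMap (IsLocalRing.residue A) Z2)
    (hfZ : (f : LaurentSeries (AlgebraicClosure ℚ)) * coeffMap A.subtype Z2 =
      HahnSeries.C c * coeffMap A.subtype Z1) :
    D ∈ Divisor.principal (K := AlgebraicClosure ℚ) (F := modularFunctionFieldBar N) := by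
  have hm0 : m ≠ 0 := by
    rintro rfl
    exact hm (dvd_zero ℓ)
  have : CharP (IsLocalRing.ResidueField A) ℓ :=
    H86.charP_residueField A hA (Fact.out : ℓ.Prime)
  exact principal_of_ratio hm0 (kumPow_of_modelKumStmt hM N ℓ hℓN A hA m hm) ℓ hℓN D f hf hD
    c hc Z1 Z2 hne heq hfZ

end

end Fermat.Agent.S37.H84
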