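import Mathlib
import Fermat.Prelude.Def_ModularCurve_HeckeModule
import Fermat.Agent.S54.Frob

/-!
# S37: the formal reduction (helper37)

`SpecializationExists` asks, for every prime `ℓ ∤ N p` and every valuation subring `A` over `ℓ`,
for a Hecke module `J'` with maps `sp : J →+ J'`, `F : J' →+ J'` such that `sp` is Hecke
equivariant, kills inertia, intertwines every Frobenius with `F`, is injective on `p`-power torsion
and `F` satisfies the Eichler-Shimura relation on ALL of `J'`.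

Here we show that this follows from the existence of ONE additive map `r : J →+ M` into ANY
abelian group `M` (no Hecke structure on `M`, no endomorphism of `M`) which
* is constant on inertia orbits,
* kills `σ₀² x - T_ℓ σ₀ x + ℓ x` for one Frobenius element `σ₀`, and
* is injective on `p`-power torsion.

`J'` is the quotient of `J` by the subgroup generated by the inertia relations and the
Eichler-Shimura relations; this subgroup is automatically a Hecke submodule and `σ₀`-stable.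
-/

set_option autoImplicit false

open ModularCurve

namespace Fermat.Agent.S37.H37

section Generic

variable {K L : Type*} [Field K] [Field L] [Algebra K L]
variable (J : Type) [AddCommGroup J] [Module HeckeAlg J]
  [DistribMulAction (L ≃ₐ[K] L) J] [SMulCommClass (L ≃ₐ[K] L) HeckeAlg J]

/-- The generators: inertia relations and Eichler-Shimura relations. -/
def relSet (A : ValuationSubring L) (T : HeckeAlg) (ℓ : ℕ) (σ₀ : L ≃ₐ[K] L) : Set J :=
  {y | (∃ τ ∈ A.inertiaSubgroupIn K, ∃ x : J, y = τ • x - x) ∨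
       ∃ x : J, y = σ₀ • σ₀ • x - T • (σ₀ • x) + ℓ • x}

variable {J}

theorem smul_mem_relSet (A : ValuationSubring L) (T : HeckeAlg) (ℓ : ℕ) (σ₀ : L ≃ₐ[K] L)
    (t : HeckeAlg) {y : J} (hy : y ∈ relSet J A T ℓ σ₀) : t • y ∈ relSet J A T ℓ σ₀ := by
  rcases hy with ⟨τ, hτ, x, rfl⟩ | ⟨x, rfl⟩
  · refine Or.inl ⟨τ, hτ, t • x, ?_⟩
    rw [smul_sub, smul_comm τ t x]
  · refine Or.inr ⟨t • x, ?_⟩
    rw [smul_add, smul_sub, smul_comm σ₀ t x, smul_comm σ₀ t (σ₀ • x), smul_comm t T (σ₀ • x),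
      smul_comm t ℓ x]

theorem conj_mem_inertiaSubgroupIn (A : ValuationSubring L) {σ₀ τ : L ≃ₐ[K] L}
    (hσ₀ : σ₀ ∈ A.decompositionSubgroup K) (hτ : τ ∈ A.inertiaSubgroupIn K) :
    σ₀ * τ * σ₀⁻¹ ∈ A.inertiaSubgroupIn K := by
  obtain ⟨t, ht, rfl⟩ := hτ
  refine ⟨⟨σ₀, hσ₀⟩ * t * ⟨σ₀, hσ₀⟩⁻¹, ?_, rfl⟩
  have hn : (A.inertiaSubgroup K).Normal := by
    unfold ValuationSubring.inertiaSubgroup
    infer_instance
  exact hn.conj_mem t ht ⟨σ₀, hσ₀⟩

theorem galois_smul_mem_relSet (A : ValuationSubring L) (T : HeckeAlg) (ℓ : ℕ) {σ₀ : L ≃ₐ[K] L}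
    (hσ₀ : σ₀ ∈ A.decompositionSubgroup K) {y : J} (hy : y ∈ relSet J A T ℓ σ₀) :
    σ₀ • y ∈ relSet J A T ℓ σ₀ := by
  rcases hy with ⟨τ, hτ, x, rfl⟩ | ⟨x, rfl⟩
  · refine Or.inl ⟨σ₀ * τ * σ₀⁻¹, conj_mem_inertiaSubgroupIn A hσ₀ hτ, σ₀ • x, ?_⟩
    rw [smul_sub, mul_smul, mul_smul, inv_smul_smul]
  · refine Or.inr ⟨σ₀ • x, ?_⟩
    rw [smul_add, smul_sub, smul_comm σ₀ T (σ₀ • x), smul_comm σ₀ ℓ x]

variable (J) in
/-- The Hecke submodule generated by the relations. -/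
def relSub (A : ValuationSubring L) (T : HeckeAlg) (ℓ : ℕ) (σ₀ : L ≃ₐ[K] L) :
    Submodule HeckeAlg J where
  carrier := AddSubgroup.closure (relSet J A T ℓ σ₀)
  zero_mem' := zero_mem _
  add_mem' := fun ha hb => add_mem ha hb
  smul_mem' := by
    intro t y hy
    induction hy using AddSubgroup.closure_induction with
    | mem z hz => exact AddSubgroup.subset_closure (smul_mem_relSet A T ℓ σ₀ t hz)
    | zero => rw [smul_zero]; exact zero_mem _
    | add a b _ _ ha hb => rw [smul_add]; exact add_mem ha hb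
    | neg a _ ha => rw [smul_neg]; exact neg_mem ha

theorem mem_relSub_iff (A : ValuationSubring L) (T : HeckeAlg) (ℓ : ℕ) (σ₀ : L ≃ₐ[K] L) (y : J) :
    y ∈ relSub J A T ℓ σ₀ ↔ y ∈ AddSubgroup.closure (relSet J A T ℓ σ₀) := Iff.rfl

theorem galois_smul_mem_relSub (A : ValuationSubring L) (T : HeckeAlg) (ℓ : ℕ) {σ₀ : L ≃ₐ[K] L}
    (hσ₀ : σ₀ ∈ A.decompositionSubgroup K) {y : J} (hy : y ∈ relSub J A T ℓ σ₀) :
    σ₀ • y ∈ relSub J A T ℓ σ₀ := by
  rw [mem_relSub_iff] at hy ⊢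
  induction hy using AddSubgroup.closure_induction with
  | mem z hz => exact AddSubgroup.subset_closure (galois_smul_mem_relSet A T ℓ hσ₀ hz)
  | zero => rw [smul_zero]; exact zero_mem _
  | add a b _ _ ha hb => rw [smul_add]; exact add_mem ha hb
  | neg a _ ha => rw [smul_neg]; exact neg_mem ha

/-- An additive map killing the generators kills the whole relation submodule. -/
theorem map_eq_zero_of_mem_relSub (A : ValuationSubring L) (T : HeckeAlg) (ℓ : ℕ)
    (σ₀ : L ≃ₐ[K] L) {M : Type*} [AddCommGroup M] (r : J →+ M)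
    (h1 : ∀ τ ∈ A.inertiaSubgroupIn K, ∀ x : J, r (τ • x) = r x)
    (h2 : ∀ x : J, r (σ₀ • σ₀ • x - T • (σ₀ • x) + ℓ • x) = 0)
    {y : J} (hy : y ∈ relSub J A T ℓ σ₀) : r y = 0 := by
  rw [mem_relSub_iff] at hy
  induction hy using AddSubgroup.closure_induction with
  | mem z hz =>
    rcases hz with ⟨τ, hτ, x, rfl⟩ | ⟨x, rfl⟩
    · rw [map_sub, h1 τ hτ x, sub_self]
    · exact h2 x
  | zero => exact map_zero r
  | add a b _ _ ha hb => rw [map_add, ha, hb, add_zero]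
  | neg a _ ha => rw [map_neg, ha, neg_zero]

/-- The Galois element `σ₀` as a Hecke-linear endomorphism of `J`. -/
def galLin (σ₀ : L ≃ₐ[K] L) : J →ₗ[HeckeAlg] J where
  toFun x := σ₀ • x
  map_add' := smul_add σ₀
  map_smul' t x := smul_comm σ₀ t x

@[simp] theorem galLin_apply (σ₀ : L ≃ₐ[K] L) (x : J) : galLin σ₀ x = σ₀ • x := rfl

/-- Two Frobenius elements at `A` differ by an element of inertia. -/
theorem inv_mul_mem_inertiaSubgroupIn (A : ValuationSubring L) {ℓ : ℕ} {σ σ₀ : L ≃ₐ[K] L}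
    (hσ : A.IsFrobeniusAt σ ℓ) (hσ₀ : A.IsFrobeniusAt σ₀ ℓ) :
    σ₀⁻¹ * σ ∈ A.inertiaSubgroupIn K := by
  refine ⟨⟨σ₀, hσ₀.mem_decompositionSubgroup⟩⁻¹ * ⟨σ, hσ.mem_decompositionSubgroup⟩, ?_, rfl⟩
  unfold ValuationSubring.inertiaSubgroup
  refine MonoidHom.mem_ker.mpr ?_
  ext x
  show (⟨σ₀, hσ₀.mem_decompositionSubgroup⟩⁻¹ * ⟨σ, hσ.mem_decompositionSubgroup⟩ :
    A.decompositionSubgroup K) • x = x
  rw [mul_smul, hσ.smul_residue_eq, ← hσ₀.smul_residue_eq, inv_smul_smul]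

/-- **The formal reduction.**  One additive map `r` on `J` which is constant on inertia orbits,
kills the Eichler-Shimura relation for one Frobenius element and is injective on `p`-power
torsion produces the whole specialisation datum. -/
theorem exists_specialization_of_hom (p : ℕ) (A : ValuationSubring L) (ℓ : ℕ) (hℓ : ℓ.Prime)
    (σ₀ : L ≃ₐ[K] L) (hσ₀ : A.IsFrobeniusAt σ₀ ℓ) {M : Type*} [AddCommGroup M] (r : J →+ M)
    (h1 : ∀ τ ∈ A.inertiaSubgroupIn K, ∀ x : J, r (τ • x) = r x)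
    (h2 : ∀ x : J, r (σ₀ • σ₀ • x - heckeGen ⟨ℓ, hℓ⟩ • (σ₀ • x) + ℓ • x) = 0)
    (h3 : ∀ x : J, (∃ n : ℕ, p ^ n • x = 0) → r x = 0 → x = 0) :
    ∃ (J' : Type) (_ : AddCommGroup J') (_ : Module HeckeAlg J') (sp : J →+ J') (F : J' →+ J'),
      IsSpecialization (K := K) p J J' A ℓ sp F ∧ SpecialFibreRelation J' ℓ hℓ F := by
  set K₀ : Submodule HeckeAlg J := relSub J A (heckeGen ⟨ℓ, hℓ⟩) ℓ σ₀ with hK₀
  have hdec := hσ₀.mem_decompositionSubgroup
  have hstab : K₀ ≤ K₀.comap (galLin σ₀) := fun y hy =>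
    galois_smul_mem_relSub A _ ℓ hdec hy
  refine ⟨J ⧸ K₀, inferInstance, inferInstance, K₀.mkQ.toAddMonoidHom,
    (K₀.mapQ K₀ (galLin σ₀) hstab).toAddMonoidHom, ⟨?_, ?_, ?_, ?_⟩, ?_⟩
  · intro T x
    exact map_smul K₀.mkQ T x
  · intro τ hτ x
    show K₀.mkQ (τ • x) = K₀.mkQ x
    rw [← sub_eq_zero, ← map_sub, Submodule.mkQ_apply, Submodule.Quotient.mk_eq_zero]
    exact AddSubgroup.subset_closure (Or.inl ⟨τ, hτ, x, rfl⟩)
  · intro σ hσ x
    show K₀.mkQ (σ • x) = K₀.mapQ K₀ (galLin σ₀) hstab (K₀.mkQ x)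
    rw [Submodule.mkQ_apply, Submodule.mkQ_apply, Submodule.mapQ_apply, galLin_apply,
      ← sub_eq_zero, ← Submodule.Quotient.mk_sub, Submodule.Quotient.mk_eq_zero]
    have hτ := inv_mul_mem_inertiaSubgroupIn A hσ hσ₀
    have h := galois_smul_mem_relSub A (heckeGen ⟨ℓ, hℓ⟩) ℓ hdec
      (y := (σ₀⁻¹ * σ) • x - x) (AddSubgroup.subset_closure (Or.inl ⟨_, hτ, x, rfl⟩))
    rwa [smul_sub, ← mul_smul, mul_inv_cancel_left] at h
  · intro x hx hx0
    refine h3 x hx (map_eq_zero_of_mem_relSub A _ ℓ σ₀ r h1 h2 ?_)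
    have : K₀.mkQ x = 0 := hx0
    rwa [Submodule.mkQ_apply, Submodule.Quotient.mk_eq_zero] at this
  · intro y
    obtain ⟨x, rfl⟩ := K₀.mkQ_surjective y
    show K₀.mapQ K₀ (galLin σ₀) hstab (K₀.mapQ K₀ (galLin σ₀) hstab (K₀.mkQ x))
      - heckeGen ⟨ℓ, hℓ⟩ • K₀.mapQ K₀ (galLin σ₀) hstab (K₀.mkQ x) + ℓ • K₀.mkQ x = 0
    simp only [Submodule.mkQ_apply, Submodule.mapQ_apply, galLin_apply]
    rw [← Submodule.Quotient.mk_smul, ← Submodule.Quotient.mk_sub]
    have hn : (ℓ : ℕ) • (Submodule.Quotient.mk x : J ⧸ K₀) = Submodule.Quotient.mk (ℓ • x) := by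
      rw [← Submodule.mkQ_apply, ← Submodule.mkQ_apply, map_nsmul]
    rw [hn, ← Submodule.Quotient.mk_add, Submodule.Quotient.mk_eq_zero]
    exact AddSubgroup.subset_closure (Or.inr ⟨x, rfl⟩)

end Generic

/-- **S37 from a reduction map.**  The frozen statement S37 follows once, for every prime
`ℓ ∤ N p` and every valuation subring `A` of `Qbar` over `ℓ`, one has a Frobenius element `σ₀`
at `A` and an additive map `r` out of `J₀(N)` (into any abelian group) which is constant on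
inertia orbits, kills `σ₀² - T_ℓ σ₀ + ℓ` and is injective on `p`-power torsion. -/
theorem specializationExists_of_hom (N p : ℕ) [NeZero N]
    (_hcomm : ModularCurve.HeckeOperatorsCommuteBar N) :
    letI := ModularCurve.heckeModuleBar N
    ∀ (_ : SMulCommClass (AlgebraicClosure ℚ ≃ₐ[ℚ] AlgebraicClosure ℚ) ModularCurve.HeckeAlg
      (ModularCurve.JZero N)),
    (∀ ℓ : ℕ, (hℓ : ℓ.Prime) → ¬ ℓ ∣ N * p →
      ∀ A : ValuationSubring (AlgebraicClosure ℚ), A.LiesOverPrime ℓ →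
        ∃ σ₀ : AlgebraicClosure ℚ ≃ₐ[ℚ] AlgebraicClosure ℚ, A.IsFrobeniusAt σ₀ ℓ ∧
          ∃ (M : Type) (_ : AddCommGroup M) (r : ModularCurve.JZero N →+ M),
            (∀ τ ∈ A.inertiaSubgroupIn ℚ, ∀ x : ModularCurve.JZero N, r (τ • x) = r x) ∧
            (∀ x : ModularCurve.JZero N,
              r (σ₀ • σ₀ • x - heckeGen ⟨ℓ, hℓ⟩ • (σ₀ • x) + ℓ • x) = 0) ∧
            (∀ x : ModularCurve.JZero N, (∃ n : ℕ, p ^ n • x = 0) → r x = 0 → x = 0)) →
    ModularCurve.SpecializationExists (K := ℚ) (L := AlgebraicClosure ℚ) N p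
      (ModularCurve.JZero N) := by
  let _ := ModularCurve.heckeModuleBar N
  intro _ H ℓ hℓ hℓNp A hA
  obtain ⟨σ₀, hσ₀, M, _, r, h1, h2, h3⟩ := H ℓ hℓ hℓNp A hA
  exact exists_specialization_of_hom p A ℓ hℓ σ₀ hσ₀ r h1 h2 h3

/-- The same with the Frobenius element chosen by the caller's opponent: it suffices to treat
every Frobenius element `σ₀` at `A` (one exists by `S54.H86.exists_isFrobeniusAt`). -/
theorem specializationExists_of_hom_forall (N p : ℕ) [NeZero N]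
    (_hcomm : ModularCurve.HeckeOperatorsCommuteBar N) :
    letI := ModularCurve.heckeModuleBar N
    ∀ (_ : SMulCommClass (AlgebraicClosure ℚ ≃ₐ[ℚ] AlgebraicClosure ℚ) ModularCurve.HeckeAlg
      (ModularCurve.JZero N)),
    (∀ ℓ : ℕ, (hℓ : ℓ.Prime) → ¬ ℓ ∣ N * p →
      ∀ A : ValuationSubring (AlgebraicClosure ℚ), A.LiesOverPrime ℓ →
        ∀ σ₀ : AlgebraicClosure ℚ ≃ₐ[ℚ] AlgebraicClosure ℚ, A.IsFrobeniusAt σ₀ ℓ →
          ∃ (M : Type) (_ : AddCommGroup M) (r : ModularCurve.JZero N →+ M),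
            (∀ τ ∈ A.inertiaSubgroupIn ℚ, ∀ x : ModularCurve.JZero N, r (τ • x) = r x) ∧
            (∀ x : ModularCurve.JZero N,
              r (σ₀ • σ₀ • x - heckeGen ⟨ℓ, hℓ⟩ • (σ₀ • x) + ℓ • x) = 0) ∧
            (∀ x : ModularCurve.JZero N, (∃ n : ℕ, p ^ n • x = 0) → r x = 0 → x = 0)) →
    ModularCurve.SpecializationExists (K := ℚ) (L := AlgebraicClosure ℚ) N p
      (ModularCurve.JZero N) := by
  let _ := ModularCurve.heckeModuleBar N
  intro _ H ℓ hℓ hℓNp A hA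
  have := Fermat.Agent.S54.H86.isGalois_algebraicClosure_rat
  obtain ⟨σ₀, hσ₀⟩ := Fermat.Agent.S54.H86.exists_isFrobeniusAt A hℓ hA
  obtain ⟨M, _, r, h1, h2, h3⟩ := H ℓ hℓ hℓNp A hA σ₀ hσ₀
  exact exists_specialization_of_hom p A ℓ hℓ σ₀ hσ₀ r h1 h2 h3

end Fermat.Agent.S37.H37
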