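/-
S37, generic `K1` layer (helper72).

For an additive subgroup `S` of the divisors of a function field, `K1 S` is the group of classes
in `Pic⁰` of the degree-zero divisors of `S`.  (`divTilde rel` is the subgroup generated by the
differences `P - P'` of `rel`-related places.)  This file turns three statements about
PLACES / DIVISORS,

 (GAL) `τ P - P ∈ S` for `τ` in the inertia group and every place `P`,
 (ES)  `φ² P - T_ℓ (φ P) + ℓ P ∈ S` for every place `P` (Eichler-Shimura on divisors),
 (INJ) `D ∈ S`, `m D` principal, `ℓ ∤ m`  ⟹  `D` principal,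

together with the Hecke inputs (HI), into the hypothesis of
`H37.specializationExists_of_hom_forall`, i.e. into the frozen statement S37
(`specializationExists_of_divT`, `specializationExists_of_rel`).
-/
import Mathlib
import Fermat.Prelude.Def_ModularCurve_HeckeModule
import Fermat.Agent.S37.Formal_helper37

set_option autoImplicit false

open AlgebraicCurve ModularCurve

namespace Fermat.Agent.S37.H72

noncomputable section

section Generic

variable {K F : Type*} [Field K] [Field F] [Algebra K F]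

/-- The subgroup of divisors generated by the differences `P - P'` of related places. -/
def divTilde (rel : Place K F → Place K F → Prop) : AddSubgroup (Divisor K F) :=
  AddSubgroup.closure {d | ∃ P P', rel P P' ∧ d = Finsupp.single P (1 : ℤ) - Finsupp.single P' 1}

theorem single_sub_single_mem_divTilde {rel : Place K F → Place K F → Prop} {P P' : Place K F}
    (h : rel P P') : (Finsupp.single P (1 : ℤ) - Finsupp.single P' 1 : Divisor K F) ∈ divTilde rel :=
  AddSubgroup.subset_closure ⟨P, P', h, rfl⟩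

theorem divTilde_mono {rel rel' : Place K F → Place K F → Prop}
    (h : ∀ P P', rel P P' → rel' P P') : divTilde rel ≤ divTilde rel' := by
  apply AddSubgroup.closure_mono
  rintro d ⟨P, P', hPP', rfl⟩
  exact ⟨P, P', h P P' hPP', rfl⟩

/-- `n P - n P' = n (P - P')`. -/
theorem single_sub_single_mem (S : AddSubgroup (Divisor K F)) {P P' : Place K F}
    (h : (Finsupp.single P (1 : ℤ) - Finsupp.single P' 1 : Divisor K F) ∈ S) (n : ℤ) :
    (Finsupp.single P n - Finsupp.single P' n : Divisor K F) ∈ S := by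
  have h1 : (Finsupp.single P n - Finsupp.single P' n : Divisor K F)
      = n • (Finsupp.single P (1 : ℤ) - Finsupp.single P' 1) := by
    rw [smul_sub, Finsupp.smul_single, Finsupp.smul_single, smul_eq_mul, mul_one]
  rw [h1]
  exact S.zsmul_mem h n

/-- The classes in `Pic⁰` of the degree-zero divisors of `S`. -/
def K1 (S : AddSubgroup (Divisor K F)) : AddSubgroup (Pic0 K F) where
  carrier := {x | ∃ D : Divisor.degZero (K := K) (F := F),
    (D : Divisor K F) ∈ S ∧ Pic0.mk D = x}
  zero_mem' := ⟨0, S.zero_mem, rfl⟩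
  add_mem' := by
    rintro _ _ ⟨D, hD, rfl⟩ ⟨E, hE, rfl⟩
    exact ⟨D + E, S.add_mem hD hE, rfl⟩
  neg_mem' := by
    rintro _ ⟨D, hD, rfl⟩
    exact ⟨-D, S.neg_mem hD, rfl⟩

theorem mem_K1_iff {S : AddSubgroup (Divisor K F)} {x : Pic0 K F} :
    x ∈ K1 S ↔ ∃ D : Divisor.degZero (K := K) (F := F),
      (D : Divisor K F) ∈ S ∧ Pic0.mk D = x := Iff.rfl

theorem mk_mem_K1 {S : AddSubgroup (Divisor K F)} (D : Divisor.degZero (K := K) (F := F))
    (hD : (D : Divisor K F) ∈ S) : Pic0.mk D ∈ K1 S := ⟨D, hD, rfl⟩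

/-! ### (b): an automorphism moving every place inside its class acts trivially modulo `K1` -/

theorem smul_sub_mem (g : SemilinearAut K F) {S : AddSubgroup (Divisor K F)}
    (h : ∀ P : Place K F,
      (Finsupp.single (g • P) (1 : ℤ) - Finsupp.single P 1 : Divisor K F) ∈ S)
    (D : Divisor K F) : g • D - D ∈ S := by
  induction D using Finsupp.induction with
  | zero =>
    rw [smul_zero, sub_zero]
    exact S.zero_mem
  | single_add v n D _ _ ih =>
    rw [smul_add, SemilinearAut.smul_single]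
    have h1 : (Finsupp.single (g • v) n - Finsupp.single v n : Divisor K F) ∈ S :=
      single_sub_single_mem S (h v) n
    have h2 := S.add_mem h1 ih
    have e : Finsupp.single (g • v) n + g • D - (Finsupp.single v n + D)
        = (Finsupp.single (g • v) n - Finsupp.single v n) + (g • D - D) := by abel
    rw [e]
    exact h2

theorem smul_sub_mem_K1 (g : SemilinearAut K F) {S : AddSubgroup (Divisor K F)}
    (h : ∀ P : Place K F,
      (Finsupp.single (g • P) (1 : ℤ) - Finsupp.single P 1 : Divisor K F) ∈ S)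
    (x : Pic0 K F) : g • x - x ∈ K1 S := by
  obtain ⟨D, rfl⟩ := Pic0.mk_surjective x
  rw [SemilinearAut.pic0_smul_mk]
  refine ⟨SemilinearAut.degZeroSMulHom g D - D, ?_, rfl⟩
  rw [AddSubgroup.coe_sub, SemilinearAut.coe_degZeroSMulHom]
  exact smul_sub_mem g h D

/-! ### (c): an automorphism preserving the relation preserves `K1 (divTilde rel)` -/

theorem smul_mem_divTilde (g : SemilinearAut K F) {rel : Place K F → Place K F → Prop}
    (h : ∀ P P', rel P P' → rel (g • P) (g • P')) {D : Divisor K F} (hD : D ∈ divTilde rel) :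
    g • D ∈ divTilde rel := by
  induction hD using AddSubgroup.closure_induction with
  | mem d hd =>
    obtain ⟨P, P', hPP', rfl⟩ := hd
    rw [smul_sub, SemilinearAut.smul_single, SemilinearAut.smul_single]
    exact single_sub_single_mem_divTilde (h P P' hPP')
  | zero =>
    rw [smul_zero]
    exact (divTilde rel).zero_mem
  | add x y _ _ hx hy =>
    rw [smul_add]
    exact (divTilde rel).add_mem hx hy
  | neg x _ hx =>
    rw [smul_neg]
    exact (divTilde rel).neg_mem hx

theorem smul_mem_K1 (g : SemilinearAut K F) {rel : Place K F → Place K F → Prop}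
    (h : ∀ P P', rel P P' → rel (g • P) (g • P')) {x : Pic0 K F} (hx : x ∈ K1 (divTilde rel)) :
    g • x ∈ K1 (divTilde rel) := by
  obtain ⟨D, hD, rfl⟩ := hx
  rw [SemilinearAut.pic0_smul_mk]
  refine ⟨SemilinearAut.degZeroSMulHom g D, ?_, rfl⟩
  rw [SemilinearAut.coe_degZeroSMulHom]
  exact smul_mem_divTilde g h hD

/-! ### (d): a relation on divisors of the shape `g² - T g + ℓ` descends to `K1` -/

theorem quad_mem (g : SemilinearAut K F) (Tdiv : Divisor K F →+ Divisor K F) (ℓ : ℕ)
    {S : AddSubgroup (Divisor K F)}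
    (h : ∀ P : Place K F, (Finsupp.single (g • g • P) (1 : ℤ) - Tdiv (Finsupp.single (g • P) 1)
      + ℓ • Finsupp.single P (1 : ℤ) : Divisor K F) ∈ S) (D : Divisor K F) :
    g • g • D - Tdiv (g • D) + ℓ • D ∈ S := by
  induction D using Finsupp.induction with
  | zero =>
    simp only [smul_zero, map_zero, sub_zero, add_zero]
    exact S.zero_mem
  | single_add v n D _ _ ih =>
    have h1 : (Finsupp.single (g • g • v) n - Tdiv (Finsupp.single (g • v) n)
        + ℓ • Finsupp.single v n : Divisor K F) ∈ S := by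
      have e : (Finsupp.single (g • g • v) n - Tdiv (Finsupp.single (g • v) n)
          + ℓ • Finsupp.single v n : Divisor K F)
          = n • (Finsupp.single (g • g • v) (1 : ℤ) - Tdiv (Finsupp.single (g • v) 1)
            + ℓ • Finsupp.single v (1 : ℤ)) := by
        have e1 : (Finsupp.single (g • v) n : Divisor K F) = n • Finsupp.single (g • v) (1 : ℤ) := by
          rw [Finsupp.smul_single, smul_eq_mul, mul_one]
        have e2 : (Finsupp.single (g • g • v) n : Divisor K F)
            = n • Finsupp.single (g • g • v) (1 : ℤ) := by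
          rw [Finsupp.smul_single, smul_eq_mul, mul_one]
        have e3 : (Finsupp.single v n : Divisor K F) = n • Finsupp.single v (1 : ℤ) := by
          rw [Finsupp.smul_single, smul_eq_mul, mul_one]
        rw [e1, e2, e3, map_zsmul, smul_add, smul_sub, smul_comm ℓ n]
      rw [e]
      exact S.zsmul_mem (h v) n
    have h2 := S.add_mem h1 ih
    have e : g • g • (Finsupp.single v n + D) - Tdiv (g • (Finsupp.single v n + D))
          + ℓ • (Finsupp.single v n + D)
        = (Finsupp.single (g • g • v) n - Tdiv (Finsupp.single (g • v) n)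
            + ℓ • Finsupp.single v n) + (g • g • D - Tdiv (g • D) + ℓ • D) := by
      simp only [smul_add, SemilinearAut.smul_single, map_add]
      abel
    rw [e]
    exact h2

theorem quad_mem_K1 (g : SemilinearAut K F) (Tdiv : Divisor K F →+ Divisor K F)
    (T : Pic0 K F →+ Pic0 K F)
    (hT : ∀ D : Divisor.degZero (K := K) (F := F), ∃ E : Divisor.degZero (K := K) (F := F),
      (E : Divisor K F) = Tdiv (D : Divisor K F) ∧ T (Pic0.mk D) = Pic0.mk E) (ℓ : ℕ)
    {S : AddSubgroup (Divisor K F)}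
    (h : ∀ P : Place K F, (Finsupp.single (g • g • P) (1 : ℤ) - Tdiv (Finsupp.single (g • P) 1)
      + ℓ • Finsupp.single P (1 : ℤ) : Divisor K F) ∈ S) (x : Pic0 K F) :
    g • g • x - T (g • x) + ℓ • x ∈ K1 S := by
  obtain ⟨D, rfl⟩ := Pic0.mk_surjective x
  rw [SemilinearAut.pic0_smul_mk, SemilinearAut.pic0_smul_mk]
  obtain ⟨E, hE, hTE⟩ := hT (SemilinearAut.degZeroSMulHom g D)
  rw [hTE]
  refine ⟨SemilinearAut.degZeroSMulHom g (SemilinearAut.degZeroSMulHom g D) - E + ℓ • D, ?_, rfl⟩
  rw [AddSubgroup.coe_add, AddSubgroup.coe_sub, AddSubgroup.coe_nsmul, hE,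
    SemilinearAut.coe_degZeroSMulHom, SemilinearAut.coe_degZeroSMulHom]
  exact quad_mem g Tdiv ℓ h D

/-! ### (a): no torsion in `K1` -/

theorem eq_zero_of_mem_K1 {S : AddSubgroup (Divisor K F)} (m : ℕ)
    (h : ∀ D ∈ S, m • D ∈ Divisor.principal (K := K) (F := F) →
      D ∈ Divisor.principal (K := K) (F := F))
    {x : Pic0 K F} (hx : x ∈ K1 S) (hm : m • x = 0) : x = 0 := by
  obtain ⟨D, hD, rfl⟩ := hx
  have h1 : m • (D : Divisor K F) ∈ Divisor.principal (K := K) (F := F) := by
    have h2 : Pic0.mk (m • D) = 0 := hm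
    have h3 := (QuotientAddGroup.eq_zero_iff (m • D)).mp h2
    rw [AddSubgroup.mem_addSubgroupOf, AddSubgroup.coe_nsmul] at h3
    exact h3
  have h4 := h _ hD h1
  exact (QuotientAddGroup.eq_zero_iff D).mpr (AddSubgroup.mem_addSubgroupOf.mpr h4)

end Generic

/-! ### The modular instance: the frozen statement from (GAL), (ES), (INJ) on places / divisors -/

section Modular

local notation "Qb" => AlgebraicClosure ℚ

/-- The Hecke operator `T_ℓ` on `J₀(N)` in terms of the divisor correspondence. -/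
theorem heckeOperatorBar_mk (N : ℕ) [NeZero N]
    (ℓ : ℕ) (hℓ : ℓ.Prime) [NeZero ℓ]
    (hα : HeckeAlphaBarIntegral Qb N ℓ) (hβ : HeckeBetaBarIntegral Qb N ℓ)
    [HasPrincipalDivisors Qb (modularFunctionFieldBar (N * ℓ))]
    (hFI : FundamentalIdentityAlong Qb (heckeBetaBar Qb N ℓ) hβ)
    (hfin : FiniteAlong Qb (heckeAlphaBar Qb N ℓ))
    (hN : NormFormulaAlong Qb (heckeAlphaBar Qb N ℓ) hfin)
    (D : Divisor.degZero (K := Qb) (F := modularFunctionFieldBar N)) :
    ∃ E : Divisor.degZero (K := Qb) (F := modularFunctionFieldBar N),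
      (E : Divisor Qb (modularFunctionFieldBar N)) = heckeDivBar hα hβ (D : Divisor Qb _) ∧
      heckeOperatorBar N (⟨ℓ, hℓ⟩ : Nat.Primes) (Pic0.mk D : JZero N) = Pic0.mk E := by
  refine ⟨Pic0.degZeroCorrespondence (heckeBetaBar Qb N ℓ) (heckeAlphaBar Qb N ℓ) hβ hα hFI D,
    rfl, ?_⟩
  refine (heckeOperatorBar_apply N (⟨ℓ, hℓ⟩ : Nat.Primes) (Pic0.mk D)).trans ?_
  show heckeOperatorAlong Qb N ℓ (Pic0.mk D) = _
  rw [heckeOperatorAlong_eq hα hβ hFI hfin hN]
  rfl

/-- (r1): inertia acts trivially modulo `K1 S`. -/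
theorem mk_galois_smul_eq (N : ℕ)
    (S : AddSubgroup (Divisor Qb (modularFunctionFieldBar N)))
    (τ : Qb ≃ₐ[ℚ] Qb)
    (h : ∀ P : Place Qb (modularFunctionFieldBar N),
      (Finsupp.single (arithmeticGalois (modularFunctionFieldFull N) τ • P) (1 : ℤ)
        - Finsupp.single P 1 : Divisor Qb (modularFunctionFieldBar N)) ∈ S) (x : JZero N) :
    QuotientAddGroup.mk' (K1 S) (τ • x) = QuotientAddGroup.mk' (K1 S) x := by
  have h1 : arithmeticGalois (modularFunctionFieldFull N) τ • x - x ∈ K1 S :=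
    smul_sub_mem_K1 (arithmeticGalois (modularFunctionFieldFull N) τ) h x
  have h3 : (QuotientAddGroup.mk' (K1 S))
      (arithmeticGalois (modularFunctionFieldFull N) τ • x - x) = 0 :=
    (QuotientAddGroup.eq_zero_iff _).mpr h1
  rw [map_sub, sub_eq_zero] at h3
  exact h3

/-- (r2): the Eichler-Shimura relation modulo `K1 S`. -/
theorem mk_quad_eq_zero (N : ℕ) [NeZero N]
    (ℓ : ℕ) (hℓ : ℓ.Prime) [NeZero ℓ]
    (hα : HeckeAlphaBarIntegral Qb N ℓ) (hβ : HeckeBetaBarIntegral Qb N ℓ)
    [HasPrincipalDivisors Qb (modularFunctionFieldBar (N * ℓ))]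
    (hFI : FundamentalIdentityAlong Qb (heckeBetaBar Qb N ℓ) hβ)
    (hfin : FiniteAlong Qb (heckeAlphaBar Qb N ℓ))
    (hN : NormFormulaAlong Qb (heckeAlphaBar Qb N ℓ) hfin)
    (S : AddSubgroup (Divisor Qb (modularFunctionFieldBar N)))
    (σ₀ : Qb ≃ₐ[ℚ] Qb)
    (hD : ∀ P : Place Qb (modularFunctionFieldBar N),
      (Finsupp.single (arithmeticGalois (modularFunctionFieldFull N) σ₀ •
          arithmeticGalois (modularFunctionFieldFull N) σ₀ • P) (1 : ℤ)
        - heckeDivBar hα hβ
          (Finsupp.single (arithmeticGalois (modularFunctionFieldFull N) σ₀ • P) 1)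
        + ℓ • Finsupp.single P (1 : ℤ) : Divisor Qb (modularFunctionFieldBar N)) ∈ S)
    (x : JZero N) :
    QuotientAddGroup.mk' (K1 S)
      (σ₀ • σ₀ • x - heckeOperatorBar N (⟨ℓ, hℓ⟩ : Nat.Primes) (σ₀ • x) + ℓ • x) = 0 := by
  have hmem := quad_mem_K1 (arithmeticGalois (modularFunctionFieldFull N) σ₀)
    (heckeDivBar hα hβ) (heckeOperatorBar N (⟨ℓ, hℓ⟩ : Nat.Primes)).toAddMonoidHom
    (fun D => heckeOperatorBar_mk N ℓ hℓ hα hβ hFI hfin hN D) ℓ hD x
  exact (QuotientAddGroup.eq_zero_iff _).mpr hmem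

/-- **The frozen statement S37 from place-level data** (`DivT` an arbitrary subgroup of
divisors).  For every prime `ℓ ∤ N p`, valuation subring `A` over `ℓ` and Frobenius element `σ₀`
at `A` it suffices to give the Hecke inputs (HI) at `ℓ` and a subgroup `DivT` of divisors of
`X₀(N)` with
 (GAL) `τ P - P ∈ DivT` for `τ` in the inertia group of `A`,
 (ES)  `σ₀² P - T_ℓ(σ₀ P) + ℓ P ∈ DivT` for every place `P`,
 (INJ) a divisor of `DivT` with a principal multiple `m D`, `ℓ ∤ m`, is principal. -/
theorem specializationExists_of_divT (N p : ℕ) [NeZero N]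
    (hcomm : ModularCurve.HeckeOperatorsCommuteBar N) :
    letI := ModularCurve.heckeModuleBar N
    ∀ (_ : SMulCommClass (Qb ≃ₐ[ℚ] Qb) ModularCurve.HeckeAlg (ModularCurve.JZero N)),
    (∀ ℓ : ℕ, (hℓ : ℓ.Prime) → ¬ ℓ ∣ N * p →
      ∀ A : ValuationSubring Qb, A.LiesOverPrime ℓ →
        ∀ σ₀ : Qb ≃ₐ[ℚ] Qb, A.IsFrobeniusAt σ₀ ℓ →
          have : NeZero ℓ := ⟨hℓ.ne_zero⟩
          ∃ (hα : HeckeAlphaBarIntegral Qb N ℓ) (hβ : HeckeBetaBarIntegral Qb N ℓ)
            (_ : HasPrincipalDivisors Qb (modularFunctionFieldBar (N * ℓ)))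
            (hfin : FiniteAlong Qb (heckeAlphaBar Qb N ℓ))
            (_ : FundamentalIdentityAlong Qb (heckeBetaBar Qb N ℓ) hβ)
            (_ : NormFormulaAlong Qb (heckeAlphaBar Qb N ℓ) hfin)
            (DivT : AddSubgroup (Divisor Qb (modularFunctionFieldBar N))),
            (∀ τ ∈ A.inertiaSubgroupIn ℚ, ∀ P : Place Qb (modularFunctionFieldBar N),
              (Finsupp.single (arithmeticGalois (modularFunctionFieldFull N) τ • P) (1 : ℤ)
                - Finsupp.single P 1 : Divisor Qb (modularFunctionFieldBar N)) ∈ DivT) ∧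
            (∀ P : Place Qb (modularFunctionFieldBar N),
              (Finsupp.single (arithmeticGalois (modularFunctionFieldFull N) σ₀ •
                  arithmeticGalois (modularFunctionFieldFull N) σ₀ • P) (1 : ℤ)
                - heckeDivBar hα hβ
                  (Finsupp.single (arithmeticGalois (modularFunctionFieldFull N) σ₀ • P) 1)
                + ℓ • Finsupp.single P (1 : ℤ) : Divisor Qb (modularFunctionFieldBar N))
                ∈ DivT) ∧
            (∀ D ∈ DivT, ∀ m : ℕ, ¬ ℓ ∣ m →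
              m • D ∈ Divisor.principal (K := Qb) (F := modularFunctionFieldBar N) →
              D ∈ Divisor.principal (K := Qb) (F := modularFunctionFieldBar N))) →
    ModularCurve.SpecializationExists (K := ℚ) (L := Qb) N p (ModularCurve.JZero N) := by
  let _ := ModularCurve.heckeModuleBar N
  intro hsm H
  refine H37.specializationExists_of_hom_forall N p hcomm hsm ?_
  intro ℓ hℓ hℓNp A hA σ₀ hσ₀
  have : NeZero ℓ := ⟨hℓ.ne_zero⟩
  obtain ⟨hα, hβ, hP, hfin, hFI, hN, S, hB, hD, hA'⟩ := H ℓ hℓ hℓNp A hA σ₀ hσ₀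
  have hℓp : ¬ ℓ ∣ p := fun h => hℓNp (dvd_mul_of_dvd_right h N)
  refine ⟨JZero N ⧸ K1 S, inferInstance, QuotientAddGroup.mk' (K1 S), ?_, ?_, ?_⟩
  · intro τ hτ x
    exact mk_galois_smul_eq N S τ (hB τ hτ) x
  · intro x
    have key := mk_quad_eq_zero N ℓ hℓ hα hβ hFI hfin hN S σ₀ hD x
    have e : heckeGen (⟨ℓ, hℓ⟩ : Nat.Primes) • (σ₀ • x)
        = heckeOperatorBar N (⟨ℓ, hℓ⟩ : Nat.Primes) (σ₀ • x) :=
      heckeModuleBar_heckeGen_smul hcomm _ _
    exact (congrArg (fun y => (QuotientAddGroup.mk' (K1 S)) (σ₀ • σ₀ • x - y + ℓ • x)) e).trans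
      key
  · rintro x ⟨n, hn⟩ hx
    have hxK : x ∈ K1 S := (QuotientAddGroup.eq_zero_iff x).mp hx
    exact eq_zero_of_mem_K1 (p ^ n)
      (fun D hD h => hA' D hD (p ^ n) (fun h' => hℓp (hℓ.dvd_of_dvd_pow h')) h) hxK hn

/-- The same with the Hecke inputs packaged as the Prelude's `HeckeInputsAlong`: for every choice
of the integrality proofs the (ES) statement is the same Prop (proof irrelevance), so it is
quantified over them. -/
theorem specializationExists_of_divT' (N p : ℕ) [NeZero N]
    (hcomm : ModularCurve.HeckeOperatorsCommuteBar N) :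
    letI := ModularCurve.heckeModuleBar N
    ∀ (_ : SMulCommClass (Qb ≃ₐ[ℚ] Qb) ModularCurve.HeckeAlg (ModularCurve.JZero N)),
    (∀ ℓ : ℕ, (hℓ : ℓ.Prime) → ¬ ℓ ∣ N * p →
      ∀ A : ValuationSubring Qb, A.LiesOverPrime ℓ →
        ∀ σ₀ : Qb ≃ₐ[ℚ] Qb, A.IsFrobeniusAt σ₀ ℓ →
          have : NeZero ℓ := ⟨hℓ.ne_zero⟩
          HeckeInputsAlong Qb N ℓ ∧
          ∃ DivT : AddSubgroup (Divisor Qb (modularFunctionFieldBar N)),
            (∀ τ ∈ A.inertiaSubgroupIn ℚ, ∀ P : Place Qb (modularFunctionFieldBar N),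
              (Finsupp.single (arithmeticGalois (modularFunctionFieldFull N) τ • P) (1 : ℤ)
                - Finsupp.single P 1 : Divisor Qb (modularFunctionFieldBar N)) ∈ DivT) ∧
            (∀ (hα : HeckeAlphaBarIntegral Qb N ℓ) (hβ : HeckeBetaBarIntegral Qb N ℓ)
              (_ : HasPrincipalDivisors Qb (modularFunctionFieldBar (N * ℓ)))
              (P : Place Qb (modularFunctionFieldBar N)),
              (Finsupp.single (arithmeticGalois (modularFunctionFieldFull N) σ₀ •
                  arithmeticGalois (modularFunctionFieldFull N) σ₀ • P) (1 : ℤ)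
                - heckeDivBar hα hβ
                  (Finsupp.single (arithmeticGalois (modularFunctionFieldFull N) σ₀ • P) 1)
                + ℓ • Finsupp.single P (1 : ℤ) : Divisor Qb (modularFunctionFieldBar N))
                ∈ DivT) ∧
            (∀ D ∈ DivT, ∀ m : ℕ, ¬ ℓ ∣ m →
              m • D ∈ Divisor.principal (K := Qb) (F := modularFunctionFieldBar N) →
              D ∈ Divisor.principal (K := Qb) (F := modularFunctionFieldBar N))) →
    ModularCurve.SpecializationExists (K := ℚ) (L := Qb) N p (ModularCurve.JZero N) := by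
  let _ := ModularCurve.heckeModuleBar N
  intro hsm H
  refine specializationExists_of_divT N p hcomm hsm ?_
  intro ℓ hℓ hℓNp A hA σ₀ hσ₀
  have : NeZero ℓ := ⟨hℓ.ne_zero⟩
  obtain ⟨⟨hα, hβ, hP, hfin, hFI, hN⟩, S, hB, hD, hA'⟩ := H ℓ hℓ hℓNp A hA σ₀ hσ₀
  exact ⟨hα, hβ, hP, hfin, hFI, hN, S, hB, fun P => hD hα hβ hP P, hA'⟩

/-- The relational form: `DivT := divTilde rel`, with (GAL) stated as `rel (τ P) P`. -/
theorem specializationExists_of_rel (N p : ℕ) [NeZero N]
    (hcomm : ModularCurve.HeckeOperatorsCommuteBar N) :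
    letI := ModularCurve.heckeModuleBar N
    ∀ (_ : SMulCommClass (Qb ≃ₐ[ℚ] Qb) ModularCurve.HeckeAlg (ModularCurve.JZero N)),
    (∀ ℓ : ℕ, (hℓ : ℓ.Prime) → ¬ ℓ ∣ N * p →
      ∀ A : ValuationSubring Qb, A.LiesOverPrime ℓ →
        ∀ σ₀ : Qb ≃ₐ[ℚ] Qb, A.IsFrobeniusAt σ₀ ℓ →
          have : NeZero ℓ := ⟨hℓ.ne_zero⟩
          ∃ (hα : HeckeAlphaBarIntegral Qb N ℓ) (hβ : HeckeBetaBarIntegral Qb N ℓ)
            (_ : HasPrincipalDivisors Qb (modularFunctionFieldBar (N * ℓ)))
            (hfin : FiniteAlong Qb (heckeAlphaBar Qb N ℓ))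
            (_ : FundamentalIdentityAlong Qb (heckeBetaBar Qb N ℓ) hβ)
            (_ : NormFormulaAlong Qb (heckeAlphaBar Qb N ℓ) hfin)
            (rel : Place Qb (modularFunctionFieldBar N) →
              Place Qb (modularFunctionFieldBar N) → Prop),
            (∀ τ ∈ A.inertiaSubgroupIn ℚ, ∀ P : Place Qb (modularFunctionFieldBar N),
              rel (arithmeticGalois (modularFunctionFieldFull N) τ • P) P) ∧
            (∀ P : Place Qb (modularFunctionFieldBar N),
              (Finsupp.single (arithmeticGalois (modularFunctionFieldFull N) σ₀ •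
                  arithmeticGalois (modularFunctionFieldFull N) σ₀ • P) (1 : ℤ)
                - heckeDivBar hα hβ
                  (Finsupp.single (arithmeticGalois (modularFunctionFieldFull N) σ₀ • P) 1)
                + ℓ • Finsupp.single P (1 : ℤ) : Divisor Qb (modularFunctionFieldBar N))
                ∈ divTilde rel) ∧
            (∀ D ∈ divTilde rel, ∀ m : ℕ, ¬ ℓ ∣ m →
              m • D ∈ Divisor.principal (K := Qb) (F := modularFunctionFieldBar N) →
              D ∈ Divisor.principal (K := Qb) (F := modularFunctionFieldBar N))) →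
    ModularCurve.SpecializationExists (K := ℚ) (L := Qb) N p (ModularCurve.JZero N) := by
  let _ := ModularCurve.heckeModuleBar N
  intro hsm H
  refine specializationExists_of_divT N p hcomm hsm ?_
  intro ℓ hℓ hℓNp A hA σ₀ hσ₀
  have : NeZero ℓ := ⟨hℓ.ne_zero⟩
  obtain ⟨hα, hβ, hP, hfin, hFI, hN, rel, hB, hD, hA'⟩ := H ℓ hℓ hℓNp A hA σ₀ hσ₀
  exact ⟨hα, hβ, hP, hfin, hFI, hN, divTilde rel,
    fun τ hτ P => single_sub_single_mem_divTilde (hB τ hτ P), hD, hA'⟩

end Modular

end

end Fermat.Agent.S37.H72
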