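import Mathlib
import Fermat.Prelude.Def_ModularCurve_HeckeModule
import Fermat.Agent.S37.K1Gen_helper72
import Fermat.Agent.S37.HeckeInputs_helper37
import Fermat.Agent.S37.SatA_helper58
import Fermat.Agent.S37.Gal_helper34
import Fermat.Agent.S37.InjTop_helper84

/-!
# S37: the statements file (helper27, S37 lead)

The frozen statement S37 (`ModularCurve.specializationExists_JZero`) is reduced here to FOUR named
`Prop`s at one prime `ℓ ∤ N`, one valuation subring `A` of `Qbar` over `ℓ` and one Frobenius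
element `φ` at `A`, plus the S18 TOP statement `H60.ModelKumStmt`.

Vocabulary (`F = modularFunctionFieldBar N = Qbar(X₀(N))`, places and divisors of `F / Qbar`):

* `SameChar A R P P'` : the places `P, P'` are `R`-finite with the SAME residue character
  `R → A / m_A` (`R` a subring of `F`; relational form through `H34.EvalAt`);
* `RedRel N A P P'`   : `P` and `P'` have the same character on one of the two chart rings
  `B = H58.chartRing A N j` (integral closure of `A[j]`), `B∞ = H58.chartRing A N j⁻¹`;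
* `DivT N A`          : the subgroup of divisors generated by `[P] - [P']`, `RedRel N A P P'`
  ("divisors with trivial reduction"); literally `H72.divTilde (RedRel N A)`.
  (The reduction kernel `K1 ⊆ J₀(N)` = classes of the degree-zero divisors in `DivT N A` is
  `H72.K1 (DivT N A)`; the class-level bookkeeping is the landed `K1Gen_helper72`.)

The four `Prop`s:

* `GalStmt N A`       (GAL)  : inertia at `A` does not move the reduction of a place;
* (HI) `HeckeInputsAlong Qbar N ℓ` (the Prelude Hecke operator is the correspondence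
  `α_* β^*`) is PROVED: landed `H37.heckeInputsAlong` (HeckeInputs_helper37);
* `ESStmt N ℓ A φ`    (ES)   : `[φ²P] - T_ℓ[φP] + ℓ[P] ∈ DivT` for every place `P`;
* `ConstStmt N ℓ A`   (CONST): `D ∈ DivT`, `m D = div f`, `ℓ ∤ m` ⟹ `f` is a constant times a
  ratio of two `A`-integral `q`-series with the same nonzero reduction
  (then `H84.principal_of_ratio_of_modelKumStmt` gives `InjStmt N ℓ A`: `D` is principal).

`result_of` : the frozen S37 type from (GAL), (ES), (INJ);
`result_of_const` : the frozen S37 type from `H60.ModelKumStmt`, (GAL), (ES), (CONST)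
(via the landed `K1Gen_helper72` / `Formal_helper37` top).
-/

set_option autoImplicit false

open ModularCurve AlgebraicCurve

namespace Fermat.Agent.S37.H27

noncomputable section

local notation "Qb" => AlgebraicClosure ℚ

/-- `P` and `P'` are `R`-finite (values in `A`) with the same residue character on `R`. -/
def SameChar {N : ℕ} (A : ValuationSubring Qb) (R : Subring ↥(modularFunctionFieldBar N))
    (P P' : Place Qb ↥(modularFunctionFieldBar N)) : Prop :=
  ∀ y ∈ R, ∃ c c' : A, H34.EvalAt P y (c : Qb) ∧ H34.EvalAt P' y (c' : Qb) ∧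
    c - c' ∈ IsLocalRing.maximalIdeal A

variable (N : ℕ) [NeZero N] (A : ValuationSubring Qb)

/-- same reduction: same residue character on the chart `j ≠ ∞` or on the chart `j ≠ 0`. -/
def RedRel (P P' : Place Qb ↥(modularFunctionFieldBar N)) : Prop :=
  SameChar A (H58.chartRing A N (H58.jBar N)) P P' ∨
    SameChar A (H58.chartRing A N (H58.jBar N)⁻¹) P P'

/-- divisors with trivial reduction. -/
def DivT : AddSubgroup (Divisor Qb ↥(modularFunctionFieldBar N)) :=
  H72.divTilde (RedRel N A)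

theorem divT_eq_closure : DivT N A =
    AddSubgroup.closure {d | ∃ P P' : Place Qb ↥(modularFunctionFieldBar N), RedRel N A P P' ∧
      d = Finsupp.single P (1 : ℤ) - Finsupp.single P' 1} :=
  rfl

theorem single_sub_single_mem_divT {P P' : Place Qb ↥(modularFunctionFieldBar N)}
    (h : RedRel N A P P') :
    (Finsupp.single P (1 : ℤ) - Finsupp.single P' 1 : Divisor Qb ↥(modularFunctionFieldBar N)) ∈
      DivT N A :=
  H72.single_sub_single_mem_divTilde h

/-- **(GAL)** inertia does not move reductions. Owner: helper34. -/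
def GalStmt : Prop :=
  ∀ τ ∈ A.inertiaSubgroupIn ℚ, ∀ P : Place Qb ↥(modularFunctionFieldBar N),
    RedRel N A (arithmeticGalois (modularFunctionFieldFull N) τ • P) P

/-- **(ES)** the Eichler-Shimura congruence on places. Owners: helper26 / helper82. -/
def ESStmt (ℓ : ℕ) [NeZero ℓ] (φ : Qb ≃ₐ[ℚ] Qb) : Prop :=
  HeckeInputsAlong Qb N ℓ →
  ∀ (hα : HeckeAlphaBarIntegral Qb N ℓ) (hβ : HeckeBetaBarIntegral Qb N ℓ)
    [HasPrincipalDivisors Qb (laurentBaseChange Qb (modularFunctionFieldFull (N * ℓ)))]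
    (P : Place Qb ↥(modularFunctionFieldBar N)),
    Finsupp.single (arithmeticGalois (modularFunctionFieldFull N) φ •
        arithmeticGalois (modularFunctionFieldFull N) φ • P) (1 : ℤ)
      - heckeDivBar hα hβ
          (Finsupp.single (arithmeticGalois (modularFunctionFieldFull N) φ • P) (1 : ℤ))
      + ℓ • Finsupp.single P (1 : ℤ) ∈ DivT N A

/-- **(INJ)** no prime-to-`ℓ` torsion in the reduction kernel, divisor form. -/
def InjStmt (ℓ : ℕ) : Prop :=
  ∀ m : ℕ, ¬ ℓ ∣ m → ∀ D ∈ DivT N A, ∀ f : ↥(modularFunctionFieldBar N), f ≠ 0 →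
    (∀ P : Place Qb ↥(modularFunctionFieldBar N), (m • D) P = P.ord f) →
    D ∈ Divisor.principal (K := Qb) (F := ↥(modularFunctionFieldBar N))

/-- **(CONST)** a function whose divisor is `m` times a divisor with trivial reduction has
constant Gauss reduction. Owner: helper8 (+ sub-nodes). -/
def ConstStmt (ℓ : ℕ) : Prop :=
  ∀ m : ℕ, ¬ ℓ ∣ m → ∀ D ∈ DivT N A, ∀ f : ↥(modularFunctionFieldBar N), f ≠ 0 →
    (∀ P : Place Qb ↥(modularFunctionFieldBar N), (m • D) P = P.ord f) →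
    ∃ (c : Qb) (Z1 Z2 : LaurentSeries A), c ≠ 0 ∧
      coeffMap (IsLocalRing.residue A) Z2 ≠ 0 ∧
      coeffMap (IsLocalRing.residue A) Z1 = coeffMap (IsLocalRing.residue A) Z2 ∧
      (f : LaurentSeries Qb) * coeffMap A.subtype Z2 = HahnSeries.C c * coeffMap A.subtype Z1

/-- (CONST) + the S18 TOP statement ⟹ (INJ). -/
theorem injStmt_of_constStmt (hM : Fermat.Agent.S18.H60.ModelKumStmt) {ℓ : ℕ} (hℓ : ℓ.Prime)
    (hℓN : ¬ ℓ ∣ N) (hA : A.LiesOverPrime ℓ) (h : ConstStmt N A ℓ) : InjStmt N A ℓ := by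
  intro m hm D hD f hf hDf
  obtain ⟨c, Z1, Z2, hc, hne, heq, hfZ⟩ := h m hm D hD f hf hDf
  haveI : Fact ℓ.Prime := ⟨hℓ⟩
  exact H84.principal_of_ratio_of_modelKumStmt hM ℓ hℓN hA hm D f hf hDf c hc Z1 Z2 hne heq hfZ

/-- **The frozen statement S37 from (GAL), (ES), (INJ)** ((HI) is the landed
`H37.heckeInputsAlong`; class-level bookkeeping is the landed `K1Gen_helper72`). -/
theorem result_of (N p : ℕ) [NeZero N] (hcomm : HeckeOperatorsCommuteBar N)
    (hGal : ∀ ℓ : ℕ, ℓ.Prime → ¬ ℓ ∣ N → ∀ A : ValuationSubring Qb, A.LiesOverPrime ℓ →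
      GalStmt N A)
    (hES : ∀ (ℓ : ℕ) [NeZero ℓ], ℓ.Prime → ¬ ℓ ∣ N → ∀ A : ValuationSubring Qb,
      A.LiesOverPrime ℓ → ∀ φ : Qb ≃ₐ[ℚ] Qb, A.IsFrobeniusAt φ ℓ → ESStmt N A ℓ φ)
    (hInj : ∀ ℓ : ℕ, ℓ.Prime → ¬ ℓ ∣ N → ∀ A : ValuationSubring Qb, A.LiesOverPrime ℓ →
      InjStmt N A ℓ) :
    letI := heckeModuleBar N
    ∀ (_ : SMulCommClass (Qb ≃ₐ[ℚ] Qb) HeckeAlg (JZero N)),
      SpecializationExists (K := ℚ) (L := Qb) N p (JZero N) := by
  letI := heckeModuleBar N
  intro hsm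
  refine H72.specializationExists_of_rel N p hcomm hsm ?_
  intro ℓ hℓ hℓNp A hA σ₀ hσ₀
  have hℓN : ¬ ℓ ∣ N := fun h => hℓNp (Dvd.dvd.mul_right h p)
  haveI : NeZero ℓ := ⟨hℓ.ne_zero⟩
  obtain ⟨hα, hβ, hP, hfin, hFI, hN⟩ := H37.heckeInputsAlong N ℓ
  refine ⟨hα, hβ, hP, hfin, hFI, hN, RedRel N A, hGal ℓ hℓ hℓN A hA, ?_, ?_⟩
  · intro P
    exact hES ℓ hℓ hℓN A hA σ₀ hσ₀ ⟨hα, hβ, hP, hfin, hFI, hN⟩ hα hβ P
  · intro D hD m hm hmD
    obtain ⟨f, hf, hfD⟩ := hmD
    exact hInj ℓ hℓ hℓN A hA m hm D hD f hf hfD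

/-- **The frozen statement S37 from the S18 TOP statement, (GAL), (ES), (CONST).** -/
theorem result_of_const (N p : ℕ) [NeZero N] (hcomm : HeckeOperatorsCommuteBar N)
    (hM : Fermat.Agent.S18.H60.ModelKumStmt)
    (hGal : ∀ ℓ : ℕ, ℓ.Prime → ¬ ℓ ∣ N → ∀ A : ValuationSubring Qb, A.LiesOverPrime ℓ →
      GalStmt N A)
    (hES : ∀ (ℓ : ℕ) [NeZero ℓ], ℓ.Prime → ¬ ℓ ∣ N → ∀ A : ValuationSubring Qb,
      A.LiesOverPrime ℓ → ∀ φ : Qb ≃ₐ[ℚ] Qb, A.IsFrobeniusAt φ ℓ → ESStmt N A ℓ φ)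
    (hConst : ∀ ℓ : ℕ, ℓ.Prime → ¬ ℓ ∣ N → ∀ A : ValuationSubring Qb, A.LiesOverPrime ℓ →
      ConstStmt N A ℓ) :
    letI := heckeModuleBar N
    ∀ (_ : SMulCommClass (Qb ≃ₐ[ℚ] Qb) HeckeAlg (JZero N)),
      SpecializationExists (K := ℚ) (L := Qb) N p (JZero N) :=
  result_of N p hcomm hGal hES fun ℓ hℓ hℓN A hA =>
    injStmt_of_constStmt N A hM hℓ hℓN hA (hConst ℓ hℓ hℓN A hA)

end

end Fermat.Agent.S37.H27
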