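/-
S37, node (SUM) (helper53): the bookkeeping step between (TRANSFER) and the hypothesis `hsum`
of (UNIT').

Setting: `F ⊆ F'` function fields over `K` (Prelude vocabulary: `Place`, `Divisor`,
`Place.fiber`, `Place.ramificationIndex`, `Divisor.pullback`).  `p` is any predicate on the
places of `F'` ("the place is centred at the closed point `n` of the chart").

* `partSum p E = ∑_{w, p w} E w` (an additive functional on finitely supported functions);
* `fiberMass F' p P = ∑_{w | P, p w} e(w | P)`;
* if `D` lies in the subgroup generated by the differences `P - P'` of pairs `R P P'` whose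
  fibre masses agree (this is what (TRANSFER) gives), then the `p`-part of the pull-back of `D`
  has degree `0`;
* hence, if `div f = m • D`, the orders of `f` at the places of `F'` in `p` sum to `0`
  (`sum_ord_algebraMap_eq_zero`, and `sum_ord_along_eq_zero` for a `K`-algebra map `φ`).
* `sum_filter_eq_of_bind_replicate_eq`, `fiberMass_eq_of_bind_replicate_eq`: the multiset form
  of (TRANSFER) (equal multisets of characters, with multiplicities `e`) gives the equality of
  fibre masses for every predicate that is a function of the character.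
-/
import Mathlib
import Fermat.Prelude.Def_AlgebraicCurve_Correspondence

set_option autoImplicit false

namespace Fermat.Agent.S37.H53

open AlgebraicCurve

section Generic

variable {ι : Type*}

/-- `partSum p E = ∑_{w with p w} E w`. -/
noncomputable def partSum (p : ι → Prop) [DecidablePred p] : (ι →₀ ℤ) →+ ℤ :=
  Finsupp.liftAddHom fun w => if p w then AddMonoidHom.id ℤ else 0

theorem partSum_single (p : ι → Prop) [DecidablePred p] (w : ι) (n : ℤ) :
    partSum p (Finsupp.single w n) = if p w then n else 0 := by
  unfold partSum
  rw [Finsupp.liftAddHom_apply_single]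
  split_ifs <;> simp

theorem partSum_eq_sum_support (p : ι → Prop) [DecidablePred p] (E : ι →₀ ℤ) :
    partSum p E = ∑ w ∈ E.support, if p w then E w else 0 := by
  unfold partSum
  rw [Finsupp.liftAddHom_apply, Finsupp.sum]
  refine Finset.sum_congr rfl fun w _ => ?_
  split_ifs <;> simp

/-- `partSum p E` is the sum of `E` over any finite set `T ⊆ p` containing the part of the
support of `E` that lies in `p`. -/
theorem partSum_eq_sum (p : ι → Prop) [DecidablePred p] (E : ι →₀ ℤ) (T : Finset ι)
    (hT : ∀ w, p w → E w ≠ 0 → w ∈ T) (hTp : ∀ w ∈ T, p w) :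
    partSum p E = ∑ w ∈ T, E w := by
  classical
  have h2 : ∑ w ∈ T, E w = ∑ w ∈ T, if p w then E w else 0 :=
    Finset.sum_congr rfl fun w hw => by rw [if_pos (hTp w hw)]
  rw [partSum_eq_sum_support, h2]
  have h3 : ∑ w ∈ E.support, (if p w then E w else 0)
      = ∑ w ∈ E.support ∪ T, if p w then E w else 0 := by
    refine Finset.sum_subset Finset.subset_union_left fun w _ hw => ?_
    have : E w = 0 := by simpa using hw
    simp [this]
  have h4 : ∑ w ∈ T, (if p w then E w else 0)
      = ∑ w ∈ E.support ∪ T, if p w then E w else 0 := by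
    refine Finset.sum_subset Finset.subset_union_right fun w _ hw => ?_
    by_cases hp : p w
    · have : E w = 0 := by
        by_contra h
        exact hw (hT w hp h)
      simp [this]
    · simp [hp]
  rw [h3, h4]

theorem countP_bind_eq_sum {α β : Type*} (q : β → Prop) [DecidablePred q] (s : Multiset α)
    (f : α → Multiset β) :
    Multiset.countP q (s.bind f) = (s.map fun a => Multiset.countP q (f a)).sum := by
  induction s using Multiset.induction_on with
  | empty => simp
  | cons a s ih => simp [Multiset.cons_bind, Multiset.countP_add, ih]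

theorem countP_replicate_eq_ite {β : Type*} (q : β → Prop) [DecidablePred q] (n : ℕ) (x : β) :
    Multiset.countP q (Multiset.replicate n x) = if q x then n else 0 := by
  induction n with
  | zero => simp
  | succ n ih =>
    rw [Multiset.replicate_succ, Multiset.countP_cons, ih]
    split_ifs <;> simp

/-- counting form of an equality of multisets with multiplicities. -/
theorem sum_filter_eq_of_bind_replicate_eq {X : Type*} (S₁ S₂ : Finset ι) (e : ι → ℕ)
    (χ : ι → X)
    (h : (S₁.val.bind fun w => Multiset.replicate (e w) (χ w))
      = S₂.val.bind fun w => Multiset.replicate (e w) (χ w))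
    (q : X → Prop) [DecidablePred q] :
    ∑ w ∈ S₁.filter (fun w => q (χ w)), e w = ∑ w ∈ S₂.filter (fun w => q (χ w)), e w := by
  have key : ∀ S : Finset ι,
      Multiset.countP q (S.val.bind fun w => Multiset.replicate (e w) (χ w))
        = ∑ w ∈ S.filter (fun w => q (χ w)), e w := by
    intro S
    rw [countP_bind_eq_sum, Finset.sum_filter]
    refine congrArg Multiset.sum (Multiset.map_congr rfl fun w _ => ?_)
    rw [countP_replicate_eq_ite]
  rw [← key, ← key, h]

end Generic

section Places

variable {K F F' : Type*} [Field K] [Field F] [Field F']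
  [Algebra K F] [Algebra K F'] [Algebra F F'] [IsScalarTower K F F']
  [Algebra.IsIntegral F F'] [HasPrincipalDivisors K F']

variable (F') in
/-- the ramification mass of the part of the fibre of `P` that lies in `p`:
`∑_{w | P, p w} e(w | P)`. -/
noncomputable def fiberMass (p : Place K F' → Prop) [DecidablePred p] (P : Place K F) : ℤ :=
  ∑ w ∈ (P.fiber F').filter p, (w.ramificationIndex F : ℤ)

theorem partSum_pullback_single (p : Place K F' → Prop) [DecidablePred p] (P : Place K F)
    (n : ℤ) :
    partSum p (Divisor.pullback F' (Finsupp.single P n)) = n * fiberMass F' p P := by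
  rw [Divisor.pullback_single, map_sum]
  unfold fiberMass
  rw [Finset.mul_sum, Finset.sum_filter]
  refine Finset.sum_congr rfl fun w _ => ?_
  rw [partSum_single]

/-- **(SUM), divisor form.** If `D` is a combination of differences `P - P'` of pairs with
equal fibre masses in `p`, the `p`-part of the pull-back of `D` has degree `0`. -/
theorem partSum_pullback_eq_zero (p : Place K F' → Prop) [DecidablePred p]
    (R : Place K F → Place K F → Prop)
    (hR : ∀ P P', R P P' → fiberMass F' p P = fiberMass F' p P')
    {D : Divisor K F}
    (hD : D ∈ AddSubgroup.closure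
      {d : Divisor K F | ∃ P P', R P P' ∧ d = Finsupp.single P 1 - Finsupp.single P' 1}) :
    partSum p (Divisor.pullback F' D) = 0 := by
  have hle : AddSubgroup.closure
      {d : Divisor K F | ∃ P P', R P P' ∧ d = Finsupp.single P 1 - Finsupp.single P' 1}
        ≤ ((partSum p).comp (Divisor.pullback F')).ker := by
    rw [AddSubgroup.closure_le]
    rintro d ⟨P, P', hPP', rfl⟩
    show (partSum p) (Divisor.pullback F' _) = 0
    rw [map_sub, map_sub, partSum_pullback_single, partSum_pullback_single, hR P P' hPP',
      sub_self]
  exact hle hD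

/-- **(SUM), function form.** `D` as above, `div f = m • D` on `F`. Then the orders of `f` at the
places of `F'` lying in `p` sum to `0` (`T` = any finite set of places in `p` containing those
where `f` has nonzero order). -/
theorem sum_ord_algebraMap_eq_zero (p : Place K F' → Prop) [DecidablePred p]
    (R : Place K F → Place K F → Prop)
    (hR : ∀ P P', R P P' → fiberMass F' p P = fiberMass F' p P')
    {D : Divisor K F}
    (hD : D ∈ AddSubgroup.closure
      {d : Divisor K F | ∃ P P', R P P' ∧ d = Finsupp.single P 1 - Finsupp.single P' 1})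
    (m : ℤ) (f : F) (hf : ∀ P : Place K F, P.ord f = m * D P)
    (T : Finset (Place K F')) (hT : ∀ w, p w → w.ord (algebraMap F F' f) ≠ 0 → w ∈ T)
    (hTp : ∀ w ∈ T, p w) :
    ∑ w ∈ T, w.ord (algebraMap F F' f) = 0 := by
  have hE : ∀ w : Place K F', Divisor.pullback F' (m • D) w = w.ord (algebraMap F F' f) :=
    fun w => Divisor.pullback_apply_eq_ord
      (fun v => by rw [Finsupp.smul_apply, smul_eq_mul, hf]) w
  have h1 : partSum p (Divisor.pullback F' (m • D)) = ∑ w ∈ T, Divisor.pullback F' (m • D) w :=
    partSum_eq_sum p _ T (fun w hp hw => hT w hp (by rwa [hE] at hw)) hTp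
  rw [← Finset.sum_congr rfl (fun w _ => hE w), ← h1, map_zsmul, map_zsmul,
    partSum_pullback_eq_zero p R hR hD, smul_zero]

/-- the multiset form of (TRANSFER) gives the equality of fibre masses: `S`, `S'` are the
chart-finite parts of the two fibres, `χ` the character of a place, and `p` is "chart-finite
and the character satisfies `q`" on both fibres. -/
theorem fiberMass_eq_of_bind_replicate_eq {X : Type*} (P P' : Place K F) (χ : Place K F' → X)
    (S S' : Finset (Place K F')) (hS : S ⊆ P.fiber F') (hS' : S' ⊆ P'.fiber F')
    (h : (S.val.bind fun w => Multiset.replicate (w.ramificationIndex F) (χ w))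
      = S'.val.bind fun w => Multiset.replicate (w.ramificationIndex F) (χ w))
    (q : X → Prop) [DecidablePred q] (p : Place K F' → Prop) [DecidablePred p]
    (hp : ∀ w ∈ P.fiber F', p w ↔ w ∈ S ∧ q (χ w))
    (hp' : ∀ w ∈ P'.fiber F', p w ↔ w ∈ S' ∧ q (χ w)) :
    fiberMass F' p P = fiberMass F' p P' := by
  have hfil : ∀ (Q : Place K F) (S : Finset (Place K F')), S ⊆ Q.fiber F' →
      (∀ w ∈ Q.fiber F', p w ↔ w ∈ S ∧ q (χ w)) →
      (Q.fiber F').filter p = S.filter (fun w => q (χ w)) := by
    intro Q S hS hp
    ext w
    simp only [Finset.mem_filter]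
    constructor
    · rintro ⟨hw, hpw⟩
      exact (hp w hw).mp hpw
    · rintro ⟨hw, hqw⟩
      exact ⟨hS hw, (hp w (hS hw)).mpr ⟨hw, hqw⟩⟩
  unfold fiberMass
  rw [hfil P S hS hp, hfil P' S' hS' hp']
  have := sum_filter_eq_of_bind_replicate_eq S S' (fun w => w.ramificationIndex F) χ h q
  exact_mod_cast this

end Places

section Along

variable {K F F' : Type*} [Field K] [Field F] [Field F'] [Algebra K F] [Algebra K F']
  [HasPrincipalDivisors K F']

/-- **(SUM), function form, along a `K`-algebra map** (the Prelude's `Along` vocabulary). -/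
theorem sum_ord_along_eq_zero (φ : F →ₐ[K] F') (hφ : φ.toRingHom.IsIntegral)
    (p : Place K F' → Prop) [DecidablePred p] (R : Place K F → Place K F → Prop)
    (hR : ∀ P P', R P P' →
      ∑ w ∈ (Place.fiberAlong φ hφ P).filter p, (w.ramificationIndexAlong φ : ℤ)
        = ∑ w ∈ (Place.fiberAlong φ hφ P').filter p, (w.ramificationIndexAlong φ : ℤ))
    {D : Divisor K F}
    (hD : D ∈ AddSubgroup.closure
      {d : Divisor K F | ∃ P P', R P P' ∧ d = Finsupp.single P 1 - Finsupp.single P' 1})
    (m : ℤ) (f : F) (hf : ∀ P : Place K F, P.ord f = m * D P)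
    (T : Finset (Place K F')) (hT : ∀ w, p w → w.ord (φ f) ≠ 0 → w ∈ T)
    (hTp : ∀ w ∈ T, p w) :
    ∑ w ∈ T, w.ord (φ f) = 0 := by
  let _ := algebraAlong φ
  have := isScalarTower_along φ
  have := isIntegral_along φ hφ
  exact sum_ord_algebraMap_eq_zero p R hR hD m f hf T hT hTp

end Along

end Fermat.Agent.S37.H53
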