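import Mathlib

/-!
# S37, node (TRANSFER): commutative algebra layer (helper87)

Integrality along ring homomorphisms (`RingHom.IsIntegralElem`), in the three forms used by the
chart comparison of (TRANSFER):

* `isIntegralElem_trans` : transitivity along a second homomorphism with integral image;
* `exists_pow_mul_isIntegralElem` : clearing denominators (`g`-integral ⇒ `b ^ D * y` is
  `f`-integral when `b ^ n * g r' ∈ f(R)`);
* `isIntegralElem_norm` : norms of integral elements are integral.

`chartHom A x : A[X] →+* E` (`X ↦ x`) and `chartRing A x` (the elements of `E` integral over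
`A[x]`) are the chart vocabulary; `chartRing` is literally
`{y | (chartHom A x).IsIntegralElem y}`.
-/

set_option autoImplicit false

noncomputable section

open Polynomial

namespace Fermat.Agent.S37.H87

section Alg

variable {R R' E : Type*} [CommRing R] [CommRing R'] [Field E]

/-- transitivity: if `g` has `f`-integral image, then `g`-integral elements are `f`-integral. -/
theorem isIntegralElem_trans (f : R →+* E) (g : R' →+* E)
    (hg : ∀ r', f.IsIntegralElem (g r')) {y : E} (hy : g.IsIntegralElem y) :
    f.IsIntegralElem y := by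
  letI : Algebra R E := f.toAlgebra
  let φ : R' →+* integralClosure R E := g.codRestrict (integralClosure R E) hg
  have hint : IsIntegral (integralClosure R E) y := by
    obtain ⟨p, hp, hpy⟩ := hy
    refine ⟨p.map φ, hp.map φ, ?_⟩
    rw [Polynomial.eval₂_map]
    have : (algebraMap (integralClosure R E) E).comp φ = g := by
      ext a; rfl
    rw [this]
    exact hpy
  exact isIntegral_trans y hint

/-- clearing denominators. -/
theorem exists_pow_mul_isIntegralElem (f : R →+* E) (g : R' →+* E) (b : R)
    (hg : ∀ r', ∃ (n : ℕ) (r : R), f r = f b ^ n * g r') {y : E} (hy : g.IsIntegralElem y) :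
    ∃ D : ℕ, f.IsIntegralElem (f b ^ D * y) := by
  classical
  obtain ⟨p, hp, hpy⟩ := hy
  choose nn rr hrr using hg
  set n := p.natDegree with hn
  set D : ℕ := (Finset.range n).sup fun i => nn (p.coeff i) with hD
  have hDle : ∀ i ∈ Finset.range n, nn (p.coeff i) ≤ D := fun i hi =>
    Finset.le_sup (f := fun i => nn (p.coeff i)) hi
  set q : R[X] := X ^ n + ∑ i ∈ Finset.range n,
    C (rr (p.coeff i) * b ^ (D * (n - i) - nn (p.coeff i))) * X ^ i with hq
  refine ⟨D, q, ?_, ?_⟩
  · refine Polynomial.monic_X_pow_add ?_
    refine lt_of_le_of_lt (Polynomial.degree_sum_le _ _) ?_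
    refine (Finset.sup_lt_iff (WithBot.bot_lt_coe n)).mpr fun i hi => ?_
    exact lt_of_le_of_lt (Polynomial.degree_C_mul_X_pow_le i _)
      (WithBot.coe_lt_coe.mpr (Finset.mem_range.mp hi))
  · have hpy' : y ^ n + ∑ i ∈ Finset.range n, g (p.coeff i) * y ^ i = 0 := by
      rw [Polynomial.eval₂_eq_sum_range, Finset.sum_range_succ, ← hn] at hpy
      have h1 : p.coeff n = 1 := hp.coeff_natDegree
      rw [h1, map_one, one_mul] at hpy
      rw [add_comm]
      exact hpy
    have hterm : ∀ i ∈ Finset.range n,
        f (rr (p.coeff i) * b ^ (D * (n - i) - nn (p.coeff i))) * (f b ^ D * y) ^ i =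
          f b ^ (D * n) * (g (p.coeff i) * y ^ i) := by
      intro i hi
      have hin : i < n := Finset.mem_range.mp hi
      have h1 : nn (p.coeff i) ≤ D * (n - i) :=
        le_trans (hDle i hi) (Nat.le_mul_of_pos_right D (Nat.sub_pos_of_lt hin))
      have h2 : nn (p.coeff i) + (D * (n - i) - nn (p.coeff i)) + D * i = D * n := by
        have : D * (n - i) + D * i = D * n := by
          rw [← Nat.mul_add, Nat.sub_add_cancel hin.le]
        omega
      rw [map_mul, map_pow, hrr, mul_pow, ← pow_mul, ← h2, pow_add, pow_add]
      ring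
    rw [hq, Polynomial.eval₂_add, Polynomial.eval₂_X_pow, Polynomial.eval₂_finsetSum]
    have hsum : ∑ i ∈ Finset.range n, Polynomial.eval₂ f (f b ^ D * y)
        (C (rr (p.coeff i) * b ^ (D * (n - i) - nn (p.coeff i))) * X ^ i) =
        ∑ i ∈ Finset.range n, f b ^ (D * n) * (g (p.coeff i) * y ^ i) := by
      refine Finset.sum_congr rfl fun i hi => ?_
      rw [Polynomial.eval₂_mul, Polynomial.eval₂_C, Polynomial.eval₂_X_pow]
      exact hterm i hi
    rw [hsum, ← Finset.mul_sum, mul_pow, ← pow_mul, ← mul_add, hpy', mul_zero]

end Alg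

section Norm

variable {R F F' : Type*} [CommRing R] [Field F] [Field F'] [Algebra F F']

/-- norms of integral elements are integral. -/
theorem isIntegralElem_norm (f : R →+* F) {Y : F'}
    (hY : ((algebraMap F F').comp f).IsIntegralElem Y) :
    f.IsIntegralElem (Algebra.norm F Y) := by
  letI : Algebra R F := f.toAlgebra
  letI : Algebra R F' := ((algebraMap F F').comp f).toAlgebra
  haveI : IsScalarTower R F F' := IsScalarTower.of_algebraMap_eq fun _ => rfl
  exact Algebra.isIntegral_norm F (x := Y) hY

end Norm

section Chart

variable {K : Type*} [Field K] (A : Subring K) {E : Type*} [Field E] [Algebra K E]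

/-- the constants of `A` inside `E`. -/
def constHom : A →+* E := (algebraMap K E).comp A.subtype

/-- the chart homomorphism `A[X] → E`, `X ↦ x`. -/
def chartHom (x : E) : A[X] →+* E := Polynomial.eval₂RingHom (constHom A) x

@[simp] theorem chartHom_C (x : E) (a : A) : chartHom A x (C a) = algebraMap K E (a : K) := by
  simp [chartHom, constHom]

@[simp] theorem chartHom_X (x : E) : chartHom A x X = x := by
  simp [chartHom]

theorem chartHom_apply (x : E) (p : A[X]) :
    chartHom A x p = Polynomial.eval₂ (constHom A) x p := rfl

/-- the chart ring: the elements of `E` integral over `A[x]`. -/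
def chartRing (x : E) : Subring E where
  carrier := {y | (chartHom A x).IsIntegralElem y}
  mul_mem' hx hy := RingHom.IsIntegralElem.mul _ hx hy
  one_mem' := RingHom.isIntegralElem_one _
  add_mem' hx hy := RingHom.IsIntegralElem.add _ hx hy
  zero_mem' := RingHom.isIntegralElem_zero _
  neg_mem' hx := RingHom.IsIntegralElem.neg _ hx

theorem mem_chartRing {x y : E} : y ∈ chartRing A x ↔ (chartHom A x).IsIntegralElem y := Iff.rfl

theorem chartHom_mem_chartRing (x : E) (p : A[X]) : chartHom A x p ∈ chartRing A x :=
  RingHom.isIntegralElem_map _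

theorem const_mem_chartRing (x : E) (a : A) : algebraMap K E (a : K) ∈ chartRing A x := by
  rw [← chartHom_C A x a]
  exact chartHom_mem_chartRing A x _

theorem self_mem_chartRing (x : E) : x ∈ chartRing A x := by
  have := chartHom_mem_chartRing A x X
  rwa [chartHom_X] at this

/-- every value of a chart homomorphism at `x'` is integral over `A[x]` as soon as `x'` is. -/
theorem chartHom_isIntegralElem {x x' : E} (hx' : (chartHom A x).IsIntegralElem x') (p : A[X]) :
    (chartHom A x).IsIntegralElem (chartHom A x' p) := by
  induction p using Polynomial.induction_on' with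
  | add p q hp hq =>
    rw [map_add]
    exact RingHom.IsIntegralElem.add _ hp hq
  | monomial n a =>
    rw [← Polynomial.C_mul_X_pow_eq_monomial, map_mul, map_pow, chartHom_C, chartHom_X]
    refine RingHom.IsIntegralElem.mul _ ?_ ?_
    · exact const_mem_chartRing A x a
    · exact (chartRing A x).pow_mem hx' n

/-- **chart transitivity**: `x'` integral over `A[x]` ⇒ `chartRing A x' ≤ chartRing A x`. -/
theorem chartRing_le_of_isIntegralElem {x x' : E} (hx' : (chartHom A x).IsIntegralElem x') :
    chartRing A x' ≤ chartRing A x := fun _ hy =>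
  isIntegralElem_trans (chartHom A x) (chartHom A x') (chartHom_isIntegralElem A hx') hy

/-- **chart scaling**: if `x' * (1 - z) = u * z` with `u` a constant of `A`, then for every
`y` integral over `A[x']` some `(1 - z) ^ D * y` is integral over `A[z]`. -/
theorem exists_pow_mul_mem_chartRing {x' z : E} (u : A)
    (h : x' * (1 - z) = algebraMap K E (u : K) * z) {y : E} (hy : y ∈ chartRing A x') :
    ∃ D : ℕ, (1 - z) ^ D * y ∈ chartRing A z := by
  have key : ∀ p : A[X], ∃ (n : ℕ) (r : A[X]),
      chartHom A z r = chartHom A z (1 - X) ^ n * chartHom A x' p := by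
    intro p
    induction p using Polynomial.induction_on' with
    | add p q hp hq =>
      obtain ⟨n, r, hr⟩ := hp
      obtain ⟨n', r', hr'⟩ := hq
      refine ⟨n + n', r * (1 - X) ^ n' + r' * (1 - X) ^ n, ?_⟩
      rw [map_add, map_mul, map_mul, hr, hr', map_pow, map_pow, map_add, pow_add]
      ring
    | monomial n a =>
      refine ⟨n, C a * (C u * X) ^ n, ?_⟩
      have e1 : chartHom A z (C a * (C u * X) ^ n) =
          algebraMap K E (a : K) * (algebraMap K E (u : K) * z) ^ n := by
        simp only [map_mul, map_pow, chartHom_C, chartHom_X]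
      have e2 : chartHom A z (1 - X) = 1 - z := by
        rw [map_sub, map_one, chartHom_X]
      have e3 : chartHom A x' (Polynomial.monomial n a) = algebraMap K E (a : K) * x' ^ n := by
        rw [← Polynomial.C_mul_X_pow_eq_monomial]
        simp only [map_mul, map_pow, chartHom_C, chartHom_X]
      rw [e1, e2, e3, ← h, mul_pow]
      ring
  have h1 : chartHom A z (1 - X) = 1 - z := by
    rw [map_sub, map_one, chartHom_X]
  obtain ⟨D, hD⟩ := exists_pow_mul_isIntegralElem (chartHom A z) (chartHom A x') (1 - X) key hy
  exact ⟨D, by rw [← h1]; exact hD⟩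

/-- **chart inversion**: for every `y` integral over `A[x⁻¹]` some `x ^ D * y` is integral over
`A[x]`. -/
theorem exists_pow_mul_mem_chartRing_inv {x : E} (hx : x ≠ 0) {y : E}
    (hy : y ∈ chartRing A x⁻¹) : ∃ D : ℕ, x ^ D * y ∈ chartRing A x := by
  have key : ∀ p : A[X], ∃ (n : ℕ) (r : A[X]),
      chartHom A x r = chartHom A x X ^ n * chartHom A x⁻¹ p := by
    intro p
    induction p using Polynomial.induction_on' with
    | add p q hp hq =>
      obtain ⟨n, r, hr⟩ := hp
      obtain ⟨n', r', hr'⟩ := hq
      refine ⟨n + n', r * X ^ n' + r' * X ^ n, ?_⟩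
      rw [map_add, map_mul, map_mul, hr, hr', map_pow, map_pow, map_add, pow_add]
      ring
    | monomial n a =>
      refine ⟨n, C a, ?_⟩
      rw [← Polynomial.C_mul_X_pow_eq_monomial]
      simp only [map_mul, map_pow, chartHom_C, chartHom_X]
      rw [inv_pow, mul_left_comm, mul_inv_cancel₀ (pow_ne_zero n hx), mul_one]
  obtain ⟨D, hD⟩ := exists_pow_mul_isIntegralElem (chartHom A x) (chartHom A x⁻¹) X key hy
  rw [chartHom_X] at hD
  exact ⟨D, hD⟩

end Chart

section ChartNorm

variable {K : Type*} [Field K] (A : Subring K) {F F' : Type*} [Field F] [Field F']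
  [Algebra K F] [Algebra K F'] [Algebra F F'] [IsScalarTower K F F']

theorem chartHom_algebraMap (x : F) :
    (algebraMap F F').comp (chartHom A x) = chartHom A (algebraMap F F' x) := by
  refine Polynomial.ringHom_ext (fun a => ?_) ?_
  · rw [RingHom.comp_apply, chartHom_C, chartHom_C, ← IsScalarTower.algebraMap_apply]
  · rw [RingHom.comp_apply, chartHom_X, chartHom_X]

/-- **chart norm**: the norm of an element integral over `A[x]` (`x ∈ F`) lies in the chart
ring of `x` at the lower level. -/
theorem norm_mem_chartRing (x : F) {Y : F'} (hY : Y ∈ chartRing A (algebraMap F F' x)) :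
    Algebra.norm F Y ∈ chartRing A x := by
  rw [mem_chartRing, ← chartHom_algebraMap] at hY
  exact isIntegralElem_norm (chartHom A x) hY

end ChartNorm

end Fermat.Agent.S37.H87
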