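import Mathlib

/-!
# S37 helper node (MULTISET): characters with equal products

Interface-free (Mathlib only).

* `map_eq_of_prod_eq` (M1): two finite multisets of `A`-linear characters `R → k` (`A ↠ k`,
  `k` an infinite field) whose products agree on every element of `R` are equal.
* `sub_mem_closure_of_map_eq` (M2): if two multisets of points have the same multiset of
  characters, the difference of the corresponding divisors lies in the subgroup generated by the
  differences `a - b` of points with the same character.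
* `sub_mem_closure_of_prod_eq` (M3): the combination.
-/

set_option autoImplicit false

namespace Fermat.Agent.S37.H96

/-- Separation of two distinct `A`-linear characters. -/
theorem exists_sep {A R k : Type*} [CommRing A] [CommRing R] [Field k]
    (iA : A →+* R) (res : A →+* k) (hres : Function.Surjective res)
    (φ ψ : R →+* k) (hφ : ∀ a, φ (iA a) = res a) (hψ : ∀ a, ψ (iA a) = res a)
    (hne : ψ ≠ φ) : ∃ u : R, ψ u = 0 ∧ φ u = 1 := by
  have : ∃ y, φ y ≠ ψ y := by
    by_contra hcon
    push Not at hcon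
    exact hne (RingHom.ext fun y => (hcon y).symm)
  obtain ⟨y, hy⟩ := this
  obtain ⟨a, ha⟩ := hres (ψ y)
  have h0 : φ (y - iA a) ≠ 0 := by
    rw [map_sub, hφ, ha]
    exact sub_ne_zero.mpr hy
  obtain ⟨b, hb⟩ := hres (φ (y - iA a))⁻¹
  refine ⟨iA b * (y - iA a), ?_, ?_⟩
  · rw [map_mul, map_sub, hψ a, ha, sub_self, mul_zero]
  · rw [map_mul, hφ b, hb, inv_mul_cancel₀ h0]

/-- An element with value `1` at `φ` and `0` at the finitely many other characters in `U`. -/
theorem exists_idem {A R k : Type*} [CommRing A] [CommRing R] [Field k]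
    (iA : A →+* R) (res : A →+* k) (hres : Function.Surjective res)
    (φ : R →+* k) (hφ : ∀ a, φ (iA a) = res a) (U : Finset (R →+* k))
    (hU : ∀ ψ ∈ U, (∀ a, ψ (iA a) = res a) ∧ ψ ≠ φ) :
    ∃ e : R, φ e = 1 ∧ ∀ ψ ∈ U, ψ e = 0 := by
  classical
  induction U using Finset.induction_on with
  | empty => exact ⟨1, map_one φ, by simp⟩
  | insert ψ U hψU ih =>
    obtain ⟨e, he1, he0⟩ := ih fun ψ' hψ' => hU ψ' (Finset.mem_insert_of_mem hψ')
    obtain ⟨hψA, hψne⟩ := hU ψ (Finset.mem_insert_self ψ U)
    obtain ⟨u, hu0, hu1⟩ := exists_sep iA res hres φ ψ hφ hψA hψne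
    refine ⟨e * u, by rw [map_mul, he1, hu1, one_mul], ?_⟩
    intro ψ' hψ'
    rcases Finset.mem_insert.mp hψ' with rfl | h
    · rw [map_mul, hu0, mul_zero]
    · rw [map_mul, he0 ψ' h, zero_mul]

/-- In an infinite field, `c ^ m = c ^ n` for all `c` forces `m = n`. -/
theorem eq_of_forall_pow_eq {k : Type*} [Field k] [Infinite k] {m n : ℕ}
    (h : ∀ c : k, c ^ m = c ^ n) : m = n := by
  have hp : (Polynomial.X : Polynomial k) ^ m = Polynomial.X ^ n :=
    Polynomial.funext fun c => by simpa using h c
  have := congrArg Polynomial.natDegree hp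
  simpa using this

/-- **(M1)** Two finite multisets of `A`-linear characters `R → k` (with `A → k` surjective and
`k` an infinite field) whose products agree on every element of `R` are equal. -/
theorem map_eq_of_prod_eq {A R k ι : Type*} [CommRing A] [CommRing R] [Field k] [Infinite k]
    (iA : A →+* R) (res : A →+* k) (hres : Function.Surjective res)
    (χ : ι → R →+* k) (hχ : ∀ i a, χ i (iA a) = res a) (s t : Multiset ι)
    (h : ∀ y : R, (s.map fun i => χ i y).prod = (t.map fun i => χ i y).prod) :
    s.map χ = t.map χ := by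
  classical
  ext φ
  by_cases hφ : ∃ i, χ i = φ
  · obtain ⟨i₀, rfl⟩ := hφ
    set U : Finset (R →+* k) := ((s.map χ + t.map χ).toFinset).erase (χ i₀) with hUdef
    have hU : ∀ ψ ∈ U, (∀ a, ψ (iA a) = res a) ∧ ψ ≠ χ i₀ := by
      intro ψ hψ
      rw [hUdef, Finset.mem_erase, Multiset.mem_toFinset, Multiset.mem_add] at hψ
      obtain ⟨hne, hmem⟩ := hψ
      refine ⟨?_, hne⟩
      rcases hmem with hmem | hmem <;>
      · obtain ⟨i, -, rfl⟩ := Multiset.mem_map.mp hmem
        exact hχ i
    obtain ⟨e, he1, he0⟩ := exists_idem iA res hres (χ i₀) (hχ i₀) U hU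
    apply eq_of_forall_pow_eq (k := k)
    intro c
    obtain ⟨a, ha⟩ := hres c
    set y : R := 1 + (iA a - 1) * e with hy
    have hy0 : χ i₀ y = c := by
      rw [hy, map_add, map_mul, map_sub, map_one, he1, hχ, ha]; ring
    have hyU : ∀ ψ ∈ U, ψ y = 1 := by
      intro ψ hψ
      rw [hy, map_add, map_mul, he0 ψ hψ, map_one, mul_zero, add_zero]
    have key : ∀ m : Multiset ι, (∀ i ∈ m, χ i ∈ s.map χ + t.map χ) →
        (m.map fun i => χ i y).prod = c ^ (m.map χ).count (χ i₀) := by
      intro m hm
      have e1 : (m.map fun i => χ i y) = (m.map χ).map (fun ψ : R →+* k => ψ y) := by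
        rw [Multiset.map_map]; rfl
      rw [e1, Multiset.prod_map_eq_pow_single (χ i₀), hy0]
      intro ψ hne hmem
      obtain ⟨i, hi, rfl⟩ := Multiset.mem_map.mp hmem
      refine hyU _ ?_
      rw [hUdef, Finset.mem_erase, Multiset.mem_toFinset]
      exact ⟨hne, hm i hi⟩
    rw [← key s (fun i hi => Multiset.mem_add.mpr (Or.inl (Multiset.mem_map_of_mem χ hi))),
      ← key t (fun i hi => Multiset.mem_add.mpr (Or.inr (Multiset.mem_map_of_mem χ hi)))]
    exact h y
  · have hs : φ ∉ s.map χ := fun hmem => by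
      obtain ⟨i, -, hi⟩ := Multiset.mem_map.mp hmem
      exact hφ ⟨i, hi⟩
    have ht : φ ∉ t.map χ := fun hmem => by
      obtain ⟨i, -, hi⟩ := Multiset.mem_map.mp hmem
      exact hφ ⟨i, hi⟩
    rw [Multiset.count_eq_zero_of_notMem hs, Multiset.count_eq_zero_of_notMem ht]

/-- **(M2)** If two multisets of points have the same multiset of `f`-values, then the difference
of the associated divisors is a sum of differences `a - b` with `a ∈ s`, `b ∈ t`, `f a = f b`. -/
theorem sub_mem_closure_of_map_eq {ι β : Type*} (f : ι → β) (s t : Multiset ι)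
    (h : s.map f = t.map f) :
    (s.map fun i => Finsupp.single i (1 : ℤ)).sum - (t.map fun i => Finsupp.single i (1 : ℤ)).sum ∈
      AddSubgroup.closure {d : ι →₀ ℤ | ∃ a ∈ s, ∃ b ∈ t, f a = f b ∧
        d = Finsupp.single a 1 - Finsupp.single b 1} := by
  classical
  induction s using Multiset.induction_on generalizing t with
  | empty =>
    have ht : t = 0 := by
      have : t.map f = 0 := by rw [← h]; rfl
      exact Multiset.map_eq_zero.mp this
    subst ht
    simp
  | cons a s ih =>
    have hfa : f a ∈ t.map f := by rw [← h]; simp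
    obtain ⟨b, hb, hfb⟩ := Multiset.mem_map.mp hfa
    obtain ⟨t', rfl⟩ := Multiset.exists_cons_of_mem hb
    have h' : s.map f = t'.map f := by
      rw [Multiset.map_cons, Multiset.map_cons, hfb] at h
      exact (Multiset.cons_inj_right _).mp h
    have hmono : AddSubgroup.closure {d : ι →₀ ℤ | ∃ a' ∈ s, ∃ b' ∈ t', f a' = f b' ∧
          d = Finsupp.single a' 1 - Finsupp.single b' 1} ≤
        AddSubgroup.closure {d : ι →₀ ℤ | ∃ a' ∈ a ::ₘ s, ∃ b' ∈ b ::ₘ t', f a' = f b' ∧
          d = Finsupp.single a' 1 - Finsupp.single b' 1} := by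
      apply AddSubgroup.closure_mono
      rintro d ⟨a', ha', b', hb', hab, rfl⟩
      exact ⟨a', Multiset.mem_cons_of_mem ha', b', Multiset.mem_cons_of_mem hb', hab, rfl⟩
    have h1 := hmono (ih t' h')
    have h2 : (Finsupp.single a (1 : ℤ) - Finsupp.single b 1 : ι →₀ ℤ) ∈
        AddSubgroup.closure {d : ι →₀ ℤ | ∃ a' ∈ a ::ₘ s, ∃ b' ∈ b ::ₘ t', f a' = f b' ∧
          d = Finsupp.single a' 1 - Finsupp.single b' 1} :=
      AddSubgroup.subset_closure
        ⟨a, Multiset.mem_cons_self a s, b, Multiset.mem_cons_self b t', hfb.symm, rfl⟩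
    have e : ((a ::ₘ s).map fun i => Finsupp.single i (1 : ℤ)).sum -
          ((b ::ₘ t').map fun i => Finsupp.single i (1 : ℤ)).sum =
        (Finsupp.single a (1 : ℤ) - Finsupp.single b 1) +
          ((s.map fun i => Finsupp.single i (1 : ℤ)).sum -
            (t'.map fun i => Finsupp.single i (1 : ℤ)).sum) := by
      rw [Multiset.map_cons, Multiset.map_cons, Multiset.sum_cons, Multiset.sum_cons]
      abel
    rw [e]
    exact add_mem h2 h1

/-- **(M3)** Equal products of `A`-linear characters on every element give a difference of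
divisors in the subgroup generated by the `a - b` with equal characters. -/
theorem sub_mem_closure_of_prod_eq {A R k ι : Type*} [CommRing A] [CommRing R] [Field k]
    [Infinite k] (iA : A →+* R) (res : A →+* k) (hres : Function.Surjective res)
    (χ : ι → R →+* k) (hχ : ∀ i a, χ i (iA a) = res a) (s t : Multiset ι)
    (h : ∀ y : R, (s.map fun i => χ i y).prod = (t.map fun i => χ i y).prod) :
    (s.map fun i => Finsupp.single i (1 : ℤ)).sum - (t.map fun i => Finsupp.single i (1 : ℤ)).sum ∈
      AddSubgroup.closure {d : ι →₀ ℤ | ∃ a ∈ s, ∃ b ∈ t, χ a = χ b ∧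
        d = Finsupp.single a 1 - Finsupp.single b 1} :=
  sub_mem_closure_of_map_eq χ s t (map_eq_of_prod_eq iA res hres χ hχ s t h)

end Fermat.Agent.S37.H96
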