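import Mathlib
import Fermat.Prelude.Def_AlgebraicCurve_DivisorPushPull
import Fermat.Agent.S37.Multiset_helper96

/-!
# S37, node (TRANSFER), abstract core (helper87)

`F ⊆ F'` a finite extension of function fields over `K`, `A ⊆ K` a subring with a surjection
`res : A → k` onto an infinite field.  For a subring `R` of a function field `E` and a place `w`
of `E`, `IsCharAt A res R w χ` says that every element of `R` is regular at `w` with value in `A`
and that `χ : R →+* k` is the resulting residue character.

`transfer_core`: if two places `v₁ v₂` of `F` have the same residue character on a chart `R ⊆ F`,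
then the multisets (with ramification indices) of residue characters on a chart `R' ⊆ F'` of the
places above `v₁` and above `v₂` lying on that chart coincide, provided every `y' ∈ R'` has an
auxiliary `Y ∈ F'` with `Norm Y ∈ R` whose residue values above `v₁, v₂` are those of `y'` on the
chart and `1` off the chart.  The specialisation of norms at a place enters as the hypothesis
`NormSpecAt`.
-/

set_option autoImplicit false

noncomputable section

open AlgebraicCurve

namespace Fermat.Agent.S37.H87

section Basic

variable {K : Type*} [Field K] {E : Type*} [Field E] [Algebra K E]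

/-- a constant which is a non-unit at a place vanishes. -/
theorem eq_zero_of_algebraMap_mem_nonunits (w : Place K E) (a : K)
    (h : algebraMap K E a ∈ w.toValuationSubring.nonunits) : a = 0 := by
  by_contra ha
  have h1 : w.toValuationSubring.valuation (algebraMap K E a) ≤ 1 :=
    (ValuationSubring.valuation_le_one_iff _ _).mpr (w.algebraMap_mem' a)
  have h2 : w.toValuationSubring.valuation (algebraMap K E a⁻¹) ≤ 1 :=
    (ValuationSubring.valuation_le_one_iff _ _).mpr (w.algebraMap_mem' a⁻¹)
  have h3 : w.toValuationSubring.valuation (algebraMap K E a) *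
      w.toValuationSubring.valuation (algebraMap K E a⁻¹) = 1 := by
    rw [← map_mul, ← map_mul, mul_inv_cancel₀ ha, map_one, map_one]
  have h4 : w.toValuationSubring.valuation (algebraMap K E a) < 1 :=
    (ValuationSubring.mem_nonunits_iff (A := w.toValuationSubring)).mp h
  have h5 : w.toValuationSubring.valuation (algebraMap K E a) *
      w.toValuationSubring.valuation (algebraMap K E a⁻¹) < 1 :=
    mul_lt_one_of_lt_of_le h4 h2
  exact absurd h3 (ne_of_lt h5)

/-- the non-units at a place are closed under subtraction. -/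
theorem sub_mem_nonunits (w : Place K E) {x y : E}
    (hx : x ∈ w.toValuationSubring.nonunits) (hy : y ∈ w.toValuationSubring.nonunits) :
    x - y ∈ w.toValuationSubring.nonunits := by
  rw [ValuationSubring.mem_nonunits_iff] at hx hy ⊢
  exact lt_of_le_of_lt (Valuation.map_sub _ x y) (max_lt hx hy)

/-- two constant values of the same function at a place agree. -/
theorem value_unique (w : Place K E) {y : E} {c c' : K}
    (h : y - algebraMap K E c ∈ w.toValuationSubring.nonunits)
    (h' : y - algebraMap K E c' ∈ w.toValuationSubring.nonunits) : c = c' := by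
  have h1 := sub_mem_nonunits w h' h
  have h2 : y - algebraMap K E c' - (y - algebraMap K E c) = algebraMap K E (c - c') := by
    rw [map_sub]; ring
  rw [h2] at h1
  exact sub_eq_zero.mp (eq_zero_of_algebraMap_mem_nonunits w _ h1)

end Basic

section Core

variable {K : Type*} [Field K] (A : Subring K) {k : Type*} [Field k] (res : A →+* k)

/-- every element of the chart `R` is regular at `w` with value in `A`, and `χ` is the residue
character. -/
def IsCharAt {E : Type*} [Field E] [Algebra K E] (R : Subring E) (w : Place K E)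
    (χ : R →+* k) : Prop :=
  ∀ y : R, ∃ c : A, (y : E) - algebraMap K E (c : K) ∈ w.toValuationSubring.nonunits ∧ χ y = res c

variable {A res}

theorem IsCharAt.eq_res {E : Type*} [Field E] [Algebra K E] {R : Subring E} {w : Place K E}
    {χ : R →+* k} (h : IsCharAt A res R w χ) (y : R) (c : A)
    (hc : (y : E) - algebraMap K E (c : K) ∈ w.toValuationSubring.nonunits) : χ y = res c := by
  obtain ⟨c', hc', hχ⟩ := h y
  have : (c' : K) = (c : K) := value_unique w hc' hc
  rw [hχ, Subtype.ext this]

/-- a residue character is `A`-linear. -/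
theorem IsCharAt.map_const {E : Type*} [Field E] [Algebra K E] {R : Subring E} {w : Place K E}
    {χ : R →+* k} (h : IsCharAt A res R w χ) (a : A) (ha : algebraMap K E (a : K) ∈ R) :
    χ ⟨algebraMap K E (a : K), ha⟩ = res a :=
  h.eq_res ⟨_, ha⟩ a (by
    show algebraMap K E (a : K) - algebraMap K E (a : K) ∈ _
    rw [sub_self, ValuationSubring.mem_nonunits_iff, map_zero]
    exact zero_lt_one)

/-- two places with residue characters on the same chart having the same values have the same
character. -/
theorem IsCharAt.ext {E : Type*} [Field E] [Algebra K E] {R : Subring E} {w : Place K E}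
    {χ χ' : R →+* k} (h : IsCharAt A res R w χ) (h' : IsCharAt A res R w χ') : χ = χ' := by
  ext y
  obtain ⟨c, hc, hχ⟩ := h y
  rw [hχ, h'.eq_res y c hc]

variable {F F' : Type*} [Field F] [Field F'] [Algebra K F] [Algebra K F'] [Algebra F F']
  [IsScalarTower K F F'] [Algebra.IsIntegral F F'] [HasPrincipalDivisors K F']

variable (F') in
/-- **(VAL) at `v`**: the norm of a function with constant values `c w` at the places above `v`
has the value `∏ c w ^ e_w` at `v`. -/
def NormSpecAt (v : Place K F) : Prop :=
  ∀ (z : F') (c : Place K F' → K),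
    (∀ w ∈ v.fiber F', z - algebraMap K F' (c w) ∈ w.toValuationSubring.nonunits) →
    Algebra.norm F z - algebraMap K F (∏ w ∈ v.fiber F', c w ^ w.ramificationIndex F) ∈
      v.toValuationSubring.nonunits

/-- the residue character of a norm, computed along the fibre. -/
theorem char_norm_eq (v : Place K F) (hval : NormSpecAt F' v) (R : Subring F) (χ : R →+* k)
    (h : IsCharAt A res R v χ) (S : Finset (Place K F')) (hS : S ⊆ v.fiber F')
    (g : Place K F' → k) (Y : F') (hYR : Algebra.norm F Y ∈ R)
    (hY : ∀ w ∈ v.fiber F', ∃ c : A,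
      Y - algebraMap K F' (c : K) ∈ w.toValuationSubring.nonunits ∧
        (w ∈ S → res c = g w) ∧ (w ∉ S → res c = 1)) :
    χ ⟨Algebra.norm F Y, hYR⟩ = ∏ w ∈ S, g w ^ w.ramificationIndex F := by
  classical
  set cA : Place K F' → A := fun w =>
    if hw : w ∈ v.fiber F' then Classical.choose (hY w hw) else 1 with hcA
  have hcA1 : ∀ w ∈ v.fiber F',
      Y - algebraMap K F' ((cA w : A) : K) ∈ w.toValuationSubring.nonunits := by
    intro w hw
    rw [hcA]
    simp only [dif_pos hw]
    exact (Classical.choose_spec (hY w hw)).1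
  have hcA2 : ∀ w ∈ v.fiber F', res (cA w) = if w ∈ S then g w else 1 := by
    intro w hw
    rw [hcA]
    simp only [dif_pos hw]
    by_cases hwS : w ∈ S
    · rw [if_pos hwS]; exact (Classical.choose_spec (hY w hw)).2.1 hwS
    · rw [if_neg hwS]; exact (Classical.choose_spec (hY w hw)).2.2 hwS
  have h1 := hval Y (fun w => ((cA w : A) : K)) hcA1
  have h2 : ((⟨Algebra.norm F Y, hYR⟩ : R) : F) -
      algebraMap K F (((∏ w ∈ v.fiber F', cA w ^ w.ramificationIndex F : A)) : K) ∈
      v.toValuationSubring.nonunits := by
    have : (((∏ w ∈ v.fiber F', cA w ^ w.ramificationIndex F : A)) : K) =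
        ∏ w ∈ v.fiber F', ((cA w : A) : K) ^ w.ramificationIndex F := by
      push_cast
      rfl
    rw [this]
    exact h1
  rw [h.eq_res _ _ h2, map_prod]
  rw [← Finset.prod_subset hS]
  · refine Finset.prod_congr rfl fun w hw => ?_
    rw [map_pow, hcA2 w (hS hw), if_pos hw]
  · intro w hw hwS
    rw [map_pow, hcA2 w hw, if_neg hwS, one_pow]

/-- **(TRANSFER), abstract core.** -/
theorem transfer_core [Infinite k] (hres : Function.Surjective res)
    (R : Subring F) (R' : Subring F') (hAR' : ∀ a : A, algebraMap K F' (a : K) ∈ R')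
    (v₁ v₂ : Place K F) (hval₁ : NormSpecAt F' v₁) (hval₂ : NormSpecAt F' v₂)
    (χ : R →+* k) (h₁ : IsCharAt A res R v₁ χ) (h₂ : IsCharAt A res R v₂ χ)
    (S₁ S₂ : Finset (Place K F')) (hS₁ : S₁ ⊆ v₁.fiber F') (hS₂ : S₂ ⊆ v₂.fiber F')
    (χ' : Place K F' → (R' →+* k))
    (hχ' : ∀ w, w ∈ S₁ ∨ w ∈ S₂ → IsCharAt A res R' w (χ' w))
    (hY : ∀ y' : R', ∃ Y : F', Algebra.norm F Y ∈ R ∧
      (∀ w ∈ v₁.fiber F', ∃ c : A,
        Y - algebraMap K F' (c : K) ∈ w.toValuationSubring.nonunits ∧
          (w ∈ S₁ → res c = χ' w y') ∧ (w ∉ S₁ → res c = 1)) ∧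
      (∀ w ∈ v₂.fiber F', ∃ c : A,
        Y - algebraMap K F' (c : K) ∈ w.toValuationSubring.nonunits ∧
          (w ∈ S₂ → res c = χ' w y') ∧ (w ∉ S₂ → res c = 1))) :
    (S₁.val.bind fun w => Multiset.replicate (w.ramificationIndex F) (χ' w)) =
      (S₂.val.bind fun w => Multiset.replicate (w.ramificationIndex F) (χ' w)) := by
  classical
  by_cases hne : (S₁ ∪ S₂).Nonempty
  swap
  · rw [Finset.not_nonempty_iff_eq_empty, Finset.union_eq_empty] at hne
    rw [hne.1, hne.2]
  obtain ⟨w₀, hw₀⟩ := hne
  -- a total family of `A`-linear characters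
  set ψ : Place K F' → (R' →+* k) := fun w => if w ∈ S₁ ∪ S₂ then χ' w else χ' w₀ with hψ
  have hψS : ∀ w ∈ S₁ ∪ S₂, ψ w = χ' w := fun w hw => by rw [hψ]; simp only [if_pos hw]
  set iA : A →+* R' := ((algebraMap K F').comp A.subtype).codRestrict R' hAR' with hiA
  have hψlin : ∀ w (a : A), ψ w (iA a) = res a := by
    intro w a
    by_cases hw : w ∈ S₁ ∪ S₂
    · rw [hψS w hw]
      exact (hχ' w (Finset.mem_union.mp hw)).map_const a (hAR' a)
    · rw [hψ]
      simp only [if_neg hw]
      exact (hχ' w₀ (Finset.mem_union.mp hw₀)).map_const a (hAR' a)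
  set s₁ : Multiset (Place K F') :=
    S₁.val.bind fun w => Multiset.replicate (w.ramificationIndex F) w with hs₁
  set s₂ : Multiset (Place K F') :=
    S₂.val.bind fun w => Multiset.replicate (w.ramificationIndex F) w with hs₂
  have hprod : ∀ (S : Finset (Place K F')) (hS : S ⊆ S₁ ∪ S₂) (y : R'),
      ((S.val.bind fun w => Multiset.replicate (w.ramificationIndex F) w).map
        fun w => ψ w y).prod = ∏ w ∈ S, χ' w y ^ w.ramificationIndex F := by
    intro S hS y
    rw [Multiset.map_bind, Multiset.prod_bind, Finset.prod_eq_multiset_prod]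
    refine congrArg Multiset.prod (Multiset.map_congr rfl fun w hw => ?_)
    rw [Multiset.map_replicate, Multiset.prod_replicate, hψS w (hS (Finset.mem_val.mp hw))]
  have hmap : ∀ (S : Finset (Place K F')) (hS : S ⊆ S₁ ∪ S₂),
      (S.val.bind fun w => Multiset.replicate (w.ramificationIndex F) w).map ψ =
        S.val.bind fun w => Multiset.replicate (w.ramificationIndex F) (χ' w) := by
    intro S hS
    rw [Multiset.map_bind]
    refine Multiset.bind_congr fun w hw => ?_
    rw [Multiset.map_replicate, hψS w (hS (Finset.mem_val.mp hw))]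
  have key := Fermat.Agent.S37.H96.map_eq_of_prod_eq iA res hres ψ hψlin s₁ s₂ (by
    intro y
    rw [hs₁, hs₂, hprod S₁ Finset.subset_union_left y, hprod S₂ Finset.subset_union_right y]
    obtain ⟨Y, hYR, hY₁, hY₂⟩ := hY y
    rw [← char_norm_eq v₁ hval₁ R χ h₁ S₁ hS₁ (fun w => χ' w y) Y hYR hY₁,
      ← char_norm_eq v₂ hval₂ R χ h₂ S₂ hS₂ (fun w => χ' w y) Y hYR hY₂])
  rw [hs₁, hs₂, hmap S₁ Finset.subset_union_left, hmap S₂ Finset.subset_union_right] at key
  exact key

end Core

end Fermat.Agent.S37.H87
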