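import Mathlib
import Fermat.Agent.S37.Transfer_helper87
import Fermat.Agent.S37.TransferAlg_helper87
import Fermat.Agent.S37.Gal_helper34

/-!
# S37, node (TRANSFER): function field layer (helper87)

`K ⊆ F ⊆ F'` function fields, `A` a valuation subring of `K` with infinite residue field.
Vocabulary of `Gal_helper34`: `EvalAt w y c` (value of a function at a place),
`IsFin A R w` (the place `w` is finite on the chart `R`, with values in `A`) and
`charOf h : R →+* A / m` (its residue character).

Three transfer theorems, all with the same conclusion: if two places `v₁ v₂` of `F` are finite on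
a chart `R ⊆ F` with the same residue character, then for every character `χ₀` of the chart
`R' ⊆ F'` the number (with ramification indices) of places above `v₁` which are finite on `R'`
with residue character `χ₀` equals the same number above `v₂`.

* `transfer_of_isIntegralElem` : `R ⊇` integral closure of `A[x]`, `R'` = integral closure of
  `A[x']`, with `x'` integral over `A[x]`;
* `transfer_of_inv` : `R'` = integral closure of `A[x⁻¹]`;
* `transfer_of_moebius` : `R ⊇` integral closure of `A[s]`, `s` of residue value `0`,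
  `R'` = integral closure of `A[x']` with `x' * (1 - z) = u * z`, `u` a unit of `A`, `z` integral
  over `A[s]` with `z ^ m * (1 - z) ^ m' = g * s`.

The specialisation of norms `NormSpecAt` (node (VAL)) and `deg = 1` for the places of `F'` are
hypotheses.
-/

set_option autoImplicit false

noncomputable section

open AlgebraicCurve Polynomial
open Fermat.Agent.S37.H34

namespace Fermat.Agent.S37.H87

section IntClosed

/-- elements integral along a homomorphism with values in a valuation subring lie in it. -/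
theorem mem_valuationSubring_of_isIntegralElem {R L : Type*} [CommRing R] [Field L]
    (V : ValuationSubring L) (f : R →+* L) (hf : ∀ r, f r ∈ V) {y : L}
    (hy : f.IsIntegralElem y) : y ∈ V := by
  obtain ⟨p, hp, hpy⟩ := hy
  let φ : R →+* V := f.codRestrict V.toSubring hf
  have hint : IsIntegral V y := by
    refine ⟨p.map φ, hp.map φ, ?_⟩
    rw [Polynomial.eval₂_map]
    have : (algebraMap V L).comp φ = f := by
      ext a; rfl
    rw [this]
    exact hpy
  obtain ⟨z, hz⟩ := IsIntegrallyClosed.isIntegral_iff.mp hint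
  rw [← hz]
  exact z.2

end IntClosed

section G4

variable {K : Type*} [Field K] (A : ValuationSubring K) {E : Type*} [Field E] [Algebra K E]

theorem evalAt_chartHom (w : Place K E) {x : E} {c : K} (hx : EvalAt w x c)
    (r : (A.toSubring)[X]) :
    EvalAt w (chartHom A.toSubring x r) (r.eval₂ A.toSubring.subtype c) := by
  rw [chartHom_apply]
  exact EvalAt.eval₂ (constHom A.toSubring) A.toSubring.subtype
    (fun a => evalAt_algebraMap w (a : K)) r hx

theorem eval₂_subtype_mem {c : K} (hc : c ∈ A) (r : (A.toSubring)[X]) :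
    r.eval₂ A.toSubring.subtype c ∈ A := by
  have h := Polynomial.hom_eval₂ r (RingHom.id A.toSubring) A.toSubring.subtype
    (⟨c, hc⟩ : A.toSubring)
  rw [RingHom.comp_id] at h
  have h2 : A.toSubring.subtype (⟨c, hc⟩ : A.toSubring) = c := rfl
  rw [h2] at h
  rw [← h]
  exact (Polynomial.eval₂ (RingHom.id A.toSubring) (⟨c, hc⟩ : A.toSubring) r).2

/-- **(G4)**: at a place of degree one, a function integral over `A[x]` has a value in `A` as
soon as `x` has. -/
theorem exists_evalAt_of_isIntegralElem (w : Place K E) (hw : w.deg = 1) {x : E} {c : K}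
    (hc : c ∈ A) (hx : EvalAt w x c) {y : E}
    (hy : (chartHom A.toSubring x).IsIntegralElem y) : ∃ d : A, EvalAt w y (d : K) := by
  have hφ := evalAt_chartHom A w hx
  have hyO : y ∈ w.toValuationSubring :=
    mem_valuationSubring_of_isIntegralElem _ (chartHom A.toSubring x) (fun r => (hφ r).mem) hy
  obtain ⟨d, hd⟩ := exists_evalAt w hw hyO
  obtain ⟨p, hp, hpy⟩ := hy
  have h1 := EvalAt.eval₂ (chartHom A.toSubring x)
    (Polynomial.eval₂RingHom A.toSubring.subtype c) hφ p hd
  rw [hpy] at h1
  have h2 : p.eval₂ (Polynomial.eval₂RingHom A.toSubring.subtype c) d = 0 :=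
    h1.unique (evalAt_zero w)
  have hdA : d ∈ A :=
    mem_valuationSubring_of_isIntegralElem A (Polynomial.eval₂RingHom A.toSubring.subtype c)
      (fun r => eval₂_subtype_mem A hc r) ⟨p, hp, h2⟩
  exact ⟨⟨d, hdA⟩, hd⟩

/-- a place is finite on the integral closure of `A[x]` as soon as `x` has a value in `A`. -/
theorem isFin_of_evalAt (w : Place K E) (hw : w.deg = 1) {x : E} (c : A)
    (hx : EvalAt w x (c : K)) (R : Subring E)
    (hR : ∀ y ∈ R, (chartHom A.toSubring x).IsIntegralElem y) : IsFin A R w := by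
  intro y hy
  obtain ⟨d, hd⟩ := exists_evalAt_of_isIntegralElem A w hw c.2 hx (hR y hy)
  exact ⟨d, d.2, hd⟩

variable {A}

/-- the residue character in the relational form of `Transfer_helper87`. -/
theorem isCharAt_charOf {R : Subring E} {w : Place K E} (h : IsFin A R w) :
    IsCharAt A.toSubring (IsLocalRing.residue A) R w (charOf h) := fun y =>
  ⟨valHom h y, evalAt_valHom h y, rfl⟩

theorem IsFin.exists_evalAt {R : Subring E} {w : Place K E} (h : IsFin A R w) {y : E}
    (hy : y ∈ R) : ∃ c : A, EvalAt w y (c : K) := by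
  obtain ⟨c, hc, h⟩ := h y hy
  exact ⟨⟨c, hc⟩, h⟩

theorem residue_eq_of_evalAt {w : Place K E} {y : E} {c d : A} (hc : EvalAt w y (c : K))
    (hd : EvalAt w y (d : K)) : c = d :=
  Subtype.ext (hc.unique hd)

/-- a unit-valued element of `A`: the inverse lies in `A`. -/
theorem inv_mem_of_residue_ne_zero {a : A} (ha : IsLocalRing.residue A a ≠ 0) :
    ∃ b : A, (b : K) = (a : K)⁻¹ ∧ a * b = 1 := by
  have hu : IsUnit a := by
    by_contra hnu
    exact ha ((IsLocalRing.residue_eq_zero_iff a).mpr ((IsLocalRing.mem_maximalIdeal a).mpr hnu))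
  obtain ⟨b, hb⟩ := hu.exists_right_inv
  refine ⟨b, ?_, hb⟩
  have h1 : (a : K) * (b : K) = 1 := by
    have := congrArg (fun t : A => (t : K)) hb
    simpa using this
  exact eq_inv_of_mul_eq_one_right h1

theorem ne_zero_of_residue_ne_zero {a : A} (ha : IsLocalRing.residue A a ≠ 0) : (a : K) ≠ 0 := by
  intro h
  apply ha
  have : a = 0 := Subtype.ext h
  rw [this, map_zero]

end G4

section Restrict

variable {K : Type*} [Field K] {F F' : Type*} [Field F] [Field F'] [Algebra K F] [Algebra K F']
  [Algebra F F'] [IsScalarTower K F F'] [Algebra.IsIntegral F F']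

/-- values are preserved by restriction of places. -/
theorem evalAt_of_restrict (w : Place K F') {x : F} {c : K}
    (h : EvalAt (w.restrict F) x c) : EvalAt w (algebraMap F F' x) c := by
  unfold EvalAt at *
  rw [Place.restrict_toValuationSubring] at h
  have e : algebraMap F F' x - algebraMap K F' c = algebraMap F F' (x - algebraMap K F c) := by
    rw [map_sub, ← IsScalarTower.algebraMap_apply]
  rw [e]
  rw [ValuationSubring.mem_nonunits_iff_or] at h ⊢
  rcases h with h | h
  · left; rw [h, map_zero]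
  · right
    intro hcon
    apply h
    rw [ValuationSubring.mem_comap, map_inv₀]
    exact hcon

end Restrict

section Engine

variable {K : Type*} [Field K] (A : ValuationSubring K) [Infinite (IsLocalRing.ResidueField A)]
  {F F' : Type*} [Field F] [Field F'] [Algebra K F] [Algebra K F'] [Algebra F F']
  [IsScalarTower K F F'] [Algebra.IsIntegral F F'] [HasPrincipalDivisors K F']

/-- **(TRANSFER), engine**: the count form of `transfer_core`, for the set of places above
`v₁, v₂` which are finite on the chart `R'`. -/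
theorem transfer_engine (R : Subring F) (R' : Subring F')
    (hAR' : ∀ a : A, algebraMap K F' (a : K) ∈ R')
    (v₁ v₂ : Place K F) (hval₁ : NormSpecAt F' v₁) (hval₂ : NormSpecAt F' v₂)
    (h₁ : IsFin A R v₁) (h₂ : IsFin A R v₂) (heq : charOf h₁ = charOf h₂)
    (hY : ∀ y' ∈ R', ∃ Y : F', Algebra.norm F Y ∈ R ∧
      ∀ w : Place K F', (w ∈ v₁.fiber F' ∨ w ∈ v₂.fiber F') → ∃ c : A, EvalAt w Y (c : K) ∧
        (IsFin A R' w → ∀ d : A, EvalAt w y' (d : K) →
          IsLocalRing.residue A c = IsLocalRing.residue A d) ∧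
        (¬ IsFin A R' w → IsLocalRing.residue A c = 1))
    (χ₀ : R' →+* IsLocalRing.ResidueField A) :
    ∃ T₁ T₂ : Finset (Place K F'),
      (∀ w, w ∈ T₁ ↔ w ∈ v₁.fiber F' ∧ ∃ h : IsFin A R' w, charOf h = χ₀) ∧
      (∀ w, w ∈ T₂ ↔ w ∈ v₂.fiber F' ∧ ∃ h : IsFin A R' w, charOf h = χ₀) ∧
      ∑ w ∈ T₁, w.ramificationIndex F = ∑ w ∈ T₂, w.ramificationIndex F := by
  classical
  set S₁ : Finset (Place K F') := (v₁.fiber F').filter (fun w => IsFin A R' w) with hS₁
  set S₂ : Finset (Place K F') := (v₂.fiber F').filter (fun w => IsFin A R' w) with hS₂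
  by_cases hne : (S₁ ∪ S₂).Nonempty
  swap
  · rw [Finset.not_nonempty_iff_eq_empty, Finset.union_eq_empty] at hne
    refine ⟨∅, ∅, fun w => ?_, fun w => ?_, rfl⟩
    · refine ⟨fun h => absurd h (Finset.notMem_empty w), fun ⟨hw, h, _⟩ => ?_⟩
      have : w ∈ S₁ := Finset.mem_filter.mpr ⟨hw, h⟩
      rw [hne.1] at this
      exact this
    · refine ⟨fun h => absurd h (Finset.notMem_empty w), fun ⟨hw, h, _⟩ => ?_⟩
      have : w ∈ S₂ := Finset.mem_filter.mpr ⟨hw, h⟩
      rw [hne.2] at this
      exact this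
  obtain ⟨w₀, hw₀⟩ := hne
  have hw₀fin : IsFin A R' w₀ := by
    rcases Finset.mem_union.mp hw₀ with h | h
    · exact (Finset.mem_filter.mp h).2
    · exact (Finset.mem_filter.mp h).2
  set χ' : Place K F' → (R' →+* IsLocalRing.ResidueField A) := fun w =>
    if h : IsFin A R' w then charOf h else charOf hw₀fin with hχ'
  have hχ'eq : ∀ w (h : IsFin A R' w), χ' w = charOf h := fun w h => by
    rw [hχ']; simp only [dif_pos h]
  have hmemS : ∀ w, w ∈ S₁ ∨ w ∈ S₂ → IsFin A R' w := by
    rintro w (h | h)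
    · exact (Finset.mem_filter.mp h).2
    · exact (Finset.mem_filter.mp h).2
  have key := transfer_core (A := A.toSubring) (res := IsLocalRing.residue A)
    (IsLocalRing.residue_surjective (R := A)) R R' hAR' v₁ v₂ hval₁ hval₂ (charOf h₁)
    (isCharAt_charOf h₁) (heq ▸ isCharAt_charOf h₂) S₁ S₂
    (Finset.filter_subset _ _) (Finset.filter_subset _ _) χ'
    (fun w hw => by rw [hχ'eq w (hmemS w hw)]; exact isCharAt_charOf _)
    (by
      intro y'
      obtain ⟨Y, hYR, hYw⟩ := hY y' y'.2
      refine ⟨Y, hYR, fun w hw => ?_, fun w hw => ?_⟩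
      · obtain ⟨c, hc, hc1, hc2⟩ := hYw w (Or.inl hw)
        refine ⟨c, hc, fun hwS => ?_, fun hwS => ?_⟩
        · have hfin := (Finset.mem_filter.mp hwS).2
          rw [hχ'eq w hfin, charOf_apply]
          exact hc1 hfin _ (evalAt_valHom hfin y')
        · exact hc2 fun hfin => hwS (Finset.mem_filter.mpr ⟨hw, hfin⟩)
      · obtain ⟨c, hc, hc1, hc2⟩ := hYw w (Or.inr hw)
        refine ⟨c, hc, fun hwS => ?_, fun hwS => ?_⟩
        · have hfin := (Finset.mem_filter.mp hwS).2
          rw [hχ'eq w hfin, charOf_apply]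
          exact hc1 hfin _ (evalAt_valHom hfin y')
        · exact hc2 fun hfin => hwS (Finset.mem_filter.mpr ⟨hw, hfin⟩))
  have hcount : ∀ S : Finset (Place K F'),
      Multiset.count χ₀ (S.val.bind fun w => Multiset.replicate (w.ramificationIndex F) (χ' w)) =
        ∑ w ∈ S.filter (fun w => χ' w = χ₀), w.ramificationIndex F := by
    intro S
    rw [Multiset.count_bind, Finset.sum_filter, Finset.sum_eq_multiset_sum]
    refine congrArg Multiset.sum (Multiset.map_congr rfl fun w _ => ?_)
    rw [Multiset.count_replicate]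
  have hmemT : ∀ (v : Place K F) (w : Place K F'),
      w ∈ ((v.fiber F').filter (fun w => IsFin A R' w)).filter (fun w => χ' w = χ₀) ↔
        w ∈ v.fiber F' ∧ ∃ h : IsFin A R' w, charOf h = χ₀ := by
    intro v w
    rw [Finset.mem_filter, Finset.mem_filter]
    constructor
    · rintro ⟨⟨hw, hfin⟩, hχ⟩
      exact ⟨hw, hfin, by rw [← hχ'eq w hfin]; exact hχ⟩
    · rintro ⟨hw, hfin, hχ⟩
      exact ⟨⟨hw, hfin⟩, by rw [hχ'eq w hfin]; exact hχ⟩
  refine ⟨S₁.filter (fun w => χ' w = χ₀), S₂.filter (fun w => χ' w = χ₀), hmemT v₁, hmemT v₂, ?_⟩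
  rw [← hcount S₁, ← hcount S₂, key]

end Engine

section Transfer

variable {K : Type*} [Field K] (A : ValuationSubring K)
  {F F' : Type*} [Field F] [Field F'] [Algebra K F] [Algebra K F'] [Algebra F F']
  [IsScalarTower K F F'] [Algebra.IsIntegral F F'] [HasPrincipalDivisors K F']

/-- **the conclusion of (TRANSFER)** for a pair of places `v₁ v₂` of `F` and a chart `R'` of
`F'`: for every character `χ₀` of `R'`, the places above `v₁` which are finite on `R'` with
residue character `χ₀` and the places above `v₂` with the same property have the same total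
ramification index. -/
def TransferAt (R' : Subring F') (v₁ v₂ : Place K F) : Prop :=
  ∀ χ₀ : R' →+* IsLocalRing.ResidueField A, ∃ T₁ T₂ : Finset (Place K F'),
    (∀ w, w ∈ T₁ ↔ w ∈ v₁.fiber F' ∧ ∃ h : IsFin A R' w, charOf h = χ₀) ∧
    (∀ w, w ∈ T₂ ↔ w ∈ v₂.fiber F' ∧ ∃ h : IsFin A R' w, charOf h = χ₀) ∧
    ∑ w ∈ T₁, w.ramificationIndex F = ∑ w ∈ T₂, w.ramificationIndex F

variable {A}

/-- the values above a pair of places with the same residue character. -/
theorem exists_evalAt_above {R : Subring F} {v₁ v₂ : Place K F} (h₁ : IsFin A R v₁)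
    (h₂ : IsFin A R v₂) (heq : charOf h₁ = charOf h₂) {x : F} (hx : x ∈ R) (w : Place K F')
    (hw : w ∈ v₁.fiber F' ∨ w ∈ v₂.fiber F') :
    ∃ a : A, EvalAt w (algebraMap F F' x) (a : K) ∧
      IsLocalRing.residue A a = charOf h₁ ⟨x, hx⟩ := by
  rcases hw with hw | hw
  · rw [Place.mem_fiber] at hw
    refine ⟨valHom h₁ ⟨x, hx⟩, evalAt_of_restrict w ?_, rfl⟩
    rw [hw]
    exact evalAt_valHom h₁ ⟨x, hx⟩
  · rw [Place.mem_fiber] at hw
    refine ⟨valHom h₂ ⟨x, hx⟩, evalAt_of_restrict w ?_, ?_⟩
    · rw [hw]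
      exact evalAt_valHom h₂ ⟨x, hx⟩
    · rw [heq]
      rfl

variable (A) [Infinite (IsLocalRing.ResidueField A)]

/-- **(TRANSFER), integral coordinate**: `x'` integral over `A[x]`. -/
theorem transfer_of_isIntegralElem (hdeg' : ∀ w : Place K F', w.deg = 1)
    (x : F) (R : Subring F) (hR : ∀ y, (chartHom A.toSubring x).IsIntegralElem y → y ∈ R)
    (x' : F') (hx' : (chartHom A.toSubring (algebraMap F F' x)).IsIntegralElem x')
    (R' : Subring F') (hR' : ∀ y, y ∈ R' ↔ (chartHom A.toSubring x').IsIntegralElem y)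
    (v₁ v₂ : Place K F) (hval₁ : NormSpecAt F' v₁) (hval₂ : NormSpecAt F' v₂)
    (h₁ : IsFin A R v₁) (h₂ : IsFin A R v₂) (heq : charOf h₁ = charOf h₂) :
    TransferAt A R' v₁ v₂ := by
  intro χ₀
  have hxR : x ∈ R := hR x (self_mem_chartRing A.toSubring x)
  have hfin : ∀ w : Place K F', (w ∈ v₁.fiber F' ∨ w ∈ v₂.fiber F') → IsFin A R' w := by
    intro w hw
    obtain ⟨a, ha, -⟩ := exists_evalAt_above h₁ h₂ heq hxR w hw
    obtain ⟨b, hb⟩ := exists_evalAt_of_isIntegralElem A w (hdeg' w) a.2 ha hx'
    exact isFin_of_evalAt A w (hdeg' w) b hb R' fun y hy => (hR' y).mp hy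
  refine transfer_engine A R R'
    (fun a => (hR' _).mpr (const_mem_chartRing A.toSubring x' a)) v₁ v₂ hval₁ hval₂ h₁ h₂ heq
    (fun y' hy' => ⟨y', ?_, fun w hw => ?_⟩) χ₀
  · exact hR _ (norm_mem_chartRing A.toSubring x
      (chartRing_le_of_isIntegralElem A.toSubring hx' ((hR' y').mp hy')))
  · obtain ⟨c, hc⟩ := IsFin.exists_evalAt (hfin w hw) hy'
    exact ⟨c, hc, fun _ d hd => by rw [residue_eq_of_evalAt hc hd],
      fun hnot => absurd (hfin w hw) hnot⟩

/-- **(TRANSFER), inverse coordinate**: the chart of `x⁻¹`. -/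
theorem transfer_of_inv (hdeg' : ∀ w : Place K F', w.deg = 1)
    (x : F) (hx0 : x ≠ 0) (R : Subring F)
    (hR : ∀ y, (chartHom A.toSubring x).IsIntegralElem y → y ∈ R)
    (R' : Subring F')
    (hR' : ∀ y, y ∈ R' ↔ (chartHom A.toSubring (algebraMap F F' x)⁻¹).IsIntegralElem y)
    (v₁ v₂ : Place K F) (hval₁ : NormSpecAt F' v₁) (hval₂ : NormSpecAt F' v₂)
    (h₁ : IsFin A R v₁) (h₂ : IsFin A R v₂) (heq : charOf h₁ = charOf h₂) :
    TransferAt A R' v₁ v₂ := by
  intro χ₀
  have hxR : x ∈ R := hR x (self_mem_chartRing A.toSubring x)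
  set x' : F' := algebraMap F F' x with hx'def
  have hx'0 : x' ≠ 0 := (_root_.map_ne_zero _).mpr hx0
  have hx'R' : x'⁻¹ ∈ R' := (hR' _).mpr (self_mem_chartRing A.toSubring _)
  have habove := exists_evalAt_above (F' := F') h₁ h₂ heq hxR
  by_cases h0 : charOf h₁ ⟨x, hxR⟩ = 0
  · -- no place above is finite on `R'`
    have hno : ∀ w : Place K F', (w ∈ v₁.fiber F' ∨ w ∈ v₂.fiber F') → ¬ IsFin A R' w := by
      intro w hw hfin
      obtain ⟨a, ha, hares⟩ := habove w hw
      obtain ⟨c, hc⟩ := IsFin.exists_evalAt hfin hx'R'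
      have h1 : EvalAt w (x'⁻¹ * x') ((c : K) * (a : K)) := hc.mul ha
      rw [inv_mul_cancel₀ hx'0] at h1
      have h2 : (c : K) * (a : K) = 1 := h1.unique (evalAt_one w)
      have h3 : c * a = 1 := Subtype.ext (by simpa using h2)
      have h4 := congrArg (IsLocalRing.residue A) h3
      rw [map_mul, hares, h0, mul_zero, map_one] at h4
      exact zero_ne_one h4
    refine ⟨∅, ∅, fun w => ?_, fun w => ?_, rfl⟩
    · exact ⟨fun h => absurd h (Finset.notMem_empty w),
        fun ⟨hw, h, _⟩ => absurd h (hno w (Or.inl hw))⟩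
    · exact ⟨fun h => absurd h (Finset.notMem_empty w),
        fun ⟨hw, h, _⟩ => absurd h (hno w (Or.inr hw))⟩
  · -- all places above are finite on `R'`
    have ha₁res : IsLocalRing.residue A (valHom h₁ ⟨x, hxR⟩) ≠ 0 := h0
    obtain ⟨b₁, hb₁, hab₁⟩ := inv_mem_of_residue_ne_zero ha₁res
    have hfin : ∀ w : Place K F', (w ∈ v₁.fiber F' ∨ w ∈ v₂.fiber F') → IsFin A R' w := by
      intro w hw
      obtain ⟨a, ha, hares⟩ := habove w hw
      have hares' : IsLocalRing.residue A a ≠ 0 := by rw [hares]; exact h0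
      obtain ⟨b, hb, -⟩ := inv_mem_of_residue_ne_zero hares'
      have hinv := ha.inv (ne_zero_of_residue_ne_zero hares')
      rw [← hb] at hinv
      exact isFin_of_evalAt A w (hdeg' w) b hinv R' fun y hy => (hR' y).mp hy
    refine transfer_engine A R R'
      (fun a => (hR' _).mpr (const_mem_chartRing A.toSubring _ a)) v₁ v₂ hval₁ hval₂ h₁ h₂ heq
      (fun y' hy' => ?_) χ₀
    obtain ⟨D, hD⟩ := exists_pow_mul_mem_chartRing_inv A.toSubring hx'0 ((hR' y').mp hy')
    refine ⟨algebraMap K F' (b₁ : K) ^ D * (x' ^ D * y'), ?_, fun w hw => ?_⟩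
    · refine hR _ (norm_mem_chartRing A.toSubring x ?_)
      exact (chartRing A.toSubring x').mul_mem
        ((chartRing A.toSubring x').pow_mem (const_mem_chartRing A.toSubring x' b₁) D) hD
    · obtain ⟨a, ha, hares⟩ := habove w hw
      obtain ⟨e, he⟩ := IsFin.exists_evalAt (hfin w hw) hy'
      refine ⟨b₁ ^ D * (a ^ D * e), ?_, fun _ d hd => ?_, fun hnot => absurd (hfin w hw) hnot⟩
      · have := ((evalAt_algebraMap w (b₁ : K)).pow D).mul ((ha.pow D).mul he)
        simpa using this
      · have hba : IsLocalRing.residue A b₁ * charOf h₁ ⟨x, hxR⟩ = 1 := by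
          rw [charOf_apply, ← map_mul, mul_comm, hab₁, map_one]
        rw [residue_eq_of_evalAt hd he, map_mul, map_mul, map_pow, map_pow, hares, ← mul_assoc,
          ← mul_pow, hba, one_pow, one_mul]

/-- **(TRANSFER), Möbius coordinate**: `x' * (1 - z) = u * z` with `z` integral over `A[s]`,
at a pair of places where `s` has residue value `0`. -/
theorem transfer_of_moebius (hdeg' : ∀ w : Place K F', w.deg = 1)
    (s : F) (R : Subring F) (hR : ∀ y, (chartHom A.toSubring s).IsIntegralElem y → y ∈ R)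
    (z x' : F') (u : A) (hu : IsLocalRing.residue A u ≠ 0)
    (hxz : x' * (1 - z) = algebraMap K F' (u : K) * z)
    (hz : (chartHom A.toSubring (algebraMap F F' s)).IsIntegralElem z)
    (g : F') (hg : (chartHom A.toSubring (algebraMap F F' s)).IsIntegralElem g) (m m' : ℕ)
    (hz01 : z ^ m * (1 - z) ^ m' = g * algebraMap F F' s)
    (R' : Subring F') (hR' : ∀ y, y ∈ R' ↔ (chartHom A.toSubring x').IsIntegralElem y)
    (v₁ v₂ : Place K F) (hval₁ : NormSpecAt F' v₁) (hval₂ : NormSpecAt F' v₂)
    (h₁ : IsFin A R v₁) (h₂ : IsFin A R v₂) (heq : charOf h₁ = charOf h₂)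
    (hs0 : charOf h₁ ⟨s, hR s (self_mem_chartRing A.toSubring s)⟩ = 0) :
    TransferAt A R' v₁ v₂ := by
  intro χ₀
  have hsR : s ∈ R := hR s (self_mem_chartRing A.toSubring s)
  set s' : F' := algebraMap F F' s with hs'
  have habove := exists_evalAt_above (F' := F') h₁ h₂ heq hsR
  -- the value of `z` above has residue `0` or `1`
  have hzval : ∀ w : Place K F', (w ∈ v₁.fiber F' ∨ w ∈ v₂.fiber F') →
      ∃ d : A, EvalAt w z (d : K) ∧
        (IsLocalRing.residue A d = 0 ∨ IsLocalRing.residue A d = 1) := by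
    intro w hw
    obtain ⟨σ, hσ, hσres⟩ := habove w hw
    obtain ⟨d, hd⟩ := exists_evalAt_of_isIntegralElem A w (hdeg' w) σ.2 hσ hz
    obtain ⟨γ, hγ⟩ := exists_evalAt_of_isIntegralElem A w (hdeg' w) σ.2 hσ hg
    refine ⟨d, hd, ?_⟩
    have e1 : EvalAt w (z ^ m * (1 - z) ^ m') ((d : K) ^ m * (1 - (d : K)) ^ m') :=
      (hd.pow m).mul (((evalAt_one w).sub hd).pow m')
    rw [hz01] at e1
    have e2 : (d : K) ^ m * (1 - (d : K)) ^ m' = (γ : K) * (σ : K) := e1.unique (hγ.mul hσ)
    have e3 : d ^ m * (1 - d) ^ m' = γ * σ := Subtype.ext (by simpa using e2)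
    have e4 := congrArg (IsLocalRing.residue A) e3
    rw [map_mul, map_mul, map_pow, map_pow, map_sub, map_one, hσres, hs0, mul_zero] at e4
    rcases mul_eq_zero.mp e4 with h | h
    · left; exact eq_zero_of_pow_eq_zero h
    · right
      have := eq_zero_of_pow_eq_zero h
      exact (sub_eq_zero.mp this).symm
  -- residue `0` : finite on `R'`
  have hfinA : ∀ (w : Place K F') (d : A), EvalAt w z (d : K) →
      IsLocalRing.residue A d = 0 → IsFin A R' w := by
    intro w d hd hd0
    have h1d : IsLocalRing.residue A (1 - d) ≠ 0 := by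
      rw [map_sub, map_one, hd0, sub_zero]; exact one_ne_zero
    obtain ⟨b, hb, -⟩ := inv_mem_of_residue_ne_zero h1d
    have e1 : EvalAt w (1 - z) ((1 - d : A) : K) := by
      simpa using (evalAt_one w).sub hd
    have hne : ((1 - d : A) : K) ≠ 0 := ne_zero_of_residue_ne_zero h1d
    have e2 := e1.inv hne
    rw [← hb] at e2
    have hz1 : (1 - z) ≠ 0 := by
      intro h
      rw [h] at e1
      exact hne (e1.unique (evalAt_zero w))
    have hx' : x' = algebraMap K F' (u : K) * z * (1 - z)⁻¹ := by
      rw [← hxz, mul_assoc, mul_inv_cancel₀ hz1, mul_one]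
    have e3 : EvalAt w x' ((u * d * b : A) : K) := by
      rw [hx']
      simpa using ((evalAt_algebraMap w (u : K)).mul hd).mul e2
    exact isFin_of_evalAt A w (hdeg' w) (u * d * b) e3 R' fun y hy => (hR' y).mp hy
  -- residue `1` : not finite on `R'`
  have hfinB : ∀ (w : Place K F') (d : A), EvalAt w z (d : K) →
      IsLocalRing.residue A d = 1 → ¬ IsFin A R' w := by
    intro w d hd hd1 hfin
    obtain ⟨c, hc⟩ := IsFin.exists_evalAt hfin ((hR' x').mpr (self_mem_chartRing A.toSubring x'))
    have e1 : EvalAt w (x' * (1 - z)) ((c : K) * (1 - (d : K))) :=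
      hc.mul ((evalAt_one w).sub hd)
    rw [hxz] at e1
    have e2 : (c : K) * (1 - (d : K)) = (u : K) * (d : K) :=
      e1.unique ((evalAt_algebraMap w (u : K)).mul hd)
    have e3 : c * (1 - d) = u * d := Subtype.ext (by simpa using e2)
    have e4 := congrArg (IsLocalRing.residue A) e3
    rw [map_mul, map_mul, map_sub, map_one, hd1, sub_self, mul_zero, mul_one] at e4
    exact hu e4.symm
  refine transfer_engine A R R'
    (fun a => (hR' _).mpr (const_mem_chartRing A.toSubring x' a)) v₁ v₂ hval₁ hval₂ h₁ h₂ heq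
    (fun y' hy' => ?_) χ₀
  obtain ⟨D, hD⟩ := exists_pow_mul_mem_chartRing A.toSubring u hxz ((hR' y').mp hy')
  have hq : (1 - z) ^ D * y' ∈ chartRing A.toSubring s' :=
    chartRing_le_of_isIntegralElem A.toSubring hz hD
  have hzc : z ∈ chartRing A.toSubring s' := hz
  refine ⟨z + (1 - z) * ((1 - z) ^ D * y'), ?_, fun w hw => ?_⟩
  · refine hR _ (norm_mem_chartRing A.toSubring s ?_)
    exact add_mem hzc (mul_mem (sub_mem (one_mem _) hzc) hq)
  · obtain ⟨σ, hσ, hσres⟩ := habove w hw
    obtain ⟨d, hd, hd01⟩ := hzval w hw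
    obtain ⟨ρ, hρ⟩ := exists_evalAt_of_isIntegralElem A w (hdeg' w) σ.2 hσ hq
    refine ⟨d + (1 - d) * ρ, ?_, fun hfin e he => ?_, fun hnot => ?_⟩
    · simpa using hd.add (((evalAt_one w).sub hd).mul hρ)
    · have hd0 : IsLocalRing.residue A d = 0 := by
        rcases hd01 with h | h
        · exact h
        · exact absurd hfin (hfinB w d hd h)
      have hρe : ρ = (1 - d) ^ D * e := by
        apply Subtype.ext
        have := hρ.unique ((((evalAt_one w).sub hd).pow D).mul he)
        simpa using this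
      rw [hρe]
      simp only [map_add, map_mul, map_sub, map_one, map_pow, hd0]
      ring
    · have hd1 : IsLocalRing.residue A d = 1 := by
        rcases hd01 with h | h
        · exact absurd (hfinA w d hd h) hnot
        · exact h
      simp only [map_add, map_mul, map_sub, map_one, hd1]
      ring

end Transfer

end Fermat.Agent.S37.H87
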