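/-
S37, node (SUM) (helper53): from the counting form of (TRANSFER) (`H87.TransferAt`: one identity
per residue character of the upper chart) to the fibre-mass equality `hR` consumed by
`SumOrd_helper53` / `SumModel2_helper53`.

`fiberMass_eq_of_transferAt` : for any predicate `q` on the characters of the chart `R'`
(e.g. "the kernel of the character restricted to the `K0`-chart is `n`") and any predicate `p`
on the places of `F'` with `p w ↔ w` is `R'`-finite and its character satisfies `q`:
`TransferAt A R' v₁ v₂ → fiberMass F' p v₁ = fiberMass F' p v₂`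
(the sum of the identities of `TransferAt` over the finitely many characters occurring in the
two fibres).
-/
import Mathlib
import Fermat.Agent.S37.TransferFn_helper87
import Fermat.Agent.S37.SumOrd_helper53

set_option autoImplicit false

namespace Fermat.Agent.S37.H53

open AlgebraicCurve Fermat.Agent.S37.H34 Fermat.Agent.S37.H87

section

variable {K : Type*} [Field K] (A : ValuationSubring K)
  {F F' : Type*} [Field F] [Field F'] [Algebra K F] [Algebra K F'] [Algebra F F']
  [IsScalarTower K F F'] [Algebra.IsIntegral F F'] [HasPrincipalDivisors K F']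

open Classical in
/-- the residue character of a place on the chart `R'`, `none` if the place is not
`R'`-finite. -/
noncomputable def charOpt (R' : Subring F') (w : Place K F') :
    Option (R' →+* IsLocalRing.ResidueField A) :=
  if h : IsFin A R' w then some (charOf h) else none

omit [HasPrincipalDivisors K F'] in
theorem charOpt_eq_some_iff (R' : Subring F') (w : Place K F')
    (χ₀ : R' →+* IsLocalRing.ResidueField A) :
    charOpt A R' w = some χ₀ ↔ ∃ h : IsFin A R' w, charOf h = χ₀ := by
  unfold charOpt
  constructor
  · intro h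
    split_ifs at h with hfin
    exact ⟨hfin, Option.some.inj h⟩
  · rintro ⟨hfin, rfl⟩
    rw [dif_pos hfin]

/-- **(TRANSFER) ⇒ `hR`.** The per-character identities of `TransferAt` sum to the equality of
the fibre masses for every predicate `p` of the form "`R'`-finite with character in `q`". -/
theorem fiberMass_eq_of_transferAt (R' : Subring F') (v₁ v₂ : Place K F)
    (h : TransferAt A R' v₁ v₂)
    (q : (R' →+* IsLocalRing.ResidueField A) → Prop)
    (p : Place K F' → Prop) [DecidablePred p]
    (hp : ∀ w, p w ↔ ∃ hfin : IsFin A R' w, q (charOf hfin)) :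
    fiberMass F' p v₁ = fiberMass F' p v₂ := by
  classical
  set c : Place K F' → Option (R' →+* IsLocalRing.ResidueField A) := charOpt A R' with hc
  let X : Finset (Option (R' →+* IsLocalRing.ResidueField A)) :=
    (v₁.fiber F' ∪ v₂.fiber F').image c
  have hsplit : ∀ v : Place K F, v.fiber F' ⊆ v₁.fiber F' ∪ v₂.fiber F' →
      fiberMass F' p v = ∑ x ∈ X, ∑ w ∈ ((v.fiber F').filter p).filter (fun w => c w = x),
        (w.ramificationIndex F : ℤ) := by
    intro v hv
    unfold fiberMass
    refine (Finset.sum_fiberwise_of_maps_to (fun w hw => ?_) _).symm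
    exact Finset.mem_image_of_mem c (hv (Finset.mem_filter.mp hw).1)
  rw [hsplit v₁ Finset.subset_union_left, hsplit v₂ Finset.subset_union_right]
  refine Finset.sum_congr rfl fun x _ => ?_
  -- a place in `p` has a character
  have hpc : ∀ w, p w → ∀ χ₀, c w = some χ₀ → q χ₀ := by
    intro w hw χ₀ hχ
    obtain ⟨hfin, hq⟩ := (hp w).mp hw
    obtain ⟨hfin', rfl⟩ := (charOpt_eq_some_iff A R' w χ₀).mp hχ
    exact hq
  rcases x with _ | χ₀
  · -- no place of `p` has character `none`
    have hempty : ∀ v : Place K F,
        ((v.fiber F').filter p).filter (fun w => c w = none) = ∅ := by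
      intro v
      refine Finset.filter_eq_empty_iff.mpr fun w hw hcw => ?_
      obtain ⟨hfin, -⟩ := (hp w).mp (Finset.mem_filter.mp hw).2
      rw [hc] at hcw
      unfold charOpt at hcw
      rw [dif_pos hfin] at hcw
      exact Option.some_ne_none _ hcw
    rw [hempty v₁, hempty v₂]
  · by_cases hq : q χ₀
    · obtain ⟨T₁, T₂, hT₁, hT₂, hsum⟩ := h χ₀
      have hfil : ∀ (v : Place K F) (T : Finset (Place K F')),
          (∀ w, w ∈ T ↔ w ∈ v.fiber F' ∧ ∃ h : IsFin A R' w, charOf h = χ₀) →
          ((v.fiber F').filter p).filter (fun w => c w = some χ₀) = T := by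
        intro v T hT
        ext w
        simp only [Finset.mem_filter]
        rw [hT w]
        constructor
        · rintro ⟨⟨hw, -⟩, hcw⟩
          exact ⟨hw, (charOpt_eq_some_iff A R' w χ₀).mp hcw⟩
        · rintro ⟨hw, hfin, hχ⟩
          refine ⟨⟨hw, (hp w).mpr ⟨hfin, ?_⟩⟩, (charOpt_eq_some_iff A R' w χ₀).mpr ⟨hfin, hχ⟩⟩
          rw [hχ]
          exact hq
      rw [hfil v₁ T₁ hT₁, hfil v₂ T₂ hT₂]
      exact_mod_cast hsum
    · have hempty : ∀ v : Place K F,
          ((v.fiber F').filter p).filter (fun w => c w = some χ₀) = ∅ := by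
        intro v
        refine Finset.filter_eq_empty_iff.mpr fun w hw hcw => ?_
        exact hq (hpc w (Finset.mem_filter.mp hw).2 χ₀ hcw)
      rw [hempty v₁, hempty v₂]

/-- **(TRANSFER) ⇒ (SUM)** in one call: if every generator pair satisfies `TransferAt` for the
chart `R'`, `D` lies in the span of the pair differences and `div f = m • D`, then the orders of
`f` at the places of `F'` that are `R'`-finite with character in `q` sum to `0`. -/
theorem sum_ord_eq_zero_of_transferAt (R' : Subring F')
    (R : Place K F → Place K F → Prop)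
    (hR : ∀ P P', R P P' → TransferAt A R' P P')
    (q : (R' →+* IsLocalRing.ResidueField A) → Prop)
    (p : Place K F' → Prop) [DecidablePred p]
    (hp : ∀ w, p w ↔ ∃ hfin : IsFin A R' w, q (charOf hfin))
    {D : Divisor K F}
    (hD : D ∈ AddSubgroup.closure
      {d : Divisor K F | ∃ P P', R P P' ∧ d = Finsupp.single P 1 - Finsupp.single P' 1})
    (m : ℤ) (f : F) (hf : ∀ P : Place K F, P.ord f = m * D P)
    (T : Finset (Place K F')) (hT : ∀ w, p w → w.ord (algebraMap F F' f) ≠ 0 → w ∈ T)
    (hTp : ∀ w ∈ T, p w) :
    ∑ w ∈ T, w.ord (algebraMap F F' f) = 0 :=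
  sum_ord_algebraMap_eq_zero p R
    (fun P P' hPP' => fiberMass_eq_of_transferAt A R' P P' (hR P P' hPP') q p hp) hD m f hf T
    hT hTp

end

end Fermat.Agent.S37.H53
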