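import Mathlib
import Fermat.Agent.S37.TransferFn_helper87

/-!
# S37, node (TRANSFER): the Hauptmodul instances (helper87)

The final form of (TRANSFER) for the three coordinate changes of the route:

* `transfer_self`  : upstairs coordinate `ξ = j` (any level above `N`; the case `ℓ ≥ 5`);
* `transfer_two`   : upstairs coordinate `t` with `j * t ^ 2 = (t + 256) ^ 3` (`2` a unit of `A`);
* `transfer_three` : upstairs coordinate `t` with `j * t ^ 3 = (t + 27) * (t + 243) ^ 3`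
  (`3` a unit of `A`).

In each case: if two places `v₁ v₂` downstairs have the same residue character on the chart of
`j` or on the chart of `j⁻¹` (`SamePair`), then `TransferAt` holds for both charts (of `ξ` and
of `ξ⁻¹`) upstairs.  The relation between `j` and `t` is a hypothesis, so that any presentation
of the level structure plugs in.
-/

set_option autoImplicit false

noncomputable section

open AlgebraicCurve Polynomial
open Fermat.Agent.S37.H34

namespace Fermat.Agent.S37.H87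

section Poly

variable {R E : Type*} [CommRing R] [Field E]

theorem isIntegralElem_cubic (f : R →+* E) {y : E} (a b c : R)
    (h : y ^ 3 + (f a * y ^ 2 + f b * y + f c) = 0) : f.IsIntegralElem y := by
  refine ⟨X ^ 3 + (C a * X ^ 2 + C b * X + C c),
    Polynomial.monic_X_pow_add (lt_of_le_of_lt Polynomial.degree_quadratic_le (by decide)), ?_⟩
  simpa [Polynomial.eval₂_add, Polynomial.eval₂_mul, Polynomial.eval₂_pow] using h

theorem isIntegralElem_quartic (f : R →+* E) {y : E} (a b c d : R)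
    (h : y ^ 4 + (f a * y ^ 3 + f b * y ^ 2 + f c * y + f d) = 0) : f.IsIntegralElem y := by
  refine ⟨X ^ 4 + (C a * X ^ 3 + C b * X ^ 2 + C c * X + C d),
    Polynomial.monic_X_pow_add (lt_of_le_of_lt Polynomial.degree_cubic_le (by decide)), ?_⟩
  simpa [Polynomial.eval₂_add, Polynomial.eval₂_mul, Polynomial.eval₂_pow] using h

end Poly

section Rel

variable {K : Type*} [Field K] (A : Subring K) {E : Type*} [Field E] [Algebra K E]

/-! ### level two: `j * t ^ 2 = (t + 256) ^ 3` -/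

theorem haupt2_isIntegralElem {j t : E} (hrel : j * t ^ 2 = (t + 256) ^ 3) :
    (chartHom A j).IsIntegralElem t := by
  refine isIntegralElem_cubic (chartHom A j) (C ((768 : ℕ) : A) - X) (C ((196608 : ℕ) : A))
    (C ((16777216 : ℕ) : A)) ?_
  simp only [map_sub, chartHom_X, map_natCast]
  push_cast
  linear_combination -hrel

theorem algebraMap_mul_two {c : A} (hc : (c : K) * 2 = 1) : algebraMap K E (c : K) * 2 = 1 := by
  have := congrArg (algebraMap K E) hc
  rw [map_mul, map_one, map_ofNat] at this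
  exact this

theorem algebraMap_mul_three {c : A} (hc : (c : K) * 3 = 1) :
    algebraMap K E (c : K) * 3 = 1 := by
  have := congrArg (algebraMap K E) hc
  rw [map_mul, map_one, map_ofNat] at this
  exact this

theorem haupt2_inv_isIntegralElem {j t : E} (hrel : j * t ^ 2 = (t + 256) ^ 3) (ht : t ≠ 0)
    (c : A) (hc : (c : K) * 2 = 1) : (chartHom A j).IsIntegralElem t⁻¹ := by
  have hγ : algebraMap K E (c : K) * 2 = 1 := algebraMap_mul_two A hc
  have h2 : (2 : E) ≠ 0 := right_ne_zero_of_mul_eq_one hγ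
  have hγ' : algebraMap K E (c : K) = 2⁻¹ := eq_inv_of_mul_eq_one_left hγ
  refine isIntegralElem_cubic (chartHom A j) (C (((3 : ℕ) : A) * c ^ 8))
    (C (c ^ 24) * (C ((768 : ℕ) : A) - X)) (C (c ^ 24)) ?_
  simp only [map_sub, map_mul, chartHom_C, chartHom_X, map_natCast, map_pow, hγ']
  push_cast
  field_simp
  linear_combination -hrel

theorem haupt2_add_ne_zero {j t : E} (hrel : j * t ^ 2 = (t + 256) ^ 3) (hj : j ≠ 0)
    (ht : t ≠ 0) : t + 256 ≠ 0 := by
  intro h
  rw [h] at hrel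
  have h0 : j * t ^ 2 = 0 := by rw [hrel]; ring
  rcases mul_eq_zero.mp h0 with h1 | h1
  · exact hj h1
  · exact ht (eq_zero_of_pow_eq_zero h1)

theorem haupt2_z_isIntegralElem {j t : E} (hrel : j * t ^ 2 = (t + 256) ^ 3) (hj : j ≠ 0)
    (ht : t ≠ 0) : (chartHom A j⁻¹).IsIntegralElem (t / (t + 256)) := by
  have h1 := haupt2_add_ne_zero hrel hj ht
  refine isIntegralElem_cubic (chartHom A j⁻¹) (C (-1)) 0 (C ((256 : ℕ) : A) * X) ?_
  simp only [map_mul, map_neg, map_one, map_zero, chartHom_X, map_natCast]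
  push_cast
  field_simp
  linear_combination (-256 : E) * hrel

theorem haupt2_moebius {t : E} (h1 : t + 256 ≠ 0) :
    t * (1 - t / (t + 256)) = 256 * (t / (t + 256)) := by
  field_simp
  ring

theorem haupt2_z01 {j t : E} (hrel : j * t ^ 2 = (t + 256) ^ 3) (hj : j ≠ 0) (ht : t ≠ 0) :
    (t / (t + 256)) ^ 2 * (1 - t / (t + 256)) ^ 1 = 256 * j⁻¹ := by
  have h1 := haupt2_add_ne_zero hrel hj ht
  field_simp
  linear_combination (256 : E) * hrel

/-! ### level three: `j * t ^ 3 = (t + 27) * (t + 243) ^ 3` -/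

theorem haupt3_isIntegralElem {j t : E} (hrel : j * t ^ 3 = (t + 27) * (t + 243) ^ 3) :
    (chartHom A j).IsIntegralElem t := by
  refine isIntegralElem_quartic (chartHom A j) (C ((756 : ℕ) : A) - X) (C ((196830 : ℕ) : A))
    (C ((19131876 : ℕ) : A)) (C ((387420489 : ℕ) : A)) ?_
  simp only [map_sub, chartHom_X, map_natCast]
  push_cast
  linear_combination -hrel

theorem haupt3_inv_isIntegralElem {j t : E} (hrel : j * t ^ 3 = (t + 27) * (t + 243) ^ 3)
    (ht : t ≠ 0) (c : A) (hc : (c : K) * 3 = 1) : (chartHom A j).IsIntegralElem t⁻¹ := by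
  have hγ : algebraMap K E (c : K) * 3 = 1 := algebraMap_mul_three A hc
  have h3 : (3 : E) ≠ 0 := right_ne_zero_of_mul_eq_one hγ
  have hγ' : algebraMap K E (c : K) = 3⁻¹ := eq_inv_of_mul_eq_one_left hγ
  refine isIntegralElem_quartic (chartHom A j) (C (((19131876 : ℕ) : A) * c ^ 18))
    (C (((196830 : ℕ) : A) * c ^ 18)) (C (c ^ 18) * (C ((756 : ℕ) : A) - X)) (C (c ^ 18)) ?_
  simp only [map_sub, map_mul, chartHom_C, chartHom_X, map_natCast, map_pow, hγ']
  push_cast
  field_simp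
  linear_combination -hrel

theorem haupt3_add_ne_zero {j t : E} (hrel : j * t ^ 3 = (t + 27) * (t + 243) ^ 3) (hj : j ≠ 0)
    (ht : t ≠ 0) : t + 243 ≠ 0 := by
  intro h
  rw [h] at hrel
  have h0 : j * t ^ 3 = 0 := by rw [hrel]; ring
  rcases mul_eq_zero.mp h0 with h1 | h1
  · exact hj h1
  · exact ht (eq_zero_of_pow_eq_zero h1)

theorem haupt3_z_isIntegralElem {j t : E} (hrel : j * t ^ 3 = (t + 27) * (t + 243) ^ 3)
    (hj : j ≠ 0) (ht : t ≠ 0) : (chartHom A j⁻¹).IsIntegralElem (t / (t + 243)) := by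
  have h1 := haupt3_add_ne_zero hrel hj ht
  refine isIntegralElem_quartic (chartHom A j⁻¹) (C (-1)) 0 (C ((216 : ℕ) : A) * X)
    (C ((27 : ℕ) : A) * X) ?_
  simp only [map_mul, map_neg, map_one, map_zero, chartHom_X, map_natCast]
  push_cast
  field_simp
  linear_combination (-243 : E) * hrel

theorem haupt3_moebius {t : E} (h1 : t + 243 ≠ 0) :
    t * (1 - t / (t + 243)) = 243 * (t / (t + 243)) := by
  field_simp
  ring

theorem haupt3_z01 {j t : E} (hrel : j * t ^ 3 = (t + 27) * (t + 243) ^ 3) (hj : j ≠ 0)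
    (ht : t ≠ 0) :
    (t / (t + 243)) ^ 3 * (1 - t / (t + 243)) ^ 1 = (216 * (t / (t + 243)) + 27) * j⁻¹ := by
  have h1 := haupt3_add_ne_zero hrel hj ht
  field_simp
  linear_combination (243 : E) * hrel

end Rel

section Pair

variable {K : Type*} [Field K] (A : ValuationSubring K) {E : Type*} [Field E] [Algebra K E]

/-- two places are finite on the chart `R` with the same residue character. -/
def SamePair (R : Subring E) (v₁ v₂ : Place K E) : Prop :=
  ∃ (h₁ : IsFin A R v₁) (h₂ : IsFin A R v₂), charOf h₁ = charOf h₂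

variable {A}

/-- the relational form of `SamePair`. -/
theorem samePair_iff {R : Subring E} {v₁ v₂ : Place K E} :
    SamePair A R v₁ v₂ ↔ ∀ y ∈ R, ∃ c c' : K, c ∈ A ∧ c' ∈ A ∧ EvalAt v₁ y c ∧ EvalAt v₂ y c' ∧
      c - c' ∈ A.nonunits := by
  constructor
  · rintro ⟨h₁, h₂, heq⟩ y hy
    refine ⟨valHom h₁ ⟨y, hy⟩, valHom h₂ ⟨y, hy⟩, (valHom h₁ ⟨y, hy⟩).2, (valHom h₂ ⟨y, hy⟩).2,
      evalAt_valHom h₁ ⟨y, hy⟩, evalAt_valHom h₂ ⟨y, hy⟩, ?_⟩
    exact (charOf_eq_iff h₁ h₂).mp heq y hy _ _ (evalAt_valHom h₁ ⟨y, hy⟩)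
      (evalAt_valHom h₂ ⟨y, hy⟩)
  · intro h
    have h₁ : IsFin A R v₁ := fun y hy => by
      obtain ⟨c, c', hc, hc', e, e', -⟩ := h y hy
      exact ⟨c, hc, e⟩
    have h₂ : IsFin A R v₂ := fun y hy => by
      obtain ⟨c, c', hc, hc', e, e', -⟩ := h y hy
      exact ⟨c', hc', e'⟩
    refine ⟨h₁, h₂, (charOf_eq_iff h₁ h₂).mpr fun y hy d d' hd hd' => ?_⟩
    obtain ⟨c, c', hc, hc', e, e', hcc⟩ := h y hy
    rw [hd.unique e, hd'.unique e']
    exact hcc

theorem SamePair.symm {R : Subring E} {v₁ v₂ : Place K E} (h : SamePair A R v₁ v₂) :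
    SamePair A R v₂ v₁ := by
  obtain ⟨h₁, h₂, heq⟩ := h
  exact ⟨h₂, h₁, heq.symm⟩

variable (A)

/-- **overlap**: two places with the same residue character on the chart of `x`, at which `x`
has a unit value, have the same residue character on the chart of `x⁻¹`. -/
theorem samePair_inv (hdeg : ∀ v : Place K E, v.deg = 1) (x : E) (hx0 : x ≠ 0)
    (R R₂ : Subring E) (hR : ∀ y, (chartHom A.toSubring x).IsIntegralElem y → y ∈ R)
    (hR₂ : ∀ y ∈ R₂, (chartHom A.toSubring x⁻¹).IsIntegralElem y) {v₁ v₂ : Place K E}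
    (h₁ : IsFin A R v₁) (h₂ : IsFin A R v₂) (heq : charOf h₁ = charOf h₂)
    (hx : charOf h₁ ⟨x, hR x (self_mem_chartRing A.toSubring x)⟩ ≠ 0) :
    SamePair A R₂ v₁ v₂ := by
  have hxR : x ∈ R := hR x (self_mem_chartRing A.toSubring x)
  have hx' : charOf h₂ ⟨x, hxR⟩ ≠ 0 := by rw [← heq]; exact hx
  have hfin : ∀ (v : Place K E) (h : IsFin A R v), charOf h ⟨x, hxR⟩ ≠ 0 → IsFin A R₂ v := by
    intro v h hne
    have ha : IsLocalRing.residue A (valHom h ⟨x, hxR⟩) ≠ 0 := hne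
    obtain ⟨b, hb, -⟩ := inv_mem_of_residue_ne_zero ha
    have e := (evalAt_valHom h ⟨x, hxR⟩).inv (ne_zero_of_residue_ne_zero ha)
    rw [← hb] at e
    exact isFin_of_evalAt A v (hdeg v) b e R₂ hR₂
  have hfin₁ := hfin v₁ h₁ hx
  have hfin₂ := hfin v₂ h₂ hx'
  refine ⟨hfin₁, hfin₂, ?_⟩
  ext y
  obtain ⟨D, hD⟩ := exists_pow_mul_mem_chartRing_inv A.toSubring hx0 (hR₂ y y.2)
  have hDR : x ^ D * (y : E) ∈ R := hR _ hD
  have key : ∀ (v : Place K E) (h : IsFin A R v) (h' : IsFin A R₂ v),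
      charOf h ⟨x ^ D * (y : E), hDR⟩ = charOf h ⟨x, hxR⟩ ^ D * charOf h' y := by
    intro v h h'
    have e : EvalAt v (x ^ D * (y : E))
        ((valHom h ⟨x, hxR⟩ : K) ^ D * (valHom h' y : K)) :=
      ((evalAt_valHom h ⟨x, hxR⟩).pow D).mul (evalAt_valHom h' y)
    have hmem : (valHom h ⟨x, hxR⟩ : K) ^ D * (valHom h' y : K) ∈ A :=
      (valHom h ⟨x, hxR⟩ ^ D * valHom h' y).2
    rw [charOf_eq_of_evalAt h ⟨x ^ D * (y : E), hDR⟩ e hmem, charOf_apply, charOf_apply,
      ← map_pow, ← map_mul]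
    rfl
  have h3 : charOf h₁ ⟨x ^ D * (y : E), hDR⟩ = charOf h₂ ⟨x ^ D * (y : E), hDR⟩ := by rw [heq]
  rw [key v₁ h₁ hfin₁, key v₂ h₂ hfin₂, ← heq] at h3
  exact mul_left_cancel₀ (pow_ne_zero D hx) h3

end Pair

section Final

variable {K : Type*} [Field K] (A : ValuationSubring K) [Infinite (IsLocalRing.ResidueField A)]
  {F F' : Type*} [Field F] [Field F'] [Algebra K F] [Algebra K F'] [Algebra F F']
  [IsScalarTower K F F'] [Algebra.IsIntegral F F'] [HasPrincipalDivisors K F']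

/-- **(TRANSFER), upstairs coordinate `ξ = j`** (any extension `F'` of `F`). -/
theorem transfer_self (hdeg' : ∀ w : Place K F', w.deg = 1)
    (hval : ∀ v : Place K F, NormSpecAt F' v) (j : F) (hj : j ≠ 0) (B Boo : Subring F)
    (hB : ∀ y, y ∈ B ↔ (chartHom A.toSubring j).IsIntegralElem y)
    (hBoo : ∀ y, y ∈ Boo ↔ (chartHom A.toSubring j⁻¹).IsIntegralElem y)
    (BU BV : Subring F')
    (hBU : ∀ y, y ∈ BU ↔ (chartHom A.toSubring (algebraMap F F' j)).IsIntegralElem y)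
    (hBV : ∀ y, y ∈ BV ↔ (chartHom A.toSubring (algebraMap F F' j)⁻¹).IsIntegralElem y)
    (v₁ v₂ : Place K F) (h : SamePair A B v₁ v₂ ∨ SamePair A Boo v₁ v₂) :
    TransferAt A BU v₁ v₂ ∧ TransferAt A BV v₁ v₂ := by
  have hinv : algebraMap F F' j⁻¹ = (algebraMap F F' j)⁻¹ := map_inv₀ _ _
  rcases h with ⟨h₁, h₂, heq⟩ | ⟨h₁, h₂, heq⟩
  · exact ⟨transfer_of_isIntegralElem A hdeg' j B (fun y hy => (hB y).mpr hy) (algebraMap F F' j)
        (self_mem_chartRing A.toSubring _) BU hBU v₁ v₂ (hval v₁) (hval v₂) h₁ h₂ heq,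
      transfer_of_inv A hdeg' j hj B (fun y hy => (hB y).mpr hy) BV hBV v₁ v₂ (hval v₁) (hval v₂)
        h₁ h₂ heq⟩
  · refine ⟨transfer_of_inv A hdeg' j⁻¹ (inv_ne_zero hj) Boo (fun y hy => (hBoo y).mpr hy) BU
        (fun y => ?_) v₁ v₂ (hval v₁) (hval v₂) h₁ h₂ heq,
      transfer_of_isIntegralElem A hdeg' j⁻¹ Boo (fun y hy => (hBoo y).mpr hy)
        (algebraMap F F' j⁻¹) (self_mem_chartRing A.toSubring _) BV (fun y => ?_) v₁ v₂
        (hval v₁) (hval v₂) h₁ h₂ heq⟩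
    · rw [hinv, inv_inv]
      exact hBU y
    · rw [hinv]
      exact hBV y

/-- **(TRANSFER), Hauptmodul coordinate, generic form**: `t, t⁻¹` integral over `A[j]`,
`z` integral over `A[j⁻¹]` with `t * (1 - z) = u * z`, `u` a unit of `A`, and
`z ^ m * (1 - z) ^ m' = g * j⁻¹`. -/
theorem transfer_haupt (hdeg : ∀ v : Place K F, v.deg = 1) (hdeg' : ∀ w : Place K F', w.deg = 1)
    (hval : ∀ v : Place K F, NormSpecAt F' v) (j : F) (hj : j ≠ 0) (B Boo : Subring F)
    (hB : ∀ y, y ∈ B ↔ (chartHom A.toSubring j).IsIntegralElem y)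
    (hBoo : ∀ y, y ∈ Boo ↔ (chartHom A.toSubring j⁻¹).IsIntegralElem y)
    (t : F') (ht : t ≠ 0)
    (ht_int : (chartHom A.toSubring (algebraMap F F' j)).IsIntegralElem t)
    (hti_int : (chartHom A.toSubring (algebraMap F F' j)).IsIntegralElem t⁻¹)
    (z : F') (u u' : A) (huu' : u * u' = 1)
    (hxz : t * (1 - z) = algebraMap K F' (u : K) * z)
    (hz : (chartHom A.toSubring (algebraMap F F' j⁻¹)).IsIntegralElem z)
    (g : F') (hg : (chartHom A.toSubring (algebraMap F F' j⁻¹)).IsIntegralElem g) (m m' : ℕ)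
    (hz01 : z ^ m * (1 - z) ^ m' = g * algebraMap F F' j⁻¹)
    (BU BV : Subring F') (hBU : ∀ y, y ∈ BU ↔ (chartHom A.toSubring t).IsIntegralElem y)
    (hBV : ∀ y, y ∈ BV ↔ (chartHom A.toSubring t⁻¹).IsIntegralElem y)
    (v₁ v₂ : Place K F) (h : SamePair A B v₁ v₂ ∨ SamePair A Boo v₁ v₂) :
    TransferAt A BU v₁ v₂ ∧ TransferAt A BV v₁ v₂ := by
  have caseB : SamePair A B v₁ v₂ → TransferAt A BU v₁ v₂ ∧ TransferAt A BV v₁ v₂ := by
    rintro ⟨h₁, h₂, heq⟩
    exact ⟨transfer_of_isIntegralElem A hdeg' j B (fun y hy => (hB y).mpr hy) t ht_int BU hBU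
        v₁ v₂ (hval v₁) (hval v₂) h₁ h₂ heq,
      transfer_of_isIntegralElem A hdeg' j B (fun y hy => (hB y).mpr hy) t⁻¹ hti_int BV hBV
        v₁ v₂ (hval v₁) (hval v₂) h₁ h₂ heq⟩
  rcases h with h | ⟨h₁, h₂, heq⟩
  · exact caseB h
  have hsR : j⁻¹ ∈ Boo := (hBoo _).mpr (self_mem_chartRing A.toSubring j⁻¹)
  by_cases hs0 : charOf h₁ ⟨j⁻¹, hsR⟩ = 0
  · have hres : IsLocalRing.residue A u * IsLocalRing.residue A u' = 1 := by
      rw [← map_mul, huu', map_one]
    have hu : IsLocalRing.residue A u ≠ 0 := left_ne_zero_of_mul_eq_one hres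
    have hu' : IsLocalRing.residue A u' ≠ 0 := right_ne_zero_of_mul_eq_one hres
    have huK : algebraMap K F' (u : K) * algebraMap K F' (u' : K) = 1 := by
      rw [← map_mul]
      have : (u : K) * (u' : K) = 1 := by
        have := congrArg (fun a : A => (a : K)) huu'
        simpa using this
      rw [this, map_one]
    have hxz' : t⁻¹ * (1 - (1 - z)) = algebraMap K F' (u' : K) * (1 - z) := by
      have e1 : (1 - z) = t⁻¹ * (algebraMap K F' (u : K) * z) := by
        rw [← hxz, ← mul_assoc, inv_mul_cancel₀ ht, one_mul]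
      have e2 : algebraMap K F' (u' : K) * (1 - z) = t⁻¹ * z := by
        rw [e1]
        calc algebraMap K F' (u' : K) * (t⁻¹ * (algebraMap K F' (u : K) * z))
            = (algebraMap K F' (u : K) * algebraMap K F' (u' : K)) * (t⁻¹ * z) := by ring
          _ = t⁻¹ * z := by rw [huK, one_mul]
      rw [e2]
      ring
    have hz' : (chartHom A.toSubring (algebraMap F F' j⁻¹)).IsIntegralElem (1 - z) :=
      (chartRing A.toSubring (algebraMap F F' j⁻¹)).sub_mem
        (one_mem _) (show z ∈ chartRing A.toSubring (algebraMap F F' j⁻¹) from hz)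
    have hz01' : (1 - z) ^ m' * (1 - (1 - z)) ^ m = g * algebraMap F F' j⁻¹ := by
      rw [← hz01, sub_sub_cancel, mul_comm]
    exact ⟨transfer_of_moebius A hdeg' j⁻¹ Boo (fun y hy => (hBoo y).mpr hy) z t u hu hxz hz g hg
        m m' hz01 BU hBU v₁ v₂ (hval v₁) (hval v₂) h₁ h₂ heq hs0,
      transfer_of_moebius A hdeg' j⁻¹ Boo (fun y hy => (hBoo y).mpr hy) (1 - z) t⁻¹ u' hu' hxz'
        hz' g hg m' m hz01' BV hBV v₁ v₂ (hval v₁) (hval v₂) h₁ h₂ heq hs0⟩
  · exact caseB (samePair_inv A hdeg j⁻¹ (inv_ne_zero hj) Boo B (fun y hy => (hBoo y).mpr hy)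
      (fun y hy => by rw [inv_inv]; exact (hB y).mp hy) h₁ h₂ heq hs0)

/-- **(TRANSFER), level two**: `j * t ^ 2 = (t + 256) ^ 3`, `2` a unit of `A`. -/
theorem transfer_two (hdeg : ∀ v : Place K F, v.deg = 1) (hdeg' : ∀ w : Place K F', w.deg = 1)
    (hval : ∀ v : Place K F, NormSpecAt F' v) (j : F) (hj : j ≠ 0) (B Boo : Subring F)
    (hB : ∀ y, y ∈ B ↔ (chartHom A.toSubring j).IsIntegralElem y)
    (hBoo : ∀ y, y ∈ Boo ↔ (chartHom A.toSubring j⁻¹).IsIntegralElem y)
    (t : F') (ht : t ≠ 0) (hrel : algebraMap F F' j * t ^ 2 = (t + 256) ^ 3)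
    (c : A) (hc : (c : K) * 2 = 1)
    (BU BV : Subring F') (hBU : ∀ y, y ∈ BU ↔ (chartHom A.toSubring t).IsIntegralElem y)
    (hBV : ∀ y, y ∈ BV ↔ (chartHom A.toSubring t⁻¹).IsIntegralElem y)
    (v₁ v₂ : Place K F) (h : SamePair A B v₁ v₂ ∨ SamePair A Boo v₁ v₂) :
    TransferAt A BU v₁ v₂ ∧ TransferAt A BV v₁ v₂ := by
  have hj' : algebraMap F F' j ≠ 0 := (_root_.map_ne_zero _).mpr hj
  have hinv : algebraMap F F' j⁻¹ = (algebraMap F F' j)⁻¹ := map_inv₀ _ _
  have h1 := haupt2_add_ne_zero hrel hj' ht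
  have h256 : (256 : K) ∈ A := by simp
  have hu : (⟨256, h256⟩ : A) * c ^ 8 = 1 := by
    apply Subtype.ext
    show (256 : K) * (c : K) ^ 8 = 1
    have : ((c : K) * 2) ^ 8 = 1 := by rw [hc, one_pow]
    linear_combination this
  refine transfer_haupt A hdeg hdeg' hval j hj B Boo hB hBoo t ht
    (haupt2_isIntegralElem A.toSubring hrel) (haupt2_inv_isIntegralElem A.toSubring hrel ht c hc)
    (t / (t + 256)) ⟨256, h256⟩ (c ^ 8) hu ?_ ?_ (algebraMap K F' (256 : K))
    ?_ 2 1 ?_ BU BV hBU hBV v₁ v₂ h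
  · rw [haupt2_moebius h1]
    show 256 * _ = algebraMap K F' (256 : K) * _
    rw [map_ofNat]
  · rw [hinv]
    exact haupt2_z_isIntegralElem A.toSubring hrel hj' ht
  · exact const_mem_chartRing A.toSubring _ (⟨256, h256⟩ : A)
  · rw [hinv, haupt2_z01 hrel hj' ht, map_ofNat]

/-- **(TRANSFER), level three**: `j * t ^ 3 = (t + 27) * (t + 243) ^ 3`, `3` a unit of `A`. -/
theorem transfer_three (hdeg : ∀ v : Place K F, v.deg = 1)
    (hdeg' : ∀ w : Place K F', w.deg = 1)
    (hval : ∀ v : Place K F, NormSpecAt F' v) (j : F) (hj : j ≠ 0) (B Boo : Subring F)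
    (hB : ∀ y, y ∈ B ↔ (chartHom A.toSubring j).IsIntegralElem y)
    (hBoo : ∀ y, y ∈ Boo ↔ (chartHom A.toSubring j⁻¹).IsIntegralElem y)
    (t : F') (ht : t ≠ 0) (hrel : algebraMap F F' j * t ^ 3 = (t + 27) * (t + 243) ^ 3)
    (c : A) (hc : (c : K) * 3 = 1)
    (BU BV : Subring F') (hBU : ∀ y, y ∈ BU ↔ (chartHom A.toSubring t).IsIntegralElem y)
    (hBV : ∀ y, y ∈ BV ↔ (chartHom A.toSubring t⁻¹).IsIntegralElem y)
    (v₁ v₂ : Place K F) (h : SamePair A B v₁ v₂ ∨ SamePair A Boo v₁ v₂) :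
    TransferAt A BU v₁ v₂ ∧ TransferAt A BV v₁ v₂ := by
  have hj' : algebraMap F F' j ≠ 0 := (_root_.map_ne_zero _).mpr hj
  have hinv : algebraMap F F' j⁻¹ = (algebraMap F F' j)⁻¹ := map_inv₀ _ _
  have h1 := haupt3_add_ne_zero hrel hj' ht
  have h243 : (243 : K) ∈ A := by simp
  have h216 : (216 : K) ∈ A := by simp
  have h27 : (27 : K) ∈ A := by simp
  have hu : (⟨243, h243⟩ : A) * c ^ 5 = 1 := by
    apply Subtype.ext
    show (243 : K) * (c : K) ^ 5 = 1
    have : ((c : K) * 3) ^ 5 = 1 := by rw [hc, one_pow]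
    linear_combination this
  have hzint := haupt3_z_isIntegralElem A.toSubring hrel hj' ht
  refine transfer_haupt A hdeg hdeg' hval j hj B Boo hB hBoo t ht
    (haupt3_isIntegralElem A.toSubring hrel) (haupt3_inv_isIntegralElem A.toSubring hrel ht c hc)
    (t / (t + 243)) ⟨243, h243⟩ (c ^ 5) hu ?_ ?_
    (algebraMap K F' (216 : K) * (t / (t + 243)) + algebraMap K F' (27 : K))
    ?_ 3 1 ?_ BU BV hBU hBV v₁ v₂ h
  · rw [haupt3_moebius h1]
    show 243 * _ = algebraMap K F' (243 : K) * _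
    rw [map_ofNat]
  · rw [hinv]
    exact hzint
  · rw [hinv]
    exact (chartRing A.toSubring _).add_mem
      ((chartRing A.toSubring _).mul_mem (const_mem_chartRing A.toSubring _ (⟨216, h216⟩ : A))
        hzint)
      (const_mem_chartRing A.toSubring _ (⟨27, h27⟩ : A))
  · rw [hinv, haupt3_z01 hrel hj' ht, map_ofNat, map_ofNat]

end Final

section Corollary

variable {K : Type*} [Field K] {A : ValuationSubring K}
  {F F' : Type*} [Field F] [Field F'] [Algebra K F] [Algebra K F'] [Algebra F F']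
  [IsScalarTower K F F'] [Algebra.IsIntegral F F'] [HasPrincipalDivisors K F']

/-- the counting form with an explicit filter and integer weights. -/
theorem TransferAt.sum_filter_eq {R' : Subring F'} {v₁ v₂ : Place K F}
    (h : TransferAt A R' v₁ v₂) (χ₀ : R' →+* IsLocalRing.ResidueField A)
    [DecidablePred fun w : Place K F' => ∃ h : IsFin A R' w, charOf h = χ₀] :
    ∑ w ∈ (v₁.fiber F').filter (fun w => ∃ h : IsFin A R' w, charOf h = χ₀),
        (w.ramificationIndex F : ℤ) =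
      ∑ w ∈ (v₂.fiber F').filter (fun w => ∃ h : IsFin A R' w, charOf h = χ₀),
        (w.ramificationIndex F : ℤ) := by
  obtain ⟨T₁, T₂, hT₁, hT₂, hsum⟩ := h χ₀
  have e₁ : (v₁.fiber F').filter (fun w => ∃ h : IsFin A R' w, charOf h = χ₀) = T₁ := by
    ext w
    rw [Finset.mem_filter, hT₁]
  have e₂ : (v₂.fiber F').filter (fun w => ∃ h : IsFin A R' w, charOf h = χ₀) = T₂ := by
    ext w
    rw [Finset.mem_filter, hT₂]
  rw [e₁, e₂]
  exact_mod_cast hsum

end Corollary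

end Fermat.Agent.S37.H87
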