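import Mathlib
import Fermat.Agent.S37.Stmts_helper27
import Fermat.Agent.S37.SumTransfer_helper53
import Fermat.Agent.S37.TransferInst_helper87
import Fermat.Agent.S37.HeckeInputs_helper37
import Fermat.Agent.S18.HauptInst_helper69

/-!
# S37: (CONST) at level `N` from (CONST-CORE) at a level `L` above and (TRANSFER) (helper27)

`ConstStmt N A ℓ` (the Stmts Prop (CONST)) is reduced to two statements at an auxiliary level `L`
(`φ : Fbar_N →ₐ Fbar_L` any embedding preserving `q`-expansions, `x` a chart coordinate of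
`Fbar_L`):

* `TransferStmt N L A φ hφ x` : (TRANSFER) for the generator pairs of `DivT N A` and the two
  charts `H58.chartRing A L x`, `H58.chartRing A L x⁻¹` upstairs (`H87.TransferAt`);
* `ConstCore L A x` : a function `f` of `Fbar_L` whose orders sum to zero on every residue
  character class of each of the two charts is a constant times a ratio of two `A`-integral
  `q`-series with the same nonzero reduction.

`constStmt_of_core` : `TransferStmt → ConstCore → ConstStmt N A ℓ`
(bookkeeping: the landed `H53.sum_ord_eq_zero_of_transferAt`).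

`constStmt_of_levels` : the three cases of the route (`ℓ ≥ 5`: level `N`, coordinate `j`;
`ℓ = 3`: level `2N`, coordinate `t₂`; `ℓ = 2`: level `3N`, coordinate `t₃`), along the inclusion
`levelIncl N L : Fbar_N →ₐ Fbar_L`.
-/

set_option autoImplicit false

open ModularCurve AlgebraicCurve

namespace Fermat.Agent.S37.H27

noncomputable section

local notation "Qb" => AlgebraicClosure ℚ

/-- the orders of `f` sum to zero on every residue character class of the chart `R'`
(instance-free form: `S` is the set of the places of `T` in the class of `w₀`). -/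
def SumZero {L : ℕ} (A : ValuationSubring Qb) (R' : Subring ↥(modularFunctionFieldBar L))
    (f : ↥(modularFunctionFieldBar L)) (T : Finset (Place Qb ↥(modularFunctionFieldBar L))) :
    Prop :=
  ∀ (w₀ : Place Qb ↥(modularFunctionFieldBar L))
    (S : Finset (Place Qb ↥(modularFunctionFieldBar L))),
    (∀ w, w ∈ S ↔ w ∈ T ∧ H87.SamePair A R' w w₀) → ∑ w ∈ S, w.ord f = 0

/-- **(CONST-CORE)** at level `L` for the chart coordinate `x`. Owner: helper8. -/
def ConstCore (L : ℕ) [NeZero L] (A : ValuationSubring Qb) (x : ↥(modularFunctionFieldBar L)) :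
    Prop :=
  ∀ f : ↥(modularFunctionFieldBar L), f ≠ 0 →
    ∀ T : Finset (Place Qb ↥(modularFunctionFieldBar L)), (∀ w, w.ord f ≠ 0 → w ∈ T) →
    SumZero A (H58.chartRing A L x) f T → SumZero A (H58.chartRing A L x⁻¹) f T →
    ∃ (c : Qb) (Z1 Z2 : LaurentSeries A), c ≠ 0 ∧
      coeffMap (IsLocalRing.residue A) Z2 ≠ 0 ∧
      coeffMap (IsLocalRing.residue A) Z1 = coeffMap (IsLocalRing.residue A) Z2 ∧
      (f : LaurentSeries Qb) * coeffMap A.subtype Z2 = HahnSeries.C c * coeffMap A.subtype Z1

/-- **(TRANSFER) between the levels `N` and `L`** along `φ`, for the generator pairs of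
`DivT N A` and the two charts of the coordinate `x` upstairs. Owner: helper87. -/
def TransferStmt (N L : ℕ) [NeZero N] [NeZero L] (A : ValuationSubring Qb)
    (φ : ↥(modularFunctionFieldBar N) →ₐ[Qb] ↥(modularFunctionFieldBar L))
    (hφ : φ.toRingHom.IsIntegral) [HasPrincipalDivisors Qb ↥(modularFunctionFieldBar L)]
    (x : ↥(modularFunctionFieldBar L)) : Prop :=
  letI := algebraAlong φ
  haveI := isScalarTower_along φ
  haveI := isIntegral_along φ hφ
  ∀ v₁ v₂ : Place Qb ↥(modularFunctionFieldBar N), RedRel N A v₁ v₂ →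
    H87.TransferAt A (H58.chartRing A L x) v₁ v₂ ∧
      H87.TransferAt A (H58.chartRing A L x⁻¹) v₁ v₂

/-- **(CONST) at level `N` from (TRANSFER) and (CONST-CORE) at a level `L` above.** -/
theorem constStmt_of_core (N L ℓ : ℕ) [NeZero N] [NeZero L] (A : ValuationSubring Qb)
    (φ : ↥(modularFunctionFieldBar N) →ₐ[Qb] ↥(modularFunctionFieldBar L))
    (hφ : φ.toRingHom.IsIntegral)
    (hcoe : ∀ y : ↥(modularFunctionFieldBar N), ((φ y : ↥(modularFunctionFieldBar L)) :
      LaurentSeries Qb) = (y : LaurentSeries Qb))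
    [HasPrincipalDivisors Qb ↥(modularFunctionFieldBar L)]
    (x : ↥(modularFunctionFieldBar L)) (htr : TransferStmt N L A φ hφ x)
    (hcore : ConstCore L A x) : ConstStmt N A ℓ := by
  intro m _ D hD f hf hDf
  letI := algebraAlong φ
  haveI := isScalarTower_along φ
  haveI := isIntegral_along φ hφ
  have hf' : ∀ P : Place Qb ↥(modularFunctionFieldBar N), P.ord f = (m : ℤ) * D P := by
    intro P
    rw [← hDf P]
    simp
  have hfL : φ f ≠ 0 := (map_ne_zero φ).mpr hf
  obtain ⟨DL, hDL, -⟩ := HasPrincipalDivisors.exists_divisor (K := Qb) (φ f) hfL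
  have hsupp : ∀ w : Place Qb ↥(modularFunctionFieldBar L), w.ord (φ f) ≠ 0 → w ∈ DL.support :=
    fun w hw => Finsupp.mem_support_iff.mpr (by rw [hDL]; exact hw)
  have key : ∀ R' : Subring ↥(modularFunctionFieldBar L),
      (∀ v₁ v₂ : Place Qb ↥(modularFunctionFieldBar N), RedRel N A v₁ v₂ →
        H87.TransferAt A R' v₁ v₂) → SumZero A R' (φ f) DL.support := by
    intro R' hR w₀ S hS
    classical
    by_cases hw₀ : H34.IsFin A R' w₀
    · refine H53.sum_ord_eq_zero_of_transferAt A R' (RedRel N A) hR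
        (fun χ => χ = H34.charOf hw₀) (fun w => H87.SamePair A R' w w₀) (fun w => ?_) hD
        (m : ℤ) f hf' S ?_ ?_
      · constructor
        · rintro ⟨h₁, h₂, heq⟩
          exact ⟨h₁, heq⟩
        · rintro ⟨h₁, heq⟩
          exact ⟨h₁, hw₀, heq⟩
      · intro w hp hne
        exact (hS w).mpr ⟨hsupp w hne, hp⟩
      · intro w hw
        exact ((hS w).mp hw).2
    · have hS' : S = ∅ := by
        refine Finset.eq_empty_of_forall_notMem fun w hw => ?_
        obtain ⟨-, h₂, -⟩ := ((hS w).mp hw).2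
        exact hw₀ h₂
      rw [hS', Finset.sum_empty]
  obtain ⟨c, Z1, Z2, hc, hne, heq, hfZ⟩ := hcore (φ f) hfL DL.support hsupp
    (key _ fun v₁ v₂ h => (htr v₁ v₂ h).1) (key _ fun v₁ v₂ h => (htr v₁ v₂ h).2)
  exact ⟨c, Z1, Z2, hc, hne, heq, by rw [← hcoe f]; exact hfZ⟩

/-- principal divisors exist at every level (landed S18 `H98.hasPrincipalDivisors_FN`). -/
instance instHasPrincipalDivisorsBar (L : ℕ) [NeZero L] :
    HasPrincipalDivisors Qb ↥(modularFunctionFieldBar L) :=
  Fermat.Agent.S18.H98.hasPrincipalDivisors_FN L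

/-- the inclusion of function fields `Fbar_N ⊆ Fbar_L` for `N ∣ L`. -/
def levelIncl (N L : ℕ) [NeZero N] [NeZero L] (h : N ∣ L) :
    ↥(modularFunctionFieldBar N) →ₐ[Qb] ↥(modularFunctionFieldBar L) :=
  IntermediateField.inclusion (Fermat.Agent.S18.H16.bar_mono h)

theorem coe_levelIncl (N L : ℕ) [NeZero N] [NeZero L] (h : N ∣ L)
    (y : ↥(modularFunctionFieldBar N)) :
    ((levelIncl N L h y : ↥(modularFunctionFieldBar L)) : LaurentSeries Qb) =
      (y : LaurentSeries Qb) :=
  IntermediateField.coe_inclusion _ y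

theorem levelIncl_isIntegral (N L : ℕ) [NeZero N] [NeZero L] (h : N ∣ L) :
    (levelIncl N L h).toRingHom.IsIntegral :=
  H37.isIntegral_of_finiteAlong _ (H37.finiteAlong_FN N L _)

/-- (CONST) from (TRANSFER) + (CONST-CORE) along the inclusion of levels. -/
theorem constStmt_of_level (N L ℓ : ℕ) [NeZero N] [NeZero L] (h : N ∣ L)
    (A : ValuationSubring Qb) (x : ↥(modularFunctionFieldBar L))
    (htr : TransferStmt N L A (levelIncl N L h) (levelIncl_isIntegral N L h) x)
    (hcore : ConstCore L A x) : ConstStmt N A ℓ :=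
  constStmt_of_core N L ℓ A (levelIncl N L h) (levelIncl_isIntegral N L h) (coe_levelIncl N L h)
    x htr hcore

/-- **(CONST) from the three cases of the route**: `ℓ ≠ 2, 3` (level `N`, coordinate `j`),
`ℓ = 3` (level `N * 2`, coordinate `t₂`), `ℓ = 2` (level `N * 3`, coordinate `t₃`). -/
theorem constStmt_of_levels (N ℓ : ℕ) [NeZero N] (A : ValuationSubring Qb)
    (h1 : ℓ ≠ 2 → ℓ ≠ 3 →
      TransferStmt N N A (levelIncl N N dvd_rfl) (levelIncl_isIntegral N N dvd_rfl) (H58.jBar N) ∧
        ConstCore N A (H58.jBar N))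
    (h2 : ℓ = 3 →
      TransferStmt N (N * 2) A (levelIncl N (N * 2) (dvd_mul_right N 2))
          (levelIncl_isIntegral N (N * 2) (dvd_mul_right N 2))
          (Fermat.Agent.S18.H69.hauptBar2 (N * 2) (dvd_mul_left 2 N)) ∧
        ConstCore (N * 2) A (Fermat.Agent.S18.H69.hauptBar2 (N * 2) (dvd_mul_left 2 N)))
    (h3 : ℓ = 2 →
      TransferStmt N (N * 3) A (levelIncl N (N * 3) (dvd_mul_right N 3))
          (levelIncl_isIntegral N (N * 3) (dvd_mul_right N 3))
          (Fermat.Agent.S18.H69.hauptBar3 (N * 3) (dvd_mul_left 3 N)) ∧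
        ConstCore (N * 3) A (Fermat.Agent.S18.H69.hauptBar3 (N * 3) (dvd_mul_left 3 N))) :
    ConstStmt N A ℓ := by
  by_cases hℓ2 : ℓ = 2
  · exact constStmt_of_level N (N * 3) ℓ _ A _ (h3 hℓ2).1 (h3 hℓ2).2
  · by_cases hℓ3 : ℓ = 3
    · exact constStmt_of_level N (N * 2) ℓ _ A _ (h2 hℓ3).1 (h2 hℓ3).2
    · exact constStmt_of_level N N ℓ _ A _ (h1 hℓ2 hℓ3).1 (h1 hℓ2 hℓ3).2

end

end Fermat.Agent.S37.H27
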