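import Mathlib
import Fermat.Agent.S18.BaseUFD_helper8

/-!
# S37 (shadow node UNIT'): local compatibility at a regular closed point

Interface-free commutative algebra on top of helper8's local factoriality file.

`R` is a noetherian local domain with maximal ideal `(π, τ)`, `π` prime (a regular local ring of
dimension at most two: the local ring of a chart of an arithmetic surface at a closed point of the
special fibre).  A *rational section* through the closed point is a normalised discrete valuation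
`w` of the fraction field, nonnegative on `R`, trivial at `π`, whose centre `q` satisfies
`q + π R = m_R`.

* `IsLocVal`, `IsLocVal.exists_prime_gen`, `IsLocVal.eq_multiplicity`: such a valuation is the order
  at a prime element.
* `Red π τ x k`: `x ≡ unit * τ ^ k` modulo `π`.
* `local_compat`: if all horizontal zeros and poles of `u` are rational sections `v i`, then
  numerator and denominator of `u` reduce to `unit * τ ^ ka`, `unit * τ ^ kb` with
  `ka - kb = ∑ i, v i u`.
* `local_unit`: if moreover the sum vanishes, `u` is congruent to a unit modulo `π`.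
* chart versions `unit_mod_of_rational_sections`, `compat_of_rational_sections` for a noetherian
  domain `B` with `H08.RegAt π` at a maximal ideal `n ∋ π`, and the global corollary
  `exists_chart_congr`.
-/

set_option autoImplicit false

open IsLocalRing

namespace Fermat.Agent.S37.H66

section Local

variable {R K : Type*} [CommRing R] [IsDomain R] [Field K] [Algebra R K] [IsFractionRing R K]

/-- A normalised discrete valuation of `K` (unbundled, additive, `ℤ`-valued on nonzero elements),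
nonnegative on `R` and trivial at `π`. -/
structure IsLocVal (π : R) (w : K → ℤ) : Prop where
  mul : ∀ x y : K, x ≠ 0 → y ≠ 0 → w (x * y) = w x + w y
  add : ∀ x y : K, x ≠ 0 → y ≠ 0 → x + y ≠ 0 → min (w x) (w y) ≤ w (x + y)
  nonneg : ∀ r : R, r ≠ 0 → 0 ≤ w (algebraMap R K r)
  pi : w (algebraMap R K π) = 0
  norm : ∃ x : K, x ≠ 0 ∧ w x = 1

omit [IsDomain R] in
theorem algebraMap_ne_zero' {r : R} (hr : r ≠ 0) : algebraMap R K r ≠ 0 := fun h =>
  hr (IsFractionRing.injective R K (by rw [h, map_zero]))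

namespace IsLocVal

variable {π : R} {w : K → ℤ}

omit [IsDomain R] [IsFractionRing R K] in
theorem map_one (hw : IsLocVal π w) : w 1 = 0 := by
  have h := hw.mul 1 1 one_ne_zero one_ne_zero
  rw [mul_one] at h
  omega

theorem map_unit (hw : IsLocVal π w) {r : R} (hr : IsUnit r) : w (algebraMap R K r) = 0 := by
  obtain ⟨u, rfl⟩ := hr
  have h0 : (u : R) ≠ 0 := u.ne_zero
  have h0' : ((u⁻¹ : Rˣ) : R) ≠ 0 := (u⁻¹).ne_zero
  have h1 := hw.nonneg (u : R) h0
  have h2 := hw.nonneg ((u⁻¹ : Rˣ) : R) h0'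
  have h3 := hw.mul _ _ (algebraMap_ne_zero' (K := K) h0) (algebraMap_ne_zero' (K := K) h0')
  rw [← _root_.map_mul, Units.mul_inv, _root_.map_one, hw.map_one] at h3
  omega

omit [IsDomain R] [IsFractionRing R K] in
theorem map_pow (hw : IsLocVal π w) {x : K} (hx : x ≠ 0) (k : ℕ) : w (x ^ k) = k * w x := by
  induction k with
  | zero => simp [hw.map_one]
  | succ k ih =>
    rw [pow_succ, hw.mul _ _ (pow_ne_zero k hx) hx, ih]
    push_cast
    ring

theorem map_associated (hw : IsLocVal π w) {a b : R} (ha : a ≠ 0) (h : Associated a b) :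
    w (algebraMap R K a) = w (algebraMap R K b) := by
  obtain ⟨u, rfl⟩ := h
  rw [_root_.map_mul, hw.mul _ _ (algebraMap_ne_zero' ha) (algebraMap_ne_zero' u.ne_zero),
    hw.map_unit u.isUnit, add_zero]

/-- The centre of the valuation on `R`. -/
def center (hw : IsLocVal π w) : Ideal R where
  carrier := {r | r = 0 ∨ 0 < w (algebraMap R K r)}
  zero_mem' := Or.inl rfl
  add_mem' := by
    rintro a b ha hb
    by_cases hab : a + b = 0
    · exact Or.inl hab
    rcases ha with rfl | ha
    · rw [zero_add]; exact hb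
    rcases hb with rfl | hb
    · rw [add_zero]; exact Or.inr ha
    by_cases ha0 : a = 0
    · subst ha0; rw [zero_add]; exact Or.inr hb
    by_cases hb0 : b = 0
    · subst hb0; rw [add_zero]; exact Or.inr ha
    right
    have h := hw.add _ _ (algebraMap_ne_zero' (K := K) ha0) (algebraMap_ne_zero' (K := K) hb0)
      (by rw [← map_add]; exact algebraMap_ne_zero' hab)
    rw [← map_add] at h
    exact lt_of_lt_of_le (lt_min ha hb) h
  smul_mem' := by
    rintro c a ha
    by_cases hca : c * a = 0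
    · exact Or.inl hca
    have hc0 : c ≠ 0 := left_ne_zero_of_mul hca
    have ha0 : a ≠ 0 := right_ne_zero_of_mul hca
    rcases ha with rfl | ha
    · exact absurd rfl ha0
    right
    show 0 < w (algebraMap R K (c * a))
    rw [_root_.map_mul, hw.mul _ _ (algebraMap_ne_zero' hc0) (algebraMap_ne_zero' ha0)]
    have := hw.nonneg c hc0
    omega

omit [IsDomain R] in
theorem mem_center (hw : IsLocVal π w) {r : R} :
    r ∈ hw.center ↔ r = 0 ∨ 0 < w (algebraMap R K r) := Iff.rfl

theorem center_isPrime (hw : IsLocVal π w) : hw.center.IsPrime := by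
  refine ⟨?_, ?_⟩
  · rw [Ideal.ne_top_iff_one]
    rintro (h | h)
    · exact one_ne_zero h
    · rw [_root_.map_one, hw.map_one] at h
      exact lt_irrefl _ h
  · intro x y hxy
    by_cases hx0 : x = 0
    · exact Or.inl (Or.inl hx0)
    by_cases hy0 : y = 0
    · exact Or.inr (Or.inl hy0)
    rcases hxy with h | h
    · exact absurd h (mul_ne_zero hx0 hy0)
    rw [_root_.map_mul, hw.mul _ _ (algebraMap_ne_zero' hx0) (algebraMap_ne_zero' hy0)] at h
    have h1 := hw.nonneg x hx0
    have h2 := hw.nonneg y hy0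
    by_cases hx : 0 < w (algebraMap R K x)
    · exact Or.inl (Or.inr hx)
    · exact Or.inr (Or.inr (by omega))

omit [IsDomain R] in
theorem pi_notMem_center (hw : IsLocVal π w) (hπ0 : π ≠ 0) : π ∉ hw.center := by
  rintro (h | h)
  · exact hπ0 h
  · rw [hw.pi] at h
    exact lt_irrefl _ h

theorem exists_frac (x : K) (hx : x ≠ 0) :
    ∃ a b : R, a ≠ 0 ∧ b ≠ 0 ∧ x * algebraMap R K b = algebraMap R K a := by
  have hinj := IsFractionRing.injective R K
  set s := IsLocalization.sec (nonZeroDivisors R) x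
  have hs : x * algebraMap R K s.2 = algebraMap R K s.1 := IsLocalization.sec_spec _ x
  have hs2 : (s.2 : R) ≠ 0 := nonZeroDivisors.coe_ne_zero s.2
  refine ⟨s.1, s.2, ?_, hs2, hs⟩
  intro h0
  rw [h0, map_zero] at hs
  rcases mul_eq_zero.mp hs with h1 | h1
  · exact hx h1
  · exact hs2 (hinj (by rw [h1, map_zero]))

theorem exists_pos (hw : IsLocVal π w) : ∃ a : R, a ≠ 0 ∧ 0 < w (algebraMap R K a) := by
  obtain ⟨x, hx, hx1⟩ := hw.norm
  obtain ⟨a, b, ha, hb, hab⟩ := exists_frac (R := R) x hx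
  refine ⟨a, ha, ?_⟩
  have h := hw.mul _ _ hx (algebraMap_ne_zero' (K := K) hb)
  rw [hab] at h
  have := hw.nonneg b hb
  omega

variable [IsNoetherianRing R] [IsLocalRing R]

/-- The centre is generated by a prime element, at which the valuation takes the value one. -/
theorem exists_prime_gen (hw : IsLocVal π w) {τ : R} (hπ : Prime π)
    (hmax : maximalIdeal R = Ideal.span {π, τ}) :
    ∃ g : R, Prime g ∧ w (algebraMap R K g) = 1 ∧
      ∀ r : R, r ≠ 0 → (0 < w (algebraMap R K r) ↔ g ∣ r) := by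
  have := hw.center_isPrime
  obtain ⟨g, hg⟩ := Fermat.Agent.S18.H08.isPrincipal_of_notMem hπ hmax hw.center
    (hw.pi_notMem_center hπ.ne_zero)
  rw [Ideal.submodule_span_eq] at hg
  have hmem : ∀ r : R, r ≠ 0 → (0 < w (algebraMap R K r) ↔ g ∣ r) := by
    intro r hr
    rw [← Ideal.mem_span_singleton, ← hg, mem_center]
    exact ⟨fun h => Or.inr h, fun h => h.resolve_left hr⟩
  obtain ⟨a, ha, hapos⟩ := hw.exists_pos
  have hg0 : g ≠ 0 := by
    rintro rfl
    exact ha (zero_dvd_iff.mp ((hmem a ha).mp hapos))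
  have hgp : Prime g := by
    rw [← Ideal.span_singleton_prime hg0, ← hg]
    exact hw.center_isPrime
  have hgpos : 0 < w (algebraMap R K g) := (hmem g hg0).mpr dvd_rfl
  -- value of an element through its `g`-multiplicity
  have hval : ∀ r : R, r ≠ 0 →
      w (algebraMap R K r) = (multiplicity g r : ℤ) * w (algebraMap R K g) := by
    intro r hr
    obtain ⟨c, hc, hgc⟩ :=
      (FiniteMultiplicity.of_prime_left hgp hr).exists_eq_pow_mul_and_not_dvd
    have hc0 : c ≠ 0 := by
      rintro rfl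
      exact hgc (dvd_zero g)
    have hwc : w (algebraMap R K c) = 0 := by
      have h1 := hw.nonneg c hc0
      have h2 : ¬ 0 < w (algebraMap R K c) := fun h => hgc ((hmem c hc0).mp h)
      omega
    conv_lhs => rw [hc]
    rw [_root_.map_mul, _root_.map_pow,
      hw.mul _ _ (pow_ne_zero _ (algebraMap_ne_zero' hg0)) (algebraMap_ne_zero' hc0),
      hw.map_pow (algebraMap_ne_zero' hg0), hwc, add_zero]
  refine ⟨g, hgp, ?_, hmem⟩
  obtain ⟨x, hx, hx1⟩ := hw.norm
  obtain ⟨a, b, ha, hb, hab⟩ := exists_frac (R := R) x hx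
  have h := hw.mul _ _ hx (algebraMap_ne_zero' (K := K) hb)
  rw [hab, hx1, hval a ha, hval b hb] at h
  have hdvd : w (algebraMap R K g) ∣ 1 := by
    refine ⟨(multiplicity g a : ℤ) - (multiplicity g b : ℤ), ?_⟩
    linear_combination -h
  exact Int.eq_one_of_dvd_one hgpos.le hdvd

/-- A prime element at which the valuation is positive computes the valuation. -/
theorem eq_multiplicity (hw : IsLocVal π w) {τ : R} (hπ : Prime π)
    (hmax : maximalIdeal R = Ideal.span {π, τ}) {p : R} (hp : Prime p)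
    (hpos : 0 < w (algebraMap R K p)) :
    w (algebraMap R K p) = 1 ∧
      ∀ r : R, r ≠ 0 → w (algebraMap R K r) = (multiplicity p r : ℤ) := by
  obtain ⟨g, hgp, hg1, hmem⟩ := hw.exists_prime_gen hπ hmax
  have hgp' : g ∣ p := (hmem p hp.ne_zero).mp hpos
  have hass : Associated g p := (hgp.dvd_prime_iff_associated hp).mp hgp'
  have hp1 : w (algebraMap R K p) = 1 := by
    rw [← hw.map_associated hgp.ne_zero hass, hg1]
  refine ⟨hp1, ?_⟩
  intro r hr
  obtain ⟨c, hc, hpc⟩ :=
    (FiniteMultiplicity.of_prime_left hp hr).exists_eq_pow_mul_and_not_dvd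
  have hc0 : c ≠ 0 := by
    rintro rfl
    exact hpc (dvd_zero p)
  have hwc : w (algebraMap R K c) = 0 := by
    have h1 := hw.nonneg c hc0
    have h2 : ¬ 0 < w (algebraMap R K c) := fun h =>
      hpc (hass.symm.dvd.trans ((hmem c hc0).mp h))
    omega
  conv_lhs => rw [hc]
  rw [_root_.map_mul, _root_.map_pow,
    hw.mul _ _ (pow_ne_zero _ (algebraMap_ne_zero' hp.ne_zero)) (algebraMap_ne_zero' hc0),
    hw.map_pow (algebraMap_ne_zero' hp.ne_zero), hwc, add_zero, hp1, mul_one]

/-- Two valuations which are positive at the same prime element agree. -/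
theorem eq_of_pos_of_pos {w' : K → ℤ} (hw : IsLocVal π w) (hw' : IsLocVal π w') {τ : R}
    (hπ : Prime π) (hmax : maximalIdeal R = Ideal.span {π, τ}) {p : R} (hp : Prime p)
    (hpos : 0 < w (algebraMap R K p)) (hpos' : 0 < w' (algebraMap R K p)) :
    ∀ x : K, x ≠ 0 → w x = w' x := by
  intro x hx
  obtain ⟨a, b, ha, hb, hab⟩ := exists_frac (R := R) x hx
  have h := hw.mul _ _ hx (algebraMap_ne_zero' (K := K) hb)
  have h' := hw'.mul _ _ hx (algebraMap_ne_zero' (K := K) hb)
  rw [hab, (hw.eq_multiplicity hπ hmax hp hpos).2 a ha,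
    (hw.eq_multiplicity hπ hmax hp hpos).2 b hb] at h
  rw [hab, (hw'.eq_multiplicity hπ hmax hp hpos').2 a ha,
    (hw'.eq_multiplicity hπ hmax hp hpos').2 b hb] at h'
  omega

end IsLocVal

/-! ### Reduction modulo `π` -/

/-- `x ≡ unit * τ ^ k` modulo `π`. -/
def Red (π τ : R) (x : R) (k : ℕ) : Prop := ∃ β : Rˣ, π ∣ x - β * τ ^ k

omit [IsDomain R] in
theorem Red.mul {π τ x y : R} {k l : ℕ} (hx : Red π τ x k) (hy : Red π τ y l) :
    Red π τ (x * y) (k + l) := by
  obtain ⟨β, a, ha⟩ := hx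
  obtain ⟨γ, b, hb⟩ := hy
  refine ⟨β * γ, x * b + γ * τ ^ l * a, ?_⟩
  rw [Units.val_mul, pow_add]
  linear_combination x * hb + γ * τ ^ l * ha

omit [IsDomain R] in
theorem Red.of_isUnit {π τ x : R} (hx : IsUnit x) : Red π τ x 0 := by
  obtain ⟨β, rfl⟩ := hx
  exact ⟨β, 0, by rw [pow_zero]; ring⟩

variable [IsNoetherianRing R] [IsLocalRing R]

/-- A prime element cutting out a rational section is congruent to `unit * τ` modulo `π`. -/
theorem IsLocVal.red_prime {π τ : R} {w : K → ℤ} (hw : IsLocVal π w) (hπ : Prime π)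
    (hmax : maximalIdeal R = Ideal.span {π, τ}) {p : R} (hp : Prime p)
    (hpos : 0 < w (algebraMap R K p))
    (hrat : ∃ a : R, τ = π * a ∨ 0 < w (algebraMap R K (τ - π * a))) : Red π τ p 1 := by
  obtain ⟨a, ha⟩ := hrat
  have hdvd : p ∣ τ - π * a := by
    by_cases h0 : τ - π * a = 0
    · rw [h0]; exact dvd_zero p
    · rcases ha with ha | ha
      · exact absurd (by rw [ha, sub_self]) h0
      · have h1 := (hw.eq_multiplicity hπ hmax hp hpos).2 _ h0
        rw [h1] at ha
        by_contra hnd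
        rw [multiplicity_eq_zero.mpr hnd] at ha
        exact lt_irrefl _ ha
  obtain ⟨r, hr⟩ := hdvd
  have hpm : p ∈ maximalIdeal R := (mem_maximalIdeal p).mpr hp.not_isUnit
  rw [hmax, Ideal.mem_span_pair] at hpm
  obtain ⟨α, β, hαβ⟩ := hpm
  have hkey : π ∣ p * (1 - β * r) := ⟨α + β * a, by linear_combination (-1 : R) * hαβ + β * hr⟩
  have hnd : ¬ π ∣ p := by
    intro h
    have hass : Associated π p := (hπ.dvd_prime_iff_associated hp).mp h
    have h1 := hw.map_associated (K := K) hπ.ne_zero hass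
    rw [hw.pi] at h1
    omega
  have h2 : π ∣ 1 - β * r := (hπ.dvd_or_dvd hkey).resolve_left hnd
  have h3 : 1 - β * r ∈ nonunits R := fun hu => hπ.not_isUnit (isUnit_of_dvd_unit h2 hu)
  have h4 : IsUnit (β * r) := isUnit_of_mem_nonunits_one_sub_self _ h3
  have h5 : IsUnit β := isUnit_of_mul_isUnit_left h4
  obtain ⟨β', rfl⟩ := h5
  exact ⟨β', α, by rw [pow_one]; linear_combination (-1 : R) * hαβ⟩

variable {ι : Type*}

/-- Numerators whose prime factors all cut out rational sections of the family reduce to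
`unit * τ ^ k` with `k` the sum of the valuations. -/
theorem exists_red [UniqueFactorizationMonoid R] {π τ : R} (hπ : Prime π)
    (hmax : maximalIdeal R = Ideal.span {π, τ}) (s : Finset ι) (v : ι → K → ℤ)
    (hv : ∀ i ∈ s, IsLocVal π (v i))
    (hinj : ∀ i ∈ s, ∀ j ∈ s, (∀ x : K, x ≠ 0 → v i x = v j x) → i = j)
    (hrat : ∀ i ∈ s, ∃ a : R, τ = π * a ∨ 0 < v i (algebraMap R K (τ - π * a))) (a : R) :
    a ≠ 0 → (∀ p : R, Prime p → p ∣ a → ∃ i ∈ s, 0 < v i (algebraMap R K p)) →
      ∃ k : ℕ, Red π τ a k ∧ (k : ℤ) = ∑ i ∈ s, v i (algebraMap R K a) := by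
  induction a using UniqueFactorizationMonoid.induction_on_prime with
  | h₁ => intro h; exact absurd rfl h
  | h₂ x hx =>
    intro _ _
    refine ⟨0, Red.of_isUnit hx, ?_⟩
    rw [Finset.sum_eq_zero fun i hi => (hv i hi).map_unit hx]
    rfl
  | h₃ a p ha hp ih =>
    intro _ hP
    obtain ⟨k, hk, hksum⟩ := ih ha fun q hq hqa => hP q hq (hqa.mul_left p)
    obtain ⟨i0, hi0, hpos⟩ := hP p hp (dvd_mul_right p a)
    have hred : Red π τ p 1 := (hv i0 hi0).red_prime hπ hmax hp hpos (hrat i0 hi0)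
    have hp1 : ∑ i ∈ s, v i (algebraMap R K p) = 1 := by
      rw [Finset.sum_eq_single i0]
      · exact ((hv i0 hi0).eq_multiplicity hπ hmax hp hpos).1
      · intro j hj hji
        by_contra hne
        have hposj : 0 < v j (algebraMap R K p) := by
          have := (hv j hj).nonneg p hp.ne_zero
          omega
        exact hji (hinj j hj i0 hi0
          ((hv j hj).eq_of_pos_of_pos (hv i0 hi0) hπ hmax hp hposj hpos))
      · intro h; exact absurd hi0 h
    refine ⟨1 + k, hred.mul hk, ?_⟩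
    have hsplit : ∑ i ∈ s, v i (algebraMap R K (p * a)) =
        ∑ i ∈ s, v i (algebraMap R K p) + ∑ i ∈ s, v i (algebraMap R K a) := by
      rw [← Finset.sum_add_distrib]
      refine Finset.sum_congr rfl fun i hi => ?_
      rw [_root_.map_mul, (hv i hi).mul _ _ (algebraMap_ne_zero' hp.ne_zero)
        (algebraMap_ne_zero' ha)]
    rw [hsplit, hp1, ← hksum]
    push_cast
    ring

end Local

section LocalMain

variable {R K : Type*} [CommRing R] [IsDomain R] [Field K] [Algebra R K] [IsFractionRing R K]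

open Classical in
/-- The order at a prime element not dividing `π` is an `IsLocVal`. -/
theorem isLocVal_pOrd [UniqueFactorizationMonoid R] {π p : R} (hp : Prime p) (hpπ : ¬ p ∣ π) :
    IsLocVal π (fun x : K => if x = 0 then 0 else Fermat.Agent.S18.H08.pOrd p x) := by
  have hπ0 : π ≠ 0 := fun h => hpπ (h ▸ dvd_zero p)
  refine ⟨?_, ?_, ?_, ?_, ?_⟩
  · intro x y hx hy
    simp only [if_neg hx, if_neg hy, if_neg (mul_ne_zero hx hy)]
    exact Fermat.Agent.S18.H08.pOrd_mul hp hx hy
  · intro x y hx hy hxy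
    simp only [if_neg hx, if_neg hy, if_neg hxy]
    exact Fermat.Agent.S18.H08.pOrd_add hp hx hy hxy
  · intro r hr
    simp only [if_neg (algebraMap_ne_zero' (K := K) hr)]
    exact Fermat.Agent.S18.H08.pOrd_algebraMap_nonneg hp hr
  · simp only [if_neg (algebraMap_ne_zero' (K := K) hπ0)]
    rw [Fermat.Agent.S18.H08.pOrd_algebraMap hp hπ0, multiplicity_eq_zero.mpr hpπ]
    rfl
  · refine ⟨algebraMap R K p, algebraMap_ne_zero' hp.ne_zero, ?_⟩
    simp only [if_neg (algebraMap_ne_zero' (K := K) hp.ne_zero)]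
    rw [Fermat.Agent.S18.H08.pOrd_algebraMap hp hp.ne_zero, multiplicity_self]
    rfl

variable [IsNoetherianRing R] [IsLocalRing R] {ι : Type*}

/-- **Local compatibility.**  If every horizontal zero or pole of `u` through the closed point is
a rational section of the family `v`, then `u = a0 / b0` with `a0 ≡ unit * τ ^ ka`,
`b0 ≡ unit * τ ^ kb` modulo `π` and `ka - kb = ∑ i, v i u`. -/
theorem local_compat {π τ : R} (hπ : Prime π) (hmax : maximalIdeal R = Ideal.span {π, τ})
    {u : K} (hu : u ≠ 0)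
    (huπ : ∃ c d : R, ¬ π ∣ c ∧ ¬ π ∣ d ∧ u * algebraMap R K d = algebraMap R K c)
    (s : Finset ι) (v : ι → K → ℤ) (hv : ∀ i ∈ s, IsLocVal π (v i))
    (hinj : ∀ i ∈ s, ∀ j ∈ s, (∀ x : K, x ≠ 0 → v i x = v j x) → i = j)
    (hrat : ∀ i ∈ s, ∃ a : R, τ = π * a ∨ 0 < v i (algebraMap R K (τ - π * a)))
    (hall : ∀ w : K → ℤ, IsLocVal π w → w u ≠ 0 → ∃ i ∈ s, ∀ x : K, x ≠ 0 → w x = v i x) :
    ∃ (a0 b0 : R) (ka kb : ℕ), a0 ≠ 0 ∧ b0 ≠ 0 ∧ ¬ π ∣ b0 ∧
      u * algebraMap R K b0 = algebraMap R K a0 ∧ Red π τ a0 ka ∧ Red π τ b0 kb ∧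
      (ka : ℤ) - kb = ∑ i ∈ s, v i u := by
  classical
  have : UniqueFactorizationMonoid R :=
    Fermat.Agent.S18.H08.ufm_of_maximalIdeal_eq_span_pair hπ hmax
  have hinjK := IsFractionRing.injective R K
  obtain ⟨a0, b0, hrel, hx⟩ := IsFractionRing.exists_reduced_fraction (A := R) u
  have hb0 : (b0 : R) ≠ 0 := nonZeroDivisors.coe_ne_zero b0
  have hub : u * algebraMap R K b0 = algebraMap R K a0 := by
    rw [← hx]; exact IsLocalization.mk'_spec K a0 b0
  have ha0 : a0 ≠ 0 := by
    rintro rfl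
    rw [map_zero] at hub
    rcases mul_eq_zero.mp hub with h1 | h1
    · exact hu h1
    · exact hb0 (hinjK (by rw [h1, map_zero]))
  obtain ⟨c, d, hc, hd, hcd⟩ := huπ
  have e : a0 * d = c * b0 := by
    apply hinjK
    rw [_root_.map_mul, _root_.map_mul, ← hub, ← hcd]
    ring
  have hπa : ¬ π ∣ a0 := by
    intro h
    have h1 : π ∣ c * b0 := by rw [← e]; exact h.mul_right d
    exact hπ.not_isUnit (hrel h ((hπ.dvd_or_dvd h1).resolve_left hc))
  have hπb : ¬ π ∣ (b0 : R) := by
    intro h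
    have h1 : π ∣ a0 * d := by rw [e]; exact h.mul_left c
    exact hπ.not_isUnit (hrel ((hπ.dvd_or_dvd h1).resolve_right hd) h)
  have key : ∀ p : R, Prime p → p ∣ a0 * b0 → ∃ i ∈ s, 0 < v i (algebraMap R K p) := by
    intro p hp hpab
    have hpπ : ¬ p ∣ π := by
      intro h
      have hass : Associated p π := (hp.dvd_prime_iff_associated hπ).mp h
      rcases hπ.dvd_or_dvd (hass.symm.dvd.trans hpab) with h1 | h1
      · exact hπa h1
      · exact hπb h1
    have hw := isLocVal_pOrd (K := K) hp hpπ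
    have hne : (fun x : K => if x = 0 then 0 else Fermat.Agent.S18.H08.pOrd p x) u ≠ 0 := by
      simp only [if_neg hu]
      rw [Fermat.Agent.S18.H08.pOrd_eq hp ha0 hb0 hub]
      rcases hp.dvd_or_dvd hpab with h1 | h1
      · have h2 : ¬ p ∣ (b0 : R) := fun h2 => hp.not_isUnit (hrel h1 h2)
        have h3 : multiplicity p a0 ≠ 0 := fun h => (multiplicity_eq_zero.mp h) h1
        rw [multiplicity_eq_zero.mpr h2]
        omega
      · have h2 : ¬ p ∣ a0 := fun h2 => hp.not_isUnit (hrel h2 h1)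
        have h3 : multiplicity p (b0 : R) ≠ 0 := fun h => (multiplicity_eq_zero.mp h) h1
        rw [multiplicity_eq_zero.mpr h2]
        omega
    obtain ⟨i, hi, hwi⟩ := hall _ hw hne
    refine ⟨i, hi, ?_⟩
    rw [← hwi _ (algebraMap_ne_zero' hp.ne_zero)]
    simp only [if_neg (algebraMap_ne_zero' (K := K) hp.ne_zero)]
    rw [Fermat.Agent.S18.H08.pOrd_algebraMap hp hp.ne_zero, multiplicity_self]
    exact Int.one_pos
  obtain ⟨ka, hka, hkas⟩ := exists_red hπ hmax s v hv hinj hrat a0 ha0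
    fun p hp hpa => key p hp (hpa.mul_right _)
  obtain ⟨kb, hkb, hkbs⟩ := exists_red hπ hmax s v hv hinj hrat (b0 : R) hb0
    fun p hp hpb => key p hp (hpb.mul_left _)
  refine ⟨a0, b0, ka, kb, ha0, hb0, hπb, hub, hka, hkb, ?_⟩
  rw [hkas, hkbs, ← Finset.sum_sub_distrib]
  refine Finset.sum_congr rfl fun i hi => ?_
  have h := (hv i hi).mul _ _ hu (algebraMap_ne_zero' (K := K) hb0)
  rw [hub] at h
  omega

/-- **Local compatibility, congruence form**: `u * unit * τ ^ kb ≡ unit * τ ^ ka` modulo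
`π R_(π)` with `ka - kb = ∑ i, v i u`. -/
theorem local_compat' {π τ : R} (hπ : Prime π) (hmax : maximalIdeal R = Ideal.span {π, τ})
    {u : K} (hu : u ≠ 0)
    (huπ : ∃ c d : R, ¬ π ∣ c ∧ ¬ π ∣ d ∧ u * algebraMap R K d = algebraMap R K c)
    (s : Finset ι) (v : ι → K → ℤ) (hv : ∀ i ∈ s, IsLocVal π (v i))
    (hinj : ∀ i ∈ s, ∀ j ∈ s, (∀ x : K, x ≠ 0 → v i x = v j x) → i = j)
    (hrat : ∀ i ∈ s, ∃ a : R, τ = π * a ∨ 0 < v i (algebraMap R K (τ - π * a)))
    (hall : ∀ w : K → ℤ, IsLocVal π w → w u ≠ 0 → ∃ i ∈ s, ∀ x : K, x ≠ 0 → w x = v i x) :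
    ∃ (ka kb : ℕ) (w1 w2 : Rˣ) (r b : R), (ka : ℤ) - kb = ∑ i ∈ s, v i u ∧ ¬ π ∣ b ∧
      (u * algebraMap R K (w2 * τ ^ kb) - algebraMap R K (w1 * τ ^ ka)) * algebraMap R K b =
        algebraMap R K (π * r) := by
  obtain ⟨a0, b0, ka, kb, -, -, hπb, hub, ⟨β, ra, hra⟩, ⟨γ, rb, hrb⟩, hk⟩ :=
    local_compat hπ hmax hu huπ s v hv hinj hrat hall
  refine ⟨ka, kb, β, γ, γ * τ ^ kb * ra - β * τ ^ ka * rb, b0, hk, hπb, ?_⟩
  have e : (γ : R) * τ ^ kb * a0 - β * τ ^ ka * b0 =
      π * (γ * τ ^ kb * ra - β * τ ^ ka * rb) := by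
    linear_combination (γ : R) * τ ^ kb * hra - (β : R) * τ ^ ka * hrb
  calc (u * algebraMap R K (γ * τ ^ kb) - algebraMap R K (β * τ ^ ka)) * algebraMap R K b0
      = algebraMap R K (γ * τ ^ kb) * (u * algebraMap R K b0) -
          algebraMap R K (β * τ ^ ka) * algebraMap R K b0 := by ring
    _ = algebraMap R K ((γ : R) * τ ^ kb * a0 - β * τ ^ ka * b0) := by
        rw [hub, map_sub, _root_.map_mul (algebraMap R K) ((γ : R) * τ ^ kb) a0,
          _root_.map_mul (algebraMap R K) ((β : R) * τ ^ ka) b0]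
    _ = _ := by rw [e]

/-- **Local unit statement.**  If moreover `∑ i, v i u = 0`, then `u` is congruent to a unit of
`R` modulo `π R_(π)`. -/
theorem local_unit {π τ : R} (hπ : Prime π) (hmax : maximalIdeal R = Ideal.span {π, τ})
    {u : K} (hu : u ≠ 0)
    (huπ : ∃ c d : R, ¬ π ∣ c ∧ ¬ π ∣ d ∧ u * algebraMap R K d = algebraMap R K c)
    (s : Finset ι) (v : ι → K → ℤ) (hv : ∀ i ∈ s, IsLocVal π (v i))
    (hinj : ∀ i ∈ s, ∀ j ∈ s, (∀ x : K, x ≠ 0 → v i x = v j x) → i = j)
    (hrat : ∀ i ∈ s, ∃ a : R, τ = π * a ∨ 0 < v i (algebraMap R K (τ - π * a)))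
    (hall : ∀ w : K → ℤ, IsLocVal π w → w u ≠ 0 → ∃ i ∈ s, ∀ x : K, x ≠ 0 → w x = v i x)
    (hsum : ∑ i ∈ s, v i u = 0) :
    ∃ (w1 w2 : Rˣ) (r b : R), ¬ π ∣ b ∧
      (u * algebraMap R K (w2 : R) - algebraMap R K (w1 : R)) * algebraMap R K b =
        algebraMap R K (π * r) := by
  obtain ⟨a0, b0, ka, kb, -, -, hπb, hub, ⟨β, ra, hra⟩, ⟨γ, rb, hrb⟩, hk⟩ :=
    local_compat hπ hmax hu huπ s v hv hinj hrat hall
  have hkk : ka = kb := by omega
  subst hkk
  refine ⟨β, γ, γ * ra - β * rb, b0, hπb, ?_⟩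
  have e : (γ : R) * a0 - β * b0 = π * (γ * ra - β * rb) := by
    linear_combination (γ : R) * hra - (β : R) * hrb
  calc (u * algebraMap R K (γ : R) - algebraMap R K (β : R)) * algebraMap R K b0
      = algebraMap R K (γ : R) * (u * algebraMap R K b0) -
          algebraMap R K (β : R) * algebraMap R K b0 := by ring
    _ = algebraMap R K ((γ : R) * a0 - β * b0) := by
        rw [hub, map_sub, _root_.map_mul (algebraMap R K) (γ : R) a0,
          _root_.map_mul (algebraMap R K) (β : R) b0]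
    _ = _ := by rw [e]

end LocalMain

/-! ### Chart versions -/

section Chart

variable {B F : Type*} [CommRing B] [Field F] [Algebra B F]

/-- A normalised discrete valuation of `F` (unbundled), nonnegative on the chart `B`, trivial at
`π`, whose centre on `B` is contained in the maximal ideal `n`: a horizontal prime divisor of the
chart through the closed point `n` of the special fibre. -/
structure IsHorizVal (π : B) (n : Ideal B) (w : F → ℤ) : Prop where
  mul : ∀ x y : F, x ≠ 0 → y ≠ 0 → w (x * y) = w x + w y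
  add : ∀ x y : F, x ≠ 0 → y ≠ 0 → x + y ≠ 0 → min (w x) (w y) ≤ w (x + y)
  nonneg : ∀ b : B, b ≠ 0 → 0 ≤ w (algebraMap B F b)
  pi : w (algebraMap B F π) = 0
  center : ∀ b : B, b ≠ 0 → 0 < w (algebraMap B F b) → b ∈ n
  norm : ∃ x : F, x ≠ 0 ∧ w x = 1

variable [IsDomain B] [IsNoetherianRing B] [IsFractionRing B F] {ι : Type*}

/-- Common core of the chart statements: transport to the local ring `B_n` and back. -/
theorem chart_core {π τ : B} (hπ : Prime π) {u : F} (hu : u ≠ 0)
    (huπ : ∃ c d : B, ¬ π ∣ c ∧ ¬ π ∣ d ∧ u * algebraMap B F d = algebraMap B F c)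
    (n : Ideal B) (hn : n.IsMaximal) (hπn : π ∈ n) (hτn : τ ∈ n)
    (hτ : ∀ x ∈ n, ∃ s : B, s ∉ n ∧ s * x ∈ Ideal.span {π, τ})
    (s : Finset ι) (v : ι → F → ℤ) (hv : ∀ i ∈ s, IsHorizVal π n (v i))
    (hinj : ∀ i ∈ s, ∀ j ∈ s, (∀ x : F, x ≠ 0 → v i x = v j x) → i = j)
    (hrat : ∀ i ∈ s, ∀ x ∈ n, ∃ a : B, x = π * a ∨ 0 < v i (algebraMap B F (x - π * a)))
    (hall : ∀ w : F → ℤ, IsHorizVal π n w → w u ≠ 0 → ∃ i ∈ s, ∀ x : F, x ≠ 0 → w x = v i x) :
    (∃ (ka kb : ℕ) (c d a b : B), (ka : ℤ) - kb = ∑ i ∈ s, v i u ∧ c ∉ n ∧ d ∉ n ∧ ¬ π ∣ b ∧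
      (u * algebraMap B F (d * τ ^ kb) - algebraMap B F (c * τ ^ ka)) * algebraMap B F b =
        algebraMap B F (π * a)) ∧
    (∑ i ∈ s, v i u = 0 → ∃ c d a b : B, c ∉ n ∧ d ∉ n ∧ ¬ π ∣ b ∧
      (u * algebraMap B F d - algebraMap B F c) * algebraMap B F b = algebraMap B F (π * a)) := by
  classical
  have := hn
  have hS : n.primeCompl ≤ nonZeroDivisors B := by
    intro x hx
    exact mem_nonZeroDivisors_of_ne_zero (fun h => hx (h ▸ n.zero_mem))
  let R := Localization.subalgebra.ofField F n.primeCompl hS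
  have hloc : IsLocalization.AtPrime R n :=
    Localization.subalgebra.isLocalization_ofField F n.primeCompl hS
  have : IsLocalRing R := IsLocalization.AtPrime.isLocalRing R n
  have : IsNoetherianRing R := IsLocalization.isNoetherianRing n.primeCompl R inferInstance
  have hinjBR : Function.Injective (algebraMap B R) := IsLocalization.injective R hS
  have hmax : maximalIdeal R = Ideal.span {algebraMap B R π, algebraMap B R τ} := by
    rw [← IsLocalization.AtPrime.map_eq_maximalIdeal n R]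
    apply le_antisymm
    · rw [Ideal.map_le_iff_le_comap]
      intro x hx
      obtain ⟨t, ht, htx⟩ := hτ x hx
      have h1 : algebraMap B R (t * x) ∈ Ideal.span {algebraMap B R π, algebraMap B R τ} := by
        have := Ideal.mem_map_of_mem (algebraMap B R) htx
        rwa [Ideal.map_span, Set.image_pair] at this
      rw [map_mul] at h1
      have hu' : IsUnit (algebraMap B R t) := IsLocalization.map_units R (⟨t, ht⟩ : n.primeCompl)
      exact (Ideal.unit_mul_mem_iff_mem _ hu').mp h1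
    · rw [Ideal.span_le]
      rintro y (rfl | rfl)
      · exact Ideal.mem_map_of_mem _ hπn
      · exact Ideal.mem_map_of_mem _ hτn
  have hdisj : Disjoint (n.primeCompl : Set B) (Ideal.span {π} : Ideal B) := by
    rw [Set.disjoint_left]
    intro x hx hx'
    exact hx ((Ideal.span_singleton_le_iff_mem _).mpr hπn hx')
  have hπprime : (Ideal.span {π}).IsPrime := (Ideal.span_singleton_prime hπ.ne_zero).mpr hπ
  have hπ'0 : algebraMap B R π ≠ 0 := fun h => hπ.ne_zero (hinjBR (by rw [h, map_zero]))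
  have hπ' : Prime (algebraMap B R π) := by
    have := IsLocalization.isPrime_of_isPrime_disjoint n.primeCompl R (Ideal.span {π}) hπprime hdisj
    rw [Ideal.map_span, Set.image_singleton] at this
    exact (Ideal.span_singleton_prime hπ'0).mp this
  have hndvd : ∀ c : B, ¬ π ∣ c → ¬ algebraMap B R π ∣ algebraMap B R c := by
    intro c hc hdvd
    apply hc
    have h1 : algebraMap B R c ∈ Ideal.map (algebraMap B R) (Ideal.span {π}) := by
      rw [Ideal.map_span, Set.image_singleton]
      exact Ideal.mem_span_singleton.mpr hdvd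
    have h2 : c ∈ (Ideal.map (algebraMap B R) (Ideal.span {π})).under B := h1
    rw [IsLocalization.under_map_of_isPrime_disjoint n.primeCompl R hπprime hdisj] at h2
    exact Ideal.mem_span_singleton.mp h2
  have hBF : ∀ b : B, algebraMap R F (algebraMap B R b) = algebraMap B F b := fun b =>
    (IsScalarTower.algebraMap_apply B R F b).symm
  -- fractions
  have hfrac : ∀ r : R, ∃ (a : B) (t : B), t ∉ n ∧ r * algebraMap B R t = algebraMap B R a := by
    intro r
    obtain ⟨a, t, hat⟩ := IsLocalization.exists_mk'_eq n.primeCompl r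
    exact ⟨a, t, t.2, by rw [← hat]; exact IsLocalization.mk'_spec R a t⟩
  have hfracu : ∀ r : Rˣ, ∃ (a : B) (t : B), a ∉ n ∧ t ∉ n ∧
      (r : R) * algebraMap B R t = algebraMap B R a := by
    intro r
    obtain ⟨a, t, hat⟩ := IsLocalization.exists_mk'_eq n.primeCompl (r : R)
    have ha : a ∈ n.primeCompl :=
      (IsLocalization.AtPrime.isUnit_mk'_iff R n a t).mp (hat ▸ r.isUnit)
    exact ⟨a, t, ha, t.2, by rw [← hat]; exact IsLocalization.mk'_spec R a t⟩
  -- valuations
  have hloc_of_horiz : ∀ w : F → ℤ, IsHorizVal π n w → IsLocVal (algebraMap B R π) w := by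
    intro w hw
    refine ⟨hw.mul, hw.add, ?_, ?_, hw.norm⟩
    · intro r hr
      obtain ⟨a, t, ht, hat⟩ := hfrac r
      have ht0 : t ≠ 0 := fun h => ht (h ▸ n.zero_mem)
      have ha0 : a ≠ 0 := by
        rintro rfl
        rw [map_zero] at hat
        rcases mul_eq_zero.mp hat with h | h
        · exact hr h
        · exact ht0 (hinjBR (by rw [h, map_zero]))
      have hr' : algebraMap R F r ≠ 0 := algebraMap_ne_zero' hr
      have ht' : algebraMap B F t ≠ 0 := algebraMap_ne_zero' ht0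
      have e : algebraMap R F r * algebraMap B F t = algebraMap B F a := by
        rw [← hBF, ← hBF, ← map_mul, hat]
      have h1 := hw.mul _ _ hr' ht'
      rw [e] at h1
      have h2 := hw.nonneg a ha0
      have h3 := hw.nonneg t ht0
      have h4 : ¬ 0 < w (algebraMap B F t) := fun h => ht (hw.center t ht0 h)
      omega
    · rw [hBF]; exact hw.pi
  have hhoriz_of_loc : ∀ w : F → ℤ, IsLocVal (algebraMap B R π) w → IsHorizVal π n w := by
    intro w hw
    refine ⟨hw.mul, hw.add, ?_, ?_, ?_, hw.norm⟩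
    · intro b hb
      rw [← hBF]
      exact hw.nonneg _ (fun h => hb (hinjBR (by rw [h, map_zero])))
    · rw [← hBF]; exact hw.pi
    · intro b _ hpos
      by_contra hbn
      have hu' : IsUnit (algebraMap B R b) := IsLocalization.map_units R (⟨b, hbn⟩ : n.primeCompl)
      have := hw.map_unit hu'
      rw [hBF] at this
      omega
  have hv' : ∀ i ∈ s, IsLocVal (algebraMap B R π) (v i) := fun i hi => hloc_of_horiz _ (hv i hi)
  have hrat' : ∀ i ∈ s, ∃ a : R, algebraMap B R τ = algebraMap B R π * a ∨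
      0 < v i (algebraMap R F (algebraMap B R τ - algebraMap B R π * a)) := by
    intro i hi
    obtain ⟨a, ha⟩ := hrat i hi τ hτn
    refine ⟨algebraMap B R a, ?_⟩
    rcases ha with h | h
    · left; rw [h, map_mul]
    · right; rw [← map_mul, ← map_sub, hBF]; exact h
  have hall' : ∀ w : F → ℤ, IsLocVal (algebraMap B R π) w → w u ≠ 0 →
      ∃ i ∈ s, ∀ x : F, x ≠ 0 → w x = v i x := fun w hw hne => hall w (hhoriz_of_loc w hw) hne
  have huπ' : ∃ c d : R, ¬ algebraMap B R π ∣ c ∧ ¬ algebraMap B R π ∣ d ∧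
      u * algebraMap R F d = algebraMap R F c := by
    obtain ⟨c, d, hc, hd, hcd⟩ := huπ
    exact ⟨algebraMap B R c, algebraMap B R d, hndvd c hc, hndvd d hd, by rw [hBF, hBF]; exact hcd⟩
  -- translation of a local congruence to the chart
  have htrans : ∀ (T1 T2 : B) (w1 w2 : Rˣ) (r b0 : R), ¬ algebraMap B R π ∣ b0 →
      (u * algebraMap R F ((w2 : R) * algebraMap B R T2) -
        algebraMap R F ((w1 : R) * algebraMap B R T1)) * algebraMap R F b0 =
        algebraMap R F (algebraMap B R π * r) →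
      ∃ c d a b : B, c ∉ n ∧ d ∉ n ∧ ¬ π ∣ b ∧
        (u * algebraMap B F (d * T2) - algebraMap B F (c * T1)) * algebraMap B F b =
          algebraMap B F (π * a) := by
    intro T1 T2 w1 w2 r b0 hb0 h
    obtain ⟨c1, s1, hc1, hs1, e1⟩ := hfracu w1
    obtain ⟨c2, s2, hc2, hs2, e2⟩ := hfracu w2
    obtain ⟨β, σ, hσ, e3⟩ := hfrac b0
    obtain ⟨ρ, σ', hσ', e4⟩ := hfrac r
    have hβ : ¬ π ∣ β := by
      intro hdiv
      have h1 : algebraMap B R π ∣ b0 * algebraMap B R σ := by
        rw [e3]; exact map_dvd (algebraMap B R) hdiv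
      rcases hπ'.dvd_or_dvd h1 with h2 | h2
      · exact hb0 h2
      · exact hπ'.not_isUnit (isUnit_of_dvd_unit h2
          (IsLocalization.map_units R (⟨σ, hσ⟩ : n.primeCompl)))
    have hσ'π : ¬ π ∣ σ' := fun hdiv => hσ' (Ideal.mem_of_dvd n hdiv hπn)
    refine ⟨c1 * s2, c2 * s1, ρ * s1 * s2 * σ, β * σ',
      fun h => (hn.isPrime.mem_or_mem h).elim hc1 hs2,
      fun h => (hn.isPrime.mem_or_mem h).elim hc2 hs1,
      fun h => (hπ.dvd_or_dvd h).elim hβ hσ'π, ?_⟩
    have E1 : algebraMap R F (w1 : R) * algebraMap B F s1 = algebraMap B F c1 := by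
      rw [← hBF, ← hBF, ← map_mul, e1]
    have E2 : algebraMap R F (w2 : R) * algebraMap B F s2 = algebraMap B F c2 := by
      rw [← hBF, ← hBF, ← map_mul, e2]
    have E3 : algebraMap R F b0 * algebraMap B F σ = algebraMap B F β := by
      rw [← hBF, ← hBF, ← map_mul, e3]
    have E4 : algebraMap R F r * algebraMap B F σ' = algebraMap B F ρ := by
      rw [← hBF, ← hBF, ← map_mul, e4]
    simp only [map_mul, hBF] at h
    simp only [map_mul]
    rw [← E1, ← E2, ← E3, ← E4]
    linear_combination (algebraMap B F s1 * algebraMap B F s2 * algebraMap B F σ *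
      algebraMap B F σ') * h
  refine ⟨?_, ?_⟩
  · obtain ⟨ka, kb, w1, w2, r, b0, hk, hb0, h⟩ :=
      local_compat' hπ' hmax hu huπ' s v hv' hinj hrat' hall'
    obtain ⟨c, d, a, b, hc, hd, hb, hh⟩ := htrans (τ ^ ka) (τ ^ kb) w1 w2 r b0 hb0
      (by rw [map_pow, map_pow]; exact h)
    exact ⟨ka, kb, c, d, a, b, hk, hc, hd, hb, hh⟩
  · intro hsum
    obtain ⟨w1, w2, r, b0, hb0, h⟩ :=
      local_unit hπ' hmax hu huπ' s v hv' hinj hrat' hall' hsum
    obtain ⟨c, d, a, b, hc, hd, hb, hh⟩ := htrans 1 1 w1 w2 r b0 hb0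
      (by rw [map_one, mul_one, mul_one]; exact h)
    exact ⟨c, d, a, b, hc, hd, hb, by rw [mul_one, mul_one] at hh; exact hh⟩

/-- **(UNIT'), local form.**  `B` a noetherian chart with fraction field `F`, regular along
`π = 0` (`H08.RegAt π`), `n ∋ π` a maximal ideal, `u` a unit along `π`.  If every horizontal zero
or pole of `u` through `n` is a *rational section* (member of the family `v`, with
`q_i + π B = n`), and the orders of `u` along them sum to zero, then `u` is congruent modulo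
`π B_(π)` to a quotient `c / d` of elements of `B` outside `n`: its reduction is a unit at the
closed point `n` of the special fibre. -/
theorem unit_mod_of_rational_sections {π : B} (hπ : Prime π)
    (hreg : Fermat.Agent.S18.H08.RegAt π) {u : F} (hu : u ≠ 0)
    (huπ : ∃ c d : B, ¬ π ∣ c ∧ ¬ π ∣ d ∧ u * algebraMap B F d = algebraMap B F c)
    (n : Ideal B) (hn : n.IsMaximal) (hπn : π ∈ n)
    (s : Finset ι) (v : ι → F → ℤ) (hv : ∀ i ∈ s, IsHorizVal π n (v i))
    (hinj : ∀ i ∈ s, ∀ j ∈ s, (∀ x : F, x ≠ 0 → v i x = v j x) → i = j)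
    (hrat : ∀ i ∈ s, ∀ x ∈ n, ∃ a : B, x = π * a ∨ 0 < v i (algebraMap B F (x - π * a)))
    (hall : ∀ w : F → ℤ, IsHorizVal π n w → w u ≠ 0 → ∃ i ∈ s, ∀ x : F, x ≠ 0 → w x = v i x)
    (hsum : ∑ i ∈ s, v i u = 0) :
    ∃ c d a b : B, c ∉ n ∧ d ∉ n ∧ ¬ π ∣ b ∧
      (u * algebraMap B F d - algebraMap B F c) * algebraMap B F b = algebraMap B F (π * a) := by
  obtain ⟨τ, hτn, hτ⟩ := hreg n hn hπn
  exact (chart_core hπ hu huπ n hn hπn hτn hτ s v hv hinj hrat hall).2 hsum

/-- **Local compatibility on a chart** (no hypothesis on the sum): with `τ` a local parameter of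
the special fibre at `n`, `u * d * τ ^ kb ≡ c * τ ^ ka` modulo `π B_(π)` with `c, d ∉ n` and
`ka - kb = ∑ i, v i u`, i.e. the order of the reduction of `u` at the closed point `n` is the sum
of the orders of `u` along the sections through `n`. -/
theorem compat_of_rational_sections {π τ : B} (hπ : Prime π) {u : F} (hu : u ≠ 0)
    (huπ : ∃ c d : B, ¬ π ∣ c ∧ ¬ π ∣ d ∧ u * algebraMap B F d = algebraMap B F c)
    (n : Ideal B) (hn : n.IsMaximal) (hπn : π ∈ n) (hτn : τ ∈ n)
    (hτ : ∀ x ∈ n, ∃ s : B, s ∉ n ∧ s * x ∈ Ideal.span {π, τ})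
    (s : Finset ι) (v : ι → F → ℤ) (hv : ∀ i ∈ s, IsHorizVal π n (v i))
    (hinj : ∀ i ∈ s, ∀ j ∈ s, (∀ x : F, x ≠ 0 → v i x = v j x) → i = j)
    (hrat : ∀ i ∈ s, ∀ x ∈ n, ∃ a : B, x = π * a ∨ 0 < v i (algebraMap B F (x - π * a)))
    (hall : ∀ w : F → ℤ, IsHorizVal π n w → w u ≠ 0 → ∃ i ∈ s, ∀ x : F, x ≠ 0 → w x = v i x) :
    ∃ (ka kb : ℕ) (c d a b : B), (ka : ℤ) - kb = ∑ i ∈ s, v i u ∧ c ∉ n ∧ d ∉ n ∧ ¬ π ∣ b ∧
      (u * algebraMap B F (d * τ ^ kb) - algebraMap B F (c * τ ^ ka)) * algebraMap B F b =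
        algebraMap B F (π * a) :=
  (chart_core hπ hu huπ n hn hπn hτn hτ s v hv hinj hrat hall).1

omit [IsDomain B] [IsNoetherianRing B] [IsFractionRing B F] in
/-- **(UNIT'), global corollary.**  If the reduction of `u` is a unit at every closed point of the
special fibre of the chart, then it lies in the image of the chart: `u ≡ c0` modulo `π B_(π)` for
some `c0 ∈ B`. -/
theorem exists_chart_congr {π : B} (hπ : Prime π) {u : F}
    (huπ : ∃ c d : B, ¬ π ∣ c ∧ ¬ π ∣ d ∧ u * algebraMap B F d = algebraMap B F c)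
    (H : ∀ n : Ideal B, n.IsMaximal → π ∈ n → ∃ c d a b : B, c ∉ n ∧ d ∉ n ∧ ¬ π ∣ b ∧
      (u * algebraMap B F d - algebraMap B F c) * algebraMap B F b = algebraMap B F (π * a)) :
    ∃ c0 a b : B, ¬ π ∣ b ∧ (u - algebraMap B F c0) * algebraMap B F b = algebraMap B F (π * a) := by
  let I : Ideal B :=
    { carrier := {x | ∃ c a b : B, ¬ π ∣ b ∧
        (u * algebraMap B F x - algebraMap B F c) * algebraMap B F b = algebraMap B F (π * a)}
      zero_mem' := ⟨0, 0, 1, fun h => hπ.not_isUnit (isUnit_of_dvd_one h), by simp⟩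
      add_mem' := by
        rintro x y ⟨c1, a1, b1, hb1, h1⟩ ⟨c2, a2, b2, hb2, h2⟩
        refine ⟨c1 + c2, a1 * b2 + a2 * b1, b1 * b2,
          fun h => (hπ.dvd_or_dvd h).elim hb1 hb2, ?_⟩
        simp only [map_add, map_mul] at h1 h2 ⊢
        linear_combination algebraMap B F b2 * h1 + algebraMap B F b1 * h2
      smul_mem' := by
        rintro y x ⟨c, a, b, hb, h⟩
        refine ⟨y * c, y * a, b, hb, ?_⟩
        simp only [smul_eq_mul, map_mul] at h ⊢
        linear_combination algebraMap B F y * h }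
  have hπI : π ∈ I := by
    obtain ⟨c, d, -, hd, hcd⟩ := huπ
    refine ⟨0, c, d, hd, ?_⟩
    simp only [map_zero, sub_zero, map_mul]
    linear_combination algebraMap B F π * hcd
  have hI : I = ⊤ := by
    by_contra hne
    obtain ⟨n, hn, hIn⟩ := Ideal.exists_le_maximal I hne
    obtain ⟨c, d, a, b, -, hd, hb, h⟩ := H n hn (hIn hπI)
    exact hd (hIn ⟨c, a, b, hb, h⟩)
  have h1 : (1 : B) ∈ I := by rw [hI]; exact Submodule.mem_top
  obtain ⟨c, a, b, hb, h⟩ := h1
  exact ⟨c, a, b, hb, by rw [map_one, mul_one] at h; exact h⟩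

end Chart

end Fermat.Agent.S37.H66
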