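import Mathlib
import Fermat.Agent.S37.UnitPlace_helper66

/-!
# S37 (UNIT'), consumer form with centred hypotheses

Same statement as `unit_mod_of_places` (UnitPlace_helper66), but the rationality hypothesis
`hrat` and the completeness hypothesis `hall` are only required for places which are CENTRED at a
closed point `n ∋ π` of the special fibre of the chart.  This is the form the model assembly can
discharge: a `K0`-rational place which is regular on the generic fibre of the chart but whose
coordinate value is not in `A₀` has no `A₀`-valued section, and it is irrelevant for the chart.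
-/

set_option autoImplicit false

open AlgebraicCurve

namespace Fermat.Agent.S37.H66

open Fermat.Agent.S24.H31 (ZVal)

section PlacesCen

variable (A F : Type) [CommRing A] [IsDomain A] [Field F] [Algebra A F]
  (K0 : Type) [Field K0] [Algebra A K0] [IsFractionRing A K0] [Algebra K0 F]
  [IsScalarTower A K0 F]

/-- One-sided form of `unit_mod_of_centred_places`. -/
theorem unit_mod_of_centred_places_aux (π : A) (V : ValuationSubring F) (B : Subalgebra A F) (u : F)
    (hπ : π ≠ 0) (hinj : Function.Injective (algebraMap A F))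
    (harch : ∀ c : A, c ≠ 0 → ∃ n : ℕ, c ∣ π ^ n) (hAmax : ∀ a : A, ¬ π ∣ a → IsUnit a)
    (hπV : algebraMap A F π ∈ V.nonunits)
    (hVπ : ∀ x ∈ V.nonunits, ∃ y ∈ V, x = algebraMap A F π * y)
    (hBV : ∀ x ∈ B, x ∈ V) (hnoeth : IsNoetherianRing B)
    (hfrac : ∀ x : F, ∃ a ∈ B, ∃ b ∈ B, b ≠ 0 ∧ x * b = a)
    (hsat : ∀ x ∈ B, (∃ y ∈ V, x = algebraMap A F π * y) → ∃ b ∈ B, x = algebraMap A F π * b)
    (hreg : ∀ n : Ideal B, n.IsMaximal → algebraMap A B π ∈ n →
      ∃ τ ∈ n, ∀ a : B, a ∉ Ideal.span {algebraMap A B π} →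
        ∃ (e : ℕ) (d u : B), d ∉ n ∧ u ∉ n ∧
          a * d - u * τ ^ e ∈ Ideal.span {algebraMap A B π})
    (hu0 : u ≠ 0) (hu : u ∈ V) (hu' : u⁻¹ ∈ V)
    (T : Finset (Place K0 F))
    (hrat : ∀ P ∈ T, ∀ n : Ideal B, n.IsMaximal → algebraMap A B π ∈ n →
      (∀ b ∈ B, b ∈ P.toValuationSubring) →
      (∀ b : B, (b : F) ∈ P.toValuationSubring.nonunits → b ∈ n) →
      ∀ b ∈ B, ∃ c : A, b - algebraMap A F c ∈ P.toValuationSubring.nonunits)
    (hall : ∀ P : Place K0 F, ∀ n : Ideal B, n.IsMaximal → algebraMap A B π ∈ n →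
      (∀ b ∈ B, b ∈ P.toValuationSubring) →
      (∀ b : B, (b : F) ∈ P.toValuationSubring.nonunits → b ∈ n) → P.ord u ≠ 0 → P ∈ T)
    (hsum : ∀ n : Ideal B, n.IsMaximal → algebraMap A B π ∈ n →
      ∀ S : Finset (Place K0 F),
        (∀ P, P ∈ S ↔ P ∈ T ∧ (∀ b ∈ B, b ∈ P.toValuationSubring) ∧
          ∀ b : B, (b : F) ∈ P.toValuationSubring.nonunits → b ∈ n) →
        ∑ P ∈ S, P.ord u = 0) :
    ∃ c ∈ B, ∃ y ∈ V, u - c = algebraMap A F π * y := by
  classical
  have := hnoeth
  obtain ⟨hprime, hdvd_iff, hnd_unit, hVfrac⟩ :=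
    chart_setup hπ hinj hπV hVπ hBV hnoeth hfrac hsat
  have hFR : IsFractionRing B F := chart_isFractionRing hfrac
  set πB : B := algebraMap A B π with hπB
  have hregAt : Fermat.Agent.S18.H08.RegAt πB := Fermat.Agent.S18.H08.regAt_of_reg hreg
  -- `u` is a unit along `π`
  have huπ : ∃ c d : B, ¬ πB ∣ c ∧ ¬ πB ∣ d ∧ u * algebraMap B F d = algebraMap B F c := by
    obtain ⟨a, b, hb, hab⟩ := hVfrac u hu
    refine ⟨a, b, ?_, hb, hab⟩
    intro ha
    have h1 : (a : F) ∈ V.nonunits := (hdvd_iff a).mp ha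
    rw [ValuationSubring.mem_nonunits_iff_or] at h1
    obtain ⟨hb0, hbi⟩ := hnd_unit b hb
    rcases h1 with h1 | h1
    · rw [h1] at hab
      rcases mul_eq_zero.mp hab with h | h
      · exact hu0 h
      · exact hb0 h
    · apply h1
      rw [← hab, mul_inv]
      exact V.mul_mem _ _ hu' hbi
  -- constants
  have hAF : ∀ a : A, algebraMap A F a = algebraMap K0 F (algebraMap A K0 a) := fun a =>
    IsScalarTower.algebraMap_apply A K0 F a
  -- local statement at every closed point
  have hloc : ∀ n : Ideal B, n.IsMaximal → πB ∈ n → ∃ c d a b : B, c ∉ n ∧ d ∉ n ∧ ¬ πB ∣ b ∧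
      (u * algebraMap B F d - algebraMap B F c) * algebraMap B F b = algebraMap B F (πB * a) := by
    intro n hn hπn
    let cen : Place K0 F → Prop := fun P => (∀ b ∈ B, b ∈ P.toValuationSubring) ∧
      ∀ b : B, (b : F) ∈ P.toValuationSubring.nonunits → b ∈ n
    let s : Finset (Place K0 F) := T.filter cen
    have hs : ∀ P, P ∈ s ↔ P ∈ T ∧ cen P := fun P => Finset.mem_filter
    have hposmem : ∀ (P : Place K0 F) (x : F), 0 < P.ord x →
        x ∈ P.toValuationSubring.nonunits := by
      intro P x hpos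
      rw [ValuationSubring.mem_nonunits_iff_or]
      right
      intro hinv
      have := Fermat.Agent.S24.H19.ord_nonneg_of_mem P hinv
      rw [Place.ord_inv] at this
      omega
    have hmempos : ∀ (P : Place K0 F) (x : F), x ≠ 0 → x ∈ P.toValuationSubring.nonunits →
        0 < P.ord x := by
      intro P x hx0 hx
      rcases (ValuationSubring.mem_nonunits_iff_or _).mp hx with h | h
      · exact absurd h hx0
      · by_contra hle
        apply h
        apply Fermat.Agent.S24.H19.mem_of_ord_nonneg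
        rw [Place.ord_inv]
        omega
    have hv : ∀ P ∈ s, IsHorizVal πB n (fun x => P.ord x) := by
      intro P hP
      obtain ⟨-, hcen1, hcen2⟩ := (hs P).mp hP
      refine ⟨fun x y hx hy => P.ord_mul hx hy,
        fun x y _ _ hxy => Fermat.Agent.S24.H19.ord_add_ge P hxy,
        fun b _ => Fermat.Agent.S24.H19.ord_nonneg_of_mem P (hcen1 b b.2), ?_,
        fun b _ hpos => hcen2 b (hposmem P _ hpos), ?_⟩
      · show P.ord (algebraMap A F π) = 0
        rw [hAF]
        exact Fermat.Agent.S24.H19.ord_algebraMap P _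
      · obtain ⟨ϖ, hϖ⟩ := Fermat.Agent.S24.H19.exists_ord_eq_one P
        refine ⟨ϖ, ?_, hϖ⟩
        rintro rfl
        rw [Place.ord_zero] at hϖ
        exact zero_ne_one hϖ
    have hinj' : ∀ P ∈ s, ∀ Q ∈ s, (∀ x : F, x ≠ 0 → P.ord x = Q.ord x) → P = Q := by
      intro P _ Q _ h
      apply Fermat.Agent.S24.H19.place_ext_of_ord
      intro f
      by_cases hf : f = 0
      · simp [hf]
      · rw [h f hf]
    have hrat' : ∀ P ∈ s, ∀ x ∈ n, ∃ a : B, x = πB * a ∨
        0 < P.ord (algebraMap B F (x - πB * a)) := by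
      intro P hP x hx
      obtain ⟨hPT, hcen1, hcen2⟩ := (hs P).mp hP
      obtain ⟨c, hc⟩ := hrat P hPT n hn hπn hcen1 hcen2 (x : F) x.2
      have hy : x - algebraMap A B c ∈ n := hcen2 (x - algebraMap A B c) hc
      have hcn : algebraMap A B c ∈ n := by
        have := n.sub_mem hx hy
        rwa [sub_sub_cancel] at this
      have hπc : π ∣ c := by
        by_contra hnd
        have hcu : IsUnit (algebraMap A B c) := (hAmax c hnd).map _
        exact hn.ne_top (Ideal.eq_top_of_isUnit_mem n hcn hcu)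
      obtain ⟨c', rfl⟩ := hπc
      refine ⟨algebraMap A B c', ?_⟩
      by_cases h0 : x - πB * algebraMap A B c' = 0
      · left; exact sub_eq_zero.mp h0
      · right
        have e : algebraMap B F (x - πB * algebraMap A B c') = (x : F) - algebraMap A F (π * c') := by
          rw [map_sub, map_mul, hπB, ← IsScalarTower.algebraMap_apply,
            ← IsScalarTower.algebraMap_apply, ← map_mul]
          rfl
        rw [e]
        apply hmempos P _ _ hc
        rw [← e]
        exact fun h => h0 (Subtype.val_injective (by simpa using h))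
    have hall' : ∀ w : F → ℤ, IsHorizVal πB n w → w u ≠ 0 →
        ∃ P ∈ s, ∀ x : F, x ≠ 0 → w x = P.ord x := by
      intro w hw hne
      let W : ZVal F := ⟨w, fun {f g} hf hg => hw.mul f g hf hg,
        fun {f g} hf hg hfg => hw.add f g hf hg hfg⟩
      have hA0 : ∀ a : A, a ≠ 0 → W.ord (algebraMap A F a) = 0 := by
        intro a ha
        obtain ⟨k, a', ea⟩ := harch a ha
        have ha'0 : a' ≠ 0 := by
          rintro rfl
          rw [mul_zero] at ea
          exact pow_ne_zero k hπ ea
        have haF : algebraMap A F a ≠ 0 := fun h => ha (hinj (by rw [h, map_zero]))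
        have ha'F : algebraMap A F a' ≠ 0 := fun h => ha'0 (hinj (by rw [h, map_zero]))
        have hπF : algebraMap A F π ≠ 0 := fun h => hπ (hinj (by rw [h, map_zero]))
        have h1 : w (algebraMap A F a * algebraMap A F a') = (k : ℤ) * w (algebraMap A F π) := by
          rw [← map_mul, ← ea, map_pow]
          exact W.ord_pow hπF k
        rw [hw.mul _ _ haF ha'F] at h1
        have h2 : w (algebraMap A F π) = 0 := hw.pi
        have h3 : 0 ≤ w (algebraMap A F a) := hw.nonneg (algebraMap A B a)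
          (fun h => haF (by simpa using congrArg Subtype.val h))
        have h4 : 0 ≤ w (algebraMap A F a') := hw.nonneg (algebraMap A B a')
          (fun h => ha'F (by simpa using congrArg Subtype.val h))
        rw [h2, mul_zero] at h1
        show w (algebraMap A F a) = 0
        omega
      have hK : ∀ c : K0, c ≠ 0 → W.ord (algebraMap K0 F c) = 0 :=
        Fermat.Agent.S18.H94.zval_trivial_of_fractionRing W hA0
      obtain ⟨P, m, hm, hP⟩ := Fermat.Agent.S24.H19.exists_place_of_zval (K := K0) W hK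
        ⟨u, hu0, hne⟩
      have hm1 : m = 1 := by
        obtain ⟨x, hx0, hx1⟩ := hw.norm
        have := hP x hx0
        have h1 : m * P.ord x = 1 := by rw [← this]; exact hx1
        exact Int.eq_one_of_dvd_one hm.le ⟨_, h1.symm⟩
      have hP' : ∀ f : F, f ≠ 0 → w f = P.ord f := fun f hf => by
        have := hP f hf
        rw [hm1, one_mul] at this
        exact this
      have hcen1 : ∀ b ∈ B, b ∈ P.toValuationSubring := by
        intro b hb
        by_cases hb0 : b = 0
        · rw [hb0]; exact zero_mem _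
        apply Fermat.Agent.S24.H19.mem_of_ord_nonneg
        rw [← hP' b hb0]
        exact hw.nonneg ⟨b, hb⟩ (fun h => hb0 (congrArg Subtype.val h))
      have hcen2 : ∀ b : B, (b : F) ∈ P.toValuationSubring.nonunits → b ∈ n := by
        intro b hb
        by_cases hb0 : b = 0
        · rw [hb0]; exact n.zero_mem
        have hbF : (b : F) ≠ 0 := fun h => hb0 (Subtype.val_injective (by simpa using h))
        have hpos := hmempos P _ hbF hb
        rw [← hP' _ hbF] at hpos
        exact hw.center b hb0 hpos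
      have hPT : P ∈ T := hall P n hn hπn hcen1 hcen2 (by rw [← hP' u hu0]; exact hne)
      exact ⟨P, (hs P).mpr ⟨hPT, hcen1, hcen2⟩, hP'⟩
    have hsum' : ∑ P ∈ s, (fun x => P.ord x) u = 0 := hsum n hn hπn s hs
    exact unit_mod_of_rational_sections hprime hregAt hu0 huπ n hn hπn s
      (fun P x => P.ord x) hv hinj' hrat' hall' hsum'
  obtain ⟨c0, a, b, hb, h⟩ := exists_chart_congr hprime huπ hloc
  obtain ⟨hb0, hbi⟩ := hnd_unit b hb
  refine ⟨c0, c0.2, (a : F) * (b : F)⁻¹, V.mul_mem _ _ (hBV _ a.2) hbi, ?_⟩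
  have h' : (u - (c0 : F)) * (b : F) = algebraMap A F π * (a : F) := by
    have := h
    rw [map_mul] at this
    exact this
  field_simp
  linear_combination h'

/-- **(UNIT'), consumer form, centred hypotheses.**  In the chart vocabulary of `H63.StmtBase`
(plus `hAmax`: `A / π` is a field, and `K0 = Frac A`): a Gauss unit `u` such that, at every closed
point `n` of the special fibre of the chart, the zeros and poles of `u` centred in `n` belong to
`T` (`hall`), are `A`-rational sections (`hrat`) and have total order zero (`hsum`), satisfies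
`ρ(u), ρ(u)⁻¹ ∈ ρ(B)`.  Places of `T` which are regular on the chart but do not specialise into
its special fibre (value of the chart coordinate not in `A`) are not constrained at all. -/
theorem unit_mod_of_centred_places (π : A) (V : ValuationSubring F) (B : Subalgebra A F) (u : F)
    (hπ : π ≠ 0) (hinj : Function.Injective (algebraMap A F))
    (harch : ∀ c : A, c ≠ 0 → ∃ n : ℕ, c ∣ π ^ n) (hAmax : ∀ a : A, ¬ π ∣ a → IsUnit a)
    (hπV : algebraMap A F π ∈ V.nonunits)
    (hVπ : ∀ x ∈ V.nonunits, ∃ y ∈ V, x = algebraMap A F π * y)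
    (hBV : ∀ x ∈ B, x ∈ V) (hnoeth : IsNoetherianRing B)
    (hfrac : ∀ x : F, ∃ a ∈ B, ∃ b ∈ B, b ≠ 0 ∧ x * b = a)
    (hsat : ∀ x ∈ B, (∃ y ∈ V, x = algebraMap A F π * y) → ∃ b ∈ B, x = algebraMap A F π * b)
    (hreg : ∀ n : Ideal B, n.IsMaximal → algebraMap A B π ∈ n →
      ∃ τ ∈ n, ∀ a : B, a ∉ Ideal.span {algebraMap A B π} →
        ∃ (e : ℕ) (d u : B), d ∉ n ∧ u ∉ n ∧
          a * d - u * τ ^ e ∈ Ideal.span {algebraMap A B π})
    (hu0 : u ≠ 0) (hu : u ∈ V) (hu' : u⁻¹ ∈ V)
    (T : Finset (Place K0 F))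
    (hrat : ∀ P ∈ T, ∀ n : Ideal B, n.IsMaximal → algebraMap A B π ∈ n →
      (∀ b ∈ B, b ∈ P.toValuationSubring) →
      (∀ b : B, (b : F) ∈ P.toValuationSubring.nonunits → b ∈ n) →
      ∀ b ∈ B, ∃ c : A, b - algebraMap A F c ∈ P.toValuationSubring.nonunits)
    (hall : ∀ P : Place K0 F, ∀ n : Ideal B, n.IsMaximal → algebraMap A B π ∈ n →
      (∀ b ∈ B, b ∈ P.toValuationSubring) →
      (∀ b : B, (b : F) ∈ P.toValuationSubring.nonunits → b ∈ n) → P.ord u ≠ 0 → P ∈ T)
    (hsum : ∀ n : Ideal B, n.IsMaximal → algebraMap A B π ∈ n →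
      ∀ S : Finset (Place K0 F),
        (∀ P, P ∈ S ↔ P ∈ T ∧ (∀ b ∈ B, b ∈ P.toValuationSubring) ∧
          ∀ b : B, (b : F) ∈ P.toValuationSubring.nonunits → b ∈ n) →
        ∑ P ∈ S, P.ord u = 0) :
    (∃ c ∈ B, ∃ y ∈ V, u - c = algebraMap A F π * y) ∧
      (∃ c ∈ B, ∃ y ∈ V, u⁻¹ - c = algebraMap A F π * y) := by
  refine ⟨unit_mod_of_centred_places_aux A F K0 π V B u hπ hinj harch hAmax hπV hVπ hBV hnoeth hfrac hsat
    hreg hu0 hu hu' T hrat hall hsum, ?_⟩
  refine unit_mod_of_centred_places_aux A F K0 π V B u⁻¹ hπ hinj harch hAmax hπV hVπ hBV hnoeth hfrac hsat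
    hreg (inv_ne_zero hu0) hu' (by rwa [inv_inv]) T hrat ?_ ?_
  · intro P n hn hπn hB hcen hne
    apply hall P n hn hπn hB hcen
    rw [Place.ord_inv] at hne
    omega
  · intro n hn hπn S hS
    have := hsum n hn hπn S hS
    simp only [Place.ord_inv, Finset.sum_neg_distrib, this, neg_zero]

end PlacesCen

end Fermat.Agent.S37.H66
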