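import Mathlib
import Fermat.Agent.S18.TopGen_helper19
import Fermat.Agent.S18.GaussFull_helper93
import Fermat.Agent.S37.UnitPlaceCen_helper66

/-!
# S37, node (a)-ASSEMBLY, generic part (helper8)

* `sum_eq_zero_of_classes` : a finite sum over a union of classes of a partial equivalence
  relation vanishes as soon as the sum over every class does.
* `unit_chartU` : the landed (UNIT') theorem `H66.unit_mod_of_centred_places` at an
  integral-closure chart `H97.chartU A x` over a discrete valuation ring `A`, with the hypotheses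
  of `H97.kc_charts`; rationality is asked over `K = Frac A` only (the value lies in `A` as soon
  as the place is centred on the special fibre).
* `unit_model` : the two charts of the `K0`-model of `X₀(L)` with its Gauss valuation ring
  `H93.gaussWFull`, chart inputs as in `H19.modelKum_core`.
-/

set_option autoImplicit false

open AlgebraicCurve ModularCurve IntermediateField

namespace Fermat.Agent.S37.H08

open Fermat.Agent.S18

/-! ### sums over unions of classes -/

/-- If the sum of `g` over every `r`-class inside `T` vanishes, so does the sum over every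
subset `S ⊆ T` which is a union of classes (`r` symmetric and transitive, reflexive on `S`). -/
theorem sum_eq_zero_of_classes {α : Type*} (r : α → α → Prop)
    (hsymm : ∀ a b, r a b → r b a) (htrans : ∀ a b c, r a b → r b c → r a c)
    (T : Finset α) (g : α → ℤ)
    (h0 : ∀ (a₀ : α) (C : Finset α), (∀ a, a ∈ C ↔ a ∈ T ∧ r a a₀) → ∑ a ∈ C, g a = 0)
    (S : Finset α) (hST : S ⊆ T) (hrefl : ∀ a ∈ S, r a a)
    (hclosed : ∀ a ∈ S, ∀ b ∈ T, r a b → b ∈ S) : ∑ a ∈ S, g a = 0 := by
  classical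
  induction' hn : S.card using Nat.strong_induction_on with n ih generalizing S
  rcases S.eq_empty_or_nonempty with rfl | ⟨a₀, ha₀⟩
  · simp
  · set C := T.filter (fun a => r a a₀) with hC
    have hCS : C ⊆ S := by
      intro a ha
      rw [hC, Finset.mem_filter] at ha
      exact hclosed a₀ ha₀ a ha.1 (hsymm _ _ ha.2)
    have ha₀C : a₀ ∈ C := by
      rw [hC, Finset.mem_filter]
      exact ⟨hST ha₀, hrefl a₀ ha₀⟩
    have hsumC : ∑ a ∈ C, g a = 0 := h0 a₀ C (fun a => by rw [hC, Finset.mem_filter])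
    have hsplit : ∑ a ∈ S, g a = ∑ a ∈ S \ C, g a + ∑ a ∈ C, g a :=
      (Finset.sum_sdiff hCS).symm
    rw [hsplit, hsumC, add_zero]
    refine ih (S \ C).card ?_ (S \ C) ?_ ?_ ?_ rfl
    · rw [← hn]
      refine Finset.card_lt_card (Finset.sdiff_ssubset hCS ⟨a₀, ha₀C⟩)
    · exact fun a ha => hST (Finset.mem_sdiff.mp ha).1
    · exact fun a ha => hrefl a (Finset.mem_sdiff.mp ha).1
    · intro a ha b hb hab
      rw [Finset.mem_sdiff] at ha ⊢
      refine ⟨hclosed a ha.1 b hb hab, fun hbC => ha.2 ?_⟩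
      rw [hC, Finset.mem_filter] at hbC ⊢
      exact ⟨hST ha.1, htrans _ _ _ hab hbC.2⟩

/-! ### (UNIT') at an integral-closure chart -/

/-- **Rational + centred ⇒ integral value.**  `A` a discrete valuation ring with uniformiser
`π` and fraction field `K`, `B` an `A`-subalgebra of `F`, `n` a proper ideal of `B` containing
`π`, `P` a place of `F / K` centred in `n`.  If `b ∈ B` has the value `c : K` at `P`, then
`c ∈ A`. -/
theorem exists_eq_algebraMap_of_centred
    {A K F : Type*} [CommRing A] [IsDomain A] [IsDiscreteValuationRing A]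
    [Field K] [Algebra A K] [IsFractionRing A K]
    [Field F] [Algebra K F] [Algebra A F] [IsScalarTower A K F]
    {π : A} (hπ : Irreducible π) (B : Subalgebra A F) (n : Ideal B) (hn : n ≠ ⊤)
    (hπn : algebraMap A B π ∈ n) (P : Place K F)
    (hcen : ∀ b : B, (b : F) ∈ P.toValuationSubring.nonunits → b ∈ n)
    {b : F} (hb : b ∈ B) {c : K}
    (hc : b - algebraMap K F c ∈ P.toValuationSubring.nonunits) :
    ∃ a : A, algebraMap A K a = c := by
  rcases ValuationRing.isInteger_or_isInteger A c with ⟨a, ha⟩ | ⟨a, ha⟩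
  · exact ⟨a, ha⟩
  · by_cases hc0 : c = 0
    · exact ⟨0, by rw [map_zero, hc0]⟩
    by_cases hua : IsUnit a
    · obtain ⟨a', ha'⟩ := hua.exists_right_inv
      refine ⟨a', ?_⟩
      have h1 : algebraMap A K a * algebraMap A K a' = 1 := by rw [← map_mul, ha', map_one]
      rw [ha] at h1
      have h2 : c⁻¹ * algebraMap A K a' = c⁻¹ * c := by rw [h1, inv_mul_cancel₀ hc0]
      exact mul_left_cancel₀ (inv_ne_zero hc0) h2
    · exfalso
      have hmem : a ∈ IsLocalRing.maximalIdeal A := (IsLocalRing.mem_maximalIdeal a).mpr hua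
      rw [hπ.maximalIdeal_eq, Ideal.mem_span_singleton] at hmem
      obtain ⟨a', rfl⟩ := hmem
      -- `b * (π a') - 1 ∈ m_P ∩ B ⊆ n`
      have hcinv : algebraMap K F c⁻¹ = algebraMap A F (π * a') := by
        rw [← ha, ← IsScalarTower.algebraMap_apply]
      have h1 : (b - algebraMap K F c) * algebraMap K F c⁻¹ ∈ P.toValuationSubring.nonunits := by
        rw [mul_comm]
        have hmem : algebraMap K F c⁻¹ ∈ P.toValuationSubring := P.algebraMap_mem' _
        have h2 : (⟨algebraMap K F c⁻¹, hmem⟩ : P.toValuationSubring) *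
            ⟨b - algebraMap K F c, ValuationSubring.nonunits_subset hc⟩ ∈
            IsLocalRing.maximalIdeal P.toValuationSubring :=
          Ideal.mul_mem_left _ _ ((ValuationSubring.coe_mem_nonunits_iff
            (a := ⟨b - algebraMap K F c, ValuationSubring.nonunits_subset hc⟩)).mp hc)
        exact ValuationSubring.coe_mem_nonunits_iff.mpr h2
      have h3 : (b - algebraMap K F c) * algebraMap K F c⁻¹ =
          b * algebraMap A F (π * a') - 1 := by
        rw [sub_mul, ← map_mul, mul_inv_cancel₀ hc0, map_one, hcinv]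
      rw [h3] at h1
      have hbB : b * algebraMap A F (π * a') ∈ B :=
        mul_mem hb (Subalgebra.algebraMap_mem _ _)
      have h4 : (⟨b * algebraMap A F (π * a') - 1, sub_mem hbB (one_mem _)⟩ : B) ∈ n :=
        hcen _ h1
      have h5 : (⟨b * algebraMap A F (π * a'), hbB⟩ : B) ∈ n := by
        have h6 : (⟨b * algebraMap A F (π * a'), hbB⟩ : B) =
            algebraMap A B π * (⟨b, hb⟩ * algebraMap A B a') := by
          apply Subtype.ext
          simp only [map_mul, MulMemClass.coe_mul, Subalgebra.coe_algebraMap]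
          ring
        rw [h6]
        exact Ideal.mul_mem_right _ _ hπn
      apply hn
      rw [Ideal.eq_top_iff_one]
      have h7 := sub_mem h5 h4
      have h8 : (⟨b * algebraMap A F (π * a'), hbB⟩ : B) -
          ⟨b * algebraMap A F (π * a') - 1, sub_mem hbB (one_mem _)⟩ = 1 := by
        apply Subtype.ext
        simp
      rwa [h8] at h7

/-- **(UNIT') at the chart `H97.chartU A x`**, hypotheses of `H97.kc_charts`.  The places of `T`
are only asked to be `K`-rational; at a place centred on the special fibre the value of a chart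
function then lies in `A`. -/
theorem unit_chartU
    {A K F : Type} [CommRing A] [IsDomain A] [IsDiscreteValuationRing A]
    [Field K] [Algebra A K] [IsFractionRing A K] [CharZero K]
    [Field F] [Algebra K F] [Algebra A F] [IsScalarTower A K F]
    (π : A) (hπ : Irreducible π)
    (x : F) (hx : Transcendental K x) [FiniteDimensional (IntermediateField.adjoin K {x}) F]
    (V : ValuationSubring F)
    (hAV : ∀ a : A, algebraMap A F a ∈ V) (hxV : x ∈ V)
    (hπV : algebraMap A F π ∈ V.nonunits)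
    (hVπ : ∀ y ∈ V.nonunits, ∃ z ∈ V, y = algebraMap A F π * z)
    (hsatU : ∀ b ∈ H97.chartU A x, (∃ y ∈ V, b = algebraMap A F π * y) →
      ∃ c ∈ H97.chartU A x, b = algebraMap A F π * c)
    (hregU : ∀ n : Ideal (H97.chartU A x), n.IsMaximal → algebraMap A (H97.chartU A x) π ∈ n →
      ∃ τ ∈ n, ∀ a : H97.chartU A x, a ∉ Ideal.span {algebraMap A (H97.chartU A x) π} →
        ∃ (e : ℕ) (d u : H97.chartU A x), d ∉ n ∧ u ∉ n ∧
          a * d - u * τ ^ e ∈ Ideal.span {algebraMap A (H97.chartU A x) π})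
    (u : F) (hu0 : u ≠ 0) (hu : u ∈ V) (hu' : u⁻¹ ∈ V)
    (T : Finset (Place K F))
    (hrat : ∀ P ∈ T, ∀ y ∈ P.toValuationSubring,
      ∃ c : K, y - algebraMap K F c ∈ P.toValuationSubring.nonunits)
    (hall : ∀ P : Place K F, P.ord u ≠ 0 → P ∈ T)
    (hsum : ∀ n : Ideal (H97.chartU A x), n.IsMaximal → algebraMap A (H97.chartU A x) π ∈ n →
      ∀ S : Finset (Place K F),
        (∀ P, P ∈ S ↔ P ∈ T ∧ (∀ b ∈ H97.chartU A x, b ∈ P.toValuationSubring) ∧
          ∀ b : H97.chartU A x, (b : F) ∈ P.toValuationSubring.nonunits → b ∈ n) →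
        ∑ P ∈ S, P.ord u = 0) :
    ∃ c ∈ H97.chartU A x, ∃ y ∈ V, u - c = algebraMap A F π * y := by
  have hinj : Function.Injective (algebraMap A F) :=
    H97.algebraMap_injective_of_isFractionRing A K F
  have harch : ∀ c : A, c ≠ 0 → ∃ n : ℕ, c ∣ π ^ n := by
    intro c hc
    obtain ⟨n, hn⟩ := IsDiscreteValuationRing.associated_pow_irreducible hc hπ
    exact ⟨n, hn.dvd⟩
  have hAmax : ∀ a : A, ¬ π ∣ a → IsUnit a := by
    intro a ha
    by_contra hua
    apply ha
    have h1 : a ∈ IsLocalRing.maximalIdeal A := (IsLocalRing.mem_maximalIdeal a).mpr hua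
    rw [hπ.maximalIdeal_eq, Ideal.mem_span_singleton] at h1
    exact h1
  refine (H66.unit_mod_of_centred_places A F K π V (H97.chartU A x) u hπ.ne_zero hinj harch hAmax
    hπV hVπ (fun y hy => H97.chartU_le_valuationSubring V hAV hxV hy)
    (H97.isNoetherianRing_chartU (K := K) hx)
    (H97.exists_chartU_mul_eq_of_finiteDimensional (K := K) x)
    hsatU hregU hu0 hu hu' T ?_ (fun P n _ _ _ _ hne => hall P hne) hsum).1
  -- rational + centred ⇒ value in `A`
  intro P hP n hn hπn hB hcen b hb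
  obtain ⟨c, hc⟩ := hrat P hP b (hB b hb)
  obtain ⟨a, rfl⟩ := exists_eq_algebraMap_of_centred hπ (H97.chartU A x) n hn.ne_top hπn P hcen
    hb hc
  exact ⟨a, by rwa [← IsScalarTower.algebraMap_apply] at hc⟩

/-! ### the two charts of the `K0`-model -/

section Model

variable {K0 : Type} [Field K0] [CharZero K0]
  (A0 : ValuationSubring K0) [IsDiscreteValuationRing A0] (ℓ : ℕ) [Fact ℓ.Prime]
  [CharP (IsLocalRing.ResidueField A0) ℓ] (L : ℕ) [NeZero L]

set_option maxHeartbeats 1600000 in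
set_option synthInstance.maxHeartbeats 400000 in
/-- **(UNIT') on the two charts of the `K0`-model.**  Chart inputs as in `H19.modelKum_core`
(coordinate `ξ` with integral expansion `xA`, inverse expansion `xA'`, transcendental reduction,
`j ∈ K0(ξ)`, `(REG)` for the two integral-closure charts); `V = H93.gaussWFull`.  For a Gauss
unit `u` whose zeros and poles are `K0`-rational (`hrat`, `hall`) and whose divisor has degree
zero at every closed point of the special fibre of either chart (`hsumU`, `hsumV`), `u` is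
congruent modulo `π V` to an element of each chart. -/
theorem unit_model (hℓL : ¬ ℓ ∣ L) (π : A0) (hπ : Irreducible π)
    (xA xA' : LaurentSeries A0) (hxx : xA * xA' = 1)
    (ξ : modularFunctionFieldFullC K0 L) (hξA : (ξ : LaurentSeries K0) = H93.iotaA A0 xA)
    (hxtr : ∀ P : Polynomial (IsLocalRing.ResidueField A0),
      H93.evC P (H93.redA A0 xA) = 0 → P = 0)
    (hJx : H93.jFullC K0 L ∈ K0⟮ξ⟯)
    (hregU : ∀ n : Ideal (H97.chartU (↥A0) ξ), n.IsMaximal →
      algebraMap (↥A0) (H97.chartU (↥A0) ξ) π ∈ n →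
      ∃ τ ∈ n, ∀ a : H97.chartU (↥A0) ξ,
        a ∉ Ideal.span {algebraMap (↥A0) (H97.chartU (↥A0) ξ) π} →
        ∃ (e : ℕ) (d u : H97.chartU (↥A0) ξ), d ∉ n ∧ u ∉ n ∧
          a * d - u * τ ^ e ∈ Ideal.span {algebraMap (↥A0) (H97.chartU (↥A0) ξ) π})
    (hregV : ∀ n : Ideal (H97.chartV (↥A0) ξ), n.IsMaximal →
      algebraMap (↥A0) (H97.chartV (↥A0) ξ) π ∈ n →
      ∃ τ ∈ n, ∀ a : H97.chartV (↥A0) ξ,
        a ∉ Ideal.span {algebraMap (↥A0) (H97.chartV (↥A0) ξ) π} →
        ∃ (e : ℕ) (d u : H97.chartV (↥A0) ξ), d ∉ n ∧ u ∉ n ∧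
          a * d - u * τ ^ e ∈ Ideal.span {algebraMap (↥A0) (H97.chartV (↥A0) ξ) π})
    (u : modularFunctionFieldFullC K0 L) (hu0 : u ≠ 0)
    (hu : u ∈ H93.gaussWFull K0 L A0 ℓ hℓL) (hu' : u⁻¹ ∈ H93.gaussWFull K0 L A0 ℓ hℓL)
    (T : Finset (Place K0 (modularFunctionFieldFullC K0 L)))
    (hrat : ∀ P ∈ T, ∀ y ∈ P.toValuationSubring,
      ∃ c : K0, y - algebraMap K0 (modularFunctionFieldFullC K0 L) c ∈
        P.toValuationSubring.nonunits)
    (hall : ∀ P : Place K0 (modularFunctionFieldFullC K0 L), P.ord u ≠ 0 → P ∈ T)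
    (hsumU : ∀ n : Ideal (H97.chartU (↥A0) ξ), n.IsMaximal →
      algebraMap (↥A0) (H97.chartU (↥A0) ξ) π ∈ n →
      ∀ S : Finset (Place K0 (modularFunctionFieldFullC K0 L)),
        (∀ P, P ∈ S ↔ P ∈ T ∧ (∀ b ∈ H97.chartU (↥A0) ξ, b ∈ P.toValuationSubring) ∧
          ∀ b : H97.chartU (↥A0) ξ,
            (b : modularFunctionFieldFullC K0 L) ∈ P.toValuationSubring.nonunits → b ∈ n) →
        ∑ P ∈ S, P.ord u = 0)
    (hsumV : ∀ n : Ideal (H97.chartV (↥A0) ξ), n.IsMaximal →
      algebraMap (↥A0) (H97.chartV (↥A0) ξ) π ∈ n →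
      ∀ S : Finset (Place K0 (modularFunctionFieldFullC K0 L)),
        (∀ P, P ∈ S ↔ P ∈ T ∧ (∀ b ∈ H97.chartV (↥A0) ξ, b ∈ P.toValuationSubring) ∧
          ∀ b : H97.chartV (↥A0) ξ,
            (b : modularFunctionFieldFullC K0 L) ∈ P.toValuationSubring.nonunits → b ∈ n) →
        ∑ P ∈ S, P.ord u = 0) :
    (∃ c ∈ H97.chartU (↥A0) ξ, ∃ y ∈ H93.gaussWFull K0 L A0 ℓ hℓL,
        u - c = algebraMap (↥A0) (modularFunctionFieldFullC K0 L) π * y) ∧
      (∃ c ∈ H97.chartV (↥A0) ξ, ∃ y ∈ H93.gaussWFull K0 L A0 ℓ hℓL,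
        u - c = algebraMap (↥A0) (modularFunctionFieldFullC K0 L) π * y) := by
  have : IsScalarTower ↥A0 K0 ↥(modularFunctionFieldFullC K0 L) := H19.isScalarTower_A0 A0 _
  have hD := H93.fullData K0 L A0 ℓ hℓL
  -- the inverse coordinate
  have hιxx : H93.iotaA A0 xA * H93.iotaA A0 xA' = 1 := by rw [← map_mul, hxx, map_one]
  have hιinv : H93.iotaA A0 xA' = (H93.iotaA A0 xA)⁻¹ := eq_inv_of_mul_eq_one_right hιxx
  have hξinvA : ((ξ⁻¹ : modularFunctionFieldFullC K0 L) : LaurentSeries K0) = H93.iotaA A0 xA' := by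
    rw [hιinv, ← hξA]
    rfl
  have hJx1 : H93.jElt hD ∈ K0⟮ξ⟯ := by
    rw [H93.jElt_fullData]
    exact hJx
  have hJx2 : H93.jElt hD ∈ K0⟮ξ⁻¹⟯ := H93.mem_adjoin_inv_of_mem_adjoin hJx1
  have hξ : Transcendental K0 ξ :=
    H19.transcendental_of_mem_adjoin_simple (H19.transcendental_jElt hD) hJx1
  have hfin : FiniteDimensional K0⟮ξ⟯ (modularFunctionFieldFullC K0 L) :=
    H19.finite_of_mem_adjoin_simple hJx1 (H19.finite_adjoin_jElt hD)
  have hfin' : FiniteDimensional K0⟮ξ⁻¹⟯ (modularFunctionFieldFullC K0 L) := H97.finiteDimensional_adjoin_inv (K := K0) ξ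
  have hxtr' : ∀ P : Polynomial (IsLocalRing.ResidueField A0),
      H93.evC P (H93.redA A0 xA') = 0 → P = 0 :=
    H19.evC_inj_of_mul_eq_one (by rw [← map_mul, hxx, map_one]) hxtr
  -- the Gauss facts
  have hAV : ∀ a : ↥A0, algebraMap ↥A0 ↥(modularFunctionFieldFullC K0 L) a ∈ H93.gaussW hD :=
    fun a => H93.constHom_mem_gaussW hD a
  have hξV : ξ ∈ H93.gaussW hD :=
    (H93.gauss_chart' hD hπ ξ xA hξA hxtr hJx1 ξ
      ((H19.mem_chartU_iff_isIntegralElem A0 (modularFunctionFieldFullC K0 L) ξ ξ).mp (H97.mem_chartU_self ξ))).1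
  have hξV' : ξ⁻¹ ∈ H93.gaussW hD :=
    (H93.gauss_chart' hD hπ ξ⁻¹ xA' hξinvA hxtr' hJx2 ξ⁻¹
      ((H19.mem_chartU_iff_isIntegralElem A0 (modularFunctionFieldFullC K0 L) ξ⁻¹ ξ⁻¹).mp (H97.mem_chartU_self ξ⁻¹))).1
  have hsatU : ∀ b ∈ H97.chartU (↥A0) ξ,
      (∃ y ∈ H93.gaussW hD, b = algebraMap ↥A0 ↥(modularFunctionFieldFullC K0 L) π * y) →
      ∃ c ∈ H97.chartU (↥A0) ξ, b = algebraMap ↥A0 ↥(modularFunctionFieldFullC K0 L) π * c := by
    rintro b hb ⟨y, hy, hby⟩
    have h := H93.gauss_chart' hD hπ ξ xA hξA hxtr hJx1 b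
      ((H19.mem_chartU_iff_isIntegralElem A0 (modularFunctionFieldFullC K0 L) ξ b).mp hb)
    exact ⟨y, (H19.mem_chartU_iff_isIntegralElem A0 (modularFunctionFieldFullC K0 L) ξ y).mpr (h.2 y hy hby), hby⟩
  have hsatV : ∀ b ∈ H97.chartU (↥A0) ξ⁻¹,
      (∃ y ∈ H93.gaussW hD, b = algebraMap ↥A0 ↥(modularFunctionFieldFullC K0 L) π * y) →
      ∃ c ∈ H97.chartU (↥A0) ξ⁻¹, b = algebraMap ↥A0 ↥(modularFunctionFieldFullC K0 L) π * c := by
    rintro b hb ⟨y, hy, hby⟩
    have h := H93.gauss_chart' hD hπ ξ⁻¹ xA' hξinvA hxtr' hJx2 b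
      ((H19.mem_chartU_iff_isIntegralElem A0 (modularFunctionFieldFullC K0 L) ξ⁻¹ b).mp hb)
    exact ⟨y, (H19.mem_chartU_iff_isIntegralElem A0 (modularFunctionFieldFullC K0 L) ξ⁻¹ y).mpr (h.2 y hy hby), hby⟩
  refine ⟨?_, ?_⟩
  · exact unit_chartU (K := K0) π hπ ξ hξ (H93.gaussW hD) hAV hξV
      (H93.constHom_mem_nonunits hD hπ) (H93.exists_eq_mul_of_mem_nonunits hD hπ)
      hsatU hregU u hu0 hu hu' T hrat hall hsumU
  · exact unit_chartU (K := K0) π hπ ξ⁻¹ (H97.transcendental_inv hξ) (H93.gaussW hD) hAV hξV'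
      (H93.constHom_mem_nonunits hD hπ) (H93.exists_eq_mul_of_mem_nonunits hD hπ)
      hsatV hregV u hu0 hu hu' T hrat hall hsumV

end Model

end Fermat.Agent.S37.H08
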