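import Mathlib
import Fermat.Prelude.Def_ModularCurve_ArithmeticGalois
import Fermat.Agent.S18.PlaceModel_helper74
import Fermat.Agent.S18.Desc_helper61
import Fermat.Agent.S18.PrincDiv_helper98
import Fermat.Agent.S24.FundId_b_helper92

/-!
# S37, node (RAT) (helper5): rationality of finitely many places over a number field

For a finite set `T` of places of `Fbar_L = modularFunctionFieldBar L` (over `Qbar`) there is a
finite set `C` of algebraic numbers such that for EVERY subfield `K0 ⊆ Qbar` containing `C` and
every `w ∈ T`: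

* **(RAT)** every element of the `K0`-model `modularFunctionFieldFullC K0 L` that is regular at
  `w` takes a value in `K0` at `w`;
* **(UNIQ)** `w` is the only place of `Fbar_L` with the same restriction to the `K0`-model.

The proof is by Galois theory (frozen arithmetic Galois action on `Fbar_L`): for `K0` large the
group `Gal(Qbar / K0)` fixes `w`, because it fixes a uniformiser `τ` of `w` (so it permutes the
finitely many zeros of `τ`) and finitely many functions separating `w` from the other zeros.

By-products (for the Galois node): transport of membership / values along the semilinear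
action, `gal_smul_toBar`.
-/

set_option autoImplicit false

open ModularCurve AlgebraicCurve IntermediateField
open scoped Pointwise

namespace Fermat.Agent.S37.H05

noncomputable section

/-- The algebraic closure of `ℚ`. -/
abbrev Qb : Type := AlgebraicClosure ℚ

/-! ### Generic lemmas on valuation subrings under a ring action -/

section Generic

variable {F : Type*} [Field F]

/-- membership in the nonunits of a translated valuation subring -/
theorem mem_nonunits_smul_iff {G : Type*} [Group G] [MulSemiringAction G F] (g : G)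
    (S : ValuationSubring F) (x : F) : x ∈ (g • S).nonunits ↔ g⁻¹ • x ∈ S.nonunits := by
  rw [ValuationSubring.mem_nonunits_iff_or, ValuationSubring.mem_nonunits_iff_or,
    ValuationSubring.mem_pointwise_smul_iff_inv_smul_mem, smul_inv'', smul_eq_zero_iff_eq]

/-- translating an element of the nonunits -/
theorem smul_mem_nonunits_smul {G : Type*} [Group G] [MulSemiringAction G F] (g : G)
    (S : ValuationSubring F) {x : F} (hx : x ∈ S.nonunits) : g • x ∈ (g • S).nonunits := by
  rw [mem_nonunits_smul_iff, inv_smul_smul]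
  exact hx

end Generic

/-! ### Places: constants, values -/

section Places

variable {K F : Type*} [Field K] [Field F] [Algebra K F]

/-- a constant lying in the maximal ideal of a place is zero -/
theorem eq_zero_of_algebraMap_mem_nonunits (v : Place K F) {c : K}
    (h : algebraMap K F c ∈ v.toValuationSubring.nonunits) : c = 0 := by
  by_contra hc
  rw [ValuationSubring.mem_nonunits_iff_or] at h
  rcases h with h | h
  · exact hc ((map_eq_zero (algebraMap K F)).mp h)
  · apply h
    rw [← map_inv₀]
    exact v.algebraMap_mem' _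

/-- the value of a function at a place is unique -/
theorem value_unique (v : Place K F) {y : F} {c d : K}
    (hc : y - algebraMap K F c ∈ v.toValuationSubring.nonunits)
    (hd : y - algebraMap K F d ∈ v.toValuationSubring.nonunits) : c = d := by
  have h : algebraMap K F (c - d) ∈ v.toValuationSubring.nonunits := by
    have := sub_mem hd hc
    rwa [show y - algebraMap K F d - (y - algebraMap K F c) = algebraMap K F (c - d) by
      rw [map_sub]; ring] at this
  exact sub_eq_zero.mp (eq_zero_of_algebraMap_mem_nonunits v h)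

/-- **value transport** along a semilinear automorphism: `(g y)(g P) = g (y(P))` -/
theorem value_smul (g : SemilinearAut K F) (v : Place K F) {y : F} {c : K}
    (hc : y - algebraMap K F c ∈ v.toValuationSubring.nonunits) :
    g • y - algebraMap K F (SemilinearAut.baseAut g c) ∈ (g • v).toValuationSubring.nonunits := by
  have h := smul_mem_nonunits_smul g v.toValuationSubring hc
  rwa [smul_sub, SemilinearAut.smul_algebraMap] at h

/-- membership transport along a semilinear automorphism -/
theorem mem_smul_place_iff (g : SemilinearAut K F) (v : Place K F) (y : F) :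
    y ∈ (g • v).toValuationSubring ↔ g⁻¹ • y ∈ v.toValuationSubring :=
  ValuationSubring.mem_pointwise_smul_iff_inv_smul_mem

/-- membership transport along a semilinear automorphism, second form -/
theorem smul_mem_smul_place_iff (g : SemilinearAut K F) (v : Place K F) (y : F) :
    g • y ∈ (g • v).toValuationSubring ↔ y ∈ v.toValuationSubring := by
  rw [mem_smul_place_iff, inv_smul_smul]

/-- elements having a value at `v` are regular at `v` -/
theorem mem_of_value (v : Place K F) {y : F} {c : K}
    (hc : y - algebraMap K F c ∈ v.toValuationSubring.nonunits) : y ∈ v.toValuationSubring := by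
  have h1 : y - algebraMap K F c ∈ v.toValuationSubring :=
    ValuationSubring.nonunits_subset hc
  have h2 := add_mem h1 (v.algebraMap_mem' c)
  rwa [sub_add_cancel] at h2

/-- values are multiplicative -/
theorem value_mul (v : Place K F) {y z : F} {c d : K}
    (hc : y - algebraMap K F c ∈ v.toValuationSubring.nonunits)
    (hd : z - algebraMap K F d ∈ v.toValuationSubring.nonunits) :
    y * z - algebraMap K F (c * d) ∈ v.toValuationSubring.nonunits := by
  have e : y * z - algebraMap K F (c * d) =
      (y - algebraMap K F c) * z + algebraMap K F c * (z - algebraMap K F d) := by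
    rw [map_mul]; ring
  rw [e]
  refine add_mem ?_ ?_
  · rw [ValuationSubring.mem_nonunits_iff_exists_mem_maximalIdeal] at hc ⊢
    obtain ⟨h1, h2⟩ := hc
    exact ⟨mul_mem h1 (mem_of_value v hd),
      Ideal.mul_mem_right (⟨z, mem_of_value v hd⟩ : v.toValuationSubring) _ h2⟩
  · rw [ValuationSubring.mem_nonunits_iff_exists_mem_maximalIdeal] at hd ⊢
    obtain ⟨h1, h2⟩ := hd
    exact ⟨mul_mem (v.algebraMap_mem' c) h1,
      Ideal.mul_mem_left _ (⟨algebraMap K F c, v.algebraMap_mem' c⟩ : v.toValuationSubring) h2⟩

/-- values are additive -/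
theorem value_add (v : Place K F) {y z : F} {c d : K}
    (hc : y - algebraMap K F c ∈ v.toValuationSubring.nonunits)
    (hd : z - algebraMap K F d ∈ v.toValuationSubring.nonunits) :
    y + z - algebraMap K F (c + d) ∈ v.toValuationSubring.nonunits := by
  have e : y + z - algebraMap K F (c + d) =
      (y - algebraMap K F c) + (z - algebraMap K F d) := by
    rw [map_add]; ring
  rw [e]
  exact add_mem hc hd

/-- **the value homomorphism**: a ring `R` mapping to `F` all of whose elements take, at the
place `v`, values in (the image of) a ring `A` has an evaluation homomorphism `R →+* A`. -/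
theorem exists_value_hom (v : Place K F) {R A : Type*} [CommRing R] [CommRing A] (φ : R →+* F)
    (ι : A →+* K) (hι : Function.Injective ι)
    (h : ∀ r : R, ∃ a : A, φ r - algebraMap K F (ι a) ∈ v.toValuationSubring.nonunits) :
    ∃ s : R →+* A, ∀ r : R, φ r - algebraMap K F (ι (s r)) ∈ v.toValuationSubring.nonunits := by
  choose s hs using h
  have h1 : s 1 = 1 := by
    apply hι
    refine value_unique v (hs 1) ?_
    rw [map_one, map_one, map_one, sub_self]
    exact zero_mem _
  have hmul : ∀ x y, s (x * y) = s x * s y := by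
    intro x y
    apply hι
    refine value_unique v (hs (x * y)) ?_
    rw [map_mul, map_mul]
    exact value_mul v (hs x) (hs y)
  have hadd : ∀ x y, s (x + y) = s x + s y := by
    intro x y
    apply hι
    refine value_unique v (hs (x + y)) ?_
    rw [map_add, map_add]
    exact value_add v (hs x) (hs y)
  have h0 : s 0 = 0 := by
    have := hadd 0 0
    rw [add_zero] at this
    exact left_eq_add.mp this
  exact ⟨{ toFun := s, map_one' := h1, map_mul' := hmul, map_zero' := h0, map_add' := hadd }, hs⟩

end Places

/-! ### The arithmetic Galois action on `Fbar_L` -/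

section Galois

variable (L : ℕ)

/-- the frozen semilinear action of `σ ∈ Gal(Qbar/ℚ)` on `Fbar_L` -/
abbrev gal (σ : Qb ≃ₐ[ℚ] Qb) : SemilinearAut Qb ↥(modularFunctionFieldBar L) :=
  arithmeticGalois (modularFunctionFieldFull L) σ

theorem coe_gal_smul (σ : Qb ≃ₐ[ℚ] Qb) (x : ↥(modularFunctionFieldBar L)) :
    ((gal L σ • x : ↥(modularFunctionFieldBar L)) : LaurentSeries Qb) =
      coeffMap (σ : Qb →+* Qb) (x : LaurentSeries Qb) := rfl

theorem gal_smul_algebraMap (σ : Qb ≃ₐ[ℚ] Qb) (c : Qb) :
    gal L σ • algebraMap Qb ↥(modularFunctionFieldBar L) c =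
      algebraMap Qb ↥(modularFunctionFieldBar L) (σ c) := by
  rw [SemilinearAut.smul_algebraMap]
  rfl

theorem baseAut_gal (σ : Qb ≃ₐ[ℚ] Qb) (c : Qb) : SemilinearAut.baseAut (gal L σ) c = σ c := rfl

/-- an element defined over `K0` is fixed by every `σ` fixing `K0` -/
theorem gal_smul_of_defOver {K0 : IntermediateField ℚ Qb} (σ : Qb ≃ₐ[ℚ] Qb)
    (hσ : ∀ x ∈ K0, σ x = x) (y : ↥(modularFunctionFieldBar L))
    (hy : S18.H61.DefOver K0 L (y : LaurentSeries Qb)) : gal L σ • y = y := by
  obtain ⟨y0, -, hy0⟩ := hy
  apply Subtype.ext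
  rw [coe_gal_smul, ← hy0, coeffMap_coeffMap]
  refine coeffMap_congr (RingHom.ext fun a => ?_) y0
  exact hσ _ a.2

/-- elements of the `K0`-model are fixed by every `σ` fixing `K0` -/
theorem gal_smul_toBar [NeZero L] {K0 : IntermediateField ℚ Qb} (σ : Qb ≃ₐ[ℚ] Qb)
    (hσ : ∀ x ∈ K0, σ x = x) (y : ↥(modularFunctionFieldFullC K0 L)) :
    gal L σ • S18.H74.toBar K0 L y = S18.H74.toBar K0 L y :=
  gal_smul_of_defOver L σ hσ _ ⟨y.1, y.2, rfl⟩

/-- an element defined over `K0` comes from the `K0`-model -/
theorem exists_toBar_eq [NeZero L] {K0 : IntermediateField ℚ Qb}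
    (y : ↥(modularFunctionFieldBar L))
    (hy : S18.H61.DefOver K0 L (y : LaurentSeries Qb)) :
    ∃ y0 : ↥(modularFunctionFieldFullC K0 L), S18.H74.toBar K0 L y0 = y := by
  obtain ⟨y0, hy0, h⟩ := hy
  exact ⟨⟨y0, hy0⟩, Subtype.ext h⟩

end Galois

/-! ### Galois theory of `Qbar` -/

theorem isGalois_Qb : IsGalois ℚ Qb := by
  have h : (DivisionRing.toRatAlgebra : Algebra ℚ (AlgebraicClosure ℚ)) =
      AlgebraicClosure.instAlgebra ℚ := Subsingleton.elim _ _
  rw [h]
  infer_instance

/-- an algebraic number fixed by `Gal(Qbar / K0)` lies in `K0` -/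
theorem mem_of_fixed (K0 : IntermediateField ℚ Qb) (c : Qb)
    (h : ∀ σ : Qb ≃ₐ[ℚ] Qb, (∀ x ∈ K0, σ x = x) → σ c = c) : c ∈ K0 := by
  have := isGalois_Qb
  have : IsGalois K0 Qb := inferInstance
  have h1 : c ∈ Set.range (algebraMap K0 Qb) := by
    rw [InfiniteGalois.mem_range_algebraMap_iff_fixed]
    intro f
    exact h (f.restrictScalars ℚ) (fun x hx => f.commutes ⟨x, hx⟩)
  obtain ⟨k, rfl⟩ := h1
  exact k.2

/-! ### Fields of definition with a finite set of generators -/

/-- every element of `Fbar_L` is defined over every field containing a suitable finite set -/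
theorem exists_finset_defOver (L : ℕ) {y : LaurentSeries Qb}
    (hy : y ∈ modularFunctionFieldBar L) :
    ∃ C : Finset Qb, ∀ K0 : IntermediateField ℚ Qb, (∀ c ∈ C, c ∈ K0) →
      S18.H61.DefOver K0 L y := by
  classical
  obtain ⟨K1, hfin, hdef⟩ := S18.H61.exists_defOver_of_mem_bar L hy
  obtain ⟨s, hs⟩ := (Module.finite_def.mp hfin : (⊤ : Submodule ℚ K1).FG)
  refine ⟨s.image (fun x : K1 => (x : Qb)), fun K0 hK0 => hdef.mono ?_⟩
  intro x hx
  have hx' : (⟨x, hx⟩ : K1) ∈ Submodule.span ℚ (s : Set K1) := by rw [hs]; trivial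
  have key : ∀ z : K1, z ∈ Submodule.span ℚ (s : Set K1) → (z : Qb) ∈ K0 := by
    intro z hz
    induction hz using Submodule.span_induction with
    | mem z hz => exact hK0 _ (Finset.mem_image.mpr ⟨z, hz, rfl⟩)
    | zero => exact K0.zero_mem
    | add a b _ _ ha hb => exact K0.add_mem ha hb
    | smul r a _ ha =>
      have : ((r • a : K1) : Qb) = algebraMap ℚ Qb r * (a : Qb) := by
        rw [Algebra.smul_def]; rfl
      rw [this]
      exact K0.mul_mem (K0.algebraMap_mem r) ha
  exact key ⟨x, hx⟩ hx'

/-! ### The main theorem -/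

section Main

variable (L : ℕ) [NeZero L]

/-- **(RAT) + (UNIQ), one place.** -/
theorem exists_rational_one (w : Place Qb ↥(modularFunctionFieldBar L)) :
    ∃ C : Finset Qb, ∀ K0 : IntermediateField ℚ Qb, (∀ c ∈ C, c ∈ K0) →
      (∀ y : ↥(modularFunctionFieldFullC K0 L),
        S18.H74.toBar K0 L y ∈ w.toValuationSubring →
        ∃ c : K0, S18.H74.toBar K0 L y -
          algebraMap Qb ↥(modularFunctionFieldBar L) (algebraMap K0 Qb c) ∈
            w.toValuationSubring.nonunits) ∧
      (∀ w' : Place Qb ↥(modularFunctionFieldBar L),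
        (∀ y : ↥(modularFunctionFieldFullC K0 L),
          S18.H74.toBar K0 L y ∈ w'.toValuationSubring ↔
            S18.H74.toBar K0 L y ∈ w.toValuationSubring) → w' = w) := by
  classical
  -- a uniformiser and its finitely many zeros and poles
  obtain ⟨τ, hτ⟩ := S24.H92.exists_ord_eq_one w
  have hτ0 : τ ≠ 0 := S24.H92.ord_ne_zero_of_one w hτ
  have hZfin := S18.H98.finite_ord_ne_zero L τ
  -- separating functions
  have hsep : ∀ P : Place Qb ↥(modularFunctionFieldBar L), ∃ y : ↥(modularFunctionFieldBar L),
      P ≠ w → y ∈ w.toValuationSubring ∧ y ∉ P.toValuationSubring := by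
    intro P
    by_cases hP : P = w
    · exact ⟨0, fun h => absurd hP h⟩
    · have hnle : ¬ w.toValuationSubring ≤ P.toValuationSubring := fun hle =>
        hP (S24.H92.eq_of_le hle).symm
      obtain ⟨y, hy1, hy2⟩ := SetLike.not_le_iff_exists.mp hnle
      exact ⟨y, fun _ => ⟨hy1, hy2⟩⟩
  choose ysep hysep using hsep
  -- fields of definition
  obtain ⟨Cτ, hCτ⟩ := exists_finset_defOver L τ.2
  choose Cy hCy using fun P : Place Qb ↥(modularFunctionFieldBar L) =>
    exists_finset_defOver L (ysep P).2
  refine ⟨Cτ ∪ hZfin.toFinset.biUnion Cy, fun K0 hK0 => ?_⟩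
  have hτdef : S18.H61.DefOver K0 L (τ : LaurentSeries Qb) :=
    hCτ K0 fun c hc => hK0 c (Finset.mem_union_left _ hc)
  have hydef : ∀ P : Place Qb ↥(modularFunctionFieldBar L), P.ord τ ≠ 0 →
      S18.H61.DefOver K0 L (ysep P : LaurentSeries Qb) := fun P hP =>
    hCy P K0 fun c hc => hK0 c (Finset.mem_union_right _
      (Finset.mem_biUnion.mpr ⟨P, hZfin.mem_toFinset.mpr hP, hc⟩))
  -- the Galois group of `Qbar / K0` fixes `w`
  have hstab : ∀ σ : Qb ≃ₐ[ℚ] Qb, (∀ x ∈ K0, σ x = x) → gal L σ • w = w := by
    intro σ hσ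
    by_contra hne
    have h1 : (gal L σ • w).ord τ ≠ 0 := by
      have h2 := SemilinearAut.ord_smul (gal L σ) w τ
      rw [gal_smul_of_defOver L σ hσ τ hτdef, hτ] at h2
      rw [h2]; exact one_ne_zero
    obtain ⟨hy1, hy2⟩ := hysep _ hne
    apply hy2
    have h3 := (smul_mem_smul_place_iff (gal L σ) w (ysep (gal L σ • w))).mpr hy1
    rwa [gal_smul_of_defOver L σ hσ _ (hydef _ h1)] at h3
  refine ⟨fun y hy => ?_, fun w' hw' => ?_⟩
  · -- (RAT)
    obtain ⟨c, hc⟩ := S24.H19.residue_eq (S24.H98.jBar L) (S18.H10.transcendental_jBar L)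
      (S18.H10.finiteDimensional_FN L) w hy
    have hmem : S18.H74.toBar K0 L y - algebraMap Qb ↥(modularFunctionFieldBar L) c ∈
        w.toValuationSubring.nonunits := by
      rcases hc with hc | hc
      · rw [hc, sub_self]; exact zero_mem _
      · by_cases h0 : S18.H74.toBar K0 L y - algebraMap Qb ↥(modularFunctionFieldBar L) c = 0
        · rw [h0]; exact zero_mem _
        · exact (S24.H92.ord_pos_iff_mem_nonunits w h0).mp hc
    have hcK : c ∈ K0 := by
      refine mem_of_fixed K0 c fun σ hσ => ?_
      have h1 := value_smul (gal L σ) w hmem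
      rw [hstab σ hσ, gal_smul_toBar L σ hσ y, baseAut_gal] at h1
      exact value_unique w h1 hmem
    exact ⟨⟨c, hcK⟩, hmem⟩
  · -- (UNIQ)
    obtain ⟨τ0, hτ0'⟩ := exists_toBar_eq L τ hτdef
    have hτw : τ ∈ w.toValuationSubring.nonunits :=
      (S24.H92.ord_pos_iff_mem_nonunits w hτ0).mp (by rw [hτ]; exact one_pos)
    have hτw' : τ ∈ w'.toValuationSubring.nonunits := by
      rw [ValuationSubring.mem_nonunits_iff_or] at hτw ⊢
      refine Or.inr fun hinv => ?_
      rcases hτw with h | h
      · exact hτ0 h
      · apply h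
        have e : τ⁻¹ = S18.H74.toBar K0 L τ0⁻¹ := by rw [map_inv₀, hτ0']
        rw [e] at hinv ⊢
        exact (hw' _).mp hinv
    have hZ : w'.ord τ ≠ 0 :=
      ((S24.H92.ord_pos_iff_mem_nonunits w' hτ0).mpr hτw').ne'
    by_contra hne
    obtain ⟨hy1, hy2⟩ := hysep w' hne
    obtain ⟨y0, hy0⟩ := exists_toBar_eq L (ysep w') (hydef w' hZ)
    apply hy2
    rw [← hy0] at hy1 ⊢
    exact (hw' y0).mpr hy1

/-- **(RAT) + (UNIQ)** for a finite set of places of `Fbar_L`: over every subfield `K0` of
`Qbar` containing a suitable finite set `C`, the places of `T` are `K0`-rational and are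
determined by their restrictions to the `K0`-model. -/
theorem exists_rational (T : Finset (Place Qb ↥(modularFunctionFieldBar L))) :
    ∃ C : Finset Qb, ∀ K0 : IntermediateField ℚ Qb, (∀ c ∈ C, c ∈ K0) → ∀ w ∈ T,
      (∀ y : ↥(modularFunctionFieldFullC K0 L),
        S18.H74.toBar K0 L y ∈ w.toValuationSubring →
        ∃ c : K0, S18.H74.toBar K0 L y -
          algebraMap Qb ↥(modularFunctionFieldBar L) (algebraMap K0 Qb c) ∈
            w.toValuationSubring.nonunits) ∧
      (∀ w' : Place Qb ↥(modularFunctionFieldBar L),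
        (∀ y : ↥(modularFunctionFieldFullC K0 L),
          S18.H74.toBar K0 L y ∈ w'.toValuationSubring ↔
            S18.H74.toBar K0 L y ∈ w.toValuationSubring) → w' = w) := by
  classical
  choose C hC using exists_rational_one L
  exact ⟨T.biUnion C, fun K0 hK0 w hw =>
    hC w K0 fun c hc => hK0 c (Finset.mem_biUnion.mpr ⟨w, hw, hc⟩)⟩

/-- the hypothesis of (UNIQ) from equality of the restrictions to the `K0`-model -/
theorem toBar_mem_iff_of_restrictModel_eq (K0 : IntermediateField ℚ Qb)
    [Algebra.IsAlgebraic K0 Qb] {w w' : Place Qb ↥(modularFunctionFieldBar L)}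
    (h : S18.H74.restrictModel K0 L w' = S18.H74.restrictModel K0 L w)
    (y : ↥(modularFunctionFieldFullC K0 L)) :
    S18.H74.toBar K0 L y ∈ w'.toValuationSubring ↔ S18.H74.toBar K0 L y ∈ w.toValuationSubring := by
  rw [← S18.H74.mem_restrictModel_iff, ← S18.H74.mem_restrictModel_iff, h]

end Main

end

end Fermat.Agent.S37.H05
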