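import Mathlib
import Fermat.Agent.S37.Rat_helper5
import Fermat.Agent.S18.ConstExtModel_helper39

/-!
# S37, node (RAT), model side (helper5)

Corollaries of `exists_rational` on the side of the `K0`-model `modularFunctionFieldFullC K0 L`:

* `restrictModel_rational` : the restriction of a `K0`-rational place has residue field `K0`;
* `exists_rational_model`  : for `K0 ⊇ C` the restrictions of the places of a finite set `T` are
  rational, and restriction is injective on `T` (and even determines the places of `T` among
  all places);
* `sum_ord_image_restrictModel`, `exists_place_of_ord_ne_zero` : the sum / support bridges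
  between `Place.ord` on the model and on `Fbar_L`;
* `exists_section` : the evaluation homomorphism `B → A0` of a subring `B` of the model whose
  elements take `A`-integral values at a rational place.
-/

set_option autoImplicit false
set_option synthInstance.maxHeartbeats 400000

open ModularCurve AlgebraicCurve IntermediateField

namespace Fermat.Agent.S37.H05

noncomputable section

/-- `Qbar` is algebraic over each of its subfields -/
theorem isAlgebraic_K0 (K0 : IntermediateField ℚ Qb) : Algebra.IsAlgebraic K0 Qb := by
  have : Algebra.IsAlgebraic ℚ Qb := AlgebraicClosure.isAlgebraic ℚ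
  exact Algebra.IsAlgebraic.tower_top (K := ℚ) ↥K0

section Model

variable (L : ℕ) [NeZero L] (K0 : IntermediateField ℚ Qb) [Algebra.IsAlgebraic K0 Qb]

/-- the maximal ideal of the restricted place -/
theorem mem_nonunits_restrictModel_iff (w : Place Qb ↥(modularFunctionFieldBar L))
    (y : ↥(modularFunctionFieldFullC K0 L)) :
    y ∈ (S18.H74.restrictModel K0 L w).toValuationSubring.nonunits ↔
      S18.H74.toBar K0 L y ∈ w.toValuationSubring.nonunits := by
  rw [ValuationSubring.mem_nonunits_iff_or, ValuationSubring.mem_nonunits_iff_or,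
    S18.H74.mem_restrictModel_iff, map_inv₀, map_eq_zero]

/-- values at a place of `Fbar_L` and at its restriction to the model -/
theorem value_restrictModel_iff (w : Place Qb ↥(modularFunctionFieldBar L))
    (y : ↥(modularFunctionFieldFullC K0 L)) (c : K0) :
    y - algebraMap K0 ↥(modularFunctionFieldFullC K0 L) c ∈
        (S18.H74.restrictModel K0 L w).toValuationSubring.nonunits ↔
      S18.H74.toBar K0 L y - algebraMap Qb ↥(modularFunctionFieldBar L) (algebraMap K0 Qb c) ∈
        w.toValuationSubring.nonunits := by
  rw [mem_nonunits_restrictModel_iff, map_sub, S18.H74.toBar_algebraMap]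

/-- **(RAT), model form**: the restriction of a `K0`-rational place has residue field `K0`. -/
theorem restrictModel_rational (w : Place Qb ↥(modularFunctionFieldBar L))
    (hrat : ∀ y : ↥(modularFunctionFieldFullC K0 L),
      S18.H74.toBar K0 L y ∈ w.toValuationSubring →
      ∃ c : K0, S18.H74.toBar K0 L y -
        algebraMap Qb ↥(modularFunctionFieldBar L) (algebraMap K0 Qb c) ∈
          w.toValuationSubring.nonunits)
    (y : ↥(modularFunctionFieldFullC K0 L))
    (hy : y ∈ (S18.H74.restrictModel K0 L w).toValuationSubring) :
    ∃ c : K0, y - algebraMap K0 ↥(modularFunctionFieldFullC K0 L) c ∈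
      (S18.H74.restrictModel K0 L w).toValuationSubring.nonunits := by
  obtain ⟨c, hc⟩ := hrat y ((S18.H74.mem_restrictModel_iff K0 L w y).mp hy)
  exact ⟨c, (value_restrictModel_iff L K0 w y c).mpr hc⟩

/-- orders of model elements at a place of `Fbar_L` and at its restriction -/
theorem ord_restrictModel (w : Place Qb ↥(modularFunctionFieldBar L))
    (y : ↥(modularFunctionFieldFullC K0 L)) :
    (S18.H74.restrictModel K0 L w).ord y = w.ord (S18.H74.toBar K0 L y) :=
  (S18.H39.ord_toBar_eq_ord_restrictModel K0 L w y).symm

/-- **support bridge**: a place of the model where `u` has a zero or a pole is the restriction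
of a place of `Fbar_L` where `toBar u` has a zero or a pole. -/
theorem exists_place_of_ord_ne_zero (u : ↥(modularFunctionFieldFullC K0 L))
    (P0 : Place K0 ↥(modularFunctionFieldFullC K0 L)) (h : P0.ord u ≠ 0) :
    ∃ w : Place Qb ↥(modularFunctionFieldBar L),
      S18.H74.restrictModel K0 L w = P0 ∧ w.ord (S18.H74.toBar K0 L u) ≠ 0 := by
  obtain ⟨w, rfl⟩ := S18.H74.exists_restrictModel_eq K0 L P0
  exact ⟨w, rfl, by rwa [← ord_restrictModel]⟩

/-- **sum bridge**: sums of orders over the restrictions of a finite set of places on which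
restriction is injective. -/
theorem sum_ord_image_restrictModel [DecidableEq (Place K0 ↥(modularFunctionFieldFullC K0 L))]
    (T : Finset (Place Qb ↥(modularFunctionFieldBar L)))
    (hinj : Set.InjOn (S18.H74.restrictModel K0 L) (T : Set (Place Qb ↥(modularFunctionFieldBar L))))
    (u : ↥(modularFunctionFieldFullC K0 L)) :
    ∑ P0 ∈ T.image (S18.H74.restrictModel K0 L), P0.ord u =
      ∑ w ∈ T, w.ord (S18.H74.toBar K0 L u) := by
  rw [Finset.sum_image hinj]
  exact Finset.sum_congr rfl fun w _ => ord_restrictModel L K0 w u

end Model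

/-- **(RAT) + (UNIQ), model form.** For a finite set `T` of places of `Fbar_L` there is a finite
set `C` of algebraic numbers such that over every subfield `K0 ⊇ C` of `Qbar`: the restrictions
of the places of `T` to the `K0`-model have residue field `K0`, a place of `T` is determined
among all places by its restriction, and restriction is injective on `T`. -/
theorem exists_rational_model (L : ℕ) [NeZero L]
    (T : Finset (Place Qb ↥(modularFunctionFieldBar L))) :
    ∃ C : Finset Qb, ∀ (K0 : IntermediateField ℚ Qb) [Algebra.IsAlgebraic K0 Qb],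
      (∀ c ∈ C, c ∈ K0) →
      (∀ w ∈ T, ∀ y ∈ (S18.H74.restrictModel K0 L w).toValuationSubring,
        ∃ c : K0, y - algebraMap K0 ↥(modularFunctionFieldFullC K0 L) c ∈
          (S18.H74.restrictModel K0 L w).toValuationSubring.nonunits) ∧
      (∀ w ∈ T, ∀ w' : Place Qb ↥(modularFunctionFieldBar L),
        S18.H74.restrictModel K0 L w' = S18.H74.restrictModel K0 L w → w' = w) ∧
      Set.InjOn (S18.H74.restrictModel K0 L) (T : Set (Place Qb ↥(modularFunctionFieldBar L))) := by
  obtain ⟨C, hC⟩ := exists_rational L T
  refine ⟨C, fun K0 _ hK0 => ?_⟩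
  have huniq : ∀ w ∈ T, ∀ w' : Place Qb ↥(modularFunctionFieldBar L),
      S18.H74.restrictModel K0 L w' = S18.H74.restrictModel K0 L w → w' = w :=
    fun w hw w' h => (hC K0 hK0 w hw).2 w' (toBar_mem_iff_of_restrictModel_eq L K0 h)
  refine ⟨fun w hw y hy => restrictModel_rational L K0 w (hC K0 hK0 w hw).1 y hy, huniq, ?_⟩
  intro w hw w' _ h
  exact (huniq w hw w' h.symm).symm

/-- **the section of a rational place**: if every element of a subring `B` of the `K0`-model
takes an `A`-integral value at the `K0`-rational place `w`, evaluation at `w` is a ring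
homomorphism `B → A0 = A ∩ K0`. -/
theorem exists_section (L : ℕ) [NeZero L] (K0 : IntermediateField ℚ Qb)
    (A : ValuationSubring Qb) (w : Place Qb ↥(modularFunctionFieldBar L))
    (hrat : ∀ y : ↥(modularFunctionFieldFullC K0 L),
      S18.H74.toBar K0 L y ∈ w.toValuationSubring →
      ∃ c : K0, S18.H74.toBar K0 L y -
        algebraMap Qb ↥(modularFunctionFieldBar L) (algebraMap K0 Qb c) ∈
          w.toValuationSubring.nonunits)
    (B : Subring ↥(modularFunctionFieldFullC K0 L))
    (hB : ∀ b ∈ B, ∃ c ∈ A, S18.H74.toBar K0 L b -
      algebraMap Qb ↥(modularFunctionFieldBar L) c ∈ w.toValuationSubring.nonunits) :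
    ∃ s : ↥B →+* ↥(S18.H61.A0 A K0), ∀ b : ↥B,
      S18.H74.toBar K0 L (b : ↥(modularFunctionFieldFullC K0 L)) -
        algebraMap Qb ↥(modularFunctionFieldBar L)
          (algebraMap K0 Qb ((s b : ↥(S18.H61.A0 A K0)) : K0)) ∈
        w.toValuationSubring.nonunits := by
  refine exists_value_hom w ((S18.H74.toBar K0 L).comp B.subtype)
    ((algebraMap K0 Qb).comp (S18.H61.A0 A K0).subtype)
    ((algebraMap K0 Qb).injective.comp Subtype.val_injective) fun b => ?_
  obtain ⟨c, hcA, hc⟩ := hB b b.2
  obtain ⟨c', hc'⟩ := hrat b (mem_of_value w hc)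
  have hcc : c = algebraMap K0 Qb c' := value_unique w hc hc'
  exact ⟨⟨c', by rw [S18.H61.mem_A0_iff, ← hcc]; exact hcA⟩, hc'⟩

end

end Fermat.Agent.S37.H05
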