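import Mathlib
import Fermat.Agent.S18.ConstExtModel_helper39
import Fermat.Agent.S18.DvrK0_helper86
import Fermat.Agent.S37.ConstCore_helper8
import Fermat.Agent.S37.Gal_helper34
import Fermat.Agent.S37.SatA_helper58
import Fermat.Agent.S37.RatModel_helper5

/-!
# S37, node (a)-ASSEMBLY (helper8): the constant Gauss reduction from class sums

`SameChar A R P P'` : the places `P`, `P'` have values in `A` on all of `R`, congruent modulo
the maximal ideal of `A` (same residue character on `R`).

`const_model` : over a model field `K0 ⊆ Qbar` with `A0 = A ∩ K0` a discrete valuation ring: a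
Gauss unit `u` of the `K0`-model of `X₀(L)` whose zeros and poles (at the `Qbar`-level) lie in a
finite set `T` of `K0`-rational places, and whose divisor has degree zero on every `SameChar`
class of `T` for the two chart rings `H58.chartRing A L x`, `H58.chartRing A L x⁻¹`, is congruent
modulo `π` to an element of each of the two model charts.
-/

set_option autoImplicit false

open AlgebraicCurve ModularCurve IntermediateField

namespace Fermat.Agent.S37.H08

open Fermat.Agent.S18

local notation "Qb" => AlgebraicClosure ℚ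

/-! ### residue characters in relational form -/

section SameChar

variable {K F : Type*} [Field K] [Field F] [Algebra K F]

theorem zero_mem_nonunits (A : ValuationSubring K) : (0 : K) ∈ A.nonunits :=
  (ValuationSubring.mem_nonunits_iff_or A).mpr (Or.inl rfl)

theorem add_mem_nonunits {A : ValuationSubring K} {a b : K} (ha : a ∈ A.nonunits)
    (hb : b ∈ A.nonunits) : a + b ∈ A.nonunits := by
  have ha' := ValuationSubring.nonunits_subset ha
  have hb' := ValuationSubring.nonunits_subset hb
  have h1 := (ValuationSubring.coe_mem_nonunits_iff (a := ⟨a, ha'⟩)).mp ha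
  have h2 := (ValuationSubring.coe_mem_nonunits_iff (a := ⟨b, hb'⟩)).mp hb
  exact (ValuationSubring.coe_mem_nonunits_iff (a := ⟨a, ha'⟩ + ⟨b, hb'⟩)).mpr (add_mem h1 h2)

theorem neg_mem_nonunits {A : ValuationSubring K} {a : K} (ha : a ∈ A.nonunits) :
    -a ∈ A.nonunits := by
  have ha' := ValuationSubring.nonunits_subset ha
  have h1 := (ValuationSubring.coe_mem_nonunits_iff (a := ⟨a, ha'⟩)).mp ha
  exact (ValuationSubring.coe_mem_nonunits_iff (a := -⟨a, ha'⟩)).mpr (neg_mem h1)

/-- `P` and `P'` have the same residue character on `R`: every `y ∈ R` has values in `A` at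
`P` and at `P'`, congruent modulo the maximal ideal of `A`. -/
def SameChar (A : ValuationSubring K) (R : Set F) (P P' : Place K F) : Prop :=
  ∀ y ∈ R, ∃ c c' : K, c ∈ A ∧ c' ∈ A ∧ H34.EvalAt P y c ∧ H34.EvalAt P' y c' ∧
    c - c' ∈ A.nonunits

theorem SameChar.symm {A : ValuationSubring K} {R : Set F} {P P' : Place K F}
    (h : SameChar A R P P') : SameChar A R P' P := by
  intro y hy
  obtain ⟨c, c', hc, hc', h1, h2, h3⟩ := h y hy
  refine ⟨c', c, hc', hc, h2, h1, ?_⟩
  have e : c' - c = -(c - c') := by ring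
  rw [e]
  exact neg_mem_nonunits h3

theorem SameChar.trans {A : ValuationSubring K} {R : Set F} {P P' P'' : Place K F}
    (h : SameChar A R P P') (h' : SameChar A R P' P'') : SameChar A R P P'' := by
  intro y hy
  obtain ⟨c, c', hc, hc', h1, h2, h3⟩ := h y hy
  obtain ⟨d, d', hd, hd', k1, k2, k3⟩ := h' y hy
  obtain rfl : c' = d := h2.unique k1
  refine ⟨c, d', hc, hd', h1, k2, ?_⟩
  have e : c - d' = (c - c') + (c' - d') := by ring
  rw [e]
  exact add_mem_nonunits h3 k3

/-- A place all of whose values on `R` lie in `A` has the same character as itself. -/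
theorem SameChar.refl_of {A : ValuationSubring K} {R : Set F} {P : Place K F}
    (h : ∀ y ∈ R, ∃ c ∈ A, H34.EvalAt P y c) : SameChar A R P P := by
  intro y hy
  obtain ⟨c, hc, h1⟩ := h y hy
  exact ⟨c, c, hc, hc, h1, h1, by rw [sub_self]; exact zero_mem_nonunits A⟩

/-- **Integral elements have integral values.**  If every element of the image of `φ` has a
value in `A` at `w`, so has every element integral over the image of `φ` (places of degree one:
`hdeg`). -/
theorem exists_evalAt_of_isIntegralElem {R : Type*} [CommRing R] (A : ValuationSubring K)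
    (w : Place K F) (hdeg : ∀ y ∈ w.toValuationSubring, ∃ c : K, H34.EvalAt w y c)
    (φ : R →+* F) (hφ : ∀ r : R, ∃ c ∈ A, H34.EvalAt w (φ r) c) {y : F}
    (hy : φ.IsIntegralElem y) : ∃ c ∈ A, H34.EvalAt w y c := by
  obtain ⟨p, hp, hpy⟩ := hy
  -- `y` is regular at `w`
  have hyO : y ∈ w.toValuationSubring := by
    let φ' : R →+* w.toValuationSubring :=
      φ.codRestrict w.toValuationSubring (fun r => (hφ r).choose_spec.2.mem)
    have hint : IsIntegral w.toValuationSubring y := by
      refine ⟨p.map φ', hp.map _, ?_⟩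
      rw [Polynomial.eval₂_map]
      exact hpy
    obtain ⟨z, hz⟩ := (IsIntegrallyClosed.isIntegral_iff (R := w.toValuationSubring)
      (K := F)).mp hint
    rw [← hz]
    exact z.2
  obtain ⟨c, hc⟩ := hdeg y hyO
  -- the value homomorphism on the image of `φ`
  obtain ⟨s, hs⟩ := H05.exists_value_hom w φ A.subtype Subtype.val_injective
    (fun r => by
      obtain ⟨a, ha, h⟩ := hφ r
      exact ⟨⟨a, ha⟩, h⟩)
  have h1 : H34.EvalAt w (p.eval₂ φ y) (p.eval₂ (A.subtype.comp s) c) :=
    H34.EvalAt.eval₂ φ (A.subtype.comp s) (fun r => hs r) p hc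
  rw [hpy] at h1
  have h2 : p.eval₂ (A.subtype.comp s) c = 0 := h1.unique (H34.evalAt_zero w)
  have hint : IsIntegral A c := by
    refine ⟨p.map s, hp.map _, ?_⟩
    rw [Polynomial.eval₂_map]
    exact h2
  obtain ⟨a, ha⟩ := (IsIntegrallyClosed.isIntegral_iff (R := A) (K := K)).mp hint
  refine ⟨c, ?_, hc⟩
  rw [← ha]
  exact a.2

end SameChar

/-! ### the chart rings over `A` at the `Qbar`-level -/

section Bar

variable (A : ValuationSubring Qb) (L : ℕ) [NeZero L]

/-- **A-valued points of a chart ring.**  If the chart coordinate `x` has a value in `A` at `w`,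
so has every element of the chart ring `H58.chartRing A L x`. -/
theorem exists_evalAt_of_mem_chartRing (w : Place Qb ↥(modularFunctionFieldBar L))
    (x : ↥(modularFunctionFieldBar L)) (c : Qb) (hc : c ∈ A) (hx : H34.EvalAt w x c)
    {y : ↥(modularFunctionFieldBar L)} (hy : y ∈ H58.chartRing A L x) :
    ∃ d ∈ A, H34.EvalAt w y d := by
  refine exists_evalAt_of_isIntegralElem A w
    (fun y hy => H34.exists_evalAt w (H98.deg_eq_one L w) hy) (H58.chartHom A L x) ?_ hy
  intro r
  refine ⟨r.eval₂ A.subtype c, ?_, ?_⟩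
  · have e : c = A.subtype ⟨c, hc⟩ := rfl
    rw [e, Polynomial.eval₂_at_apply]
    exact Subtype.property _
  · exact H34.EvalAt.eval₂ (H58.constHom A L) A.subtype
      (fun a => H34.evalAt_algebraMap w (a : Qb)) r hx

end Bar

/-! ### the `K0`-model against the `Qbar`-level -/

section Model

variable {K0 : Type} [Field K0] [Algebra K0 Qb]
  (A : ValuationSubring Qb) (A0 : ValuationSubring K0) (L : ℕ) [NeZero L]

/-- the inclusion `A0 → A` (for `A0 ⊆ A ∩ K0`) -/
noncomputable def inclA (hA0 : ∀ c : K0, c ∈ A0 → algebraMap K0 Qb c ∈ A) : ↥A0 →+* ↥A :=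
  ((algebraMap K0 Qb).comp A0.subtype).codRestrict A (fun a => hA0 a a.2)

theorem coe_inclA (hA0 : ∀ c : K0, c ∈ A0 → algebraMap K0 Qb c ∈ A) (a : A0) :
    ((inclA A A0 hA0 a : A) : Qb) = algebraMap K0 Qb (a : K0) := rfl

/-- **Integrality transfer**: the image in `Fbar_L` of the model chart `H97.chartU A0 ξ` lies in
the chart ring `H58.chartRing A L (toBar ξ)`. -/
theorem toBar_mem_chartRing (hA0 : ∀ c : K0, c ∈ A0 → algebraMap K0 Qb c ∈ A)
    (ξ b : ↥(modularFunctionFieldFullC K0 L)) (hb : b ∈ H97.chartU (↥A0) ξ) :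
    H74.toBar K0 L b ∈ H58.chartRing A L (H74.toBar K0 L ξ) := by
  rw [H19.mem_chartU_iff_isIntegralElem] at hb
  obtain ⟨p, hp, hpb⟩ := hb
  have hcomp : (H74.toBar K0 L).comp (H93.chartHom A0 ξ) =
      (H58.chartHom A L (H74.toBar K0 L ξ)).comp (Polynomial.mapRingHom (inclA A A0 hA0)) := by
    refine Polynomial.ringHom_ext (fun a => ?_) ?_
    · simp only [RingHom.comp_apply, Polynomial.coe_mapRingHom, Polynomial.map_C,
        H58.chartHom_C, H93.chartHom_C]
      exact H74.toBar_algebraMap K0 L (a : K0)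
    · simp only [RingHom.comp_apply, Polynomial.coe_mapRingHom, Polynomial.map_X,
        H58.chartHom_X, H93.chartHom_X]
  rw [H58.mem_chartRing_iff]
  refine ⟨p.map (Polynomial.mapRingHom (inclA A A0 hA0)), hp.map _, ?_⟩
  rw [Polynomial.eval₂_map, ← hcomp, ← Polynomial.hom_eval₂, hpb, map_zero]

variable [Algebra.IsAlgebraic K0 Qb]

/-- the maximal ideal of the restricted place (generic model field) -/
theorem mem_nonunits_restrictModel_iff' (w : Place Qb ↥(modularFunctionFieldBar L))
    (y : ↥(modularFunctionFieldFullC K0 L)) :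
    y ∈ (H74.restrictModel K0 L w).toValuationSubring.nonunits ↔
      H74.toBar K0 L y ∈ w.toValuationSubring.nonunits := by
  rw [ValuationSubring.mem_nonunits_iff_or, ValuationSubring.mem_nonunits_iff_or,
    H74.mem_restrictModel_iff, map_inv₀, map_eq_zero]

/-- values at a place of `Fbar_L` and at its restriction to the model (generic model field) -/
theorem value_restrictModel_iff' (w : Place Qb ↥(modularFunctionFieldBar L))
    (y : ↥(modularFunctionFieldFullC K0 L)) (c : K0) :
    y - algebraMap K0 ↥(modularFunctionFieldFullC K0 L) c ∈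
        (H74.restrictModel K0 L w).toValuationSubring.nonunits ↔
      H34.EvalAt w (H74.toBar K0 L y) (algebraMap K0 Qb c) := by
  rw [mem_nonunits_restrictModel_iff', map_sub, H74.toBar_algebraMap]
  rfl

end Model

/-! ### closed points of the special fibre are unions of `SameChar`-classes -/

section Core

variable {K0 : Type} [Field K0] [CharZero K0] [Algebra K0 Qb] [Algebra.IsAlgebraic K0 Qb]
  (A : ValuationSubring Qb) (A0 : ValuationSubring K0) [IsDiscreteValuationRing A0]
  (L : ℕ) [NeZero L]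

set_option synthInstance.maxHeartbeats 400000 in
set_option maxHeartbeats 1600000 in
/-- **From class sums to closed points.**  `T` a finite set of `K0`-rational places of `Fbar_L`
(`hratT`, `hinjT`), `ζ` a chart coordinate of the `K0`-model, `n` a closed point of the special
fibre of the chart `H97.chartU A0 ζ`.  The restrictions of the places of `T` which are regular on
the chart and centred in `n` form a union of `SameChar`-classes of `T` for the chart ring
`H58.chartRing A L (toBar ζ)`; hence the sum of the orders of `u` over them vanishes as soon as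
it vanishes over every class. -/
theorem sum_centred_eq_zero (hA0 : ∀ c : K0, c ∈ A0 ↔ algebraMap K0 Qb c ∈ A)
    (π : A0) (hπ : Irreducible π)
    (ζ u : ↥(modularFunctionFieldFullC K0 L))
    (T : Finset (Place Qb ↥(modularFunctionFieldBar L)))
    (hratT : ∀ w ∈ T, ∀ y : ↥(modularFunctionFieldFullC K0 L),
      H74.toBar K0 L y ∈ w.toValuationSubring →
      ∃ c : K0, H34.EvalAt w (H74.toBar K0 L y) (algebraMap K0 Qb c))
    (hinjT : Set.InjOn (H74.restrictModel K0 L)
      (T : Set (Place Qb ↥(modularFunctionFieldBar L))))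
    (hsum : ∀ (w₀ : Place Qb ↥(modularFunctionFieldBar L))
      (C : Finset (Place Qb ↥(modularFunctionFieldBar L))),
      (∀ w, w ∈ C ↔ w ∈ T ∧ SameChar A
        (H58.chartRing A L (H74.toBar K0 L ζ) : Set ↥(modularFunctionFieldBar L)) w w₀) →
      ∑ w ∈ C, w.ord (H74.toBar K0 L u) = 0)
    (T0 : Finset (Place K0 ↥(modularFunctionFieldFullC K0 L)))
    (hT0 : ∀ P, P ∈ T0 ↔ ∃ w ∈ T, H74.restrictModel K0 L w = P)
    (n : Ideal (H97.chartU (↥A0) ζ)) (hn : n.IsMaximal)
    (hπn : algebraMap (↥A0) (H97.chartU (↥A0) ζ) π ∈ n)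
    (S : Finset (Place K0 ↥(modularFunctionFieldFullC K0 L)))
    (hS : ∀ P, P ∈ S ↔ P ∈ T0 ∧ (∀ b ∈ H97.chartU (↥A0) ζ, b ∈ P.toValuationSubring) ∧
      ∀ b : H97.chartU (↥A0) ζ,
        (b : ↥(modularFunctionFieldFullC K0 L)) ∈ P.toValuationSubring.nonunits → b ∈ n) :
    ∑ P ∈ S, P.ord u = 0 := by
  classical
  have hst : IsScalarTower ↥A0 K0 ↥(modularFunctionFieldFullC K0 L) :=
    H19.isScalarTower_A0 A0 _
  set Tn := T.filter (fun w => H74.restrictModel K0 L w ∈ S) with hTn
  have hSimg : S = Tn.image (H74.restrictModel K0 L) := by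
    ext P
    rw [Finset.mem_image]
    constructor
    · intro hP
      obtain ⟨w, hw, rfl⟩ := (hT0 P).mp ((hS P).mp hP).1
      exact ⟨w, Finset.mem_filter.mpr ⟨hw, hP⟩, rfl⟩
    · rintro ⟨w, hw, rfl⟩
      exact (Finset.mem_filter.mp hw).2
  rw [hSimg, Finset.sum_image (fun a ha b hb h =>
    hinjT (Finset.mem_filter.mp ha).1 (Finset.mem_filter.mp hb).1 h)]
  have hord : ∀ w ∈ Tn, (H74.restrictModel K0 L w).ord u = w.ord (H74.toBar K0 L u) :=
    fun w _ => (H39.ord_toBar_eq_ord_restrictModel K0 L w u).symm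
  rw [Finset.sum_congr rfl hord]
  -- membership in `Tn`, unfolded
  have hmemTn : ∀ w, w ∈ Tn ↔ w ∈ T ∧
      (∀ b ∈ H97.chartU (↥A0) ζ, H74.toBar K0 L b ∈ w.toValuationSubring) ∧
      ∀ b : H97.chartU (↥A0) ζ,
        H74.toBar K0 L (b : ↥(modularFunctionFieldFullC K0 L)) ∈
          w.toValuationSubring.nonunits → b ∈ n := by
    intro w
    rw [hTn, Finset.mem_filter, hS]
    constructor
    · rintro ⟨hw, -, h1, h2⟩
      exact ⟨hw, h1, fun b hb => h2 b ((mem_nonunits_restrictModel_iff' L w _).mpr hb)⟩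
    · rintro ⟨hw, h1, h2⟩
      exact ⟨hw, (hT0 _).mpr ⟨w, hw, rfl⟩, h1,
        fun b hb => h2 b ((mem_nonunits_restrictModel_iff' L w _).mp hb)⟩
  refine sum_eq_zero_of_classes
    (SameChar A (H58.chartRing A L (H74.toBar K0 L ζ) : Set ↥(modularFunctionFieldBar L)))
    (fun _ _ h => h.symm) (fun _ _ _ h h' => h.trans h') T _ hsum Tn
    (Finset.filter_subset _ _) ?_ ?_
  · -- reflexivity on `Tn`
    intro w hw
    obtain ⟨hwT, hreg, hcen⟩ := (hmemTn w).mp hw
    have hζB : ζ ∈ H97.chartU (↥A0) ζ := H97.mem_chartU_self ζ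
    obtain ⟨c0, hc0⟩ := hratT w hwT ζ (hreg ζ hζB)
    have hc0' : ζ - algebraMap K0 ↥(modularFunctionFieldFullC K0 L) c0 ∈
        (H74.restrictModel K0 L w).toValuationSubring.nonunits :=
      (value_restrictModel_iff' L w ζ c0).mpr hc0
    obtain ⟨a, ha⟩ := exists_eq_algebraMap_of_centred hπ (H97.chartU (↥A0) ζ) n hn.ne_top hπn
      (H74.restrictModel K0 L w)
      (fun b hb => hcen b ((mem_nonunits_restrictModel_iff' L w _).mp hb)) hζB hc0'
    have hc0A : algebraMap K0 Qb c0 ∈ A := by
      rw [← ha]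
      exact (hA0 _).mp a.2
    exact SameChar.refl_of (fun y hy => exists_evalAt_of_mem_chartRing A L w _ _ hc0A hc0 hy)
  · -- closedness
    intro w hw w' hw'T hsc
    obtain ⟨hwT, hreg, hcen⟩ := (hmemTn w).mp hw
    rw [hmemTn]
    refine ⟨hw'T, ?_, ?_⟩
    · intro b hb
      obtain ⟨c, c', -, -, -, h2, -⟩ :=
        hsc _ (toBar_mem_chartRing A A0 L (fun c hc => (hA0 c).mp hc) ζ b hb)
      exact h2.mem
    · intro b hb
      obtain ⟨c, c', hcA, -, h1, h2, h3⟩ :=
        hsc _ (toBar_mem_chartRing A A0 L (fun c hc => (hA0 c).mp hc) ζ b b.2)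
      -- the value at `w'` is zero
      have hc'0 : c' = 0 := by
        have h0 : H34.EvalAt w'
            (H74.toBar K0 L (b : ↥(modularFunctionFieldFullC K0 L))) 0 := by
          show _ - algebraMap Qb _ 0 ∈ _
          rw [map_zero, sub_zero]
          exact hb
        exact h2.unique h0
      rw [hc'0, sub_zero] at h3
      -- the value at `w` is rational, hence in `π A0`
      obtain ⟨c0, hc0⟩ := hratT w hwT b (hreg b b.2)
      have hcc0 : c = algebraMap K0 Qb c0 := h1.unique hc0
      have hc0m : c0 ∈ A0.nonunits := by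
        rw [hcc0] at h3
        rw [ValuationSubring.mem_nonunits_iff_or] at h3 ⊢
        rcases h3 with h3 | h3
        · left
          exact (map_eq_zero _).mp h3
        · right
          intro h4
          apply h3
          rw [← map_inv₀]
          exact (hA0 _).mp h4
      have hc0A : c0 ∈ A0 := ValuationSubring.nonunits_subset hc0m
      have hmem : (⟨c0, hc0A⟩ : A0) ∈ IsLocalRing.maximalIdeal A0 :=
        ValuationSubring.coe_mem_nonunits_iff.mp hc0m
      rw [hπ.maximalIdeal_eq, Ideal.mem_span_singleton] at hmem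
      obtain ⟨a, ha⟩ := hmem
      -- `b - π a ∈ n`
      have hsub : (b - algebraMap (↥A0) (H97.chartU (↥A0) ζ) (π * a)) ∈ n := by
        apply hcen
        have e : ((b - algebraMap (↥A0) (H97.chartU (↥A0) ζ) (π * a) : H97.chartU (↥A0) ζ) :
            ↥(modularFunctionFieldFullC K0 L)) =
            (b : ↥(modularFunctionFieldFullC K0 L)) -
              algebraMap K0 ↥(modularFunctionFieldFullC K0 L) c0 := by
          rw [← ha]
          rfl
        rw [e, map_sub, H74.toBar_algebraMap]
        exact hc0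
      have h5 : algebraMap (↥A0) (H97.chartU (↥A0) ζ) (π * a) ∈ n := by
        rw [map_mul]
        exact Ideal.mul_mem_right _ _ hπn
      have h6 := add_mem hsub h5
      rwa [sub_add_cancel] at h6

variable (ℓ : ℕ) [Fact ℓ.Prime] [CharP (IsLocalRing.ResidueField A0) ℓ]

set_option synthInstance.maxHeartbeats 400000 in
set_option maxHeartbeats 1600000 in
/-- **(UNIT') for the `K0`-model from class sums at the `Qbar`-level.**  Chart inputs as in
`H19.modelKum_core`; `u` a Gauss unit of the `K0`-model; `T` a finite set of `K0`-rational places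
of `Fbar_L` containing the zeros and poles of `toBar u`; the divisor of `toBar u` has degree zero
on every `SameChar`-class of `T`, for the chart rings of `x = toBar ξ` and of `x⁻¹` over `A`.
Then `u` is congruent modulo `π V` to an element of each of the two model charts. -/
theorem const_model (hA0 : ∀ c : K0, c ∈ A0 ↔ algebraMap K0 Qb c ∈ A)
    (hℓL : ¬ ℓ ∣ L) (π : A0) (hπ : Irreducible π)
    (xA xA' : LaurentSeries A0) (hxx : xA * xA' = 1)
    (ξ : modularFunctionFieldFullC K0 L) (hξA : (ξ : LaurentSeries K0) = H93.iotaA A0 xA)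
    (hxtr : ∀ P : Polynomial (IsLocalRing.ResidueField A0),
      H93.evC P (H93.redA A0 xA) = 0 → P = 0)
    (hJx : H93.jFullC K0 L ∈ K0⟮ξ⟯)
    (hregU : ∀ n : Ideal (H97.chartU (↥A0) ξ), n.IsMaximal →
      algebraMap (↥A0) (H97.chartU (↥A0) ξ) π ∈ n →
      ∃ τ ∈ n, ∀ a : H97.chartU (↥A0) ξ,
        a ∉ Ideal.span {algebraMap (↥A0) (H97.chartU (↥A0) ξ) π} →
        ∃ (e : ℕ) (d u : H97.chartU (↥A0) ξ), d ∉ n ∧ u ∉ n ∧
          a * d - u * τ ^ e ∈ Ideal.span {algebraMap (↥A0) (H97.chartU (↥A0) ξ) π})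
    (hregV : ∀ n : Ideal (H97.chartV (↥A0) ξ), n.IsMaximal →
      algebraMap (↥A0) (H97.chartV (↥A0) ξ) π ∈ n →
      ∃ τ ∈ n, ∀ a : H97.chartV (↥A0) ξ,
        a ∉ Ideal.span {algebraMap (↥A0) (H97.chartV (↥A0) ξ) π} →
        ∃ (e : ℕ) (d u : H97.chartV (↥A0) ξ), d ∉ n ∧ u ∉ n ∧
          a * d - u * τ ^ e ∈ Ideal.span {algebraMap (↥A0) (H97.chartV (↥A0) ξ) π})
    (u : modularFunctionFieldFullC K0 L) (hu0 : u ≠ 0)
    (hu : u ∈ H93.gaussWFull K0 L A0 ℓ hℓL) (hu' : u⁻¹ ∈ H93.gaussWFull K0 L A0 ℓ hℓL)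
    (T : Finset (Place Qb ↥(modularFunctionFieldBar L)))
    (hT : ∀ w : Place Qb ↥(modularFunctionFieldBar L), w.ord (H74.toBar K0 L u) ≠ 0 → w ∈ T)
    (hratT : ∀ w ∈ T, ∀ y : ↥(modularFunctionFieldFullC K0 L),
      H74.toBar K0 L y ∈ w.toValuationSubring →
      ∃ c : K0, H34.EvalAt w (H74.toBar K0 L y) (algebraMap K0 Qb c))
    (hinjT : Set.InjOn (H74.restrictModel K0 L)
      (T : Set (Place Qb ↥(modularFunctionFieldBar L))))
    (hsumU : ∀ (w₀ : Place Qb ↥(modularFunctionFieldBar L))
      (C : Finset (Place Qb ↥(modularFunctionFieldBar L))),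
      (∀ w, w ∈ C ↔ w ∈ T ∧ SameChar A
        (H58.chartRing A L (H74.toBar K0 L ξ) : Set ↥(modularFunctionFieldBar L)) w w₀) →
      ∑ w ∈ C, w.ord (H74.toBar K0 L u) = 0)
    (hsumV : ∀ (w₀ : Place Qb ↥(modularFunctionFieldBar L))
      (C : Finset (Place Qb ↥(modularFunctionFieldBar L))),
      (∀ w, w ∈ C ↔ w ∈ T ∧ SameChar A
        (H58.chartRing A L (H74.toBar K0 L ξ)⁻¹ : Set ↥(modularFunctionFieldBar L)) w w₀) →
      ∑ w ∈ C, w.ord (H74.toBar K0 L u) = 0) :
    (∃ c ∈ H97.chartU (↥A0) ξ, ∃ y ∈ H93.gaussWFull K0 L A0 ℓ hℓL,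
        u - c = algebraMap (↥A0) (modularFunctionFieldFullC K0 L) π * y) ∧
      (∃ c ∈ H97.chartV (↥A0) ξ, ∃ y ∈ H93.gaussWFull K0 L A0 ℓ hℓL,
        u - c = algebraMap (↥A0) (modularFunctionFieldFullC K0 L) π * y) := by
  classical
  set T0 := T.image (H74.restrictModel K0 L) with hT0def
  have hT0 : ∀ P, P ∈ T0 ↔ ∃ w ∈ T, H74.restrictModel K0 L w = P := by
    intro P
    rw [hT0def, Finset.mem_image]
  refine unit_model A0 ℓ L hℓL π hπ xA xA' hxx ξ hξA hxtr hJx hregU hregV u hu0 hu hu' T0
    ?_ ?_ ?_ ?_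
  · -- rationality of the restrictions
    intro P hP y hy
    obtain ⟨w, hw, rfl⟩ := (hT0 P).mp hP
    obtain ⟨c, hc⟩ := hratT w hw y ((H74.mem_restrictModel_iff K0 L w y).mp hy)
    exact ⟨c, (value_restrictModel_iff' L w y c).mpr hc⟩
  · -- completeness
    intro P hP
    obtain ⟨w, rfl⟩ := H74.exists_restrictModel_eq K0 L P
    refine (hT0 _).mpr ⟨w, hT w ?_, rfl⟩
    rwa [H39.ord_toBar_eq_ord_restrictModel]
  · intro n hn hπn S hS
    exact sum_centred_eq_zero A A0 L hA0 π hπ ξ u T hratT hinjT hsumU T0 hT0 n hn hπn S hS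
  · intro n hn hπn S hS
    refine sum_centred_eq_zero A A0 L hA0 π hπ ξ⁻¹ u T hratT hinjT ?_ T0 hT0 n hn hπn S hS
    rw [map_inv₀]
    exact hsumV

end Core

end Fermat.Agent.S37.H08
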