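import Mathlib
import Fermat.Agent.S18.GaussFull_helper93
import Fermat.Agent.S18.NoPole_helper32
import Fermat.Agent.S18.GaussKC_helper92

/-!
# S37, node (CONST-GLUE) (helper22)

From the output of (UNIT') on the two model charts to the Prop (CONST) of `InjTop_helper84`.

* (G1) `gaussRho_eq_const_of_charts` : generic Gauss data over ANY valuation subring; an
  element `u` of the Gauss ring which is congruent, modulo the maximal ideal of the Gauss ring,
  to an element integral over `A[ξ]` and to an element integral over `A[ξ⁻¹]` has CONSTANT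
  Gauss reduction.
* (G2) `sub_mem_nonunits_of_congr` : over a DVR, the literal conclusion of the landed (UNIT')
  (`(u - c0) * b = π * a` with `c0, a, b` integral over `A[x]` and `π ∤ b` in the chart) gives
  `u - c0 ∈ (gaussW).nonunits`.
* (G3) `exists_ratio_of_gaussRho_eq_const` and `const_of_model` : a Gauss unit with constant
  reduction in a model over `K0 ⊆ Qbar` gives (CONST) over the frozen valuation ring.
-/

set_option autoImplicit false
set_option synthInstance.maxHeartbeats 400000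
set_option maxHeartbeats 800000

noncomputable section

open HahnSeries ModularCurve Polynomial

namespace Fermat.Agent.S37.H22

open Fermat.Agent.S18

section IntegralElem

/-- An element integral through the chart homomorphism `R[X] → E`, `X ↦ x` (constants through
`R → k → E`) is integral over the subalgebra `k[x]`. -/
theorem isIntegral_adjoin_of_isIntegralElem {k E R : Type*} [Field k] [Field E] [Algebra k E]
    [CommRing R] (res : R →+* k) (x y : E)
    (h : (Polynomial.eval₂RingHom ((algebraMap k E).comp res) x).IsIntegralElem y) :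
    IsIntegral (Algebra.adjoin k {x}) y := by
  obtain ⟨p, hp, hpy⟩ := h
  let g : R[X] →+* Algebra.adjoin k {x} :=
    Polynomial.eval₂RingHom ((algebraMap k (Algebra.adjoin k {x})).comp res)
      ⟨x, Algebra.subset_adjoin (Set.mem_singleton x)⟩
  have hg : (algebraMap (Algebra.adjoin k {x}) E).comp g =
      Polynomial.eval₂RingHom ((algebraMap k E).comp res) x := by
    apply Polynomial.ringHom_ext
    · intro a
      simp only [g, RingHom.comp_apply, Polynomial.coe_eval₂RingHom, Polynomial.eval₂_C]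
      rfl
    · simp only [g, RingHom.comp_apply, Polynomial.coe_eval₂RingHom, Polynomial.eval₂_X]
      rfl
  refine ⟨p.map g, hp.map g, ?_⟩
  rw [Polynomial.eval₂_map, hg]
  exact hpy

end IntegralElem

section Generic

variable {L : Type*} [Field L] {A : ValuationSubring L}
variable {F : IntermediateField L (LaurentSeries L)}
variable {Fk : IntermediateField (IsLocalRing.ResidueField A)
  (LaurentSeries (IsLocalRing.ResidueField A))}
variable {J : LaurentSeries A} {n : ℕ} {b : Fin n → LaurentSeries A}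

/-- constants, as a ring hom into the Gauss ring. -/
def constW (hD : H93.GaussData A F Fk J b) : A →+* H93.gaussW hD :=
  (H93.constHom A F).codRestrict (H93.gaussW hD) (fun a => H93.constHom_mem_gaussW hD a)

/-- the chart homomorphism, as a ring hom into the Gauss ring. -/
def chartW (hD : H93.GaussData A F Fk J b) (ξ : F) (hξ : ξ ∈ H93.gaussW hD) :
    A[X] →+* H93.gaussW hD :=
  Polynomial.eval₂RingHom (constW hD) ⟨ξ, hξ⟩

theorem coe_chartW (hD : H93.GaussData A F Fk J b) (ξ : F) (hξ : ξ ∈ H93.gaussW hD)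
    (P : A[X]) : ((chartW hD ξ hξ P : H93.gaussW hD) : F) = H93.chartHom A ξ P := by
  have h : (H93.gaussW hD).subtype.comp (chartW hD ξ hξ) = H93.chartHom A ξ := by
    apply Polynomial.ringHom_ext
    · intro a
      simp only [chartW, H93.chartHom, RingHom.comp_apply, Polynomial.coe_eval₂RingHom,
        Polynomial.eval₂_C]
      rfl
    · simp only [chartW, H93.chartHom, RingHom.comp_apply, Polynomial.coe_eval₂RingHom,
        Polynomial.eval₂_X]
      rfl
  exact congrArg (fun φ : A[X] →+* F => φ P) h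

theorem gaussRho_comp_chartW (hD : H93.GaussData A F Fk J b) (ξ : F)
    (hξ : ξ ∈ H93.gaussW hD) :
    (H93.gaussRho hD).comp (chartW hD ξ hξ) =
      Polynomial.eval₂RingHom ((algebraMap (IsLocalRing.ResidueField A) Fk).comp
        (IsLocalRing.residue A)) (H93.gaussRho hD ⟨ξ, hξ⟩) := by
  apply Polynomial.ringHom_ext
  · intro a
    simp only [chartW, RingHom.comp_apply, Polynomial.coe_eval₂RingHom, Polynomial.eval₂_C]
    apply Subtype.ext
    have h1 := H93.coe_gaussRho_constHom hD a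
    rw [H93.C_eq_algebraMap] at h1
    exact h1
  · simp only [chartW, RingHom.comp_apply, Polynomial.coe_eval₂RingHom, Polynomial.eval₂_X]

/-- The Gauss reduction of an element integral over `A[ξ]` is integral over `κ[ρ ξ]`. -/
theorem isIntegral_gaussRho (hD : H93.GaussData A F Fk J b) (ξ : F)
    (hξ : ξ ∈ H93.gaussW hD) (c : F) (hc : c ∈ H93.gaussW hD)
    (hint : (H93.chartHom A ξ).IsIntegralElem c) :
    IsIntegral (Algebra.adjoin (IsLocalRing.ResidueField A) {H93.gaussRho hD ⟨ξ, hξ⟩})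
      (H93.gaussRho hD ⟨c, hc⟩) := by
  apply isIntegral_adjoin_of_isIntegralElem (IsLocalRing.residue A)
  obtain ⟨p, hp, hpc⟩ := hint
  refine ⟨p, hp, ?_⟩
  have h1 : Polynomial.eval₂ (chartW hD ξ hξ) (⟨c, hc⟩ : H93.gaussW hD) p = 0 := by
    apply Subtype.ext
    have h2 := Polynomial.hom_eval₂ p (chartW hD ξ hξ) (H93.gaussW hD).subtype
      (⟨c, hc⟩ : H93.gaussW hD)
    have h3 : (H93.gaussW hD).subtype.comp (chartW hD ξ hξ) = H93.chartHom A ξ :=
      RingHom.ext (fun P => coe_chartW hD ξ hξ P)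
    rw [h3] at h2
    exact h2.trans hpc
  have h4 := Polynomial.hom_eval₂ p (chartW hD ξ hξ) (H93.gaussRho hD)
    (⟨c, hc⟩ : H93.gaussW hD)
  rw [h1, map_zero, gaussRho_comp_chartW] at h4
  exact h4.symm

/-- **(G1)** an element of the Gauss ring congruent (mod the maximal ideal of the Gauss ring)
to an element integral over `A[ξ]` and to an element integral over `A[ξ⁻¹]` has constant
Gauss reduction. -/
theorem gaussRho_eq_const_of_charts (hD : H93.GaussData A F Fk J b) (ξ : F)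
    (hξ : ξ ∈ H93.gaussW hD) (hξ' : ξ⁻¹ ∈ H93.gaussW hD) (u : F) (hu : u ∈ H93.gaussW hD)
    (cU cV : F) (hcU : cU ∈ H93.gaussW hD) (hcV : cV ∈ H93.gaussW hD)
    (hiU : (H93.chartHom A ξ).IsIntegralElem cU)
    (hiV : (H93.chartHom A ξ⁻¹).IsIntegralElem cV)
    (hU : u - cU ∈ (H93.gaussW hD).nonunits) (hV : u - cV ∈ (H93.gaussW hD).nonunits) :
    ∃ c : IsLocalRing.ResidueField A,
      H93.gaussRho hD ⟨u, hu⟩ = algebraMap (IsLocalRing.ResidueField A) Fk c := by
  have hρU : H93.gaussRho hD ⟨u, hu⟩ = H93.gaussRho hD ⟨cU, hcU⟩ := by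
    have h1 := (H93.mem_nonunits_gaussW_iff hD ⟨u - cU, sub_mem hu hcU⟩).mp hU
    have h2 : (⟨u - cU, sub_mem hu hcU⟩ : H93.gaussW hD) = ⟨u, hu⟩ - ⟨cU, hcU⟩ := rfl
    rw [h2, map_sub, sub_eq_zero] at h1
    exact h1
  have hρV : H93.gaussRho hD ⟨u, hu⟩ = H93.gaussRho hD ⟨cV, hcV⟩ := by
    have h1 := (H93.mem_nonunits_gaussW_iff hD ⟨u - cV, sub_mem hu hcV⟩).mp hV
    have h2 : (⟨u - cV, sub_mem hu hcV⟩ : H93.gaussW hD) = ⟨u, hu⟩ - ⟨cV, hcV⟩ := rfl
    rw [h2, map_sub, sub_eq_zero] at h1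
    exact h1
  have hinv : H93.gaussRho hD ⟨ξ⁻¹, hξ'⟩ = (H93.gaussRho hD ⟨ξ, hξ⟩)⁻¹ := by
    by_cases h0 : ξ = 0
    · have e1 : (⟨ξ⁻¹, hξ'⟩ : H93.gaussW hD) = 0 := Subtype.ext (by simp [h0])
      have e2 : (⟨ξ, hξ⟩ : H93.gaussW hD) = 0 := Subtype.ext h0
      rw [e1, e2, map_zero, inv_zero]
    · apply eq_inv_of_mul_eq_one_left
      rw [← map_mul]
      have e1 : (⟨ξ⁻¹, hξ'⟩ : H93.gaussW hD) * ⟨ξ, hξ⟩ = 1 :=
        Subtype.ext (inv_mul_cancel₀ h0)
      rw [e1, map_one]
  have i1 := isIntegral_gaussRho hD ξ hξ cU hcU hiU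
  have i2 := isIntegral_gaussRho hD ξ⁻¹ hξ' cV hcV hiV
  rw [← hρU] at i1
  rw [← hρV, hinv] at i2
  exact H32.nopole_field Fk (H93.gaussRho hD ⟨ξ, hξ⟩) (H93.gaussRho hD ⟨u, hu⟩) i1 i2

/-- **(G2)** over a DVR: the literal conclusion of (UNIT') on a chart which satisfies the Gauss
chart statement gives a congruence modulo the maximal ideal of the Gauss ring. -/
theorem sub_mem_nonunits_of_congr (hD : H93.GaussData A F Fk J b) [IsDiscreteValuationRing A]
    {pi : A} (hpi : Irreducible pi) (x : F)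
    (hchart : ∀ y : F, (H93.chartHom A x).IsIntegralElem y → y ∈ H93.gaussW hD ∧
      ∀ w ∈ H93.gaussW hD, y = H93.constHom A F pi * w → (H93.chartHom A x).IsIntegralElem w)
    (u c0 a d : F) (hc0 : (H93.chartHom A x).IsIntegralElem c0)
    (ha : (H93.chartHom A x).IsIntegralElem a) (hd : (H93.chartHom A x).IsIntegralElem d)
    (hd' : ¬ ∃ d' : F, (H93.chartHom A x).IsIntegralElem d' ∧ d = H93.constHom A F pi * d')
    (h : (u - c0) * d = H93.constHom A F pi * a) :
    u ∈ H93.gaussW hD ∧ c0 ∈ H93.gaussW hD ∧ u - c0 ∈ (H93.gaussW hD).nonunits := by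
  have hdW : d ∈ H93.gaussW hD := (hchart d hd).1
  have haW : a ∈ H93.gaussW hD := (hchart a ha).1
  have hcW : c0 ∈ H93.gaussW hD := (hchart c0 hc0).1
  have hρd : H93.gaussRho hD ⟨d, hdW⟩ ≠ 0 := by
    intro h0
    have h1 := (H93.mem_nonunits_gaussW_iff hD ⟨d, hdW⟩).mpr h0
    obtain ⟨y, hy, hdy⟩ := H93.exists_eq_mul_of_mem_nonunits hD hpi d h1
    exact hd' ⟨y, (hchart d hd).2 y hy hdy, hdy⟩
  have hd0 : d ≠ 0 := by
    rintro rfl
    apply hρd
    have : (⟨0, hdW⟩ : H93.gaussW hD) = 0 := rfl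
    rw [this, map_zero]
  have hdinv : d⁻¹ ∈ H93.gaussW hD := H93.inv_mem_gaussW_of_rho_ne_zero hD ⟨d, hdW⟩ hρd
  have hpiW : H93.constHom A F pi ∈ H93.gaussW hD := H93.constHom_mem_gaussW hD pi
  have hdiff : u - c0 = H93.constHom A F pi * (a * d⁻¹) := by
    rw [← mul_assoc, ← h, mul_assoc, mul_inv_cancel₀ hd0, mul_one]
  have hmem : H93.constHom A F pi * (a * d⁻¹) ∈ H93.gaussW hD :=
    mul_mem hpiW (mul_mem haW hdinv)
  have hnon : u - c0 ∈ (H93.gaussW hD).nonunits := by
    rw [hdiff]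
    refine (H93.mem_nonunits_gaussW_iff hD ⟨_, hmem⟩).mpr ?_
    have e1 : (⟨H93.constHom A F pi * (a * d⁻¹), hmem⟩ : H93.gaussW hD) =
        ⟨H93.constHom A F pi, hpiW⟩ * ⟨a * d⁻¹, mul_mem haW hdinv⟩ := rfl
    rw [e1, map_mul,
      (H93.mem_nonunits_gaussW_iff hD ⟨_, hpiW⟩).mp (H93.constHom_mem_nonunits hD hpi),
      zero_mul]
  refine ⟨?_, hcW, hnon⟩
  have : u = c0 + H93.constHom A F pi * (a * d⁻¹) := by rw [← hdiff]; ring
  rw [this]
  exact add_mem hcW hmem

/-- **(G3a)** a Gauss unit with constant reduction is a ratio `Y1 / Y2` of integral series with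
`red Y1 = abar * red Y2`, `abar` a nonzero constant. -/
theorem exists_ratio_of_gaussRho_eq_const (hD : H93.GaussData A F Fk J b) (u : F)
    (hu : u ∈ H93.gaussW hD) (hu' : u⁻¹ ∈ H93.gaussW hD) (hu0 : u ≠ 0)
    (c : IsLocalRing.ResidueField A)
    (hc : H93.gaussRho hD ⟨u, hu⟩ = algebraMap (IsLocalRing.ResidueField A) Fk c) :
    ∃ (Y1 Y2 : LaurentSeries A) (a : A), H93.redA A Y2 ≠ 0 ∧ IsLocalRing.residue A a ≠ 0 ∧
      (u : LaurentSeries L) * H93.iotaA A Y2 = H93.iotaA A Y1 ∧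
      H93.redA A Y1 = HahnSeries.C (IsLocalRing.residue A a) * H93.redA A Y2 := by
  obtain ⟨a, rfl⟩ := IsLocalRing.residue_surjective c
  have hne : IsLocalRing.residue A a ≠ 0 := by
    intro h0
    rw [h0, map_zero] at hc
    have e1 : (⟨u, hu⟩ : H93.gaussW hD) * ⟨u⁻¹, hu'⟩ = 1 := Subtype.ext (mul_inv_cancel₀ hu0)
    have e2 := congrArg (H93.gaussRho hD) e1
    rw [map_mul, hc, zero_mul, map_one] at e2
    exact zero_ne_one e2
  obtain ⟨Y2, Y1, -, hY2, h⟩ := id hu
  refine ⟨Y1, Y2, a, hY2, hne, by rw [mul_comm]; exact h, ?_⟩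
  have h1 := H93.coe_gaussRho_eq hD ⟨u, hu⟩ Y2 Y1 hY2 h
  rw [hc] at h1
  have h2 : ((algebraMap (IsLocalRing.ResidueField A) Fk (IsLocalRing.residue A a) : Fk) :
      LaurentSeries (IsLocalRing.ResidueField A)) =
      HahnSeries.C (IsLocalRing.residue A a) := by
    rw [H93.C_eq_algebraMap]
    rfl
  rw [h2] at h1
  rw [h1, div_mul_cancel₀ _ hY2]

end Generic

section Transport

variable (A : ValuationSubring (AlgebraicClosure ℚ)) (K0 : Type*) [Field K0]
  [Algebra K0 (AlgebraicClosure ℚ)]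

/-- The inclusion `A ∩ K0 → A` for a field `K0` mapping to `Qbar`. -/
def inclG : ↥(A.comap (algebraMap K0 (AlgebraicClosure ℚ))) →+* ↥A where
  toFun x := ⟨algebraMap K0 (AlgebraicClosure ℚ) x.1, x.2⟩
  map_zero' := Subtype.ext (map_zero _)
  map_one' := Subtype.ext (map_one _)
  map_add' _ _ := Subtype.ext (map_add _ _ _)
  map_mul' _ _ := Subtype.ext (map_mul _ _ _)

theorem coe_inclG (x : ↥(A.comap (algebraMap K0 (AlgebraicClosure ℚ)))) :
    ((inclG A K0 x : ↥A) : AlgebraicClosure ℚ) = algebraMap K0 (AlgebraicClosure ℚ) (x : K0) :=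
  rfl

theorem subtype_comp_inclG :
    A.subtype.comp (inclG A K0) =
      (algebraMap K0 (AlgebraicClosure ℚ)).comp
        (A.comap (algebraMap K0 (AlgebraicClosure ℚ))).subtype :=
  rfl

theorem residue_inclG_eq_zero_iff (x : ↥(A.comap (algebraMap K0 (AlgebraicClosure ℚ)))) :
    IsLocalRing.residue ↥A (inclG A K0 x) = 0 ↔
      IsLocalRing.residue ↥(A.comap (algebraMap K0 (AlgebraicClosure ℚ))) x = 0 := by
  rw [← not_iff_not]
  change IsLocalRing.residue ↥A (inclG A K0 x) ≠ 0 ↔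
    IsLocalRing.residue ↥(A.comap (algebraMap K0 (AlgebraicClosure ℚ))) x ≠ 0
  rw [IsLocalRing.residue_ne_zero_iff_isUnit, IsLocalRing.residue_ne_zero_iff_isUnit]
  constructor
  · intro h
    obtain ⟨z, hz⟩ := h.exists_right_inv
    have hz' : algebraMap K0 (AlgebraicClosure ℚ) (x : K0) * (z : AlgebraicClosure ℚ) = 1 :=
      congrArg (fun w : ↥A => (w : AlgebraicClosure ℚ)) hz
    have hx0 : (x : K0) ≠ 0 := by
      intro h0
      rw [h0, map_zero, zero_mul] at hz'
      exact zero_ne_one hz'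
    have hzeq : (z : AlgebraicClosure ℚ) = algebraMap K0 (AlgebraicClosure ℚ) (x : K0)⁻¹ := by
      rw [map_inv₀]
      exact eq_inv_of_mul_eq_one_right hz'
    have hmem : (x : K0)⁻¹ ∈ A.comap (algebraMap K0 (AlgebraicClosure ℚ)) := by
      rw [ValuationSubring.mem_comap, ← hzeq]
      exact z.2
    exact IsUnit.of_mul_eq_one ⟨(x : K0)⁻¹, hmem⟩ (Subtype.ext (mul_inv_cancel₀ hx0))
  · intro h
    exact h.map (inclG A K0)

theorem redA_coeffMap_inclG_eq_zero_iff
    (Y : LaurentSeries ↥(A.comap (algebraMap K0 (AlgebraicClosure ℚ)))) :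
    coeffMap (IsLocalRing.residue ↥A) (coeffMap (inclG A K0) Y) = 0 ↔
      coeffMap (IsLocalRing.residue ↥(A.comap (algebraMap K0 (AlgebraicClosure ℚ)))) Y = 0 := by
  constructor
  · intro h
    ext k
    have h1 := congrArg (fun s : LaurentSeries (IsLocalRing.ResidueField ↥A) => s.coeff k) h
    simp only [coeffMap_coeff, HahnSeries.coeff_zero] at h1 ⊢
    exact (residue_inclG_eq_zero_iff A K0 _).mp h1
  · intro h
    ext k
    have h1 := congrArg (fun s : LaurentSeries (IsLocalRing.ResidueField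
      ↥(A.comap (algebraMap K0 (AlgebraicClosure ℚ)))) => s.coeff k) h
    simp only [coeffMap_coeff, HahnSeries.coeff_zero] at h1 ⊢
    exact (residue_inclG_eq_zero_iff A K0 _).mpr h1

theorem iotaA_coeffMap_inclG
    (Y : LaurentSeries ↥(A.comap (algebraMap K0 (AlgebraicClosure ℚ)))) :
    coeffMap A.subtype (coeffMap (inclG A K0) Y) =
      coeffMap (algebraMap K0 (AlgebraicClosure ℚ))
        (coeffMap (A.comap (algebraMap K0 (AlgebraicClosure ℚ))).subtype Y) := by
  rw [coeffMap_coeffMap, coeffMap_coeffMap, subtype_comp_inclG]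

/-- **(G3b)** transport to the frozen valuation ring: if `x = c' * (image of u0)` and `u0` is,
over `A0 = A ∩ K0`, a ratio `Y1 / Y2` with `red Y1 = abar * red Y2`, `abar ≠ 0` constant, then
`x` satisfies (CONST): `x * ι Z2 = c * ι Z1` with `red Z1 = red Z2 ≠ 0`, `c ≠ 0`. -/
theorem const_of_model (x : LaurentSeries (AlgebraicClosure ℚ)) (u0 : LaurentSeries K0)
    (c' : AlgebraicClosure ℚ) (hc' : c' ≠ 0)
    (hx : x = HahnSeries.C c' * coeffMap (algebraMap K0 (AlgebraicClosure ℚ)) u0)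
    (h : ∃ (Y1 Y2 : LaurentSeries ↥(A.comap (algebraMap K0 (AlgebraicClosure ℚ))))
      (a : ↥(A.comap (algebraMap K0 (AlgebraicClosure ℚ)))),
      coeffMap (IsLocalRing.residue ↥(A.comap (algebraMap K0 (AlgebraicClosure ℚ)))) Y2 ≠ 0 ∧
      IsLocalRing.residue ↥(A.comap (algebraMap K0 (AlgebraicClosure ℚ))) a ≠ 0 ∧
      u0 * coeffMap (A.comap (algebraMap K0 (AlgebraicClosure ℚ))).subtype Y2 =
        coeffMap (A.comap (algebraMap K0 (AlgebraicClosure ℚ))).subtype Y1 ∧
      coeffMap (IsLocalRing.residue ↥(A.comap (algebraMap K0 (AlgebraicClosure ℚ)))) Y1 =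
        HahnSeries.C (IsLocalRing.residue ↥(A.comap (algebraMap K0 (AlgebraicClosure ℚ))) a) *
          coeffMap (IsLocalRing.residue ↥(A.comap (algebraMap K0 (AlgebraicClosure ℚ)))) Y2) :
    ∃ (c : AlgebraicClosure ℚ) (Z1 Z2 : LaurentSeries ↥A), c ≠ 0 ∧
      coeffMap (IsLocalRing.residue ↥A) Z2 ≠ 0 ∧
      coeffMap (IsLocalRing.residue ↥A) Z1 = coeffMap (IsLocalRing.residue ↥A) Z2 ∧
      x * coeffMap A.subtype Z2 = HahnSeries.C c * coeffMap A.subtype Z1 := by
  obtain ⟨Y1, Y2, a, hY2, ha, hu, hred⟩ := h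
  have ha0 : (a : K0) ≠ 0 := by
    intro h0
    have : a = 0 := Subtype.ext h0
    rw [this, map_zero] at ha
    exact ha rfl
  have hCa : (HahnSeries.C (IsLocalRing.residue
      ↥(A.comap (algebraMap K0 (AlgebraicClosure ℚ))) a) : LaurentSeries _) ≠ 0 := by
    intro h0
    apply ha
    have := congrArg (fun s : LaurentSeries (IsLocalRing.ResidueField
      ↥(A.comap (algebraMap K0 (AlgebraicClosure ℚ)))) => s.coeff 0) h0
    simpa using this
  refine ⟨c' * algebraMap K0 (AlgebraicClosure ℚ) (a : K0), coeffMap (inclG A K0) Y1,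
    coeffMap (inclG A K0) (HahnSeries.C a * Y2),
    mul_ne_zero hc' ((_root_.map_ne_zero _).mpr ha0), ?_, ?_, ?_⟩
  · intro h0
    rw [redA_coeffMap_inclG_eq_zero_iff, map_mul, H93.coeffMap_C] at h0
    exact mul_ne_zero hCa hY2 h0
  · rw [← sub_eq_zero, ← map_sub, ← map_sub, redA_coeffMap_inclG_eq_zero_iff, map_sub, map_mul,
      H93.coeffMap_C, hred, sub_self]
  · rw [iotaA_coeffMap_inclG, iotaA_coeffMap_inclG, hx, map_mul, H93.coeffMap_C, ← hu, map_mul,
      map_mul (HahnSeries.C) c', map_mul (coeffMap (algebraMap K0 (AlgebraicClosure ℚ))),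
      H93.coeffMap_C]
    show HahnSeries.C c' * coeffMap (algebraMap K0 (AlgebraicClosure ℚ)) u0 *
      (HahnSeries.C (algebraMap K0 (AlgebraicClosure ℚ) (a : K0)) *
        coeffMap (algebraMap K0 (AlgebraicClosure ℚ))
          (coeffMap (A.comap (algebraMap K0 (AlgebraicClosure ℚ))).subtype Y2)) =
      HahnSeries.C c' * HahnSeries.C (algebraMap K0 (AlgebraicClosure ℚ) (a : K0)) *
        (coeffMap (algebraMap K0 (AlgebraicClosure ℚ)) u0 *
          coeffMap (algebraMap K0 (AlgebraicClosure ℚ))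
            (coeffMap (A.comap (algebraMap K0 (AlgebraicClosure ℚ))).subtype Y2))
    ring

end Transport

section Model

variable (A : ValuationSubring (AlgebraicClosure ℚ)) {K0 : Type*} [Field K0]
  [Algebra K0 (AlgebraicClosure ℚ)]
variable {F0 : IntermediateField K0 (LaurentSeries K0)}
variable {Fk0 : IntermediateField
  (IsLocalRing.ResidueField ↥(A.comap (algebraMap K0 (AlgebraicClosure ℚ))))
  (LaurentSeries (IsLocalRing.ResidueField ↥(A.comap (algebraMap K0 (AlgebraicClosure ℚ)))))}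
variable {J : LaurentSeries ↥(A.comap (algebraMap K0 (AlgebraicClosure ℚ)))} {n : ℕ}
  {b : Fin n → LaurentSeries ↥(A.comap (algebraMap K0 (AlgebraicClosure ℚ)))}

/-- **(CONST-GLUE), model form.**  `K0` a field inside `Qbar`, `A0 = A ∩ K0`, `V` the Gauss
ring of a model `F0` over `K0` (any `H93.GaussData`), `ξ` a chart coordinate which is a unit of
`V`, `π` a non-unit of `A0`.  If a unit `u` of `V` is congruent modulo `π V` to an element of
the chart `chartU A0 ξ` and to an element of the chart `chartV A0 ξ` (the output of (UNIT') on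
the two charts), then every constant multiple `x = c' * (image of u)` in `Qbar((q))` satisfies
(CONST) of `InjTop_helper84`: `x * ι Z2 = c * ι Z1` with `c ≠ 0` and `red Z1 = red Z2 ≠ 0`. -/
theorem const_of_unit_charts
    (hD : H93.GaussData (A.comap (algebraMap K0 (AlgebraicClosure ℚ))) F0 Fk0 J b)
    (π : ↥(A.comap (algebraMap K0 (AlgebraicClosure ℚ)))) (hπ : ¬ IsUnit π)
    (ξ : F0) (hξ : ξ ∈ H93.gaussW hD) (hξ' : ξ⁻¹ ∈ H93.gaussW hD)
    (hBU : ∀ c ∈ H97.chartU ↥(A.comap (algebraMap K0 (AlgebraicClosure ℚ))) ξ,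
      c ∈ H93.gaussW hD)
    (hBV : ∀ c ∈ H97.chartV ↥(A.comap (algebraMap K0 (AlgebraicClosure ℚ))) ξ,
      c ∈ H93.gaussW hD)
    (u : F0) (hu0 : u ≠ 0) (hu : u ∈ H93.gaussW hD) (hu' : u⁻¹ ∈ H93.gaussW hD)
    (hU : ∃ c ∈ H97.chartU ↥(A.comap (algebraMap K0 (AlgebraicClosure ℚ))) ξ,
      ∃ y ∈ H93.gaussW hD,
        u - c = algebraMap ↥(A.comap (algebraMap K0 (AlgebraicClosure ℚ))) ↥F0 π * y)
    (hV : ∃ c ∈ H97.chartV ↥(A.comap (algebraMap K0 (AlgebraicClosure ℚ))) ξ,
      ∃ y ∈ H93.gaussW hD,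
        u - c = algebraMap ↥(A.comap (algebraMap K0 (AlgebraicClosure ℚ))) ↥F0 π * y)
    (x : LaurentSeries (AlgebraicClosure ℚ)) (c' : AlgebraicClosure ℚ) (hc' : c' ≠ 0)
    (hx : x = HahnSeries.C c' *
      coeffMap (algebraMap K0 (AlgebraicClosure ℚ)) (u : LaurentSeries K0)) :
    ∃ (c : AlgebraicClosure ℚ) (Z1 Z2 : LaurentSeries ↥A), c ≠ 0 ∧
      coeffMap (IsLocalRing.residue ↥A) Z2 ≠ 0 ∧
      coeffMap (IsLocalRing.residue ↥A) Z1 = coeffMap (IsLocalRing.residue ↥A) Z2 ∧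
      x * coeffMap A.subtype Z2 = HahnSeries.C c * coeffMap A.subtype Z1 := by
  have hπres : IsLocalRing.residue ↥(A.comap (algebraMap K0 (AlgebraicClosure ℚ))) π = 0 := by
    by_contra h0
    exact hπ ((IsLocalRing.residue_ne_zero_iff_isUnit π).mp h0)
  have hπW : H93.constHom (A.comap (algebraMap K0 (AlgebraicClosure ℚ))) F0 π ∈ H93.gaussW hD :=
    H93.constHom_mem_gaussW hD π
  have hρπ : H93.gaussRho hD ⟨_, hπW⟩ = 0 := by
    apply Subtype.ext
    rw [H93.coe_gaussRho_constHom hD π, hπres, map_zero]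
    rfl
  have key : ∀ (c y : F0), c ∈ H93.gaussW hD → y ∈ H93.gaussW hD →
      u - c = algebraMap ↥(A.comap (algebraMap K0 (AlgebraicClosure ℚ))) ↥F0 π * y →
      u - c ∈ (H93.gaussW hD).nonunits := by
    intro c y hc hy hcy
    rw [hcy]
    have hmem : H93.constHom (A.comap (algebraMap K0 (AlgebraicClosure ℚ))) F0 π * y ∈
        H93.gaussW hD := mul_mem hπW hy
    refine (H93.mem_nonunits_gaussW_iff hD ⟨_, hmem⟩).mpr ?_
    have e1 : (⟨H93.constHom (A.comap (algebraMap K0 (AlgebraicClosure ℚ))) F0 π * y, hmem⟩ :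
        H93.gaussW hD) = ⟨_, hπW⟩ * ⟨y, hy⟩ := rfl
    rw [e1, map_mul, hρπ, zero_mul]
  obtain ⟨cU, hcU, yU, hyU, hUeq⟩ := hU
  obtain ⟨cV, hcV, yV, hyV, hVeq⟩ := hV
  obtain ⟨cbar, hcbar⟩ := gaussRho_eq_const_of_charts hD ξ hξ hξ' u hu cU cV (hBU cU hcU)
    (hBV cV hcV) ((H92.isIntegralElem_chartHom_iff ξ cU).mpr hcU)
    ((H92.isIntegralElem_chartHom_iff ξ⁻¹ cV).mpr hcV)
    (key cU yU (hBU cU hcU) hyU hUeq) (key cV yV (hBV cV hcV) hyV hVeq)
  exact const_of_model A K0 x (u : LaurentSeries K0) c' hc' hx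
    (exists_ratio_of_gaussRho_eq_const hD u hu hu' hu0 cbar hcbar)

end Model

end Fermat.Agent.S37.H22
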