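import Mathlib
import Fermat.Agent.S37.ConstGlue_helper22
import Fermat.Agent.S18.PlaceModel_helper74
import Fermat.Agent.S18.Desc_helper61

/-!
# S37, node (CONST-GLUE), model vocabulary (helper22)

`const_of_model_unit` : the statement `const_of_unit_charts` of `ConstGlue_helper22` in the
literal vocabulary of the (a)-assembly: `K0 : IntermediateField ℚ Qbar`, `A0 = H61.A0 A K0`,
`V = H93.gaussWFull K0 L A0 ℓ hℓL`, the comparison map `H74.toBar K0 L`, and
`f = const * toBar u` in `modularFunctionFieldBar L` (the output of `H92.exists_model_unit`).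
The conclusion is the Prop (CONST) of `InjTop_helper84` for the `q`-expansion of `f`.
-/

set_option autoImplicit false
set_option synthInstance.maxHeartbeats 400000
set_option maxHeartbeats 800000

noncomputable section

open HahnSeries ModularCurve Polynomial

namespace Fermat.Agent.S37.H22

open Fermat.Agent.S18

/-- **(CONST-GLUE), frozen model vocabulary.**  `u` a unit of the Gauss ring of the `K0`-model
at level `L` which is congruent modulo `π` to an element of each of the two charts of a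
coordinate `ξ`; `f = c0 * toBar u`.  Then the `q`-expansion of `f` satisfies (CONST). -/
theorem const_of_model_unit (A : ValuationSubring (AlgebraicClosure ℚ))
    (K0 : IntermediateField ℚ (AlgebraicClosure ℚ)) (L : ℕ) [NeZero L] (ℓ : ℕ) [Fact ℓ.Prime]
    [CharP (IsLocalRing.ResidueField ↥(H61.A0 A K0)) ℓ] (hℓL : ¬ ℓ ∣ L)
    (π : ↥(H61.A0 A K0)) (hπ : ¬ IsUnit π)
    (ξ : ↥(modularFunctionFieldFullC K0 L))
    (hξ : ξ ∈ H93.gaussWFull K0 L (H61.A0 A K0) ℓ hℓL)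
    (hξ' : ξ⁻¹ ∈ H93.gaussWFull K0 L (H61.A0 A K0) ℓ hℓL)
    (hBU : ∀ c ∈ H97.chartU ↥(H61.A0 A K0) ξ, c ∈ H93.gaussWFull K0 L (H61.A0 A K0) ℓ hℓL)
    (hBV : ∀ c ∈ H97.chartV ↥(H61.A0 A K0) ξ, c ∈ H93.gaussWFull K0 L (H61.A0 A K0) ℓ hℓL)
    (u : ↥(modularFunctionFieldFullC K0 L)) (hu0 : u ≠ 0)
    (hu : u ∈ H93.gaussWFull K0 L (H61.A0 A K0) ℓ hℓL)
    (hu' : u⁻¹ ∈ H93.gaussWFull K0 L (H61.A0 A K0) ℓ hℓL)
    (hU : ∃ c ∈ H97.chartU ↥(H61.A0 A K0) ξ, ∃ y ∈ H93.gaussWFull K0 L (H61.A0 A K0) ℓ hℓL,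
      u - c = algebraMap ↥(H61.A0 A K0) ↥(modularFunctionFieldFullC K0 L) π * y)
    (hV : ∃ c ∈ H97.chartV ↥(H61.A0 A K0) ξ, ∃ y ∈ H93.gaussWFull K0 L (H61.A0 A K0) ℓ hℓL,
      u - c = algebraMap ↥(H61.A0 A K0) ↥(modularFunctionFieldFullC K0 L) π * y)
    (f : ↥(modularFunctionFieldBar L)) (c0 : K0) (hc0 : c0 ≠ 0)
    (hf : f = algebraMap (AlgebraicClosure ℚ) ↥(modularFunctionFieldBar L)
      (algebraMap K0 (AlgebraicClosure ℚ) c0) * H74.toBar K0 L u) :
    ∃ (c : AlgebraicClosure ℚ) (Z1 Z2 : LaurentSeries ↥A), c ≠ 0 ∧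
      coeffMap (IsLocalRing.residue ↥A) Z2 ≠ 0 ∧
      coeffMap (IsLocalRing.residue ↥A) Z1 = coeffMap (IsLocalRing.residue ↥A) Z2 ∧
      (f : LaurentSeries (AlgebraicClosure ℚ)) * coeffMap A.subtype Z2 =
        HahnSeries.C c * coeffMap A.subtype Z1 := by
  refine const_of_unit_charts A (H93.fullData K0 L (H61.A0 A K0) ℓ hℓL) π hπ ξ hξ hξ' hBU hBV
    u hu0 hu hu' hU hV (f : LaurentSeries (AlgebraicClosure ℚ))
    (algebraMap K0 (AlgebraicClosure ℚ) c0) ?_ ?_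
  · exact (_root_.map_ne_zero (algebraMap K0 (AlgebraicClosure ℚ))).mpr hc0
  · rw [hf, H93.C_eq_algebraMap]
    rfl

end Fermat.Agent.S37.H22
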