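import Mathlib
import Fermat.Agent.S37.Rat_helper5
import Fermat.Agent.S18.GaussFull_helper93
import Fermat.Agent.S18.DvrK0_helper86
import Fermat.Agent.S24.Basics_helper19

/-!
# S37, (a)-assembly, node (A2) MODEL (helper92)

`f ≠ 0` in `Fbar_L = modularFunctionFieldBar L`.  There is a finite set `C` of algebraic numbers
such that for every subfield `K0 ⊆ Qbar` containing `C` the function `f` comes from the
`K0`-model `F0 = modularFunctionFieldFullC K0 L`, and there it is a nonzero constant of `K0`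
times a UNIT `u` of the Gauss valuation ring `V0 = H93.gaussWFull K0 L A0 ℓ _`
(`A0 = A ∩ K0`).  The divisor of `toBar u` is the divisor of `f`.

* `exists_const_mul_gaussUnit`: the generic statement over any field `K0` and any valuation
  subring `A0` of `K0` (no discreteness needed).
* `exists_model_unit`: the statement for `K0 : IntermediateField ℚ Qbar`, in the quantifier
  shape `∃ C : Finset Qbar, ∀ K0 ⊇ C` of `H60.ModelKumStmt` / `H05.exists_rational`.
* `exists_model_unit_of_liesOver`: the same with the characteristic instance supplied from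
  `A.LiesOverPrime ℓ`.
-/

set_option autoImplicit false

open ModularCurve AlgebraicCurve

namespace Fermat.Agent.S37.H92

noncomputable section

open Fermat.Agent.S18

/-- The algebraic closure of `ℚ`. -/
abbrev Qb : Type := AlgebraicClosure ℚ

section Generic

variable (K0 : Type*) [Field K0] [CharZero K0] (L : ℕ) [NeZero L] (A0 : ValuationSubring K0)
  (ℓ : ℕ) [Fact ℓ.Prime] [CharP (IsLocalRing.ResidueField A0) ℓ] (hℓL : ¬ ℓ ∣ L)

/-- **Gauss normalisation.**  Every nonzero element of the model is a nonzero constant times a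
unit of the Gauss valuation ring (with nonzero Gauss reduction). -/
theorem exists_const_mul_gaussUnit (f0 : ↥(modularFunctionFieldFullC K0 L)) (hf0 : f0 ≠ 0) :
    ∃ (c0 : K0) (u : ↥(modularFunctionFieldFullC K0 L)), c0 ≠ 0 ∧
      f0 = algebraMap K0 ↥(modularFunctionFieldFullC K0 L) c0 * u ∧ u ≠ 0 ∧
      ∃ hu : u ∈ H93.gaussWFull K0 L A0 ℓ hℓL,
        u⁻¹ ∈ H93.gaussWFull K0 L A0 ℓ hℓL ∧ H93.gaussRhoFull K0 L A0 ℓ hℓL ⟨u, hu⟩ ≠ 0 := by
  obtain ⟨c, w, hc, hw, h⟩ := H93.exists_const_mul_unit (H93.fullData K0 L A0 ℓ hℓL) f0 hf0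
  have hfu : f0 = algebraMap K0 ↥(modularFunctionFieldFullC K0 L) c * (w : _) := by
    apply Subtype.ext
    rw [h, H93.C_eq_algebraMap]
    rfl
  refine ⟨c, (w : ↥(modularFunctionFieldFullC K0 L)), hc, hfu, ?_, w.2, ?_, hw⟩
  · intro h0
    apply hf0
    rw [hfu, h0, mul_zero]
  · exact H93.inv_mem_gaussW_of_rho_ne_zero (H93.fullData K0 L A0 ℓ hℓL) w hw

end Generic

section Frozen

set_option synthInstance.maxHeartbeats 400000

variable (L : ℕ) [NeZero L] (ℓ : ℕ) [Fact ℓ.Prime] (hℓL : ¬ ℓ ∣ L) (A : ValuationSubring Qb)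

/-- **(A2) MODEL.**  For `K0` containing a finite set of constants, `f` is the image of an
element `f0` of the `K0`-model which is a nonzero constant times a unit `u` of the Gauss
valuation ring of the model; `toBar u` has the same divisor as `f`. -/
theorem exists_model_unit (f : ↥(modularFunctionFieldBar L)) (hf : f ≠ 0) :
    ∃ C : Finset Qb, ∀ (K0 : IntermediateField ℚ Qb)
      [CharP (IsLocalRing.ResidueField ↥(H61.A0 A K0)) ℓ], (∀ c ∈ C, c ∈ K0) →
      ∃ (f0 u : ↥(modularFunctionFieldFullC K0 L)) (c0 : K0),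
        H74.toBar K0 L f0 = f ∧ c0 ≠ 0 ∧
        f0 = algebraMap K0 ↥(modularFunctionFieldFullC K0 L) c0 * u ∧ u ≠ 0 ∧
        u ∈ H93.gaussWFull K0 L (H61.A0 A K0) ℓ hℓL ∧
        u⁻¹ ∈ H93.gaussWFull K0 L (H61.A0 A K0) ℓ hℓL ∧
        (f = algebraMap Qb ↥(modularFunctionFieldBar L) (algebraMap K0 Qb c0) *
          H74.toBar K0 L u) ∧
        ∀ w : Place Qb ↥(modularFunctionFieldBar L), w.ord (H74.toBar K0 L u) = w.ord f := by
  obtain ⟨C, hC⟩ := H05.exists_finset_defOver L f.2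
  refine ⟨C, fun K0 _ hK0 => ?_⟩
  obtain ⟨f0, hf0⟩ := H05.exists_toBar_eq L f (hC K0 hK0)
  have hf0ne : f0 ≠ 0 := by
    intro h0
    apply hf
    rw [← hf0, h0, map_zero]
  obtain ⟨c0, u, hc0, hfu, hu0, hu, hu', -⟩ :=
    exists_const_mul_gaussUnit K0 L (H61.A0 A K0) ℓ hℓL f0 hf0ne
  have hfbar : f = algebraMap Qb ↥(modularFunctionFieldBar L) (algebraMap K0 Qb c0) *
      H74.toBar K0 L u := by
    rw [← hf0, hfu, map_mul, H74.toBar_algebraMap]
  refine ⟨f0, u, c0, hf0, hc0, hfu, hu0, hu, hu', hfbar, fun w => ?_⟩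
  have hcbar : algebraMap Qb ↥(modularFunctionFieldBar L) (algebraMap K0 Qb c0) ≠ 0 := by
    rw [Ne, map_eq_zero, map_eq_zero]
    exact hc0
  have hubar : H74.toBar K0 L u ≠ 0 := by
    rw [Ne, map_eq_zero]
    exact hu0
  rw [hfbar, w.ord_mul hcbar hubar, S24.H19.ord_algebraMap, zero_add]

/-- **(A2) MODEL**, with the characteristic instance supplied by `A.LiesOverPrime ℓ`. -/
theorem exists_model_unit_of_liesOver (hA : A.LiesOverPrime ℓ)
    (f : ↥(modularFunctionFieldBar L)) (hf : f ≠ 0) :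
    ∃ C : Finset Qb, ∀ K0 : IntermediateField ℚ Qb, (∀ c ∈ C, c ∈ K0) →
      haveI : CharP (IsLocalRing.ResidueField ↥(H61.A0 A K0)) ℓ :=
        H86.charP_residueField_A0 A K0 (Fact.out : ℓ.Prime) hA
      ∃ (f0 u : ↥(modularFunctionFieldFullC K0 L)) (c0 : K0),
        H74.toBar K0 L f0 = f ∧ c0 ≠ 0 ∧
        f0 = algebraMap K0 ↥(modularFunctionFieldFullC K0 L) c0 * u ∧ u ≠ 0 ∧
        u ∈ H93.gaussWFull K0 L (H61.A0 A K0) ℓ hℓL ∧
        u⁻¹ ∈ H93.gaussWFull K0 L (H61.A0 A K0) ℓ hℓL ∧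
        (f = algebraMap Qb ↥(modularFunctionFieldBar L) (algebraMap K0 Qb c0) *
          H74.toBar K0 L u) ∧
        ∀ w : Place Qb ↥(modularFunctionFieldBar L), w.ord (H74.toBar K0 L u) = w.ord f := by
  obtain ⟨C, hC⟩ := exists_model_unit L ℓ hℓL A f hf
  refine ⟨C, fun K0 hK0 => ?_⟩
  have : CharP (IsLocalRing.ResidueField ↥(H61.A0 A K0)) ℓ :=
    H86.charP_residueField_A0 A K0 (Fact.out : ℓ.Prime) hA
  exact hC K0 hK0

end Frozen

end

end Fermat.Agent.S37.H92
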