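import Mathlib
import Fermat.Agent.S37.ConstAsm_helper8
import Fermat.Agent.S37.ChartPkg_helper92
import Fermat.Agent.S37.ModelUnit_helper92
import Fermat.Agent.S37.ConstModel_helper22

/-!
# S37, (a)-assembly: (CONST) at one level from class sums (helper8)

`const_core`: level `L` with `ℓ ∤ L`, `A` a valuation subring of `Qbar` over `ℓ`, a chart
coordinate `x` of `Fbar_L` having chart data over every number field (the literal shape of
`H92.chartLit_j / _two / _three`), a nonzero function `f` of `Fbar_L` and a finite set `T` of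
places containing its zeros and poles such that the divisor of `f` has degree zero on every
`SameChar`-class of `T` for the chart ring of `x` and for the chart ring of `x⁻¹`.  Then the
`q`-expansion of `f` satisfies (CONST).

Proof: choose a number field `K0` over which the places of `T` are rational and `f` is a constant
times a Gauss unit `u` of the `K0`-model (`H05.exists_rational`, `H92.exists_model_unit`); apply
`H08.const_model` (the two chart congruences for `u`) and `H22.const_of_model_unit`.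
-/

set_option autoImplicit false

open AlgebraicCurve ModularCurve IntermediateField

namespace Fermat.Agent.S37.H08

open Fermat.Agent.S18

local notation "Qb" => AlgebraicClosure ℚ

set_option synthInstance.maxHeartbeats 400000 in
set_option maxHeartbeats 6400000 in
/-- **(CONST) at level `L` from class sums.** -/
theorem const_core (A : ValuationSubring Qb) (L : ℕ) [NeZero L] (ℓ : ℕ) [Fact ℓ.Prime]
    (hℓL : ¬ ℓ ∣ L) (hA : A.LiesOverPrime ℓ) (x : ↥(modularFunctionFieldBar L))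
    (hChart : ∀ (K0 : IntermediateField ℚ Qb) [FiniteDimensional ℚ K0],
      ∃ (xA xA' : LaurentSeries (H61.A0 A K0))
        (hx : H93.iotaA (H61.A0 A K0) xA ∈ modularFunctionFieldFullC K0 L),
        xA * xA' = 1 ∧
        H74.toBar K0 L (⟨H93.iotaA (H61.A0 A K0) xA, hx⟩ : modularFunctionFieldFullC K0 L) = x ∧
        (∀ P : Polynomial (IsLocalRing.ResidueField (H61.A0 A K0)),
          H93.evC P (H93.redA (H61.A0 A K0) xA) = 0 → P = 0) ∧
        (⟨jqModC K0, jqModC_mem_full K0 L⟩ : modularFunctionFieldFullC K0 L) ∈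
          IntermediateField.adjoin K0
            {(⟨H93.iotaA (H61.A0 A K0) xA, hx⟩ : modularFunctionFieldFullC K0 L)} ∧
        (∀ π : H61.A0 A K0, Irreducible π →
          ∀ n : Ideal (H97.chartU (↥(H61.A0 A K0))
              (⟨H93.iotaA (H61.A0 A K0) xA, hx⟩ : modularFunctionFieldFullC K0 L)), n.IsMaximal →
          algebraMap (↥(H61.A0 A K0)) (H97.chartU (↥(H61.A0 A K0))
              (⟨H93.iotaA (H61.A0 A K0) xA, hx⟩ : modularFunctionFieldFullC K0 L)) π ∈ n →
          ∃ τ ∈ n, ∀ a : H97.chartU (↥(H61.A0 A K0))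
              (⟨H93.iotaA (H61.A0 A K0) xA, hx⟩ : modularFunctionFieldFullC K0 L),
            a ∉ Ideal.span {algebraMap (↥(H61.A0 A K0)) (H97.chartU (↥(H61.A0 A K0))
              (⟨H93.iotaA (H61.A0 A K0) xA, hx⟩ : modularFunctionFieldFullC K0 L)) π} →
            ∃ (e : ℕ) (d u : H97.chartU (↥(H61.A0 A K0))
              (⟨H93.iotaA (H61.A0 A K0) xA, hx⟩ : modularFunctionFieldFullC K0 L)),
              d ∉ n ∧ u ∉ n ∧
              a * d - u * τ ^ e ∈ Ideal.span {algebraMap (↥(H61.A0 A K0)) (H97.chartU (↥(H61.A0 A K0))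
              (⟨H93.iotaA (H61.A0 A K0) xA, hx⟩ : modularFunctionFieldFullC K0 L)) π}) ∧
        (∀ π : H61.A0 A K0, Irreducible π →
          ∀ n : Ideal (H97.chartV (↥(H61.A0 A K0))
              (⟨H93.iotaA (H61.A0 A K0) xA, hx⟩ : modularFunctionFieldFullC K0 L)), n.IsMaximal →
          algebraMap (↥(H61.A0 A K0)) (H97.chartV (↥(H61.A0 A K0))
              (⟨H93.iotaA (H61.A0 A K0) xA, hx⟩ : modularFunctionFieldFullC K0 L)) π ∈ n →
          ∃ τ ∈ n, ∀ a : H97.chartV (↥(H61.A0 A K0))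
              (⟨H93.iotaA (H61.A0 A K0) xA, hx⟩ : modularFunctionFieldFullC K0 L),
            a ∉ Ideal.span {algebraMap (↥(H61.A0 A K0)) (H97.chartV (↥(H61.A0 A K0))
              (⟨H93.iotaA (H61.A0 A K0) xA, hx⟩ : modularFunctionFieldFullC K0 L)) π} →
            ∃ (e : ℕ) (d u : H97.chartV (↥(H61.A0 A K0))
              (⟨H93.iotaA (H61.A0 A K0) xA, hx⟩ : modularFunctionFieldFullC K0 L)),
              d ∉ n ∧ u ∉ n ∧
              a * d - u * τ ^ e ∈ Ideal.span {algebraMap (↥(H61.A0 A K0)) (H97.chartV (↥(H61.A0 A K0))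
              (⟨H93.iotaA (H61.A0 A K0) xA, hx⟩ : modularFunctionFieldFullC K0 L)) π}))
    (f : ↥(modularFunctionFieldBar L)) (hf : f ≠ 0)
    (T : Finset (Place Qb ↥(modularFunctionFieldBar L)))
    (hT : ∀ w : Place Qb ↥(modularFunctionFieldBar L), w.ord f ≠ 0 → w ∈ T)
    (hsumU : ∀ (w₀ : Place Qb ↥(modularFunctionFieldBar L))
      (C : Finset (Place Qb ↥(modularFunctionFieldBar L))),
      (∀ w, w ∈ C ↔ w ∈ T ∧ SameChar A
        (H58.chartRing A L x : Set ↥(modularFunctionFieldBar L)) w w₀) →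
      ∑ w ∈ C, w.ord f = 0)
    (hsumV : ∀ (w₀ : Place Qb ↥(modularFunctionFieldBar L))
      (C : Finset (Place Qb ↥(modularFunctionFieldBar L))),
      (∀ w, w ∈ C ↔ w ∈ T ∧ SameChar A
        (H58.chartRing A L x⁻¹ : Set ↥(modularFunctionFieldBar L)) w w₀) →
      ∑ w ∈ C, w.ord f = 0) :
    ∃ (c : Qb) (Z1 Z2 : LaurentSeries ↥A), c ≠ 0 ∧
      coeffMap (IsLocalRing.residue ↥A) Z2 ≠ 0 ∧
      coeffMap (IsLocalRing.residue ↥A) Z1 = coeffMap (IsLocalRing.residue ↥A) Z2 ∧
      (f : LaurentSeries Qb) * coeffMap A.subtype Z2 = HahnSeries.C c * coeffMap A.subtype Z1 := by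
  classical
  have hℓ : ℓ.Prime := Fact.out
  obtain ⟨C1, hC1⟩ := H05.exists_rational L T
  obtain ⟨C2, hC2⟩ := H92.exists_model_unit L ℓ hℓL A f hf
  obtain ⟨K0, hfin, hK0⟩ := H86.exists_finiteDimensional (C1 ∪ C2)
  haveI := hfin
  have hdvr : IsDiscreteValuationRing ↥(H61.A0 A K0) :=
    H86.isDiscreteValuationRing_A0 A K0 hℓ hA
  have hchar : CharP (IsLocalRing.ResidueField ↥(H61.A0 A K0)) ℓ :=
    H86.charP_residueField_A0 A K0 hℓ hA
  have halg : Algebra.IsAlgebraic K0 Qb := H05.isAlgebraic_K0 K0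
  have h1 := hC1 K0 (fun c hc => hK0 c (Finset.mem_union_left _ hc))
  obtain ⟨f0, u, c0, -, hc0, -, hu0, hu, hu', hfbar, hord⟩ :=
    hC2 K0 (fun c hc => hK0 c (Finset.mem_union_right _ hc))
  obtain ⟨xA, xA', hx, hxx, hxbar, hxtr, hJx, hregU, hregV⟩ := hChart K0
  obtain ⟨π, hπ⟩ := IsDiscreteValuationRing.exists_irreducible ↥(H61.A0 A K0)
  have hratT : ∀ w ∈ T, ∀ y : ↥(modularFunctionFieldFullC K0 L),
      H74.toBar K0 L y ∈ w.toValuationSubring →
      ∃ c : K0, H34.EvalAt w (H74.toBar K0 L y) (algebraMap K0 Qb c) :=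
    fun w hw y hy => (h1 w hw).1 y hy
  have hinjT : Set.InjOn (H74.restrictModel K0 L)
      (T : Set (Place Qb ↥(modularFunctionFieldBar L))) := by
    intro w hw w' _ h
    exact ((h1 w hw).2 w' (H05.toBar_mem_iff_of_restrictModel_eq L K0 h.symm)).symm
  have hTu : ∀ w : Place Qb ↥(modularFunctionFieldBar L),
      w.ord (H74.toBar K0 L u) ≠ 0 → w ∈ T := by
    intro w hw
    rw [hord w] at hw
    exact hT w hw
  have hsumU' : ∀ (w₀ : Place Qb ↥(modularFunctionFieldBar L))
      (C : Finset (Place Qb ↥(modularFunctionFieldBar L))),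
      (∀ w, w ∈ C ↔ w ∈ T ∧ SameChar A
        (H58.chartRing A L (H74.toBar K0 L
          (⟨H93.iotaA (H61.A0 A K0) xA, hx⟩ : modularFunctionFieldFullC K0 L)) :
            Set ↥(modularFunctionFieldBar L)) w w₀) →
      ∑ w ∈ C, w.ord (H74.toBar K0 L u) = 0 := by
    intro w₀ C hC
    rw [hxbar] at hC
    rw [Finset.sum_congr rfl (fun w _ => hord w)]
    exact hsumU w₀ C hC
  have hsumV' : ∀ (w₀ : Place Qb ↥(modularFunctionFieldBar L))
      (C : Finset (Place Qb ↥(modularFunctionFieldBar L))),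
      (∀ w, w ∈ C ↔ w ∈ T ∧ SameChar A
        (H58.chartRing A L (H74.toBar K0 L
          (⟨H93.iotaA (H61.A0 A K0) xA, hx⟩ : modularFunctionFieldFullC K0 L))⁻¹ :
            Set ↥(modularFunctionFieldBar L)) w w₀) →
      ∑ w ∈ C, w.ord (H74.toBar K0 L u) = 0 := by
    intro w₀ C hC
    rw [hxbar] at hC
    rw [Finset.sum_congr rfl (fun w _ => hord w)]
    exact hsumV w₀ C hC
  have key := const_model A (H61.A0 A K0) L ℓ (fun _ => Iff.rfl) hℓL π hπ xA xA' hxx
    (⟨H93.iotaA (H61.A0 A K0) xA, hx⟩ : modularFunctionFieldFullC K0 L) rfl hxtr hJx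
    (hregU π hπ) (hregV π hπ) u hu0 hu hu' T hTu hratT hinjT hsumU' hsumV'
  obtain ⟨pU, pV, -, hxV, hxV', -, -⟩ :=
    H92.chartPkg (H61.A0 A K0) ℓ L hℓL π hπ xA xA' hxx hx hxtr hJx
  exact H22.const_of_model_unit A K0 L ℓ hℓL π hπ.not_isUnit
    (⟨H93.iotaA (H61.A0 A K0) xA, hx⟩ : modularFunctionFieldFullC K0 L) hxV hxV' pU.le pV.le
    u hu0 hu hu' key.1 key.2 f c0 hc0 hfbar

end Fermat.Agent.S37.H08
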