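import Mathlib
import Fermat.Agent.S37.ConstTop_helper8
import Fermat.Agent.S37.ConstTop_helper27
import Fermat.Agent.S37.ChartLit_helper92

/-!
# S37, (a)-assembly: the three instances of (CONST-CORE) (helper8)

`H27.ConstCore L A x` (the Prop of `ConstTop_helper27`) for the three chart coordinates of the
route:

* `constCore_j`     : `ℓ ≠ 2, 3`, level `N`, `x = j`;
* `constCore_two`   : `ℓ = 3`, level `N * 2`, `x = t₂`;
* `constCore_three` : `ℓ = 2`, level `N * 3`, `x = t₃`.

Each is `H08.const_core` (class sums ⟹ (CONST) at one level) fed with the chart data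
`H92.chartLit_j / chartLit_two / chartLit_three`; the class predicate `H87.SamePair` of
`H27.SumZero` is the relational `H08.SameChar` by `H87.samePair_iff`.
-/

set_option autoImplicit false

open AlgebraicCurve ModularCurve IntermediateField

namespace Fermat.Agent.S37.H08

open Fermat.Agent.S18

local notation "Qb" => AlgebraicClosure ℚ

/-- the class sums of `H27.SumZero` in the relational form of `H08.const_core`. -/
theorem sumZero_iff {L : ℕ} (A : ValuationSubring Qb) (R' : Subring ↥(modularFunctionFieldBar L))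
    (f : ↥(modularFunctionFieldBar L)) (T : Finset (Place Qb ↥(modularFunctionFieldBar L)))
    (h : H27.SumZero A R' f T) (w₀ : Place Qb ↥(modularFunctionFieldBar L))
    (C : Finset (Place Qb ↥(modularFunctionFieldBar L)))
    (hC : ∀ w, w ∈ C ↔ w ∈ T ∧ SameChar A (R' : Set ↥(modularFunctionFieldBar L)) w w₀) :
    ∑ w ∈ C, w.ord f = 0 :=
  h w₀ C fun w => (hC w).trans (and_congr_right fun _ => H87.samePair_iff.symm)

set_option synthInstance.maxHeartbeats 400000 in
set_option maxHeartbeats 1600000 in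
/-- **(C-j)**: (CONST-CORE) at level `N` for the coordinate `j`, `ℓ ≠ 2, 3`. -/
theorem constCore_j (N ℓ : ℕ) [NeZero N] (hℓ : ℓ.Prime) (hℓN : ¬ ℓ ∣ N) (h2 : ℓ ≠ 2)
    (h3 : ℓ ≠ 3) (A : ValuationSubring Qb) (hA : A.LiesOverPrime ℓ) :
    H27.ConstCore N A (H58.jBar N) := by
  haveI : Fact ℓ.Prime := ⟨hℓ⟩
  intro f hf T hT hU hV
  exact const_core A N ℓ hℓN hA (H58.jBar N)
    (fun K0 _ => H92.chartLit_j A K0 N ℓ hℓN hA h2 h3 (H58.jBar N) rfl) f hf T hT
    (sumZero_iff A _ f T hU) (sumZero_iff A _ f T hV)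

set_option synthInstance.maxHeartbeats 400000 in
set_option maxHeartbeats 1600000 in
/-- **(C-2)**: (CONST-CORE) at level `N * 2` for the coordinate `t₂`, `ℓ = 3`. -/
theorem constCore_two (N : ℕ) [NeZero N] (hN : ¬ 3 ∣ N) (A : ValuationSubring Qb)
    (hA : A.LiesOverPrime 3) :
    H27.ConstCore (N * 2) A (H69.hauptBar2 (N * 2) (dvd_mul_left 2 N)) := by
  haveI : Fact (Nat.Prime 3) := ⟨Nat.prime_three⟩
  have hℓL : ¬ 3 ∣ N * 2 := by
    intro h
    rcases (Nat.Prime.dvd_mul Nat.prime_three).mp h with h | h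
    · exact hN h
    · omega
  intro f hf T hT hU hV
  exact const_core A (N * 2) 3 hℓL hA (H69.hauptBar2 (N * 2) (dvd_mul_left 2 N))
    (fun K0 _ => H92.chartLit_two A K0 (N * 2) 3 hℓL hA (by norm_num) (dvd_mul_left 2 N)
      (H69.hauptBar2 (N * 2) (dvd_mul_left 2 N)) rfl) f hf T hT
    (sumZero_iff A _ f T hU) (sumZero_iff A _ f T hV)

set_option synthInstance.maxHeartbeats 400000 in
set_option maxHeartbeats 1600000 in
/-- **(C-3)**: (CONST-CORE) at level `N * 3` for the coordinate `t₃`, `ℓ = 2`. -/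
theorem constCore_three (N : ℕ) [NeZero N] (hN : ¬ 2 ∣ N) (A : ValuationSubring Qb)
    (hA : A.LiesOverPrime 2) :
    H27.ConstCore (N * 3) A (H69.hauptBar3 (N * 3) (dvd_mul_left 3 N)) := by
  haveI : Fact (Nat.Prime 2) := ⟨Nat.prime_two⟩
  have hℓL : ¬ 2 ∣ N * 3 := by
    intro h
    rcases (Nat.Prime.dvd_mul Nat.prime_two).mp h with h | h
    · exact hN h
    · omega
  intro f hf T hT hU hV
  exact const_core A (N * 3) 2 hℓL hA (H69.hauptBar3 (N * 3) (dvd_mul_left 3 N))
    (fun K0 _ => H92.chartLit_three A K0 (N * 3) 2 hℓL hA (by norm_num) (dvd_mul_left 3 N)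
      (H69.hauptBar3 (N * 3) (dvd_mul_left 3 N)) rfl) f hf T hT
    (sumZero_iff A _ f T hU) (sumZero_iff A _ f T hV)

end Fermat.Agent.S37.H08
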