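import Mathlib
import Fermat.Prelude.Def_ModularCurve_HeckeModule
import Fermat.Agent.S18.PrincDiv_helper98
import Fermat.Agent.S37.Gal_helper34
import Fermat.Agent.S37.SatA_helper58
import Fermat.Agent.S37.TransferFn_helper87
import Fermat.Agent.S37.K1Gen_helper72

/-!
# S37 node (ES), bridge (Z): from the two chart statements to the Stmts Prop (ES) (helper82)

`B := H58.chartRing A N (H58.jBar N)` (functions integral over `A[j]`),
`Boo := H58.chartRing A N (H58.jBar N)⁻¹` (functions integral over `A[1/j]`).

* `SameChar A R P P'` : the places `P`, `P'` have values in `A` on the chart `R`, congruent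
  modulo the maximal ideal of `A`.
* `pairSet A R` : the differences `a - b` of two `R`-finite places with congruent values.
* `isFin_chartRing` : a place at which `x` has a value in `A` is finite on the chart of `x`.
* `isFin_or_isInf` (Z1) : every place is `B`-finite or `j`-infinite (`1/j` has a value in the
  maximal ideal of `A`);  `isFin_of_isInf` (Z1') : a `j`-infinite place is `Boo`-finite.
* `es_divT_of_rel`, `es_divT` (Z2) : the Eichler–Shimura relation on divisors
  `φ² P - T_ℓ(φ P) + ℓ P ∈ DivT` from the two chart statements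
  `T_ℓ(P) - φ P - ℓ φ⁻¹ P ∈ closure (pairSet A R)` (`P` `B`-finite, `R = B`; `P` `j`-infinite,
  `R = Boo`).
-/

set_option autoImplicit false

open AlgebraicCurve ModularCurve
open Fermat.Agent.S37.H34

namespace Fermat.Agent.S37.H82

noncomputable section

section Generic

variable {K F : Type*} [Field K] [Field F] [Algebra K F]

/-- `P` and `P'` have the same residue character on the chart `R`: every function of `R` has
values in `A` at `P` and at `P'`, congruent modulo the maximal ideal of `A`. -/
def SameChar (A : ValuationSubring K) (R : Subring F) (P P' : Place K F) : Prop :=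
  ∀ y ∈ R, ∃ c c' : A, EvalAt P y (c : K) ∧ EvalAt P' y (c' : K) ∧
    c - c' ∈ IsLocalRing.maximalIdeal A

theorem sameChar_iff {A : ValuationSubring K} {R : Subring F} {P P' : Place K F} :
    SameChar A R P P' ↔ ∀ y ∈ R, ∃ c c' : A, EvalAt P y (c : K) ∧ EvalAt P' y (c' : K) ∧
      c - c' ∈ IsLocalRing.maximalIdeal A := Iff.rfl

/-- two `R`-finite places whose values are congruent have the same residue character. -/
theorem sameChar_of_forall {A : ValuationSubring K} {R : Subring F} {a b : Place K F}
    (ha : IsFin A R a) (hb : IsFin A R b)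
    (h : ∀ y ∈ R, ∀ c c' : K, EvalAt a y c → EvalAt b y c' → c - c' ∈ A.nonunits) :
    SameChar A R a b := by
  intro y hy
  obtain ⟨c, hcA, hc⟩ := ha y hy
  obtain ⟨c', hc'A, hc'⟩ := hb y hy
  refine ⟨⟨c, hcA⟩, ⟨c', hc'A⟩, hc, hc', ?_⟩
  have h1 := h y hy c c' hc hc'
  exact ValuationSubring.coe_mem_nonunits_iff.mp h1

/-- the same with the congruence read in `K`. -/
theorem sameChar_of_forall' {A : ValuationSubring K} {R : Subring F} {a b : Place K F}
    (ha : IsFin A R a) (hb : IsFin A R b)
    (h : ∀ y ∈ R, ∀ c c' : K, EvalAt a y c → EvalAt b y c' → c - c' ∈ A.nonunits) :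
    ∀ y ∈ R, ∃ c c' : A, EvalAt a y (c : K) ∧ EvalAt b y (c' : K) ∧
      (c : K) - (c' : K) ∈ A.nonunits := by
  intro y hy
  obtain ⟨c, hcA, hc⟩ := ha y hy
  obtain ⟨c', hc'A, hc'⟩ := hb y hy
  exact ⟨⟨c, hcA⟩, ⟨c', hc'A⟩, hc, hc', h y hy c c' hc hc'⟩

theorem SameChar.isFin_left {A : ValuationSubring K} {R : Subring F} {P P' : Place K F}
    (h : SameChar A R P P') : IsFin A R P := by
  intro y hy
  obtain ⟨c, -, hc, -, -⟩ := h y hy
  exact ⟨c, c.2, hc⟩

theorem SameChar.isFin_right {A : ValuationSubring K} {R : Subring F} {P P' : Place K F}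
    (h : SameChar A R P P') : IsFin A R P' := by
  intro y hy
  obtain ⟨-, c', -, hc', -⟩ := h y hy
  exact ⟨c', c'.2, hc'⟩

theorem SameChar.forall {A : ValuationSubring K} {R : Subring F} {P P' : Place K F}
    (h : SameChar A R P P') {y : F} (hy : y ∈ R) {c c' : K} (hc : EvalAt P y c)
    (hc' : EvalAt P' y c') : c - c' ∈ A.nonunits := by
  obtain ⟨d, d', hd, hd', hdd'⟩ := h y hy
  rw [hc.unique hd, hc'.unique hd']
  exact ValuationSubring.coe_mem_nonunits_iff.mpr hdd'

/-- The differences `a - b` of two `R`-finite places with congruent values. -/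
def pairSet (A : ValuationSubring K) (R : Subring F) : Set (Divisor K F) :=
  {d | ∃ a b : Place K F, IsFin A R a ∧ IsFin A R b ∧
    (∀ y ∈ R, ∀ c c' : K, EvalAt a y c → EvalAt b y c' → c - c' ∈ A.nonunits) ∧
    d = Finsupp.single a (1 : ℤ) - Finsupp.single b 1}

theorem mem_pairSet {A : ValuationSubring K} {R : Subring F} {d : Divisor K F} :
    d ∈ pairSet A R ↔ ∃ a b : Place K F, IsFin A R a ∧ IsFin A R b ∧
      (∀ y ∈ R, ∀ c c' : K, EvalAt a y c → EvalAt b y c' → c - c' ∈ A.nonunits) ∧
      d = Finsupp.single a (1 : ℤ) - Finsupp.single b 1 := Iff.rfl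

/-- the subgroup generated by `pairSet A R` lies in `divTilde rel` as soon as `rel` contains the
pairs of `R`-finite places with congruent values. -/
theorem closure_pairSet_le {A : ValuationSubring K} {R : Subring F}
    {rel : Place K F → Place K F → Prop}
    (hrel : ∀ a b : Place K F, IsFin A R a → IsFin A R b →
      (∀ y ∈ R, ∀ c c' : K, EvalAt a y c → EvalAt b y c' → c - c' ∈ A.nonunits) → rel a b) :
    AddSubgroup.closure (pairSet A R) ≤ H72.divTilde rel := by
  apply AddSubgroup.closure_mono
  rintro d ⟨a, b, ha, hb, h, rfl⟩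
  exact ⟨a, b, hrel a b ha hb h, rfl⟩

/-- the sign / inverse bookkeeping of the Eichler–Shimura relation: from the relation at `g P`
in the form `T (g P) - g (g P) - ℓ g⁻¹ (g P)` to `g² P - T (g P) + ℓ P`. -/
theorem quad_of_chart {S : AddSubgroup (Divisor K F)} (g : SemilinearAut K F)
    (T : Divisor K F →+ Divisor K F) (ℓ : ℕ) (P : Place K F)
    (h : T (Finsupp.single (g • P) (1 : ℤ)) - Finsupp.single (g • g • P) (1 : ℤ)
      - ℓ • Finsupp.single (g⁻¹ • g • P) (1 : ℤ) ∈ S) :
    (Finsupp.single (g • g • P) (1 : ℤ) - T (Finsupp.single (g • P) 1)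
      + ℓ • Finsupp.single P (1 : ℤ) : Divisor K F) ∈ S := by
  rw [inv_smul_smul] at h
  have h1 := S.neg_mem h
  have e : (Finsupp.single (g • g • P) (1 : ℤ) - T (Finsupp.single (g • P) 1)
      + ℓ • Finsupp.single P (1 : ℤ) : Divisor K F)
      = -(T (Finsupp.single (g • P) (1 : ℤ)) - Finsupp.single (g • g • P) (1 : ℤ)
        - ℓ • Finsupp.single P (1 : ℤ)) := by
    abel
  rw [e]
  exact h1

end Generic

section Modular

local notation "Qb" => AlgebraicClosure ℚ

variable (A : ValuationSubring Qb) (N : ℕ) [NeZero N]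

/-- a place at which the chart coordinate `x` has a value in `A` is finite on the chart of `x`
(the functions integral over `A[x]`). -/
theorem isFin_chartRing {x : ↥(modularFunctionFieldBar N)}
    {P : Place Qb ↥(modularFunctionFieldBar N)} {c : Qb} (hc : c ∈ A) (hx : EvalAt P x c) :
    IsFin A (H58.chartRing A N x) P :=
  H87.isFin_of_evalAt A P (Fermat.Agent.S18.H98.deg_eq_one N P) ⟨c, hc⟩ hx _ (fun _ hy => hy)

/-- **(Z1')** a `j`-infinite place is finite on the chart of `1/j`. -/
theorem isFin_of_isInf {P : Place Qb ↥(modularFunctionFieldBar N)}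
    (h : ∃ c ∈ A.nonunits, EvalAt P (H58.jBar N)⁻¹ c) :
    IsFin A (H58.chartRing A N (H58.jBar N)⁻¹) P := by
  obtain ⟨c, hc, hev⟩ := h
  exact isFin_chartRing A N (ValuationSubring.nonunits_subset hc) hev

/-- **(Z1)** every place is finite on the chart of `j`, or `j`-infinite. -/
theorem isFin_or_isInf (P : Place Qb ↥(modularFunctionFieldBar N)) :
    IsFin A (H58.chartRing A N (H58.jBar N)) P ∨
      ∃ c ∈ A.nonunits, EvalAt P (H58.jBar N)⁻¹ c := by
  have hdeg := Fermat.Agent.S18.H98.deg_eq_one N P
  by_cases hj : H58.jBar N ∈ P.toValuationSubring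
  · obtain ⟨c, hc⟩ := exists_evalAt P hdeg hj
    by_cases hcA : c ∈ A
    · exact Or.inl (isFin_chartRing A N hcA hc)
    · have hc0 : c ≠ 0 := by
        rintro rfl
        exact hcA (zero_mem A)
      refine Or.inr ⟨c⁻¹, ?_, hc.inv hc0⟩
      rw [ValuationSubring.mem_nonunits_iff_or]
      right
      rwa [inv_inv]
  · refine Or.inr ⟨0, ?_, ?_⟩
    · rw [ValuationSubring.mem_nonunits_iff_or]
      left
      rfl
    · unfold EvalAt
      rw [map_zero, sub_zero, ValuationSubring.mem_nonunits_iff_or]
      right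
      rwa [inv_inv]

/-- both alternatives of (Z1) in one statement: a chart on which the place is finite. -/
theorem isFin_or_isFin (P : Place Qb ↥(modularFunctionFieldBar N)) :
    IsFin A (H58.chartRing A N (H58.jBar N)) P ∨
      IsFin A (H58.chartRing A N (H58.jBar N)⁻¹) P :=
  (isFin_or_isInf A N P).imp id (isFin_of_isInf A N)

variable {A N}

/-- **(Z2), generic relation and generic automorphism.** The Eichler–Shimura relation on
divisors from the two chart statements (`g` any semilinear automorphism, `T` any endomorphism of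
the divisor group). -/
theorem es_divT_gen (g : SemilinearAut Qb (modularFunctionFieldBar N))
    (T : Divisor Qb (modularFunctionFieldBar N) →+ Divisor Qb (modularFunctionFieldBar N))
    (ℓ : ℕ)
    (rel : Place Qb (modularFunctionFieldBar N) → Place Qb (modularFunctionFieldBar N) → Prop)
    (hrelB : ∀ a b : Place Qb (modularFunctionFieldBar N),
      IsFin A (H58.chartRing A N (H58.jBar N)) a → IsFin A (H58.chartRing A N (H58.jBar N)) b →
      (∀ y ∈ H58.chartRing A N (H58.jBar N), ∀ c c' : Qb, EvalAt a y c → EvalAt b y c' →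
        c - c' ∈ A.nonunits) → rel a b)
    (hrelBoo : ∀ a b : Place Qb (modularFunctionFieldBar N),
      IsFin A (H58.chartRing A N (H58.jBar N)⁻¹) a →
      IsFin A (H58.chartRing A N (H58.jBar N)⁻¹) b →
      (∀ y ∈ H58.chartRing A N (H58.jBar N)⁻¹, ∀ c c' : Qb, EvalAt a y c → EvalAt b y c' →
        c - c' ∈ A.nonunits) → rel a b)
    (hj : ∀ P : Place Qb (modularFunctionFieldBar N),
      IsFin A (H58.chartRing A N (H58.jBar N)) P →
      T (Finsupp.single P (1 : ℤ)) - Finsupp.single (g • P) (1 : ℤ)
        - ℓ • Finsupp.single (g⁻¹ • P) (1 : ℤ) ∈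
        AddSubgroup.closure (pairSet A (H58.chartRing A N (H58.jBar N))))
    (hoo : ∀ P : Place Qb (modularFunctionFieldBar N),
      (∃ c ∈ A.nonunits, EvalAt P (H58.jBar N)⁻¹ c) →
      T (Finsupp.single P (1 : ℤ)) - Finsupp.single (g • P) (1 : ℤ)
        - ℓ • Finsupp.single (g⁻¹ • P) (1 : ℤ) ∈
        AddSubgroup.closure (pairSet A (H58.chartRing A N (H58.jBar N)⁻¹)))
    (P : Place Qb (modularFunctionFieldBar N)) :
    (Finsupp.single (g • g • P) (1 : ℤ) - T (Finsupp.single (g • P) 1)
      + ℓ • Finsupp.single P (1 : ℤ) : Divisor Qb (modularFunctionFieldBar N)) ∈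
      H72.divTilde rel := by
  refine quad_of_chart g T ℓ P ?_
  rcases isFin_or_isInf A N (g • P) with h | h
  · exact closure_pairSet_le hrelB (hj (g • P) h)
  · exact closure_pairSet_le hrelBoo (hoo (g • P) h)

/-- **(Z2), generic automorphism.** The conclusion in the subgroup generated by the differences
of places with the same residue character on the chart of `j` or on the chart of `1/j`. -/
theorem es_divT_sameChar (g : SemilinearAut Qb (modularFunctionFieldBar N))
    (T : Divisor Qb (modularFunctionFieldBar N) →+ Divisor Qb (modularFunctionFieldBar N))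
    (ℓ : ℕ)
    (hj : ∀ P : Place Qb (modularFunctionFieldBar N),
      IsFin A (H58.chartRing A N (H58.jBar N)) P →
      T (Finsupp.single P (1 : ℤ)) - Finsupp.single (g • P) (1 : ℤ)
        - ℓ • Finsupp.single (g⁻¹ • P) (1 : ℤ) ∈
        AddSubgroup.closure (pairSet A (H58.chartRing A N (H58.jBar N))))
    (hoo : ∀ P : Place Qb (modularFunctionFieldBar N),
      (∃ c ∈ A.nonunits, EvalAt P (H58.jBar N)⁻¹ c) →
      T (Finsupp.single P (1 : ℤ)) - Finsupp.single (g • P) (1 : ℤ)
        - ℓ • Finsupp.single (g⁻¹ • P) (1 : ℤ) ∈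
        AddSubgroup.closure (pairSet A (H58.chartRing A N (H58.jBar N)⁻¹)))
    (P : Place Qb (modularFunctionFieldBar N)) :
    (Finsupp.single (g • g • P) (1 : ℤ) - T (Finsupp.single (g • P) 1)
      + ℓ • Finsupp.single P (1 : ℤ) : Divisor Qb (modularFunctionFieldBar N)) ∈
      H72.divTilde (fun P P' : Place Qb (modularFunctionFieldBar N) =>
        SameChar A (H58.chartRing A N (H58.jBar N)) P P' ∨
          SameChar A (H58.chartRing A N (H58.jBar N)⁻¹) P P') :=
  es_divT_gen g T ℓ _
    (fun _ _ ha hb h => Or.inl (sameChar_of_forall ha hb h))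
    (fun _ _ ha hb h => Or.inr (sameChar_of_forall ha hb h)) hj hoo P

/-- **(Z2)** The Stmts Prop (ES) in its literal form (second conjunct of
`H72.specializationExists_of_divT` for `DivT := H72.divTilde (SameChar B ∨ SameChar Boo)`). -/
theorem es_divT {ℓ : ℕ} [NeZero ℓ]
    (hα : HeckeAlphaBarIntegral Qb N ℓ) (hβ : HeckeBetaBarIntegral Qb N ℓ)
    [HasPrincipalDivisors Qb (modularFunctionFieldBar (N * ℓ))]
    (φ : Qb ≃ₐ[ℚ] Qb)
    (hj : ∀ P : Place Qb (modularFunctionFieldBar N),
      IsFin A (H58.chartRing A N (H58.jBar N)) P →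
      heckeDivBar hα hβ (Finsupp.single P (1 : ℤ))
        - Finsupp.single (arithmeticGalois (modularFunctionFieldFull N) φ • P) (1 : ℤ)
        - ℓ • Finsupp.single ((arithmeticGalois (modularFunctionFieldFull N) φ)⁻¹ • P) (1 : ℤ) ∈
        AddSubgroup.closure (pairSet A (H58.chartRing A N (H58.jBar N))))
    (hoo : ∀ P : Place Qb (modularFunctionFieldBar N),
      (∃ c ∈ A.nonunits, EvalAt P (H58.jBar N)⁻¹ c) →
      heckeDivBar hα hβ (Finsupp.single P (1 : ℤ))
        - Finsupp.single (arithmeticGalois (modularFunctionFieldFull N) φ • P) (1 : ℤ)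
        - ℓ • Finsupp.single ((arithmeticGalois (modularFunctionFieldFull N) φ)⁻¹ • P) (1 : ℤ) ∈
        AddSubgroup.closure (pairSet A (H58.chartRing A N (H58.jBar N)⁻¹)))
    (P : Place Qb (modularFunctionFieldBar N)) :
    (Finsupp.single (arithmeticGalois (modularFunctionFieldFull N) φ •
        arithmeticGalois (modularFunctionFieldFull N) φ • P) (1 : ℤ)
      - heckeDivBar hα hβ
        (Finsupp.single (arithmeticGalois (modularFunctionFieldFull N) φ • P) 1)
      + ℓ • Finsupp.single P (1 : ℤ) : Divisor Qb (modularFunctionFieldBar N)) ∈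
      H72.divTilde (fun P P' : Place Qb (modularFunctionFieldBar N) =>
        SameChar A (H58.chartRing A N (H58.jBar N)) P P' ∨
          SameChar A (H58.chartRing A N (H58.jBar N)⁻¹) P P') :=
  es_divT_sameChar (arithmeticGalois (modularFunctionFieldFull N) φ) (heckeDivBar hα hβ) ℓ hj hoo P

end Modular

end

end Fermat.Agent.S37.H82
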