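import Mathlib
import Fermat.Agent.S28.ModEq2_helper20

/-!
# S37 (PHI-INT): integrality inputs of (ES) from the modular equation

helper20.  The modular equation of prime level `l` with coefficients in a subring `A` of a
field containing a primitive `l`-th root of unity, with both integrality statements
(`Φ(j, j_l) = 0 = Φ(j_l, j)`, `Φ` monic) and the `X`-degree structure of `Φ` (the constant
coefficient `Φ(X, 0)` is monic of degree `l + 1`, the other coefficients have degree `≤ l`),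
which gives the integrality statement at infinity: `1 / j` is integral over
`A[1 / j_l][1 / s(1 / j_l)]` with `s = 1 + X * (…)` the reciprocal polynomial of `Φ(X, 0)`.
-/

set_option autoImplicit false

open Polynomial

noncomputable section

namespace Fermat.Agent.S37.H20

open ModularCurve Fermat.Agent.S28.H20

/-! ### Pole-order bookkeeping in `R((x))` -/

section Coeff

variable {R : Type*} [CommRing R]

/-- a product has no terms below the sum of the lower bounds of the factors -/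
theorem coeff_mul_of_lt {f g : LaurentSeries R} {a b : ℤ} (hf : ∀ m < a, f.coeff m = 0)
    (hg : ∀ m < b, g.coeff m = 0) : ∀ m < a + b, (f * g).coeff m = 0 := by
  intro m hm
  rw [HahnSeries.coeff_mul]
  refine Finset.sum_eq_zero fun ij hij => ?_
  rw [Finset.mem_antidiagonal] at hij
  obtain ⟨h1, h2, h3⟩ := hij
  by_cases h : ij.1 < a
  · rw [hf _ h, zero_mul]
  · rw [hg _ (by omega), mul_zero]

/-- the coefficient of a product at the sum of the lower bounds -/
theorem coeff_mul_add_of_lt {f g : LaurentSeries R} {a b : ℤ} (hf : ∀ m < a, f.coeff m = 0)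
    (hg : ∀ m < b, g.coeff m = 0) : (f * g).coeff (a + b) = f.coeff a * g.coeff b := by
  rw [HahnSeries.coeff_mul]
  rw [Finset.sum_eq_single (a, b)]
  · intro ij hij hne
    rw [Finset.mem_antidiagonal] at hij
    obtain ⟨h1, h2, h3⟩ := hij
    by_cases h : ij.1 < a
    · rw [hf _ h, zero_mul]
    · by_cases h' : ij.2 < b
      · rw [hg _ h', mul_zero]
      · exfalso
        apply hne
        have e1 : ij.1 = a := by omega
        have e2 : ij.2 = b := by omega
        exact Prod.ext e1 e2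
  · intro hnot
    rw [Finset.mem_antidiagonal] at hnot
    by_contra hne
    apply hnot
    refine ⟨?_, ?_, rfl⟩
    · intro h0
      exact hne (by rw [show f.coeff a = 0 from h0, zero_mul])
    · intro h0
      exact hne (by rw [show g.coeff b = 0 from h0, mul_zero])

/-- a product of series with at most simple poles -/
theorem coeff_prod_of_lt {ι : Type*} [DecidableEq ι] (s : Finset ι) (f : ι → LaurentSeries R)
    (hf : ∀ i ∈ s, ∀ m < (-1 : ℤ), (f i).coeff m = 0) :
    (∀ m < -(s.card : ℤ), (∏ i ∈ s, f i).coeff m = 0) ∧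
      (∏ i ∈ s, f i).coeff (-(s.card : ℤ)) = ∏ i ∈ s, (f i).coeff (-1) := by
  induction s using Finset.induction_on with
  | empty =>
    refine ⟨fun m hm => ?_, ?_⟩
    · rw [Finset.prod_empty, HahnSeries.coeff_one, if_neg]
      simp only [Finset.card_empty, Nat.cast_zero, neg_zero] at hm
      omega
    · simp
  | insert a s ha ih =>
    obtain ⟨ih1, ih2⟩ := ih fun i hi => hf i (Finset.mem_insert_of_mem hi)
    have hfa := hf a (Finset.mem_insert_self a s)
    have hcard : -((insert a s).card : ℤ) = -1 + -(s.card : ℤ) := by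
      rw [Finset.card_insert_of_notMem ha]; push_cast; ring
    rw [Finset.prod_insert ha, Finset.prod_insert ha, hcard]
    exact ⟨coeff_mul_of_lt hfa ih1, by rw [coeff_mul_add_of_lt hfa ih1, ih2]⟩

/-- the coefficients of a product of linear factors with roots having at most simple poles -/
theorem coeff_prod_X_sub_C_of_lt {ι : Type*} [DecidableEq ι] (s : Finset ι)
    (r : ι → LaurentSeries R) (hr : ∀ i ∈ s, ∀ m < (-1 : ℤ), (r i).coeff m = 0) :
    ∀ (k : ℕ) (m : ℤ), m < (k : ℤ) - s.card →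
      ((∏ i ∈ s, (X - C (r i))).coeff k).coeff m = 0 := by
  induction s using Finset.induction_on with
  | empty =>
    intro k m hm
    rw [Finset.prod_empty, Polynomial.coeff_one]
    simp only [Finset.card_empty, Nat.cast_zero, sub_zero] at hm
    split_ifs with h
    · rw [HahnSeries.coeff_one, if_neg]
      omega
    · rfl
  | insert a s ha ih =>
    have ih' := ih fun i hi => hr i (Finset.mem_insert_of_mem hi)
    have hra := hr a (Finset.mem_insert_self a s)
    intro k m hm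
    rw [Finset.card_insert_of_notMem ha] at hm
    push_cast at hm
    rw [Finset.prod_insert ha]
    cases k with
    | zero =>
      rw [Polynomial.mul_coeff_zero, Polynomial.coeff_sub, Polynomial.coeff_X_zero,
        Polynomial.coeff_C_zero, zero_sub, neg_mul, HahnSeries.coeff_neg, neg_eq_zero]
      refine coeff_mul_of_lt hra (b := -(s.card : ℤ)) (fun m' hm' => ih' 0 m' ?_) m ?_
      · push_cast; omega
      · push_cast at hm; omega
    | succ k =>
      rw [Polynomial.coeff_X_sub_C_mul, HahnSeries.coeff_sub]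
      rw [ih' k m (by push_cast at hm; omega)]
      rw [coeff_mul_of_lt hra (b := ((k + 1 : ℕ) : ℤ) - s.card) (fun m' hm' => ih' (k + 1) m' hm')
        m (by push_cast at hm ⊢; omega)]
      rw [sub_zero]

end Coeff

/-! ### The coefficients of the right-hand side of the modular equation -/

section Rhs

variable (R : Type*) [CommRing R]

theorem coeff_qExpand_jqModC_of_lt (n : ℕ) [NeZero n] {m : ℤ} (hm : m < -(n : ℤ)) :
    (qExpand R n (jqModC R)).coeff m = 0 := by
  by_cases h : (n : ℤ) ∣ m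
  · obtain ⟨m', rfl⟩ := h
    rw [qExpand_coeff_mul]
    refine Fermat.Agent.S28.H20.coeff_jqModC_of_lt R ?_
    have hn : (0 : ℤ) < n := by exact_mod_cast Nat.pos_of_ne_zero (NeZero.ne n)
    nlinarith
  · exact qExpand_coeff_of_not_dvd n _ h

theorem coeff_jqModC_neg_one : (jqModC R).coeff (-1) = 1 := by
  have h := ModularCurve.coeff_jqModC_pow_self R 1
  rwa [pow_one] at h

theorem coeff_qExpand_jqModC_neg (n : ℕ) [NeZero n] :
    (qExpand R n (jqModC R)).coeff (-(n : ℤ)) = 1 := by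
  have h := qExpand_coeff_mul n (jqModC R) (-1)
  rw [coeff_jqModC_neg_one, mul_neg_one] at h
  exact h

variable {R}

theorem coeff_twist_jqModC_of_lt (u : Rˣ) {m : ℤ} (hm : m < -1) :
    (twist u (jqModC R)).coeff m = 0 := by
  rw [coeff_twist, Fermat.Agent.S28.H20.coeff_jqModC_of_lt R hm, mul_zero]

theorem coeff_zero_prod_X_sub_C {S : Type*} [CommRing S] {ι : Type*} (s : Finset ι)
    (r : ι → S) : (∏ i ∈ s, (X - C (r i))).coeff 0 = ∏ i ∈ s, -(r i) := by
  rw [Polynomial.coeff_zero_eq_eval_zero, Polynomial.eval_prod]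
  refine Finset.prod_congr rfl fun i _ => ?_
  rw [eval_sub, eval_X, eval_C, zero_sub]

variable (l : ℕ) [NeZero l] (u : Rˣ)

/-- the coefficient of `Y ^ (k + 1)` has a pole of order `≤ l² + l - (k + 1)` -/
theorem coeff_modRhs_succ_of_lt (k : ℕ) {m : ℤ} (hm : m < (k : ℤ) + 1 - l * l - l) :
    ((modRhs R l u).coeff (k + 1)).coeff m = 0 := by
  have hQ := coeff_prod_X_sub_C_of_lt (Finset.range l)
    (fun b => twist (u ^ b) (jqModC R)) (fun b _ m hm => coeff_twist_jqModC_of_lt _ hm)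
  rw [Finset.card_range] at hQ
  have hinf : ∀ m < -((l * l : ℕ) : ℤ), (qExpand R (l * l) (jqModC R)).coeff m = 0 :=
    fun m hm => coeff_qExpand_jqModC_of_lt R (l * l) hm
  have hl : (1 : ℤ) ≤ l := by exact_mod_cast Nat.pos_of_ne_zero (NeZero.ne l)
  rw [modRhs, Polynomial.coeff_X_sub_C_mul, HahnSeries.coeff_sub]
  rw [hQ k m (by nlinarith)]
  rw [coeff_mul_of_lt hinf (b := ((k + 1 : ℕ) : ℤ) - l) (fun m' hm' => hQ (k + 1) m' hm') m
    (by push_cast; omega)]
  rw [sub_zero]

theorem coeff_modRhs_zero :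
    (modRhs R l u).coeff 0 = -(qExpand R (l * l) (jqModC R)
      * ∏ b ∈ Finset.range l, -(twist (u ^ b) (jqModC R))) := by
  rw [modRhs, Polynomial.mul_coeff_zero, coeff_zero_prod_X_sub_C, Polynomial.coeff_sub,
    Polynomial.coeff_X_zero, Polynomial.coeff_C_zero, zero_sub, neg_mul]

/-- the constant coefficient has a pole of order `≤ l² + l` -/
theorem coeff_modRhs_zero_of_lt {m : ℤ} (hm : m < -((l : ℤ) * l) - l) :
    ((modRhs R l u).coeff 0).coeff m = 0 := by
  have hP := coeff_prod_of_lt (Finset.range l) (fun b => -(twist (u ^ b) (jqModC R)))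
    (fun b _ m hm => by rw [HahnSeries.coeff_neg, coeff_twist_jqModC_of_lt _ hm, neg_zero])
  rw [Finset.card_range] at hP
  have hinf : ∀ m < -((l * l : ℕ) : ℤ), (qExpand R (l * l) (jqModC R)).coeff m = 0 :=
    fun m hm => coeff_qExpand_jqModC_of_lt R (l * l) hm
  rw [coeff_modRhs_zero, HahnSeries.coeff_neg, neg_eq_zero]
  exact coeff_mul_of_lt hinf hP.1 m (by push_cast; omega)

/-- the leading coefficient of the constant coefficient -/
theorem coeff_modRhs_zero_lead :
    ((modRhs R l u).coeff 0).coeff (-((l : ℤ) * l) - l)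
      = -∏ b ∈ Finset.range l, -(((u ^ b)⁻¹ : Rˣ) : R) := by
  have hP := coeff_prod_of_lt (Finset.range l) (fun b => -(twist (u ^ b) (jqModC R)))
    (fun b _ m hm => by rw [HahnSeries.coeff_neg, coeff_twist_jqModC_of_lt _ hm, neg_zero])
  rw [Finset.card_range] at hP
  have hinf : ∀ m < -((l * l : ℕ) : ℤ), (qExpand R (l * l) (jqModC R)).coeff m = 0 :=
    fun m hm => coeff_qExpand_jqModC_of_lt R (l * l) hm
  rw [coeff_modRhs_zero, HahnSeries.coeff_neg]
  have e : -((l : ℤ) * l) - l = -((l * l : ℕ) : ℤ) + -(l : ℤ) := by push_cast; ring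
  rw [e, coeff_mul_add_of_lt hinf hP.1, coeff_qExpand_jqModC_neg, one_mul, hP.2]
  congr 1
  refine Finset.prod_congr rfl fun b _ => ?_
  rw [HahnSeries.coeff_neg, coeff_twist_neg_one, coeff_jqModC_neg_one, mul_one]

end Rhs

/-! ### The `X`-degree structure of the modular polynomial -/

section Lead

/-- the leading constant of `Φ(X, 0)` is `1` -/
theorem neg_prod_neg_inv_eq_one {K : Type*} [Field K] (l : ℕ) (hl : l.Prime) (ζ : Kˣ)
    (hζ : IsPrimitiveRoot ζ l) :
    -∏ b ∈ Finset.range l, -(((ζ ^ b)⁻¹ : Kˣ) : K) = 1 := by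
  have h1 : ∏ b ∈ Finset.range l, -(((ζ ^ b)⁻¹ : Kˣ) : K)
      = (-1) ^ l * (((ζ ^ (∑ b ∈ Finset.range l, b))⁻¹ : Kˣ) : K) := by
    rw [← Finset.prod_pow_eq_pow_sum, ← Finset.prod_inv_distrib, Units.coe_prod,
      show ((-1 : K)) ^ l = ∏ _b ∈ Finset.range l, (-1 : K) by
        rw [Finset.prod_const, Finset.card_range],
      ← Finset.prod_mul_distrib]
    refine Finset.prod_congr rfl fun b _ => ?_
    rw [neg_one_mul]
  rw [h1]
  rcases hl.eq_two_or_odd' with rfl | hodd
  · have hζ' : (ζ : K) = -1 :=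
      (IsPrimitiveRoot.coe_units_iff.mpr hζ).eq_neg_one_of_two_right
    have hsum : ∑ b ∈ Finset.range 2, b = 1 := by decide
    rw [hsum, pow_one, Units.val_inv_eq_inv_val, hζ']
    norm_num
  · obtain ⟨t, ht⟩ := hodd
    have hsum : ∑ b ∈ Finset.range l, b = l * t := by
      have h2 := Finset.sum_range_id_mul_two l
      have h3 : l - 1 = 2 * t := by omega
      rw [h3] at h2
      have h4 : (∑ b ∈ Finset.range l, b) * 2 = (l * t) * 2 := by rw [h2]; ring
      exact Nat.eq_of_mul_eq_mul_right (by norm_num) h4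
    rw [hsum, pow_mul, hζ.pow_eq_one, one_pow, inv_one, Units.val_one, mul_one,
      Odd.neg_one_pow ⟨t, ht⟩, neg_neg]

end Lead

section Degree

variable {K : Type*} [Field K] (l : ℕ) [NeZero l] (ζ : Kˣ)

theorem aeval_coeff_eq (Φ : K[X][X])
    (hΦ : Φ.map (aeval (R := K) (qExpand K l (jqModC K))).toRingHom = modRhs K l ζ) (k : ℕ) :
    aeval (qExpand K l (jqModC K)) (Φ.coeff k) = (modRhs K l ζ).coeff k := by
  rw [← hΦ, Polynomial.coeff_map]
  rfl

/-- the coefficients of `Y ^ k`, `k ≥ 1`, have `X`-degree `≤ l` -/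
theorem natDegree_coeff_succ_le (Φ : K[X][X])
    (hΦ : Φ.map (aeval (R := K) (qExpand K l (jqModC K))).toRingHom = modRhs K l ζ) (k : ℕ) :
    (Φ.coeff (k + 1)).natDegree ≤ l := by
  by_contra hcon
  rw [not_le] at hcon
  have hP := aeval_coeff_eq l ζ Φ hΦ (k + 1)
  have h1 := coeff_aeval_qExpand_jqModC (K := K) l (Φ.coeff (k + 1))
  have hl : (1 : ℤ) ≤ l := by exact_mod_cast Nat.pos_of_ne_zero (NeZero.ne l)
  have hd : ((l : ℤ) + 1) ≤ ((Φ.coeff (k + 1)).natDegree : ℤ) := by exact_mod_cast hcon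
  rw [hP, coeff_modRhs_succ_of_lt l ζ k (by nlinarith)] at h1
  have hne : Φ.coeff (k + 1) ≠ 0 := by
    intro h0
    rw [h0, natDegree_zero] at hcon
    omega
  exact (Polynomial.leadingCoeff_ne_zero.mpr hne) h1.symm

/-- `Φ(X, 0)` has degree `l + 1` and leading coefficient `1` -/
theorem natDegree_coeff_zero (Φ : K[X][X])
    (hΦ : Φ.map (aeval (R := K) (qExpand K l (jqModC K))).toRingHom = modRhs K l ζ)
    (hlam : -∏ b ∈ Finset.range l, -(((ζ ^ b)⁻¹ : Kˣ) : K) = 1) :
    (Φ.coeff 0).natDegree = l + 1 ∧ (Φ.coeff 0).leadingCoeff = 1 := by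
  have hP := aeval_coeff_eq l ζ Φ hΦ 0
  have h1 := coeff_aeval_qExpand_jqModC (K := K) l (Φ.coeff 0)
  have hl : (1 : ℤ) ≤ l := by exact_mod_cast Nat.pos_of_ne_zero (NeZero.ne l)
  have hlead : (aeval (qExpand K l (jqModC K)) (Φ.coeff 0)).coeff (-((l : ℤ) * l) - l) = 1 := by
    rw [hP, coeff_modRhs_zero_lead, hlam]
  have hle : (Φ.coeff 0).natDegree ≤ l + 1 := by
    by_contra hcon
    rw [not_le] at hcon
    have hd : ((l : ℤ) + 2) ≤ ((Φ.coeff 0).natDegree : ℤ) := by exact_mod_cast hcon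
    rw [hP, coeff_modRhs_zero_of_lt l ζ (by nlinarith)] at h1
    have hne : Φ.coeff 0 ≠ 0 := by
      intro h0
      rw [h0, natDegree_zero] at hcon
      omega
    exact (Polynomial.leadingCoeff_ne_zero.mpr hne) h1.symm
  have hge : l + 1 ≤ (Φ.coeff 0).natDegree := by
    by_contra hcon
    rw [not_le] at hcon
    have hd : ((Φ.coeff 0).natDegree : ℤ) < (l : ℤ) + 1 := by exact_mod_cast hcon
    have e : -((l : ℤ) * l) - l = (l : ℤ) * (-((l : ℤ) + 1)) := by ring
    rw [e, aeval_qExpand_jqModC, qExpand_coeff_mul,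
      Fermat.Agent.S24.H89.coeff_aeval_jqModC_of_lt K _ (by omega)] at hlead
    exact zero_ne_one hlead
  have hdeg : (Φ.coeff 0).natDegree = l + 1 := le_antisymm hle hge
  refine ⟨hdeg, ?_⟩
  rw [← h1, hdeg, ← hlead]
  congr 1
  push_cast
  ring

end Degree

/-! ### The modular equation over a subring -/

section Main

variable {A : Type*} [CommRing A] {K : Type*} [Field K] (φ : A →+* K)

/-- **(P1)+(P2).**  The modular equation of prime level `l` with coefficients in a subring `A`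
of a field `K` containing a primitive `l`-th root of unity `u`, with its `X`-degree structure. -/
theorem exists_modEq_ring (hφ : Function.Injective φ) (l : ℕ) [NeZero l] (hl : l.Prime)
    (u : Aˣ) (hu : IsPrimitiveRoot (φ (u : A)) l) :
    ∃ Φ : A[X][X], Φ.Monic ∧ Φ.natDegree = l + 1 ∧
      Φ.map (aeval (R := A) (qExpand A l (jqModC A))).toRingHom = modRhs A l u ∧
      (Φ.coeff 0).Monic ∧ (Φ.coeff 0).natDegree = l + 1 ∧
      ∀ k, 1 ≤ k → (Φ.coeff k).natDegree ≤ l := by
  have hζ : IsPrimitiveRoot (Units.map (φ : A →* K) u) l :=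
    IsPrimitiveRoot.coe_units_iff.mp hu
  obtain ⟨ΦK, hmon, hdeg, hΦK⟩ := exists_modEq l hl K (Units.map (φ : A →* K) u) hζ
  obtain ⟨Φ, hm, hd, hΦ⟩ := exists_modEq_descent l φ hφ u ΦK hmon hΦK
  have hΦ' := modEq_baseChange l φ u Φ hΦ
  have hcoeff : ∀ k, ((Φ.map (mapRingHom φ)).coeff k) = (Φ.coeff k).map φ := fun k => by
    rw [Polynomial.coeff_map, coe_mapRingHom]
  obtain ⟨h0deg, h0lead⟩ := natDegree_coeff_zero l _ _ hΦ'
    (neg_prod_neg_inv_eq_one l hl _ hζ)
  rw [hcoeff, natDegree_map_eq_of_injective hφ] at h0deg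
  rw [hcoeff, leadingCoeff_map_of_injective hφ] at h0lead
  refine ⟨Φ, hm, hd.trans hdeg, hΦ, ?_, h0deg, ?_⟩
  · exact hφ (by rw [h0lead, map_one])
  · intro k hk
    obtain ⟨k, rfl⟩ := Nat.exists_eq_add_of_le' hk
    have h := natDegree_coeff_succ_le l _ _ hΦ' k
    rwa [hcoeff, natDegree_map_eq_of_injective hφ] at h

end Main

/-! ### Generic integrality lemmas -/

section Generic

variable {A S : Type*} [CommRing A] [CommRing S]

/-- **Reciprocal relation.**  If `Φ(y, x) = 0` with all coefficients of `X`-degree `≤ n` and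
`x' = 1 / x`, `y' = 1 / y`, then `s(y') * x'` is integral over `A[y']`, where `s` is the
reciprocal polynomial of `Φ(X, 0)`. -/
theorem isIntegralElem_reflect_mul (ψ : A →+* S) (n : ℕ) (Φ : A[X][X]) (hdeg : Φ.natDegree ≤ n)
    (hcoeff : ∀ k, (Φ.coeff k).natDegree ≤ n) (h0 : reflect n (Φ.coeff 0) ≠ 0)
    {x y x' y' : S} (hx : x' * x = 1) (hy : y' * y = 1)
    (hΦ : eval₂ (eval₂RingHom ψ y) x Φ = 0) :
    (eval₂RingHom ψ y').IsIntegralElem (eval₂ ψ y' (reflect n (Φ.coeff 0)) * x') := by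
  classical
  set p : A[X][X] := ∑ k ∈ Finset.range (n + 1), C (reflect n (Φ.coeff k)) * X ^ (n - k) with hp
  have hpn : p.coeff n = reflect n (Φ.coeff 0) := by
    rw [hp, Polynomial.finsetSum_coeff, Finset.sum_eq_single 0]
    · rw [Nat.sub_zero, coeff_C_mul_X_pow, if_pos rfl]
    · intro k hk hk0
      rw [coeff_C_mul_X_pow, if_neg]
      have := Finset.mem_range.mp hk
      omega
    · intro h
      exact absurd (Finset.mem_range.mpr (Nat.succ_pos n)) h
  have hpdeg : p.natDegree ≤ n := by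
    rw [hp]
    refine natDegree_sum_le_of_forall_le _ _ fun k _ => ?_
    exact (natDegree_C_mul_X_pow_le _ _).trans (Nat.sub_le n k)
  have hlead : p.leadingCoeff = reflect n (Φ.coeff 0) := by
    have hn : p.natDegree = n :=
      le_antisymm hpdeg (le_natDegree_of_ne_zero (by rw [hpn]; exact h0))
    rw [leadingCoeff, hn, hpn]
  have heval : eval₂ (eval₂RingHom ψ y') x' p = 0 := by
    letI : Invertible y := ⟨y', hy, by rw [mul_comm]; exact hy⟩
    have hrefl : ∀ c : A[X], c.natDegree ≤ n →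
        eval₂ ψ y' (reflect n c) = eval₂ ψ y c * y' ^ n := by
      intro c hc
      have h := eval₂_reflect_mul_pow ψ y n c hc
      rw [← h, mul_assoc, ← mul_pow, mul_comm y y', hy, one_pow, mul_one]
      rfl
    have hterm : ∀ k ∈ Finset.range (n + 1),
        eval₂ (eval₂RingHom ψ y') x' (C (reflect n (Φ.coeff k)) * X ^ (n - k))
          = (y' ^ n * x' ^ n) * (eval₂RingHom ψ y (Φ.coeff k) * x ^ k) := by
      intro k hk
      have hk' : k ≤ n := Nat.lt_succ_iff.mp (Finset.mem_range.mp hk)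
      rw [eval₂_mul, eval₂_C, eval₂_pow, eval₂_X, coe_eval₂RingHom, coe_eval₂RingHom,
        hrefl _ (hcoeff k)]
      have hxk : x' ^ (n - k) = x' ^ n * x ^ k := by
        conv_rhs =>
          rw [← Nat.sub_add_cancel hk', pow_add, mul_assoc, ← mul_pow, hx, one_pow, mul_one]
      rw [hxk]
      ring
    rw [hp, eval₂_finsetSum, Finset.sum_congr rfl hterm, ← Finset.mul_sum,
      ← eval₂_eq_sum_range' _ (Nat.lt_succ_of_le hdeg), hΦ, mul_zero]
  have h := RingHom.isIntegralElem_leadingCoeff_mul (eval₂RingHom ψ y') p x' heval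
  rwa [hlead, coe_eval₂RingHom] at h

/-- every element of `A[v]` becomes integral over `A[u]` after multiplication by a power of
`s(u)`, if `s(u) * v` is integral over `A[u]` -/
theorem exists_pow_mul_isIntegralElem_eval₂ (ψ : A →+* S) (u v : S) (s : A[X])
    (hsv : (eval₂RingHom ψ u).IsIntegralElem (eval₂ ψ u s * v)) (a : A[X]) :
    ∃ M : ℕ, (eval₂RingHom ψ u).IsIntegralElem (eval₂ ψ u s ^ M * eval₂ ψ v a) := by
  have hσ : ∀ M : ℕ, (eval₂RingHom ψ u).IsIntegralElem (eval₂ ψ u s ^ M) := by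
    intro M
    have h : eval₂ ψ u s ^ M = eval₂RingHom ψ u (s ^ M) := by
      rw [map_pow, coe_eval₂RingHom]
    rw [h]
    exact RingHom.isIntegralElem_map _
  induction a using Polynomial.induction_on with
  | C c =>
    refine ⟨0, ?_⟩
    have h : eval₂ ψ u s ^ 0 * eval₂ ψ v (C c) = eval₂RingHom ψ u (C c) := by
      rw [pow_zero, one_mul, eval₂_C, coe_eval₂RingHom, eval₂_C]
    rw [h]
    exact RingHom.isIntegralElem_map _
  | add p q hp hq =>
    obtain ⟨M1, h1⟩ := hp
    obtain ⟨M2, h2⟩ := hq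
    refine ⟨M1 + M2, ?_⟩
    have h : eval₂ ψ u s ^ (M1 + M2) * eval₂ ψ v (p + q)
        = eval₂ ψ u s ^ M2 * (eval₂ ψ u s ^ M1 * eval₂ ψ v p)
          + eval₂ ψ u s ^ M1 * (eval₂ ψ u s ^ M2 * eval₂ ψ v q) := by
      rw [eval₂_add, pow_add]
      ring
    rw [h]
    exact RingHom.IsIntegralElem.add _ (RingHom.IsIntegralElem.mul _ (hσ M2) h1)
      (RingHom.IsIntegralElem.mul _ (hσ M1) h2)
  | monomial n c ih =>
    obtain ⟨M, hM⟩ := ih
    refine ⟨M + 1, ?_⟩
    have h : eval₂ ψ u s ^ (M + 1) * eval₂ ψ v (C c * X ^ (n + 1))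
        = (eval₂ ψ u s ^ M * eval₂ ψ v (C c * X ^ n)) * (eval₂ ψ u s * v) := by
      rw [eval₂_mul, eval₂_mul, eval₂_pow, eval₂_pow, eval₂_X, eval₂_C]
      ring
    rw [h]
    exact RingHom.IsIntegralElem.mul _ hM hsv

/-- **(P4).**  If `s(u) * v` is integral over `A[u]` and `z` is integral over `A[v]`, then
`s(u) ^ M * z` is integral over `A[u]` for some `M`. -/
theorem exists_pow_mul_isIntegralElem (ψ : A →+* S) (u v : S) (s : A[X])
    (hsv : (eval₂RingHom ψ u).IsIntegralElem (eval₂ ψ u s * v)) (z : S)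
    (hz : (eval₂RingHom ψ v).IsIntegralElem z) :
    ∃ M : ℕ, (eval₂RingHom ψ u).IsIntegralElem (eval₂ ψ u s ^ M * z) := by
  classical
  obtain ⟨p, hpmonic, hpz⟩ := hz
  choose Mf hMf using exists_pow_mul_isIntegralElem_eval₂ ψ u v s hsv
  set σ : S := eval₂ ψ u s with hσdef
  have hσ : ∀ M : ℕ, (eval₂RingHom ψ u).IsIntegralElem (σ ^ M) := by
    intro M
    have h : σ ^ M = eval₂RingHom ψ u (s ^ M) := by
      rw [map_pow, coe_eval₂RingHom]
    rw [h]
    exact RingHom.isIntegralElem_map _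
  set M : ℕ := ∑ i ∈ Finset.range (p.natDegree + 1), Mf (p.coeff i) with hM
  have hcoef : ∀ i : ℕ, (eval₂RingHom ψ u).IsIntegralElem (σ ^ M * eval₂ ψ v (p.coeff i)) := by
    intro i
    by_cases hi : i ≤ p.natDegree
    · have hle : Mf (p.coeff i) ≤ M :=
        Finset.single_le_sum (f := fun i => Mf (p.coeff i)) (fun _ _ => Nat.zero_le _)
          (Finset.mem_range.mpr (Nat.lt_succ_of_le hi))
      have h : σ ^ M * eval₂ ψ v (p.coeff i)
          = σ ^ (M - Mf (p.coeff i)) * (σ ^ Mf (p.coeff i) * eval₂ ψ v (p.coeff i)) := by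
        rw [← mul_assoc, ← pow_add, Nat.sub_add_cancel hle]
      rw [h]
      exact RingHom.IsIntegralElem.mul _ (hσ _) (hMf _)
    · rw [coeff_eq_zero_of_natDegree_lt (not_le.mp hi), eval₂_zero, mul_zero]
      exact RingHom.isIntegralElem_zero _
  -- the scaled polynomial
  set q : S[X] := (p.map (eval₂RingHom ψ v)).scaleRoots (σ ^ M) with hq
  have hqmonic : q.Monic := (monic_scaleRoots_iff _).mpr (hpmonic.map _)
  have hqroot : q.eval (σ ^ M * z) = 0 := by
    rw [hq, scaleRoots_eval_mul, ← eval₂_eq_eval_map, hpz, mul_zero]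
  letI : Algebra A[X] S := (eval₂RingHom ψ u).toAlgebra
  have hint : ∀ w : S, (eval₂RingHom ψ u).IsIntegralElem w → w ∈ integralClosure A[X] S :=
    fun w hw => hw
  have hqcoef : ∀ i : ℕ, q.coeff i ∈ integralClosure A[X] S := by
    intro i
    rw [hq, coeff_scaleRoots, coeff_map, coe_eval₂RingHom]
    rcases Nat.eq_zero_or_pos ((p.map (eval₂RingHom ψ v)).natDegree - i) with h0 | hpos
    · rw [h0, pow_zero, mul_one]
      by_cases hi : i = (p.map (eval₂RingHom ψ v)).natDegree
      · have h1 : eval₂ ψ v (p.coeff i) = 1 := by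
          have := (hpmonic.map (eval₂RingHom ψ v)).coeff_natDegree
          rw [coeff_map, coe_eval₂RingHom] at this
          rw [hi]
          exact this
        rw [h1]
        exact Subalgebra.one_mem _
      · have h1 : eval₂ ψ v (p.coeff i) = 0 := by
          have := coeff_eq_zero_of_natDegree_lt (p := p.map (eval₂RingHom ψ v)) (n := i)
            (by omega)
          rw [coeff_map, coe_eval₂RingHom] at this
          exact this
        rw [h1]
        exact Subalgebra.zero_mem _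
    · obtain ⟨t, ht⟩ := Nat.exists_eq_add_of_le' hpos
      have h : eval₂ ψ v (p.coeff i) * (σ ^ M) ^ ((p.map (eval₂RingHom ψ v)).natDegree - i)
          = (σ ^ M * eval₂ ψ v (p.coeff i)) * (σ ^ M) ^ t := by
        rw [ht, pow_succ]
        ring
      rw [h]
      refine Subalgebra.mul_mem _ (hint _ (hcoef i)) ?_
      rw [← pow_mul]
      exact hint _ (hσ _)
  have hlift : q ∈ Polynomial.lifts (algebraMap (integralClosure A[X] S) S) := by
    rw [Polynomial.lifts_iff_coeff_lifts]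
    intro i
    exact ⟨⟨q.coeff i, hqcoef i⟩, rfl⟩
  obtain ⟨q', hq'map, -, hq'monic⟩ := Polynomial.lifts_and_natDegree_eq_and_monic hlift hqmonic
  have hw : IsIntegral (integralClosure A[X] S) (σ ^ M * z) :=
    ⟨q', hq'monic, by rw [eval₂_eq_eval_map, hq'map, hqroot]⟩
  exact ⟨M, isIntegral_trans (R := A[X]) (A := integralClosure A[X] S) _ hw⟩

end Generic

/-! ### Both vanishing statements from the product form -/

section Eval

variable {k : Type*} [Field k] (r : ℕ) [NeZero r] (ζ : kˣ)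

/-- `Φ(j_r, j) = 0`: the factor `b = 0` of the product form -/
theorem eval_jqModC_of_prodForm (Φ : k[X][X])
    (hΦ : Φ.map (aeval (R := k) (qExpand k r (jqModC k))).toRingHom = modRhs k r ζ) :
    (Φ.map (aeval (R := k) (qExpand k r (jqModC k))).toRingHom).eval (jqModC k) = 0 := by
  rw [hΦ, modRhs, eval_mul, eval_prod,
    Finset.prod_eq_zero (Finset.mem_range.mpr (Nat.pos_of_ne_zero (NeZero.ne r))) (by
      rw [pow_zero, twist_one, eval_sub, eval_X, eval_C]
      exact sub_self _), mul_zero]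

/-- `Φ(j, j_r) = 0`: evaluate the product form at `j(x^(r²))` and pull back along
`x ↦ x^r` -/
theorem eval_qExpand_of_prodForm (Φ : k[X][X])
    (hΦ : Φ.map (aeval (R := k) (qExpand k r (jqModC k))).toRingHom = modRhs k r ζ) :
    (Φ.map (aeval (R := k) (jqModC k)).toRingHom).eval (qExpand k r (jqModC k)) = 0 := by
  have h1 : (Φ.map (aeval (R := k) (qExpand k r (jqModC k))).toRingHom).eval
      (qExpand k (r * r) (jqModC k)) = 0 := by
    rw [hΦ, modRhs, eval_mul, eval_sub, eval_X, eval_C, sub_self, zero_mul]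
  have h2 : (aeval (R := k) (qExpand k r (jqModC k))).toRingHom
      = (qExpandAlgHomC k r).toRingHom.comp (aeval (R := k) (jqModC k)).toRingHom := by
    have : aeval (R := k) (qExpand k r (jqModC k))
        = (qExpandAlgHomC k r).comp (aeval (R := k) (jqModC k)) := by
      rw [← qExpandAlgHomC_apply, aeval_algHom]
    rw [this]
    rfl
  rw [h2, ← Polynomial.map_map, ← qExpand_qExpand] at h1
  have h3 : ((Φ.map (aeval (R := k) (jqModC k)).toRingHom).map
      (qExpandAlgHomC k r).toRingHom).eval (qExpand k r (qExpand k r (jqModC k)))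
      = qExpand k r ((Φ.map (aeval (R := k) (jqModC k)).toRingHom).eval
          (qExpand k r (jqModC k))) :=
    Polynomial.eval_map_apply (qExpandAlgHomC k r).toRingHom (qExpand k r (jqModC k))
  rw [h3] at h1
  exact qExpand_injective (R := k) (N := r) (by rw [h1, map_zero])

end Eval

/-! ### Consumer forms: integrality inside any ring embedded in `K((x))` -/

section Consumer

variable {A : Type*} [CommRing A] {K : Type*} [Field K] (φ : A →+* K)
variable {S : Type*} [CommRing S] (ψ : A →+* S) (ι : S →+* LaurentSeries K)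

/-- transport of a two-variable evaluation along `ι : S →+* K((x))` -/
theorem map_eval₂_eval₂ (hψ : ∀ a, ι (ψ a) = algebraMap K (LaurentSeries K) (φ a)) (x y : S)
    (Φ : A[X][X]) :
    ι (eval₂ (eval₂RingHom ψ y) x Φ)
      = ((Φ.map (mapRingHom φ)).map (aeval (R := K) (ι y)).toRingHom).eval (ι x) := by
  rw [Polynomial.hom_eval₂, Polynomial.map_map, ← Polynomial.eval₂_eq_eval_map]
  congr 1
  refine Polynomial.ringHom_ext (fun a => ?_) ?_
  · simp [hψ]
  · simp

variable (l : ℕ) [NeZero l] (u : Aˣ)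

/-- **(P3) vanishing.**  `Φ(y, x) = 0 = Φ(x, y)` for `x = j`, `y = j_l` in any ring `S`
embedded in `K((x))`. -/
theorem eval₂_eval₂_eq_zero (hι : Function.Injective ι)
    (hψ : ∀ a, ι (ψ a) = algebraMap K (LaurentSeries K) (φ a)) (Φ : A[X][X])
    (hΦ : Φ.map (aeval (R := A) (qExpand A l (jqModC A))).toRingHom = modRhs A l u)
    {x y : S} (hx : ι x = jqModC K) (hy : ι y = qExpand K l (jqModC K)) :
    eval₂ (eval₂RingHom ψ y) x Φ = 0 ∧ eval₂ (eval₂RingHom ψ x) y Φ = 0 := by
  have hΦ' := modEq_baseChange l φ u Φ hΦ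
  constructor
  · apply hι
    rw [map_eval₂_eval₂ φ ψ ι hψ, hx, hy, map_zero]
    exact eval_jqModC_of_prodForm l _ _ hΦ'
  · apply hι
    rw [map_eval₂_eval₂ φ ψ ι hψ, hx, hy, map_zero]
    exact eval_qExpand_of_prodForm l _ _ hΦ'

/-- **(P3)(a).**  `j` is integral over `A[j_l]` and `j_l` is integral over `A[j]`. -/
theorem isIntegralElem_of_modEq (hι : Function.Injective ι)
    (hψ : ∀ a, ι (ψ a) = algebraMap K (LaurentSeries K) (φ a)) (Φ : A[X][X]) (hmonic : Φ.Monic)
    (hΦ : Φ.map (aeval (R := A) (qExpand A l (jqModC A))).toRingHom = modRhs A l u)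
    {x y : S} (hx : ι x = jqModC K) (hy : ι y = qExpand K l (jqModC K)) :
    (eval₂RingHom ψ y).IsIntegralElem x ∧ (eval₂RingHom ψ x).IsIntegralElem y := by
  obtain ⟨h1, h2⟩ := eval₂_eval₂_eq_zero φ ψ ι l u hι hψ Φ hΦ hx hy
  exact ⟨⟨Φ, hmonic, h1⟩, ⟨Φ, hmonic, h2⟩⟩

/-- **(P3)(b).**  At infinity: with `s` the reciprocal polynomial of `Φ(X, 0)` (constant
coefficient `1`), `s(1/j_l) * (1/j)` is integral over `A[1/j_l]` and `s(1/j) * (1/j_l)` is
integral over `A[1/j]`. -/
theorem isIntegralElem_inv_of_modEq (hι : Function.Injective ι)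
    (hψ : ∀ a, ι (ψ a) = algebraMap K (LaurentSeries K) (φ a)) (Φ : A[X][X])
    (hdeg : Φ.natDegree = l + 1)
    (hΦ : Φ.map (aeval (R := A) (qExpand A l (jqModC A))).toRingHom = modRhs A l u)
    (h0 : (Φ.coeff 0).Monic) (h0deg : (Φ.coeff 0).natDegree = l + 1)
    (hk : ∀ k, 1 ≤ k → (Φ.coeff k).natDegree ≤ l)
    {x y : S} (hx : ι x = jqModC K) (hy : ι y = qExpand K l (jqModC K))
    {x' y' : S} (hx' : x' * x = 1) (hy' : y' * y = 1) :
    (reflect (l + 1) (Φ.coeff 0)).coeff 0 = 1 ∧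
    (eval₂RingHom ψ y').IsIntegralElem (eval₂ ψ y' (reflect (l + 1) (Φ.coeff 0)) * x') ∧
    (eval₂RingHom ψ x').IsIntegralElem (eval₂ ψ x' (reflect (l + 1) (Φ.coeff 0)) * y') := by
  obtain ⟨h1, h2⟩ := eval₂_eval₂_eq_zero φ ψ ι l u hι hψ Φ hΦ hx hy
  have hA : Nontrivial A := (RingHom.domain_nontrivial φ)
  have hs0 : (reflect (l + 1) (Φ.coeff 0)).coeff 0 = 1 := by
    rw [coeff_reflect, revAt_le (Nat.zero_le _), Nat.sub_zero, ← h0deg]
    exact h0.coeff_natDegree
  have hsne : reflect (l + 1) (Φ.coeff 0) ≠ 0 := by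
    intro h
    rw [h, coeff_zero] at hs0
    exact zero_ne_one hs0
  have hcoeff : ∀ k, (Φ.coeff k).natDegree ≤ l + 1 := by
    intro k
    rcases Nat.eq_zero_or_pos k with rfl | hpos
    · exact h0deg.le
    · exact (hk k hpos).trans (Nat.le_succ l)
  exact ⟨hs0, isIntegralElem_reflect_mul ψ (l + 1) Φ hdeg.le hcoeff hsne hx' hy' h1,
    isIntegralElem_reflect_mul ψ (l + 1) Φ hdeg.le hcoeff hsne hy' hx' h2⟩

end Consumer

/-! ### Packaged form -/

section Packaged

universe v

variable {A : Type*} [CommRing A] {K : Type*} [Field K] (φ : A →+* K)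

/-- **(PHI-INT), packaged.**  One modular polynomial `Φ` over `A` and one polynomial
`s = 1 + X * (…)` such that, in every ring `S` embedded in `K((x))` with `x = j`, `y = j_l`:
`Φ(y, x) = 0 = Φ(x, y)`, `x` is integral over `A[y]`, `y` is integral over `A[x]`, and for
`x' = 1 / x`, `y' = 1 / y`: `s(y') * x'` is integral over `A[y']` and `s(x') * y'` is integral
over `A[x']`. -/
theorem exists_phiInt (hφ : Function.Injective φ) (l : ℕ) [NeZero l] (hl : l.Prime)
    (u : Aˣ) (hu : IsPrimitiveRoot (φ (u : A)) l) :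
    ∃ (Φ : A[X][X]) (s : A[X]), Φ.Monic ∧ Φ.natDegree = l + 1 ∧
      Φ.map (aeval (R := A) (qExpand A l (jqModC A))).toRingHom = modRhs A l u ∧
      s.coeff 0 = 1 ∧
      ∀ (S : Type v) [CommRing S] (ψ : A →+* S) (ι : S →+* LaurentSeries K),
        Function.Injective ι → (∀ a, ι (ψ a) = algebraMap K (LaurentSeries K) (φ a)) →
        ∀ x y : S, ι x = jqModC K → ι y = qExpand K l (jqModC K) →
          eval₂ (eval₂RingHom ψ y) x Φ = 0 ∧ eval₂ (eval₂RingHom ψ x) y Φ = 0 ∧
          (eval₂RingHom ψ y).IsIntegralElem x ∧ (eval₂RingHom ψ x).IsIntegralElem y ∧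
          ∀ x' y' : S, x' * x = 1 → y' * y = 1 →
            (eval₂RingHom ψ y').IsIntegralElem (eval₂ ψ y' s * x') ∧
            (eval₂RingHom ψ x').IsIntegralElem (eval₂ ψ x' s * y') := by
  obtain ⟨Φ, hmonic, hdeg, hΦ, h0, h0deg, hk⟩ := exists_modEq_ring φ hφ l hl u hu
  have hA : Nontrivial A := RingHom.domain_nontrivial φ
  have hs0 : (reflect (l + 1) (Φ.coeff 0)).coeff 0 = 1 := by
    rw [coeff_reflect, revAt_le (Nat.zero_le _), Nat.sub_zero, ← h0deg]
    exact h0.coeff_natDegree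
  refine ⟨Φ, reflect (l + 1) (Φ.coeff 0), hmonic, hdeg, hΦ, hs0, ?_⟩
  intro S _ ψ ι hι hψ x y hx hy
  obtain ⟨h1, h2⟩ := eval₂_eval₂_eq_zero φ ψ ι l u hι hψ Φ hΦ hx hy
  refine ⟨h1, h2, ⟨Φ, hmonic, h1⟩, ⟨Φ, hmonic, h2⟩, ?_⟩
  intro x' y' hx' hy'
  exact (isIntegralElem_inv_of_modEq φ ψ ι l u hι hψ Φ hdeg hΦ h0 h0deg hk hx hy hx' hy').2

/-- a root of unity lies in every valuation subring -/
theorem mem_valuationSubring_of_pow_eq_one' {K : Type*} [Field K] (A : ValuationSubring K)
    {n : ℕ} (hn : n ≠ 0) {x : K} (hx : x ^ n = 1) : x ∈ A := by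
  rcases A.mem_or_inv_mem x with h | h
  · exact h
  · have e : x = x⁻¹ ^ (n - 1) := by
      have hx0 : x ≠ 0 := by
        rintro rfl
        rw [zero_pow hn] at hx
        exact zero_ne_one hx
      have h1 : x ^ (n - 1) * x = 1 := by
        rw [← pow_succ, Nat.sub_add_cancel (Nat.pos_of_ne_zero hn), hx]
      rw [inv_pow]
      exact eq_inv_of_mul_eq_one_right h1
    rw [e]
    exact A.pow_mem h _

/-- **(PHI-INT) over a valuation subring** `A` of a field `K` containing a primitive `l`-th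
root of unity `ζ` (which automatically lies in `A`). -/
theorem exists_phiInt_valuationSubring {K : Type*} [Field K] (A : ValuationSubring K) (l : ℕ)
    [NeZero l] (hl : l.Prime) (ζ : K) (hζ : IsPrimitiveRoot ζ l) :
    ∃ (u : (↥A)ˣ) (Φ : (↥A)[X][X]) (s : (↥A)[X]), ((u : ↥A) : K) = ζ ∧
      Φ.Monic ∧ Φ.natDegree = l + 1 ∧
      Φ.map (aeval (R := ↥A) (qExpand ↥A l (jqModC ↥A))).toRingHom = modRhs ↥A l u ∧
      s.coeff 0 = 1 ∧
      ∀ (S : Type v) [CommRing S] (ψ : ↥A →+* S) (ι : S →+* LaurentSeries K),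
        Function.Injective ι → (∀ a : ↥A, ι (ψ a) = algebraMap K (LaurentSeries K) (a : K)) →
        ∀ x y : S, ι x = jqModC K → ι y = qExpand K l (jqModC K) →
          eval₂ (eval₂RingHom ψ y) x Φ = 0 ∧ eval₂ (eval₂RingHom ψ x) y Φ = 0 ∧
          (eval₂RingHom ψ y).IsIntegralElem x ∧ (eval₂RingHom ψ x).IsIntegralElem y ∧
          ∀ x' y' : S, x' * x = 1 → y' * y = 1 →
            (eval₂RingHom ψ y').IsIntegralElem (eval₂ ψ y' s * x') ∧
            (eval₂RingHom ψ x').IsIntegralElem (eval₂ ψ x' s * y') := by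
  have hζl : ζ ^ l = 1 := hζ.pow_eq_one
  have hζ0 : ζ ≠ 0 := hζ.ne_zero hl.ne_zero
  have hinv : ζ⁻¹ ^ l = 1 := by rw [inv_pow, hζl, inv_one]
  let u : (↥A)ˣ :=
    { val := ⟨ζ, mem_valuationSubring_of_pow_eq_one' A hl.ne_zero hζl⟩
      inv := ⟨ζ⁻¹, mem_valuationSubring_of_pow_eq_one' A hl.ne_zero hinv⟩
      val_inv := Subtype.ext (mul_inv_cancel₀ hζ0)
      inv_val := Subtype.ext (inv_mul_cancel₀ hζ0) }
  obtain ⟨Φ, s, h1, h2, h3, h4, h5⟩ :=
    exists_phiInt A.subtype A.subtype_injective l hl u hζ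
  exact ⟨u, Φ, s, rfl, h1, h2, h3, h4, h5⟩

/-- **(PHI-INT) over a valuation subring of an algebraically closed field** in which
`l ≠ 0`. -/
theorem exists_phiInt_of_isAlgClosed {K : Type*} [Field K] [IsAlgClosed K]
    (A : ValuationSubring K) (l : ℕ) [NeZero l] (hl : l.Prime) (hlK : (l : K) ≠ 0) :
    ∃ (u : (↥A)ˣ) (Φ : (↥A)[X][X]) (s : (↥A)[X]), IsPrimitiveRoot ((u : ↥A) : K) l ∧
      Φ.Monic ∧ Φ.natDegree = l + 1 ∧
      Φ.map (aeval (R := ↥A) (qExpand ↥A l (jqModC ↥A))).toRingHom = modRhs ↥A l u ∧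
      s.coeff 0 = 1 ∧
      ∀ (S : Type v) [CommRing S] (ψ : ↥A →+* S) (ι : S →+* LaurentSeries K),
        Function.Injective ι → (∀ a : ↥A, ι (ψ a) = algebraMap K (LaurentSeries K) (a : K)) →
        ∀ x y : S, ι x = jqModC K → ι y = qExpand K l (jqModC K) →
          eval₂ (eval₂RingHom ψ y) x Φ = 0 ∧ eval₂ (eval₂RingHom ψ x) y Φ = 0 ∧
          (eval₂RingHom ψ y).IsIntegralElem x ∧ (eval₂RingHom ψ x).IsIntegralElem y ∧
          ∀ x' y' : S, x' * x = 1 → y' * y = 1 →
            (eval₂RingHom ψ y').IsIntegralElem (eval₂ ψ y' s * x') ∧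
            (eval₂RingHom ψ x').IsIntegralElem (eval₂ ψ x' s * y') := by
  obtain ⟨ζ, hζ⟩ := exists_isPrimitiveRoot_unit K l hl hlK
  have hζ' : IsPrimitiveRoot (ζ : K) l := IsPrimitiveRoot.coe_units_iff.mpr hζ
  obtain ⟨u, Φ, s, hu, h⟩ := exists_phiInt_valuationSubring A l hl (ζ : K) hζ'
  exact ⟨u, Φ, s, hu ▸ hζ', h⟩

end Packaged

end Fermat.Agent.S37.H20
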