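import Mathlib
import Fermat.Agent.S37.PhiInt_helper20
import Fermat.Agent.S37.SatA_helper58
import Fermat.Agent.S37.Gal_helper34
import Fermat.Prelude.Def_ModularCurve_HeckeOperator
import Fermat.Prelude.Def_AlgebraicCurve_Correspondence

/-!
# S37 (MULT): the chart multiplier of the Hecke norm (helper20)

`α, β : F_N → F_(N l)` are the two degeneracy maps (`heckeAlphaBar`, `heckeBetaBar`), and
`Nrm y := Norm_β (α y) ∈ F_N` (the norm for the algebra structure `algebraAlong β`).

* (M-fin) `norm_mem_chartRing_j`: `y ∈ B_N` (integral over `A[j]`) implies `Nrm y ∈ B_N`.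
* (M-oo) `exists_mult_jInv`: there is `s ∈ A[X]` with `s(0) = 1` such that for every
  `y ∈ B∞_N` (integral over `A[1/j]`) some `h0 ^ M * Nrm y` lies in `B∞_N`, `h0 := s(1/j)`.
* (M-val) `evalAt_chartHom_sub_one`: `h0` has value `≡ 1` mod `m_A` at every place where `1/j`
  has a value in `m_A`.
* (M-type) `isIntegralElem_alpha_beta`: `α j` is integral over `A[β j]` and conversely.
-/

set_option autoImplicit false
set_option linter.style.haveILetI false
set_option linter.unusedSectionVars false

open Polynomial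

noncomputable section

namespace Fermat.Agent.S37.H20

open ModularCurve AlgebraicCurve

local notation "Qb" => AlgebraicClosure ℚ

/-! ### Generic lemmas -/

section Generic

/-- integrality is preserved by ring homomorphisms -/
theorem isIntegralElem_comp {R S T : Type*} [CommRing R] [CommRing S] [CommRing T]
    (f : R →+* S) (g : S →+* T) {y : S} (hy : f.IsIntegralElem y) :
    (g.comp f).IsIntegralElem (g y) := by
  obtain ⟨p, hp, h⟩ := hy
  exact ⟨p, hp, by rw [← Polynomial.hom_eval₂, h, map_zero]⟩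

/-- transitivity of integrality over `A[x]` -/
theorem isIntegralElem_trans {A S : Type*} [CommRing A] [CommRing S] (ψ : A →+* S)
    {u x y : S} (hx : (eval₂RingHom ψ u).IsIntegralElem x)
    (hy : (eval₂RingHom ψ x).IsIntegralElem y) : (eval₂RingHom ψ u).IsIntegralElem y := by
  obtain ⟨M, hM⟩ := exists_pow_mul_isIntegralElem ψ u x 1
    (by rw [eval₂_one, one_mul]; exact hx) y hy
  rwa [eval₂_one, one_pow, one_mul] at hM

/-- the norm of an integral element is integral -/
theorem isIntegralElem_norm {R F F' : Type*} [CommRing R] [Field F] [Field F'] (β : F →+* F')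
    (f : R →+* F) {z : F'} (hz : (β.comp f).IsIntegralElem z) :
    f.IsIntegralElem (letI := β.toAlgebra; Algebra.norm F z) := by
  letI := β.toAlgebra
  letI : Algebra R F := f.toAlgebra
  letI : Algebra R F' := (β.comp f).toAlgebra
  haveI : IsScalarTower R F F' := IsScalarTower.of_algebraMap_eq (fun _ => rfl)
  exact Algebra.isIntegral_norm (K := F) hz

end Generic

/-! ### The chart rings along `α` and `β` -/

section Charts

variable (A : ValuationSubring Qb) (N l : ℕ) [NeZero N] [NeZero l]

theorem alpha_comp_chartHom (x : ↥(modularFunctionFieldBar N)) :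
    (heckeAlphaBar Qb N l).toRingHom.comp (H58.chartHom A N x)
      = H58.chartHom A (N * l) (heckeAlphaBar Qb N l x) := by
  refine Polynomial.ringHom_ext (fun a => ?_) ?_
  · rw [RingHom.comp_apply, H58.chartHom_C, H58.chartHom_C, H58.constHom_apply,
      H58.constHom_apply]
    exact (heckeAlphaBar Qb N l).commutes _
  · rw [RingHom.comp_apply, H58.chartHom_X, H58.chartHom_X]
    rfl

theorem beta_comp_chartHom (x : ↥(modularFunctionFieldBar N)) :
    (heckeBetaBar Qb N l).toRingHom.comp (H58.chartHom A N x)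
      = H58.chartHom A (N * l) (heckeBetaBar Qb N l x) := by
  refine Polynomial.ringHom_ext (fun a => ?_) ?_
  · rw [RingHom.comp_apply, H58.chartHom_C, H58.chartHom_C, H58.constHom_apply,
      H58.constHom_apply]
    exact (heckeBetaBar Qb N l).commutes _
  · rw [RingHom.comp_apply, H58.chartHom_X, H58.chartHom_X]
    rfl

/-- `α` maps the chart ring of `x` into the chart ring of `α x` -/
theorem alpha_mem_chartRing {x y : ↥(modularFunctionFieldBar N)} (hy : y ∈ H58.chartRing A N x) :
    heckeAlphaBar Qb N l y ∈ H58.chartRing A (N * l) (heckeAlphaBar Qb N l x) := by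
  have h := isIntegralElem_comp _ (heckeAlphaBar Qb N l).toRingHom hy
  rw [alpha_comp_chartHom] at h
  exact h

/-- `β` maps the chart ring of `x` into the chart ring of `β x` -/
theorem beta_mem_chartRing {x y : ↥(modularFunctionFieldBar N)} (hy : y ∈ H58.chartRing A N x) :
    heckeBetaBar Qb N l y ∈ H58.chartRing A (N * l) (heckeBetaBar Qb N l x) := by
  have h := isIntegralElem_comp _ (heckeBetaBar Qb N l).toRingHom hy
  rw [beta_comp_chartHom] at h
  exact h

/-- the norm along `β` maps the chart ring of `β x` into the chart ring of `x` -/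
theorem norm_mem_chartRing {x : ↥(modularFunctionFieldBar N)}
    {z : ↥(modularFunctionFieldBar (N * l))}
    (hz : z ∈ H58.chartRing A (N * l) (heckeBetaBar Qb N l x)) :
    (letI := algebraAlong (heckeBetaBar Qb N l);
      Algebra.norm ↥(modularFunctionFieldBar N) z) ∈ H58.chartRing A N x := by
  have hz' : ((heckeBetaBar Qb N l).toRingHom.comp (H58.chartHom A N x)).IsIntegralElem z := by
    rw [beta_comp_chartHom]
    exact hz
  exact isIntegralElem_norm (heckeBetaBar Qb N l).toRingHom (H58.chartHom A N x) hz'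

theorem jBar_ne_zero : H58.jBar N ≠ 0 := by
  intro h
  have h1 : ((H58.jBar N : ↥(modularFunctionFieldBar N)) : LaurentSeries Qb).coeff (-1) = 1 := by
    rw [H58.coe_jBar]
    exact coeff_jqModC_neg_one Qb
  rw [h] at h1
  simp at h1

/-- **(M-type).**  `α j` is integral over `A[β j]` and `β j` is integral over `A[α j]`;
together with the multiplier polynomial `s` at infinity. -/
theorem exists_mult_data (hl : l.Prime) :
    ∃ s : (↥A)[X], s.coeff 0 = 1 ∧
      heckeAlphaBar Qb N l (H58.jBar N)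
        ∈ H58.chartRing A (N * l) (heckeBetaBar Qb N l (H58.jBar N)) ∧
      heckeBetaBar Qb N l (H58.jBar N)
        ∈ H58.chartRing A (N * l) (heckeAlphaBar Qb N l (H58.jBar N)) ∧
      H58.chartHom A (N * l) (heckeBetaBar Qb N l (H58.jBar N))⁻¹ s
          * (heckeAlphaBar Qb N l (H58.jBar N))⁻¹
        ∈ H58.chartRing A (N * l) (heckeBetaBar Qb N l (H58.jBar N))⁻¹ ∧
      H58.chartHom A (N * l) (heckeAlphaBar Qb N l (H58.jBar N))⁻¹ s
          * (heckeBetaBar Qb N l (H58.jBar N))⁻¹
        ∈ H58.chartRing A (N * l) (heckeAlphaBar Qb N l (H58.jBar N))⁻¹ := by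
  have hlK : ((l : ℕ) : Qb) ≠ 0 := by exact_mod_cast hl.ne_zero
  obtain ⟨u, Φ, s, -, -, -, -, hs, H⟩ := exists_phiInt_of_isAlgClosed A l hl hlK
  have hx : ((heckeAlphaBar Qb N l (H58.jBar N) : ↥(modularFunctionFieldBar (N * l))) :
      LaurentSeries Qb) = jqModC Qb := by
    rw [coe_heckeAlphaBar, H58.coe_jBar]
  have hy : ((heckeBetaBar Qb N l (H58.jBar N) : ↥(modularFunctionFieldBar (N * l))) :
      LaurentSeries Qb) = qExpand Qb l (jqModC Qb) := rfl
  have hx0 : heckeAlphaBar Qb N l (H58.jBar N) ≠ 0 :=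
    (_root_.map_ne_zero _).mpr (jBar_ne_zero N)
  have hy0 : heckeBetaBar Qb N l (H58.jBar N) ≠ 0 :=
    (_root_.map_ne_zero _).mpr (jBar_ne_zero N)
  obtain ⟨-, -, h3, h4, h5⟩ := H ↥(modularFunctionFieldBar (N * l)) (H58.constHom A (N * l))
    (modularFunctionFieldBar (N * l)).val.toRingHom Subtype.val_injective (fun a => rfl)
    (heckeAlphaBar Qb N l (H58.jBar N)) (heckeBetaBar Qb N l (H58.jBar N)) hx hy
  obtain ⟨h6, h7⟩ := h5 _ _ (inv_mul_cancel₀ hx0) (inv_mul_cancel₀ hy0)
  exact ⟨s, hs, h3, h4, h6, h7⟩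

/-- **(M-fin).**  The Hecke norm `Norm_β (α y)` preserves the chart ring of `j`. -/
theorem norm_mem_chartRing_j (hl : l.Prime) {y : ↥(modularFunctionFieldBar N)}
    (hy : y ∈ H58.chartRing A N (H58.jBar N)) :
    (letI := algebraAlong (heckeBetaBar Qb N l);
      Algebra.norm ↥(modularFunctionFieldBar N) (heckeAlphaBar Qb N l y))
      ∈ H58.chartRing A N (H58.jBar N) := by
  obtain ⟨s, -, h1, -, -, -⟩ := exists_mult_data A N l hl
  refine norm_mem_chartRing A N l ?_
  exact isIntegralElem_trans (H58.constHom A (N * l)) h1 (alpha_mem_chartRing A N l hy)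

/-- **(M-oo).**  The multiplier at infinity: for `y` integral over `A[1/j]`, the Hecke norm
`Norm_β (α y)` becomes integral over `A[1/j]` after multiplication by a power of
`h0 = s(1/j)`, `s(0) = 1`. -/
theorem exists_mult_jInv (hl : l.Prime) :
    ∃ s : (↥A)[X], s.coeff 0 = 1 ∧
      ∀ y ∈ H58.chartRing A N (H58.jBar N)⁻¹, ∃ M : ℕ,
        H58.chartHom A N (H58.jBar N)⁻¹ s ^ M *
          (letI := algebraAlong (heckeBetaBar Qb N l);
            Algebra.norm ↥(modularFunctionFieldBar N) (heckeAlphaBar Qb N l y))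
          ∈ H58.chartRing A N (H58.jBar N)⁻¹ := by
  obtain ⟨s, hs, -, -, h3, -⟩ := exists_mult_data A N l hl
  refine ⟨s, hs, fun y hy => ?_⟩
  -- `α y` is integral over `A[(α j)⁻¹]`
  have h1 : heckeAlphaBar Qb N l y
      ∈ H58.chartRing A (N * l) (heckeAlphaBar Qb N l (H58.jBar N))⁻¹ := by
    have := alpha_mem_chartRing A N l hy
    rwa [map_inv₀] at this
  -- `s(u) ^ M * α y` is integral over `A[u]`, `u = (β j)⁻¹`
  obtain ⟨M, hM⟩ := exists_pow_mul_isIntegralElem (H58.constHom A (N * l))
    (heckeBetaBar Qb N l (H58.jBar N))⁻¹ (heckeAlphaBar Qb N l (H58.jBar N))⁻¹ s h3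
    (heckeAlphaBar Qb N l y) h1
  -- rewrite `s(u)` as `β (h0)`
  have hβ : Polynomial.eval₂ (H58.constHom A (N * l)) (heckeBetaBar Qb N l (H58.jBar N))⁻¹ s
      = heckeBetaBar Qb N l (H58.chartHom A N (H58.jBar N)⁻¹ s) := by
    have h := congrArg (fun f => f s) (beta_comp_chartHom A N l (H58.jBar N)⁻¹)
    simp only [RingHom.comp_apply] at h
    rw [map_inv₀] at h
    exact h.symm
  rw [hβ] at hM
  have hz : heckeBetaBar Qb N l (H58.chartHom A N (H58.jBar N)⁻¹ s) ^ M * heckeAlphaBar Qb N l y
      ∈ H58.chartRing A (N * l) (heckeBetaBar Qb N l (H58.jBar N)⁻¹) := by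
    rw [map_inv₀]
    exact hM
  have hnorm := norm_mem_chartRing A N l hz
  letI := algebraAlong (heckeBetaBar Qb N l)
  refine ⟨Module.finrank ↥(modularFunctionFieldBar N) ↥(modularFunctionFieldBar (N * l)) * M, ?_⟩
  have e : Algebra.norm ↥(modularFunctionFieldBar N)
      (heckeBetaBar Qb N l (H58.chartHom A N (H58.jBar N)⁻¹ s) ^ M * heckeAlphaBar Qb N l y)
      = H58.chartHom A N (H58.jBar N)⁻¹ s
          ^ (Module.finrank ↥(modularFunctionFieldBar N) ↥(modularFunctionFieldBar (N * l)) * M)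
        * Algebra.norm ↥(modularFunctionFieldBar N) (heckeAlphaBar Qb N l y) := by
    rw [map_mul, map_pow, pow_mul]
    congr 2
    exact Algebra.norm_algebraMap (S := ↥(modularFunctionFieldBar (N * l)))
      (H58.chartHom A N (H58.jBar N)⁻¹ s)
  rw [← e]
  exact hnorm

/-- **(M-val).**  A polynomial `s` with `s(0) = 1` evaluated at a function with value in `m_A`
has value `≡ 1` mod `m_A`. -/
theorem evalAt_chartHom_sub_one (s : (↥A)[X]) (hs : s.coeff 0 = 1)
    (P : Place Qb ↥(modularFunctionFieldBar N)) (x : ↥(modularFunctionFieldBar N)) (c : Qb)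
    (hc : H34.EvalAt P x c) (hcm : c ∈ A.nonunits) :
    ∃ c0 : Qb, H34.EvalAt P (H58.chartHom A N x s) c0 ∧ c0 - 1 ∈ A.nonunits := by
  refine ⟨s.eval₂ A.subtype c, ?_, ?_⟩
  · have h := H34.EvalAt.eval₂ (P := P) (H58.constHom A N) A.subtype
      (fun r => H34.evalAt_algebraMap P _) s hc
    exact h
  · obtain ⟨hcA, hcmax⟩ := (ValuationSubring.mem_nonunits_iff_exists_mem_maximalIdeal).mp hcm
    have hdiv : s = s.divX * X + C 1 := by
      conv_lhs => rw [← Polynomial.divX_mul_X_add s, hs]
    have h1 : s.eval₂ A.subtype c - 1 = ((s.divX.eval (⟨c, hcA⟩ : ↥A) * ⟨c, hcA⟩ : ↥A) : Qb) := by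
      have h2 : s.eval₂ A.subtype c = A.subtype (s.eval (⟨c, hcA⟩ : ↥A)) := by
        rw [← Polynomial.eval₂_id, Polynomial.hom_eval₂]
        rfl
      rw [h2]
      conv_lhs => rw [hdiv]
      simp
    rw [h1]
    exact (ValuationSubring.mem_nonunits_iff_exists_mem_maximalIdeal).mpr
      ⟨Subtype.mem _, Ideal.mul_mem_left _ (s.divX.eval (⟨c, hcA⟩ : ↥A)) hcmax⟩

end Charts

end Fermat.Agent.S37.H20
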