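import Mathlib
import Fermat.Agent.S37.Mult_helper20

/-!
# S37 (MULT), consumer form at a place (helper20)

The multiplier hypothesis of (ES-val) in one call, for both charts:

* `exists_mult_at_j`: on the chart `B = chartRing A N j` the multiplier is `1`.
* `exists_mult_at_jInv`: on the chart `B∞ = chartRing A N j⁻¹`, at a place `P` where `1/j` has a
  value in `m_A`, there is `h ∈ B∞` with value `≡ 1` mod `m_A` at `P` and `h * Norm_β (α y) ∈ B∞`.
* `chartRing_alpha_eq_beta`: in `F_(N l)` the chart rings of `α j` and `β j` coincide.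
-/

set_option autoImplicit false
set_option linter.unusedSectionVars false

open Polynomial

noncomputable section

namespace Fermat.Agent.S37.H20

open ModularCurve AlgebraicCurve

local notation "Qb" => AlgebraicClosure ℚ

variable (A : ValuationSubring Qb) (N l : ℕ) [NeZero N] [NeZero l]

/-- an element of the maximal ideal of `A` is a nonunit of `A` -/
theorem coe_mem_nonunits {a : ↥A} (ha : a ∈ IsLocalRing.maximalIdeal ↥A) :
    (a : Qb) ∈ A.nonunits :=
  (ValuationSubring.mem_nonunits_iff_exists_mem_maximalIdeal).mpr ⟨a.2, ha⟩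

/-- a power of an element `≡ 1` mod `m_A` is `≡ 1` mod `m_A` -/
theorem pow_sub_one_mem_nonunits {c : Qb} (hc : c - 1 ∈ A.nonunits) (M : ℕ) :
    c ^ M - 1 ∈ A.nonunits := by
  obtain ⟨hcA, hcmax⟩ := (ValuationSubring.mem_nonunits_iff_exists_mem_maximalIdeal).mp hc
  have h1 : A.subtype (⟨c - 1, hcA⟩ * ∑ i ∈ Finset.range M, ((⟨c - 1, hcA⟩ : ↥A) + 1) ^ i)
      = c ^ M - 1 := by
    have h2 : (((⟨c - 1, hcA⟩ : ↥A) + 1 : ↥A) : Qb) = c := by
      show c - 1 + 1 = c
      ring
    rw [map_mul, map_sum]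
    simp only [map_pow]
    rw [show A.subtype ((⟨c - 1, hcA⟩ : ↥A) + 1) = c from h2]
    show (c - 1) * ∑ i ∈ Finset.range M, c ^ i = c ^ M - 1
    rw [mul_comm]
    exact geom_sum_mul c M
  rw [← h1]
  exact coe_mem_nonunits A (Ideal.mul_mem_right _ _ hcmax)

/-- **(MULT) at a place, chart `j`.**  The multiplier is `1`. -/
theorem exists_mult_at_j (hl : l.Prime) (P : Place Qb ↥(modularFunctionFieldBar N))
    {y : ↥(modularFunctionFieldBar N)} (hy : y ∈ H58.chartRing A N (H58.jBar N)) :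
    ∃ h ∈ H58.chartRing A N (H58.jBar N), ∃ ch : Qb, H34.EvalAt P h ch ∧ ch - 1 ∈ A.nonunits ∧
      h * (letI := algebraAlong (heckeBetaBar Qb N l);
        Algebra.norm ↥(modularFunctionFieldBar N) (heckeAlphaBar Qb N l y))
        ∈ H58.chartRing A N (H58.jBar N) := by
  refine ⟨1, one_mem _, 1, H34.evalAt_one P, ?_, ?_⟩
  · rw [sub_self]
    exact (ValuationSubring.mem_nonunits_iff_exists_mem_maximalIdeal).mpr
      ⟨zero_mem _, zero_mem _⟩
  · rw [one_mul]
    exact norm_mem_chartRing_j A N l hl hy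

/-- **(MULT) at a place, chart `1/j`.**  At a place `P` where `1/j` has a value in `m_A`, for
`y` integral over `A[1/j]` there is `h` integral over `A[1/j]` with value `≡ 1` mod `m_A` at
`P` such that `h * Norm_β (α y)` is integral over `A[1/j]`. -/
theorem exists_mult_at_jInv (hl : l.Prime) (P : Place Qb ↥(modularFunctionFieldBar N))
    {c : Qb} (hc : H34.EvalAt P (H58.jBar N)⁻¹ c) (hcm : c ∈ A.nonunits)
    {y : ↥(modularFunctionFieldBar N)} (hy : y ∈ H58.chartRing A N (H58.jBar N)⁻¹) :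
    ∃ h ∈ H58.chartRing A N (H58.jBar N)⁻¹, ∃ ch : Qb, H34.EvalAt P h ch ∧
      ch - 1 ∈ A.nonunits ∧
      h * (letI := algebraAlong (heckeBetaBar Qb N l);
        Algebra.norm ↥(modularFunctionFieldBar N) (heckeAlphaBar Qb N l y))
        ∈ H58.chartRing A N (H58.jBar N)⁻¹ := by
  obtain ⟨s, hs, H⟩ := exists_mult_jInv A N l hl
  obtain ⟨M, hM⟩ := H y hy
  obtain ⟨c0, hc0, hc0'⟩ := evalAt_chartHom_sub_one A N s hs P (H58.jBar N)⁻¹ c hc hcm
  exact ⟨H58.chartHom A N (H58.jBar N)⁻¹ s ^ M,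
    Subring.pow_mem _ (H58.chartHom_mem_chartRing A N _ s) M, c0 ^ M, hc0.pow M,
    pow_sub_one_mem_nonunits A hc0' M, hM⟩

/-- In `F_(N l)` the chart ring of `α j` is the chart ring of `β j`. -/
theorem chartRing_alpha_eq_beta (hl : l.Prime) :
    H58.chartRing A (N * l) (heckeAlphaBar Qb N l (H58.jBar N))
      = H58.chartRing A (N * l) (heckeBetaBar Qb N l (H58.jBar N)) := by
  obtain ⟨s, -, h1, h2, -, -⟩ := exists_mult_data A N l hl
  refine le_antisymm (fun y hy => ?_) (fun y hy => ?_)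
  · exact isIntegralElem_trans (H58.constHom A (N * l)) h1 hy
  · exact isIntegralElem_trans (H58.constHom A (N * l)) h2 hy

/-- `α` maps the chart ring of `j` into the chart ring of `β j`. -/
theorem alpha_mem_chartRing_beta (hl : l.Prime) {y : ↥(modularFunctionFieldBar N)}
    (hy : y ∈ H58.chartRing A N (H58.jBar N)) :
    heckeAlphaBar Qb N l y ∈ H58.chartRing A (N * l) (heckeBetaBar Qb N l (H58.jBar N)) := by
  rw [← chartRing_alpha_eq_beta A N l hl]
  exact alpha_mem_chartRing A N l hy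

end Fermat.Agent.S37.H20
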