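import Mathlib
import Fermat.Agent.S37.ESNorm_helper58
import Fermat.Agent.S37.MultAt_helper20

/-!
# S37: the congruence `(ES-val)` on the two `j`-charts, in the `hcong` shape (helper58)

`A` a valuation subring of `Qbar` over `ℓ ∤ N`, `σ` a Frobenius element at `A`,
`g = arithmeticGalois (modularFunctionFieldFull N)`, `N'(y) = Norm_β(α y)`.

* `hcong_j`: for a `B`-finite place `P` (`B = chartRing A N j`) and `y ∈ B`: if `N'(y)`, `y`, `y`
  have the values `c₀`, `c₁`, `c₂` at `P`, `g σ • P`, `(g σ)⁻¹ • P`, then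
  `c₀ - c₁ * c₂ ^ ℓ ∈ 𝔪_A`;
* `hcong_jInv`: the same for `B∞ = chartRing A N j⁻¹` at a `B∞`-finite place where `1/j` has a
  value in `𝔪_A`.

Both are literally the hypothesis `hcong` of `H26.es_core` (with `φ = heckeBetaBar`,
`ψ = heckeAlphaBar`, `Q₁ = g σ • P`, `Q₂ = (g σ)⁻¹ • P`, `n = ℓ`).
-/

set_option autoImplicit false

noncomputable section

open HahnSeries ModularCurve Polynomial AlgebraicCurve
open Fermat.Agent.S18 Fermat.Agent.S28

namespace Fermat.Agent.S37.H58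

local notation "Qb" => AlgebraicClosure ℚ

section ESChart

variable {A : ValuationSubring Qb} {ℓ : ℕ} [Fact ℓ.Prime] [CharP (IsLocalRing.ResidueField A) ℓ]
variable {N : ℕ} [NeZero N]

omit [Fact ℓ.Prime] [CharP (IsLocalRing.ResidueField A) ℓ] in
/-- From an equality of residues to a congruence modulo the nonunits. -/
theorem sub_mem_nonunits_of_residue_eq {c₀ c₁ c₂ : Qb} (h0 : c₀ ∈ A) (h1 : c₁ ∈ A) (h2 : c₂ ∈ A)
    (h : IsLocalRing.residue A ⟨c₀, h0⟩ =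
      IsLocalRing.residue A ⟨c₁, h1⟩ * IsLocalRing.residue A ⟨c₂, h2⟩ ^ ℓ) :
    c₀ - c₁ * c₂ ^ ℓ ∈ A.nonunits := by
  rw [← map_pow, ← map_mul, H34.residue_eq_residue_iff] at h
  exact h

/-- **`hcong` on the chart `j`.** -/
theorem hcong_j [NeZero ℓ] (hℓN : ¬ ℓ ∣ N) (hA : A.LiesOverPrime ℓ)
    (σ : Qb ≃ₐ[ℚ] Qb) (hσ : A.IsFrobeniusAt σ ℓ)
    {P : Place Qb ↥(modularFunctionFieldBar N)}
    (hP : H34.IsFin A (chartRing A N (jBar N)) P) :
    ∀ y ∈ chartRing A N (jBar N), ∀ c₀ c₁ c₂ : Qb,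
      H34.EvalAt P (letI := algebraAlong (heckeBetaBar Qb N ℓ);
        Algebra.norm ↥(modularFunctionFieldBar N) (heckeAlphaBar Qb N ℓ y)) c₀ →
      H34.EvalAt (arithmeticGalois (modularFunctionFieldFull N) σ • P) y c₁ →
      H34.EvalAt ((arithmeticGalois (modularFunctionFieldFull N) σ)⁻¹ • P) y c₂ →
      c₀ - c₁ * c₂ ^ ℓ ∈ A.nonunits := by
  intro y hy c₀ c₁ c₂ h₀ h₁ h₂
  have hℓ : ℓ.Prime := Fact.out
  have hz : heckeNorm N ℓ y ∈ chartRing A N (jBar N) := H20.norm_mem_chartRing_j A N ℓ hℓ hy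
  obtain ⟨Y, hY⟩ := exists_series_of_mem_chartRing_j hℓ hA hy
  have h₂' : H34.EvalAt (arithmeticGalois (modularFunctionFieldFull N) σ⁻¹ • P) y c₂ := by
    rw [map_inv]
    exact h₂
  obtain ⟨h0, h1, h2, hres⟩ := es_val hℓN hA (isGoodCoord_jBar A N) σ hσ
    (arithmeticRingAut_jBar N σ) (arithmeticRingAut_jBar N σ⁻¹) hP hy hz Y hY h₀ h₁ h₂'
  exact sub_mem_nonunits_of_residue_eq h0 h1 h2 hres

/-- **`hcong` on the chart `1/j`**, at a `B∞`-finite place where `1/j` has a value in `𝔪_A`. -/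
theorem hcong_jInv [NeZero ℓ] (hℓN : ¬ ℓ ∣ N) (hA : A.LiesOverPrime ℓ)
    (σ : Qb ≃ₐ[ℚ] Qb) (hσ : A.IsFrobeniusAt σ ℓ)
    {P : Place Qb ↥(modularFunctionFieldBar N)}
    (hP : H34.IsFin A (chartRing A N (jBar N)⁻¹) P)
    {c : Qb} (hc : H34.EvalAt P (jBar N)⁻¹ c) (hcm : c ∈ A.nonunits) :
    ∀ y ∈ chartRing A N (jBar N)⁻¹, ∀ c₀ c₁ c₂ : Qb,
      H34.EvalAt P (letI := algebraAlong (heckeBetaBar Qb N ℓ);
        Algebra.norm ↥(modularFunctionFieldBar N) (heckeAlphaBar Qb N ℓ y)) c₀ →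
      H34.EvalAt (arithmeticGalois (modularFunctionFieldFull N) σ • P) y c₁ →
      H34.EvalAt ((arithmeticGalois (modularFunctionFieldFull N) σ)⁻¹ • P) y c₂ →
      c₀ - c₁ * c₂ ^ ℓ ∈ A.nonunits := by
  intro y hy c₀ c₁ c₂ h₀ h₁ h₂
  have hℓ : ℓ.Prime := Fact.out
  obtain ⟨h, hh, ch, hch, hch1, hhz⟩ := H20.exists_mult_at_jInv A N ℓ hℓ P hc hcm hy
  obtain ⟨H, hH⟩ := exists_series_of_mem_chartRing_jInv hℓ hA hh
  obtain ⟨Y, hY⟩ := exists_series_of_mem_chartRing_jInv hℓ hA hy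
  have h₂' : H34.EvalAt (arithmeticGalois (modularFunctionFieldFull N) σ⁻¹ • P) y c₂ := by
    rw [map_inv]
    exact h₂
  have hhz' : h * heckeNorm N ℓ y ∈ chartRing A N (jBar N)⁻¹ := hhz
  have h₀' : H34.EvalAt P (h * heckeNorm N ℓ y) (ch * c₀) := hch.mul h₀
  obtain ⟨h0, hh', h1, h2, hres⟩ := es_val_mul hℓN hA (isGoodCoord_jBar_inv A N) σ hσ
    (arithmeticRingAut_jBar_inv N σ) (arithmeticRingAut_jBar_inv N σ⁻¹) hP hh hy hhz' H Y hH hY
    h₀' hch h₁ h₂'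
  -- `ch` is a unit of `A` with residue `1`
  have hch_res : IsLocalRing.residue A ⟨ch, hh'⟩ = 1 := by
    rw [← map_one (IsLocalRing.residue A), H34.residue_eq_residue_iff]
    exact hch1
  have hu : IsUnit (⟨ch, hh'⟩ : A) := by
    rw [← IsLocalRing.residue_ne_zero_iff_isUnit, hch_res]
    exact one_ne_zero
  obtain ⟨u, hu⟩ := hu
  have hc₀ : c₀ ∈ A := by
    have e : c₀ = (((u⁻¹ : Aˣ) : A) * ⟨ch * c₀, h0⟩ : A) := by
      have h3 : (((u⁻¹ : Aˣ) : A) : Qb) * ch = 1 := by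
        have h4 : ((u⁻¹ : Aˣ) : A) * (⟨ch, hh'⟩ : A) = 1 := by
          rw [← hu]
          exact u.inv_mul
        exact congrArg (Subtype.val) h4
      show c₀ = (((u⁻¹ : Aˣ) : A) : Qb) * (ch * c₀)
      rw [← mul_assoc, h3, one_mul]
    rw [e]
    exact Subtype.mem _
  have hmul : (⟨ch * c₀, h0⟩ : A) = ⟨ch, hh'⟩ * ⟨c₀, hc₀⟩ := rfl
  rw [hmul, map_mul, hch_res, one_mul, one_mul] at hres
  exact sub_mem_nonunits_of_residue_eq hc₀ h1 h2 hres

end ESChart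

end Fermat.Agent.S37.H58
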