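import Mathlib
import Fermat.Prelude.Def_AlgebraicCurve_Correspondence
import Fermat.Agent.S37.Multiset_helper96

/-!
# S37 helper node: a correspondence applied to a point, as a multiset of points

Prelude + `Multiset_helper96` only.

* `map_eq_of_prod_eq'`, `sub_mem_closure_of_prod_eq'`: the multiset lemmas (M1), (M3) with the
  `A`-linearity of the characters required only for the members of the two multisets (so that the
  family of characters may take junk values elsewhere).
* `corrMultiset φ ψ hφ hψ P`: the multiset of points of `ψ_* φ^* P`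
  (`W|ψ` repeated `e_φ(W) * f_ψ(W)` times, `W` over `P` along `φ`);
  `correspondence_single`, `prod_map_corrMultiset`.
* `correspondence_sub_mem_closure`, `correspondence_sub_mem_closure_pair`: the divisor-side glue of
  the congruence relation: if the product of the characters over `ψ_* φ^* P` equals the product
  over a multiset `t` (e.g. `Q₁ + n Q₂`), then `ψ_* φ^* P - t` is a sum of differences of points
  with equal characters.
-/

set_option autoImplicit false

open AlgebraicCurve

namespace Fermat.Agent.S37.H96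

section Relative

variable {A R k ι : Type*} [CommRing A] [CommRing R] [Field k] [Infinite k]

/-- **(M1')** as `map_eq_of_prod_eq`, the `A`-linearity being required only on `s` and `t`. -/
theorem map_eq_of_prod_eq' (iA : A →+* R) (res : A →+* k) (hres : Function.Surjective res)
    (χ : ι → R →+* k) (s t : Multiset ι)
    (hs : ∀ i ∈ s, ∀ a, χ i (iA a) = res a) (ht : ∀ i ∈ t, ∀ a, χ i (iA a) = res a)
    (h : ∀ y : R, (s.map fun i => χ i y).prod = (t.map fun i => χ i y).prod) :
    s.map χ = t.map χ := by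
  classical
  by_cases hex : ∃ i, i ∈ s ∨ i ∈ t
  swap
  · push Not at hex
    have hs0 : s = 0 := Multiset.eq_zero_of_forall_notMem fun i => (hex i).1
    have ht0 : t = 0 := Multiset.eq_zero_of_forall_notMem fun i => (hex i).2
    rw [hs0, ht0]
  · obtain ⟨i₀, hi₀⟩ := hex
    have hi₀' : ∀ a, χ i₀ (iA a) = res a := by
      rcases hi₀ with h1 | h1
      · exact hs i₀ h1
      · exact ht i₀ h1
    let χ' : ι → R →+* k := fun i => if ∀ a, χ i (iA a) = res a then χ i else χ i₀
    have hχ' : ∀ i a, χ' i (iA a) = res a := by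
      intro i a
      by_cases hi : ∀ a, χ i (iA a) = res a
      · simp only [χ', if_pos hi]
        exact hi a
      · simp only [χ', if_neg hi]
        exact hi₀' a
    have es : ∀ i ∈ s, χ' i = χ i := fun i hi => by
      simp only [χ', if_pos (hs i hi)]
    have et : ∀ i ∈ t, χ' i = χ i := fun i hi => by
      simp only [χ', if_pos (ht i hi)]
    have h' : ∀ y : R, (s.map fun i => χ' i y).prod = (t.map fun i => χ' i y).prod := by
      intro y
      have e1 : (s.map fun i => χ' i y) = (s.map fun i => χ i y) :=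
        Multiset.map_congr rfl (fun i hi => by rw [es i hi])
      have e2 : (t.map fun i => χ' i y) = (t.map fun i => χ i y) :=
        Multiset.map_congr rfl (fun i hi => by rw [et i hi])
      rw [e1, e2]
      exact h y
    have key := map_eq_of_prod_eq iA res hres χ' hχ' s t h'
    rw [Multiset.map_congr rfl es, Multiset.map_congr rfl et] at key
    exact key

/-- **(M3')** as `sub_mem_closure_of_prod_eq`, the `A`-linearity being required only on `s`
and `t`. -/
theorem sub_mem_closure_of_prod_eq' (iA : A →+* R) (res : A →+* k)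
    (hres : Function.Surjective res) (χ : ι → R →+* k) (s t : Multiset ι)
    (hs : ∀ i ∈ s, ∀ a, χ i (iA a) = res a) (ht : ∀ i ∈ t, ∀ a, χ i (iA a) = res a)
    (h : ∀ y : R, (s.map fun i => χ i y).prod = (t.map fun i => χ i y).prod) :
    (s.map fun i => Finsupp.single i (1 : ℤ)).sum - (t.map fun i => Finsupp.single i (1 : ℤ)).sum ∈
      AddSubgroup.closure {d : ι →₀ ℤ | ∃ a ∈ s, ∃ b ∈ t, χ a = χ b ∧
        d = Finsupp.single a 1 - Finsupp.single b 1} :=
  sub_mem_closure_of_map_eq χ s t (map_eq_of_prod_eq' iA res hres χ s t hs ht h)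

end Relative

section Correspondence

variable {K F F' : Type*} [Field K] [Field F] [Field F'] [Algebra K F] [Algebra K F']
variable [HasPrincipalDivisors K F']

/-- The multiset of points of `ψ_* φ^* P`: for every place `W` of `F'` over `P` along `φ`, the
place `W|ψ` repeated `e_φ(W) * f_ψ(W)` times. -/
noncomputable def corrMultiset (φ ψ : F →ₐ[K] F') (hφ : φ.toRingHom.IsIntegral)
    (hψ : ψ.toRingHom.IsIntegral) (P : Place K F) : Multiset (Place K F) :=
  (Place.fiberAlong φ hφ P).val.bind fun W =>
    Multiset.replicate (W.ramificationIndexAlong φ * W.inertiaDegAlong ψ hψ)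
      (W.restrictAlong ψ hψ)

theorem mem_corrMultiset {φ ψ : F →ₐ[K] F'} {hφ : φ.toRingHom.IsIntegral}
    {hψ : ψ.toRingHom.IsIntegral} {P Q : Place K F} (h : Q ∈ corrMultiset φ ψ hφ hψ P) :
    ∃ W : Place K F', W.restrictAlong φ hφ = P ∧ W.restrictAlong ψ hψ = Q := by
  rw [corrMultiset, Multiset.mem_bind] at h
  obtain ⟨W, hW, hQ⟩ := h
  refine ⟨W, Place.mem_fiberAlong.mp hW, ?_⟩
  exact (Multiset.eq_of_mem_replicate hQ).symm

/-- `ψ_* φ^* P` is the sum of the points of `corrMultiset`. -/
theorem correspondence_single (φ ψ : F →ₐ[K] F') (hφ : φ.toRingHom.IsIntegral)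
    (hψ : ψ.toRingHom.IsIntegral) (P : Place K F) :
    Divisor.correspondence φ ψ hφ hψ (Finsupp.single P 1) =
      ((corrMultiset φ ψ hφ hψ P).map fun Q => Finsupp.single Q (1 : ℤ)).sum := by
  rw [Divisor.correspondence_apply, Divisor.pullbackAlong_single, map_sum, corrMultiset,
    Multiset.map_bind, Multiset.sum_bind, Finset.sum_eq_multiset_sum]
  refine congrArg Multiset.sum (Multiset.map_congr rfl fun W _ => ?_)
  rw [Divisor.pushforwardAlong_single, Multiset.map_replicate, Multiset.sum_replicate,
    Finsupp.smul_single, one_mul, nsmul_eq_mul, mul_one, Nat.cast_mul]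

/-- Products over `corrMultiset`. -/
theorem prod_map_corrMultiset {M : Type*} [CommMonoid M] (φ ψ : F →ₐ[K] F')
    (hφ : φ.toRingHom.IsIntegral) (hψ : ψ.toRingHom.IsIntegral) (P : Place K F)
    (g : Place K F → M) :
    ((corrMultiset φ ψ hφ hψ P).map g).prod =
      ∏ W ∈ Place.fiberAlong φ hφ P,
        g (W.restrictAlong ψ hψ) ^ (W.ramificationIndexAlong φ * W.inertiaDegAlong ψ hψ) := by
  rw [corrMultiset, Multiset.map_bind, Multiset.prod_bind, Finset.prod_eq_multiset_prod]
  refine congrArg Multiset.prod (Multiset.map_congr rfl fun W _ => ?_)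
  rw [Multiset.map_replicate, Multiset.prod_replicate]

variable {A R k : Type*} [CommRing A] [CommRing R] [Field k] [Infinite k]

/-- **Divisor-side glue of the congruence relation.** If the characters `χ Q` (`A`-linear for
the points involved) satisfy, for every `y`,
`∏_{W | P along φ} χ (W|ψ) y ^ (e_φ(W) f_ψ(W)) = ∏_{Q ∈ t} χ Q y`, then `ψ_* φ^* P - Σ_{Q ∈ t} Q`
is a sum of differences `a - b` of points with the same character, `a` a point of `ψ_* φ^* P`
and `b ∈ t`. -/
theorem correspondence_sub_mem_closure (φ ψ : F →ₐ[K] F') (hφ : φ.toRingHom.IsIntegral)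
    (hψ : ψ.toRingHom.IsIntegral) (P : Place K F)
    (iA : A →+* R) (res : A →+* k) (hres : Function.Surjective res)
    (χ : Place K F → R →+* k) (t : Multiset (Place K F))
    (hs : ∀ W : Place K F', W.restrictAlong φ hφ = P →
      ∀ a, χ (W.restrictAlong ψ hψ) (iA a) = res a)
    (ht : ∀ Q ∈ t, ∀ a, χ Q (iA a) = res a)
    (h : ∀ y : R, ∏ W ∈ Place.fiberAlong φ hφ P,
        χ (W.restrictAlong ψ hψ) y ^ (W.ramificationIndexAlong φ * W.inertiaDegAlong ψ hψ) =
      (t.map fun Q => χ Q y).prod) :
    Divisor.correspondence φ ψ hφ hψ (Finsupp.single P 1) -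
        (t.map fun Q => Finsupp.single Q (1 : ℤ)).sum ∈
      AddSubgroup.closure {d : Place K F →₀ ℤ |
        ∃ a ∈ corrMultiset φ ψ hφ hψ P, ∃ b ∈ t, χ a = χ b ∧
          d = Finsupp.single a 1 - Finsupp.single b 1} := by
  rw [correspondence_single]
  refine sub_mem_closure_of_prod_eq' iA res hres χ _ t ?_ ht ?_
  · intro Q hQ a
    obtain ⟨W, hWP, rfl⟩ := mem_corrMultiset hQ
    exact hs W hWP a
  · intro y
    rw [prod_map_corrMultiset φ ψ hφ hψ P (fun Q => χ Q y)]
    exact h y

/-- The same with `t = Q₁ + n • Q₂` (Eichler–Shimura shape: `Q₁ = Frob P`, `Q₂ = Frob⁻¹ P`,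
`n = ℓ`). -/
theorem correspondence_sub_mem_closure_pair (φ ψ : F →ₐ[K] F') (hφ : φ.toRingHom.IsIntegral)
    (hψ : ψ.toRingHom.IsIntegral) (P Q₁ Q₂ : Place K F) (n : ℕ)
    (iA : A →+* R) (res : A →+* k) (hres : Function.Surjective res)
    (χ : Place K F → R →+* k)
    (hs : ∀ W : Place K F', W.restrictAlong φ hφ = P →
      ∀ a, χ (W.restrictAlong ψ hψ) (iA a) = res a)
    (h₁ : ∀ a, χ Q₁ (iA a) = res a) (h₂ : ∀ a, χ Q₂ (iA a) = res a)
    (h : ∀ y : R, ∏ W ∈ Place.fiberAlong φ hφ P,
        χ (W.restrictAlong ψ hψ) y ^ (W.ramificationIndexAlong φ * W.inertiaDegAlong ψ hψ) =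
      χ Q₁ y * χ Q₂ y ^ n) :
    Divisor.correspondence φ ψ hφ hψ (Finsupp.single P 1) -
        Finsupp.single Q₁ 1 - n • Finsupp.single Q₂ (1 : ℤ) ∈
      AddSubgroup.closure {d : Place K F →₀ ℤ |
        ∃ a ∈ corrMultiset φ ψ hφ hψ P, ∃ b : Place K F, (b = Q₁ ∨ b = Q₂) ∧ χ a = χ b ∧
          d = Finsupp.single a 1 - Finsupp.single b 1} := by
  have key := correspondence_sub_mem_closure φ ψ hφ hψ P iA res hres χ
    (Q₁ ::ₘ Multiset.replicate n Q₂) hs
    (by
      intro Q hQ
      rcases Multiset.mem_cons.mp hQ with rfl | hQ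
      · exact h₁
      · rw [Multiset.eq_of_mem_replicate hQ]; exact h₂)
    (by
      intro y
      rw [h y, Multiset.map_cons, Multiset.prod_cons, Multiset.map_replicate,
        Multiset.prod_replicate])
  have e : ((Q₁ ::ₘ Multiset.replicate n Q₂).map fun Q => Finsupp.single Q (1 : ℤ)).sum =
      Finsupp.single Q₁ 1 + n • Finsupp.single Q₂ (1 : ℤ) := by
    rw [Multiset.map_cons, Multiset.sum_cons, Multiset.map_replicate, Multiset.sum_replicate]
  rw [e, ← sub_sub] at key
  refine AddSubgroup.closure_mono ?_ key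
  rintro d ⟨a, ha, b, hb, hab, rfl⟩
  refine ⟨a, ha, b, ?_, hab, rfl⟩
  rcases Multiset.mem_cons.mp hb with rfl | hb
  · exact Or.inl rfl
  · exact Or.inr (Multiset.eq_of_mem_replicate hb)

end Correspondence

end Fermat.Agent.S37.H96
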