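import Mathlib
import Fermat.Prelude.Def_AlgebraicCurve_Correspondence
import Fermat.Agent.S37.Gal_helper34
import Fermat.Agent.S37.CorrMultiset_helper96

/-!
# S37 node (ES), generic core (helper26)

The divisor form of the Eichler–Shimura congruence relation, for an arbitrary correspondence
`ψ_* φ^*` between function fields and an arbitrary chart ring `B`:

if for every `y ∈ B` the product of the values of `ψ y` over the places `W` above `P` along `φ`
(with multiplicity `e_φ(W)`) is congruent to `y(Q₁) * y(Q₂) ^ n` modulo the maximal ideal of the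
valuation ring `A` of the constant field, then `ψ_* φ^* P - Q₁ - n Q₂` is a sum of differences
`a - b` of `B`-finite places with the same residue character.

Everything is stated with the vocabulary of `Gal_helper34` (`EvalAt`, `IsFin`, `charOf`) and the
glue of `CorrMultiset_helper96`.
-/

set_option autoImplicit false

open AlgebraicCurve

namespace Fermat.Agent.S37.H26

open Fermat.Agent.S37

noncomputable section

section Core

variable {K F F' : Type*} [Field K] [Field F] [Field F'] [Algebra K F] [Algebra K F']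

/-- membership in the maximal ideal of the restricted place. -/
theorem mem_nonunits_restrictAlong_iff (ψ : F →ₐ[K] F') (hψ : ψ.toRingHom.IsIntegral)
    (W : Place K F') (x : F) :
    x ∈ (W.restrictAlong ψ hψ).toValuationSubring.nonunits ↔
      ψ x ∈ W.toValuationSubring.nonunits := by
  have hmem : ∀ z : F, z ∈ (W.restrictAlong ψ hψ).toValuationSubring ↔
      ψ z ∈ W.toValuationSubring := fun z => Iff.rfl
  rw [ValuationSubring.mem_nonunits_iff_or, ValuationSubring.mem_nonunits_iff_or, hmem,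
    map_inv₀, map_eq_zero]

/-- membership in the restricted place. -/
theorem mem_restrictAlong_iff (ψ : F →ₐ[K] F') (hψ : ψ.toRingHom.IsIntegral)
    (W : Place K F') (x : F) :
    x ∈ (W.restrictAlong ψ hψ).toValuationSubring ↔ ψ x ∈ W.toValuationSubring :=
  Iff.rfl

/-- The value of `y` at the restricted place `W|ψ` is the value of `ψ y` at `W`. -/
theorem evalAt_restrictAlong_iff (ψ : F →ₐ[K] F') (hψ : ψ.toRingHom.IsIntegral)
    (W : Place K F') (y : F) (c : K) :
    H34.EvalAt (W.restrictAlong ψ hψ) y c ↔ H34.EvalAt W (ψ y) c := by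
  unfold H34.EvalAt
  rw [mem_nonunits_restrictAlong_iff, map_sub, AlgHom.commutes]

variable [HasPrincipalDivisors K F']

/-- **(ES), generic core, product form.** -/
theorem es_core_prod (φ ψ : F →ₐ[K] F') (hφ : φ.toRingHom.IsIntegral)
    (hψ : ψ.toRingHom.IsIntegral) (A : ValuationSubring K)
    [Infinite (IsLocalRing.ResidueField A)]
    (B : Subring F) (hAB : ∀ a ∈ A, algebraMap K F a ∈ B)
    (P Q₁ Q₂ : Place K F) (n : ℕ)
    (hQ₁ : H34.IsFin A B Q₁) (hQ₂ : H34.IsFin A B Q₂)
    (hW : ∀ W : Place K F', W.restrictAlong φ hφ = P → H34.IsFin A B (W.restrictAlong ψ hψ))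
    (hinert : ∀ W : Place K F', W.restrictAlong φ hφ = P → W.inertiaDegAlong ψ hψ = 1)
    (hprod : ∀ y ∈ B, ∀ c : Place K F' → K,
      (∀ W ∈ Place.fiberAlong φ hφ P, H34.EvalAt W (ψ y) (c W)) →
      ∀ c₁ c₂ : K, H34.EvalAt Q₁ y c₁ → H34.EvalAt Q₂ y c₂ →
        (∏ W ∈ Place.fiberAlong φ hφ P, c W ^ W.ramificationIndexAlong φ) - c₁ * c₂ ^ n
          ∈ A.nonunits) :
    Divisor.correspondence φ ψ hφ hψ (Finsupp.single P 1) - Finsupp.single Q₁ 1
        - n • Finsupp.single Q₂ (1 : ℤ) ∈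
      AddSubgroup.closure {d : Place K F →₀ ℤ | ∃ a b : Place K F, (b = Q₁ ∨ b = Q₂) ∧
        (∃ W : Place K F', W.restrictAlong φ hφ = P ∧ W.restrictAlong ψ hψ = a) ∧
        H34.IsFin A B a ∧ H34.IsFin A B b ∧
        (∀ y ∈ B, ∀ c c' : K, H34.EvalAt a y c → H34.EvalAt b y c' → c - c' ∈ A.nonunits) ∧
        d = Finsupp.single a 1 - Finsupp.single b 1} := by
  classical
  -- the ring hom `A → B`
  let iA : ↥A →+* ↥B :=
    { toFun := fun a => ⟨algebraMap K F (a : K), hAB a a.2⟩
      map_one' := Subtype.ext (by simp)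
      map_mul' := fun a b => Subtype.ext (by simp)
      map_zero' := Subtype.ext (by simp)
      map_add' := fun a b => Subtype.ext (by simp) }
  -- the total family of characters
  let χ : Place K F → ↥B →+* IsLocalRing.ResidueField A := fun a =>
    if h : H34.IsFin A B a then H34.charOf h else H34.charOf hQ₁
  have hχ : ∀ (a : Place K F) (h : H34.IsFin A B a), χ a = H34.charOf h := fun a h => by
    simp only [χ, dif_pos h]
  have hχA : ∀ (a : Place K F) (_ : H34.IsFin A B a) (x : ↥A),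
      χ a (iA x) = IsLocalRing.residue ↥A x := fun a h x => by
    rw [hχ a h]
    exact H34.charOf_algebraMap h x (hAB x x.2)
  have key := H96.correspondence_sub_mem_closure_pair φ ψ hφ hψ P Q₁ Q₂ n iA
    (IsLocalRing.residue ↥A) IsLocalRing.residue_surjective χ
    (fun W hWP x => hχA _ (hW W hWP) x) (hχA Q₁ hQ₁) (hχA Q₂ hQ₂) ?_
  · refine AddSubgroup.closure_mono ?_ key
    rintro d ⟨a, ha, b, hb, hab, rfl⟩
    obtain ⟨W, hWP, hWa⟩ := H96.mem_corrMultiset ha
    have hfa : H34.IsFin A B a := hWa ▸ hW W hWP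
    have hfb : H34.IsFin A B b := by
      rcases hb with rfl | rfl
      · exact hQ₁
      · exact hQ₂
    refine ⟨a, b, hb, ⟨W, hWP, hWa⟩, hfa, hfb, ?_, rfl⟩
    rw [hχ a hfa, hχ b hfb] at hab
    exact (H34.charOf_eq_iff hfa hfb).mp hab
  · intro y
    -- the values of `ψ y` at the places above `P`
    let cA : Place K F' → ↥A := fun W =>
      if hWP : W.restrictAlong φ hφ = P then H34.valHom (hW W hWP) y else 0
    have h1 : ∀ W ∈ Place.fiberAlong φ hφ P, H34.EvalAt W (ψ (y : F)) ((cA W : ↥A) : K) := by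
      intro W hWmem
      have hWP : W.restrictAlong φ hφ = P := Place.mem_fiberAlong.mp hWmem
      simp only [cA, dif_pos hWP]
      exact (evalAt_restrictAlong_iff ψ hψ W (y : F) _).mp (H34.evalAt_valHom (hW W hWP) y)
    have h2 := hprod (y : F) y.2 (fun W => ((cA W : ↥A) : K)) h1 _ _
      (H34.evalAt_valHom hQ₁ y) (H34.evalAt_valHom hQ₂ y)
    have h3 : ∏ W ∈ Place.fiberAlong φ hφ P,
        χ (W.restrictAlong ψ hψ) y ^ (W.ramificationIndexAlong φ * W.inertiaDegAlong ψ hψ)
        = IsLocalRing.residue ↥A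
            (∏ W ∈ Place.fiberAlong φ hφ P, cA W ^ W.ramificationIndexAlong φ) := by
      rw [map_prod]
      refine Finset.prod_congr rfl fun W hWmem => ?_
      have hWP : W.restrictAlong φ hφ = P := Place.mem_fiberAlong.mp hWmem
      rw [hinert W hWP, mul_one, hχ _ (hW W hWP), map_pow, H34.charOf_apply]
      simp only [cA, dif_pos hWP]
    rw [h3, hχ Q₁ hQ₁, hχ Q₂ hQ₂, H34.charOf_apply, H34.charOf_apply, ← map_pow, ← map_mul,
      H34.residue_eq_residue_iff]
    push_cast
    exact h2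

/-- **(ES), generic core.**  `hval` is the norm specialisation (VAL) along `φ` at `P`;
`hcong` is the congruence (ES-val) for the norm of `ψ y`. -/
theorem es_core (φ ψ : F →ₐ[K] F') (hφ : φ.toRingHom.IsIntegral)
    (hψ : ψ.toRingHom.IsIntegral) (A : ValuationSubring K)
    [Infinite (IsLocalRing.ResidueField A)]
    (B : Subring F) (hAB : ∀ a ∈ A, algebraMap K F a ∈ B)
    (P Q₁ Q₂ : Place K F) (n : ℕ)
    (hQ₁ : H34.IsFin A B Q₁) (hQ₂ : H34.IsFin A B Q₂)
    (hW : ∀ W : Place K F', W.restrictAlong φ hφ = P → H34.IsFin A B (W.restrictAlong ψ hψ))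
    (hinert : ∀ W : Place K F', W.restrictAlong φ hφ = P → W.inertiaDegAlong ψ hψ = 1)
    (hval : ∀ y ∈ B, ∀ c : Place K F' → K,
      (∀ W ∈ Place.fiberAlong φ hφ P, H34.EvalAt W (ψ y) (c W)) →
      H34.EvalAt P (letI := algebraAlong φ; Algebra.norm F (ψ y))
        (∏ W ∈ Place.fiberAlong φ hφ P, c W ^ W.ramificationIndexAlong φ))
    (hcong : ∀ y ∈ B, ∀ c₀ c₁ c₂ : K,
      H34.EvalAt P (letI := algebraAlong φ; Algebra.norm F (ψ y)) c₀ →
      H34.EvalAt Q₁ y c₁ → H34.EvalAt Q₂ y c₂ → c₀ - c₁ * c₂ ^ n ∈ A.nonunits) :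
    Divisor.correspondence φ ψ hφ hψ (Finsupp.single P 1) - Finsupp.single Q₁ 1
        - n • Finsupp.single Q₂ (1 : ℤ) ∈
      AddSubgroup.closure {d : Place K F →₀ ℤ | ∃ a b : Place K F, (b = Q₁ ∨ b = Q₂) ∧
        (∃ W : Place K F', W.restrictAlong φ hφ = P ∧ W.restrictAlong ψ hψ = a) ∧
        H34.IsFin A B a ∧ H34.IsFin A B b ∧
        (∀ y ∈ B, ∀ c c' : K, H34.EvalAt a y c → H34.EvalAt b y c' → c - c' ∈ A.nonunits) ∧
        d = Finsupp.single a 1 - Finsupp.single b 1} :=
  es_core_prod φ ψ hφ hψ A B hAB P Q₁ Q₂ n hQ₁ hQ₂ hW hinert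
    (fun y hy c hc c₁ c₂ h₁ h₂ => hcong y hy _ c₁ c₂ (hval y hy c hc) h₁ h₂)

end Core

end

end Fermat.Agent.S37.H26
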