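import Mathlib

/-!
# S37, node (TRANSFER): the interface-free algebra of the chart comparison `j ↔ t_M` (M = 2, 3)

Everything here is plain commutative algebra over Mathlib.

* `isIntegralElem_trans`, `exists_pow_mul_isIntegralElem` : transitivity of "integral over `A[x]`"
  in the ring-hom form `(Polynomial.eval₂RingHom ψ x).IsIntegralElem y`, and the denominator
  clearing lemma `y` integral over `A[v]`, `s`, `s * v` integral over `A[u]` ⟹ `s ^ D * y`
  integral over `A[u]`.
* `two_*`, `three_*` : for `t, j` with the Hauptmodul relation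
  `t ^ 3 + (768 - j) * t ^ 2 + 196608 * t + 16777216 = 0` (resp. the degree four relation for
  `M = 3`): `t`, `t⁻¹` are integral over `A[j]`, `z = t / (t + 256)` is integral over `A[j⁻¹]`,
  and for every `y'` integral over `A[t]` (resp. `A[t⁻¹]`) there is `Y` integral over `A[j⁻¹]`
  which is `≡ y'` on the disc `t ≡ 0` (resp. `t ≡ ∞`) and `≡ 1` on the other disc, for every
  valuation subring in which `j⁻¹` is a nonunit.
* `compVal` : the composite of a degree one valuation subring `W` of `E ⊇ K` with a valuation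
  subring `A` of `K`: "`y` has a value in `A` at `W`".
-/

set_option autoImplicit false
set_option linter.style.haveILetI false

open Polynomial

namespace Fermat.Agent.S37.H59

/-! ## Generic integrality lemmas in ring-hom form -/

section Generic

variable {R S : Type*} [CommRing R] [CommRing S]

/-- A root of a monic polynomial all of whose coefficients are `f`-integral is `f`-integral. -/
theorem isIntegralElem_of_coeff (f : R →+* S) {z : S} (q : S[X]) (hq : q.Monic)
    (hz : q.eval z = 0) (hc : ∀ n, f.IsIntegralElem (q.coeff n)) : f.IsIntegralElem z := by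
  letI : Algebra R S := f.toAlgebra
  have hl : q ∈ lifts (algebraMap (integralClosure R S) S) := by
    rw [lifts_iff_coeff_lifts]
    intro n
    exact ⟨⟨q.coeff n, hc n⟩, rfl⟩
  obtain ⟨Q, hQ, -, hQm⟩ := lifts_and_natDegree_eq_and_monic hl hq
  have hI : IsIntegral (integralClosure R S) z := by
    refine ⟨Q, hQm, ?_⟩
    rw [← eval_map, hQ]
    exact hz
  exact isIntegral_trans z hI

variable {A E : Type*} [CommRing A] [CommRing E] (ψ : A →+* E)

/-- Constants are integral over `A[u]`. -/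
theorem isIntegralElem_const (u : E) (a : A) : (eval₂RingHom ψ u).IsIntegralElem (ψ a) := by
  have h := RingHom.isIntegralElem_map (f := eval₂RingHom ψ u) (x := C a)
  rwa [coe_eval₂RingHom, eval₂_C] at h

/-- The coordinate is integral over `A[u]`. -/
theorem isIntegralElem_self (u : E) : (eval₂RingHom ψ u).IsIntegralElem u := by
  have h := RingHom.isIntegralElem_map (f := eval₂RingHom ψ u) (x := X)
  rwa [coe_eval₂RingHom, eval₂_X] at h

/-- A polynomial expression in an `A[u]`-integral element is `A[u]`-integral. -/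
theorem isIntegralElem_eval₂ {u x : E} (hx : (eval₂RingHom ψ u).IsIntegralElem x) (p : A[X]) :
    (eval₂RingHom ψ u).IsIntegralElem (eval₂ ψ x p) := by
  induction p using Polynomial.induction_on' with
  | add p q hp hq =>
    rw [eval₂_add]
    exact RingHom.IsIntegralElem.add _ hp hq
  | monomial n a =>
    rw [eval₂_monomial]
    refine RingHom.IsIntegralElem.mul _ (isIntegralElem_const ψ u a) ?_
    clear a
    induction n with
    | zero => rw [pow_zero]; exact RingHom.isIntegralElem_one _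
    | succ n ih => rw [pow_succ]; exact RingHom.IsIntegralElem.mul _ ih hx

theorem isIntegralElem_pow {u x : E} (hx : (eval₂RingHom ψ u).IsIntegralElem x) (n : ℕ) :
    (eval₂RingHom ψ u).IsIntegralElem (x ^ n) := by
  induction n with
  | zero => rw [pow_zero]; exact RingHom.isIntegralElem_one _
  | succ n ih => rw [pow_succ]; exact RingHom.IsIntegralElem.mul _ ih hx

/-- Transitivity: `x` integral over `A[u]`, `y` integral over `A[x]` ⟹ `y` integral over `A[u]`. -/
theorem isIntegralElem_trans {u x y : E} (hx : (eval₂RingHom ψ u).IsIntegralElem x)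
    (hy : (eval₂RingHom ψ x).IsIntegralElem y) : (eval₂RingHom ψ u).IsIntegralElem y := by
  obtain ⟨p, hp, hpy⟩ := hy
  refine isIntegralElem_of_coeff _ (p.map (eval₂RingHom ψ x)) (hp.map _) ?_ ?_
  · rw [eval_map]; exact hpy
  · intro n
    rw [coeff_map, coe_eval₂RingHom]
    exact isIntegralElem_eval₂ ψ hx _

/-- Denominator clearing: if `s` and `s * v` are integral over `A[u]` and `y` is integral over
`A[v]`, then `s ^ D * y` is integral over `A[u]` for some `D`. -/
theorem exists_pow_mul_isIntegralElem [Nontrivial E] {u v s y : E}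
    (hs : (eval₂RingHom ψ u).IsIntegralElem s)
    (hsv : (eval₂RingHom ψ u).IsIntegralElem (s * v))
    (hy : (eval₂RingHom ψ v).IsIntegralElem y) :
    ∃ D : ℕ, (eval₂RingHom ψ u).IsIntegralElem (s ^ D * y) := by
  -- `s ^ e * a(v)` is integral over `A[u]` as soon as `deg a ≤ e`
  have key : ∀ (a : A[X]) (e : ℕ), a.natDegree ≤ e →
      (eval₂RingHom ψ u).IsIntegralElem (eval₂ ψ v a * s ^ e) := by
    intro a e hae
    rw [eval₂_eq_sum_range, Finset.sum_mul]
    have hsum : ∀ (t : Finset ℕ) (g : ℕ → E), (∀ i ∈ t, (eval₂RingHom ψ u).IsIntegralElem (g i)) →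
        (eval₂RingHom ψ u).IsIntegralElem (∑ i ∈ t, g i) := by
      intro t g
      induction t using Finset.induction_on with
      | empty => intro _; rw [Finset.sum_empty]; exact RingHom.isIntegralElem_zero _
      | insert i t hi ih =>
        intro h
        rw [Finset.sum_insert hi]
        exact RingHom.IsIntegralElem.add _ (h i (Finset.mem_insert_self i t))
          (ih fun k hk => h k (Finset.mem_insert_of_mem hk))
    refine hsum _ _ fun k hk => ?_
    have hk' : k ≤ e := (Nat.lt_succ_iff.mp (Finset.mem_range.mp hk)).trans hae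
    have : ψ (a.coeff k) * v ^ k * s ^ e = ψ (a.coeff k) * ((s * v) ^ k * s ^ (e - k)) := by
      rw [mul_pow, ← pow_sub_mul_pow s hk']; ring
    rw [this]
    exact RingHom.IsIntegralElem.mul _ (isIntegralElem_const ψ u _)
      (RingHom.IsIntegralElem.mul _ (isIntegralElem_pow ψ hsv k) (isIntegralElem_pow ψ hs _))
  obtain ⟨p, hp, hpy⟩ := hy
  set d : ℕ := (Finset.range (p.natDegree + 1)).sup fun i => (p.coeff i).natDegree with hd
  have hdeg : ∀ i, (p.coeff i).natDegree ≤ d := by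
    intro i
    by_cases hi : i ∈ Finset.range (p.natDegree + 1)
    · exact Finset.le_sup (f := fun i => (p.coeff i).natDegree) hi
    · rw [Finset.mem_range, not_lt] at hi
      rw [coeff_eq_zero_of_natDegree_lt hi, natDegree_zero]
      exact Nat.zero_le _
  refine ⟨d, ?_⟩
  have hpm : (p.map (eval₂RingHom ψ v)).Monic := hp.map _
  have hnd : (p.map (eval₂RingHom ψ v)).natDegree = p.natDegree := hp.natDegree_map _
  refine isIntegralElem_of_coeff _ (scaleRoots (p.map (eval₂RingHom ψ v)) (s ^ d))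
    ((monic_scaleRoots_iff _).mpr hpm) ?_ ?_
  · have h := scaleRoots_eval₂_mul (p := p.map (eval₂RingHom ψ v)) (RingHom.id E) y (s ^ d)
    rw [eval₂_id, eval₂_id, RingHom.id_apply, eval_map] at h
    rw [h]
    rw [show eval₂ (eval₂RingHom ψ v) y p = 0 from hpy, mul_zero]
  · intro n
    rw [coeff_scaleRoots, hnd, coeff_map, coe_eval₂RingHom]
    rcases lt_trichotomy n p.natDegree with hn | hn | hn
    · rw [← pow_mul]
      refine key _ _ ((hdeg n).trans ?_)
      exact Nat.le_mul_of_pos_right d (Nat.sub_pos_of_lt hn)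
    · rw [hn, Nat.sub_self, pow_zero, mul_one]
      have h1 : p.coeff p.natDegree = 1 := hp
      rw [h1, eval₂_one]
      exact RingHom.isIntegralElem_one _
    · rw [coeff_eq_zero_of_natDegree_lt hn, eval₂_zero, zero_mul]
      exact RingHom.isIntegralElem_zero _

/-- Bridge to the `Algebra.adjoin` form of "integral over `A[x]`" (the form of the S18 charts). -/
theorem isIntegralElem_iff_isIntegral_adjoin {A E : Type*} [CommRing A] [CommRing E]
    [Algebra A E] {x y : E} :
    (eval₂RingHom (algebraMap A E) x).IsIntegralElem y ↔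
      IsIntegral (Algebra.adjoin A {x}) y := by
  constructor
  · rintro ⟨p, hp, hpy⟩
    let g : A[X] →+* Algebra.adjoin A {x} :=
      (aeval (R := A) (⟨x, Algebra.subset_adjoin (Set.mem_singleton x)⟩ :
        Algebra.adjoin A {x})).toRingHom
    have hg : (algebraMap (Algebra.adjoin A {x}) E).comp g = eval₂RingHom (algebraMap A E) x := by
      refine Polynomial.ringHom_ext (fun a => ?_) ?_
      · simp only [g, RingHom.comp_apply, AlgHom.toRingHom_eq_coe, RingHom.coe_coe, aeval_C,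
          coe_eval₂RingHom, eval₂_C]
        rfl
      · simp only [g, RingHom.comp_apply, AlgHom.toRingHom_eq_coe, RingHom.coe_coe, aeval_X,
          coe_eval₂RingHom, eval₂_X]
        rfl
    refine ⟨p.map g, hp.map g, ?_⟩
    rw [eval₂_map, hg]
    exact hpy
  · rintro ⟨P, hP, hPy⟩
    refine isIntegralElem_of_coeff _ (P.map (algebraMap (Algebra.adjoin A {x}) E)) (hP.map _)
      ?_ ?_
    · rw [eval_map]; exact hPy
    · intro n
      rw [coeff_map]
      have hmem : ∀ w ∈ Algebra.adjoin A {x},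
          (eval₂RingHom (algebraMap A E) x).IsIntegralElem w := by
        intro w hw
        rw [Algebra.adjoin_singleton_eq_range_aeval] at hw
        obtain ⟨q, rfl⟩ := hw
        have h := RingHom.isIntegralElem_map (f := eval₂RingHom (algebraMap A E) x) (x := q)
        rw [coe_eval₂RingHom] at h
        rw [AlgHom.toRingHom_eq_coe, RingHom.coe_coe, aeval_def]
        exact h
      exact hmem _ (P.coeff n).2

end Generic

/-! ## Valuation subrings: closure properties of the nonunits -/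

section Val

variable {E : Type*} [Field E] (O : ValuationSubring E)

theorem nu_mem {x : E} (hx : x ∈ O.nonunits) : x ∈ O := O.nonunits_subset hx

theorem nu_zero : (0 : E) ∈ O.nonunits := by
  rw [ValuationSubring.mem_nonunits_iff, map_zero]
  exact zero_lt_one

theorem nu_add {x y : E} (hx : x ∈ O.nonunits) (hy : y ∈ O.nonunits) : x + y ∈ O.nonunits := by
  rw [ValuationSubring.mem_nonunits_iff] at *
  exact lt_of_le_of_lt (O.valuation.map_add x y) (max_lt hx hy)

theorem nu_neg {x : E} (hx : x ∈ O.nonunits) : -x ∈ O.nonunits := by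
  rw [ValuationSubring.mem_nonunits_iff] at *
  rwa [Valuation.map_neg]

theorem nu_sub {x y : E} (hx : x ∈ O.nonunits) (hy : y ∈ O.nonunits) : x - y ∈ O.nonunits := by
  rw [sub_eq_add_neg]
  exact nu_add O hx (nu_neg O hy)

theorem nu_mul {x y : E} (hx : x ∈ O) (hy : y ∈ O.nonunits) : x * y ∈ O.nonunits := by
  rw [ValuationSubring.mem_nonunits_iff] at *
  rw [map_mul]
  have hx' := (O.valuation_le_one_iff x).mpr hx
  calc O.valuation x * O.valuation y ≤ 1 * O.valuation y := mul_le_mul' hx' le_rfl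
    _ = O.valuation y := one_mul _
    _ < 1 := hy

theorem nu_mul' {x y : E} (hx : x ∈ O.nonunits) (hy : y ∈ O) : x * y ∈ O.nonunits := by
  rw [mul_comm]
  exact nu_mul O hy hx

theorem nu_prime {x y : E} (hxy : x * y ∈ O.nonunits) (hx : x ∈ O) (hy : y ∈ O) :
    x ∈ O.nonunits ∨ y ∈ O.nonunits := by
  by_contra h
  rw [not_or, ValuationSubring.mem_nonunits_iff, ValuationSubring.mem_nonunits_iff,
    not_lt, not_lt] at h
  rw [ValuationSubring.mem_nonunits_iff] at hxy
  have hx1 : O.valuation x = 1 := le_antisymm ((O.valuation_le_one_iff x).mpr hx) h.1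
  have hy1 : O.valuation y = 1 := le_antisymm ((O.valuation_le_one_iff y).mpr hy) h.2
  rw [map_mul, hx1, hy1, one_mul] at hxy
  exact lt_irrefl _ hxy

/-- `1 - x` is a unit when `x` is a nonunit. -/
theorem one_sub_unit {x : E} (hx : x ∈ O.nonunits) :
    1 - x ≠ 0 ∧ 1 - x ∈ O ∧ (1 - x)⁻¹ ∈ O := by
  rw [ValuationSubring.mem_nonunits_iff] at hx
  have h1 : O.valuation (1 - x) = 1 := Valuation.map_one_sub_of_lt _ hx
  refine ⟨?_, ?_, ?_⟩
  · intro h0
    rw [h0, map_zero] at h1
    exact zero_ne_one h1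
  · exact (O.valuation_le_one_iff _).mp h1.le
  · refine (O.valuation_le_one_iff _).mp ?_
    rw [map_inv₀, h1, inv_one]

/-- A root of a monic polynomial with coefficients in `O` lies in `O`. -/
theorem mem_of_monic_root {z : E} (q : E[X]) (hq : q.Monic) (hz : q.eval z = 0)
    (hc : ∀ n, q.coeff n ∈ O) : z ∈ O := by
  have hl : q ∈ lifts (algebraMap O E) := by
    rw [lifts_iff_coeff_lifts]
    intro n
    exact ⟨⟨q.coeff n, hc n⟩, rfl⟩
  obtain ⟨Q, hQ, -, hQm⟩ := lifts_and_natDegree_eq_and_monic hl hq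
  have hI : IsIntegral O z := by
    refine ⟨Q, hQm, ?_⟩
    rw [← eval_map, hQ]
    exact hz
  obtain ⟨y, hy⟩ := IsIntegrallyClosed.isIntegral_iff.mp hI
  rw [← hy]
  exact y.2

variable {A : Type*} [CommRing A] (ψ : A →+* E)

theorem eval₂_mem {x : E} (hA : ∀ a, ψ a ∈ O) (hx : x ∈ O) (p : A[X]) : eval₂ ψ x p ∈ O := by
  rw [eval₂_eq_sum_range]
  exact sum_mem fun i _ => mul_mem (hA _) (pow_mem hx i)

/-- `O` is integrally closed: integral over `A[x]` with `A → O`, `x ∈ O` implies `∈ O`. -/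
theorem mem_of_isIntegralElem (hA : ∀ a, ψ a ∈ O) {x y : E} (hx : x ∈ O)
    (hy : (eval₂RingHom ψ x).IsIntegralElem y) : y ∈ O := by
  obtain ⟨p, hp, hpy⟩ := hy
  refine mem_of_monic_root O (p.map (eval₂RingHom ψ x)) (hp.map _) ?_ ?_
  · rw [eval_map]; exact hpy
  · intro n
    rw [coeff_map, coe_eval₂RingHom]
    exact eval₂_mem O ψ hA hx _

end Val

/-! ## The chart comparison core, generic in the relation -/

section Core

variable {A E : Type*} [CommRing A] [Field E] (ψ : A →+* E)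

/-- Disc at `0`: `z ≡ 0` forces `t ≡ 0`. -/
theorem core_disc_zero {t z : E} {m : A} (hrel : t * (1 - z) = ψ m * z)
    (O : ValuationSubring E) (hA : ∀ a, ψ a ∈ O) (hz : z ∈ O.nonunits) : t ∈ O.nonunits := by
  obtain ⟨h0, -, hinv⟩ := one_sub_unit O hz
  have ht : t = ψ m * (1 - z)⁻¹ * z := by
    field_simp
    linear_combination hrel
  rw [ht]
  exact nu_mul O (mul_mem (hA m) hinv) hz

/-- Disc at `∞`: `z ≡ 1` forces `t⁻¹ ≡ 0`. -/
theorem core_disc_one {t z : E} {m m' : A} (hrel : t * (1 - z) = ψ m * z)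
    (hm : ψ m' * ψ m = 1)
    (O : ValuationSubring E) (hA : ∀ a, ψ a ∈ O) (hz : 1 - z ∈ O.nonunits) :
    t⁻¹ ∈ O.nonunits := by
  obtain ⟨h0, -, hinv⟩ := one_sub_unit O hz
  rw [sub_sub_cancel] at h0 hinv
  have hti : t⁻¹ = (1 - z) * (ψ m' * z⁻¹) := by
    have h1 : t * ((1 - z) * (ψ m' * z⁻¹)) = 1 := by
      have hz1 : z * z⁻¹ = 1 := mul_inv_cancel₀ h0
      linear_combination (ψ m' * z⁻¹) * hrel + z * z⁻¹ * hm + hz1
    exact (eq_inv_of_mul_eq_one_right h1).symm
  rw [hti]
  exact nu_mul' O hz (mul_mem (hA m') hinv)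

variable {t z ji : E} {m m' : A}

/-- Chart `U` (coordinate `t`): every `y'` integral over `A[t]` is matched by a `Y` integral
over `A[ji]` with `Y ≡ y'` on the disc `t ≡ 0` and `Y ≡ 1` on the disc `t ≡ ∞`. -/
theorem core_U (hz : (eval₂RingHom ψ ji).IsIntegralElem z)
    (hrel : t * (1 - z) = ψ m * z) (hm : ψ m' * ψ m = 1)
    (hdich : ∀ O : ValuationSubring E, (∀ a, ψ a ∈ O) → ji ∈ O.nonunits →
      z ∈ O.nonunits ∨ 1 - z ∈ O.nonunits)
    {y' : E} (hy' : (eval₂RingHom ψ t).IsIntegralElem y') :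
    ∃ Y : E, (eval₂RingHom ψ ji).IsIntegralElem Y ∧
      ∀ O : ValuationSubring E, (∀ a, ψ a ∈ O) → ji ∈ O.nonunits →
        (t ∈ O.nonunits ∧ y' ∈ O ∧ Y - y' ∈ O.nonunits) ∨
        (t⁻¹ ∈ O.nonunits ∧ Y - 1 ∈ O.nonunits) := by
  have h1z : (eval₂RingHom ψ z).IsIntegralElem (1 - z) :=
    RingHom.IsIntegralElem.sub _ (RingHom.isIntegralElem_one _) (isIntegralElem_self ψ z)
  have hsv : (eval₂RingHom ψ z).IsIntegralElem ((1 - z) * t) := by
    rw [mul_comm, hrel]
    exact RingHom.IsIntegralElem.mul _ (isIntegralElem_const ψ z m) (isIntegralElem_self ψ z)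
  obtain ⟨D, hD⟩ := exists_pow_mul_isIntegralElem ψ h1z hsv hy'
  have hD' : (eval₂RingHom ψ ji).IsIntegralElem ((1 - z) ^ D * y') :=
    isIntegralElem_trans ψ hz hD
  have h1z' : (eval₂RingHom ψ ji).IsIntegralElem (1 - z) :=
    RingHom.IsIntegralElem.sub _ (RingHom.isIntegralElem_one _) hz
  refine ⟨z + (1 - z) * ((1 - z) ^ D * y'),
    RingHom.IsIntegralElem.add _ hz (RingHom.IsIntegralElem.mul _ h1z' hD'), ?_⟩
  intro O hA hji
  have hzO : z ∈ O := mem_of_isIntegralElem O ψ hA (nu_mem O hji) hz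
  rcases hdich O hA hji with h0 | h1
  · left
    have htn : t ∈ O.nonunits := core_disc_zero ψ hrel O hA h0
    have hyO : y' ∈ O := mem_of_isIntegralElem O ψ hA (nu_mem O htn) hy'
    refine ⟨htn, hyO, ?_⟩
    have hg := geom_sum_mul (1 - z) (D + 1)
    have hid : z + (1 - z) * ((1 - z) ^ D * y') - y'
        = z * (1 - (∑ i ∈ Finset.range (D + 1), (1 - z) ^ i) * y') := by
      linear_combination (-y') * hg
    rw [hid]
    refine nu_mul' O h0 (sub_mem O.one_mem (mul_mem (sum_mem fun i _ => pow_mem ?_ i) hyO))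
    exact sub_mem O.one_mem hzO
  · right
    refine ⟨core_disc_one ψ hrel hm O hA h1, ?_⟩
    have hDO : (1 - z) ^ D * y' ∈ O := mem_of_isIntegralElem O ψ hA hzO hD
    have hid : z + (1 - z) * ((1 - z) ^ D * y') - 1 = (1 - z) * ((1 - z) ^ D * y' - 1) := by
      ring
    rw [hid]
    exact nu_mul' O h1 (sub_mem hDO O.one_mem)

/-- Chart `V` (coordinate `t⁻¹`): every `y'` integral over `A[t⁻¹]` is matched by a `Y`
integral over `A[ji]` with `Y ≡ y'` on the disc `t ≡ ∞` and `Y ≡ 1` on the disc `t ≡ 0`. -/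
theorem core_V (hz : (eval₂RingHom ψ ji).IsIntegralElem z)
    (hrel : t * (1 - z) = ψ m * z) (hm : ψ m' * ψ m = 1) (ht : t ≠ 0)
    (hdich : ∀ O : ValuationSubring E, (∀ a, ψ a ∈ O) → ji ∈ O.nonunits →
      z ∈ O.nonunits ∨ 1 - z ∈ O.nonunits)
    {y' : E} (hy' : (eval₂RingHom ψ t⁻¹).IsIntegralElem y') :
    ∃ Y : E, (eval₂RingHom ψ ji).IsIntegralElem Y ∧
      ∀ O : ValuationSubring E, (∀ a, ψ a ∈ O) → ji ∈ O.nonunits →
        (t⁻¹ ∈ O.nonunits ∧ y' ∈ O ∧ Y - y' ∈ O.nonunits) ∨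
        (t ∈ O.nonunits ∧ Y - 1 ∈ O.nonunits) := by
  have hzz : (eval₂RingHom ψ z).IsIntegralElem z := isIntegralElem_self ψ z
  have h1z : (eval₂RingHom ψ z).IsIntegralElem (1 - z) :=
    RingHom.IsIntegralElem.sub _ (RingHom.isIntegralElem_one _) hzz
  have hzt : z * t⁻¹ = ψ m' * (1 - z) := by
    have h1 : t * t⁻¹ = 1 := mul_inv_cancel₀ ht
    linear_combination (-(z * t⁻¹)) * hm - (ψ m' * t⁻¹) * hrel + ψ m' * (1 - z) * h1
  have hsv : (eval₂RingHom ψ z).IsIntegralElem (z * t⁻¹) := by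
    rw [hzt]
    exact RingHom.IsIntegralElem.mul _ (isIntegralElem_const ψ z m') h1z
  obtain ⟨D, hD⟩ := exists_pow_mul_isIntegralElem ψ hzz hsv hy'
  have hD' : (eval₂RingHom ψ ji).IsIntegralElem (z ^ D * y') := isIntegralElem_trans ψ hz hD
  have h1z' : (eval₂RingHom ψ ji).IsIntegralElem (1 - z) :=
    RingHom.IsIntegralElem.sub _ (RingHom.isIntegralElem_one _) hz
  refine ⟨(1 - z) + z * (z ^ D * y'),
    RingHom.IsIntegralElem.add _ h1z' (RingHom.IsIntegralElem.mul _ hz hD'), ?_⟩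
  intro O hA hji
  have hzO : z ∈ O := mem_of_isIntegralElem O ψ hA (nu_mem O hji) hz
  rcases hdich O hA hji with h0 | h1
  · right
    refine ⟨core_disc_zero ψ hrel O hA h0, ?_⟩
    have hDO : z ^ D * y' ∈ O := mem_of_isIntegralElem O ψ hA hzO hD
    have hid : (1 - z) + z * (z ^ D * y') - 1 = z * (z ^ D * y' - 1) := by ring
    rw [hid]
    exact nu_mul' O h0 (sub_mem hDO O.one_mem)
  · left
    have htn : t⁻¹ ∈ O.nonunits := core_disc_one ψ hrel hm O hA h1
    have hyO : y' ∈ O := mem_of_isIntegralElem O ψ hA (nu_mem O htn) hy'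
    refine ⟨htn, hyO, ?_⟩
    have hg := geom_sum_mul z (D + 1)
    have hid : (1 - z) + z * (z ^ D * y') - y'
        = (1 - z) * (1 - (∑ i ∈ Finset.range (D + 1), z ^ i) * y') := by
      linear_combination (-y') * hg
    rw [hid]
    exact nu_mul' O h1 (sub_mem O.one_mem (mul_mem (sum_mem fun i _ => pow_mem hzO i) hyO))

end Core

/-! ## `M = 2` : `j * t ^ 2 = (t + 256) ^ 3` -/

section Two

variable {A E : Type*} [CommRing A] [Field E] (ψ : A →+* E) {c : A} {t j : E}

theorem two_pow8 (h2 : ψ c * 2 = 1) : ψ (c ^ 8) * ψ 256 = 1 := by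
  have h := congrArg (fun x => x ^ 8) h2
  simp only [mul_pow, one_pow] at h
  rw [map_pow, map_ofNat]
  norm_num at h
  exact h

theorem two_pow24 (h2 : ψ c * 2 = 1) : ψ c ^ 24 * 16777216 = 1 := by
  have h := congrArg (fun x => x ^ 24) h2
  simp only [mul_pow, one_pow] at h
  norm_num at h
  exact h

theorem two_t_ne_zero (h2 : ψ c * 2 = 1)
    (hrel : t ^ 3 + (768 - j) * t ^ 2 + 196608 * t + 16777216 = 0) : t ≠ 0 := by
  intro h
  have hk := two_pow24 ψ h2
  rw [h] at hrel
  have h0 : (16777216 : E) = 0 := by linear_combination hrel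
  rw [h0, mul_zero] at hk
  exact zero_ne_one hk

theorem two_add_ne_zero (h2 : ψ c * 2 = 1)
    (hrel : t ^ 3 + (768 - j) * t ^ 2 + 196608 * t + 16777216 = 0) (hj : j ≠ 0) :
    t + 256 ≠ 0 := by
  intro h
  have h3 : j * t ^ 2 = (t + 256) ^ 3 := by linear_combination (-1 : E) * hrel
  rw [h] at h3
  have h4 : j * t ^ 2 = 0 := by rw [h3]; ring
  rcases mul_eq_zero.mp h4 with h5 | h5
  · exact hj h5
  · exact two_t_ne_zero ψ h2 hrel (pow_eq_zero_iff (two_ne_zero) |>.mp h5)

/-- The monic form of the Hauptmodul relation from the product form. -/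
theorem two_rel_of_prod (h : j * t ^ 2 = (t + 256) ^ 3) :
    t ^ 3 + (768 - j) * t ^ 2 + 196608 * t + 16777216 = 0 := by
  linear_combination (-1 : E) * h

/-- The relation `z ^ 3 - z ^ 2 + 256 / j = 0` for `z = t / (t + 256)`. -/
theorem two_z_rel (h2 : ψ c * 2 = 1)
    (hrel : t ^ 3 + (768 - j) * t ^ 2 + 196608 * t + 16777216 = 0) (hj : j ≠ 0) :
    (t / (t + 256)) ^ 3 - (t / (t + 256)) ^ 2 + 256 * j⁻¹ = 0 := by
  have hw := two_add_ne_zero ψ h2 hrel hj
  have hzw : t / (t + 256) * (t + 256) = t := div_mul_cancel₀ t hw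
  have hjj : j⁻¹ * j = 1 := inv_mul_cancel₀ hj
  have hne : (t + 256) ^ 3 * j ≠ 0 := mul_ne_zero (pow_ne_zero 3 hw) hj
  refine (mul_eq_zero.mp ?_).resolve_right hne
  generalize t / (t + 256) = z at hzw
  generalize j⁻¹ = ji at hjj
  linear_combination (j * ((z * (t + 256)) ^ 2 + z * (t + 256) * t + t ^ 2)
    - j * (t + 256) * (z * (t + 256) + t)) * hzw + 256 * (t + 256) ^ 3 * hjj + 256 * hrel

theorem two_rel' (h2 : ψ c * 2 = 1)
    (hrel : t ^ 3 + (768 - j) * t ^ 2 + 196608 * t + 16777216 = 0) (hj : j ≠ 0) :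
    t * (1 - t / (t + 256)) = ψ 256 * (t / (t + 256)) := by
  have hw := two_add_ne_zero ψ h2 hrel hj
  have hzw : t / (t + 256) * (t + 256) = t := div_mul_cancel₀ t hw
  rw [map_ofNat]
  linear_combination (-1 : E) * hzw

/-- `t` is integral over `A[j]`. -/
theorem two_t_integral (hrel : t ^ 3 + (768 - j) * t ^ 2 + 196608 * t + 16777216 = 0) :
    (eval₂RingHom ψ j).IsIntegralElem t := by
  refine ⟨X ^ 3 + (C (C 768 - X) * X ^ 2 + C (C 196608) * X + C (C 16777216)),
    monic_X_pow_add (degree_quadratic_le.trans_lt (by decide)), ?_⟩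
  simp only [eval₂_add, eval₂_mul, eval₂_pow, eval₂_X, eval₂_C, coe_eval₂RingHom, eval₂_sub,
    map_ofNat, eval₂_ofNat]
  linear_combination hrel

/-- `t⁻¹` is integral over `A[j]` (as `2` is invertible). -/
theorem two_inv_integral (h2 : ψ c * 2 = 1)
    (hrel : t ^ 3 + (768 - j) * t ^ 2 + 196608 * t + 16777216 = 0) :
    (eval₂RingHom ψ j).IsIntegralElem t⁻¹ := by
  have hk := two_pow24 ψ h2
  have ht := two_t_integral ψ hrel
  have hjj := isIntegralElem_self ψ j
  have hc := isIntegralElem_const ψ j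
  have h1 : t * (ψ (-c ^ 24) * (t ^ 2 + (ψ 768 - j) * t + ψ 196608)) = 1 := by
    rw [map_neg, map_pow, map_ofNat, map_ofNat]
    linear_combination (-(ψ c ^ 24)) * hrel + hk
  rw [← eq_inv_of_mul_eq_one_right h1]
  exact RingHom.IsIntegralElem.mul _ (hc _) (RingHom.IsIntegralElem.add _
    (RingHom.IsIntegralElem.add _ (isIntegralElem_pow ψ ht 2)
      (RingHom.IsIntegralElem.mul _ (RingHom.IsIntegralElem.sub _ (hc _) hjj) ht)) (hc _))

/-- `z = t / (t + 256)` is integral over `A[j⁻¹]`. -/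
theorem two_z_integral (h2 : ψ c * 2 = 1)
    (hrel : t ^ 3 + (768 - j) * t ^ 2 + 196608 * t + 16777216 = 0) (hj : j ≠ 0) :
    (eval₂RingHom ψ j⁻¹).IsIntegralElem (t / (t + 256)) := by
  refine ⟨X ^ 3 + (C (-1) * X ^ 2 + C 0 * X + C (C 256 * X)),
    monic_X_pow_add (degree_quadratic_le.trans_lt (by decide)), ?_⟩
  simp only [eval₂_add, eval₂_mul, eval₂_pow, eval₂_X, eval₂_C, coe_eval₂RingHom, map_neg,
    map_one, map_zero, map_ofNat, eval₂_ofNat, eval₂_neg, eval₂_one, eval₂_zero]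
  linear_combination two_z_rel ψ h2 hrel hj

/-- The disc dichotomy at a `j`-infinite valuation subring. -/
theorem two_dich (h2 : ψ c * 2 = 1)
    (hrel : t ^ 3 + (768 - j) * t ^ 2 + 196608 * t + 16777216 = 0) (hj : j ≠ 0)
    (O : ValuationSubring E) (hA : ∀ a, ψ a ∈ O) (hji : j⁻¹ ∈ O.nonunits) :
    t / (t + 256) ∈ O.nonunits ∨ 1 - t / (t + 256) ∈ O.nonunits := by
  have hzO : t / (t + 256) ∈ O :=
    mem_of_isIntegralElem O ψ hA (nu_mem O hji) (two_z_integral ψ h2 hrel hj)
  have h1zO : 1 - t / (t + 256) ∈ O := sub_mem O.one_mem hzO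
  have hzr := two_z_rel ψ h2 hrel hj
  have h256 : (256 : E) ∈ O := by
    have := hA 256
    rwa [map_ofNat] at this
  have hprod : t / (t + 256) * (t / (t + 256) * (1 - t / (t + 256))) ∈ O.nonunits := by
    have : t / (t + 256) * (t / (t + 256) * (1 - t / (t + 256))) = 256 * j⁻¹ := by
      linear_combination (-1 : E) * hzr
    rw [this]
    exact nu_mul O h256 hji
  rcases nu_prime O hprod hzO (mul_mem hzO h1zO) with h | h
  · exact Or.inl h
  · exact nu_prime O h hzO h1zO

/-- **(TRANSFER), `M = 2`, chart `t`.** -/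
theorem two_transfer_U (h2 : ψ c * 2 = 1)
    (hrel : t ^ 3 + (768 - j) * t ^ 2 + 196608 * t + 16777216 = 0) (hj : j ≠ 0)
    {y' : E} (hy' : (eval₂RingHom ψ t).IsIntegralElem y') :
    ∃ Y : E, (eval₂RingHom ψ j⁻¹).IsIntegralElem Y ∧
      ∀ O : ValuationSubring E, (∀ a, ψ a ∈ O) → j⁻¹ ∈ O.nonunits →
        (t ∈ O.nonunits ∧ y' ∈ O ∧ Y - y' ∈ O.nonunits) ∨
        (t⁻¹ ∈ O.nonunits ∧ Y - 1 ∈ O.nonunits) :=
  core_U ψ (two_z_integral ψ h2 hrel hj) (two_rel' ψ h2 hrel hj) (two_pow8 ψ h2)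
    (two_dich ψ h2 hrel hj) hy'

/-- **(TRANSFER), `M = 2`, chart `t⁻¹`.** -/
theorem two_transfer_V (h2 : ψ c * 2 = 1)
    (hrel : t ^ 3 + (768 - j) * t ^ 2 + 196608 * t + 16777216 = 0) (hj : j ≠ 0)
    {y' : E} (hy' : (eval₂RingHom ψ t⁻¹).IsIntegralElem y') :
    ∃ Y : E, (eval₂RingHom ψ j⁻¹).IsIntegralElem Y ∧
      ∀ O : ValuationSubring E, (∀ a, ψ a ∈ O) → j⁻¹ ∈ O.nonunits →
        (t⁻¹ ∈ O.nonunits ∧ y' ∈ O ∧ Y - y' ∈ O.nonunits) ∨
        (t ∈ O.nonunits ∧ Y - 1 ∈ O.nonunits) :=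
  core_V ψ (two_z_integral ψ h2 hrel hj) (two_rel' ψ h2 hrel hj) (two_pow8 ψ h2)
    (two_t_ne_zero ψ h2 hrel) (two_dich ψ h2 hrel hj) hy'

/-- `j`-finite valuation subrings see both `t`-charts. -/
theorem two_finite (h2 : ψ c * 2 = 1)
    (hrel : t ^ 3 + (768 - j) * t ^ 2 + 196608 * t + 16777216 = 0)
    (O : ValuationSubring E) (hA : ∀ a, ψ a ∈ O) (hjO : j ∈ O) : t ∈ O ∧ t⁻¹ ∈ O :=
  ⟨mem_of_isIntegralElem O ψ hA hjO (two_t_integral ψ hrel),
    mem_of_isIntegralElem O ψ hA hjO (two_inv_integral ψ h2 hrel)⟩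

/-- The chart `t` is integral over the chart `j`. -/
theorem two_integral_of_U (hrel : t ^ 3 + (768 - j) * t ^ 2 + 196608 * t + 16777216 = 0)
    {y' : E} (hy' : (eval₂RingHom ψ t).IsIntegralElem y') :
    (eval₂RingHom ψ j).IsIntegralElem y' :=
  isIntegralElem_trans ψ (two_t_integral ψ hrel) hy'

/-- The chart `t⁻¹` is integral over the chart `j`. -/
theorem two_integral_of_V (h2 : ψ c * 2 = 1)
    (hrel : t ^ 3 + (768 - j) * t ^ 2 + 196608 * t + 16777216 = 0)
    {y' : E} (hy' : (eval₂RingHom ψ t⁻¹).IsIntegralElem y') :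
    (eval₂RingHom ψ j).IsIntegralElem y' :=
  isIntegralElem_trans ψ (two_inv_integral ψ h2 hrel) hy'

end Two

/-! ## `M = 3` : `j * t ^ 3 = (t + 27) * (t + 243) ^ 3` -/

section Three

variable {A E : Type*} [CommRing A] [Field E] (ψ : A →+* E) {c : A} {t j : E}

theorem three_pow5 (h3 : ψ c * 3 = 1) : ψ (c ^ 5) * ψ 243 = 1 := by
  have h := congrArg (fun x => x ^ 5) h3
  simp only [mul_pow, one_pow] at h
  rw [map_pow, map_ofNat]
  norm_num at h
  exact h

theorem three_pow18 (h3 : ψ c * 3 = 1) : ψ c ^ 18 * 387420489 = 1 := by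
  have h := congrArg (fun x => x ^ 18) h3
  simp only [mul_pow, one_pow] at h
  norm_num at h
  exact h

theorem three_t_ne_zero (h3 : ψ c * 3 = 1)
    (hrel : t ^ 4 + (756 - j) * t ^ 3 + 196830 * t ^ 2 + 19131876 * t + 387420489 = 0) : t ≠ 0 := by
  intro h
  have hk := three_pow18 ψ h3
  rw [h] at hrel
  have h0 : (387420489 : E) = 0 := by linear_combination hrel
  rw [h0, mul_zero] at hk
  exact zero_ne_one hk

theorem three_add_ne_zero (h3 : ψ c * 3 = 1)
    (hrel : t ^ 4 + (756 - j) * t ^ 3 + 196830 * t ^ 2 + 19131876 * t + 387420489 = 0) (hj : j ≠ 0) :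
    t + 243 ≠ 0 := by
  intro h
  have h3' : j * t ^ 3 = (t + 27) * (t + 243) ^ 3 := by linear_combination (-1 : E) * hrel
  rw [h] at h3'
  have h4 : j * t ^ 3 = 0 := by rw [h3']; ring
  rcases mul_eq_zero.mp h4 with h5 | h5
  · exact hj h5
  · exact three_t_ne_zero ψ h3 hrel (pow_eq_zero_iff (three_ne_zero) |>.mp h5)

/-- The monic form of the Hauptmodul relation from the product form. -/
theorem three_rel_of_prod (h : j * t ^ 3 = (t + 27) * (t + 243) ^ 3) :
    t ^ 4 + (756 - j) * t ^ 3 + 196830 * t ^ 2 + 19131876 * t + 387420489 = 0 := by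
  linear_combination (-1 : E) * h

/-- The relation `z ^ 4 - z ^ 3 + (216 z + 27) / j = 0` for `z = t / (t + 243)`. -/
theorem three_z_rel (h3 : ψ c * 3 = 1)
    (hrel : t ^ 4 + (756 - j) * t ^ 3 + 196830 * t ^ 2 + 19131876 * t + 387420489 = 0) (hj : j ≠ 0) :
    (t / (t + 243)) ^ 4 - (t / (t + 243)) ^ 3 + (216 * (t / (t + 243)) + 27) * j⁻¹ = 0 := by
  have hw := three_add_ne_zero ψ h3 hrel hj
  have hzw : t / (t + 243) * (t + 243) = t := div_mul_cancel₀ t hw
  have hjj : j⁻¹ * j = 1 := inv_mul_cancel₀ hj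
  have hne : (t + 243) ^ 4 * j ≠ 0 := mul_ne_zero (pow_ne_zero 4 hw) hj
  refine (mul_eq_zero.mp ?_).resolve_right hne
  generalize t / (t + 243) = z at hzw
  generalize j⁻¹ = ji at hjj
  linear_combination (j * ((z * (t + 243)) ^ 3 + (z * (t + 243)) ^ 2 * t + z * (t + 243) * t ^ 2
      + t ^ 3)
    - j * (t + 243) * ((z * (t + 243)) ^ 2 + z * (t + 243) * t + t ^ 2)
    + 216 * (t + 243) ^ 3 * ji * j) * hzw
    + (216 * t + 27 * (t + 243)) * (t + 243) ^ 3 * hjj + 243 * hrel

theorem three_rel' (h3 : ψ c * 3 = 1)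
    (hrel : t ^ 4 + (756 - j) * t ^ 3 + 196830 * t ^ 2 + 19131876 * t + 387420489 = 0) (hj : j ≠ 0) :
    t * (1 - t / (t + 243)) = ψ 243 * (t / (t + 243)) := by
  have hw := three_add_ne_zero ψ h3 hrel hj
  have hzw : t / (t + 243) * (t + 243) = t := div_mul_cancel₀ t hw
  rw [map_ofNat]
  linear_combination (-1 : E) * hzw

/-- `t` is integral over `A[j]`. -/
theorem three_t_integral (hrel : t ^ 4 + (756 - j) * t ^ 3 + 196830 * t ^ 2 + 19131876 * t + 387420489 = 0) :
    (eval₂RingHom ψ j).IsIntegralElem t := by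
  refine ⟨X ^ 4 + (C (C 756 - X) * X ^ 3 + C (C 196830) * X ^ 2 + C (C 19131876) * X
      + C (C 387420489)),
    monic_X_pow_add (degree_cubic_le.trans_lt (by decide)), ?_⟩
  simp only [eval₂_add, eval₂_mul, eval₂_pow, eval₂_X, eval₂_C, coe_eval₂RingHom, eval₂_sub,
    map_ofNat, eval₂_ofNat]
  linear_combination hrel

/-- `t⁻¹` is integral over `A[j]` (as `3` is invertible). -/
theorem three_inv_integral (h3 : ψ c * 3 = 1)
    (hrel : t ^ 4 + (756 - j) * t ^ 3 + 196830 * t ^ 2 + 19131876 * t + 387420489 = 0) :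
    (eval₂RingHom ψ j).IsIntegralElem t⁻¹ := by
  have hk := three_pow18 ψ h3
  have ht := three_t_integral ψ hrel
  have hjj := isIntegralElem_self ψ j
  have hc := isIntegralElem_const ψ j
  have h1 : t * (ψ (-c ^ 18) * (t ^ 3 + (ψ 756 - j) * t ^ 2 + ψ 196830 * t + ψ 19131876))
      = 1 := by
    rw [map_neg, map_pow, map_ofNat, map_ofNat, map_ofNat]
    linear_combination (-(ψ c ^ 18)) * hrel + hk
  rw [← eq_inv_of_mul_eq_one_right h1]
  exact RingHom.IsIntegralElem.mul _ (hc _) (RingHom.IsIntegralElem.add _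
    (RingHom.IsIntegralElem.add _ (RingHom.IsIntegralElem.add _ (isIntegralElem_pow ψ ht 3)
      (RingHom.IsIntegralElem.mul _ (RingHom.IsIntegralElem.sub _ (hc _) hjj)
        (isIntegralElem_pow ψ ht 2)))
      (RingHom.IsIntegralElem.mul _ (hc _) ht)) (hc _))

/-- `z = t / (t + 243)` is integral over `A[j⁻¹]`. -/
theorem three_z_integral (h3 : ψ c * 3 = 1)
    (hrel : t ^ 4 + (756 - j) * t ^ 3 + 196830 * t ^ 2 + 19131876 * t + 387420489 = 0) (hj : j ≠ 0) :
    (eval₂RingHom ψ j⁻¹).IsIntegralElem (t / (t + 243)) := by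
  refine ⟨X ^ 4 + (C (-1) * X ^ 3 + C 0 * X ^ 2 + C (C 216 * X) * X + C (C 27 * X)),
    monic_X_pow_add (degree_cubic_le.trans_lt (by decide)), ?_⟩
  simp only [eval₂_add, eval₂_mul, eval₂_pow, eval₂_X, eval₂_C, coe_eval₂RingHom, map_neg,
    map_one, map_zero, map_ofNat, eval₂_ofNat, eval₂_neg, eval₂_one, eval₂_zero]
  linear_combination three_z_rel ψ h3 hrel hj

/-- The disc dichotomy at a `j`-infinite valuation subring. -/
theorem three_dich (h3 : ψ c * 3 = 1)
    (hrel : t ^ 4 + (756 - j) * t ^ 3 + 196830 * t ^ 2 + 19131876 * t + 387420489 = 0) (hj : j ≠ 0)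
    (O : ValuationSubring E) (hA : ∀ a, ψ a ∈ O) (hji : j⁻¹ ∈ O.nonunits) :
    t / (t + 243) ∈ O.nonunits ∨ 1 - t / (t + 243) ∈ O.nonunits := by
  have hzO : t / (t + 243) ∈ O :=
    mem_of_isIntegralElem O ψ hA (nu_mem O hji) (three_z_integral ψ h3 hrel hj)
  have h1zO : 1 - t / (t + 243) ∈ O := sub_mem O.one_mem hzO
  have hzr := three_z_rel ψ h3 hrel hj
  have h216 : (216 : E) ∈ O := by
    have := hA 216
    rwa [map_ofNat] at this
  have h27 : (27 : E) ∈ O := by
    have := hA 27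
    rwa [map_ofNat] at this
  have hprod : t / (t + 243) * (t / (t + 243) * (t / (t + 243) * (1 - t / (t + 243))))
      ∈ O.nonunits := by
    have : t / (t + 243) * (t / (t + 243) * (t / (t + 243) * (1 - t / (t + 243))))
        = (216 * (t / (t + 243)) + 27) * j⁻¹ := by
      linear_combination (-1 : E) * hzr
    rw [this]
    exact nu_mul O (add_mem (mul_mem h216 hzO) h27) hji
  rcases nu_prime O hprod hzO (mul_mem hzO (mul_mem hzO h1zO)) with h | h
  · exact Or.inl h
  · rcases nu_prime O h hzO (mul_mem hzO h1zO) with h | h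
    · exact Or.inl h
    · exact nu_prime O h hzO h1zO

/-- **(TRANSFER), `M = 3`, chart `t`.** -/
theorem three_transfer_U (h3 : ψ c * 3 = 1)
    (hrel : t ^ 4 + (756 - j) * t ^ 3 + 196830 * t ^ 2 + 19131876 * t + 387420489 = 0) (hj : j ≠ 0)
    {y' : E} (hy' : (eval₂RingHom ψ t).IsIntegralElem y') :
    ∃ Y : E, (eval₂RingHom ψ j⁻¹).IsIntegralElem Y ∧
      ∀ O : ValuationSubring E, (∀ a, ψ a ∈ O) → j⁻¹ ∈ O.nonunits →
        (t ∈ O.nonunits ∧ y' ∈ O ∧ Y - y' ∈ O.nonunits) ∨
        (t⁻¹ ∈ O.nonunits ∧ Y - 1 ∈ O.nonunits) :=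
  core_U ψ (three_z_integral ψ h3 hrel hj) (three_rel' ψ h3 hrel hj) (three_pow5 ψ h3)
    (three_dich ψ h3 hrel hj) hy'

/-- **(TRANSFER), `M = 3`, chart `t⁻¹`.** -/
theorem three_transfer_V (h3 : ψ c * 3 = 1)
    (hrel : t ^ 4 + (756 - j) * t ^ 3 + 196830 * t ^ 2 + 19131876 * t + 387420489 = 0) (hj : j ≠ 0)
    {y' : E} (hy' : (eval₂RingHom ψ t⁻¹).IsIntegralElem y') :
    ∃ Y : E, (eval₂RingHom ψ j⁻¹).IsIntegralElem Y ∧
      ∀ O : ValuationSubring E, (∀ a, ψ a ∈ O) → j⁻¹ ∈ O.nonunits →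
        (t⁻¹ ∈ O.nonunits ∧ y' ∈ O ∧ Y - y' ∈ O.nonunits) ∨
        (t ∈ O.nonunits ∧ Y - 1 ∈ O.nonunits) :=
  core_V ψ (three_z_integral ψ h3 hrel hj) (three_rel' ψ h3 hrel hj) (three_pow5 ψ h3)
    (three_t_ne_zero ψ h3 hrel) (three_dich ψ h3 hrel hj) hy'

/-- `j`-finite valuation subrings see both `t`-charts. -/
theorem three_finite (h3 : ψ c * 3 = 1)
    (hrel : t ^ 4 + (756 - j) * t ^ 3 + 196830 * t ^ 2 + 19131876 * t + 387420489 = 0)
    (O : ValuationSubring E) (hA : ∀ a, ψ a ∈ O) (hjO : j ∈ O) : t ∈ O ∧ t⁻¹ ∈ O :=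
  ⟨mem_of_isIntegralElem O ψ hA hjO (three_t_integral ψ hrel),
    mem_of_isIntegralElem O ψ hA hjO (three_inv_integral ψ h3 hrel)⟩

/-- The chart `t` is integral over the chart `j`. -/
theorem three_integral_of_U (hrel : t ^ 4 + (756 - j) * t ^ 3 + 196830 * t ^ 2 + 19131876 * t + 387420489 = 0)
    {y' : E} (hy' : (eval₂RingHom ψ t).IsIntegralElem y') :
    (eval₂RingHom ψ j).IsIntegralElem y' :=
  isIntegralElem_trans ψ (three_t_integral ψ hrel) hy'

/-- The chart `t⁻¹` is integral over the chart `j`. -/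
theorem three_integral_of_V (h3 : ψ c * 3 = 1)
    (hrel : t ^ 4 + (756 - j) * t ^ 3 + 196830 * t ^ 2 + 19131876 * t + 387420489 = 0)
    {y' : E} (hy' : (eval₂RingHom ψ t⁻¹).IsIntegralElem y') :
    (eval₂RingHom ψ j).IsIntegralElem y' :=
  isIntegralElem_trans ψ (three_inv_integral ψ h3 hrel) hy'

end Three

/-! ## The composite valuation subring "value in `A` at `W`" -/

section CompVal

variable {K E : Type*} [Field K] [Field E] [Algebra K E]

/-- A nonzero constant is a unit of `W`; in particular constants in the nonunits vanish. -/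
theorem const_eq_zero_of_mem_nonunits (W : ValuationSubring E)
    (hK : ∀ c : K, algebraMap K E c ∈ W) {c : K} (hc : algebraMap K E c ∈ W.nonunits) :
    c = 0 := by
  by_contra h0
  rw [ValuationSubring.mem_nonunits_iff] at hc
  have h1 : W.valuation (algebraMap K E c⁻¹) ≤ 1 := (W.valuation_le_one_iff _).mpr (hK c⁻¹)
  have h2 : W.valuation (algebraMap K E c) * W.valuation (algebraMap K E c⁻¹) = 1 := by
    rw [← map_mul, ← map_mul, mul_inv_cancel₀ h0, map_one, map_one]
  have h3 : W.valuation (algebraMap K E c) * W.valuation (algebraMap K E c⁻¹) < 1 :=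
    calc W.valuation (algebraMap K E c) * W.valuation (algebraMap K E c⁻¹)
        ≤ W.valuation (algebraMap K E c) * 1 := mul_le_mul' le_rfl h1
      _ = W.valuation (algebraMap K E c) := mul_one _
      _ < 1 := hc
  rw [h2] at h3
  exact lt_irrefl _ h3

/-- If `y ≡ c` at `W` with `c ≠ 0` then `y⁻¹ ≡ c⁻¹` at `W`. -/
theorem inv_sub_mem_nonunits (W : ValuationSubring E) (hK : ∀ c : K, algebraMap K E c ∈ W)
    {y : E} {c : K} (hc : c ≠ 0) (hy : y - algebraMap K E c ∈ W.nonunits) :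
    y⁻¹ - algebraMap K E c⁻¹ ∈ W.nonunits := by
  have hcE : algebraMap K E c ≠ 0 := fun h => hc (by
    rw [← map_zero (algebraMap K E)] at h
    exact (algebraMap K E).injective h)
  have hy0 : y ≠ 0 := by
    intro h
    rw [h, zero_sub] at hy
    have := nu_neg W hy
    rw [neg_neg] at this
    exact hc (const_eq_zero_of_mem_nonunits W hK this)
  -- `y⁻¹ ∈ W` : otherwise `y` would be a nonunit, hence also `c`
  have hyi : y⁻¹ ∈ W := by
    by_contra hn
    have hyn : y ∈ W.nonunits := W.mem_nonunits_iff_or.mpr (Or.inr hn)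
    have := nu_sub W hyn hy
    rw [sub_sub_cancel] at this
    exact hc (const_eq_zero_of_mem_nonunits W hK this)
  have hid : y⁻¹ - algebraMap K E c⁻¹ = (y⁻¹ * algebraMap K E c⁻¹) * (-(y - algebraMap K E c)) := by
    rw [map_inv₀]
    field_simp
    ring
  rw [hid]
  exact nu_mul W (mul_mem hyi (hK c⁻¹)) (nu_neg W hy)

/-- The composite of a valuation subring `W` of `E` whose residue field is `K` with a valuation
subring `A` of `K`: the elements which have a value at `W`, and that value lies in `A`. -/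
def compVal (W : ValuationSubring E) (A : ValuationSubring K)
    (hK : ∀ c : K, algebraMap K E c ∈ W)
    (hdeg : ∀ y ∈ W, ∃ c : K, y - algebraMap K E c ∈ W.nonunits) : ValuationSubring E where
  carrier := {y | ∃ c ∈ A, y - algebraMap K E c ∈ W.nonunits}
  mul_mem' := by
    rintro x y ⟨a, ha, hx⟩ ⟨b, hb, hy⟩
    refine ⟨a * b, mul_mem ha hb, ?_⟩
    have hyW : y ∈ W := by
      have := add_mem (nu_mem W hy) (hK b)
      rwa [sub_add_cancel] at this
    have hid : x * y - algebraMap K E (a * b)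
        = (x - algebraMap K E a) * y + algebraMap K E a * (y - algebraMap K E b) := by
      rw [map_mul]; ring
    rw [hid]
    exact nu_add W (nu_mul' W hx hyW) (nu_mul W (hK a) hy)
  one_mem' := ⟨1, A.one_mem, by rw [map_one, sub_self]; exact nu_zero W⟩
  add_mem' := by
    rintro x y ⟨a, ha, hx⟩ ⟨b, hb, hy⟩
    refine ⟨a + b, add_mem ha hb, ?_⟩
    have hid : x + y - algebraMap K E (a + b)
        = (x - algebraMap K E a) + (y - algebraMap K E b) := by
      rw [map_add]; ring
    rw [hid]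
    exact nu_add W hx hy
  zero_mem' := ⟨0, A.zero_mem, by rw [map_zero, sub_self]; exact nu_zero W⟩
  neg_mem' := by
    rintro x ⟨a, ha, hx⟩
    refine ⟨-a, neg_mem ha, ?_⟩
    have hid : -x - algebraMap K E (-a) = -(x - algebraMap K E a) := by
      rw [map_neg]; ring
    rw [hid]
    exact nu_neg W hx
  mem_or_inv_mem' := by
    intro y
    by_cases hyW : y ∈ W
    · obtain ⟨c, hc⟩ := hdeg y hyW
      rcases A.mem_or_inv_mem c with hcA | hcA
      · exact Or.inl ⟨c, hcA, hc⟩
      · by_cases hc0 : c = 0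
        · exact Or.inl ⟨c, by rw [hc0]; exact A.zero_mem, hc⟩
        · exact Or.inr ⟨c⁻¹, hcA, inv_sub_mem_nonunits W hK hc0 hc⟩
    · right
      refine ⟨0, A.zero_mem, ?_⟩
      rw [map_zero, sub_zero]
      exact W.inv_mem_nonunits_iff.mpr (Or.inr hyW)

variable (W : ValuationSubring E) (A : ValuationSubring K)

theorem mem_compVal (hK : ∀ c : K, algebraMap K E c ∈ W)
    (hdeg : ∀ y ∈ W, ∃ c : K, y - algebraMap K E c ∈ W.nonunits) {y : E} :
    y ∈ compVal W A hK hdeg ↔ ∃ c ∈ A, y - algebraMap K E c ∈ W.nonunits := Iff.rfl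

theorem algebraMap_mem_compVal (hK : ∀ c : K, algebraMap K E c ∈ W)
    (hdeg : ∀ y ∈ W, ∃ c : K, y - algebraMap K E c ∈ W.nonunits) {a : K} (ha : a ∈ A) : algebraMap K E a ∈ compVal W A hK hdeg :=
  ⟨a, ha, by rw [sub_self]; exact nu_zero W⟩

theorem mem_of_mem_compVal (hK : ∀ c : K, algebraMap K E c ∈ W)
    (hdeg : ∀ y ∈ W, ∃ c : K, y - algebraMap K E c ∈ W.nonunits) {y : E} (hy : y ∈ compVal W A hK hdeg) : y ∈ W := by
  obtain ⟨c, -, hc⟩ := hy
  have := add_mem (nu_mem W hc) (hK c)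
  rwa [sub_add_cancel] at this

/-- The value at `W` is unique. -/
theorem value_unique (hK : ∀ c : K, algebraMap K E c ∈ W) {y : E} {c c' : K} (hc : y - algebraMap K E c ∈ W.nonunits)
    (hc' : y - algebraMap K E c' ∈ W.nonunits) : c = c' := by
  have h := nu_sub W hc' hc
  have hid : y - algebraMap K E c' - (y - algebraMap K E c) = algebraMap K E (c - c') := by
    rw [map_sub]; ring
  rw [hid] at h
  exact sub_eq_zero.mp (const_eq_zero_of_mem_nonunits W hK h)

/-- The nonunits of the composite: the value lies in the maximal ideal of `A`. -/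
theorem mem_nonunits_compVal (hK : ∀ c : K, algebraMap K E c ∈ W)
    (hdeg : ∀ y ∈ W, ∃ c : K, y - algebraMap K E c ∈ W.nonunits) {y : E} :
    y ∈ (compVal W A hK hdeg).nonunits ↔
      ∃ c ∈ A.nonunits, y - algebraMap K E c ∈ W.nonunits := by
  constructor
  · intro hy
    obtain ⟨c, hcA, hc⟩ := nu_mem _ hy
    refine ⟨c, A.mem_nonunits_iff_or.mpr ?_, hc⟩
    by_cases hc0 : c = 0
    · exact Or.inl hc0
    · right
      intro hci
      have hyi : y⁻¹ ∈ compVal W A hK hdeg := ⟨c⁻¹, hci, inv_sub_mem_nonunits W hK hc0 hc⟩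
      rcases (compVal W A hK hdeg).mem_nonunits_iff_or.mp hy with h | h
      · rw [h, zero_sub] at hc
        have := nu_neg W hc
        rw [neg_neg] at this
        exact hc0 (const_eq_zero_of_mem_nonunits W hK this)
      · exact h hyi
  · rintro ⟨c, hcn, hc⟩
    have hcA : c ∈ A := A.nonunits_subset hcn
    refine (compVal W A hK hdeg).mem_nonunits_iff_or.mpr ?_
    by_cases hy0 : y = 0
    · exact Or.inl hy0
    · right
      rintro ⟨c', hc'A, hc'⟩
      have hyiW : y⁻¹ ∈ W := by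
        have := add_mem (nu_mem W hc') (hK c')
        rwa [sub_add_cancel] at this
      have h1 : algebraMap K E (1 - c * c') ∈ W.nonunits := by
        have hid : algebraMap K E (1 - c * c')
            = (y - algebraMap K E c) * y⁻¹ + algebraMap K E c * (y⁻¹ - algebraMap K E c') := by
          rw [map_sub, map_one, map_mul]
          have : y * y⁻¹ = 1 := mul_inv_cancel₀ hy0
          linear_combination (-1 : E) * this
        rw [hid]
        exact nu_add W (nu_mul' W hc hyiW) (nu_mul W (hK c) hc')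
      have h2 : c * c' = 1 := (sub_eq_zero.mp (const_eq_zero_of_mem_nonunits W hK h1)).symm
      rcases A.mem_nonunits_iff_or.mp hcn with h | h
      · rw [h, zero_mul] at h2
        exact zero_ne_one h2
      · exact h (by rw [← eq_inv_of_mul_eq_one_right h2]; exact hc'A)

/-- Translation of "`Y ≡ y` modulo the nonunits of the composite" into values in `A`. -/
theorem exists_values_of_sub_mem_nonunits (hK : ∀ c : K, algebraMap K E c ∈ W)
    (hdeg : ∀ y ∈ W, ∃ c : K, y - algebraMap K E c ∈ W.nonunits) {y Y : E} (hy : y ∈ compVal W A hK hdeg)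
    (hY : Y - y ∈ (compVal W A hK hdeg).nonunits) :
    ∃ a ∈ A, ∃ a' ∈ A, y - algebraMap K E a ∈ W.nonunits ∧
      Y - algebraMap K E a' ∈ W.nonunits ∧ a' - a ∈ A.nonunits := by
  obtain ⟨a, haA, ha⟩ := hy
  obtain ⟨c, hcn, hc⟩ := (mem_nonunits_compVal W A hK hdeg).mp hY
  refine ⟨a, haA, a + c, add_mem haA (A.nonunits_subset hcn), ha, ?_, ?_⟩
  · have hid : Y - algebraMap K E (a + c)
        = (Y - y - algebraMap K E c) + (y - algebraMap K E a) := by
      rw [map_add]; ring
    rw [hid]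
    exact nu_add W hc ha
  · rwa [add_sub_cancel_left]

/-- The relational ("value") form of the conclusion of `two_transfer_U` etc. at a degree one
valuation subring `W` at which `ji` has a value in the maximal ideal of `A`. -/
theorem transfer_val (hK : ∀ c : K, algebraMap K E c ∈ W)
    (hdeg : ∀ y ∈ W, ∃ c : K, y - algebraMap K E c ∈ W.nonunits) {t ti ji y' Y : E}
    (h : ∀ O : ValuationSubring E, (∀ a : A, ((algebraMap K E).comp A.subtype) a ∈ O) →
      ji ∈ O.nonunits →
      (t ∈ O.nonunits ∧ y' ∈ O ∧ Y - y' ∈ O.nonunits) ∨ (ti ∈ O.nonunits ∧ Y - 1 ∈ O.nonunits))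
    (hji : ∃ c ∈ A.nonunits, ji - algebraMap K E c ∈ W.nonunits) :
    ((∃ c ∈ A.nonunits, t - algebraMap K E c ∈ W.nonunits) ∧
        ∃ a ∈ A, ∃ a' ∈ A, y' - algebraMap K E a ∈ W.nonunits ∧
          Y - algebraMap K E a' ∈ W.nonunits ∧ a' - a ∈ A.nonunits) ∨
      ((∃ c ∈ A.nonunits, ti - algebraMap K E c ∈ W.nonunits) ∧
        ∃ a' ∈ A, Y - algebraMap K E a' ∈ W.nonunits ∧ a' - 1 ∈ A.nonunits) := by
  have hA : ∀ a : A, ((algebraMap K E).comp A.subtype) a ∈ compVal W A hK hdeg := fun a =>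
    algebraMap_mem_compVal W A hK hdeg a.2
  rcases h (compVal W A hK hdeg) hA ((mem_nonunits_compVal W A hK hdeg).mpr hji) with
    ⟨h1, h2, h3⟩ | ⟨h1, h2⟩
  · exact Or.inl ⟨(mem_nonunits_compVal W A hK hdeg).mp h1,
      exists_values_of_sub_mem_nonunits W A hK hdeg h2 h3⟩
  · refine Or.inr ⟨(mem_nonunits_compVal W A hK hdeg).mp h1, ?_⟩
    obtain ⟨a, -, a', ha', h4, h5, h6⟩ := exists_values_of_sub_mem_nonunits W A hK hdeg
      (algebraMap_mem_compVal W A hK hdeg A.one_mem) (by rwa [map_one])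
    have : a = 1 :=
      value_unique W hK h4 (by rw [sub_self]; exact nu_zero W)
    rw [this] at h6
    exact ⟨a', ha', h5, h6⟩

end CompVal

end Fermat.Agent.S37.H59
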