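import Mathlib
import Fermat.Agent.S37.Gal_helper34
import Fermat.Agent.S37.SatA_helper58
import Fermat.Agent.S37.TransferAlg_helper59
import Fermat.Agent.S37.K1Gen_helper72
import Fermat.Agent.S18.PrincDiv_helper98

/-!
# S37, node (GAL), chart form - independent second seat (helper15)

The statement (GAL) of the S37 node table, literally the first conjunct of
`H72.specializationExists_of_divT` for `DivT := H72.divTilde (rel A N)`:

  for `τ` in the inertia group of `A` and every place `P` of `ℚ̄(X₀(N))`,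
  `τ P - P ∈ divTilde rel`,

where `rel P P' := SameChar B P P' ∨ SameChar Boo P P'`, `B` / `Boo` the chart rings of
`j` / `1/j` over the frozen valuation ring `A` (helper58's `chartRing`), and
`SameChar R P P'` says that every `y ∈ R` has values `c, c' ∈ A` at `P, P'` with `c - c' ∈ 𝔪_A`.

Shared lemmas:
* `isFin_of_isIntegralElem` (generic), `isFin_chartRing`: an `x`-finite place of degree one is
  `B`-finite for the ring `B` of elements integral over `A[x]`;
* `finite_or_inv_finite`: every place of degree one is `x`-finite or `1/x`-finite;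
* `sameChar_inertia`: (b) on one chart.
-/

set_option autoImplicit false

noncomputable section

open ModularCurve AlgebraicCurve Polynomial
open Fermat.Agent.S18 Fermat.Agent.S28

namespace Fermat.Agent.S37.H15b

section Generic

variable {K F : Type*} [Field K] [Field F] [Algebra K F]

/-- **(C1), generic.**  At a place `P` of degree one where the chart coordinate `x` has a value
in `A`, every `y` integral over `A[x]` is regular with value in `A`. -/
theorem isFin_of_isIntegralElem (A : ValuationSubring K) (B : Subring F) (P : Place K F)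
    (hP : P.deg = 1) (x : F) (hx : ∃ c ∈ A, H34.EvalAt P x c)
    (hB : ∀ y ∈ B,
      (Polynomial.eval₂RingHom ((algebraMap K F).comp A.subtype) x).IsIntegralElem y) :
    H34.IsFin A B P := by
  obtain ⟨c, hc, hxc⟩ := hx
  intro y hy
  have hyI := hB y hy
  have hyO : y ∈ P.toValuationSubring :=
    H59.mem_of_isIntegralElem P.toValuationSubring ((algebraMap K F).comp A.subtype)
      (fun a => P.algebraMap_mem' _) hxc.mem hyI
  obtain ⟨d, hd⟩ := H34.exists_evalAt P hP hyO
  refine ⟨d, ?_, hd⟩
  obtain ⟨q, hq, hq0⟩ := hyI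
  have hφ : ∀ r : Polynomial A,
      H34.EvalAt P (Polynomial.eval₂RingHom ((algebraMap K F).comp A.subtype) x r)
        (Polynomial.eval₂RingHom A.subtype c r) := by
    intro r
    rw [Polynomial.coe_eval₂RingHom, Polynomial.coe_eval₂RingHom]
    exact H34.EvalAt.eval₂ ((algebraMap K F).comp A.subtype) A.subtype
      (fun a => H34.evalAt_algebraMap P (a : K)) r hxc
  have h1 := H34.EvalAt.eval₂ _ _ hφ q hd
  rw [hq0] at h1
  have h2 : q.eval₂ (Polynomial.eval₂RingHom A.subtype c) d = 0 :=
    h1.unique (H34.evalAt_zero P)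
  exact H59.mem_of_isIntegralElem A A.subtype (fun a => a.2) hc ⟨q, hq, h2⟩

/-- **(C2), generic.**  A place of degree one is `x`-finite or `1/x`-finite with respect to any
valuation subring `A` of the constant field. -/
theorem finite_or_inv_finite (A : ValuationSubring K) (P : Place K F) (hP : P.deg = 1) (x : F) :
    (∃ c ∈ A, H34.EvalAt P x c) ∨ (∃ c ∈ A, H34.EvalAt P x⁻¹ c) := by
  by_cases hx : x ∈ P.toValuationSubring
  · obtain ⟨c, hc⟩ := H34.exists_evalAt P hP hx
    by_cases hcA : c ∈ A
    · exact Or.inl ⟨c, hcA, hc⟩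
    · have hc0 : c ≠ 0 := fun h => hcA (h ▸ A.zero_mem)
      exact Or.inr ⟨c⁻¹, (A.mem_or_inv_mem c).resolve_left hcA, hc.inv hc0⟩
  · refine Or.inr ⟨0, A.zero_mem, ?_⟩
    show x⁻¹ - algebraMap K F 0 ∈ P.toValuationSubring.nonunits
    rw [map_zero, sub_zero, ValuationSubring.mem_nonunits_iff_or, inv_inv]
    exact Or.inr hx

end Generic

section Modular

local notation "Qb" => AlgebraicClosure ℚ

variable (A : ValuationSubring Qb) (N : ℕ) [NeZero N]

/-- `SameChar R P P'` (node table): every `y ∈ R` has values `c, c' ∈ A` at `P`, `P'` with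
`c - c' ∈ 𝔪_A`. -/
def SameChar (R : Subring ↥(modularFunctionFieldBar N))
    (P P' : Place Qb ↥(modularFunctionFieldBar N)) : Prop :=
  ∀ y ∈ R, ∃ c c' : A, H34.EvalAt P y (c : Qb) ∧ H34.EvalAt P' y (c' : Qb) ∧
    c - c' ∈ IsLocalRing.maximalIdeal A

/-- The relation generating `DivT`: same residue character on `B` or on `Boo`. -/
def rel (P P' : Place Qb ↥(modularFunctionFieldBar N)) : Prop :=
  SameChar A N (H58.chartRing A N (H58.jBar N)) P P' ∨
    SameChar A N (H58.chartRing A N (H58.jBar N)⁻¹) P P'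

/-- **(C1)** for helper58's chart rings. -/
theorem isFin_chartRing (x : ↥(modularFunctionFieldBar N))
    (P : Place Qb ↥(modularFunctionFieldBar N)) (hx : ∃ c ∈ A, H34.EvalAt P x c) :
    H34.IsFin A (H58.chartRing A N x) P :=
  isFin_of_isIntegralElem A _ P (H98.deg_eq_one N P) x hx (fun _ hy => hy)

variable {A N}

omit [NeZero N] in
/-- Inertia moves the constants of `A` by elements of `𝔪_A` (and preserves `A`). -/
theorem inertia_sub_mem_nonunits {τ : Qb ≃ₐ[ℚ] Qb} (hτ : τ ∈ A.inertiaSubgroupIn ℚ) (a : Qb)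
    (ha : a ∈ A) : τ a - a ∈ A.nonunits ∧ τ a ∈ A := by
  obtain ⟨g, hg, rfl⟩ := hτ
  have hg' : MulSemiringAction.toRingAut (A.decompositionSubgroup ℚ)
      (IsLocalRing.ResidueField A) g = 1 := hg
  have h2 : IsLocalRing.residue A (g • (⟨a, ha⟩ : A)) = IsLocalRing.residue A ⟨a, ha⟩ := by
    have := congrArg (fun e : RingAut (IsLocalRing.ResidueField A) =>
      e (IsLocalRing.residue A ⟨a, ha⟩)) hg'
    exact this
  have h3 : (g • (⟨a, ha⟩ : A)) - ⟨a, ha⟩ ∈ IsLocalRing.maximalIdeal A := by
    rw [← IsLocalRing.residue_eq_zero_iff, map_sub, h2, sub_self]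
  exact ⟨ValuationSubring.coe_mem_nonunits_iff.mpr h3, (g • (⟨a, ha⟩ : A)).2⟩

set_option maxHeartbeats 1600000 in
/-- **(C3) = (b) on one chart**: for `τ` in the inertia group of `A` and an `x`-finite place
`P`, the places `τ P` and `P` have the same residue character on the chart ring of `x`. -/
theorem sameChar_inertia {ℓ : ℕ} [Fact ℓ.Prime] (hℓN : ¬ ℓ ∣ N) (hA : A.LiesOverPrime ℓ)
    {x : ↥(modularFunctionFieldBar N)} (hx : H58.IsGoodCoord A N x) (xA : LaurentSeries A)
    (hxA : coeffMap A.subtype xA = (x : LaurentSeries Qb))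
    (hfix : ∀ σ : Qb ≃ₐ[ℚ] Qb, arithmeticRingAut (modularFunctionFieldFull N) σ x = x)
    {τ : Qb ≃ₐ[ℚ] Qb} (hτ : τ ∈ A.inertiaSubgroupIn ℚ)
    (P : Place Qb ↥(modularFunctionFieldBar N)) (hP : ∃ c ∈ A, H34.EvalAt P x c) :
    SameChar A N (H58.chartRing A N x)
      (arithmeticGalois (modularFunctionFieldFull N) τ • P) P := by
  have hfin : H34.IsFin A (H58.chartRing A N x) P := isFin_chartRing A N x P hP
  have hτ' : τ⁻¹ ∈ A.inertiaSubgroupIn ℚ := inv_mem hτ
  have hinv : ∀ y : ↥(modularFunctionFieldBar N),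
      (arithmeticGalois (modularFunctionFieldFull N) τ)⁻¹ • y =
        arithmeticRingAut (modularFunctionFieldFull N) τ⁻¹ y := by
    intro y
    rw [← map_inv]
    rfl
  have hgB : ∀ y ∈ H58.chartRing A N x,
      (arithmeticGalois (modularFunctionFieldFull N) τ)⁻¹ • y ∈ H58.chartRing A N x := by
    intro y hy
    obtain ⟨d, -, hdτ⟩ := hτ'
    rw [hinv, ← hdτ]
    exact H58.arithmeticRingAut_mem_chartRing A N d x (hfix _) hy
  have hgA : ∀ a ∈ A, SemilinearAut.baseAut
      (arithmeticGalois (modularFunctionFieldFull N) τ) a - a ∈ A.nonunits :=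
    fun a ha => (inertia_sub_mem_nonunits hτ a ha).1
  have hgA' : ∀ a ∈ A, SemilinearAut.baseAut
      (arithmeticGalois (modularFunctionFieldFull N) τ) a ∈ A :=
    fun a ha => (inertia_sub_mem_nonunits hτ a ha).2
  have htriv : ∀ y ∈ H58.chartRing A N x, ∃ a ∈ A.nonunits, ∃ y' ∈ H58.chartRing A N x,
      (arithmeticGalois (modularFunctionFieldFull N) τ)⁻¹ • y - y =
        algebraMap Qb ↥(modularFunctionFieldBar N) a * y' := by
    intro y hy
    obtain ⟨a, ha, y', hy', e⟩ :=
      H58.inertia_sub_mem hℓN hA hx xA hxA τ⁻¹ hτ' (hfix _) hy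
    refine ⟨(a : Qb), ValuationSubring.coe_mem_nonunits_iff.mpr ha, y', hy', ?_⟩
    rw [hinv]
    exact e
  have hfin' : H34.IsFin A (H58.chartRing A N x)
      (arithmeticGalois (modularFunctionFieldFull N) τ • P) := hfin.smul _ hgA' hgB
  intro y hy
  obtain ⟨c, hc, hyc⟩ := hfin' y hy
  obtain ⟨c', hc', hyc'⟩ := hfin y hy
  refine ⟨⟨c, hc⟩, ⟨c', hc'⟩, hyc, hyc', ?_⟩
  have h := H34.evalAt_smul_congr _ hfin hgA hgB htriv hy hyc' hyc
  exact ValuationSubring.coe_mem_nonunits_iff.mp h

variable (A N)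

/-- **(GAL)**, literal Stmts shape: inertia moves every place inside its `rel`-class, i.e.
`τ P - P ∈ divTilde rel`. -/
theorem gal_divTilde {ℓ : ℕ} [Fact ℓ.Prime] (hℓN : ¬ ℓ ∣ N) (hA : A.LiesOverPrime ℓ) :
    ∀ τ ∈ A.inertiaSubgroupIn ℚ, ∀ P : Place Qb (modularFunctionFieldBar N),
      (Finsupp.single (arithmeticGalois (modularFunctionFieldFull N) τ • P) (1 : ℤ)
        - Finsupp.single P 1 : Divisor Qb (modularFunctionFieldBar N)) ∈
          H72.divTilde (rel A N) := by
  intro τ hτ P
  apply H72.single_sub_single_mem_divTilde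
  rcases finite_or_inv_finite A P (H98.deg_eq_one N P) (H58.jBar N) with h | h
  · exact Or.inl (sameChar_inertia hℓN hA (H58.isGoodCoord_jBar A N) (jqModC A)
      (H58.coeffMap_subtype_jqModC A N) (H58.arithmeticRingAut_jBar N) hτ P h)
  · exact Or.inr (sameChar_inertia hℓN hA (H58.isGoodCoord_jBar_inv A N) (H36.jInv A)
      (H58.coeffMap_subtype_jInv A N) (H58.arithmeticRingAut_jBar_inv N) hτ P h)

end Modular

end Fermat.Agent.S37.H15b
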