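import Mathlib
import Fermat.Agent.S37.MultAt_helper20
import Fermat.Agent.S37.GalChart_helper15
import Fermat.Agent.S37.ESCore_helper26

/-!
# S37 (ES): finiteness transfer along the Hecke correspondence (helper20)

The hypothesis `hW` of `H26.es_core` for the two chart rings of `X₀(N)`: if `W` is a place of
`F_(N l)` with `W|β = P`, then

* `isFin_restrict_alpha_j`: `P` is `j`-finite (`j` has a value in `A` at `P`) `⟹`
  `W|α` is finite on `B = chartRing A N j`;
* `isFin_restrict_alpha_jInv`: `1/j` has a value in `m_A` at `P` `⟹`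
  `W|α` is finite on `B∞ = chartRing A N j⁻¹`.

Upstairs forms: `exists_evalAt_alpha_j`, `exists_evalAt_alpha_jInv`.
-/

set_option autoImplicit false
set_option linter.unusedSectionVars false

open Polynomial

noncomputable section

namespace Fermat.Agent.S37.H20

open ModularCurve AlgebraicCurve

local notation "Qb" => AlgebraicClosure ℚ

variable (A : ValuationSubring Qb) (N l : ℕ) [NeZero N] [NeZero l]

/-- **Upstairs, chart `j`.**  If `β j` has a value in `A` at `W`, so has `α j`. -/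
theorem exists_evalAt_alpha_j (hl : l.Prime)
    (W : Place Qb ↥(modularFunctionFieldBar (N * l)))
    (hx : ∃ c ∈ A, H34.EvalAt W (heckeBetaBar Qb N l (H58.jBar N)) c) :
    ∃ c ∈ A, H34.EvalAt W (heckeAlphaBar Qb N l (H58.jBar N)) c := by
  obtain ⟨s, -, h1, -, -, -⟩ := exists_mult_data A N l hl
  exact H15b.isFin_chartRing A (N * l) _ W hx _ h1

/-- a value `≡ 1` mod `m_A` is a unit of `A`: it lies in `A`, is nonzero, and its inverse lies
in `A`. -/
theorem inv_mem_of_sub_one_mem_nonunits {c : Qb} (hc : c - 1 ∈ A.nonunits) :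
    c ∈ A ∧ c ≠ 0 ∧ c⁻¹ ∈ A := by
  have h1 : c - 1 ∈ A := A.nonunits_le hc
  have hcA : c ∈ A := by
    have := A.add_mem _ _ h1 A.one_mem
    rwa [sub_add_cancel] at this
  have hcn : c ∉ A.nonunits := by
    intro hcn
    have h2 : c - (c - 1) ∈ A.nonunits := by
      obtain ⟨ha, ha'⟩ := (ValuationSubring.mem_nonunits_iff_exists_mem_maximalIdeal).mp hcn
      obtain ⟨hb, hb'⟩ := (ValuationSubring.mem_nonunits_iff_exists_mem_maximalIdeal).mp hc
      exact (ValuationSubring.mem_nonunits_iff_exists_mem_maximalIdeal).mpr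
        ⟨A.sub_mem ha hb, Ideal.sub_mem _ ha' hb'⟩
    rw [sub_sub_cancel] at h2
    exact (ValuationSubring.mem_nonunits_iff_or A).mp h2 |>.elim
      (fun h => one_ne_zero h) (fun h => h (by rw [inv_one]; exact A.one_mem))
  have hc0 : c ≠ 0 := by
    rintro rfl
    exact hcn ((ValuationSubring.mem_nonunits_iff_or A).mpr (Or.inl rfl))
  refine ⟨hcA, hc0, ?_⟩
  by_contra hinv
  exact hcn ((ValuationSubring.mem_nonunits_iff_or A).mpr (Or.inr hinv))

/-- **Upstairs, chart `1/j`.**  If `1/(β j)` has a value in `m_A` at `W`, then `1/(α j)` has a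
value in `A` at `W`. -/
theorem exists_evalAt_alpha_jInv (hl : l.Prime)
    (W : Place Qb ↥(modularFunctionFieldBar (N * l))) {c : Qb}
    (hc : H34.EvalAt W (heckeBetaBar Qb N l (H58.jBar N))⁻¹ c) (hcm : c ∈ A.nonunits) :
    ∃ c' ∈ A, H34.EvalAt W (heckeAlphaBar Qb N l (H58.jBar N))⁻¹ c' := by
  obtain ⟨s, hs, -, -, h3, -⟩ := exists_mult_data A N l hl
  -- `s(u) * v` has a value `d ∈ A` at `W`
  obtain ⟨d, hd, hWd⟩ := H15b.isFin_chartRing A (N * l) _ W ⟨c, A.nonunits_le hcm, hc⟩ _ h3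
  -- `s(u)` has a value `c0 ≡ 1`
  obtain ⟨c0, hc0, hc0'⟩ := evalAt_chartHom_sub_one A (N * l) s hs W _ c hc hcm
  obtain ⟨-, hc00, hc0inv⟩ := inv_mem_of_sub_one_mem_nonunits A hc0'
  have hσ0 : H58.chartHom A (N * l) (heckeBetaBar Qb N l (H58.jBar N))⁻¹ s ≠ 0 := by
    intro h0
    rw [h0] at hc0
    exact hc00 (hc0.unique (H34.evalAt_zero W))
  refine ⟨c0⁻¹ * d, A.mul_mem _ _ hc0inv hd, ?_⟩
  have h := (hc0.inv hc00).mul hWd
  rwa [← mul_assoc, inv_mul_cancel₀ hσ0, one_mul] at h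

/-- **`hW` of `H26.es_core`, chart `j`.**  If `j` has a value in `A` at `P = W|β`, then `W|α`
is finite on the chart ring of `j`. -/
theorem isFin_restrict_alpha_j (hl : l.Prime) (hα : HeckeAlphaBarIntegral Qb N l)
    (hβ : HeckeBetaBarIntegral Qb N l) (P : Place Qb ↥(modularFunctionFieldBar N))
    (hP : ∃ c ∈ A, H34.EvalAt P (H58.jBar N) c)
    (W : Place Qb ↥(modularFunctionFieldBar (N * l)))
    (hW : W.restrictAlong (heckeBetaBar Qb N l) hβ = P) :
    H34.IsFin A (H58.chartRing A N (H58.jBar N))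
      (W.restrictAlong (heckeAlphaBar Qb N l) hα) := by
  obtain ⟨c, hc, hPc⟩ := hP
  have h1 : H34.EvalAt W (heckeBetaBar Qb N l (H58.jBar N)) c := by
    rw [← H26.evalAt_restrictAlong_iff _ hβ, hW]
    exact hPc
  obtain ⟨c', hc', h2⟩ := exists_evalAt_alpha_j A N l hl W ⟨c, hc, h1⟩
  exact H15b.isFin_chartRing A N _ _
    ⟨c', hc', (H26.evalAt_restrictAlong_iff _ hα W _ _).mpr h2⟩

/-- the same with the hypothesis in `IsFin` form -/
theorem isFin_restrict_alpha_j' (hl : l.Prime) (hα : HeckeAlphaBarIntegral Qb N l)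
    (hβ : HeckeBetaBarIntegral Qb N l) (P : Place Qb ↥(modularFunctionFieldBar N))
    (hP : H34.IsFin A (H58.chartRing A N (H58.jBar N)) P) :
    ∀ W : Place Qb ↥(modularFunctionFieldBar (N * l)),
      W.restrictAlong (heckeBetaBar Qb N l) hβ = P →
        H34.IsFin A (H58.chartRing A N (H58.jBar N))
          (W.restrictAlong (heckeAlphaBar Qb N l) hα) := fun W hW =>
  isFin_restrict_alpha_j A N l hl hα hβ P
    (hP _ (by
      have h := H58.chartHom_mem_chartRing A N (H58.jBar N) X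
      rwa [H58.chartHom_X] at h)) W hW

/-- **`hW` of `H26.es_core`, chart `1/j`.**  If `1/j` has a value in `m_A` at `P = W|β`, then
`W|α` is finite on the chart ring of `1/j`. -/
theorem isFin_restrict_alpha_jInv (hl : l.Prime) (hα : HeckeAlphaBarIntegral Qb N l)
    (hβ : HeckeBetaBarIntegral Qb N l) (P : Place Qb ↥(modularFunctionFieldBar N))
    {c : Qb} (hc : H34.EvalAt P (H58.jBar N)⁻¹ c) (hcm : c ∈ A.nonunits) :
    ∀ W : Place Qb ↥(modularFunctionFieldBar (N * l)),
      W.restrictAlong (heckeBetaBar Qb N l) hβ = P →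
        H34.IsFin A (H58.chartRing A N (H58.jBar N)⁻¹)
          (W.restrictAlong (heckeAlphaBar Qb N l) hα) := by
  intro W hW
  have h1 : H34.EvalAt W (heckeBetaBar Qb N l (H58.jBar N))⁻¹ c := by
    rw [← map_inv₀, ← H26.evalAt_restrictAlong_iff _ hβ, hW]
    exact hc
  obtain ⟨c', hc', h2⟩ := exists_evalAt_alpha_jInv A N l hl W h1 hcm
  refine H15b.isFin_chartRing A N _ _ ⟨c', hc', ?_⟩
  rw [H26.evalAt_restrictAlong_iff _ hα W, map_inv₀]
  exact h2

end Fermat.Agent.S37.H20
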