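/-
S37, node (VAL), abstract core (helper18, second seat).

Pure commutative algebra (Mathlib only): the residue of a norm at a local principal ideal
domain `O` is the product of the values at the primes above the maximal ideal, with the
ramification indices as exponents (all residue degrees `1`):

  `Algebra.norm O z ≡ ∏ q, c q ^ e q  (mod m)`,  where `z ≡ c q (mod q)` for every `q ∣ m`.

Proof: the norm is the determinant of multiplication by `z` on the free `O`-module `S`; reduce
mod `m`; `S / m S = ∏ S / q ^ e q` (Chinese remainder theorem); on each factor `z` is a scalar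
plus a nilpotent, and `dim (S / q ^ e q) = e q`.
-/
import Mathlib

set_option autoImplicit false
set_option linter.deprecated false

namespace Fermat.Agent.S37.H18

open Polynomial IsLocalRing

/-! ### Determinant of a block-diagonal map on a dependent product -/

section DetPi

variable {R : Type*} [CommRing R]

/-- determinant of a (non-uniform) block diagonal matrix -/
theorem det_blockDiagonal' {o : Type*} [Fintype o] [DecidableEq o] {m' : o → Type*}
    [∀ i, Fintype (m' i)] [∀ i, DecidableEq (m' i)] (d : ∀ i, Matrix (m' i) (m' i) R) :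
    (Matrix.blockDiagonal' d).det = ∏ i, (d i).det := by
  classical
  let _ : LinearOrder o := LinearOrder.lift' (Fintype.equivFin o) (Fintype.equivFin o).injective
  rw [(Matrix.blockTriangular_blockDiagonal' d).det_fintype]
  refine Finset.prod_congr rfl fun k _ => ?_
  rw [← Matrix.det_reindex_self (Equiv.sigmaSubtype k)]
  congr 1
  ext x y
  simp [Matrix.toSquareBlock_def, Equiv.sigmaSubtype]

/-- determinant of a "diagonal" endomorphism of a dependent product of finite free modules -/
theorem det_pi_dep {ι : Type*} [Fintype ι] [DecidableEq ι] {M : ι → Type*}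
    [∀ i, AddCommGroup (M i)] [∀ i, Module R (M i)] [∀ i, Module.Free R (M i)]
    [∀ i, Module.Finite R (M i)] (f : ∀ i, M i →ₗ[R] M i) :
    LinearMap.det (LinearMap.pi fun i => (f i).comp (LinearMap.proj i)) =
      ∏ i, LinearMap.det (f i) := by
  classical
  let b := fun i => Module.Free.chooseBasis R (M i)
  let B := Pi.basis b
  rw [← LinearMap.det_toMatrix B]
  have h : LinearMap.toMatrix B B (LinearMap.pi fun i => (f i).comp (LinearMap.proj i)) =
      Matrix.blockDiagonal' fun i => LinearMap.toMatrix (b i) (b i) (f i) := by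
    ext ⟨i, x⟩ ⟨j, y⟩
    rw [LinearMap.toMatrix_apply, Matrix.blockDiagonal'_apply]
    by_cases hij : i = j
    · subst hij
      simp [B, Pi.basis_repr, Pi.basis_apply, LinearMap.toMatrix_apply]
    · simp [B, Pi.basis_repr, Pi.basis_apply, hij]
  rw [h, det_blockDiagonal']
  simp [b, LinearMap.det_toMatrix]

end DetPi

/-! ### Scalar plus nilpotent -/

section Nilpotent

variable {k M : Type*} [Field k] [AddCommGroup M] [Module k M] [FiniteDimensional k M]

/-- characteristic polynomial of (scalar + nilpotent) -/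
theorem charpoly_eq_pow_of_isNilpotent_sub (f : Module.End k M) (c : k)
    (h : IsNilpotent (f - c • (1 : Module.End k M))) :
    f.charpoly = (X - C c) ^ Module.finrank k M := by
  have h1 := h.charpoly_eq_X_pow_finrank
  rw [LinearMap.charpoly_sub_smul] at h1
  have h2 := congrArg (fun p : k[X] => p.comp (X - C c)) h1
  simp only [Polynomial.comp_assoc, Polynomial.add_comp, Polynomial.X_comp, Polynomial.C_comp,
    sub_add_cancel, Polynomial.comp_X, Polynomial.pow_comp] at h2
  exact h2

/-- determinant of (scalar + nilpotent) -/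
theorem det_eq_pow_of_isNilpotent_sub (f : Module.End k M) (c : k)
    (h : IsNilpotent (f - c • (1 : Module.End k M))) :
    LinearMap.det f = c ^ Module.finrank k M := by
  rw [LinearMap.det_eq_sign_charpoly_coeff, charpoly_eq_pow_of_isNilpotent_sub f c h,
    Polynomial.coeff_zero_eq_eval_zero]
  simp only [Polynomial.eval_pow, Polynomial.eval_sub, Polynomial.eval_X, Polynomial.eval_C,
    zero_sub]
  rw [← mul_pow]
  simp

end Nilpotent

/-! ### The residue of a norm -/

section Main

open Ideal UniqueFactorizationMonoid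

attribute [local instance] Ideal.Quotient.field

variable {O S : Type*} [CommRing O] [IsDomain O] [IsLocalRing O] [IsPrincipalIdealRing O]
  [CommRing S] [IsDedekindDomain S] [Algebra O S] [Module.Finite O S] [Module.IsTorsionFree O S]

omit [IsDedekindDomain S] in
/-- **Step 1.** The residue of the norm is the determinant of multiplication on `S / m S`. -/
theorem mk_norm_eq_det_quotient (z : S) :
    Ideal.Quotient.mk (maximalIdeal O) (Algebra.norm O z) =
      LinearMap.det (Algebra.lmul (O ⧸ maximalIdeal O)
        (S ⧸ (maximalIdeal O).map (algebraMap O S)) (Ideal.Quotient.mk _ z)) := by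
  have h1 : LinearMap.det (Algebra.lmul (O ⧸ maximalIdeal O)
      (TensorProduct O (O ⧸ maximalIdeal O) S) (1 ⊗ₜ z)) =
      algebraMap O (O ⧸ maximalIdeal O) (LinearMap.det (Algebra.lmul O S z)) := by
    rw [← Algebra.baseChange_lmul]
    exact LinearMap.det_baseChange (A := O ⧸ maximalIdeal O) (Algebra.lmul O S z)
  let E := Algebra.TensorProduct.quotIdealMapEquivQuotTensor S (maximalIdeal O)
  have hz : E (Ideal.Quotient.mk _ z) = 1 ⊗ₜ z :=
    Algebra.TensorProduct.quotIdealMapEquivQuotTensor_mk S (maximalIdeal O) z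
  have h2 : Algebra.lmul (O ⧸ maximalIdeal O) (TensorProduct O (O ⧸ maximalIdeal O) S) (1 ⊗ₜ z) =
      E.toLinearEquiv.toLinearMap ∘ₗ (Algebra.lmul (O ⧸ maximalIdeal O)
        (S ⧸ (maximalIdeal O).map (algebraMap O S)) (Ideal.Quotient.mk _ z)) ∘ₗ
        E.toLinearEquiv.symm.toLinearMap := by
    refine LinearMap.ext fun x => ?_
    obtain ⟨y, rfl⟩ := E.surjective x
    rw [LinearMap.comp_apply, LinearMap.comp_apply, Algebra.coe_lmul_eq_mul, LinearMap.mul_apply']
    have e1 : E.toLinearEquiv.symm.toLinearMap (E y) = y := E.symm_apply_apply y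
    rw [e1, Algebra.coe_lmul_eq_mul, LinearMap.mul_apply']
    have e2 : E.toLinearEquiv.toLinearMap (Ideal.Quotient.mk _ z * y) =
        E (Ideal.Quotient.mk _ z) * E y := map_mul E _ _
    rw [e2, hz]
  rw [Algebra.norm_apply]
  have h3 := LinearMap.det_conj (Algebra.lmul (O ⧸ maximalIdeal O)
        (S ⧸ (maximalIdeal O).map (algebraMap O S)) (Ideal.Quotient.mk _ z)) E.toLinearEquiv
  rw [← h2, h1] at h3
  exact h3

omit [IsDomain O] [IsPrincipalIdealRing O] [Module.IsTorsionFree O S] in
/-- **Step 2.** On a local factor `S / P ^ e` the element `z ≡ c (mod P)` has determinant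
`c ^ e` (residue degree one). -/
theorem det_lmul_factor
    (P : (factors ((maximalIdeal O).map (algebraMap O S))).toFinset) (z : S) (c : O)
    (hc : z - algebraMap O S c ∈ (P : Ideal S))
    (hdeg : ∀ s : S, ∃ a : O, s - algebraMap O S a ∈ (P : Ideal S)) :
    LinearMap.det (Algebra.lmul (O ⧸ maximalIdeal O)
        (S ⧸ (P : Ideal S) ^ (maximalIdeal O).ramificationIdx' (P : Ideal S))
        (Ideal.Quotient.mk _ z)) =
      Ideal.Quotient.mk (maximalIdeal O) c ^ (maximalIdeal O).ramificationIdx' (P : Ideal S) := by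
  classical
  have hnil : IsNilpotent (Algebra.lmul (O ⧸ maximalIdeal O)
      (S ⧸ (P : Ideal S) ^ (maximalIdeal O).ramificationIdx' (P : Ideal S))
      (Ideal.Quotient.mk _ z) - Ideal.Quotient.mk (maximalIdeal O) c •
        (1 : Module.End (O ⧸ maximalIdeal O)
          (S ⧸ (P : Ideal S) ^ (maximalIdeal O).ramificationIdx' (P : Ideal S)))) := by
    have h1 : Algebra.lmul (O ⧸ maximalIdeal O)
        (S ⧸ (P : Ideal S) ^ (maximalIdeal O).ramificationIdx' (P : Ideal S))
        (Ideal.Quotient.mk _ z) - Ideal.Quotient.mk (maximalIdeal O) c •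
          (1 : Module.End (O ⧸ maximalIdeal O)
            (S ⧸ (P : Ideal S) ^ (maximalIdeal O).ramificationIdx' (P : Ideal S))) =
        Algebra.lmul (O ⧸ maximalIdeal O)
          (S ⧸ (P : Ideal S) ^ (maximalIdeal O).ramificationIdx' (P : Ideal S))
          (Ideal.Quotient.mk _ (z - algebraMap O S c)) := by
      refine LinearMap.ext fun x => ?_
      rw [LinearMap.sub_apply, LinearMap.smul_apply, Module.End.one_apply,
        Algebra.coe_lmul_eq_mul, LinearMap.mul_apply', LinearMap.mul_apply', Algebra.smul_def,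
        Ideal.Quotient.algebraMap_quotient_pow_ramificationIdx, map_sub, sub_mul]
    rw [h1]
    refine ⟨(maximalIdeal O).ramificationIdx' (P : Ideal S), ?_⟩
    rw [← map_pow, ← map_pow, Ideal.Quotient.eq_zero_iff_mem.mpr (Ideal.pow_mem_pow hc _),
      map_zero]
  have hdet := det_eq_pow_of_isNilpotent_sub (k := O ⧸ maximalIdeal O)
    (M := S ⧸ (P : Ideal S) ^ (maximalIdeal O).ramificationIdx' (P : Ideal S))
    (Algebra.lmul (O ⧸ maximalIdeal O)
      (S ⧸ (P : Ideal S) ^ (maximalIdeal O).ramificationIdx' (P : Ideal S))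
      (Ideal.Quotient.mk _ z)) (Ideal.Quotient.mk (maximalIdeal O) c) hnil
  refine hdet.trans ?_
  congr 1
  rw [Ideal.Factors.finrank_pow_ramificationIdx, Ideal.inertiaDeg'_algebraMap]
  have h1 : Module.finrank (O ⧸ maximalIdeal O) (S ⧸ (P : Ideal S)) = 1 := by
    rw [finrank_eq_one_iff_of_nonzero' (1 : S ⧸ (P : Ideal S)) one_ne_zero]
    intro w
    obtain ⟨s, rfl⟩ := Ideal.Quotient.mk_surjective w
    obtain ⟨a, ha⟩ := hdeg s
    refine ⟨Ideal.Quotient.mk _ a, ?_⟩
    rw [Algebra.smul_def, mul_one, Ideal.Quotient.algebraMap_mk_of_liesOver]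
    exact (Ideal.Quotient.eq.mpr ha).symm
  rw [h1, mul_one]

/-- **(VAL-abs), factor form.**  The residue of the norm of `z` is the product of the values of
`z` at the prime factors of `m S`, with the ramification indices as exponents. -/
theorem mk_norm_eq_prod_factors (hm : maximalIdeal O ≠ ⊥) (z : S) (c : Ideal S → O)
    (hc : ∀ P ∈ (factors ((maximalIdeal O).map (algebraMap O S))).toFinset,
      z - algebraMap O S (c P) ∈ P)
    (hdeg : ∀ P ∈ (factors ((maximalIdeal O).map (algebraMap O S))).toFinset,
      ∀ s : S, ∃ a : O, s - algebraMap O S a ∈ P) :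
    Ideal.Quotient.mk (maximalIdeal O) (Algebra.norm O z) =
      ∏ P ∈ (factors ((maximalIdeal O).map (algebraMap O S))).toFinset,
        Ideal.Quotient.mk (maximalIdeal O) (c P) ^ (maximalIdeal O).ramificationIdx' P := by
  classical
  have hI : (maximalIdeal O).map (algebraMap O S) ≠ ⊥ := Ideal.map_ne_bot_of_ne_bot hm
  rw [mk_norm_eq_det_quotient]
  let E := Ideal.Factors.piQuotientLinearEquiv S (maximalIdeal O) hI
  have hE : ∀ a, E a = Ideal.Factors.piQuotientEquiv (maximalIdeal O) hI a := fun a => rfl
  have hconj : E.toLinearMap ∘ₗ (Algebra.lmul (O ⧸ maximalIdeal O)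
        (S ⧸ (maximalIdeal O).map (algebraMap O S)) (Ideal.Quotient.mk _ z)) ∘ₗ
        E.symm.toLinearMap =
      LinearMap.pi (fun P : (factors ((maximalIdeal O).map (algebraMap O S))).toFinset =>
        (Algebra.lmul (O ⧸ maximalIdeal O)
        (S ⧸ (P : Ideal S) ^ (maximalIdeal O).ramificationIdx' (P : Ideal S))
        (Ideal.Quotient.mk _ z)).comp (LinearMap.proj P)) := by
    refine LinearMap.ext fun x => ?_
    obtain ⟨y, rfl⟩ := E.surjective x
    funext P
    rw [LinearMap.comp_apply, LinearMap.comp_apply, LinearEquiv.coe_coe, LinearEquiv.coe_coe,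
      E.symm_apply_apply, Algebra.coe_lmul_eq_mul, LinearMap.mul_apply', hE, map_mul,
      Ideal.Factors.piQuotientEquiv_mk, LinearMap.pi_apply, LinearMap.comp_apply,
      LinearMap.proj_apply, Algebra.coe_lmul_eq_mul, LinearMap.mul_apply', Pi.mul_apply, hE]
  rw [← LinearMap.det_conj _ E, hconj, det_pi_dep, ← Finset.prod_coe_sort
    (factors ((maximalIdeal O).map (algebraMap O S))).toFinset
    (fun P => Ideal.Quotient.mk (maximalIdeal O) (c P) ^ (maximalIdeal O).ramificationIdx' P)]
  refine Finset.prod_congr rfl fun P _ => ?_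
  exact det_lmul_factor P z (c P) (hc P (Finset.coe_mem P)) (hdeg P (Finset.coe_mem P))

/-- **(VAL-abs)**, in the vocabulary `p.primesOver S`, `q.ramificationIdx O`: the residue of the
norm of `z` is the product of the values of `z` at the primes over `m`, with the ramification
indices as exponents (residue degree one at every prime over `m`). -/
theorem mk_norm_eq_prod_primesOver [Fintype ((maximalIdeal O).primesOver S)]
    (hm : maximalIdeal O ≠ ⊥)
    (hdeg : ∀ q : (maximalIdeal O).primesOver S, ∀ s : S, ∃ a : O, s - algebraMap O S a ∈ q.1)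
    (z : S) (c : (maximalIdeal O).primesOver S → O)
    (hc : ∀ q : (maximalIdeal O).primesOver S, z - algebraMap O S (c q) ∈ q.1) :
    Ideal.Quotient.mk (maximalIdeal O) (Algebra.norm O z) =
      ∏ q : (maximalIdeal O).primesOver S,
        Ideal.Quotient.mk (maximalIdeal O) (c q) ^ q.1.ramificationIdx O := by
  classical
  have hmem : ∀ P : Ideal S, P ∈ (factors ((maximalIdeal O).map (algebraMap O S))).toFinset ↔
      P ∈ (maximalIdeal O).primesOver S := fun P =>
    IsDedekindDomain.mem_primesOverFinset_iff hm S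
  let c' : Ideal S → O := fun P =>
    if h : P ∈ (maximalIdeal O).primesOver S then c ⟨P, h⟩ else 0
  have hc' : ∀ q : (maximalIdeal O).primesOver S, c' q.1 = c q := fun q => by
    simp only [c', dif_pos q.2]
  rw [mk_norm_eq_prod_factors hm z c' (fun P hP => by
      have h := hc ⟨P, (hmem P).mp hP⟩
      rwa [← hc' ⟨P, (hmem P).mp hP⟩] at h)
    (fun P hP => hdeg ⟨P, (hmem P).mp hP⟩)]
  rw [Finset.prod_subtype _ hmem]
  refine Finset.prod_congr rfl fun q _ => ?_
  have : q.1.IsPrime := q.2.1
  have : q.1.LiesOver (maximalIdeal O) := q.2.2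
  rw [hc' q, Ideal.ramificationIdx'_eq_ramificationIdx (maximalIdeal O) q.1 hm]

/-- **(VAL-abs)**, congruence form. -/
theorem norm_sub_prod_mem_maximalIdeal [Fintype ((maximalIdeal O).primesOver S)]
    (hm : maximalIdeal O ≠ ⊥)
    (hdeg : ∀ q : (maximalIdeal O).primesOver S, ∀ s : S, ∃ a : O, s - algebraMap O S a ∈ q.1)
    (z : S) (c : (maximalIdeal O).primesOver S → O)
    (hc : ∀ q : (maximalIdeal O).primesOver S, z - algebraMap O S (c q) ∈ q.1) :
    Algebra.norm O z - ∏ q : (maximalIdeal O).primesOver S, c q ^ q.1.ramificationIdx O ∈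
      maximalIdeal O := by
  rw [← Ideal.Quotient.eq, mk_norm_eq_prod_primesOver hm hdeg z c hc, map_prod]
  simp only [map_pow]

/-! ### Field form -/

section Field

variable {F F' : Type*} [Field F] [Field F'] [Algebra O F] [IsFractionRing O F] [Algebra S F']
  [IsFractionRing S F'] [Algebra F F'] [Algebra O F'] [IsScalarTower O F F']
  [IsScalarTower O S F']

omit [IsLocalRing O] in
/-- The norm of the fraction fields restricts to the norm of the free `O`-algebra `S`. -/
theorem norm_fractionRing_eq (z : S) :
    Algebra.norm F (algebraMap S F' z) = algebraMap O F (Algebra.norm O z) :=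
  Algebra.norm_localization O (nonZeroDivisors O) z

/-- **(VAL-abs), field form.**  `F = Frac O`, `F' = Frac S`: the norm of `z ∈ S` from `F'` to `F`
is an element `n` of `O` with `n ≡ ∏ q, c q ^ e q` modulo the maximal ideal. -/
theorem exists_norm_eq_and_sub_prod_mem [Fintype ((maximalIdeal O).primesOver S)]
    (hm : maximalIdeal O ≠ ⊥)
    (hdeg : ∀ q : (maximalIdeal O).primesOver S, ∀ s : S, ∃ a : O, s - algebraMap O S a ∈ q.1)
    (z : S) (c : (maximalIdeal O).primesOver S → O)
    (hc : ∀ q : (maximalIdeal O).primesOver S, z - algebraMap O S (c q) ∈ q.1) :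
    ∃ n : O, Algebra.norm F (algebraMap S F' z) = algebraMap O F n ∧
      n - ∏ q : (maximalIdeal O).primesOver S, c q ^ q.1.ramificationIdx O ∈ maximalIdeal O :=
  ⟨Algebra.norm O z, norm_fractionRing_eq z, norm_sub_prod_mem_maximalIdeal hm hdeg z c hc⟩

end Field

end Main

end Fermat.Agent.S37.H18
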