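/-
S37, node (VAL), Place form (helper18): the specialisation of norms at a place.

`K ⊆ F ⊆ F'`, `K` algebraically closed, `F'/F` finite, characteristic zero.  If `z : F'` has the
constant value `c w` at every place `w` of `F'` above a place `v` of `F` of degree one, then
`Norm_{F'/F} z` has the value `∏ c w ^ e_w` at `v`.  This is `H87.NormSpecAt F' v` literally.

Proof: `H18.exists_norm_eq_and_sub_prod_mem` (abstract core) for `O := O_v` and the integral
closure of `O_v` in `F'`, through the dictionary `H37.toPlace` of `RelPlaces_helper37`.
-/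
import Mathlib
import Fermat.Agent.S37.NormRes_helper18
import Fermat.Agent.S37.RelPlaces_helper37
import Fermat.Agent.S37.Transfer_helper87

set_option autoImplicit false
set_option linter.unusedSectionVars false

open AlgebraicCurve IsDedekindDomain

namespace Fermat.Agent.S37.H18

section NormSpec

open Fermat.Agent.S37.H37

variable {K F F' : Type*} [Field K] [Field F] [Field F'] [Algebra K F] [Algebra K F']
  [Algebra F F'] [IsScalarTower K F F'] [FiniteDimensional F F'] [CharZero F]

attribute [local instance 50] valAlg
attribute [local instance] intClV_algK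

/-- the valuation subring of `toPlace v q` in terms of the adic valuation. -/
theorem mem_toPlace_iff (v : Place K F)
    (q : (IsLocalRing.maximalIdeal v.toValuationSubring).primesOver (intClV F' v)) (x : F') :
    x ∈ (toPlace v q).toValuationSubring ↔ (toHOS v q).valuation F' x ≤ 1 := by
  show x ∈ ((toHOS v q).valuation F').valuationSubring ↔ _
  rw [Valuation.mem_valuationSubring_iff]

/-- the non-units of `toPlace v q` in terms of the adic valuation. -/
theorem mem_nonunits_toPlace_iff (v : Place K F)
    (q : (IsLocalRing.maximalIdeal v.toValuationSubring).primesOver (intClV F' v)) (x : F') :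
    x ∈ (toPlace v q).toValuationSubring.nonunits ↔ (toHOS v q).valuation F' x < 1 := by
  show x ∈ ((toHOS v q).valuation F').valuationSubring.nonunits ↔ _
  rw [ValuationSubring.mem_nonunits_iff]
  exact ((Valuation.isEquiv_valuation_valuationSubring ((toHOS v q).valuation F')).lt_one_iff_lt_one).symm

/-- every height one prime of the integral closure of `O_v` lies over the maximal ideal. -/
theorem hos_mem_primesOver (v : Place K F) (P : HeightOneSpectrum (intClV F' v)) :
    P.asIdeal ∈ (IsLocalRing.maximalIdeal v.toValuationSubring).primesOver (intClV F' v) := by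
  refine ⟨P.isPrime, ⟨?_⟩⟩
  have hne : P.asIdeal.under v.toValuationSubring ≠ ⊥ := Ideal.under_ne_bot _ P.ne_bot
  have hprime : (P.asIdeal.under v.toValuationSubring).IsPrime := Ideal.comap_isPrime _ _
  have hmax : (P.asIdeal.under v.toValuationSubring).IsMaximal := hprime.isMaximal hne
  exact (IsLocalRing.eq_maximalIdeal hmax).symm

/-- an element regular at every place above `v` is integral over `O_v`. -/
theorem mem_intClV_of_forall_toPlace (v : Place K F) (z : F')
    (h : ∀ q : (IsLocalRing.maximalIdeal v.toValuationSubring).primesOver (intClV F' v),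
      z ∈ (toPlace v q).toValuationSubring) : z ∈ intClV F' v := by
  have h1 : z ∈ (algebraMap (intClV F' v) F').range := by
    apply HeightOneSpectrum.mem_integers_of_valuation_le_one F' z
    intro P
    have h2 := h ⟨P.asIdeal, hos_mem_primesOver v P⟩
    rw [mem_toPlace_iff] at h2
    exact h2
  obtain ⟨b, rfl⟩ := h1
  exact b.2

/-- products over the fibre of a place are products over the primes of the integral closure. -/
theorem prod_fiber_eq [HasPrincipalDivisors K F'] (v : Place K F)
    [Fintype ((IsLocalRing.maximalIdeal v.toValuationSubring).primesOver (intClV F' v))]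
    {M : Type*} [CommMonoid M] (g : Place K F' → M) :
    ∏ w ∈ v.fiber F', g w
      = ∏ q : (IsLocalRing.maximalIdeal v.toValuationSubring).primesOver (intClV F' v),
          g (toPlace v q) := by
  symm
  refine Finset.prod_bij (fun q _ => toPlace v q) (fun q _ => ?_) (fun q _ q' _ h => ?_)
    (fun w hw => ?_) (fun q _ => rfl)
  · exact Place.mem_fiber.mpr (restrict_toPlace v q)
  · exact toPlace_injective v h
  · obtain ⟨q, hq⟩ := exists_toPlace_eq v w (Place.mem_fiber.mp hw)
    exact ⟨q, Finset.mem_univ _, hq⟩

set_option synthInstance.maxHeartbeats 400000 in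
/-- residue degree one, elementwise. -/
theorem exists_sub_mem_of_deg_one [IsAlgClosed K] (v : Place K F) (hv : v.deg = 1)
    (q : (IsLocalRing.maximalIdeal v.toValuationSubring).primesOver (intClV F' v))
    (s : intClV F' v) :
    ∃ a : v.toValuationSubring, s - algebraMap v.toValuationSubring (intClV F' v) a ∈ q.1 := by
  have : q.1.LiesOver (IsLocalRing.maximalIdeal v.toValuationSubring) := q.2.2
  have : q.1.IsPrime := q.2.1
  have : q.1.IsMaximal := Ideal.IsPrime.isMaximal q.2.1 (ne_bot_of_mem_primesOver v q)
  have h1 := inertiaDeg_eq_one v hv q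
  rw [Ideal.inertiaDeg_eq_of_isMaximal (IsLocalRing.maximalIdeal v.toValuationSubring) q.1] at h1
  let _ : Field (v.toValuationSubring ⧸ IsLocalRing.maximalIdeal v.toValuationSubring) :=
    Ideal.Quotient.field _
  have hnt : Nontrivial (intClV F' v ⧸ q.1) := Ideal.Quotient.nontrivial_iff.mpr
    (Ideal.IsPrime.ne_top q.2.1)
  have h10 : (1 : intClV F' v ⧸ q.1) ≠ 0 := one_ne_zero
  obtain ⟨a, ha⟩ := (finrank_eq_one_iff_of_nonzero' (1 : intClV F' v ⧸ q.1) h10).mp h1
    (Ideal.Quotient.mk _ s)
  obtain ⟨a, rfl⟩ := Ideal.Quotient.mk_surjective a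
  refine ⟨a, ?_⟩
  rw [Algebra.smul_def, mul_one, Ideal.Quotient.algebraMap_mk_of_liesOver] at ha
  exact Ideal.Quotient.eq.mp ha.symm

set_option maxHeartbeats 1600000 in
set_option synthInstance.maxHeartbeats 400000 in
/-- **(VAL), Place form** (`H87.NormSpecAt`, literally): if `z : F'` has the constant value `c w`
at every place `w` above the place `v` of degree one, then `Norm_{F'/F} z` has the value
`∏ c w ^ e_w` at `v`. -/
theorem normSpecAt [IsAlgClosed K] [HasPrincipalDivisors K F'] (v : Place K F) (hv : v.deg = 1) :
    H87.NormSpecAt F' v := by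
  classical
  intro z c hz
  let _ : Fintype ((IsLocalRing.maximalIdeal v.toValuationSubring).primesOver (intClV F' v)) :=
    (finite_primesOver v).fintype
  have hzw : ∀ q : (IsLocalRing.maximalIdeal v.toValuationSubring).primesOver (intClV F' v),
      z - algebraMap K F' (c (toPlace v q)) ∈ (toPlace v q).toValuationSubring.nonunits :=
    fun q => hz _ (Place.mem_fiber.mpr (restrict_toPlace v q))
  have hzS : z ∈ intClV F' v := by
    apply mem_intClV_of_forall_toPlace
    intro q
    have h1 := (toPlace v q).toValuationSubring.nonunits_subset (hzw q)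
    have h2 : algebraMap K F' (c (toPlace v q)) ∈ (toPlace v q).toValuationSubring :=
      (toPlace v q).algebraMap_mem' _
    have h3 := (toPlace v q).toValuationSubring.add_mem _ _ h1 h2
    rwa [sub_add_cancel] at h3
  let c' : (IsLocalRing.maximalIdeal v.toValuationSubring).primesOver (intClV F' v) →
      v.toValuationSubring := fun q => algebraMap K v.toValuationSubring (c (toPlace v q))
  have hc'F : ∀ q, ((c' q : v.toValuationSubring) : F) = algebraMap K F (c (toPlace v q)) :=
    fun q => rfl
  have hc : ∀ q : (IsLocalRing.maximalIdeal v.toValuationSubring).primesOver (intClV F' v),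
      (⟨z, hzS⟩ : intClV F' v) - algebraMap v.toValuationSubring (intClV F' v) (c' q) ∈ q.1 := by
    intro q
    have h1 := (mem_nonunits_toPlace_iff v q _).mp (hzw q)
    have h2 : z - algebraMap K F' (c (toPlace v q)) = algebraMap (intClV F' v) F'
        ((⟨z, hzS⟩ : intClV F' v) - algebraMap v.toValuationSubring (intClV F' v) (c' q)) := by
      rw [map_sub, ← IsScalarTower.algebraMap_apply v.toValuationSubring (intClV F' v) F',
        valAlg_algebraMap, hc'F, ← IsScalarTower.algebraMap_apply K F F']
      rfl
    rw [h2] at h1
    exact ((toHOS v q).valuation_lt_one_iff_mem _).mp h1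
  obtain ⟨n, hn, hmem⟩ := exists_norm_eq_and_sub_prod_mem (F := F) (F' := F')
    (maximalIdeal_ne_bot v) (fun q s => exists_sub_mem_of_deg_one v hv q s) ⟨z, hzS⟩ c' hc
  have hz' : algebraMap (intClV F' v) F' ⟨z, hzS⟩ = z := rfl
  rw [hz'] at hn
  have hprod : algebraMap K F (∏ w ∈ v.fiber F', c w ^ w.ramificationIndex F) =
      ((∏ q : (IsLocalRing.maximalIdeal v.toValuationSubring).primesOver (intClV F' v),
        c' q ^ q.1.ramificationIdx v.toValuationSubring : v.toValuationSubring) : F) := by
    rw [prod_fiber_eq v, map_prod]
    have hcoe : ((∏ q : (IsLocalRing.maximalIdeal v.toValuationSubring).primesOver (intClV F' v),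
        c' q ^ q.1.ramificationIdx v.toValuationSubring : v.toValuationSubring) : F) =
        ∏ q : (IsLocalRing.maximalIdeal v.toValuationSubring).primesOver (intClV F' v),
          (algebraMap v.toValuationSubring F (c' q)) ^ q.1.ramificationIdx v.toValuationSubring := by
      rw [← ValuationSubring.algebraMap_apply, map_prod]
      simp only [map_pow]
    rw [hcoe]
    refine Finset.prod_congr rfl fun q _ => ?_
    have he : (toPlace v q).ramificationIndex F = q.1.ramificationIdx v.toValuationSubring := by
      exact_mod_cast ramificationIndex_toPlace v q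
    rw [map_pow, he]
    rfl
  rw [ValuationSubring.mem_nonunits_iff_exists_mem_maximalIdeal]
  have hcoe2 : Algebra.norm F z - algebraMap K F (∏ w ∈ v.fiber F', c w ^ w.ramificationIndex F)
      = ((n - ∏ q : (IsLocalRing.maximalIdeal v.toValuationSubring).primesOver (intClV F' v),
        c' q ^ q.1.ramificationIdx v.toValuationSubring : v.toValuationSubring) : F) := by
    rw [hn, hprod]
    rfl
  refine ⟨hcoe2 ▸ SetLike.coe_mem _, ?_⟩
  convert hmem using 1
  exact Subtype.ext hcoe2

end NormSpec


end Fermat.Agent.S37.H18
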