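/-
S37, node (VAL), `Along` form (helper18): the specialisation of norms at a place, along an
algebra homomorphism `φ : F →ₐ[K] F'`, in the vocabulary of the Prelude (`fiberAlong`,
`ramificationIndexAlong`, `algebraAlong`) and of `Gal_helper34` (`EvalAt`).

This is literally the hypothesis `hval` of `H26.es_core`.
-/
import Mathlib
import Fermat.Prelude.Def_AlgebraicCurve_Correspondence
import Fermat.Agent.S37.NormSpec_helper18
import Fermat.Agent.S37.Gal_helper34

set_option autoImplicit false

open AlgebraicCurve

namespace Fermat.Agent.S37.H18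

section NormSpecAlong

variable {K F F' : Type*} [Field K] [Field F] [Field F'] [Algebra K F] [Algebra K F']

/-- **(VAL), `Along` form, membership version**: if `z : F'` has the constant value `c W` at every
place `W` above `P` along `φ`, and `P` has degree one, then the norm of `z` along `φ` has the value
`∏ c W ^ e_W` at `P`. -/
theorem normSpecAlong_mem [IsAlgClosed K] [CharZero F] [HasPrincipalDivisors K F']
    (φ : F →ₐ[K] F') (hfin : FiniteAlong K φ) (hφ : φ.toRingHom.IsIntegral)
    (P : Place K F) (hP : P.deg = 1) (z : F') (c : Place K F' → K)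
    (hc : ∀ W ∈ Place.fiberAlong φ hφ P,
      z - algebraMap K F' (c W) ∈ W.toValuationSubring.nonunits) :
    (letI := algebraAlong φ; Algebra.norm F z)
        - algebraMap K F (∏ W ∈ Place.fiberAlong φ hφ P, c W ^ W.ramificationIndexAlong φ)
      ∈ P.toValuationSubring.nonunits := by
  letI := algebraAlong φ
  haveI := isScalarTower_along φ
  haveI : Module.Finite F F' := hfin
  exact normSpecAt (F' := F') P hP z c hc

/-- **(VAL), `Along` form** = the hypothesis `hval` of `H26.es_core`, for every `z : F'`. -/
theorem normSpecAlong [IsAlgClosed K] [CharZero F] [HasPrincipalDivisors K F']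
    (φ : F →ₐ[K] F') (hfin : FiniteAlong K φ) (hφ : φ.toRingHom.IsIntegral)
    (P : Place K F) (hP : P.deg = 1) (z : F') (c : Place K F' → K)
    (hc : ∀ W ∈ Place.fiberAlong φ hφ P, H34.EvalAt W z (c W)) :
    H34.EvalAt P (letI := algebraAlong φ; Algebra.norm F z)
      (∏ W ∈ Place.fiberAlong φ hφ P, c W ^ W.ramificationIndexAlong φ) :=
  normSpecAlong_mem φ hfin hφ P hP z c hc

/-- the same with integrality derived from finiteness. -/
theorem isIntegral_of_finiteAlong (φ : F →ₐ[K] F') (hfin : FiniteAlong K φ) :
    φ.toRingHom.IsIntegral := by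
  letI := algebraAlong φ
  haveI : Module.Finite F F' := hfin
  exact fun x => Algebra.IsIntegral.isIntegral (R := F) x

/-- **(VAL) as consumed by `H26.es_core`**: the literal `hval` (for `ψ y`, all `y`). -/
theorem es_hval [IsAlgClosed K] [CharZero F] [HasPrincipalDivisors K F']
    (φ ψ : F →ₐ[K] F') (hfin : FiniteAlong K φ) (hφ : φ.toRingHom.IsIntegral)
    (P : Place K F) (hP : P.deg = 1) (B : Subring F) :
    ∀ y ∈ B, ∀ c : Place K F' → K,
      (∀ W ∈ Place.fiberAlong φ hφ P, H34.EvalAt W (ψ y) (c W)) →
      H34.EvalAt P (letI := algebraAlong φ; Algebra.norm F (ψ y))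
        (∏ W ∈ Place.fiberAlong φ hφ P, c W ^ W.ramificationIndexAlong φ) :=
  fun y _ c hc => normSpecAlong φ hfin hφ P hP (ψ y) c hc

end NormSpecAlong

end Fermat.Agent.S37.H18
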