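import Mathlib

/-!
# S37 helper node: the residue field of a valuation subring of an algebraically closed field
(helper82)

For a valuation subring `A` of an algebraically closed field `K` the residue field of `A` is
algebraically closed, hence infinite.  This is the instance
`[Infinite (IsLocalRing.ResidueField A)]` required by the multiset lemmas of the congruence
relation (`A ≤ Qbar` a valuation subring over a prime).
-/

set_option autoImplicit false

namespace Fermat.Agent.S37.H82

open Polynomial

/-- The residue field of a valuation subring of an algebraically closed field is algebraically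
closed. -/
theorem isAlgClosed_residueField {K : Type*} [Field K] [IsAlgClosed K] (A : ValuationSubring K) :
    IsAlgClosed (IsLocalRing.ResidueField A) := by
  refine IsAlgClosed.of_exists_root _ fun p hp hirr => ?_
  obtain ⟨P, hPmap, hPdeg, hPmonic⟩ :=
    Polynomial.lifts_and_degree_eq_and_monic
      ((Polynomial.mem_lifts p).mpr
        (Polynomial.map_surjective (IsLocalRing.residue A) IsLocalRing.residue_surjective p)) hp
  have hdeg : (P.map (algebraMap A K)).degree ≠ 0 := by
    rw [Polynomial.degree_map_eq_of_injective (FaithfulSMul.algebraMap_injective A K), hPdeg]
    exact (Polynomial.degree_pos_of_irreducible hirr).ne'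
  obtain ⟨x, hx⟩ := IsAlgClosed.exists_root (P.map (algebraMap A K)) hdeg
  have hint : IsIntegral A x := ⟨P, hPmonic, by rwa [Polynomial.IsRoot.def, Polynomial.eval_map] at hx⟩
  obtain ⟨z, rfl⟩ := IsIntegrallyClosed.isIntegral_iff.mp hint
  refine ⟨IsLocalRing.residue A z, ?_⟩
  have hz : P.eval z = 0 := by
    rw [Polynomial.IsRoot.def, Polynomial.eval_map, Polynomial.eval₂_at_apply] at hx
    exact (FaithfulSMul.algebraMap_injective A K) (by rw [hx, map_zero])
  rw [← hPmap, Polynomial.eval_map, Polynomial.eval₂_at_apply, hz, map_zero]

/-- The residue field of a valuation subring of an algebraically closed field is infinite. -/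
theorem infinite_residueField {K : Type*} [Field K] [IsAlgClosed K] (A : ValuationSubring K) :
    Infinite (IsLocalRing.ResidueField A) :=
  haveI := isAlgClosed_residueField A
  IsAlgClosed.instInfinite

end Fermat.Agent.S37.H82
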