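import Mathlib
import Fermat.Agent.S18.ValRing_helper86
import Fermat.Agent.S18.PrincDiv_helper98
import Fermat.Agent.S37.Stmts_helper27
import Fermat.Agent.S37.ESCore_helper26
import Fermat.Agent.S37.ESChart_helper58
import Fermat.Agent.S37.MultFin_helper20
import Fermat.Agent.S37.NormSpecAlong_helper18
import Fermat.Agent.S37.ResInf_helper82
import Fermat.Agent.S37.ESBridge_helper82

/-!
# S37 node (ES): the final export `esStmt` (helper82, second seat)

`esStmt : H27.ESStmt N A ℓ φ` — the Eichler–Shimura congruence on places,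
`[φ² P] - T_ℓ [φ P] + ℓ [P] ∈ DivT N A` for every place `P` of `X₀(N)` — assembled from the landed
nodes:

* `H26.es_core` (divisor core of the congruence relation, on `H96.CorrMultiset`);
* `H58.hcong_j`, `H58.hcong_jInv` ((ES-val): (CONJ) + (KRON) + (SAT-A) + (MULT));
* `H20.isFin_restrict_alpha_j'`, `H20.isFin_restrict_alpha_jInv` (finiteness transfer `W|β → W|α`);
* `H18.es_hval` ((VAL): specialisation of norms at a place);
* `H58.isFin_arithmeticGalois_smul` ((B3): the decomposition group preserves finiteness);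
* `H82.isFin_or_isInf`, `H82.es_divT_gen` (chart dichotomy and the bridge to `DivT`).
-/

set_option autoImplicit false

open AlgebraicCurve ModularCurve
open Fermat.Agent.S37.H34

namespace Fermat.Agent.S37.H82

noncomputable section

section Generic

variable {K F F' : Type*} [Field K] [Field F] [Field F'] [Algebra K F] [Algebra K F']

/-- if all places have degree one, the inertia degrees along a homomorphism are one. -/
theorem inertiaDegAlong_eq_one (ψ : F →ₐ[K] F') (hψ : ψ.toRingHom.IsIntegral)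
    (hdeg : ∀ v : Place K F, v.deg = 1) (hdeg' : ∀ w : Place K F', w.deg = 1)
    (W : Place K F') : W.inertiaDegAlong ψ hψ = 1 := by
  let _ := algebraAlong ψ
  have := isScalarTower_along ψ
  have := isIntegral_along ψ hψ
  have h := W.deg_restrict_mul_inertiaDeg (F := F)
  rw [hdeg, hdeg', one_mul] at h
  exact h

end Generic

section Modular

local notation "Qb" => AlgebraicClosure ℚ

variable {A : ValuationSubring Qb} {N ℓ : ℕ} [NeZero N] [NeZero ℓ]

/-- **The chart statement** for an arbitrary chart coordinate `x`: the generic inputs of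
`H26.es_core` ((VAL), inertia degree one, infinite residue field, constants) are discharged; what
remains are the finiteness of the places involved and the congruence (ES-val). -/
theorem es_chart (hα : HeckeAlphaBarIntegral Qb N ℓ) (hβ : HeckeBetaBarIntegral Qb N ℓ)
    [HasPrincipalDivisors Qb (modularFunctionFieldBar (N * ℓ))]
    (x : ↥(modularFunctionFieldBar N))
    (P Q₁ Q₂ : Place Qb (modularFunctionFieldBar N))
    (hQ₁ : IsFin A (H58.chartRing A N x) Q₁) (hQ₂ : IsFin A (H58.chartRing A N x) Q₂)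
    (hW : ∀ W : Place Qb ↥(modularFunctionFieldBar (N * ℓ)),
      W.restrictAlong (heckeBetaBar Qb N ℓ) hβ = P →
        IsFin A (H58.chartRing A N x) (W.restrictAlong (heckeAlphaBar Qb N ℓ) hα))
    (hcong : ∀ y ∈ H58.chartRing A N x, ∀ c₀ c₁ c₂ : Qb,
      EvalAt P (letI := algebraAlong (heckeBetaBar Qb N ℓ);
        Algebra.norm ↥(modularFunctionFieldBar N) (heckeAlphaBar Qb N ℓ y)) c₀ →
      EvalAt Q₁ y c₁ → EvalAt Q₂ y c₂ → c₀ - c₁ * c₂ ^ ℓ ∈ A.nonunits) :
    heckeDivBar hα hβ (Finsupp.single P (1 : ℤ)) - Finsupp.single Q₁ (1 : ℤ)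
        - ℓ • Finsupp.single Q₂ (1 : ℤ) ∈
      AddSubgroup.closure (pairSet A (H58.chartRing A N x)) := by
  have := infinite_residueField A
  have hfinβ := H37.finiteAlong_FN N (N * ℓ) (heckeBetaBar Qb N ℓ)
  have key := H26.es_core (heckeBetaBar Qb N ℓ) (heckeAlphaBar Qb N ℓ) hβ hα A
    (H58.chartRing A N x) (fun a ha => H58.constHom_mem_chartRing A N x ⟨a, ha⟩) P Q₁ Q₂ ℓ
    hQ₁ hQ₂ hW
    (fun W _ => inertiaDegAlong_eq_one (heckeAlphaBar Qb N ℓ) hα
      (Fermat.Agent.S18.H98.deg_eq_one N) (Fermat.Agent.S18.H98.deg_eq_one (N * ℓ)) W)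
    (H18.es_hval (heckeBetaBar Qb N ℓ) (heckeAlphaBar Qb N ℓ) hfinβ hβ P
      (Fermat.Agent.S18.H98.deg_eq_one N P) (H58.chartRing A N x))
    hcong
  refine AddSubgroup.closure_mono ?_ key
  rintro d ⟨a, b, -, -, ha, hb, h, rfl⟩
  exact ⟨a, b, ha, hb, h, rfl⟩

omit [NeZero N] in
/-- the decomposition group preserves finiteness on a chart whose coordinate it fixes
(both `g φ • P` and `(g φ)⁻¹ • P`). -/
theorem isFin_frob_smul (φ : Qb ≃ₐ[ℚ] Qb) (hφ : φ ∈ A.decompositionSubgroup ℚ)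
    {x : ↥(modularFunctionFieldBar N)}
    (hx : ∀ σ : Qb ≃ₐ[ℚ] Qb, arithmeticRingAut (modularFunctionFieldFull N) σ x = x)
    {P : Place Qb (modularFunctionFieldBar N)} (hP : IsFin A (H58.chartRing A N x) P) :
    IsFin A (H58.chartRing A N x) (arithmeticGalois (modularFunctionFieldFull N) φ • P) ∧
      IsFin A (H58.chartRing A N x)
        ((arithmeticGalois (modularFunctionFieldFull N) φ)⁻¹ • P) := by
  refine ⟨H58.isFin_arithmeticGalois_smul ⟨φ, hφ⟩ (hx _) hP, ?_⟩
  rw [← map_inv]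
  exact H58.isFin_arithmeticGalois_smul (⟨φ, hφ⟩⁻¹ : A.decompositionSubgroup ℚ) (hx _) hP

/-- **(ES) on the chart `j`**: for a `B`-finite place `P`,
`T_ℓ(P) - φ P - ℓ φ⁻¹ P` is a sum of differences of `B`-finite places with congruent values. -/
theorem es_chart_j (hℓ : ℓ.Prime) (hℓN : ¬ ℓ ∣ N) (hA : A.LiesOverPrime ℓ)
    (φ : Qb ≃ₐ[ℚ] Qb) (hφ : A.IsFrobeniusAt φ ℓ)
    (hα : HeckeAlphaBarIntegral Qb N ℓ) (hβ : HeckeBetaBarIntegral Qb N ℓ)
    [HasPrincipalDivisors Qb (modularFunctionFieldBar (N * ℓ))]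
    (P : Place Qb (modularFunctionFieldBar N))
    (hP : IsFin A (H58.chartRing A N (H58.jBar N)) P) :
    heckeDivBar hα hβ (Finsupp.single P (1 : ℤ))
        - Finsupp.single (arithmeticGalois (modularFunctionFieldFull N) φ • P) (1 : ℤ)
        - ℓ • Finsupp.single ((arithmeticGalois (modularFunctionFieldFull N) φ)⁻¹ • P) (1 : ℤ) ∈
      AddSubgroup.closure (pairSet A (H58.chartRing A N (H58.jBar N))) := by
  have : Fact ℓ.Prime := ⟨hℓ⟩
  have : CharP (IsLocalRing.ResidueField A) ℓ :=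
    Fermat.Agent.S18.H86.charP_residueField A hA hℓ
  obtain ⟨hQ₁, hQ₂⟩ := isFin_frob_smul φ hφ.mem_decompositionSubgroup
    (H58.arithmeticRingAut_jBar N) hP
  exact es_chart hα hβ (H58.jBar N) P _ _ hQ₁ hQ₂
    (H20.isFin_restrict_alpha_j' A N ℓ hℓ hα hβ P hP) (H58.hcong_j hℓN hA φ hφ hP)

/-- **(ES) on the chart `1/j`**: for a `j`-infinite place `P` (`1/j` has a value in the maximal
ideal of `A`), `T_ℓ(P) - φ P - ℓ φ⁻¹ P` is a sum of differences of `B∞`-finite places with
congruent values. -/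
theorem es_chart_jInv (hℓ : ℓ.Prime) (hℓN : ¬ ℓ ∣ N) (hA : A.LiesOverPrime ℓ)
    (φ : Qb ≃ₐ[ℚ] Qb) (hφ : A.IsFrobeniusAt φ ℓ)
    (hα : HeckeAlphaBarIntegral Qb N ℓ) (hβ : HeckeBetaBarIntegral Qb N ℓ)
    [HasPrincipalDivisors Qb (modularFunctionFieldBar (N * ℓ))]
    (P : Place Qb (modularFunctionFieldBar N))
    (hP : ∃ c ∈ A.nonunits, EvalAt P (H58.jBar N)⁻¹ c) :
    heckeDivBar hα hβ (Finsupp.single P (1 : ℤ))
        - Finsupp.single (arithmeticGalois (modularFunctionFieldFull N) φ • P) (1 : ℤ)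
        - ℓ • Finsupp.single ((arithmeticGalois (modularFunctionFieldFull N) φ)⁻¹ • P) (1 : ℤ) ∈
      AddSubgroup.closure (pairSet A (H58.chartRing A N (H58.jBar N)⁻¹)) := by
  have : Fact ℓ.Prime := ⟨hℓ⟩
  have : CharP (IsLocalRing.ResidueField A) ℓ :=
    Fermat.Agent.S18.H86.charP_residueField A hA hℓ
  have hfin := isFin_of_isInf A N hP
  obtain ⟨c, hcm, hc⟩ := hP
  obtain ⟨hQ₁, hQ₂⟩ := isFin_frob_smul φ hφ.mem_decompositionSubgroup
    (H58.arithmeticRingAut_jBar_inv N) hfin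
  exact es_chart hα hβ (H58.jBar N)⁻¹ P _ _ hQ₁ hQ₂
    (H20.isFin_restrict_alpha_jInv A N ℓ hℓ hα hβ P hc hcm)
    (H58.hcong_jInv hℓN hA φ hφ hfin hc hcm)

end Modular

section Final

local notation "Qb" => AlgebraicClosure ℚ

/-- **(ES)** the Eichler–Shimura congruence on places: the final export for `S37`. -/
theorem esStmt (N ℓ : ℕ) [NeZero N] [NeZero ℓ] (hℓ : ℓ.Prime) (hℓN : ¬ ℓ ∣ N)
    (A : ValuationSubring Qb) (hA : A.LiesOverPrime ℓ) (φ : Qb ≃ₐ[ℚ] Qb)
    (hφ : A.IsFrobeniusAt φ ℓ) : H27.ESStmt N A ℓ φ := by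
  intro _ hα hβ inst P
  have : HasPrincipalDivisors Qb (modularFunctionFieldBar (N * ℓ)) := inst
  exact es_divT_gen (arithmeticGalois (modularFunctionFieldFull N) φ) (heckeDivBar hα hβ) ℓ
    (H27.RedRel N A)
    (fun _ _ ha hb h => Or.inl (sameChar_of_forall ha hb h))
    (fun _ _ ha hb h => Or.inr (sameChar_of_forall ha hb h))
    (fun Q hQ => es_chart_j hℓ hℓN hA φ hφ hα hβ Q hQ)
    (fun Q hQ => es_chart_jInv hℓ hℓN hA φ hφ hα hβ Q hQ) P

end Final

end

end Fermat.Agent.S37.H82
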