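/-
S37, final export (GAL) (helper72, second seat named in the node table v2).

`galStmt : H27.GalStmt N A` in the literal binder shape of the hypothesis `hGal` of
`H27.result_of_const` (Stmts_helper27): for `τ` in the inertia group of `A` and every place `P`
of `Qbar(X₀(N))`, the places `τ P` and `P` are related by `H27.RedRel N A`
(same residue character on the chart ring of `j` or on the chart ring of `1/j`).

Proof: every place has degree one (`H98.deg_eq_one`), so it is `j`-finite or `1/j`-finite
(`H15b.finite_or_inv_finite`); on the corresponding chart inertia acts trivially modulo `m_A`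
(`H15b.sameChar_inertia`, i.e. (SAT-A) `H58.inertia_sub_mem` + `H34.evalAt_smul_congr`).
-/
import Mathlib
import Fermat.Agent.S37.Stmts_helper27
import Fermat.Agent.S37.GalChart_helper15

set_option autoImplicit false

open AlgebraicCurve ModularCurve
open Fermat.Agent.S18 Fermat.Agent.S28

namespace Fermat.Agent.S37.H72

noncomputable section

local notation "Qb" => AlgebraicClosure ℚ

/-- The relation of `GalChart_helper15` is the relation of the statements file. -/
theorem redRel_iff_rel (N : ℕ) [NeZero N] (A : ValuationSubring Qb)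
    (P P' : Place Qb ↥(modularFunctionFieldBar N)) :
    H27.RedRel N A P P' ↔ H15b.rel A N P P' :=
  Iff.rfl

/-- **(GAL), relation form on one place**: inertia does not move the reduction of a place. -/
theorem redRel_inertia_smul (N : ℕ) [NeZero N] {ℓ : ℕ} (hℓ : ℓ.Prime) (hℓN : ¬ ℓ ∣ N)
    (A : ValuationSubring Qb) (hA : A.LiesOverPrime ℓ) {τ : Qb ≃ₐ[ℚ] Qb}
    (hτ : τ ∈ A.inertiaSubgroupIn ℚ) (P : Place Qb ↥(modularFunctionFieldBar N)) :
    H27.RedRel N A (arithmeticGalois (modularFunctionFieldFull N) τ • P) P := by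
  have : Fact ℓ.Prime := ⟨hℓ⟩
  rcases H15b.finite_or_inv_finite A P (H98.deg_eq_one N P) (H58.jBar N) with h | h
  · exact Or.inl (H15b.sameChar_inertia hℓN hA (H58.isGoodCoord_jBar A N) (jqModC A)
      (H58.coeffMap_subtype_jqModC A N) (H58.arithmeticRingAut_jBar N) hτ P h)
  · exact Or.inr (H15b.sameChar_inertia hℓN hA (H58.isGoodCoord_jBar_inv A N) (H36.jInv A)
      (H58.coeffMap_subtype_jInv A N) (H58.arithmeticRingAut_jBar_inv N) hτ P h)

/-- **(GAL)**, the final export: literally the hypothesis `hGal` of `H27.result_of_const`. -/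
theorem galStmt (N : ℕ) [NeZero N] (ℓ : ℕ) (hℓ : ℓ.Prime) (hℓN : ¬ ℓ ∣ N)
    (A : ValuationSubring Qb) (hA : A.LiesOverPrime ℓ) : H27.GalStmt N A :=
  fun _ hτ P => redRel_inertia_smul N hℓ hℓN A hA hτ P

end

end Fermat.Agent.S37.H72
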