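/-
S37, modular instance of (TRANSFER) (helper72).

`H87.TransferAt` (TransferFn_helper87) for the generator pairs of `H27.DivT N A`
(`H27.RedRel N A P P'`: same residue character on the chart ring of `j` or of `1/j` at level `N`)
along an extension `Fbar_N → Fbar_L` of modular function fields, on the two chart rings of a
coordinate `x` of level `L`:

* `transferAt_j`     : `x = j`                       (any `L`);
* `transferAt_two`   : `x = t₂` (`H69.hauptBar2`),   `2 ∣ L`, `2` a unit of `A`;
* `transferAt_three` : `x = t₃` (`H69.hauptBar3`),   `3 ∣ L`, `3` a unit of `A`.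

These are literally the hypothesis `hR` of `H86.hsum_of_transferAt` /
`H53.sum_ord_eq_zero_of_transferAt` for `rel := H27.RedRel N A`.

The algebra `Fbar_N → Fbar_L` is an instance argument with one compatibility hypothesis
(`hcoe`: it does not change `q`-expansions); `levelAlgebra` is the inclusion algebra for `N ∣ L`
(the one of `H60.kumPow_of_dvd`), with its tower, finiteness and `hcoe`.
-/
import Mathlib
import Fermat.Agent.S37.Stmts_helper27
import Fermat.Agent.S37.TransferInst_helper87
import Fermat.Agent.S37.HsumA1_helper86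
import Fermat.Agent.S37.NormSpec_helper18
import Fermat.Agent.S37.ResInf_helper82
import Fermat.Agent.S18.PrincDiv_helper98
import Fermat.Agent.S18.HauptInst_helper69

set_option autoImplicit false

open AlgebraicCurve ModularCurve

namespace Fermat.Agent.S37.H72

noncomputable section

local notation "Qb" => AlgebraicClosure ℚ

/-! ### `H27.SameChar` is `H87.SamePair` -/

theorem samePair_of_sameChar {N : ℕ} (A : ValuationSubring Qb)
    (R : Subring ↥(modularFunctionFieldBar N)) {P P' : Place Qb ↥(modularFunctionFieldBar N)}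
    (h : H27.SameChar A R P P') : H87.SamePair A R P P' := by
  rw [H87.samePair_iff]
  intro y hy
  obtain ⟨c, c', hc, hc', hcc⟩ := h y hy
  exact ⟨c, c', c.2, c'.2, hc, hc', ValuationSubring.coe_mem_nonunits_iff.mpr hcc⟩

theorem sameChar_of_samePair {N : ℕ} (A : ValuationSubring Qb)
    (R : Subring ↥(modularFunctionFieldBar N)) {P P' : Place Qb ↥(modularFunctionFieldBar N)}
    (h : H87.SamePair A R P P') : H27.SameChar A R P P' := by
  rw [H87.samePair_iff] at h
  intro y hy
  obtain ⟨c, c', hc, hc', e, e', hcc⟩ := h y hy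
  exact ⟨⟨c, hc⟩, ⟨c', hc'⟩, e, e', ValuationSubring.coe_mem_nonunits_iff.mp hcc⟩

/-- the chart rings of SatA_helper58 in the vocabulary of TransferAlg_helper87. -/
theorem mem_chartRing_iff (A : ValuationSubring Qb) (L : ℕ)
    (x y : ↥(modularFunctionFieldBar L)) :
    y ∈ H58.chartRing A L x ↔ (H87.chartHom A.toSubring x).IsIntegralElem y :=
  Iff.rfl

/-! ### Units of `A` -/

/-- an integer prime to the residue characteristic is invertible in `A`. -/
theorem natCast_inv_mem {A : ValuationSubring Qb} {ℓ : ℕ} (hℓ : ℓ.Prime)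
    (hA : A.LiesOverPrime ℓ) (n : ℕ) (hn : ¬ ℓ ∣ n) : ((n : Qb))⁻¹ ∈ A := by
  have hℓm : ((ℓ : ℕ) : A) ∈ IsLocalRing.maximalIdeal A := by
    apply ValuationSubring.coe_mem_nonunits_iff.mp
    have h1 : (((ℓ : ℕ) : A) : Qb) = (ℓ : Qb) := by push_cast; rfl
    rw [h1]
    exact hA
  have hcop : IsCoprime (ℓ : ℤ) (n : ℤ) :=
    Nat.isCoprime_iff_coprime.mpr ((Nat.Prime.coprime_iff_not_dvd hℓ).mpr hn)
  obtain ⟨a, b, hab⟩ := hcop
  have hnu : IsUnit ((n : ℕ) : A) := by
    by_contra hnu
    have hnm : ((n : ℕ) : A) ∈ IsLocalRing.maximalIdeal A :=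
      (IsLocalRing.mem_maximalIdeal _).mpr hnu
    have h1 : (1 : A) ∈ IsLocalRing.maximalIdeal A := by
      have e : (1 : A) = (a : A) * ((ℓ : ℕ) : A) + (b : A) * ((n : ℕ) : A) := by
        have := congrArg (Int.cast : ℤ → A) hab
        push_cast at this
        exact this.symm
      rw [e]
      exact Ideal.add_mem _ (Ideal.mul_mem_left _ _ hℓm) (Ideal.mul_mem_left _ _ hnm)
    exact (IsLocalRing.maximalIdeal.isMaximal A).ne_top ((Ideal.eq_top_iff_one _).mpr h1)
  obtain ⟨v, hv⟩ := hnu.exists_right_inv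
  have h2 : (n : Qb) * (v : Qb) = 1 := by
    have := congrArg (fun a : A => (a : Qb)) hv
    simpa using this
  rw [← eq_inv_of_mul_eq_one_right h2]
  exact v.2

theorem two_inv_mem {A : ValuationSubring Qb} {ℓ : ℕ} (hℓ : ℓ.Prime)
    (hA : A.LiesOverPrime ℓ) (h2 : ℓ ≠ 2) : (2 : Qb)⁻¹ ∈ A := by
  have h := natCast_inv_mem hℓ hA 2 (fun h => h2 ((Nat.prime_dvd_prime_iff_eq hℓ Nat.prime_two).mp h))
  simpa using h

theorem three_inv_mem {A : ValuationSubring Qb} {ℓ : ℕ} (hℓ : ℓ.Prime)
    (hA : A.LiesOverPrime ℓ) (h3 : ℓ ≠ 3) : (3 : Qb)⁻¹ ∈ A := by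
  have h := natCast_inv_mem hℓ hA 3 (fun h => h3 ((Nat.prime_dvd_prime_iff_eq hℓ Nat.prime_three).mp h))
  simpa using h

/-! ### The coordinate `j` -/

open Fermat.Agent.S18 Fermat.Agent.S28

theorem jBar_ne_zero (N : ℕ) : H58.jBar N ≠ 0 := by
  intro h
  have h1 : (jqModC Qb : LaurentSeries Qb) = 0 := congrArg Subtype.val h
  have htr := H36.transcendental_jqModC Qb
  rw [h1] at htr
  exact htr isAlgebraic_zero

/-- the two spellings of `j ∈ Fbar_N` (SatA_helper58 / S24 Cover_helper98) agree. -/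
theorem jBar_eq (N : ℕ) [NeZero N] : H58.jBar N = Fermat.Agent.S24.H98.jBar N :=
  Subtype.ext (H69.coe_jBar N).symm

/-- an algebra map which does not change `q`-expansions sends `j` to `j`. -/
theorem algebraMap_jBar (N L : ℕ)
    [Algebra ↥(modularFunctionFieldBar N) ↥(modularFunctionFieldBar L)]
    (hcoe : ∀ y : ↥(modularFunctionFieldBar N),
      ((algebraMap ↥(modularFunctionFieldBar N) ↥(modularFunctionFieldBar L) y :
        ↥(modularFunctionFieldBar L)) : LaurentSeries Qb) = (y : LaurentSeries Qb)) :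
    algebraMap ↥(modularFunctionFieldBar N) ↥(modularFunctionFieldBar L) (H58.jBar N) =
      H58.jBar L :=
  Subtype.ext (hcoe _)

/-! ### The three level-`L` charts, for an arbitrary algebra `Fbar_N → Fbar_L` -/

section Transfer

variable (N L : ℕ) [NeZero N] [NeZero L] (A : ValuationSubring Qb)
  [Algebra ↥(modularFunctionFieldBar N) ↥(modularFunctionFieldBar L)]
  [IsScalarTower Qb ↥(modularFunctionFieldBar N) ↥(modularFunctionFieldBar L)]
  [FiniteDimensional ↥(modularFunctionFieldBar N) ↥(modularFunctionFieldBar L)]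
  [HasPrincipalDivisors Qb ↥(modularFunctionFieldBar L)]

/-- **(TRANSFER) for the generators of `DivT`, level-`L` coordinate `j`.** -/
theorem transferAt_j
    (hcoe : ∀ y : ↥(modularFunctionFieldBar N),
      ((algebraMap ↥(modularFunctionFieldBar N) ↥(modularFunctionFieldBar L) y :
        ↥(modularFunctionFieldBar L)) : LaurentSeries Qb) = (y : LaurentSeries Qb))
    (P P' : Place Qb ↥(modularFunctionFieldBar N)) (h : H27.RedRel N A P P') :
    H87.TransferAt A (H58.chartRing A L (H58.jBar L)) P P' ∧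
      H87.TransferAt A (H58.chartRing A L (H58.jBar L)⁻¹) P P' := by
  have : Infinite (IsLocalRing.ResidueField A) := H82.infinite_residueField A
  have hj := algebraMap_jBar N L hcoe
  refine H87.transfer_self A (H98.deg_eq_one L)
    (fun v => H18.normSpecAt v (H98.deg_eq_one N v)) (H58.jBar N) (jBar_ne_zero N)
    (H58.chartRing A N (H58.jBar N)) (H58.chartRing A N (H58.jBar N)⁻¹)
    (fun _ => Iff.rfl) (fun _ => Iff.rfl) _ _ (fun y => ?_) (fun y => ?_) P P' ?_
  · rw [hj]
    exact Iff.rfl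
  · rw [hj]
    exact Iff.rfl
  · rcases h with h | h
    · exact Or.inl (samePair_of_sameChar A _ h)
    · exact Or.inr (samePair_of_sameChar A _ h)

/-- **(TRANSFER) for the generators of `DivT`, level-`L` coordinate `t` with
`j t² = (t + 256)³`** (`2` invertible in `A`). -/
theorem transferAt_two_of_rel
    (hcoe : ∀ y : ↥(modularFunctionFieldBar N),
      ((algebraMap ↥(modularFunctionFieldBar N) ↥(modularFunctionFieldBar L) y :
        ↥(modularFunctionFieldBar L)) : LaurentSeries Qb) = (y : LaurentSeries Qb))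
    (t : ↥(modularFunctionFieldBar L)) (hrel : H58.jBar L * t ^ 2 = (t + 256) ^ 3)
    (h2 : (2 : Qb)⁻¹ ∈ A)
    (P P' : Place Qb ↥(modularFunctionFieldBar N)) (h : H27.RedRel N A P P') :
    H87.TransferAt A (H58.chartRing A L t) P P' ∧
      H87.TransferAt A (H58.chartRing A L t⁻¹) P P' := by
  have : Infinite (IsLocalRing.ResidueField A) := H82.infinite_residueField A
  have hj := algebraMap_jBar N L hcoe
  have ht : t ≠ 0 := by
    rintro rfl
    norm_num at hrel
  refine H87.transfer_two A (H98.deg_eq_one N) (H98.deg_eq_one L)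
    (fun v => H18.normSpecAt v (H98.deg_eq_one N v)) (H58.jBar N) (jBar_ne_zero N)
    (H58.chartRing A N (H58.jBar N)) (H58.chartRing A N (H58.jBar N)⁻¹)
    (fun _ => Iff.rfl) (fun _ => Iff.rfl) t ht (by rw [hj]; exact hrel)
    ⟨(2 : Qb)⁻¹, h2⟩ (inv_mul_cancel₀ two_ne_zero) _ _ (fun _ => Iff.rfl) (fun _ => Iff.rfl)
    P P' ?_
  rcases h with h | h
  · exact Or.inl (samePair_of_sameChar A _ h)
  · exact Or.inr (samePair_of_sameChar A _ h)

/-- **(TRANSFER) for the generators of `DivT`, level-`L` coordinate `t` with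
`j t³ = (t + 27)(t + 243)³`** (`3` invertible in `A`). -/
theorem transferAt_three_of_rel
    (hcoe : ∀ y : ↥(modularFunctionFieldBar N),
      ((algebraMap ↥(modularFunctionFieldBar N) ↥(modularFunctionFieldBar L) y :
        ↥(modularFunctionFieldBar L)) : LaurentSeries Qb) = (y : LaurentSeries Qb))
    (t : ↥(modularFunctionFieldBar L))
    (hrel : H58.jBar L * t ^ 3 = (t + 27) * (t + 243) ^ 3)
    (h3 : (3 : Qb)⁻¹ ∈ A)
    (P P' : Place Qb ↥(modularFunctionFieldBar N)) (h : H27.RedRel N A P P') :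
    H87.TransferAt A (H58.chartRing A L t) P P' ∧
      H87.TransferAt A (H58.chartRing A L t⁻¹) P P' := by
  have : Infinite (IsLocalRing.ResidueField A) := H82.infinite_residueField A
  have hj := algebraMap_jBar N L hcoe
  have ht : t ≠ 0 := by
    rintro rfl
    norm_num at hrel
  refine H87.transfer_three A (H98.deg_eq_one N) (H98.deg_eq_one L)
    (fun v => H18.normSpecAt v (H98.deg_eq_one N v)) (H58.jBar N) (jBar_ne_zero N)
    (H58.chartRing A N (H58.jBar N)) (H58.chartRing A N (H58.jBar N)⁻¹)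
    (fun _ => Iff.rfl) (fun _ => Iff.rfl) t ht (by rw [hj]; exact hrel)
    ⟨(3 : Qb)⁻¹, h3⟩ (inv_mul_cancel₀ three_ne_zero) _ _ (fun _ => Iff.rfl) (fun _ => Iff.rfl)
    P P' ?_
  rcases h with h | h
  · exact Or.inl (samePair_of_sameChar A _ h)
  · exact Or.inr (samePair_of_sameChar A _ h)

/-- **(TRANSFER) for the generators of `DivT`, level-`L` coordinate `t₂`** (`2 ∣ L`). -/
theorem transferAt_two
    (hcoe : ∀ y : ↥(modularFunctionFieldBar N),
      ((algebraMap ↥(modularFunctionFieldBar N) ↥(modularFunctionFieldBar L) y :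
        ↥(modularFunctionFieldBar L)) : LaurentSeries Qb) = (y : LaurentSeries Qb))
    (hL : 2 ∣ L) (h2 : (2 : Qb)⁻¹ ∈ A)
    (P P' : Place Qb ↥(modularFunctionFieldBar N)) (h : H27.RedRel N A P P') :
    H87.TransferAt A (H58.chartRing A L (H69.hauptBar2 L hL)) P P' ∧
      H87.TransferAt A (H58.chartRing A L (H69.hauptBar2 L hL)⁻¹) P P' :=
  transferAt_two_of_rel N L A hcoe (H69.hauptBar2 L hL)
    (by rw [jBar_eq]; exact H69.hauptBar2_rel L hL) h2 P P' h

/-- **(TRANSFER) for the generators of `DivT`, level-`L` coordinate `t₃`** (`3 ∣ L`). -/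
theorem transferAt_three
    (hcoe : ∀ y : ↥(modularFunctionFieldBar N),
      ((algebraMap ↥(modularFunctionFieldBar N) ↥(modularFunctionFieldBar L) y :
        ↥(modularFunctionFieldBar L)) : LaurentSeries Qb) = (y : LaurentSeries Qb))
    (hL : 3 ∣ L) (h3 : (3 : Qb)⁻¹ ∈ A)
    (P P' : Place Qb ↥(modularFunctionFieldBar N)) (h : H27.RedRel N A P P') :
    H87.TransferAt A (H58.chartRing A L (H69.hauptBar3 L hL)) P P' ∧
      H87.TransferAt A (H58.chartRing A L (H69.hauptBar3 L hL)⁻¹) P P' :=
  transferAt_three_of_rel N L A hcoe (H69.hauptBar3 L hL)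
    (by rw [jBar_eq]; exact H69.hauptBar3_rel L hL) h3 P P' h

end Transfer

/-! ### The inclusion algebra `Fbar_N → Fbar_L` for `N ∣ L` -/

section Level

variable {N L : ℕ} [NeZero N] [NeZero L]

/-- the inclusion algebra `Fbar_N → Fbar_L`, `N ∣ L` (the one of `H60.kumPow_of_dvd`). -/
@[reducible] def levelAlgebra (h : N ∣ L) :
    Algebra ↥(modularFunctionFieldBar N) ↥(modularFunctionFieldBar L) :=
  (IntermediateField.inclusion (H16.bar_mono h)).toRingHom.toAlgebra

theorem levelAlgebra_algebraMap (h : N ∣ L) (y : ↥(modularFunctionFieldBar N)) :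
    @algebraMap ↥(modularFunctionFieldBar N) ↥(modularFunctionFieldBar L) _ _
      (levelAlgebra h) y = IntermediateField.inclusion (H16.bar_mono h) y :=
  rfl

theorem levelAlgebra_coe (h : N ∣ L) (y : ↥(modularFunctionFieldBar N)) :
    ((@algebraMap ↥(modularFunctionFieldBar N) ↥(modularFunctionFieldBar L) _ _
      (levelAlgebra h) y : ↥(modularFunctionFieldBar L)) : LaurentSeries Qb) =
      (y : LaurentSeries Qb) := by
  rw [levelAlgebra_algebraMap]
  exact IntermediateField.coe_inclusion _ _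

theorem levelAlgebra_isScalarTower (h : N ∣ L) :
    @IsScalarTower Qb ↥(modularFunctionFieldBar N) ↥(modularFunctionFieldBar L) _
      (levelAlgebra h).toSMul _ :=
  letI := levelAlgebra h
  IsScalarTower.of_algebraMap_eq (fun _ => rfl)

theorem levelAlgebra_finiteDimensional (h : N ∣ L) :
    @FiniteDimensional ↥(modularFunctionFieldBar N) ↥(modularFunctionFieldBar L) _ _
      (levelAlgebra h).toModule := by
  let _ := levelAlgebra h
  have hle : modularFunctionFieldBar N ≤ modularFunctionFieldBar L := H16.bar_mono h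
  have hfin : IntermediateField.relfinrank (modularFunctionFieldBar N)
      (modularFunctionFieldBar L) ≠ 0 := H16.relfinrank_bar_ne_zero h
  have hrank : Module.finrank ↥(modularFunctionFieldBar N) ↥(modularFunctionFieldBar L) =
      IntermediateField.relfinrank (modularFunctionFieldBar N) (modularFunctionFieldBar L) := by
    rw [IntermediateField.relfinrank_eq_finrank_of_le hle]
    rfl
  apply Module.finite_of_finrank_pos
  rw [hrank]
  exact Nat.pos_of_ne_zero hfin

end Level

/-! ### (A1) at level `L`, instance-free: the class sums of `ord f` vanish -/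

section Hsum

variable (N L : ℕ) [NeZero N] [NeZero L] (A : ValuationSubring Qb)

omit [NeZero N] [NeZero L] in
/-- (A1) for an arbitrary algebra `Fbar_N → Fbar_L` not changing `q`-expansions and a chart
`R'` of level `L` on which the generators of `DivT` satisfy (TRANSFER). -/
theorem hsum_of_transferAt_coe
    [Algebra ↥(modularFunctionFieldBar N) ↥(modularFunctionFieldBar L)]
    [IsScalarTower Qb ↥(modularFunctionFieldBar N) ↥(modularFunctionFieldBar L)]
    [FiniteDimensional ↥(modularFunctionFieldBar N) ↥(modularFunctionFieldBar L)]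
    [HasPrincipalDivisors Qb ↥(modularFunctionFieldBar L)]
    (hcoe : ∀ y : ↥(modularFunctionFieldBar N),
      ((algebraMap ↥(modularFunctionFieldBar N) ↥(modularFunctionFieldBar L) y :
        ↥(modularFunctionFieldBar L)) : LaurentSeries Qb) = (y : LaurentSeries Qb))
    (R' : Subring ↥(modularFunctionFieldBar L))
    (hR : ∀ P P', H27.RedRel N A P P' → H87.TransferAt A R' P P')
    {D : Divisor Qb ↥(modularFunctionFieldBar N)} (hD : D ∈ H27.DivT N A) (m : ℕ)
    (f : ↥(modularFunctionFieldBar N))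
    (hdiv : ∀ P : Place Qb ↥(modularFunctionFieldBar N), (m • D) P = P.ord f)
    (fL : ↥(modularFunctionFieldBar L))
    (hfL : (fL : LaurentSeries Qb) = (f : LaurentSeries Qb))
    (T : Finset (Place Qb ↥(modularFunctionFieldBar L))) (hT : ∀ w, w.ord fL ≠ 0 → w ∈ T)
    (w₀ : Place Qb ↥(modularFunctionFieldBar L))
    (S : Finset (Place Qb ↥(modularFunctionFieldBar L)))
    (hS : ∀ w, w ∈ S ↔ w ∈ T ∧ H86.SameCharAt A R' w w₀) :
    ∑ w ∈ S, w.ord fL = 0 := by
  have e : fL = algebraMap ↥(modularFunctionFieldBar N) ↥(modularFunctionFieldBar L) f :=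
    Subtype.ext (hfL.trans (hcoe f).symm)
  subst e
  exact H86.hsum_of_transferAt A (H27.RedRel N A) R' hR hD m f hdiv w₀ T hT S hS

variable {N L}

/-- **(A1), coordinate `j` at level `L`, `N ∣ L`** (no algebra instance in the statement):
for `D ∈ DivT N A` with `m • D = div f` and `fL` the function `f` at level `L`, the total order
of `fL` over each residue class of the chart of `j` and of the chart of `1/j` is zero. -/
theorem hsum_j (hNL : N ∣ L) {D : Divisor Qb ↥(modularFunctionFieldBar N)}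
    (hD : D ∈ H27.DivT N A) (m : ℕ) (f : ↥(modularFunctionFieldBar N))
    (hdiv : ∀ P : Place Qb ↥(modularFunctionFieldBar N), (m • D) P = P.ord f)
    (fL : ↥(modularFunctionFieldBar L))
    (hfL : (fL : LaurentSeries Qb) = (f : LaurentSeries Qb))
    (T : Finset (Place Qb ↥(modularFunctionFieldBar L))) (hT : ∀ w, w.ord fL ≠ 0 → w ∈ T)
    (w₀ : Place Qb ↥(modularFunctionFieldBar L)) :
    (∀ S : Finset (Place Qb ↥(modularFunctionFieldBar L)),
      (∀ w, w ∈ S ↔ w ∈ T ∧ H86.SameCharAt A (H58.chartRing A L (H58.jBar L)) w w₀) →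
        ∑ w ∈ S, w.ord fL = 0) ∧
    (∀ S : Finset (Place Qb ↥(modularFunctionFieldBar L)),
      (∀ w, w ∈ S ↔ w ∈ T ∧ H86.SameCharAt A (H58.chartRing A L (H58.jBar L)⁻¹) w w₀) →
        ∑ w ∈ S, w.ord fL = 0) := by
  let _ := levelAlgebra hNL
  have := levelAlgebra_isScalarTower hNL
  have := levelAlgebra_finiteDimensional hNL
  have := H98.hasPrincipalDivisors_FN L
  have hR := transferAt_j N L A (levelAlgebra_coe hNL)
  exact ⟨fun S hS => hsum_of_transferAt_coe N L A (levelAlgebra_coe hNL) _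
      (fun P P' h => (hR P P' h).1) hD m f hdiv fL hfL T hT w₀ S hS,
    fun S hS => hsum_of_transferAt_coe N L A (levelAlgebra_coe hNL) _
      (fun P P' h => (hR P P' h).2) hD m f hdiv fL hfL T hT w₀ S hS⟩

/-- **(A1), coordinate `t₂` at level `L`, `N ∣ L`, `2 ∣ L`, `2` invertible in `A`.** -/
theorem hsum_two (hNL : N ∣ L) (hL : 2 ∣ L) (h2 : (2 : Qb)⁻¹ ∈ A)
    {D : Divisor Qb ↥(modularFunctionFieldBar N)}
    (hD : D ∈ H27.DivT N A) (m : ℕ) (f : ↥(modularFunctionFieldBar N))
    (hdiv : ∀ P : Place Qb ↥(modularFunctionFieldBar N), (m • D) P = P.ord f)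
    (fL : ↥(modularFunctionFieldBar L))
    (hfL : (fL : LaurentSeries Qb) = (f : LaurentSeries Qb))
    (T : Finset (Place Qb ↥(modularFunctionFieldBar L))) (hT : ∀ w, w.ord fL ≠ 0 → w ∈ T)
    (w₀ : Place Qb ↥(modularFunctionFieldBar L)) :
    (∀ S : Finset (Place Qb ↥(modularFunctionFieldBar L)),
      (∀ w, w ∈ S ↔ w ∈ T ∧ H86.SameCharAt A (H58.chartRing A L (H69.hauptBar2 L hL)) w w₀) →
        ∑ w ∈ S, w.ord fL = 0) ∧
    (∀ S : Finset (Place Qb ↥(modularFunctionFieldBar L)),
      (∀ w, w ∈ S ↔ w ∈ T ∧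
        H86.SameCharAt A (H58.chartRing A L (H69.hauptBar2 L hL)⁻¹) w w₀) →
        ∑ w ∈ S, w.ord fL = 0) := by
  let _ := levelAlgebra hNL
  have := levelAlgebra_isScalarTower hNL
  have := levelAlgebra_finiteDimensional hNL
  have := H98.hasPrincipalDivisors_FN L
  have hR := transferAt_two N L A (levelAlgebra_coe hNL) hL h2
  exact ⟨fun S hS => hsum_of_transferAt_coe N L A (levelAlgebra_coe hNL) _
      (fun P P' h => (hR P P' h).1) hD m f hdiv fL hfL T hT w₀ S hS,
    fun S hS => hsum_of_transferAt_coe N L A (levelAlgebra_coe hNL) _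
      (fun P P' h => (hR P P' h).2) hD m f hdiv fL hfL T hT w₀ S hS⟩

/-- **(A1), coordinate `t₃` at level `L`, `N ∣ L`, `3 ∣ L`, `3` invertible in `A`.** -/
theorem hsum_three (hNL : N ∣ L) (hL : 3 ∣ L) (h3 : (3 : Qb)⁻¹ ∈ A)
    {D : Divisor Qb ↥(modularFunctionFieldBar N)}
    (hD : D ∈ H27.DivT N A) (m : ℕ) (f : ↥(modularFunctionFieldBar N))
    (hdiv : ∀ P : Place Qb ↥(modularFunctionFieldBar N), (m • D) P = P.ord f)
    (fL : ↥(modularFunctionFieldBar L))
    (hfL : (fL : LaurentSeries Qb) = (f : LaurentSeries Qb))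
    (T : Finset (Place Qb ↥(modularFunctionFieldBar L))) (hT : ∀ w, w.ord fL ≠ 0 → w ∈ T)
    (w₀ : Place Qb ↥(modularFunctionFieldBar L)) :
    (∀ S : Finset (Place Qb ↥(modularFunctionFieldBar L)),
      (∀ w, w ∈ S ↔ w ∈ T ∧ H86.SameCharAt A (H58.chartRing A L (H69.hauptBar3 L hL)) w w₀) →
        ∑ w ∈ S, w.ord fL = 0) ∧
    (∀ S : Finset (Place Qb ↥(modularFunctionFieldBar L)),
      (∀ w, w ∈ S ↔ w ∈ T ∧
        H86.SameCharAt A (H58.chartRing A L (H69.hauptBar3 L hL)⁻¹) w w₀) →
        ∑ w ∈ S, w.ord fL = 0) := by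
  let _ := levelAlgebra hNL
  have := levelAlgebra_isScalarTower hNL
  have := levelAlgebra_finiteDimensional hNL
  have := H98.hasPrincipalDivisors_FN L
  have hR := transferAt_three N L A (levelAlgebra_coe hNL) hL h3
  exact ⟨fun S hS => hsum_of_transferAt_coe N L A (levelAlgebra_coe hNL) _
      (fun P P' h => (hR P P' h).1) hD m f hdiv fL hfL T hT w₀ S hS,
    fun S hS => hsum_of_transferAt_coe N L A (levelAlgebra_coe hNL) _
      (fun P P' h => (hR P P' h).2) hD m f hdiv fL hfL T hT w₀ S hS⟩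

end Hsum

end

end Fermat.Agent.S37.H72
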