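import Mathlib
import Fermat.Agent.S37.ConstTop_helper27
import Fermat.Agent.S37.TransferMod_helper72

/-!
# S37, node (TRANSFER): the three level statements owed to `ConstTop_helper27` (helper87)

`H27.TransferStmt N L A φ hφ x` for the three cases of the route, along the inclusion of levels
`H27.levelIncl`:

* `transferStmt_j`     : level `N`,     coordinate `j`            (any `A`);
* `transferStmt_two`   : level `N * 2`, coordinate `t₂`           (`A` over `3`);
* `transferStmt_three` : level `N * 3`, coordinate `t₃`           (`A` over `2`).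

Each is one call of the landed modular instance `TransferMod_helper72` (itself on top of
`TransferInst_helper87`, (VAL) `NormSpec_helper18` and `ResInf_helper82`).
-/

set_option autoImplicit false

open ModularCurve AlgebraicCurve

namespace Fermat.Agent.S37.H87

noncomputable section

local notation "Qb" => AlgebraicClosure ℚ

/-- (TRANSFER) along any embedding of levels preserving `q`-expansions, coordinate `j`. -/
theorem transferStmt_j_of_coe (N L : ℕ) [NeZero N] [NeZero L] (A : ValuationSubring Qb)
    (φ : ↥(modularFunctionFieldBar N) →ₐ[Qb] ↥(modularFunctionFieldBar L))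
    (hφ : φ.toRingHom.IsIntegral)
    (hcoe : ∀ y : ↥(modularFunctionFieldBar N), ((φ y : ↥(modularFunctionFieldBar L)) :
      LaurentSeries Qb) = (y : LaurentSeries Qb)) :
    H27.TransferStmt N L A φ hφ (H58.jBar L) := by
  letI := algebraAlong φ
  haveI := isScalarTower_along φ
  haveI : FiniteDimensional ↥(modularFunctionFieldBar N) ↥(modularFunctionFieldBar L) :=
    H37.finiteAlong_FN N L φ
  intro v₁ v₂ h
  exact H72.transferAt_j N L A hcoe v₁ v₂ h

/-- (TRANSFER) along any embedding of levels preserving `q`-expansions, coordinate `t₂`. -/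
theorem transferStmt_two_of_coe (N L : ℕ) [NeZero N] [NeZero L] (A : ValuationSubring Qb)
    (φ : ↥(modularFunctionFieldBar N) →ₐ[Qb] ↥(modularFunctionFieldBar L))
    (hφ : φ.toRingHom.IsIntegral)
    (hcoe : ∀ y : ↥(modularFunctionFieldBar N), ((φ y : ↥(modularFunctionFieldBar L)) :
      LaurentSeries Qb) = (y : LaurentSeries Qb))
    (hL : 2 ∣ L) (h2 : (2 : Qb)⁻¹ ∈ A) :
    H27.TransferStmt N L A φ hφ (S18.H69.hauptBar2 L hL) := by
  letI := algebraAlong φ
  haveI := isScalarTower_along φ
  haveI : FiniteDimensional ↥(modularFunctionFieldBar N) ↥(modularFunctionFieldBar L) :=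
    H37.finiteAlong_FN N L φ
  intro v₁ v₂ h
  exact H72.transferAt_two N L A hcoe hL h2 v₁ v₂ h

/-- (TRANSFER) along any embedding of levels preserving `q`-expansions, coordinate `t₃`. -/
theorem transferStmt_three_of_coe (N L : ℕ) [NeZero N] [NeZero L] (A : ValuationSubring Qb)
    (φ : ↥(modularFunctionFieldBar N) →ₐ[Qb] ↥(modularFunctionFieldBar L))
    (hφ : φ.toRingHom.IsIntegral)
    (hcoe : ∀ y : ↥(modularFunctionFieldBar N), ((φ y : ↥(modularFunctionFieldBar L)) :
      LaurentSeries Qb) = (y : LaurentSeries Qb))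
    (hL : 3 ∣ L) (h3 : (3 : Qb)⁻¹ ∈ A) :
    H27.TransferStmt N L A φ hφ (S18.H69.hauptBar3 L hL) := by
  letI := algebraAlong φ
  haveI := isScalarTower_along φ
  haveI : FiniteDimensional ↥(modularFunctionFieldBar N) ↥(modularFunctionFieldBar L) :=
    H37.finiteAlong_FN N L φ
  intro v₁ v₂ h
  exact H72.transferAt_three N L A hcoe hL h3 v₁ v₂ h

/-- **(T-j)**: (TRANSFER) at level `N` itself, coordinate `j`. -/
theorem transferStmt_j (N : ℕ) [NeZero N] (A : ValuationSubring Qb) :
    H27.TransferStmt N N A (H27.levelIncl N N dvd_rfl) (H27.levelIncl_isIntegral N N dvd_rfl)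
      (H58.jBar N) :=
  transferStmt_j_of_coe N N A _ _ (H27.coe_levelIncl N N dvd_rfl)

/-- **(T-2)**: (TRANSFER) from level `N` to level `N * 2`, coordinate `t₂`, `A` over `3`. -/
theorem transferStmt_two (N : ℕ) [NeZero N] (A : ValuationSubring Qb)
    (hA : A.LiesOverPrime 3) :
    H27.TransferStmt N (N * 2) A (H27.levelIncl N (N * 2) (dvd_mul_right N 2))
      (H27.levelIncl_isIntegral N (N * 2) (dvd_mul_right N 2))
      (S18.H69.hauptBar2 (N * 2) (dvd_mul_left 2 N)) :=
  transferStmt_two_of_coe N (N * 2) A _ _ (H27.coe_levelIncl N (N * 2) (dvd_mul_right N 2))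
    (dvd_mul_left 2 N) (H72.two_inv_mem Nat.prime_three hA (by norm_num))

/-- **(T-3)**: (TRANSFER) from level `N` to level `N * 3`, coordinate `t₃`, `A` over `2`. -/
theorem transferStmt_three (N : ℕ) [NeZero N] (A : ValuationSubring Qb)
    (hA : A.LiesOverPrime 2) :
    H27.TransferStmt N (N * 3) A (H27.levelIncl N (N * 3) (dvd_mul_right N 3))
      (H27.levelIncl_isIntegral N (N * 3) (dvd_mul_right N 3))
      (S18.H69.hauptBar3 (N * 3) (dvd_mul_left 3 N)) :=
  transferStmt_three_of_coe N (N * 3) A _ _ (H27.coe_levelIncl N (N * 3) (dvd_mul_right N 3))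
    (dvd_mul_left 3 N) (H72.three_inv_mem Nat.prime_two hA (by norm_num))

end

end Fermat.Agent.S37.H87
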