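import Fermat.Prelude.Def_ModularCurve_HeckeModule
import Fermat.Prelude.Def_ModularCurve_ReductionModL

/-!
# S37: abstract assembly (helper83)

Interface-free (Prelude + Mathlib only).

* `reductionPic0Along_eq_of_nsmul_eq_zero`: two place reductions `r₁`, `r₂` (both satisfying the
  frozen `IsPlaceReductionAlong`, with the frozen `PrincipalGeneratedByIntegral`) induce the same
  map on torsion classes.  Hence the frozen `reductionModL A N` (built from an opaque `choose`)
  agrees on torsion with the reduction along any constructed `r₀`.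
* `specialization_of_reduction`: the frozen conclusion of S37 for one `(ℓ, A)` from an abstract
  additive map `s : JZero N →+ G` with
  `(hI)` inertia invariance, `(hF)` Frobenius equivariance, `(hES)` the Eichler–Shimura relation
  for `T_ℓ` only, `(hinj)` injectivity on `p`-power torsion.
  No existence of Frobenius elements is used, and no Hecke stability of `ker s`.
-/

set_option autoImplicit false

open ModularCurve AlgebraicCurve

namespace Fermat.Agent.S37.H83

section TorsionAgreement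

variable {L : Type*} [Field L] [Algebra ℚ L] {A : ValuationSubring L}
variable {k : Type*} [Field k] {π : A →+* k} {N : ℕ}

/-- Two place reductions agree on integral principal divisors. -/
theorem mapDomain_eq_of_mem_integralPrincipalDivisors
    {r₁ r₂ : Place L (laurentBaseChange L (modularFunctionFieldFull N)) →
      Place k (modularFunctionFieldFullC k N)}
    (h₁ : IsPlaceReductionAlong A π N r₁) (h₂ : IsPlaceReductionAlong A π N r₂)
    {D : Divisor L (laurentBaseChange L (modularFunctionFieldFull N))}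
    (hD : D ∈ integralPrincipalDivisors A π N) :
    Finsupp.mapDomain r₁ D = Finsupp.mapDomain r₂ D := by
  obtain ⟨y, hy, hyk, hne, hDy⟩ := hD
  ext Q
  rw [h₁.2 y hy hyk hne D hDy Q, h₂.2 y hy hyk hne D hDy Q]

/-- Two place reductions agree on principal divisors. -/
theorem mapDomain_eq_of_mem_principal
    {r₁ r₂ : Place L (laurentBaseChange L (modularFunctionFieldFull N)) →
      Place k (modularFunctionFieldFullC k N)}
    (h₁ : IsPlaceReductionAlong A π N r₁) (h₂ : IsPlaceReductionAlong A π N r₂)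
    (hgen : PrincipalGeneratedByIntegral A π N)
    {D : Divisor L (laurentBaseChange L (modularFunctionFieldFull N))}
    (hD : D ∈ Divisor.principal (K := L) (F := laurentBaseChange L (modularFunctionFieldFull N))) :
    Finsupp.mapDomain r₁ D = Finsupp.mapDomain r₂ D := by
  have hD' := hgen hD
  clear hD
  induction hD' using AddSubgroup.closure_induction with
  | mem E hE => exact mapDomain_eq_of_mem_integralPrincipalDivisors h₁ h₂ hE
  | zero => rw [Finsupp.mapDomain_zero, Finsupp.mapDomain_zero]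
  | add E E' _ _ hE hE' => rw [Finsupp.mapDomain_add, Finsupp.mapDomain_add, hE, hE']
  | neg E _ hE =>
    rw [← Finsupp.mapDomain.addMonoidHom_apply, ← Finsupp.mapDomain.addMonoidHom_apply,
      map_neg, map_neg, Finsupp.mapDomain.addMonoidHom_apply, Finsupp.mapDomain.addMonoidHom_apply,
      hE]

/-- Two place reductions agree on every divisor a nonzero multiple of which is principal. -/
theorem mapDomain_eq_of_nsmul_mem_principal
    {r₁ r₂ : Place L (laurentBaseChange L (modularFunctionFieldFull N)) →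
      Place k (modularFunctionFieldFullC k N)}
    (h₁ : IsPlaceReductionAlong A π N r₁) (h₂ : IsPlaceReductionAlong A π N r₂)
    (hgen : PrincipalGeneratedByIntegral A π N)
    {D : Divisor L (laurentBaseChange L (modularFunctionFieldFull N))} {m : ℕ} (hm : m ≠ 0)
    (hD : m • D ∈
      Divisor.principal (K := L) (F := laurentBaseChange L (modularFunctionFieldFull N))) :
    Finsupp.mapDomain r₁ D = Finsupp.mapDomain r₂ D := by
  have h := mapDomain_eq_of_mem_principal h₁ h₂ hgen hD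
  rw [← Finsupp.mapDomain.addMonoidHom_apply, ← Finsupp.mapDomain.addMonoidHom_apply,
    map_nsmul, map_nsmul, Finsupp.mapDomain.addMonoidHom_apply,
    Finsupp.mapDomain.addMonoidHom_apply] at h
  ext Q
  have hQ := congrArg (fun E : Divisor k (modularFunctionFieldFullC k N) => E Q) h
  simp only [Finsupp.smul_apply, nsmul_eq_mul] at hQ
  exact mul_left_cancel₀ (by exact_mod_cast hm) hQ

/-- **Torsion agreement.**  Two place reductions induce the same map on torsion classes. -/
theorem reductionPic0Along_eq_of_nsmul_eq_zero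
    {r₁ r₂ : Place L (laurentBaseChange L (modularFunctionFieldFull N)) →
      Place k (modularFunctionFieldFullC k N)}
    (h₁ : IsPlaceReductionAlong A π N r₁) (h₂ : IsPlaceReductionAlong A π N r₂)
    (hgen : PrincipalGeneratedByIntegral A π N)
    (x : Pic0 L (laurentBaseChange L (modularFunctionFieldFull N))) {m : ℕ} (hm : m ≠ 0)
    (hx : m • x = 0) :
    reductionPic0Along r₁ h₁ hgen x = reductionPic0Along r₂ h₂ hgen x := by
  obtain ⟨D, rfl⟩ := Pic0.mk_surjective x
  rw [reductionPic0Along_mk, reductionPic0Along_mk]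
  congr 1
  apply Subtype.ext
  rw [coe_reductionDegZeroAlong, coe_reductionDegZeroAlong]
  refine mapDomain_eq_of_nsmul_mem_principal h₁ h₂ hgen hm ?_
  have h0 : (QuotientAddGroup.mk (m • D) :
      Pic0 L (laurentBaseChange L (modularFunctionFieldFull N))) = 0 := by
    rw [QuotientAddGroup.mk_nsmul]; exact hx
  rw [QuotientAddGroup.eq_zero_iff, AddSubgroup.mem_addSubgroupOf] at h0
  simpa using h0

end TorsionAgreement

section ModL

set_option synthInstance.maxHeartbeats 400000

variable {A : ValuationSubring (AlgebraicClosure ℚ)} {N : ℕ}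

/-- On torsion classes the frozen `reductionModL A N` (built from an opaque `choose`) agrees with
the reduction along any place reduction `r₀`. -/
theorem reductionModL_eq_of_nsmul_eq_zero
    {r₀ : Place (AlgebraicClosure ℚ) (modularFunctionFieldBar N) →
      Place (IsLocalRing.ResidueField A)
        (modularFunctionFieldFullC (IsLocalRing.ResidueField A) N)}
    (h₀ : IsPlaceReductionModL A N r₀)
    (hgen : PrincipalGeneratedByIntegral A (IsLocalRing.residue A) N)
    (x : JZero N) {m : ℕ} (hm : m ≠ 0) (hx : m • x = 0) :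
    reductionModL A N x = reductionPic0Along r₀ h₀ hgen x := by
  have h : ReductionInputsModL A N := ⟨r₀, h₀, hgen⟩
  have e : reductionModL A N = reductionPic0Along h.choose h.choose_spec.1 h.choose_spec.2 :=
    reductionAlong_eq h
  rw [e]
  exact reductionPic0Along_eq_of_nsmul_eq_zero h.choose_spec.1 h₀ hgen x hm hx

/-- **`hinj` from the frozen statement S18** (used as a hypothesis `hS18`, to be discharged by
`Fermat.Agent.S18.result`): the reduction along any place reduction `r₀` is injective on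
`p`-power torsion when `ℓ ∤ p`. -/
theorem injective_torsion_of_S18 {ℓ : ℕ} (hℓ : ℓ.Prime)
    (hS18 : ∀ (_ : ReductionInputsModL A N) (m : ℕ), ¬ ℓ ∣ m → ∀ z : JZero N, m • z = 0 →
      reductionModL A N z = 0 → z = 0)
    {r₀ : Place (AlgebraicClosure ℚ) (modularFunctionFieldBar N) →
      Place (IsLocalRing.ResidueField A)
        (modularFunctionFieldFullC (IsLocalRing.ResidueField A) N)}
    (h₀ : IsPlaceReductionModL A N r₀)
    (hgen : PrincipalGeneratedByIntegral A (IsLocalRing.residue A) N)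
    {p : ℕ} (hp : ¬ ℓ ∣ p) (x : JZero N) (hx : ∃ n : ℕ, p ^ n • x = 0)
    (hs : reductionPic0Along r₀ h₀ hgen x = 0) : x = 0 := by
  obtain ⟨n, hn⟩ := hx
  have hdvd : ¬ ℓ ∣ p ^ n := fun h => hp (hℓ.dvd_of_dvd_pow h)
  have hm : p ^ n ≠ 0 := fun h => hdvd (h ▸ dvd_zero ℓ)
  refine hS18 ⟨r₀, h₀, hgen⟩ (p ^ n) hdvd x hn ?_
  rw [reductionModL_eq_of_nsmul_eq_zero h₀ hgen x hm hn, hs]

end ModL

section Abstract

/-! ### The module-theoretic core -/

universe u

variable {𝕋 : Type*} {J : Type u} {G Γ : Type*} [CommRing 𝕋] [AddCommGroup J] [Module 𝕋 J]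
  [Group Γ] [DistribMulAction Γ J] [SMulCommClass Γ 𝕋 J] [AddCommGroup G]

/-- The largest `𝕋`-submodule of `J` contained in the kernel of the additive map `s`. -/
def heckeKer (𝕋 : Type*) [CommRing 𝕋] [Module 𝕋 J] (s : J →+ G) : Submodule 𝕋 J where
  carrier := {x | ∀ T : 𝕋, s (T • x) = 0}
  add_mem' := fun {a b} ha hb T => by rw [smul_add, map_add, ha T, hb T, add_zero]
  zero_mem' := fun T => by rw [smul_zero, map_zero]
  smul_mem' := fun c x hx T => by rw [smul_smul]; exact hx (T * c)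

theorem mem_heckeKer (s : J →+ G) (x : J) : x ∈ heckeKer 𝕋 s ↔ ∀ T : 𝕋, s (T • x) = 0 :=
  Iff.rfl

theorem mk_eq_mk_of_forall (s : J →+ G) (x y : J) (h : ∀ T : 𝕋, s (T • x) = s (T • y)) :
    (Submodule.Quotient.mk x : J ⧸ heckeKer 𝕋 s) = Submodule.Quotient.mk y := by
  rw [Submodule.Quotient.eq, mem_heckeKer]
  intro T
  rw [smul_sub, map_sub, h T, sub_self]

theorem mk_smul_eq_mk_of_invariant (s : J →+ G) (τ : Γ) (hτ : ∀ x : J, s (τ • x) = s x)
    (x : J) : (Submodule.Quotient.mk (τ • x) : J ⧸ heckeKer 𝕋 s) = Submodule.Quotient.mk x := by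
  refine mk_eq_mk_of_forall s _ _ fun T => ?_
  rw [← smul_comm τ T x, hτ]

theorem eq_zero_of_mk_eq_zero (s : J →+ G) (x : J) (hinj : s x = 0 → x = 0)
    (h0 : (Submodule.Quotient.mk x : J ⧸ heckeKer 𝕋 s) = 0) : x = 0 := by
  rw [Submodule.Quotient.mk_eq_zero, mem_heckeKer] at h0
  have h1 := h0 1
  rw [one_smul] at h1
  exact hinj h1

/-- The group element `σ₀` as a `𝕋`-linear endomorphism of `J`. -/
def smulLinear (𝕋 : Type*) [CommRing 𝕋] [Module 𝕋 J] [SMulCommClass Γ 𝕋 J] (σ₀ : Γ) :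
    J →ₗ[𝕋] J where
  toFun := fun x => σ₀ • x
  map_add' := fun x y => smul_add σ₀ x y
  map_smul' := fun T x => smul_comm σ₀ T x

@[simp] theorem smulLinear_apply (σ₀ : Γ) (x : J) : smulLinear 𝕋 σ₀ x = σ₀ • x := rfl

theorem heckeKer_le_comap (s : J →+ G) (Φ : G →+ G) (σ₀ : Γ)
    (hσ₀ : ∀ x : J, s (σ₀ • x) = Φ (s x)) :
    heckeKer 𝕋 s ≤ (heckeKer 𝕋 s).comap (smulLinear 𝕋 σ₀) := by
  intro x hx
  rw [Submodule.mem_comap, mem_heckeKer]
  intro T
  rw [smulLinear_apply, ← smul_comm σ₀ T x, hσ₀, (mem_heckeKer s x).mp hx T, map_zero]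

/-- The quadratic relation modulo `heckeKer`. -/
theorem quadratic_mem_heckeKer (s : J →+ G) (Φ Ψ : G →+ G) (hΨΦ : ∀ y, Ψ (Φ y) = y) (σ₀ : Γ)
    (hσ₀ : ∀ x : J, s (σ₀ • x) = Φ (s x)) (t : 𝕋) (ℓ : ℕ)
    (hES : ∀ x : J, s (t • x) = Φ (s x) + ℓ • Ψ (s x)) (x : J) :
    σ₀ • σ₀ • x - t • σ₀ • x + ℓ • x ∈ heckeKer 𝕋 s := by
  rw [mem_heckeKer]
  intro T
  have h1 : s (T • σ₀ • σ₀ • x) = Φ (Φ (s (T • x))) := by
    rw [← smul_comm σ₀ T (σ₀ • x), hσ₀, ← smul_comm σ₀ T x, hσ₀]
  have h2 : s (T • t • σ₀ • x) = Φ (Φ (s (T • x))) + ℓ • s (T • x) := by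
    rw [smul_comm T t (σ₀ • x), ← smul_comm σ₀ T x, hES, hσ₀, hΨΦ]
  have h3 : s (T • (ℓ • x)) = ℓ • s (T • x) := by
    rw [smul_comm T ℓ x, map_nsmul]
  rw [smul_add, smul_sub, map_add, map_sub, h1, h2, h3]
  abel

/-- The companion endomorphism of `X² - t X + ℓ` on two copies of a `𝕋`-module. -/
def companion {M : Type*} [AddCommGroup M] [Module 𝕋 M] (t : 𝕋) (ℓ : ℕ) : M × M →+ M × M where
  toFun := fun y => (-(ℓ • y.2), y.1 + t • y.2)
  map_zero' := by simp
  map_add' := fun y z => by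
    refine Prod.ext ?_ ?_
    · simp only [Prod.snd_add, smul_add, neg_add_rev, Prod.fst_add]
      abel
    · simp only [Prod.fst_add, Prod.snd_add, smul_add]
      abel

theorem companion_quadratic {M : Type*} [AddCommGroup M] [Module 𝕋 M] (t : 𝕋) (ℓ : ℕ)
    (y : M × M) :
    companion t ℓ (companion t ℓ y) - t • companion t ℓ y + ℓ • y = 0 := by
  obtain ⟨a, b⟩ := y
  refine Prod.ext ?_ ?_
  · simp only [companion, AddMonoidHom.coe_mk, ZeroHom.coe_mk, Prod.smul_mk, Prod.fst_add,
      Prod.fst_sub, Prod.fst_zero, smul_add, smul_neg, smul_comm t ℓ b]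
    abel
  · simp only [companion, AddMonoidHom.coe_mk, ZeroHom.coe_mk, Prod.smul_mk, Prod.snd_add,
      Prod.snd_sub, Prod.snd_zero, smul_add]
    abel

/-- **Module-theoretic core of S37.**  `I`, `Fr ⊆ Γ` play the roles of the inertia group and of
the set of Frobenius elements, `t` of `T_ℓ`. -/
theorem exists_specialization (s : J →+ G) (Φ Ψ : G →+ G) (hΨΦ : ∀ y, Ψ (Φ y) = y)
    (I Fr : Set Γ) (t : 𝕋) (ℓ p : ℕ)
    (hI : ∀ τ ∈ I, ∀ x : J, s (τ • x) = s x)
    (hF : ∀ σ ∈ Fr, ∀ x : J, s (σ • x) = Φ (s x))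
    (hES : ∀ x : J, s (t • x) = Φ (s x) + ℓ • Ψ (s x))
    (hinj : ∀ x : J, (∃ n : ℕ, p ^ n • x = 0) → s x = 0 → x = 0) :
    ∃ (J' : Type u) (_ : AddCommGroup J') (_ : Module 𝕋 J') (sp : J →+ J') (F : J' →+ J'),
      (∀ (T : 𝕋) (x : J), sp (T • x) = T • sp x) ∧
      (∀ τ ∈ I, ∀ x : J, sp (τ • x) = sp x) ∧
      (∀ σ ∈ Fr, ∀ x : J, sp (σ • x) = F (sp x)) ∧
      (∀ x : J, (∃ n : ℕ, p ^ n • x = 0) → sp x = 0 → x = 0) ∧
      ∀ y : J', F (F y) - t • F y + ℓ • y = 0 := by
  by_cases hfrob : ∃ σ₀ : Γ, σ₀ ∈ Fr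
  · obtain ⟨σ₀, hσ₀⟩ := hfrob
    refine ⟨J ⧸ heckeKer 𝕋 s, inferInstance, inferInstance, (heckeKer 𝕋 s).mkQ.toAddMonoidHom,
      ((heckeKer 𝕋 s).mapQ (heckeKer 𝕋 s) (smulLinear 𝕋 σ₀)
        (heckeKer_le_comap s Φ σ₀ (hF σ₀ hσ₀))).toAddMonoidHom, ?_, ?_, ?_, ?_, ?_⟩
    · intro T x
      exact Submodule.Quotient.mk_smul _ T x
    · intro τ hτ x
      exact mk_smul_eq_mk_of_invariant s τ (hI τ hτ) x
    · intro σ hσ x
      show (Submodule.Quotient.mk (σ • x) : J ⧸ heckeKer 𝕋 s)
        = Submodule.Quotient.mk (σ₀ • x)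
      refine mk_eq_mk_of_forall s _ _ fun T => ?_
      rw [← smul_comm σ T x, ← smul_comm σ₀ T x, hF σ hσ, hF σ₀ hσ₀]
    · intro x hx h0
      exact eq_zero_of_mk_eq_zero s x (hinj x hx) h0
    · intro y
      obtain ⟨x, rfl⟩ := Submodule.Quotient.mk_surjective _ y
      have h := (Submodule.Quotient.mk_eq_zero (heckeKer 𝕋 s)).mpr
        (quadratic_mem_heckeKer s Φ Ψ hΨΦ σ₀ (hF σ₀ hσ₀) t ℓ hES x)
      have h' : (Submodule.Quotient.mk (ℓ • x) : J ⧸ heckeKer 𝕋 s)
          = ℓ • Submodule.Quotient.mk x := map_nsmul (heckeKer 𝕋 s).mkQ ℓ x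
      rw [Submodule.Quotient.mk_add, Submodule.Quotient.mk_sub,
        Submodule.Quotient.mk_smul (heckeKer 𝕋 s) t (σ₀ • x), h'] at h
      exact h
  · refine ⟨(J ⧸ heckeKer 𝕋 s) × (J ⧸ heckeKer 𝕋 s), inferInstance, inferInstance,
      ((heckeKer 𝕋 s).mkQ.toAddMonoidHom).prod 0, companion t ℓ, ?_, ?_, ?_, ?_, ?_⟩
    · intro T x
      refine Prod.ext ?_ ?_
      · exact Submodule.Quotient.mk_smul _ T x
      · exact (smul_zero T).symm
    · intro τ hτ x
      refine Prod.ext ?_ rfl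
      exact mk_smul_eq_mk_of_invariant s τ (hI τ hτ) x
    · intro σ hσ x
      exact absurd ⟨σ, hσ⟩ hfrob
    · intro x hx h0
      exact eq_zero_of_mk_eq_zero s x (hinj x hx) (congrArg Prod.fst h0)
    · intro y
      exact companion_quadratic t ℓ y

end Abstract

section Assembly

variable (N p : ℕ) [NeZero N]

/-- **Abstract assembly of S37 for one `(ℓ, A)`.**  `s` is any additive map out of `JZero N`
(in the application: the reduction along a constructed place reduction), `Φ` the map induced by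
the coefficient Frobenius, `Ψ` its inverse. -/
theorem specialization_of_reduction (hcomm : HeckeOperatorsCommuteBar N) :
    letI := heckeModuleBar N
    ∀ (_ : SMulCommClass (AlgebraicClosure ℚ ≃ₐ[ℚ] AlgebraicClosure ℚ) HeckeAlg (JZero N))
      (ℓ : ℕ) (hℓ : ℓ.Prime) (A : ValuationSubring (AlgebraicClosure ℚ))
      {G : Type*} [AddCommGroup G] (s : JZero N →+ G) (Φ Ψ : G →+ G)
      (_ : ∀ y, Ψ (Φ y) = y)
      (_ : ∀ τ ∈ A.inertiaSubgroupIn ℚ, ∀ x : JZero N, s (τ • x) = s x)
      (_ : ∀ σ : AlgebraicClosure ℚ ≃ₐ[ℚ] AlgebraicClosure ℚ, A.IsFrobeniusAt σ ℓ →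
        ∀ x : JZero N, s (σ • x) = Φ (s x))
      (_ : ∀ x : JZero N, s (heckeOperatorBar N ⟨ℓ, hℓ⟩ x) = Φ (s x) + ℓ • Ψ (s x))
      (_ : ∀ x : JZero N, (∃ n : ℕ, p ^ n • x = 0) → s x = 0 → x = 0),
      ∃ (J' : Type) (_ : AddCommGroup J') (_ : Module HeckeAlg J') (sp : JZero N →+ J')
        (F : J' →+ J'),
        IsSpecialization (K := ℚ) p (JZero N) J' A ℓ sp F ∧ SpecialFibreRelation J' ℓ hℓ F := by
  let _ := heckeModuleBar N
  intro hsmul ℓ hℓ A G _ s Φ Ψ hΨΦ hI hF hES hinj
  have hES' : ∀ x : JZero N, s (heckeGen ⟨ℓ, hℓ⟩ • x) = Φ (s x) + ℓ • Ψ (s x) := fun x => by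
    rw [heckeModuleBar_heckeGen_smul hcomm ⟨ℓ, hℓ⟩ x]
    exact hES x
  obtain ⟨J', i1, i2, sp, F, h1, h2, h3, h4, h5⟩ :=
    exists_specialization (𝕋 := HeckeAlg) s Φ Ψ hΨΦ
      (A.inertiaSubgroupIn ℚ : Set (AlgebraicClosure ℚ ≃ₐ[ℚ] AlgebraicClosure ℚ))
      {σ | A.IsFrobeniusAt σ ℓ} (heckeGen ⟨ℓ, hℓ⟩) ℓ p hI hF hES' hinj
  exact ⟨J', i1, i2, sp, F, ⟨h1, h2, h3, h4⟩, h5⟩

end Assembly

section Equivariance

variable {L : Type*} [Field L] [Algebra ℚ L] {A : ValuationSubring L}
variable {k : Type*} [Field k] {π : A →+* k} {N : ℕ}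

/-- A place reduction intertwining two semilinear automorphisms on places induces a map on
`Pic0` intertwining them. -/
theorem reductionPic0Along_smul
    {r₀ : Place L (laurentBaseChange L (modularFunctionFieldFull N)) →
      Place k (modularFunctionFieldFullC k N)}
    (h₀ : IsPlaceReductionAlong A π N r₀) (hgen : PrincipalGeneratedByIntegral A π N)
    (g : SemilinearAut L (laurentBaseChange L (modularFunctionFieldFull N)))
    (φ : SemilinearAut k (modularFunctionFieldFullC k N))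
    (h : ∀ P, r₀ (g • P) = φ • r₀ P)
    (x : Pic0 L (laurentBaseChange L (modularFunctionFieldFull N))) :
    reductionPic0Along r₀ h₀ hgen (g • x) = φ • reductionPic0Along r₀ h₀ hgen x := by
  obtain ⟨D, rfl⟩ := Pic0.mk_surjective x
  rw [SemilinearAut.pic0_smul_mk, reductionPic0Along_mk, reductionPic0Along_mk,
    SemilinearAut.pic0_smul_mk]
  congr 1
  apply Subtype.ext
  rw [coe_reductionDegZeroAlong, SemilinearAut.coe_degZeroSMulHom,
    SemilinearAut.coe_degZeroSMulHom, coe_reductionDegZeroAlong,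
    SemilinearAut.divisor_smul_def, SemilinearAut.divisor_smul_def,
    ← Finsupp.mapDomain_comp, ← Finsupp.mapDomain_comp]
  congr 1
  funext P
  exact h P

end Equivariance

section Geometric

variable (N p : ℕ) [NeZero N]

set_option maxHeartbeats 1000000 in
/-- **S37 for one `(ℓ, A)` from a place reduction** `r₀` along any residue map `π : A →+* k`:
inertia invariance and Frobenius equivariance of `r₀` on places (`φ` = the semilinear
automorphism of the mod-`ℓ` function field induced by the coefficient Frobenius), the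
Eichler–Shimura relation for `T_ℓ` on the reduction, injectivity on `p`-power torsion. -/
theorem specialization_of_placeReduction (hcomm : HeckeOperatorsCommuteBar N) :
    letI := heckeModuleBar N
    ∀ (_ : SMulCommClass (AlgebraicClosure ℚ ≃ₐ[ℚ] AlgebraicClosure ℚ) HeckeAlg (JZero N))
      (ℓ : ℕ) (hℓ : ℓ.Prime) (A : ValuationSubring (AlgebraicClosure ℚ))
      {k : Type*} [Field k] (π : A →+* k)
      (r₀ : Place (AlgebraicClosure ℚ) (modularFunctionFieldBar N) →
        Place k (modularFunctionFieldFullC k N))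
      (h₀ : IsPlaceReductionAlong A π N r₀) (hgen : PrincipalGeneratedByIntegral A π N)
      (φ : SemilinearAut k (modularFunctionFieldFullC k N))
      (_ : ∀ τ ∈ A.inertiaSubgroupIn ℚ, ∀ P,
        r₀ (arithmeticGalois (modularFunctionFieldFull N) τ • P) = r₀ P)
      (_ : ∀ σ : AlgebraicClosure ℚ ≃ₐ[ℚ] AlgebraicClosure ℚ, A.IsFrobeniusAt σ ℓ → ∀ P,
        r₀ (arithmeticGalois (modularFunctionFieldFull N) σ • P) = φ • r₀ P)
      (_ : ∀ x : JZero N,
        reductionPic0Along r₀ h₀ hgen (heckeOperatorBar N ⟨ℓ, hℓ⟩ x)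
          = φ • reductionPic0Along r₀ h₀ hgen x + ℓ • (φ⁻¹ • reductionPic0Along r₀ h₀ hgen x))
      (_ : ∀ x : JZero N, (∃ n : ℕ, p ^ n • x = 0) →
        reductionPic0Along r₀ h₀ hgen x = 0 → x = 0),
      ∃ (J' : Type) (_ : AddCommGroup J') (_ : Module HeckeAlg J') (sp : JZero N →+ J')
        (F : J' →+ J'),
        IsSpecialization (K := ℚ) p (JZero N) J' A ℓ sp F ∧ SpecialFibreRelation J' ℓ hℓ F := by
  let _ := heckeModuleBar N
  intro hsmul ℓ hℓ A k _ π r₀ h₀ hgen φ hI hF hES hinj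
  obtain ⟨Φ, hΦ⟩ : ∃ Φ : JZeroC k N →+ JZeroC k N, ∀ y, Φ y = φ • y :=
    ⟨DistribSMul.toAddMonoidHom (JZeroC k N) φ, fun _ => rfl⟩
  obtain ⟨Ψ, hΨ⟩ : ∃ Ψ : JZeroC k N →+ JZeroC k N, ∀ y, Ψ y = φ⁻¹ • y :=
    ⟨DistribSMul.toAddMonoidHom (JZeroC k N) φ⁻¹, fun _ => rfl⟩
  have h1 : ∀ y, Ψ (Φ y) = y := fun y =>
    ((hΨ (Φ y)).trans (congrArg (φ⁻¹ • ·) (hΦ y))).trans (inv_smul_smul φ y)
  have h2 : ∀ τ ∈ A.inertiaSubgroupIn ℚ, ∀ x : JZero N,
      reductionPic0Along r₀ h₀ hgen (τ • x) = reductionPic0Along r₀ h₀ hgen x := by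
    intro τ hτ x
    have h := reductionPic0Along_smul h₀ hgen (arithmeticGalois (modularFunctionFieldFull N) τ) 1
      (fun P => by rw [hI τ hτ P, one_smul]) x
    exact h.trans (one_smul _ _)
  have h3 : ∀ σ : AlgebraicClosure ℚ ≃ₐ[ℚ] AlgebraicClosure ℚ, A.IsFrobeniusAt σ ℓ →
      ∀ x : JZero N, reductionPic0Along r₀ h₀ hgen (σ • x)
        = Φ (reductionPic0Along r₀ h₀ hgen x) := by
    intro σ hσ x
    exact (reductionPic0Along_smul h₀ hgen (arithmeticGalois (modularFunctionFieldFull N) σ) φ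
      (hF σ hσ) x).trans (hΦ _).symm
  have h4 : ∀ x : JZero N, reductionPic0Along r₀ h₀ hgen (heckeOperatorBar N ⟨ℓ, hℓ⟩ x)
      = Φ (reductionPic0Along r₀ h₀ hgen x) + ℓ • Ψ (reductionPic0Along r₀ h₀ hgen x) := by
    intro x
    exact (hES x).trans (congrArg₂ (· + ·) (hΦ _).symm (congrArg (ℓ • ·) (hΨ _).symm))
  exact specialization_of_reduction N p hcomm hsmul ℓ hℓ A (reductionPic0Along r₀ h₀ hgen)
    Φ Ψ h1 h2 h3 h4 hinj

set_option synthInstance.maxHeartbeats 400000 in
/-- **S37 from the geometric inputs.**  For every prime `ℓ ∤ N p` and every `A` over `ℓ`: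
a place reduction `r₀` (with the frozen `IsPlaceReductionModL` and
`PrincipalGeneratedByIntegral`), a semilinear automorphism `φ` of the mod-`ℓ` function field
(the coefficient Frobenius) such that `r₀` is inertia-invariant and Frobenius-equivariant on
places, the Eichler–Shimura relation for `T_ℓ` on the reduction, and the frozen statement S18
(as the hypothesis `hS18`, to be discharged by `Fermat.Agent.S18.result`). -/
theorem specializationExists_of_geometric (hcomm : HeckeOperatorsCommuteBar N) :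
    letI := heckeModuleBar N
    ∀ (_ : SMulCommClass (AlgebraicClosure ℚ ≃ₐ[ℚ] AlgebraicClosure ℚ) HeckeAlg (JZero N)),
      (∀ (ℓ : ℕ) (hℓ : ℓ.Prime), ¬ ℓ ∣ N * p →
        ∀ A : ValuationSubring (AlgebraicClosure ℚ), A.LiesOverPrime ℓ →
          ∃ (r₀ : Place (AlgebraicClosure ℚ) (modularFunctionFieldBar N) →
              Place (IsLocalRing.ResidueField A)
                (modularFunctionFieldFullC (IsLocalRing.ResidueField A) N))
            (h₀ : IsPlaceReductionModL A N r₀)
            (hgen : PrincipalGeneratedByIntegral A (IsLocalRing.residue A) N)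
            (φ : SemilinearAut (IsLocalRing.ResidueField A)
              (modularFunctionFieldFullC (IsLocalRing.ResidueField A) N)),
            (∀ τ ∈ A.inertiaSubgroupIn ℚ, ∀ P,
              r₀ (arithmeticGalois (modularFunctionFieldFull N) τ • P) = r₀ P) ∧
            (∀ σ : AlgebraicClosure ℚ ≃ₐ[ℚ] AlgebraicClosure ℚ, A.IsFrobeniusAt σ ℓ → ∀ P,
              r₀ (arithmeticGalois (modularFunctionFieldFull N) σ • P) = φ • r₀ P) ∧
            (∀ x : JZero N,
              reductionPic0Along r₀ h₀ hgen (heckeOperatorBar N ⟨ℓ, hℓ⟩ x)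
                = φ • reductionPic0Along r₀ h₀ hgen x
                  + ℓ • (φ⁻¹ • reductionPic0Along r₀ h₀ hgen x)) ∧
            (∀ (_ : ReductionInputsModL A N) (m : ℕ), ¬ ℓ ∣ m → ∀ z : JZero N, m • z = 0 →
              reductionModL A N z = 0 → z = 0)) →
      SpecializationExists (K := ℚ) (L := AlgebraicClosure ℚ) N p (JZero N) := by
  let _ := heckeModuleBar N
  intro hsmul H ℓ hℓ hℓNp A hA
  obtain ⟨r₀, h₀, hgen, φ, hI, hF, hES, hS18⟩ := H ℓ hℓ hℓNp A hA
  have hℓp : ¬ ℓ ∣ p := fun h => hℓNp (Dvd.dvd.mul_left h N)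
  exact specialization_of_placeReduction N p hcomm hsmul ℓ hℓ A (IsLocalRing.residue A) r₀ h₀
    hgen φ hI hF hES
    (fun x hx hsx => injective_torsion_of_S18 hℓ hS18 h₀ hgen hℓp x hx hsx)

end Geometric

end Fermat.Agent.S37.H83
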