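/-
S37, (a)-assembly, leaf (L3) in helper8's literal shape (helper53): the integrality transfer
from the charts of the `K0`-model (`K0 : IntermediateField ℚ Qbar`, `A0 = A ∩ K0 = H61.A0 A K0`)
to the `Qbar`-level chart rings.  Corollaries of `ChartCmp_helper53`.

The `Algebra ↥(H61.A0 A K0) ↥(modularFunctionFieldFullC K0 L)` structure is the one found by
instance synthesis (as in `H19.modelKum_of_chart`), which needs
`synthInstance.maxHeartbeats 400000`.
-/
import Mathlib
import Fermat.Agent.S37.ChartCmp_helper53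
import Fermat.Agent.S18.Desc_helper61

set_option autoImplicit false

namespace Fermat.Agent.S37.H53

open ModularCurve Fermat.Agent.S24.H98 Fermat.Agent.S18

set_option maxHeartbeats 1600000 in
set_option synthInstance.maxHeartbeats 400000 in
/-- **(L3), `U`-chart.** -/
theorem toBar_mem_chartRing (A : ValuationSubring (AlgebraicClosure ℚ)) (L : ℕ) [NeZero L]
    (K0 : IntermediateField ℚ (AlgebraicClosure ℚ))
    (ξ0 b : ↥(modularFunctionFieldFullC K0 L))
    (hb : b ∈ H97.chartU ↥(H61.A0 A K0) ξ0) :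
    H74.toBar K0 L b ∈ H58.chartRing A L (H74.toBar K0 L ξ0) :=
  toBar_mem_chartRing_of_mem_chartU K0 L A (H61.A0 A K0) (fun _ ha => ha) hb

set_option maxHeartbeats 1600000 in
set_option synthInstance.maxHeartbeats 400000 in
/-- **(L3), `V`-chart.** -/
theorem toBar_mem_chartRing_inv (A : ValuationSubring (AlgebraicClosure ℚ)) (L : ℕ) [NeZero L]
    (K0 : IntermediateField ℚ (AlgebraicClosure ℚ))
    (ξ0 b : ↥(modularFunctionFieldFullC K0 L))
    (hb : b ∈ H97.chartV ↥(H61.A0 A K0) ξ0) :
    H74.toBar K0 L b ∈ H58.chartRing A L (H74.toBar K0 L ξ0)⁻¹ :=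
  toBar_mem_chartRing_of_mem_chartV K0 L A (H61.A0 A K0) (fun _ ha => ha) hb

end Fermat.Agent.S37.H53
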