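/-
S37, (a)-assembly, chart comparison (helper53): the `K0`-model charts of S18
(`H97.chartU A0 x`, `H97.chartV A0 x`: integral closures of `A0[x]`, `A0[x⁻¹]` in the `K0`-model)
are mapped by the comparison map `H74.toBar` into the `Qbar`-level chart rings of S37
(`H58.chartRing A L (toBar x)`, `H58.chartRing A L (toBar x)⁻¹`), for `A0 ⊆ A ∩ K0`.

* `isIntegralElem_map_of_comm` : integrality in ring-hom form along a commutative square;
* `isIntegralElem_of_isIntegral_adjoin` : the generic chart comparison;
* `toBar_mem_chartRing_of_mem_chartU` / `_chartV` : the model instance.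
-/
import Mathlib
import Fermat.Agent.S37.TransferAlg_helper59
import Fermat.Agent.S37.SatA_helper58
import Fermat.Agent.S18.PlaceModel_helper74
import Fermat.Agent.S18.Charts_helper97

set_option autoImplicit false

namespace Fermat.Agent.S37.H53

open Polynomial

/-- integrality in ring-hom form is preserved along a commutative square. -/
theorem isIntegralElem_map_of_comm {R R' S S' : Type*} [CommRing R] [CommRing R'] [CommRing S]
    [CommRing S'] (f : R →+* S) (f' : R' →+* S') (i : R →+* R') (τ : S →+* S')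
    (h : f'.comp i = τ.comp f) {y : S} (hy : f.IsIntegralElem y) : f'.IsIntegralElem (τ y) := by
  obtain ⟨p, hp, hpy⟩ := hy
  refine ⟨p.map i, hp.map i, ?_⟩
  rw [eval₂_map, h, ← hom_eval₂, hpy, map_zero]

/-- **chart comparison, generic.** `b` integral over `A0[x]` in `F0`; `τ : F0 → F`, `i : A0 → A`,
`ψ : A → F` compatible on constants. Then `τ b` is integral over `A[τ x]` (ring-hom form). -/
theorem isIntegralElem_of_isIntegral_adjoin {A0 A F0 F : Type*} [CommRing A0] [CommRing A]
    [CommRing F0] [CommRing F] [Algebra A0 F0] (i : A0 →+* A) (ψ : A →+* F) (τ : F0 →+* F)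
    (hc : ∀ a : A0, τ (algebraMap A0 F0 a) = ψ (i a)) {x b : F0}
    (hb : IsIntegral (Algebra.adjoin A0 {x}) b) :
    (eval₂RingHom ψ (τ x)).IsIntegralElem (τ b) := by
  have h1 : (eval₂RingHom (algebraMap A0 F0) x).IsIntegralElem b :=
    H59.isIntegralElem_iff_isIntegral_adjoin.mpr hb
  refine isIntegralElem_map_of_comm (eval₂RingHom (algebraMap A0 F0) x) (eval₂RingHom ψ (τ x))
    (mapRingHom i) τ ?_ h1
  refine Polynomial.ringHom_ext (fun a => ?_) ?_
  · simp [hc]
  · simp

section Model

open ModularCurve Fermat.Agent.S24.H98 Fermat.Agent.S18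

variable (K0 : Type*) [Field K0] [Algebra K0 Kbar] (L : ℕ) [NeZero L]
  (A : ValuationSubring Kbar) (A0 : ValuationSubring K0)
  (hA0 : ∀ a : K0, a ∈ A0 → algebraMap K0 Kbar a ∈ A)
  [Algebra ↥A0 ↥(modularFunctionFieldFullC K0 L)]
  [IsScalarTower ↥A0 K0 ↥(modularFunctionFieldFullC K0 L)]

include hA0 in
/-- **chart comparison, `U`-chart of the `K0`-model.** -/
theorem toBar_mem_chartRing_of_mem_chartU {x b : ↥(modularFunctionFieldFullC K0 L)}
    (hb : b ∈ H97.chartU ↥A0 x) :
    H74.toBar K0 L b ∈ H58.chartRing A L (H74.toBar K0 L x) := by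
  let i : ↥A0 →+* ↥A :=
    { toFun := fun a => ⟨algebraMap K0 Kbar (a : K0), hA0 _ a.2⟩
      map_one' := Subtype.ext (by simp)
      map_mul' := fun a b => Subtype.ext (by simp)
      map_zero' := Subtype.ext (by simp)
      map_add' := fun a b => Subtype.ext (by simp) }
  refine isIntegralElem_of_isIntegral_adjoin i (H58.constHom A L) (H74.toBar K0 L) ?_
    (H97.mem_chartU.mp hb)
  intro a
  rw [IsScalarTower.algebraMap_apply ↥A0 K0 ↥(modularFunctionFieldFullC K0 L),
    H74.toBar_algebraMap]
  rfl

include hA0 in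
/-- **chart comparison, `V`-chart of the `K0`-model.** -/
theorem toBar_mem_chartRing_of_mem_chartV {x b : ↥(modularFunctionFieldFullC K0 L)}
    (hb : b ∈ H97.chartV ↥A0 x) :
    H74.toBar K0 L b ∈ H58.chartRing A L (H74.toBar K0 L x)⁻¹ := by
  have h := toBar_mem_chartRing_of_mem_chartU K0 L A A0 hA0 (x := x⁻¹) (b := b) hb
  rwa [map_inv₀] at h

end Model

end Fermat.Agent.S37.H53
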