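import Mathlib
import Fermat.Prelude.Def_AlgebraicCurve_DivisorClassGroup
import Fermat.Agent.S37.Gal_helper34

/-!
# S37 (a)-assembly: the `hsum` bridge (helper66)

The consumer forms `H66.unit_mod_of_centred_places` (UnitPlaceCen_helper66) and its variants ask,
for every closed point `n ∋ π` of the special fibre of a chart `B` of the `K0`-model, that the
orders of `u` at the places of `T` which are regular on `B` and centred in `n` sum to zero
(`hsum`).  This file derives that hypothesis from the *counting form* on the side of the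
algebraically closed constant field `Kb`:

  the orders sum to zero over every class of places of `Tb` with the same residue character on
  a set `C ⊇ ι(B)` of functions (`hcnt`).

Everything is abstract: `ι : F →+* Fb` is the comparison map of the model, `rM` the restriction
of places, `Ab` the valuation subring of `Kb` and `A` (with `A ⊆ Ab`, uniformiser `π`) the base
of the chart.

* `sum_eq_zero_of_classes` : a sum over a union of classes vanishes if it vanishes on each class;
* `dvr_dichotomy` : an element of `K0 = Frac A` is in `A` or its inverse is in `π A`;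
* `Cen Ab ι B n w` : the place `w` is `Ab`-valued on `ι(B)` and its residue character kills
  exactly `n`;
* `Cen.of_same` : `Cen` only depends on the residue character on `C ⊇ ι(B)`;
* `cen_iff` : for a `K0`-rational place, `Cen` is `regular on B` + `centred in n` of its
  restriction to the model;
* `KerIn`, `cen_iff_exists_isFin` : `Cen` through `H34.IsFin` / `H34.charOf` (the `hp` line of
  `H53.fiberMass_eq_of_transferAt` / `H53.sum_ord_eq_zero_of_transferAt`);
* `exists_isFin_kerIn_iff` : the dictionary `hpp` of `H53.exists_finset_model_sum_eq_zero'`;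
* `hsum_of_classes` : the bridge in one call, from the class sums.
-/

set_option autoImplicit false

open AlgebraicCurve

namespace Fermat.Agent.S37.H66

section Classes

/-- A sum over a union of classes of a symmetric transitive relation vanishes as soon as the sum
over each class does. -/
theorem sum_eq_zero_of_classes {α : Type*} (r : α → α → Prop) (s : Finset α) (f : α → ℤ)
    (hsymm : ∀ a b, r a b → r b a) (htrans : ∀ a b c, r a b → r b c → r a c)
    (hcls : ∀ a ∈ s, r a a → ∀ c : Finset α, (∀ b, b ∈ c ↔ b ∈ s ∧ r b a) → ∑ b ∈ c, f b = 0)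
    (X : Finset α) (hXs : X ⊆ s) (hrefl : ∀ a ∈ X, r a a)
    (hclosed : ∀ a ∈ X, ∀ b ∈ s, r b a → b ∈ X) : ∑ b ∈ X, f b = 0 := by
  classical
  induction X using Finset.strongInduction with
  | H X ih =>
    rcases X.eq_empty_or_nonempty with rfl | ⟨a, ha⟩
    · simp
    · have hmem : ∀ b, b ∈ s.filter (fun b => r b a) ↔ b ∈ s ∧ r b a := fun b =>
        Finset.mem_filter
      have hcX : s.filter (fun b => r b a) ⊆ X := fun b hb =>
        hclosed a ha b ((hmem b).mp hb).1 ((hmem b).mp hb).2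
      have hac : a ∈ s.filter (fun b => r b a) := (hmem a).mpr ⟨hXs ha, hrefl a ha⟩
      have hlt : X \ s.filter (fun b => r b a) ⊂ X :=
        Finset.sdiff_ssubset hcX ⟨a, hac⟩
      have h1 := ih (X \ s.filter (fun b => r b a)) hlt
        (fun b hb => hXs (Finset.mem_sdiff.mp hb).1)
        (fun b hb => hrefl b (Finset.mem_sdiff.mp hb).1)
        (fun b hb b' hb' hr => by
          rw [Finset.mem_sdiff] at hb ⊢
          refine ⟨hclosed b hb.1 b' hb' hr, fun hb'c => hb.2 ?_⟩
          exact (hmem b).mpr ⟨hXs hb.1, htrans b b' a (hsymm _ _ hr) ((hmem b').mp hb'c).2⟩)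
      rw [← Finset.sum_sdiff hcX, h1, hcls a (hXs ha) (hrefl a ha) _ hmem, add_zero]

end Classes

section Dvr

variable {A K0 : Type*} [CommRing A] [IsDomain A] [Field K0] [Algebra A K0] [IsFractionRing A K0]

/-- In a domain in which every nonzero element divides a power of `π` and every non-multiple of
`π` is a unit, every nonzero element is a unit times a power of `π`. -/
theorem exists_unit_mul_pow {π : A} (hπ : π ≠ 0)
    (harch : ∀ c : A, c ≠ 0 → ∃ n : ℕ, c ∣ π ^ n) (hAmax : ∀ a : A, ¬ π ∣ a → IsUnit a)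
    (y : A) (hy : y ≠ 0) : ∃ (i : ℕ) (v : Aˣ), y = v * π ^ i := by
  obtain ⟨j, hj⟩ := harch y hy
  induction j generalizing y with
  | zero =>
    rw [pow_zero] at hj
    obtain ⟨v, rfl⟩ := isUnit_of_dvd_one hj
    exact ⟨0, v, by rw [pow_zero, mul_one]⟩
  | succ j ih =>
    by_cases hdvd : π ∣ y
    · obtain ⟨y1, rfl⟩ := hdvd
      have hy1 : y1 ≠ 0 := right_ne_zero_of_mul hy
      rw [pow_succ', mul_dvd_mul_iff_left hπ] at hj
      obtain ⟨i, v, rfl⟩ := ih y1 hy1 hj
      exact ⟨i + 1, v, by rw [pow_succ]; ring⟩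
    · obtain ⟨v, rfl⟩ := hAmax y hdvd
      exact ⟨0, v, by rw [pow_zero, mul_one]⟩

/-- **the dichotomy of a discrete valuation ring**: an element of the fraction field is in `A`
or its inverse is in `π A`. -/
theorem dvr_dichotomy {π : A} (hπ : π ≠ 0)
    (harch : ∀ c : A, c ≠ 0 → ∃ n : ℕ, c ∣ π ^ n) (hAmax : ∀ a : A, ¬ π ∣ a → IsUnit a)
    (c : K0) :
    (∃ a : A, algebraMap A K0 a = c) ∨ ∃ a : A, c * algebraMap A K0 (π * a) = 1 := by
  obtain ⟨x, s, hs, rfl⟩ := IsFractionRing.div_surjective (A := A) c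
  have hs0 : s ≠ 0 := nonZeroDivisors.ne_zero hs
  have hs0' : algebraMap A K0 s ≠ 0 := by
    rw [Ne, IsFractionRing.to_map_eq_zero_iff]; exact hs0
  by_cases hx : x = 0
  · left
    exact ⟨0, by rw [hx, map_zero, zero_div]⟩
  · obtain ⟨i, v, rfl⟩ := exists_unit_mul_pow hπ harch hAmax x hx
    obtain ⟨i', v', rfl⟩ := exists_unit_mul_pow hπ harch hAmax s hs0
    have hπ' : algebraMap A K0 π ≠ 0 := by
      rw [Ne, IsFractionRing.to_map_eq_zero_iff]; exact hπ
    have hv' : algebraMap A K0 (v' : A) ≠ 0 := (v'.isUnit.map (algebraMap A K0)).ne_zero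
    have hv : algebraMap A K0 (v : A) ≠ 0 := (v.isUnit.map (algebraMap A K0)).ne_zero
    have hv'inv : algebraMap A K0 ((v'⁻¹ : Aˣ) : A) = (algebraMap A K0 (v' : A))⁻¹ :=
      eq_inv_of_mul_eq_one_right (by rw [← map_mul, Units.mul_inv, map_one])
    have hvinv : algebraMap A K0 ((v⁻¹ : Aˣ) : A) = (algebraMap A K0 (v : A))⁻¹ :=
      eq_inv_of_mul_eq_one_right (by rw [← map_mul, Units.mul_inv, map_one])
    rcases le_or_gt i' i with hle | hlt
    · left
      obtain ⟨k, rfl⟩ := Nat.exists_eq_add_of_le hle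
      refine ⟨v * ((v'⁻¹ : Aˣ) : A) * π ^ k, ?_⟩
      simp only [map_mul, map_pow, hv'inv]
      field_simp
      ring
    · right
      obtain ⟨k, rfl⟩ := Nat.exists_eq_add_of_lt hlt
      refine ⟨v' * ((v⁻¹ : Aˣ) : A) * π ^ k, ?_⟩
      simp only [map_mul, map_pow, hvinv]
      field_simp
      ring

end Dvr

section Bridge

variable {A F : Type*} [CommRing A] [Field F] [Algebra A F]
  {K0 : Type*} [Field K0] [Algebra A K0] [Algebra K0 F] [IsScalarTower A K0 F]
  {Kb Fb : Type*} [Field Kb] [Field Fb] [Algebra Kb Fb]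

/-- `w` is centred at the closed point `n` of the special fibre of the chart `B`: every function
of `ι(B)` has a value in `Ab` at `w`, and the functions whose value is a nonunit are in `n`. -/
def Cen (Ab : ValuationSubring Kb) (ι : F →+* Fb) (B : Subalgebra A F) (n : Ideal B)
    (w : Place Kb Fb) : Prop :=
  ∀ b : B, ∃ c ∈ Ab, ι (b : F) - algebraMap Kb Fb c ∈ w.toValuationSubring.nonunits ∧
    (c ∈ Ab.nonunits → b ∈ n)

/-- `Cen` only depends on the residue character on a set `C ⊇ ι(B)`. -/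
theorem Cen.of_same {Ab : ValuationSubring Kb} {ι : F →+* Fb} {B : Subalgebra A F}
    {n : Ideal B} {w w' : Place Kb Fb} (C : Set Fb) (hBC : ∀ b ∈ B, ι b ∈ C)
    (hw : Cen Ab ι B n w)
    (hsame : ∀ y ∈ C, ∃ c ∈ Ab, ∃ c' ∈ Ab,
      y - algebraMap Kb Fb c ∈ w'.toValuationSubring.nonunits ∧
      y - algebraMap Kb Fb c' ∈ w.toValuationSubring.nonunits ∧ c - c' ∈ Ab.nonunits) :
    Cen Ab ι B n w' := by
  intro b
  obtain ⟨c, hc, c', -, h1, h2, h3⟩ := hsame _ (hBC b b.2)
  obtain ⟨c'', -, h4, h5⟩ := hw b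
  have hcc : c'' = c' := H34.EvalAt.unique (P := w) h4 h2
  subst hcc
  refine ⟨c, hc, h1, fun hcm => h5 ?_⟩
  have h6 := sub_mem hcm h3
  rwa [sub_sub_cancel] at h6

/-- transfer of the maximal ideal along a comparison map of valuation subrings -/
theorem mem_nonunits_iff_of_mem_iff {V : ValuationSubring F} {W : ValuationSubring Fb}
    (ι : F →+* Fb) (h : ∀ y, y ∈ V ↔ ι y ∈ W) (y : F) :
    y ∈ V.nonunits ↔ ι y ∈ W.nonunits := by
  rw [ValuationSubring.mem_nonunits_iff_or, ValuationSubring.mem_nonunits_iff_or, h, map_inv₀,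
    map_eq_zero]

/-- For a `K0`-rational place `P = rM w`, `Cen n w` says that `P` is regular on `B` and centred
in `n`. -/
theorem cen_iff {π : A} {B : Subalgebra A F} {Ab : ValuationSubring Kb} {ι : F →+* Fb}
    {κ : K0 →+* Kb} (hικ : ∀ c : K0, ι (algebraMap K0 F c) = algebraMap Kb Fb (κ c))
    (hAb : ∀ a : A, κ (algebraMap A K0 a) ∈ Ab)
    (hAπ : ∀ a : A, κ (algebraMap A K0 a) ∈ Ab.nonunits → π ∣ a)
    (hdvr : ∀ c : K0, (∃ a : A, algebraMap A K0 a = c) ∨
      ∃ a : A, c * algebraMap A K0 (π * a) = 1)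
    {w : Place Kb Fb} {P : Place K0 F}
    (hP : ∀ y : F, y ∈ P.toValuationSubring ↔ ι y ∈ w.toValuationSubring)
    (hrat : ∀ y ∈ P.toValuationSubring,
      ∃ c : K0, y - algebraMap K0 F c ∈ P.toValuationSubring.nonunits)
    {n : Ideal B} (hn : n ≠ ⊤) (hπn : algebraMap A B π ∈ n) :
    Cen Ab ι B n w ↔ (∀ b ∈ B, b ∈ P.toValuationSubring) ∧
      ∀ b : B, (b : F) ∈ P.toValuationSubring.nonunits → b ∈ n := by
  have hPn := mem_nonunits_iff_of_mem_iff ι hP
  constructor
  · intro hcen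
    refine ⟨fun b hb => ?_, fun b hb => ?_⟩
    · obtain ⟨c, -, hc, -⟩ := hcen ⟨b, hb⟩
      exact (hP b).mpr (H34.EvalAt.mem (P := w) hc)
    · obtain ⟨c, -, hc, hcn⟩ := hcen b
      have h0 : H34.EvalAt w (ι (b : F)) 0 := by
        rw [H34.evalAt_iff, map_zero, sub_zero]
        exact (hPn _).mp hb
      have hc0 : c = 0 := H34.EvalAt.unique (P := w) hc h0
      exact hcn (by rw [hc0]; exact zero_mem _)
  · rintro ⟨hreg, hcen⟩ b
    obtain ⟨c0, hc0⟩ := hrat (b : F) (hreg b b.2)
    rcases hdvr c0 with ⟨a0, rfl⟩ | ⟨a, ha⟩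
    · refine ⟨κ (algebraMap A K0 a0), hAb a0, ?_, fun hnon => ?_⟩
      · rw [← hικ, ← map_sub]
        exact (hPn _).mp hc0
      · obtain ⟨a1, rfl⟩ := hAπ a0 hnon
        have h1 : b - algebraMap A B (π * a1) ∈ n := by
          apply hcen
          have : ((b - algebraMap A B (π * a1) : B) : F) =
              (b : F) - algebraMap K0 F (algebraMap A K0 (π * a1)) := by
            rw [← IsScalarTower.algebraMap_apply]
            rfl
          rw [this]
          exact hc0
        have h2 : algebraMap A B (π * a1) ∈ n := by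
          rw [map_mul]
          exact n.mul_mem_right _ hπn
        have := n.add_mem h1 h2
        rwa [sub_add_cancel] at this
    · exfalso
      apply hn
      rw [Ideal.eq_top_iff_one]
      have h1 : b * algebraMap A B (π * a) - 1 ∈ n := by
        apply hcen
        have hcoe : ((b * algebraMap A B (π * a) - 1 : B) : F) =
            ((b : F) - algebraMap K0 F c0) * algebraMap K0 F (algebraMap A K0 (π * a)) +
              (algebraMap K0 F (c0 * algebraMap A K0 (π * a)) - 1) := by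
          have e1 : ((b * algebraMap A B (π * a) - 1 : B) : F) =
              (b : F) * algebraMap K0 F (algebraMap A K0 (π * a)) - 1 := by
            rw [← IsScalarTower.algebraMap_apply]
            rfl
          rw [e1, map_mul (algebraMap K0 F) c0]
          ring
        rw [hcoe, ha, map_one, sub_self, add_zero, mul_comm]
        exact H34.mul_mem_nonunits (P.algebraMap_mem' _) hc0
      have h2 : b * algebraMap A B (π * a) ∈ n := by
        rw [map_mul, ← mul_assoc]
        exact n.mul_mem_right _ (n.mul_mem_left _ hπn)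
      have := n.sub_mem h2 h1
      rwa [sub_sub_cancel] at this

/-- The predicate on the residue characters of a subring `R' ⊇ ι(B)`: the functions of `B`
killed by `χ ∘ ι` are in `n`  (for `n` maximal: the kernel of `χ ∘ ι|B` is `n`). -/
def KerIn (Ab : ValuationSubring Kb) (ι : F →+* Fb) (B : Subalgebra A F) (n : Ideal B)
    (R' : Subring Fb) (hBR : ∀ b ∈ B, ι b ∈ R')
    (χ : R' →+* IsLocalRing.ResidueField Ab) : Prop :=
  ∀ b : B, χ ⟨ι (b : F), hBR b b.2⟩ = 0 → b ∈ n

/-- **the `hp` line**: `Cen n w` says that `w` is `R'`-finite and that its residue character on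
`R'` satisfies `KerIn`, for every subring `R' ⊇ ι(B)` on which `ι(B)`-finite places are finite
(e.g. `R'` integral over `ι(B)`). -/
theorem cen_iff_exists_isFin {Ab : ValuationSubring Kb} {ι : F →+* Fb} {B : Subalgebra A F}
    {n : Ideal B} {w : Place Kb Fb} (R' : Subring Fb) (hBR : ∀ b ∈ B, ι b ∈ R')
    (hfin : (∀ b ∈ B, ∃ c ∈ Ab, H34.EvalAt w (ι b) c) → H34.IsFin Ab R' w) :
    Cen Ab ι B n w ↔ ∃ h : H34.IsFin Ab R' w, KerIn Ab ι B n R' hBR (H34.charOf h) := by
  constructor
  · intro hcen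
    refine ⟨hfin fun b hb => ?_, fun b hb => ?_⟩
    · obtain ⟨c, hc, h1, -⟩ := hcen ⟨b, hb⟩
      exact ⟨c, hc, h1⟩
    · obtain ⟨c, hc, h1, h2⟩ := hcen b
      rw [H34.charOf_eq_of_evalAt _ ⟨ι (b : F), hBR b b.2⟩ h1 hc,
        IsLocalRing.residue_eq_zero_iff] at hb
      exact h2 (ValuationSubring.coe_mem_nonunits_iff.mpr hb)
  · rintro ⟨h, hq⟩ b
    obtain ⟨c, hc, hev⟩ := h (ι (b : F)) (hBR b b.2)
    refine ⟨c, hc, hev, fun hnon => hq b ?_⟩
    rw [H34.charOf_eq_of_evalAt h ⟨ι (b : F), hBR b b.2⟩ hev hc,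
      IsLocalRing.residue_eq_zero_iff]
    exact ValuationSubring.coe_mem_nonunits_iff.mp hnon

/-- **the rational-place dictionary `hpp`**: for a `K0`-rational place `P = rM w` of the model,
"`w` is `R'`-finite with residue character in `KerIn n`" says that `P` is regular on the chart
`B` and centred in `n`.  (Hypotheses on the base as in `H66.unit_mod_of_centred_places`.) -/
theorem exists_isFin_kerIn_iff [IsDomain A] [IsFractionRing A K0] {π : A} {B : Subalgebra A F}
    {Ab : ValuationSubring Kb} {ι : F →+* Fb} {κ : K0 →+* Kb}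
    (hπ : π ≠ 0) (harch : ∀ c : A, c ≠ 0 → ∃ n : ℕ, c ∣ π ^ n)
    (hAmax : ∀ a : A, ¬ π ∣ a → IsUnit a)
    (hικ : ∀ c : K0, ι (algebraMap K0 F c) = algebraMap Kb Fb (κ c))
    (hAb : ∀ a : A, κ (algebraMap A K0 a) ∈ Ab)
    {w : Place Kb Fb} {P : Place K0 F}
    (hP : ∀ y : F, y ∈ P.toValuationSubring ↔ ι y ∈ w.toValuationSubring)
    (hrat : ∀ y ∈ P.toValuationSubring,
      ∃ c : K0, y - algebraMap K0 F c ∈ P.toValuationSubring.nonunits)
    {n : Ideal B} (hn : n ≠ ⊤) (hπn : algebraMap A B π ∈ n)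
    (R' : Subring Fb) (hBR : ∀ b ∈ B, ι b ∈ R')
    (hfin : (∀ b ∈ B, ∃ c ∈ Ab, H34.EvalAt w (ι b) c) → H34.IsFin Ab R' w) :
    (∃ h : H34.IsFin Ab R' w, KerIn Ab ι B n R' hBR (H34.charOf h)) ↔
      (∀ b ∈ B, b ∈ P.toValuationSubring) ∧
        ∀ b : B, (b : F) ∈ P.toValuationSubring.nonunits → b ∈ n := by
  have hAπ : ∀ a : A, κ (algebraMap A K0 a) ∈ Ab.nonunits → π ∣ a := by
    intro a ha
    by_contra hdvd
    obtain ⟨v, rfl⟩ := hAmax a hdvd
    have h1 := H34.mul_mem_nonunits (hAb ((v⁻¹ : Aˣ) : A)) ha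
    rw [← map_mul, ← map_mul, Units.inv_mul, map_one, map_one] at h1
    exact ((ValuationSubring.mem_nonunits_iff _).mp h1).ne (map_one _)
  rw [← cen_iff_exists_isFin R' hBR hfin]
  exact cen_iff hικ hAb hAπ (dvr_dichotomy (K0 := K0) hπ harch hAmax) hP hrat hn hπn

/-- **The `hsum` bridge.**  If the weights `d w = ord_{rM w} u` sum to zero over every class of
places of `Tb` with the same residue character on `C ⊇ ι(B)`, then for every closed point
`n ∋ π` of the chart `B` the orders of `u` sum to zero over the places of `T = rM(Tb)` which are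
regular on `B` and centred in `n`. -/
theorem hsum_of_classes [IsDomain A] [IsFractionRing A K0] (π : A) (B : Subalgebra A F)
    (Ab : ValuationSubring Kb) (ι : F →+* Fb) (κ : K0 →+* Kb)
    (rM : Place Kb Fb → Place K0 F)
    (hπ : π ≠ 0) (harch : ∀ c : A, c ≠ 0 → ∃ n : ℕ, c ∣ π ^ n)
    (hAmax : ∀ a : A, ¬ π ∣ a → IsUnit a)
    (hικ : ∀ c : K0, ι (algebraMap K0 F c) = algebraMap Kb Fb (κ c))
    (hrM : ∀ (w : Place Kb Fb) (y : F),
      y ∈ (rM w).toValuationSubring ↔ ι y ∈ w.toValuationSubring)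
    (hAb : ∀ a : A, κ (algebraMap A K0 a) ∈ Ab)
    (C : Set Fb) (hBC : ∀ b ∈ B, ι b ∈ C)
    (hfin : ∀ w : Place Kb Fb,
      (∀ b ∈ B, ∃ c ∈ Ab, ι b - algebraMap Kb Fb c ∈ w.toValuationSubring.nonunits) →
      ∀ y ∈ C, ∃ c ∈ Ab, y - algebraMap Kb Fb c ∈ w.toValuationSubring.nonunits)
    (u : F) (Tb : Finset (Place Kb Fb)) (T : Finset (Place K0 F))
    (hT : ∀ P, P ∈ T ↔ ∃ w ∈ Tb, rM w = P)
    (hinj : Set.InjOn rM (Tb : Set (Place Kb Fb)))
    (hrat : ∀ w ∈ Tb, ∀ y ∈ (rM w).toValuationSubring,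
      ∃ c : K0, y - algebraMap K0 F c ∈ (rM w).toValuationSubring.nonunits)
    (d : Place Kb Fb → ℤ) (hord : ∀ w ∈ Tb, (rM w).ord u = d w)
    (hcnt : ∀ w0 ∈ Tb, ∀ S' : Finset (Place Kb Fb),
      (∀ w, w ∈ S' ↔ w ∈ Tb ∧ ∀ y ∈ C, ∃ c ∈ Ab, ∃ c' ∈ Ab,
          y - algebraMap Kb Fb c ∈ w.toValuationSubring.nonunits ∧
          y - algebraMap Kb Fb c' ∈ w0.toValuationSubring.nonunits ∧ c - c' ∈ Ab.nonunits) →
      ∑ w ∈ S', d w = 0) :
    ∀ n : Ideal B, n.IsMaximal → algebraMap A B π ∈ n →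
      ∀ S : Finset (Place K0 F),
        (∀ P, P ∈ S ↔ P ∈ T ∧ (∀ b ∈ B, b ∈ P.toValuationSubring) ∧
          ∀ b : B, (b : F) ∈ P.toValuationSubring.nonunits → b ∈ n) →
        ∑ P ∈ S, P.ord u = 0 := by
  classical
  intro n hn hπn S hS
  have hdvr := dvr_dichotomy (K0 := K0) hπ harch hAmax
  have hAπ : ∀ a : A, κ (algebraMap A K0 a) ∈ Ab.nonunits → π ∣ a := by
    intro a ha
    by_contra hdvd
    obtain ⟨v, rfl⟩ := hAmax a hdvd
    have h1 := H34.mul_mem_nonunits (hAb ((v⁻¹ : Aˣ) : A)) ha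
    rw [← map_mul, ← map_mul, Units.inv_mul, map_one, map_one] at h1
    exact ((ValuationSubring.mem_nonunits_iff _).mp h1).ne (map_one _)
  have hcen : ∀ w ∈ Tb, (Cen Ab ι B n w ↔ (∀ b ∈ B, b ∈ (rM w).toValuationSubring) ∧
      ∀ b : B, (b : F) ∈ (rM w).toValuationSubring.nonunits → b ∈ n) := fun w hw =>
    cen_iff hικ hAb hAπ hdvr (hrM w) (hrat w hw) hn.ne_top hπn
  set X : Finset (Place Kb Fb) := Tb.filter (fun w => Cen Ab ι B n w) with hX
  have hXT : X ⊆ Tb := Finset.filter_subset _ _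
  have hSeq : S = X.image rM := by
    ext P
    rw [hS, hT, Finset.mem_image]
    constructor
    · rintro ⟨⟨w, hw, rfl⟩, h2⟩
      exact ⟨w, Finset.mem_filter.mpr ⟨hw, (hcen w hw).mpr h2⟩, rfl⟩
    · rintro ⟨w, hw, rfl⟩
      rw [hX, Finset.mem_filter] at hw
      exact ⟨⟨w, hw.1, rfl⟩, (hcen w hw.1).mp hw.2⟩
  rw [hSeq, Finset.sum_image (fun a ha b hb h => hinj (hXT ha) (hXT hb) h),
    Finset.sum_congr rfl (fun w hw => hord w (hXT hw))]
  refine sum_eq_zero_of_classes
    (fun w w0 : Place Kb Fb => ∀ y ∈ C, ∃ c ∈ Ab, ∃ c' ∈ Ab,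
      y - algebraMap Kb Fb c ∈ w.toValuationSubring.nonunits ∧
      y - algebraMap Kb Fb c' ∈ w0.toValuationSubring.nonunits ∧ c - c' ∈ Ab.nonunits)
    Tb d ?_ ?_ ?_ X hXT ?_ ?_
  · intro a b hab y hy
    obtain ⟨c, hc, c', hc', h1, h2, h3⟩ := hab y hy
    refine ⟨c', hc', c, hc, h2, h1, ?_⟩
    have := neg_mem h3
    rwa [neg_sub] at this
  · intro a b e hab hbe y hy
    obtain ⟨c1, hc1, c1', -, h1, h2, h3⟩ := hab y hy
    obtain ⟨c2, -, c2', hc2', h4, h5, h6⟩ := hbe y hy
    have hcc : c1' = c2 := H34.EvalAt.unique (P := b) h2 h4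
    subst hcc
    refine ⟨c1, hc1, c2', hc2', h1, h5, ?_⟩
    have := add_mem h3 h6
    rwa [sub_add_sub_cancel] at this
  · intro w0 hw0 _ S' hS'
    exact hcnt w0 hw0 S' hS'
  · intro w hw y hy
    rw [hX, Finset.mem_filter] at hw
    obtain ⟨c, hc, hcw⟩ := hfin w (fun b hb => by
      obtain ⟨c, hc, h1, -⟩ := hw.2 ⟨b, hb⟩
      exact ⟨c, hc, h1⟩) y hy
    exact ⟨c, hc, c, hc, hcw, hcw, by rw [sub_self]; exact zero_mem _⟩
  · intro a ha b hb hr
    rw [hX, Finset.mem_filter] at ha ⊢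
    exact ⟨hb, Cen.of_same C hBC ha.2 hr⟩

end Bridge

end Fermat.Agent.S37.H66
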