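import Mathlib
import Fermat.Prelude.Def_AlgebraicCurve_DivisorClassGroup
import Fermat.Agent.S37.UnitPlaceCen_helper66

/-!
# S37 (UNIT'), consumer form with plain `K0`-rationality

`H66.unit_mod_of_centred_places` (helper66) asks, for every place `P ∈ T` centred in a closed
point `n ∋ π` of the special fibre of the chart `B`, that all elements of `B` take values in `A`
at `P`.  Here that hypothesis is replaced by plain `K0`-rationality of the places of `T`
(`K0 = Frac A`), with no chart in it:

`hratK : ∀ P ∈ T, ∀ y ∈ P.toValuationSubring, ∃ c : K0, y - algebraMap K0 F c ∈ m_P`.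

The `A`-valuedness at the places centred in `n` follows because `A` is the `π`-adic valuation
ring of `K0` (`value_mem_of_centred`): if the value `c` of `b ∈ B` were not in `A`, then
`c⁻¹ = π a` and `π a b - 1 ∈ B ∩ m_P ⊆ n`, so `1 ∈ n`.
-/

set_option autoImplicit false

open AlgebraicCurve

namespace Fermat.Agent.S37.H25


section PiAdic

variable (A : Type) [CommRing A] [IsDomain A] (K0 : Type) [Field K0] [Algebra A K0]
  [IsFractionRing A K0]

/-- If `A` is `π`-adic (`harch`, `hAmax`) with fraction field `K0`, then every element of `K0`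
lies in `A` or has its inverse in `π A`. -/
theorem mem_or_inv_mem_pi (π : A) (hπ : π ≠ 0) (harch : ∀ c : A, c ≠ 0 → ∃ n : ℕ, c ∣ π ^ n)
    (hAmax : ∀ a : A, ¬ π ∣ a → IsUnit a) (c : K0) :
    (∃ a : A, algebraMap A K0 a = c) ∨ ∃ a : A, c * algebraMap A K0 (π * a) = 1 := by
  have hinj : Function.Injective (algebraMap A K0) := IsFractionRing.injective A K0
  have hπK : algebraMap A K0 π ≠ 0 := fun h => hπ (hinj (by rw [h, map_zero]))
  have key : ∀ (N : ℕ) (d : A), d ≠ 0 →
      (∃ a : A, algebraMap A K0 a = algebraMap A K0 d / algebraMap A K0 π ^ N) ∨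
        ∃ a : A, (algebraMap A K0 d / algebraMap A K0 π ^ N) * algebraMap A K0 (π * a) = 1 := by
    intro N
    induction N with
    | zero => intro d _; exact Or.inl ⟨d, by simp⟩
    | succ N ih =>
      intro d hd
      by_cases hπd : π ∣ d
      · obtain ⟨d', rfl⟩ := hπd
        have hd' : d' ≠ 0 := right_ne_zero_of_mul hd
        have e : algebraMap A K0 (π * d') / algebraMap A K0 π ^ (N + 1) =
            algebraMap A K0 d' / algebraMap A K0 π ^ N := by
          rw [map_mul, pow_succ]
          field_simp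
        rw [e]
        exact ih d' hd'
      · obtain ⟨w, rfl⟩ := hAmax d hπd
        refine Or.inr ⟨π ^ N * ((w⁻¹ : Aˣ) : A), ?_⟩
        have hw : algebraMap A K0 (w : A) * algebraMap A K0 ((w⁻¹ : Aˣ) : A) = 1 := by
          rw [← map_mul, Units.mul_inv, map_one]
        have hw0 : algebraMap A K0 (w : A) ≠ 0 := left_ne_zero_of_mul_eq_one hw
        rw [map_mul, map_mul, map_pow, eq_inv_of_mul_eq_one_right hw]
        field_simp
        ring
  by_cases hc : c = 0
  · exact Or.inl ⟨0, by rw [map_zero, hc]⟩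
  obtain ⟨a, b, hb, rfl⟩ := IsFractionRing.div_surjective (A := A) c
  have hb0 : b ≠ 0 := nonZeroDivisors.ne_zero hb
  have ha0 : a ≠ 0 := by
    rintro rfl
    apply hc
    rw [map_zero, zero_div]
  obtain ⟨N, b', hb'⟩ := harch b hb0
  have hbK : algebraMap A K0 b ≠ 0 := fun h => hb0 (hinj (by rw [h, map_zero]))
  have hb'0 : b' ≠ 0 := by
    rintro rfl
    rw [mul_zero] at hb'
    exact pow_ne_zero N hπ hb'
  have hb'K : algebraMap A K0 b' ≠ 0 := fun h => hb'0 (hinj (by rw [h, map_zero]))
  have e : algebraMap A K0 a / algebraMap A K0 b =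
      algebraMap A K0 (a * b') / algebraMap A K0 π ^ N := by
    have h1 : algebraMap A K0 π ^ N = algebraMap A K0 b * algebraMap A K0 b' := by
      rw [← map_pow, hb', map_mul]
    rw [h1, map_mul]
    field_simp
  rw [e]
  exact key N (a * b') (mul_ne_zero ha0 hb'0)

end PiAdic

section Centred

variable (A F : Type) [CommRing A] [IsDomain A] [Field F] [Algebra A F]
  (K0 : Type) [Field K0] [Algebra A K0] [IsFractionRing A K0] [Algebra K0 F]
  [IsScalarTower A K0 F]

/-- **Value in `A` from value in `K0` + centre on the special fibre.**  If the place `P` of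
`F / K0` is centred in a proper ideal `n ∋ π` of the chart `B` and `b ∈ B` has the value
`c ∈ K0` at `P`, then `c ∈ A`. -/
theorem value_mem_of_centred (π : A) (hπ : π ≠ 0) (harch : ∀ c : A, c ≠ 0 → ∃ n : ℕ, c ∣ π ^ n)
    (hAmax : ∀ a : A, ¬ π ∣ a → IsUnit a) (B : Subalgebra A F) (n : Ideal B) (hn : n ≠ ⊤)
    (hπn : algebraMap A B π ∈ n) (P : Place K0 F)
    (hcen : ∀ b : B, (b : F) ∈ P.toValuationSubring.nonunits → b ∈ n)
    (b : B) (c : K0) (hc : (b : F) - algebraMap K0 F c ∈ P.toValuationSubring.nonunits) :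
    ∃ a : A, algebraMap A K0 a = c := by
  rcases mem_or_inv_mem_pi A K0 π hπ harch hAmax c with h | ⟨a, ha⟩
  · exact h
  exfalso
  apply hn
  rw [Ideal.eq_top_iff_one]
  have hAF : ∀ a : A, algebraMap A F a = algebraMap K0 F (algebraMap A K0 a) := fun a =>
    IsScalarTower.algebraMap_apply A K0 F a
  let y : B := b * algebraMap A B (π * a) - 1
  have hy : (y : F) = ((b : F) - algebraMap K0 F c) * algebraMap A F (π * a) := by
    have h1 : algebraMap K0 F c * algebraMap A F (π * a) = 1 := by
      rw [hAF, ← map_mul, ha, map_one]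
    have h2 : (y : F) = (b : F) * algebraMap A F (π * a) - 1 := rfl
    rw [h2, sub_mul, h1]
  have hyP : (y : F) ∈ P.toValuationSubring.nonunits := by
    rw [hy, hAF]
    have h1 := P.algebraMap_mem' (algebraMap A K0 (π * a))
    rw [ValuationSubring.mem_nonunits_iff] at hc ⊢
    rw [map_mul]
    have h2 : P.toValuationSubring.valuation (algebraMap K0 F (algebraMap A K0 (π * a))) ≤ 1 :=
      (P.toValuationSubring.valuation_le_one_iff _).mpr h1
    calc P.toValuationSubring.valuation ((b : F) - algebraMap K0 F c) *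
          P.toValuationSubring.valuation (algebraMap K0 F (algebraMap A K0 (π * a)))
        ≤ P.toValuationSubring.valuation ((b : F) - algebraMap K0 F c) * 1 :=
          mul_le_mul_right h2 _
      _ = P.toValuationSubring.valuation ((b : F) - algebraMap K0 F c) := mul_one _
      _ < 1 := hc
  have hyn : y ∈ n := hcen y hyP
  have hbn : b * algebraMap A B (π * a) ∈ n := by
    rw [map_mul, ← mul_assoc]
    exact n.mul_mem_right _ (n.mul_mem_left _ hπn)
  have : b * algebraMap A B (π * a) - y ∈ n := n.sub_mem hbn hyn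
  simpa [y] using this

end Centred

section Places

variable (A F : Type) [CommRing A] [IsDomain A] [Field F] [Algebra A F]
  (K0 : Type) [Field K0] [Algebra A K0] [IsFractionRing A K0] [Algebra K0 F]
  [IsScalarTower A K0 F]

/-- **(UNIT'), consumer form with plain `K0`-rationality.**  In the chart vocabulary of
`H63.StmtBase` (plus `hAmax`: `A / π` is a field, and `K0 = Frac A`): a Gauss unit `u` such that
the places of `T` are `K0`-rational (`hratK`), every zero or pole of `u` centred in a closed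
point `n` of the special fibre of the chart belongs to `T` (`hall`), and the zeros and poles
centred in each `n` have total order zero (`hsum`), satisfies `ρ(u), ρ(u)⁻¹ ∈ ρ(B)`. -/
theorem unit_mod_of_rational_places (π : A) (V : ValuationSubring F) (B : Subalgebra A F) (u : F)
    (hπ : π ≠ 0) (hinj : Function.Injective (algebraMap A F))
    (harch : ∀ c : A, c ≠ 0 → ∃ n : ℕ, c ∣ π ^ n) (hAmax : ∀ a : A, ¬ π ∣ a → IsUnit a)
    (hπV : algebraMap A F π ∈ V.nonunits)
    (hVπ : ∀ x ∈ V.nonunits, ∃ y ∈ V, x = algebraMap A F π * y)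
    (hBV : ∀ x ∈ B, x ∈ V) (hnoeth : IsNoetherianRing B)
    (hfrac : ∀ x : F, ∃ a ∈ B, ∃ b ∈ B, b ≠ 0 ∧ x * b = a)
    (hsat : ∀ x ∈ B, (∃ y ∈ V, x = algebraMap A F π * y) → ∃ b ∈ B, x = algebraMap A F π * b)
    (hreg : ∀ n : Ideal B, n.IsMaximal → algebraMap A B π ∈ n →
      ∃ τ ∈ n, ∀ a : B, a ∉ Ideal.span {algebraMap A B π} →
        ∃ (e : ℕ) (d u : B), d ∉ n ∧ u ∉ n ∧
          a * d - u * τ ^ e ∈ Ideal.span {algebraMap A B π})
    (hu0 : u ≠ 0) (hu : u ∈ V) (hu' : u⁻¹ ∈ V)
    (T : Finset (Place K0 F))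
    (hratK : ∀ P ∈ T, ∀ y ∈ P.toValuationSubring,
      ∃ c : K0, y - algebraMap K0 F c ∈ P.toValuationSubring.nonunits)
    (hall : ∀ P : Place K0 F, ∀ n : Ideal B, n.IsMaximal → algebraMap A B π ∈ n →
      (∀ b ∈ B, b ∈ P.toValuationSubring) →
      (∀ b : B, (b : F) ∈ P.toValuationSubring.nonunits → b ∈ n) → P.ord u ≠ 0 → P ∈ T)
    (hsum : ∀ n : Ideal B, n.IsMaximal → algebraMap A B π ∈ n →
      ∀ S : Finset (Place K0 F),
        (∀ P, P ∈ S ↔ P ∈ T ∧ (∀ b ∈ B, b ∈ P.toValuationSubring) ∧
          ∀ b : B, (b : F) ∈ P.toValuationSubring.nonunits → b ∈ n) →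
        ∑ P ∈ S, P.ord u = 0) :
    (∃ c ∈ B, ∃ y ∈ V, u - c = algebraMap A F π * y) ∧
      (∃ c ∈ B, ∃ y ∈ V, u⁻¹ - c = algebraMap A F π * y) := by
  refine Fermat.Agent.S37.H66.unit_mod_of_centred_places A F K0 π V B u hπ hinj harch hAmax hπV
    hVπ hBV hnoeth hfrac hsat hreg hu0 hu hu' T ?_ hall hsum
  intro P hPT n hn hπn hreg' hcen b hb
  obtain ⟨c0, hc0⟩ := hratK P hPT b (hreg' b hb)
  obtain ⟨c, rfl⟩ := value_mem_of_centred A F K0 π hπ harch hAmax B n hn.ne_top hπn P hcen
    ⟨b, hb⟩ c0 hc0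
  refine ⟨c, ?_⟩
  rw [IsScalarTower.algebraMap_apply A K0 F]
  exact hc0

end Places

end Fermat.Agent.S37.H25
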