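import Mathlib
import Fermat.Agent.S37.UnitPlaceCen_helper25
import Fermat.Agent.S37.HsumBridge_helper66
import Fermat.Agent.S18.ConstExtModel_helper39
import Fermat.Agent.S18.PrincDiv_helper98

/-!
# S37 (a)-assembly, node (A3): the chart congruence from class sums (helper66)

`chart_congr_of_classes` is the one-chart arrow of the (a)-assembly with the `Qbar`-level input
in the RELATIONAL SINGLE-CLASS form: for a finite set `T` of places of `Fbar_L` containing the
zeros and poles of `g` (`div g = div (toBar u)`), the orders of `g` sum to zero over every class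
of places of `T` with the same residue character on the big chart `R' ⊇ toBar(B)` (`hcls`).

It fuses `H25.unit_mod_of_rational_places` (place form of (UNIT')) with `H66.hsum_of_classes`
(a closed point `n ∋ π` of the special fibre of the chart `B` is a union of such classes).
-/

set_option autoImplicit false

namespace Fermat.Agent.S37.H66

open ModularCurve AlgebraicCurve Fermat.Agent.S24 Fermat.Agent.S24.H98 Fermat.Agent.S18

section ChartCongrCls

variable (K0 : Type) [Field K0] [Algebra K0 Kbar] [Algebra.IsAlgebraic K0 Kbar]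
  (L : ℕ) [NeZero L]
  (A0 : Type) [CommRing A0] [IsDomain A0] [Algebra A0 K0] [IsFractionRing A0 K0]
  [Algebra A0 ↥(modularFunctionFieldFullC K0 L)]
  [IsScalarTower A0 K0 ↥(modularFunctionFieldFullC K0 L)]

/-- **(A3), one chart, from the relational class sums.** -/
theorem chart_congr_of_classes (A : ValuationSubring Kbar)
    (hA0 : ∀ a : A0, algebraMap K0 Kbar (algebraMap A0 K0 a) ∈ A)
    (π : A0) (V : ValuationSubring ↥(modularFunctionFieldFullC K0 L))
    (B : Subalgebra A0 ↥(modularFunctionFieldFullC K0 L))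
    (u : ↥(modularFunctionFieldFullC K0 L))
    (hπ : π ≠ 0)
    (hinj : Function.Injective (algebraMap A0 ↥(modularFunctionFieldFullC K0 L)))
    (harch : ∀ c : A0, c ≠ 0 → ∃ n : ℕ, c ∣ π ^ n) (hAmax : ∀ a : A0, ¬ π ∣ a → IsUnit a)
    (hπV : algebraMap A0 ↥(modularFunctionFieldFullC K0 L) π ∈ V.nonunits)
    (hVπ : ∀ x ∈ V.nonunits, ∃ y ∈ V,
      x = algebraMap A0 ↥(modularFunctionFieldFullC K0 L) π * y)
    (hBV : ∀ x ∈ B, x ∈ V) (hnoeth : IsNoetherianRing B)
    (hfrac : ∀ x : ↥(modularFunctionFieldFullC K0 L), ∃ a ∈ B, ∃ b ∈ B, b ≠ 0 ∧ x * b = a)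
    (hsat : ∀ x ∈ B,
      (∃ y ∈ V, x = algebraMap A0 ↥(modularFunctionFieldFullC K0 L) π * y) →
        ∃ b ∈ B, x = algebraMap A0 ↥(modularFunctionFieldFullC K0 L) π * b)
    (hreg : ∀ n : Ideal B, n.IsMaximal → algebraMap A0 B π ∈ n →
      ∃ τ ∈ n, ∀ a : B, a ∉ Ideal.span {algebraMap A0 B π} →
        ∃ (e : ℕ) (d u : B), d ∉ n ∧ u ∉ n ∧
          a * d - u * τ ^ e ∈ Ideal.span {algebraMap A0 B π})
    (hu0 : u ≠ 0) (hu : u ∈ V) (hu' : u⁻¹ ∈ V)
    (R' : Subring ↥(modularFunctionFieldBar L)) (hBR : ∀ b ∈ B, H74.toBar K0 L b ∈ R')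
    (hfin : ∀ w : Place Kbar ↥(modularFunctionFieldBar L),
      (∀ b ∈ B, ∃ c ∈ A, H34.EvalAt w (H74.toBar K0 L b) c) → H34.IsFin A R' w)
    (g : ↥(modularFunctionFieldBar L))
    (hug : ∀ w : Place Kbar ↥(modularFunctionFieldBar L),
      w.ord (H74.toBar K0 L u) = w.ord g)
    (T : Finset (Place Kbar ↥(modularFunctionFieldBar L)))
    (hT : ∀ w : Place Kbar ↥(modularFunctionFieldBar L), w.ord g ≠ 0 → w ∈ T)
    (hratb : ∀ w ∈ T, ∀ y ∈ (H74.restrictModel K0 L w).toValuationSubring,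
        ∃ c : K0, y - algebraMap K0 ↥(modularFunctionFieldFullC K0 L) c ∈
          (H74.restrictModel K0 L w).toValuationSubring.nonunits)
    (huniq : ∀ w ∈ T, ∀ w' : Place Kbar ↥(modularFunctionFieldBar L),
        H74.restrictModel K0 L w' = H74.restrictModel K0 L w → w' = w)
    (hcls : ∀ w₀ : Place Kbar ↥(modularFunctionFieldBar L),
      ∀ S' : Finset (Place Kbar ↥(modularFunctionFieldBar L)),
        (∀ w, w ∈ S' ↔ w ∈ T ∧ ∀ y ∈ R', ∃ c c' : Kbar, c ∈ A ∧ c' ∈ A ∧
          H34.EvalAt w y c ∧ H34.EvalAt w₀ y c' ∧ c - c' ∈ A.nonunits) →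
        ∑ w ∈ S', w.ord g = 0) :
    (∃ c ∈ B, ∃ y ∈ V, u - c = algebraMap A0 ↥(modularFunctionFieldFullC K0 L) π * y) ∧
      (∃ c ∈ B, ∃ y ∈ V, u⁻¹ - c = algebraMap A0 ↥(modularFunctionFieldFullC K0 L) π * y) := by
  classical
  have hord : ∀ w : Place Kbar ↥(modularFunctionFieldBar L),
      (H74.restrictModel K0 L w).ord u = w.ord g := fun w => by
    rw [← H39.ord_toBar_eq_ord_restrictModel K0 L w u, hug w]
  have hTmem : ∀ P : Place K0 ↥(modularFunctionFieldFullC K0 L),
      P ∈ T.image (H74.restrictModel K0 L) ↔ ∃ w ∈ T, H74.restrictModel K0 L w = P :=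
    fun P => Finset.mem_image
  refine H25.unit_mod_of_rational_places A0 ↥(modularFunctionFieldFullC K0 L) K0 π V B u hπ hinj
    harch hAmax hπV hVπ hBV hnoeth hfrac hsat hreg hu0 hu hu'
    (T.image (H74.restrictModel K0 L)) ?_ ?_ ?_
  · intro P hP y hy
    obtain ⟨w, hw, rfl⟩ := (hTmem P).mp hP
    exact hratb w hw y hy
  · intro P n _ _ _ _ hne
    obtain ⟨w, rfl⟩ := H74.exists_restrictModel_eq K0 L P
    rw [hord] at hne
    exact (hTmem _).mpr ⟨w, hT w hne, rfl⟩
  · refine hsum_of_classes π B A (H74.toBar K0 L) (algebraMap K0 Kbar)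
      (H74.restrictModel K0 L) hπ harch hAmax (H74.toBar_algebraMap K0 L)
      (H74.mem_restrictModel_iff K0 L) hA0 (R' : Set ↥(modularFunctionFieldBar L)) hBR
      (fun w hw y hy => hfin w hw y hy) u T (T.image (H74.restrictModel K0 L)) hTmem
      (fun a ha b hb h => (huniq b hb a h)) hratb (fun w => w.ord g) (fun w _ => hord w) ?_
    intro w₀ _ S' hS'
    refine hcls w₀ S' fun w => ?_
    rw [hS' w]
    refine and_congr_right fun _ => forall₂_congr fun y _ => ?_
    constructor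
    · rintro ⟨c, hc, c', hc', h1, h2, h3⟩
      exact ⟨c, c', hc, hc', h1, h2, h3⟩
    · rintro ⟨c, c', hc, hc', h1, h2, h3⟩
      exact ⟨c, hc, c', hc', h1, h2, h3⟩

end ChartCongrCls

end Fermat.Agent.S37.H66
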