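/-
S37, node (SUM), model half (helper53): from the `Qbar`-level statement "the orders of `g` at
the places centred at `n` sum to `0`" to the finite set `T0` of places of the `K0`-model that the
place form of (UNIT') consumes (`T`, `hall`, `hsum`).

* `exists_finset_model_sum_eq_zero` : generic in the predicate `p0` on the places of the
  `K0`-model ("centred at `n`"); inputs = the `Qbar`-level sum statement + injectivity of
  `H74.restrictModel` on the support ((UNIQ) of the (RAT) node).
* `exists_finset_model_of_closure` : the same with the `Qbar`-level statement discharged by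
  `sum_ord_along_eq_zero` (divisor in the span of pair differences with equal fibre masses,
  `div f = m • D` at the lower level, `toBar u0 = c * φ f`).
-/
import Mathlib
import Fermat.Agent.S18.ConstExtModel_helper39
import Fermat.Agent.S18.PrincDiv_helper98
import Fermat.Agent.S37.SumOrd_helper53

set_option autoImplicit false

namespace Fermat.Agent.S37.H53

open ModularCurve AlgebraicCurve Fermat.Agent.S24 Fermat.Agent.S24.H98 Fermat.Agent.S18

section Model

variable (K0 : Type*) [Field K0] [Algebra K0 Kbar] [Algebra.IsAlgebraic K0 Kbar]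
  (L : ℕ) [NeZero L]

/-- **(SUM), model form.** `u0` in the `K0`-model, `g` in `Fbar_L` with the same orders as
`toBar u0` (e.g. `toBar u0 = c * g`); `p0` a predicate on the places of the model. If
restriction to the model is injective at the places of the support of `div g` lying over `p0`,
and the `Qbar`-level sums vanish, then `T0 := {P0 | p0 P0, ord_P0 u0 ≠ 0}` is finite, every
element is the restriction of a place of the support, and `∑_{P0 ∈ T0} ord_P0 u0 = 0`. -/
theorem exists_finset_model_sum_eq_zero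
    (u0 : ↥(modularFunctionFieldFullC K0 L)) (g : ↥(modularFunctionFieldBar L))
    (hug : ∀ w : Place Kbar ↥(modularFunctionFieldBar L),
      w.ord (H74.toBar K0 L u0) = w.ord g)
    (p0 : Place K0 ↥(modularFunctionFieldFullC K0 L) → Prop)
    (huniq : ∀ w : Place Kbar ↥(modularFunctionFieldBar L), w.ord g ≠ 0 →
      p0 (H74.restrictModel K0 L w) → ∀ w' : Place Kbar ↥(modularFunctionFieldBar L),
        H74.restrictModel K0 L w' = H74.restrictModel K0 L w → w' = w)
    (hsum : ∀ T : Finset (Place Kbar ↥(modularFunctionFieldBar L)),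
      (∀ w, p0 (H74.restrictModel K0 L w) → w.ord g ≠ 0 → w ∈ T) →
      (∀ w ∈ T, p0 (H74.restrictModel K0 L w)) → ∑ w ∈ T, w.ord g = 0) :
    ∃ T0 : Finset (Place K0 ↥(modularFunctionFieldFullC K0 L)),
      (∀ P0 ∈ T0, p0 P0 ∧ P0.ord u0 ≠ 0 ∧
        ∃ w : Place Kbar ↥(modularFunctionFieldBar L),
          w.ord g ≠ 0 ∧ H74.restrictModel K0 L w = P0) ∧
      (∀ P0, p0 P0 → P0.ord u0 ≠ 0 → P0 ∈ T0) ∧
      ∑ P0 ∈ T0, P0.ord u0 = 0 := by
  classical
  have hord : ∀ w : Place Kbar ↥(modularFunctionFieldBar L),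
      (H74.restrictModel K0 L w).ord u0 = w.ord g := fun w => by
    rw [← H39.ord_toBar_eq_ord_restrictModel K0 L w u0, hug w]
  let S : Finset (Place Kbar ↥(modularFunctionFieldBar L)) :=
    (H98.finite_ord_ne_zero L g).toFinset
  have hS : ∀ w : Place Kbar ↥(modularFunctionFieldBar L), w ∈ S ↔ w.ord g ≠ 0 := fun w => by
    simp [S]
  let T' : Finset (Place Kbar ↥(modularFunctionFieldBar L)) :=
    S.filter fun w => p0 (H74.restrictModel K0 L w)
  have hT' : ∀ w, w ∈ T' ↔ w.ord g ≠ 0 ∧ p0 (H74.restrictModel K0 L w) := fun w => by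
    simp [T', hS]
  refine ⟨T'.image (H74.restrictModel K0 L), ?_, ?_, ?_⟩
  · intro P0 hP0
    obtain ⟨w, hw, rfl⟩ := Finset.mem_image.mp hP0
    obtain ⟨hw1, hw2⟩ := (hT' w).mp hw
    exact ⟨hw2, by rwa [hord], w, hw1, rfl⟩
  · intro P0 hp hne
    obtain ⟨w, rfl⟩ := H74.exists_restrictModel_eq K0 L P0
    rw [hord] at hne
    exact Finset.mem_image.mpr ⟨w, (hT' w).mpr ⟨hne, hp⟩, rfl⟩
  · rw [Finset.sum_image]
    · rw [Finset.sum_congr rfl fun w _ => hord w]
      exact hsum T' (fun w hp hne => (hT' w).mpr ⟨hne, hp⟩) fun w hw => ((hT' w).mp hw).2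
    · intro w hw w' hw' h
      obtain ⟨hw1, hw2⟩ := (hT' w').mp hw'
      exact huniq w' hw1 hw2 w h

/-- **(SUM), model form, from the span of pair differences.** `φ : Fbar_N → Fbar_L` the level
map, `D` in the span of the differences `P - P'` of pairs `R P P'`, `div f = m • D`; `u0` in the
`K0`-model of level `L` with `toBar u0 = c * φ f`; `p0` a predicate on the places of the model
such that the fibre masses over `p0` of related pairs agree ((TRANSFER)). Then the conclusion
of `exists_finset_model_sum_eq_zero` holds. -/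
theorem exists_finset_model_of_closure {N : ℕ} [NeZero N]
    [HasPrincipalDivisors Kbar ↥(modularFunctionFieldBar L)]
    (φ : ↥(modularFunctionFieldBar N) →ₐ[Kbar] ↥(modularFunctionFieldBar L))
    (hφ : φ.toRingHom.IsIntegral)
    (p0 : Place K0 ↥(modularFunctionFieldFullC K0 L) → Prop)
    [DecidablePred fun w : Place Kbar ↥(modularFunctionFieldBar L) =>
      p0 (H74.restrictModel K0 L w)]
    (R : Place Kbar ↥(modularFunctionFieldBar N) → Place Kbar ↥(modularFunctionFieldBar N) → Prop)
    (hR : ∀ P P', R P P' →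
      ∑ w ∈ (Place.fiberAlong φ hφ P).filter (fun w => p0 (H74.restrictModel K0 L w)),
          (w.ramificationIndexAlong φ : ℤ)
        = ∑ w ∈ (Place.fiberAlong φ hφ P').filter (fun w => p0 (H74.restrictModel K0 L w)),
          (w.ramificationIndexAlong φ : ℤ))
    {D : Divisor Kbar ↥(modularFunctionFieldBar N)}
    (hD : D ∈ AddSubgroup.closure {d : Divisor Kbar ↥(modularFunctionFieldBar N) |
      ∃ P P', R P P' ∧ d = Finsupp.single P 1 - Finsupp.single P' 1})
    (m : ℤ) (f : ↥(modularFunctionFieldBar N))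
    (hf : ∀ P : Place Kbar ↥(modularFunctionFieldBar N), P.ord f = m * D P)
    (u0 : ↥(modularFunctionFieldFullC K0 L)) (c : Kbar) (hc : c ≠ 0)
    (hu0 : H74.toBar K0 L u0 = algebraMap Kbar ↥(modularFunctionFieldBar L) c * φ f)
    (huniq : ∀ w : Place Kbar ↥(modularFunctionFieldBar L), w.ord (φ f) ≠ 0 →
      p0 (H74.restrictModel K0 L w) → ∀ w' : Place Kbar ↥(modularFunctionFieldBar L),
        H74.restrictModel K0 L w' = H74.restrictModel K0 L w → w' = w) :
    ∃ T0 : Finset (Place K0 ↥(modularFunctionFieldFullC K0 L)),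
      (∀ P0 ∈ T0, p0 P0 ∧ P0.ord u0 ≠ 0 ∧
        ∃ w : Place Kbar ↥(modularFunctionFieldBar L),
          w.ord (φ f) ≠ 0 ∧ H74.restrictModel K0 L w = P0) ∧
      (∀ P0, p0 P0 → P0.ord u0 ≠ 0 → P0 ∈ T0) ∧
      ∑ P0 ∈ T0, P0.ord u0 = 0 := by
  refine exists_finset_model_sum_eq_zero K0 L u0 (φ f) ?_ p0 huniq ?_
  · intro w
    rw [hu0]
    rcases eq_or_ne (φ f) 0 with h0 | h0
    · rw [h0, mul_zero]
    · have hc' : algebraMap Kbar ↥(modularFunctionFieldBar L) c ≠ 0 := by
        simpa using hc
      rw [w.ord_mul hc' h0, H98.ord_algebraMap L w c, zero_add]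
  · intro T hT hTp
    exact sum_ord_along_eq_zero φ hφ (fun w => p0 (H74.restrictModel K0 L w)) R hR hD m f hf T
      hT hTp

end Model

end Fermat.Agent.S37.H53
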