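/-
S37, node (SUM), model half, refined form (helper53).

`SumModel_helper53.exists_finset_model_sum_eq_zero` takes the `Qbar`-level sum statement for the
predicate `p0 ∘ restrictModel`.  In the (a)-application the predicate that (TRANSFER) controls
on the FULL fibres of every generator pair is a `Qbar`-level one (`w` is chart-finite and the
kernel of its residue character is `n`), and it agrees with "the restriction of `w` to the
`K0`-model is centred in `n`" only at `K0`-RATIONAL places, i.e. only on the support of the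
function (the field `K0` is chosen for the support, not for all generator fibres).  So here:

* `exists_finset_model_sum_eq_zero'` : two predicates, `p` upstairs (`Qbar`-level) and `p0` on
  the model, required to agree only where `ord_w g ≠ 0`;
* `exists_finset_model_of_closure'` : the same with the `Qbar`-level statement discharged by
  `sum_ord_along_eq_zero` for `p`;
* `sum_eq_zero_of_forall_mem_iff` : from `T0` to the literal `hsum` shape of the place form of
  (UNIT') (`∀ S, (∀ P, P ∈ S ↔ P ∈ T ∧ cen P) → ∑ P ∈ S, ord_P u = 0`).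
-/
import Mathlib
import Fermat.Agent.S37.SumModel_helper53

set_option autoImplicit false

namespace Fermat.Agent.S37.H53

open ModularCurve AlgebraicCurve Fermat.Agent.S24 Fermat.Agent.S24.H98 Fermat.Agent.S18

/-- bookkeeping: if `T0` carries all the nonzero values of `o` inside `p0` and `∑_{T0} o = 0`,
then `∑_S o = 0` for every finite `S ⊆ p0` containing the nonzero values of `o` inside `p0`. -/
theorem sum_eq_zero_of_forall_mem {ι : Type*} (o : ι → ℤ) (p0 : ι → Prop) (T0 : Finset ι)
    (hT0 : ∀ P ∈ T0, p0 P) (hall0 : ∀ P, p0 P → o P ≠ 0 → P ∈ T0) (h0 : ∑ P ∈ T0, o P = 0)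
    (S : Finset ι) (hS : ∀ P ∈ S, p0 P) (hS' : ∀ P, p0 P → o P ≠ 0 → P ∈ S) :
    ∑ P ∈ S, o P = 0 := by
  classical
  have h1 : ∑ P ∈ S, o P = ∑ P ∈ S ∪ T0, o P := by
    refine Finset.sum_subset Finset.subset_union_left fun P hP hPS => ?_
    by_contra hne
    rcases Finset.mem_union.mp hP with h | h
    · exact hPS h
    · exact hPS (hS' P (hT0 P h) hne)
  have h2 : ∑ P ∈ T0, o P = ∑ P ∈ S ∪ T0, o P := by
    refine Finset.sum_subset Finset.subset_union_right fun P hP hPT => ?_
    by_contra hne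
    rcases Finset.mem_union.mp hP with h | h
    · exact hPT (hall0 P (hS P h) hne)
    · exact hPT h
  rw [h1, ← h2, h0]

/-- the literal `hsum` shape of the place form of (UNIT') (`H66.unit_mod_of_places`,
`H25.unit_mod_of_rational_places`): `T` any finite set containing the zeros/poles of `u` that
satisfy `reg` (regular on the chart), `cen` = "regular on the chart and centred in `n`". -/
theorem sum_eq_zero_of_forall_mem_iff {ι : Type*} (o : ι → ℤ) (reg cen : ι → Prop)
    (hcr : ∀ P, cen P → reg P) (T0 : Finset ι)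
    (hT0 : ∀ P ∈ T0, cen P) (hall0 : ∀ P, cen P → o P ≠ 0 → P ∈ T0) (h0 : ∑ P ∈ T0, o P = 0)
    (T : Finset ι) (hall : ∀ P, reg P → o P ≠ 0 → P ∈ T)
    (S : Finset ι) (hS : ∀ P, P ∈ S ↔ P ∈ T ∧ cen P) :
    ∑ P ∈ S, o P = 0 :=
  sum_eq_zero_of_forall_mem o cen T0 hT0 hall0 h0 S (fun P hP => ((hS P).mp hP).2)
    fun P hc hne => (hS P).mpr ⟨hall P (hcr P hc) hne, hc⟩

section Model

variable (K0 : Type*) [Field K0] [Algebra K0 Kbar] [Algebra.IsAlgebraic K0 Kbar]
  (L : ℕ) [NeZero L]

/-- **(SUM), model form, two predicates.** `p` on the places of `Fbar_L`, `p0` on the places of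
the `K0`-model, agreeing on the support of `div g` (`hpp`); restriction to the model injective at
the support places in `p` (`huniq`); the `Qbar`-level sums over `p` vanish (`hsum`). Then
`T0 := {P0 | p0 P0, ord_P0 u0 ≠ 0}` is finite, consists of restrictions of support places in
`p`, and `∑_{P0 ∈ T0} ord_P0 u0 = 0`. -/
theorem exists_finset_model_sum_eq_zero'
    (u0 : ↥(modularFunctionFieldFullC K0 L)) (g : ↥(modularFunctionFieldBar L))
    (hug : ∀ w : Place Kbar ↥(modularFunctionFieldBar L),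
      w.ord (H74.toBar K0 L u0) = w.ord g)
    (p : Place Kbar ↥(modularFunctionFieldBar L) → Prop)
    (p0 : Place K0 ↥(modularFunctionFieldFullC K0 L) → Prop)
    (hpp : ∀ w : Place Kbar ↥(modularFunctionFieldBar L), w.ord g ≠ 0 →
      (p w ↔ p0 (H74.restrictModel K0 L w)))
    (huniq : ∀ w : Place Kbar ↥(modularFunctionFieldBar L), w.ord g ≠ 0 → p w →
      ∀ w' : Place Kbar ↥(modularFunctionFieldBar L),
        H74.restrictModel K0 L w' = H74.restrictModel K0 L w → w' = w)
    (hsum : ∀ T : Finset (Place Kbar ↥(modularFunctionFieldBar L)),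
      (∀ w, p w → w.ord g ≠ 0 → w ∈ T) → (∀ w ∈ T, p w) → ∑ w ∈ T, w.ord g = 0) :
    ∃ T0 : Finset (Place K0 ↥(modularFunctionFieldFullC K0 L)),
      (∀ P0 ∈ T0, p0 P0 ∧ P0.ord u0 ≠ 0 ∧
        ∃ w : Place Kbar ↥(modularFunctionFieldBar L),
          w.ord g ≠ 0 ∧ p w ∧ H74.restrictModel K0 L w = P0) ∧
      (∀ P0, p0 P0 → P0.ord u0 ≠ 0 → P0 ∈ T0) ∧
      ∑ P0 ∈ T0, P0.ord u0 = 0 := by
  classical
  have hord : ∀ w : Place Kbar ↥(modularFunctionFieldBar L),
      (H74.restrictModel K0 L w).ord u0 = w.ord g := fun w => by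
    rw [← H39.ord_toBar_eq_ord_restrictModel K0 L w u0, hug w]
  let S : Finset (Place Kbar ↥(modularFunctionFieldBar L)) :=
    (H98.finite_ord_ne_zero L g).toFinset
  have hS : ∀ w : Place Kbar ↥(modularFunctionFieldBar L), w ∈ S ↔ w.ord g ≠ 0 := fun w => by
    simp [S]
  let T' : Finset (Place Kbar ↥(modularFunctionFieldBar L)) := S.filter p
  have hT' : ∀ w, w ∈ T' ↔ w.ord g ≠ 0 ∧ p w := fun w => by
    simp [T', hS]
  refine ⟨T'.image (H74.restrictModel K0 L), ?_, ?_, ?_⟩
  · intro P0 hP0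
    obtain ⟨w, hw, rfl⟩ := Finset.mem_image.mp hP0
    obtain ⟨hw1, hw2⟩ := (hT' w).mp hw
    exact ⟨(hpp w hw1).mp hw2, by rwa [hord], w, hw1, hw2, rfl⟩
  · intro P0 hp hne
    obtain ⟨w, rfl⟩ := H74.exists_restrictModel_eq K0 L P0
    rw [hord] at hne
    exact Finset.mem_image.mpr ⟨w, (hT' w).mpr ⟨hne, (hpp w hne).mpr hp⟩, rfl⟩
  · rw [Finset.sum_image]
    · rw [Finset.sum_congr rfl fun w _ => hord w]
      exact hsum T' (fun w hp hne => (hT' w).mpr ⟨hne, hp⟩) fun w hw => ((hT' w).mp hw).2
    · intro w hw w' hw' h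
      obtain ⟨hw1, hw2⟩ := (hT' w').mp hw'
      exact huniq w' hw1 hw2 w h

/-- **(SUM), model form, two predicates, from the span of pair differences.** As
`exists_finset_model_of_closure`, but the fibre masses of related pairs are compared for a
`Qbar`-level predicate `p` that agrees with `p0 ∘ restrictModel` only on the support of
`div (φ f)`. -/
theorem exists_finset_model_of_closure' {N : ℕ} [NeZero N]
    [HasPrincipalDivisors Kbar ↥(modularFunctionFieldBar L)]
    (φ : ↥(modularFunctionFieldBar N) →ₐ[Kbar] ↥(modularFunctionFieldBar L))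
    (hφ : φ.toRingHom.IsIntegral)
    (p : Place Kbar ↥(modularFunctionFieldBar L) → Prop) [DecidablePred p]
    (p0 : Place K0 ↥(modularFunctionFieldFullC K0 L) → Prop)
    (R : Place Kbar ↥(modularFunctionFieldBar N) → Place Kbar ↥(modularFunctionFieldBar N) → Prop)
    (hR : ∀ P P', R P P' →
      ∑ w ∈ (Place.fiberAlong φ hφ P).filter p, (w.ramificationIndexAlong φ : ℤ)
        = ∑ w ∈ (Place.fiberAlong φ hφ P').filter p, (w.ramificationIndexAlong φ : ℤ))
    {D : Divisor Kbar ↥(modularFunctionFieldBar N)}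
    (hD : D ∈ AddSubgroup.closure {d : Divisor Kbar ↥(modularFunctionFieldBar N) |
      ∃ P P', R P P' ∧ d = Finsupp.single P 1 - Finsupp.single P' 1})
    (m : ℤ) (f : ↥(modularFunctionFieldBar N))
    (hf : ∀ P : Place Kbar ↥(modularFunctionFieldBar N), P.ord f = m * D P)
    (u0 : ↥(modularFunctionFieldFullC K0 L)) (c : Kbar) (hc : c ≠ 0)
    (hu0 : H74.toBar K0 L u0 = algebraMap Kbar ↥(modularFunctionFieldBar L) c * φ f)
    (hpp : ∀ w : Place Kbar ↥(modularFunctionFieldBar L), w.ord (φ f) ≠ 0 →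
      (p w ↔ p0 (H74.restrictModel K0 L w)))
    (huniq : ∀ w : Place Kbar ↥(modularFunctionFieldBar L), w.ord (φ f) ≠ 0 → p w →
      ∀ w' : Place Kbar ↥(modularFunctionFieldBar L),
        H74.restrictModel K0 L w' = H74.restrictModel K0 L w → w' = w) :
    ∃ T0 : Finset (Place K0 ↥(modularFunctionFieldFullC K0 L)),
      (∀ P0 ∈ T0, p0 P0 ∧ P0.ord u0 ≠ 0 ∧
        ∃ w : Place Kbar ↥(modularFunctionFieldBar L),
          w.ord (φ f) ≠ 0 ∧ p w ∧ H74.restrictModel K0 L w = P0) ∧
      (∀ P0, p0 P0 → P0.ord u0 ≠ 0 → P0 ∈ T0) ∧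
      ∑ P0 ∈ T0, P0.ord u0 = 0 := by
  refine exists_finset_model_sum_eq_zero' K0 L u0 (φ f) ?_ p p0 hpp huniq ?_
  · intro w
    rw [hu0]
    rcases eq_or_ne (φ f) 0 with h0 | h0
    · rw [h0, mul_zero]
    · have hc' : algebraMap Kbar ↥(modularFunctionFieldBar L) c ≠ 0 := by
        simpa using hc
      rw [w.ord_mul hc' h0, H98.ord_algebraMap L w c, zero_add]
  · intro T hT hTp
    exact sum_ord_along_eq_zero φ hφ p R hR hD m f hf T hT hTp

end Model

end Fermat.Agent.S37.H53
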