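import Mathlib
import Fermat.Agent.S37.UnitPlaceCen_helper25
import Fermat.Agent.S37.HsumBridge_helper66
import Fermat.Agent.S37.SumModel2_helper53

/-!
# S37 (a)-assembly, node (A3): the chart congruence in one call (helper66)

`chart_congr_of_sum` fuses, for one chart `B` of the `K0`-model at level `L`:

* the place form of (UNIT') (`H25.unit_mod_of_rational_places`, on `H66.unit_mod_of_centred_places`),
* the model half of (SUM) (`H53.exists_finset_model_sum_eq_zero'`, `sum_eq_zero_of_forall_mem_iff`),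
* the rational-place dictionary (`H66.exists_isFin_kerIn_iff`).

Inputs: the chart hypotheses of (UNIT') verbatim; a subring `R'` of `Fbar_L` containing
`toBar(B)` on which `toBar(B)`-finite places are finite; a function `g` of `Fbar_L` with the
divisor of `toBar u`; rationality and uniqueness of the restrictions of the places of the support
of `div g`; and the `Qbar`-level sums (`hsum`), in the literal shape of the conclusion of
`H53.sum_ord_eq_zero_of_transferAt` for `q := H66.KerIn A (toBar) B n R' hBR`.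

Output: `u ≡ c` and `u⁻¹ ≡ c'` modulo `π V` with `c, c' ∈ B`.
-/

set_option autoImplicit false

namespace Fermat.Agent.S37.H66

open ModularCurve AlgebraicCurve Fermat.Agent.S24 Fermat.Agent.S24.H98 Fermat.Agent.S18

section ChartCongr

variable (K0 : Type) [Field K0] [Algebra K0 Kbar] [Algebra.IsAlgebraic K0 Kbar]
  (L : ℕ) [NeZero L]
  (A0 : Type) [CommRing A0] [IsDomain A0] [Algebra A0 K0] [IsFractionRing A0 K0]
  [Algebra A0 ↥(modularFunctionFieldFullC K0 L)]
  [IsScalarTower A0 K0 ↥(modularFunctionFieldFullC K0 L)]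

/-- **(A3), one chart, in one call.** -/
theorem chart_congr_of_sum (A : ValuationSubring Kbar)
    (hA0 : ∀ a : A0, algebraMap K0 Kbar (algebraMap A0 K0 a) ∈ A)
    (π : A0) (V : ValuationSubring ↥(modularFunctionFieldFullC K0 L))
    (B : Subalgebra A0 ↥(modularFunctionFieldFullC K0 L))
    (u : ↥(modularFunctionFieldFullC K0 L))
    (hπ : π ≠ 0)
    (hinj : Function.Injective (algebraMap A0 ↥(modularFunctionFieldFullC K0 L)))
    (harch : ∀ c : A0, c ≠ 0 → ∃ n : ℕ, c ∣ π ^ n) (hAmax : ∀ a : A0, ¬ π ∣ a → IsUnit a)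
    (hπV : algebraMap A0 ↥(modularFunctionFieldFullC K0 L) π ∈ V.nonunits)
    (hVπ : ∀ x ∈ V.nonunits, ∃ y ∈ V,
      x = algebraMap A0 ↥(modularFunctionFieldFullC K0 L) π * y)
    (hBV : ∀ x ∈ B, x ∈ V) (hnoeth : IsNoetherianRing B)
    (hfrac : ∀ x : ↥(modularFunctionFieldFullC K0 L), ∃ a ∈ B, ∃ b ∈ B, b ≠ 0 ∧ x * b = a)
    (hsat : ∀ x ∈ B,
      (∃ y ∈ V, x = algebraMap A0 ↥(modularFunctionFieldFullC K0 L) π * y) →
        ∃ b ∈ B, x = algebraMap A0 ↥(modularFunctionFieldFullC K0 L) π * b)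
    (hreg : ∀ n : Ideal B, n.IsMaximal → algebraMap A0 B π ∈ n →
      ∃ τ ∈ n, ∀ a : B, a ∉ Ideal.span {algebraMap A0 B π} →
        ∃ (e : ℕ) (d u : B), d ∉ n ∧ u ∉ n ∧
          a * d - u * τ ^ e ∈ Ideal.span {algebraMap A0 B π})
    (hu0 : u ≠ 0) (hu : u ∈ V) (hu' : u⁻¹ ∈ V)
    (R' : Subring ↥(modularFunctionFieldBar L)) (hBR : ∀ b ∈ B, H74.toBar K0 L b ∈ R')
    (hfin : ∀ w : Place Kbar ↥(modularFunctionFieldBar L),
      (∀ b ∈ B, ∃ c ∈ A, H34.EvalAt w (H74.toBar K0 L b) c) → H34.IsFin A R' w)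
    (g : ↥(modularFunctionFieldBar L))
    (hug : ∀ w : Place Kbar ↥(modularFunctionFieldBar L),
      w.ord (H74.toBar K0 L u) = w.ord g)
    (hratb : ∀ w : Place Kbar ↥(modularFunctionFieldBar L), w.ord g ≠ 0 →
      ∀ y ∈ (H74.restrictModel K0 L w).toValuationSubring,
        ∃ c : K0, y - algebraMap K0 ↥(modularFunctionFieldFullC K0 L) c ∈
          (H74.restrictModel K0 L w).toValuationSubring.nonunits)
    (huniq : ∀ w : Place Kbar ↥(modularFunctionFieldBar L), w.ord g ≠ 0 →
      ∀ w' : Place Kbar ↥(modularFunctionFieldBar L),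
        H74.restrictModel K0 L w' = H74.restrictModel K0 L w → w' = w)
    (hsum : ∀ n : Ideal B, n.IsMaximal → algebraMap A0 B π ∈ n →
      ∀ T : Finset (Place Kbar ↥(modularFunctionFieldBar L)),
        (∀ w, (∃ h : H34.IsFin A R' w,
            KerIn A (H74.toBar K0 L) B n R' hBR (H34.charOf h)) → w.ord g ≠ 0 → w ∈ T) →
        (∀ w ∈ T, ∃ h : H34.IsFin A R' w,
            KerIn A (H74.toBar K0 L) B n R' hBR (H34.charOf h)) →
        ∑ w ∈ T, w.ord g = 0) :
    (∃ c ∈ B, ∃ y ∈ V, u - c = algebraMap A0 ↥(modularFunctionFieldFullC K0 L) π * y) ∧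
      (∃ c ∈ B, ∃ y ∈ V, u⁻¹ - c = algebraMap A0 ↥(modularFunctionFieldFullC K0 L) π * y) := by
  classical
  let S : Finset (Place Kbar ↥(modularFunctionFieldBar L)) :=
    (H98.finite_ord_ne_zero L g).toFinset
  have hS : ∀ w : Place Kbar ↥(modularFunctionFieldBar L), w ∈ S ↔ w.ord g ≠ 0 := fun w => by
    simp [S]
  have hord : ∀ w : Place Kbar ↥(modularFunctionFieldBar L),
      (H74.restrictModel K0 L w).ord u = w.ord g := fun w => by
    rw [← H39.ord_toBar_eq_ord_restrictModel K0 L w u, hug w]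
  have hallT : ∀ P : Place K0 ↥(modularFunctionFieldFullC K0 L), P.ord u ≠ 0 →
      P ∈ S.image (H74.restrictModel K0 L) := by
    intro P hne
    obtain ⟨w, rfl⟩ := H74.exists_restrictModel_eq K0 L P
    rw [hord] at hne
    exact Finset.mem_image.mpr ⟨w, (hS w).mpr hne, rfl⟩
  refine H25.unit_mod_of_rational_places A0 ↥(modularFunctionFieldFullC K0 L) K0 π V B u hπ hinj
    harch hAmax hπV hVπ hBV hnoeth hfrac hsat hreg hu0 hu hu'
    (S.image (H74.restrictModel K0 L)) ?_ ?_ ?_
  · intro P hP y hy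
    obtain ⟨w, hw, rfl⟩ := Finset.mem_image.mp hP
    exact hratb w ((hS w).mp hw) y hy
  · intro P n _ _ _ _ hne
    exact hallT P hne
  · intro n hn hπn S' hS'
    have hpp : ∀ w : Place Kbar ↥(modularFunctionFieldBar L), w.ord g ≠ 0 →
        ((∃ h : H34.IsFin A R' w, KerIn A (H74.toBar K0 L) B n R' hBR (H34.charOf h)) ↔
          ((∀ b ∈ B, b ∈ (H74.restrictModel K0 L w).toValuationSubring) ∧
            ∀ b : B, (b : ↥(modularFunctionFieldFullC K0 L)) ∈
              (H74.restrictModel K0 L w).toValuationSubring.nonunits → b ∈ n)) :=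
      fun w hw =>
        exists_isFin_kerIn_iff (κ := algebraMap K0 Kbar) hπ harch hAmax
          (H74.toBar_algebraMap K0 L) hA0 (H74.mem_restrictModel_iff K0 L w) (hratb w hw)
          hn.ne_top hπn R' hBR (hfin w)
    obtain ⟨T0, hT0, hall0, h0⟩ := H53.exists_finset_model_sum_eq_zero' K0 L u g hug
      (fun w => ∃ h : H34.IsFin A R' w, KerIn A (H74.toBar K0 L) B n R' hBR (H34.charOf h))
      (fun P => (∀ b ∈ B, b ∈ P.toValuationSubring) ∧
        ∀ b : B, (b : ↥(modularFunctionFieldFullC K0 L)) ∈ P.toValuationSubring.nonunits →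
          b ∈ n)
      hpp (fun w hw _ => huniq w hw) (hsum n hn hπn)
    exact H53.sum_eq_zero_of_forall_mem_iff (fun P => P.ord u) (fun _ => True)
      (fun P => (∀ b ∈ B, b ∈ P.toValuationSubring) ∧
        ∀ b : B, (b : ↥(modularFunctionFieldFullC K0 L)) ∈ P.toValuationSubring.nonunits →
          b ∈ n)
      (fun _ _ => trivial) T0 (fun P hP => (hT0 P hP).1) hall0 h0
      (S.image (H74.restrictModel K0 L)) (fun P _ hne => hallT P hne) S' hS'

end ChartCongr

end Fermat.Agent.S37.H66
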