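import Mathlib
import Fermat.Agent.S37.UnitPlaceCen_helper25
import Fermat.Agent.S37.RatModel_helper5
import Fermat.Agent.S18.ModelKC_helper60

/-!
# S37, (a)-assembly node (A3): (UNIT') on one chart of the `K0`-model, `Qbar`-level input

`K0 ⊆ Qbar` a subfield, `F0 = modularFunctionFieldFullC K0 L` the `K0`-model of level `L`,
`A0` a `π`-adic valuation ring with fraction field `K0`, `V` the Gauss valuation ring of `F0`,
`B` a chart with the literal chart hypotheses of `H63.StmtBase`.

`unit_mod_of_model` : for a Gauss unit `u` of the model, let `Tb` be a finite set of places of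
`Fbar_L` containing the zeros and poles of `toBar u`, all `K0`-rational and determined by their
restrictions to the model (the two conclusions of `H05.exists_rational_model`).  If for every
closed point `n ∋ π` of the special fibre of the chart the orders of `toBar u` at the places of
`Tb` whose restriction is centred in `n` add up to zero, then `ρ(u), ρ(u)⁻¹ ∈ ρ(B)`.

`exists_finset_unit_mod_of_model` : the same with the rationality hypotheses discharged by
`H05.exists_rational_model`: a finite set `C ⊆ Qbar` depending only on `Tb` such that the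
statement holds for every `K0 ⊇ C`.

`exists_finset_unit_mod_of_model_A0` : the instance `A0 = H61.A0 A K0 = A ∩ K0` (`A` a valuation
subring of `Qbar`), with the algebra structures found by type-class search
(`H60.algA0F0`, `algK0F0`) and the scalar tower `A0 → K0 → F0` supplied.
-/

set_option autoImplicit false
set_option synthInstance.maxHeartbeats 400000

open ModularCurve AlgebraicCurve IntermediateField

namespace Fermat.Agent.S37.H25

open Fermat.Agent.S37.H05 (Qb)

/-- The `K0`-algebra structure of the model: the instance found by type-class search, pinned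
(as a local instance of high priority) to make elaboration fast. -/
@[reducible] noncomputable def algK0F0 (K0 : IntermediateField ℚ Qb) (L : ℕ) :
    Algebra ↥K0 ↥(modularFunctionFieldFullC ↥K0 L) :=
  SubalgebraClass.toAlgebra (modularFunctionFieldFullC ↥K0 L)

attribute [local instance 2000] algK0F0

section Model

variable (L : ℕ) [NeZero L] (K0 : IntermediateField ℚ Qb) [Algebra.IsAlgebraic K0 Qb]

/-- **(A3), one chart of the `K0`-model.**  `Tb` = a finite set of places of `Fbar_L` containing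
the zeros and poles of `toBar u`; `hrat`, `huniq` = the conclusions of
`H05.exists_rational_model`; `hsum` = the `Qbar`-level form of (TRANSFER): for every closed point
`n` of the special fibre of the chart, the orders of `toBar u` at the places of `Tb` whose
restriction to the model is regular on the chart and centred in `n` add up to zero. -/
theorem unit_mod_of_model (A0 : Type) [CommRing A0] [IsDomain A0] [Algebra A0 K0]
    [IsFractionRing A0 K0] [Algebra A0 ↥(modularFunctionFieldFullC K0 L)]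
    [IsScalarTower A0 K0 ↥(modularFunctionFieldFullC K0 L)]
    (π : A0) (V : ValuationSubring ↥(modularFunctionFieldFullC K0 L))
    (B : Subalgebra A0 ↥(modularFunctionFieldFullC K0 L)) (u : ↥(modularFunctionFieldFullC K0 L))
    (hπ : π ≠ 0)
    (hinj : Function.Injective (algebraMap A0 ↥(modularFunctionFieldFullC K0 L)))
    (harch : ∀ c : A0, c ≠ 0 → ∃ n : ℕ, c ∣ π ^ n) (hAmax : ∀ a : A0, ¬ π ∣ a → IsUnit a)
    (hπV : algebraMap A0 ↥(modularFunctionFieldFullC K0 L) π ∈ V.nonunits)
    (hVπ : ∀ x ∈ V.nonunits, ∃ y ∈ V, x = algebraMap A0 ↥(modularFunctionFieldFullC K0 L) π * y)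
    (hBV : ∀ x ∈ B, x ∈ V) (hnoeth : IsNoetherianRing B)
    (hfrac : ∀ x : ↥(modularFunctionFieldFullC K0 L), ∃ a ∈ B, ∃ b ∈ B, b ≠ 0 ∧ x * b = a)
    (hsat : ∀ x ∈ B, (∃ y ∈ V, x = algebraMap A0 ↥(modularFunctionFieldFullC K0 L) π * y) →
      ∃ b ∈ B, x = algebraMap A0 ↥(modularFunctionFieldFullC K0 L) π * b)
    (hreg : ∀ n : Ideal B, n.IsMaximal → algebraMap A0 B π ∈ n →
      ∃ τ ∈ n, ∀ a : B, a ∉ Ideal.span {algebraMap A0 B π} →
        ∃ (e : ℕ) (d u : B), d ∉ n ∧ u ∉ n ∧
          a * d - u * τ ^ e ∈ Ideal.span {algebraMap A0 B π})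
    (hu0 : u ≠ 0) (hu : u ∈ V) (hu' : u⁻¹ ∈ V)
    (Tb : Finset (Place Qb ↥(modularFunctionFieldBar L)))
    (hTb : ∀ w : Place Qb ↥(modularFunctionFieldBar L),
      w.ord (S18.H74.toBar K0 L u) ≠ 0 → w ∈ Tb)
    (hrat : ∀ w ∈ Tb, ∀ y ∈ (S18.H74.restrictModel K0 L w).toValuationSubring,
      ∃ c : K0, y - algebraMap K0 ↥(modularFunctionFieldFullC K0 L) c ∈
        (S18.H74.restrictModel K0 L w).toValuationSubring.nonunits)
    (huniq : ∀ w ∈ Tb, ∀ w' : Place Qb ↥(modularFunctionFieldBar L),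
      S18.H74.restrictModel K0 L w' = S18.H74.restrictModel K0 L w → w' = w)
    (hsum : ∀ n : Ideal B, n.IsMaximal → algebraMap A0 B π ∈ n →
      ∀ S : Finset (Place Qb ↥(modularFunctionFieldBar L)),
        (∀ w, w ∈ S ↔ w ∈ Tb ∧
          (∀ b ∈ B, b ∈ (S18.H74.restrictModel K0 L w).toValuationSubring) ∧
          ∀ b : B, (b : ↥(modularFunctionFieldFullC K0 L)) ∈
            (S18.H74.restrictModel K0 L w).toValuationSubring.nonunits → b ∈ n) →
        ∑ w ∈ S, w.ord (S18.H74.toBar K0 L u) = 0) :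
    (∃ c ∈ B, ∃ y ∈ V, u - c = algebraMap A0 ↥(modularFunctionFieldFullC K0 L) π * y) ∧
      (∃ c ∈ B, ∃ y ∈ V, u⁻¹ - c = algebraMap A0 ↥(modularFunctionFieldFullC K0 L) π * y) := by
  classical
  refine unit_mod_of_rational_places A0 ↥(modularFunctionFieldFullC K0 L) K0 π V B u hπ hinj harch
    hAmax hπV hVπ hBV hnoeth hfrac hsat hreg hu0 hu hu'
    (Tb.image (S18.H74.restrictModel K0 L)) ?_ ?_ ?_
  · intro P hP y hy
    obtain ⟨w, hw, rfl⟩ := Finset.mem_image.mp hP
    exact hrat w hw y hy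
  · intro P n _ _ _ _ hne
    obtain ⟨w, rfl, hw⟩ := H05.exists_place_of_ord_ne_zero L K0 u P hne
    exact Finset.mem_image.mpr ⟨w, hTb w hw, rfl⟩
  · intro n hn hπn S hS
    let Sb : Finset (Place Qb ↥(modularFunctionFieldBar L)) := Tb.filter fun w =>
      (∀ b ∈ B, b ∈ (S18.H74.restrictModel K0 L w).toValuationSubring) ∧
        ∀ b : B, (b : ↥(modularFunctionFieldFullC K0 L)) ∈
          (S18.H74.restrictModel K0 L w).toValuationSubring.nonunits → b ∈ n
    have hSb : ∀ w, w ∈ Sb ↔ w ∈ Tb ∧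
        (∀ b ∈ B, b ∈ (S18.H74.restrictModel K0 L w).toValuationSubring) ∧
        ∀ b : B, (b : ↥(modularFunctionFieldFullC K0 L)) ∈
          (S18.H74.restrictModel K0 L w).toValuationSubring.nonunits → b ∈ n :=
      fun w => Finset.mem_filter
    have hinjS : Set.InjOn (S18.H74.restrictModel K0 L)
        (Sb : Set (Place Qb ↥(modularFunctionFieldBar L))) := by
      intro w hw w' _ h
      exact (huniq w ((hSb w).mp hw).1 w' h.symm).symm
    have hSeq : S = Sb.image (S18.H74.restrictModel K0 L) := by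
      ext P
      constructor
      · intro hP
        obtain ⟨hPT, h1, h2⟩ := (hS P).mp hP
        obtain ⟨w, hw, rfl⟩ := Finset.mem_image.mp hPT
        exact Finset.mem_image.mpr ⟨w, (hSb w).mpr ⟨hw, h1, h2⟩, rfl⟩
      · intro hP
        obtain ⟨w, hw, rfl⟩ := Finset.mem_image.mp hP
        obtain ⟨hw1, h1, h2⟩ := (hSb w).mp hw
        exact (hS _).mpr ⟨Finset.mem_image.mpr ⟨w, hw1, rfl⟩, h1, h2⟩
    rw [hSeq, H05.sum_ord_image_restrictModel L K0 Sb hinjS u]
    exact hsum n hn hπn Sb hSb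

end Model

/-- **(A3) with (RAT) discharged.**  For a finite set `Tb` of places of `Fbar_L` there is a
finite set `C` of algebraic numbers such that `unit_mod_of_model` holds over every `K0 ⊇ C`
without rationality hypotheses. -/
theorem exists_finset_unit_mod_of_model (L : ℕ) [NeZero L]
    (Tb : Finset (Place Qb ↥(modularFunctionFieldBar L))) :
    ∃ C : Finset Qb, ∀ (K0 : IntermediateField ℚ Qb) [Algebra.IsAlgebraic K0 Qb],
      (∀ c ∈ C, c ∈ K0) →
      ∀ (A0 : Type) [CommRing A0] [IsDomain A0] [Algebra A0 K0]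
        [IsFractionRing A0 K0] [Algebra A0 ↥(modularFunctionFieldFullC K0 L)]
        [IsScalarTower A0 K0 ↥(modularFunctionFieldFullC K0 L)]
        (π : A0) (V : ValuationSubring ↥(modularFunctionFieldFullC K0 L))
        (B : Subalgebra A0 ↥(modularFunctionFieldFullC K0 L))
        (u : ↥(modularFunctionFieldFullC K0 L)),
        π ≠ 0 → Function.Injective (algebraMap A0 ↥(modularFunctionFieldFullC K0 L)) →
        (∀ c : A0, c ≠ 0 → ∃ n : ℕ, c ∣ π ^ n) → (∀ a : A0, ¬ π ∣ a → IsUnit a) →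
        algebraMap A0 ↥(modularFunctionFieldFullC K0 L) π ∈ V.nonunits →
        (∀ x ∈ V.nonunits, ∃ y ∈ V,
          x = algebraMap A0 ↥(modularFunctionFieldFullC K0 L) π * y) →
        (∀ x ∈ B, x ∈ V) → IsNoetherianRing B →
        (∀ x : ↥(modularFunctionFieldFullC K0 L), ∃ a ∈ B, ∃ b ∈ B, b ≠ 0 ∧ x * b = a) →
        (∀ x ∈ B, (∃ y ∈ V, x = algebraMap A0 ↥(modularFunctionFieldFullC K0 L) π * y) →
          ∃ b ∈ B, x = algebraMap A0 ↥(modularFunctionFieldFullC K0 L) π * b) →
        (∀ n : Ideal B, n.IsMaximal → algebraMap A0 B π ∈ n →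
          ∃ τ ∈ n, ∀ a : B, a ∉ Ideal.span {algebraMap A0 B π} →
            ∃ (e : ℕ) (d u : B), d ∉ n ∧ u ∉ n ∧
              a * d - u * τ ^ e ∈ Ideal.span {algebraMap A0 B π}) →
        u ≠ 0 → u ∈ V → u⁻¹ ∈ V →
        (∀ w : Place Qb ↥(modularFunctionFieldBar L),
          w.ord (S18.H74.toBar K0 L u) ≠ 0 → w ∈ Tb) →
        (∀ n : Ideal B, n.IsMaximal → algebraMap A0 B π ∈ n →
          ∀ S : Finset (Place Qb ↥(modularFunctionFieldBar L)),
            (∀ w, w ∈ S ↔ w ∈ Tb ∧
              (∀ b ∈ B, b ∈ (S18.H74.restrictModel K0 L w).toValuationSubring) ∧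
              ∀ b : B, (b : ↥(modularFunctionFieldFullC K0 L)) ∈
                (S18.H74.restrictModel K0 L w).toValuationSubring.nonunits → b ∈ n) →
            ∑ w ∈ S, w.ord (S18.H74.toBar K0 L u) = 0) →
        (∃ c ∈ B, ∃ y ∈ V, u - c = algebraMap A0 ↥(modularFunctionFieldFullC K0 L) π * y) ∧
          (∃ c ∈ B, ∃ y ∈ V,
            u⁻¹ - c = algebraMap A0 ↥(modularFunctionFieldFullC K0 L) π * y) := by
  obtain ⟨C, hC⟩ := H05.exists_rational_model L Tb
  refine ⟨C, fun K0 _ hK0 A0 _ _ _ _ _ _ π V B u hπ hinj harch hAmax hπV hVπ hBV hnoeth hfrac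
    hsat hreg hu0 hu hu' hTb hsum => ?_⟩
  obtain ⟨hrat, huniq, -⟩ := hC K0 hK0
  exact unit_mod_of_model L K0 A0 π V B u hπ hinj harch hAmax hπV hVπ hBV hnoeth hfrac hsat hreg
    hu0 hu hu' Tb hTb hrat huniq hsum

section ModelA0

variable (A : ValuationSubring Qb) (K0 : IntermediateField ℚ Qb) (L : ℕ)

attribute [local instance 2000] S18.H60.algA0F0

/-- The scalar tower `A0 → K0 → F0` of the model (for the instances found by type-class
search). -/
theorem isScalarTower_A0_K0_F0 :
    IsScalarTower ↥(S18.H61.A0 A K0) ↥K0 ↥(modularFunctionFieldFullC ↥K0 L) :=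
  IsScalarTower.of_algebraMap_eq fun _ => rfl

end ModelA0

section ModelA0'

attribute [local instance 2000] S18.H60.algA0F0

/-- **(A3) for `A0 = A ∩ K0`.**  `exists_finset_unit_mod_of_model` at the valuation ring
`A0 = H61.A0 A K0` of `K0` cut out by a valuation subring `A` of `Qbar`. -/
theorem exists_finset_unit_mod_of_model_A0 (L : ℕ) [NeZero L]
    (Tb : Finset (Place Qb ↥(modularFunctionFieldBar L))) :
    ∃ C : Finset Qb, ∀ (K0 : IntermediateField ℚ Qb) [Algebra.IsAlgebraic K0 Qb],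
      (∀ c ∈ C, c ∈ K0) →
      ∀ (A : ValuationSubring Qb) (π : ↥(S18.H61.A0 A K0))
        (V : ValuationSubring ↥(modularFunctionFieldFullC K0 L))
        (B : Subalgebra ↥(S18.H61.A0 A K0) ↥(modularFunctionFieldFullC K0 L))
        (u : ↥(modularFunctionFieldFullC K0 L)),
        π ≠ 0 →
        Function.Injective
          (algebraMap ↥(S18.H61.A0 A K0) ↥(modularFunctionFieldFullC K0 L)) →
        (∀ c : ↥(S18.H61.A0 A K0), c ≠ 0 → ∃ n : ℕ, c ∣ π ^ n) →
        (∀ a : ↥(S18.H61.A0 A K0), ¬ π ∣ a → IsUnit a) →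
        algebraMap ↥(S18.H61.A0 A K0) ↥(modularFunctionFieldFullC K0 L) π ∈ V.nonunits →
        (∀ x ∈ V.nonunits, ∃ y ∈ V,
          x = algebraMap ↥(S18.H61.A0 A K0) ↥(modularFunctionFieldFullC K0 L) π * y) →
        (∀ x ∈ B, x ∈ V) → IsNoetherianRing B →
        (∀ x : ↥(modularFunctionFieldFullC K0 L), ∃ a ∈ B, ∃ b ∈ B, b ≠ 0 ∧ x * b = a) →
        (∀ x ∈ B, (∃ y ∈ V,
            x = algebraMap ↥(S18.H61.A0 A K0) ↥(modularFunctionFieldFullC K0 L) π * y) →
          ∃ b ∈ B, x = algebraMap ↥(S18.H61.A0 A K0) ↥(modularFunctionFieldFullC K0 L) π * b) →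
        (∀ n : Ideal B, n.IsMaximal → algebraMap ↥(S18.H61.A0 A K0) B π ∈ n →
          ∃ τ ∈ n, ∀ a : B, a ∉ Ideal.span {algebraMap ↥(S18.H61.A0 A K0) B π} →
            ∃ (e : ℕ) (d u : B), d ∉ n ∧ u ∉ n ∧
              a * d - u * τ ^ e ∈ Ideal.span {algebraMap ↥(S18.H61.A0 A K0) B π}) →
        u ≠ 0 → u ∈ V → u⁻¹ ∈ V →
        (∀ w : Place Qb ↥(modularFunctionFieldBar L),
          w.ord (S18.H74.toBar K0 L u) ≠ 0 → w ∈ Tb) →
        (∀ n : Ideal B, n.IsMaximal → algebraMap ↥(S18.H61.A0 A K0) B π ∈ n →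
          ∀ S : Finset (Place Qb ↥(modularFunctionFieldBar L)),
            (∀ w, w ∈ S ↔ w ∈ Tb ∧
              (∀ b ∈ B, b ∈ (S18.H74.restrictModel K0 L w).toValuationSubring) ∧
              ∀ b : B, (b : ↥(modularFunctionFieldFullC K0 L)) ∈
                (S18.H74.restrictModel K0 L w).toValuationSubring.nonunits → b ∈ n) →
            ∑ w ∈ S, w.ord (S18.H74.toBar K0 L u) = 0) →
        (∃ c ∈ B, ∃ y ∈ V,
          u - c = algebraMap ↥(S18.H61.A0 A K0) ↥(modularFunctionFieldFullC K0 L) π * y) ∧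
          (∃ c ∈ B, ∃ y ∈ V,
            u⁻¹ - c = algebraMap ↥(S18.H61.A0 A K0) ↥(modularFunctionFieldFullC K0 L) π * y) := by
  obtain ⟨C, hC⟩ := exists_finset_unit_mod_of_model L Tb
  refine ⟨C, fun K0 _ hK0 A π V B u => ?_⟩
  have := isScalarTower_A0_K0_F0 A K0 L
  exact hC K0 hK0 ↥(S18.H61.A0 A K0) π V B u

end ModelA0'

end Fermat.Agent.S37.H25
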