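/-
S37, node (CONJ) (helper27): the `ℓ + 1` embeddings of `k(x_e : e ∣ Nℓ)` over
`E = k(x_{dℓ} : d ∣ N)` (`x_d = J(q^d)`), and the resulting norm formula

  `Norm_{F'/E}(y) = y(q^(ℓ²)) · ∏_{b < ℓ} y(ζ^b q)`   for `y ∈ k(x_d : d ∣ N)`.

Counting argument, no Atkin-Lehner involution: `[F' : E] = ℓ + 1` (degree theorem), the `ℓ`
twists `q ↦ ζ^b q` are `E`-embeddings, so there is exactly one more embedding `τ`; every
`x_d` (`d ∣ N`) has degree `ℓ + 1` over `E`, so `τ(x_d)` is the remaining root `x_{dℓ²}` of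
`Φ_ℓ(X, x_{dℓ})`.
-/
import Mathlib
import Fermat.Agent.S28.Tower_helper50
import Fermat.Agent.S28.ModEq_helper20
import Fermat.Agent.S28.Twist_helper20

set_option autoImplicit false

open Polynomial IntermediateField ModularCurve
open Fermat.Agent.S28.H50 Fermat.Agent.S28.H20

namespace Fermat.Agent.S37.H27

noncomputable section

/-! ### Part A: the degree `[k(x_e : e ∣ Nℓ) : k(x_{dℓ} : d ∣ N)] = ℓ + 1` -/

section Degree

variable (k : Type*) [Field k]

/-- `E = V_ℓ(κ(N)) = k(x_{dℓ} : d ∣ N)`. -/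
def betaField (N ℓ : ℕ) : IntermediateField k (LaurentSeries k) :=
  (kap k N).map (V k ℓ)

variable {k}

theorem mem_betaField {N ℓ : ℕ} {e : LaurentSeries k} :
    e ∈ betaField k N ℓ ↔ ∃ e' ∈ kap k N, V k ℓ e' = e :=
  IntermediateField.mem_map (kap k N)

theorem V_mem_betaField {N ℓ : ℕ} {y : LaurentSeries k} (hy : y ∈ kap k N) :
    V k ℓ y ∈ betaField k N ℓ :=
  mem_betaField.mpr ⟨y, hy, rfl⟩

theorem betaField_le {N ℓ : ℕ} (hN : N ≠ 0) (hℓ : ℓ ≠ 0) :
    betaField k N ℓ ≤ kap k (N * ℓ) := by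
  unfold betaField kap
  rw [adjoin_map, adjoin_le_iff]
  rintro _ ⟨_, ⟨d, hd, rfl⟩, rfl⟩
  have hd' : d ∣ N ∧ N ≠ 0 := by simpa using hd
  have hd0 : d ≠ 0 := ne_zero_of_dvd_ne_zero hN hd'.1
  rw [V_xj k ℓ d hℓ hd0]
  refine xj_mem_kap (mul_ne_zero hN hℓ) ?_
  rw [mul_comm ℓ d]
  exact Nat.mul_dvd_mul_right hd'.1 ℓ

theorem K1_map (ℓ : ℕ) (hℓ : ℓ ≠ 0) : (k⟮xj k 1⟯).map (V k ℓ) = k⟮xj k ℓ⟯ := by
  rw [adjoin_map, Set.image_singleton, V_xj k ℓ 1 hℓ one_ne_zero, mul_one]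

theorem relfinrank_betaField (N ℓ : ℕ) (hℓ : ℓ.Prime) (hN : N ≠ 0)
    (Φ : Polynomial (Polynomial k)) (hΦ : Φ.Monic) (hdeg : Φ.natDegree = ℓ + 1)
    (h1 : (spec k Φ (xj k 1)).eval (xj k ℓ) = 0)
    (h2 : (spec k Φ (xj k ℓ)).eval (xj k 1) = 0)
    (hIG : xj k ℓ ∉ k⟮xj k 1⟯)
    {ψ : ℕ} (hψ0 : ψ ≠ 0)
    (hψN : (k⟮xj k 1⟯).relfinrank (kap k N) = ψ)
    (hψNℓ : (k⟮xj k 1⟯).relfinrank (kap k (N * ℓ)) = (ℓ + 1) * ψ) :
    (betaField k N ℓ).relfinrank (kap k (N * ℓ)) = ℓ + 1 := by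
  have hℓ0 : ℓ ≠ 0 := hℓ.ne_zero
  have hNℓ : N * ℓ ≠ 0 := mul_ne_zero hN hℓ0
  have hK1F' : k⟮xj k 1⟯ ≤ kap k (N * ℓ) := K1_le_kap (N * ℓ) hNℓ
  have hEF' : betaField k N ℓ ≤ kap k (N * ℓ) := betaField_le hN hℓ0
  have hKℓE : k⟮xj k ℓ⟯ ≤ betaField k N ℓ := by
    rw [← K1_map ℓ hℓ0]
    exact IntermediateField.map_mono _ (K1_le_kap N hN)
  have hKℓF' : k⟮xj k ℓ⟯ ≤ kap k (N * ℓ) := hKℓE.trans hEF'
  have e1 : (k⟮xj k ℓ⟯).relfinrank (betaField k N ℓ) = ψ := by
    rw [← K1_map ℓ hℓ0]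
    unfold betaField
    rw [relfinrank_map_map, hψN]
  have hC1 : (k⟮xj k 1⟯).relfinrank (k⟮xj k 1⟯ ⊔ k⟮xj k ℓ⟯) = ℓ + 1 :=
    L4a ℓ hℓ.two_le Φ hΦ hdeg h1 h2 hIG
  have hC2 : (k⟮xj k ℓ⟯).relfinrank (k⟮xj k ℓ⟯ ⊔ k⟮xj k 1⟯) = ℓ + 1 :=
    L4b ℓ hℓ.two_le Φ hΦ hdeg h1 h2 hIG
  have hCF' : k⟮xj k 1⟯ ⊔ k⟮xj k ℓ⟯ ≤ kap k (N * ℓ) := sup_le hK1F' hKℓF'
  have hCF'' : k⟮xj k ℓ⟯ ⊔ k⟮xj k 1⟯ ≤ kap k (N * ℓ) := sup_le hKℓF' hK1F'
  have m1 := relfinrank_mul_relfinrank (le_sup_left : k⟮xj k 1⟯ ≤ k⟮xj k 1⟯ ⊔ k⟮xj k ℓ⟯) hCF'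
  have m2 := relfinrank_mul_relfinrank (le_sup_left : k⟮xj k ℓ⟯ ≤ k⟮xj k ℓ⟯ ⊔ k⟮xj k 1⟯) hCF''
  have m3 := relfinrank_mul_relfinrank hKℓE hEF'
  rw [hC1, hψNℓ] at m1
  rw [hC2, sup_comm] at m2
  rw [e1] at m3
  have e3 : (k⟮xj k 1⟯ ⊔ k⟮xj k ℓ⟯).relfinrank (kap k (N * ℓ)) = ψ :=
    Nat.eq_of_mul_eq_mul_left (Nat.succ_pos ℓ) m1
  rw [e3] at m2
  rw [← m2] at m3
  have m4 : ψ * (betaField k N ℓ).relfinrank (kap k (N * ℓ)) = ψ * (ℓ + 1) := by
    rw [m3, mul_comm]
  exact Nat.eq_of_mul_eq_mul_left (Nat.pos_of_ne_zero hψ0) m4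

end Degree

/-! ### Part B: the embeddings and the norm formula, subfield form -/

section Embeddings

variable {k : Type*} [Field k]

/-- An `E`-embedding of `F'` into the algebraic closure of `k((q))` from an endomorphism of
`k((q))` fixing `E` pointwise. -/
def embOf {E F' : IntermediateField k (LaurentSeries k)} (hEF : E ≤ F')
    (g : LaurentSeries k →+* LaurentSeries k) (hg : ∀ e ∈ E, g e = e) :
    ↥(extendScalars hEF) →ₐ[E] AlgebraicClosure (LaurentSeries k) :=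
  { ((algebraMap (LaurentSeries k) (AlgebraicClosure (LaurentSeries k))).comp
      (g.comp (algebraMap ↥(extendScalars hEF) (LaurentSeries k)))) with
    commutes' := fun e => by
      show algebraMap (LaurentSeries k) (AlgebraicClosure (LaurentSeries k))
        (g (e : LaurentSeries k)) = _
      rw [hg _ e.2]
      rfl }

theorem embOf_apply {E F' : IntermediateField k (LaurentSeries k)} (hEF : E ≤ F')
    (g : LaurentSeries k →+* LaurentSeries k) (hg : ∀ e ∈ E, g e = e)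
    (x : ↥(extendScalars hEF)) :
    embOf hEF g hg x
      = algebraMap (LaurentSeries k) (AlgebraicClosure (LaurentSeries k))
          (g (x : LaurentSeries k)) := rfl

theorem algebraMap_betaField_apply {E : IntermediateField k (LaurentSeries k)} (e : E) :
    algebraMap E (AlgebraicClosure (LaurentSeries k)) e
      = algebraMap (LaurentSeries k) (AlgebraicClosure (LaurentSeries k))
          (e : LaurentSeries k) := rfl

/-- number theory: a divisor of `ℓ + 1` that is at least `ℓ ≥ 2` is `ℓ + 1`. -/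
theorem eq_succ_of_dvd_of_le {ℓ n : ℕ} (hℓ : 2 ≤ ℓ) (hdvd : n ∣ ℓ + 1) (hle : ℓ ≤ n) :
    n = ℓ + 1 := by
  obtain ⟨m, hm⟩ := hdvd
  rcases m with _ | _ | m
  · omega
  · omega
  · exfalso
    have : n * (m + 1 + 1) ≥ ℓ * 2 := Nat.mul_le_mul hle (by omega)
    omega

end Embeddings

section Lemmas

variable {k : Type*} [Field k]

/-- (B1) the modular equation at `x_{ℓ d}`, product form, from the one at `x_ℓ`. -/
theorem spec_factor (ℓ d : ℕ) (hℓ0 : ℓ ≠ 0) (hd0 : d ≠ 0) (ζ : kˣ)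
    (Φ : Polynomial (Polynomial k))
    (hprod : spec k Φ (xj k ℓ) = (X - C (xj k (ℓ * ℓ))) *
        ∏ b ∈ Finset.range ℓ, (X - C (twist (ζ ^ b) (xj k 1)))) :
    spec k Φ (xj k (ℓ * d)) = (X - C (V k (ℓ * ℓ) (xj k d))) *
        ∏ b ∈ Finset.range ℓ, (X - C (V k d (twist (ζ ^ b) (xj k 1)))) := by
  have h := congrArg (Polynomial.map (V k d).toRingHom) hprod
  rw [spec_map_V, V_xj k d ℓ hd0 hℓ0, Polynomial.map_mul, Polynomial.map_sub,
    Polynomial.map_X, Polynomial.map_C, Polynomial.map_prod] at h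
  rw [mul_comm ℓ d, h]
  have e1 : (V k d).toRingHom (xj k (ℓ * ℓ)) = V k (ℓ * ℓ) (xj k d) := by
    show V k d (xj k (ℓ * ℓ)) = V k (ℓ * ℓ) (xj k d)
    rw [V_xj k d (ℓ * ℓ) hd0 (mul_ne_zero hℓ0 hℓ0),
      V_xj k (ℓ * ℓ) d (mul_ne_zero hℓ0 hℓ0) hd0, mul_comm]
  rw [e1]
  congr 1
  refine Finset.prod_congr rfl fun b _ => ?_
  rw [Polynomial.map_sub, Polynomial.map_X, Polynomial.map_C]
  rfl

/-- (B2) reindexing the twisted conjugates of `x_d`, `d` prime to `ℓ`. -/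
theorem exists_twist_eq (ℓ d : ℕ) (hℓ : ℓ.Prime) (hd0 : d ≠ 0) (hcop : Nat.Coprime d ℓ)
    (ζ : kˣ) (hζ : ζ ^ ℓ = 1) (b : ℕ) :
    ∃ c < ℓ, V k d (twist (ζ ^ b) (xj k 1)) = twist (ζ ^ c) (xj k d) := by
  haveI : NeZero d := ⟨hd0⟩
  obtain ⟨m, -, hm⟩ := Nat.exists_mul_mod_eq_one_of_coprime hcop hℓ.one_lt
  refine ⟨(b * m) % ℓ, Nat.mod_lt _ hℓ.pos, ?_⟩
  have h2 : (b * m) % ℓ * d % ℓ = b % ℓ := by
    calc (b * m) % ℓ * d % ℓ = (b * m * d) % ℓ := by rw [Nat.mod_mul_mod]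
      _ = (b * (d * m)) % ℓ := by ring_nf
      _ = (b % ℓ * ((d * m) % ℓ)) % ℓ := Nat.mul_mod ..
      _ = b % ℓ := by rw [hm, mul_one, Nat.mod_mod]
  have hpow : (ζ ^ ((b * m) % ℓ)) ^ d = ζ ^ b := by
    rw [← pow_mul, pow_eq_pow_mod _ hζ, h2, ← pow_eq_pow_mod _ hζ]
  have hx : xj k d = V k d (xj k 1) := by rw [V_xj k d 1 hd0 one_ne_zero, mul_one]
  rw [hx, V_apply, V_apply, twist_qExpand, hpow]

end Lemmas

section EvalInj

/-- (B4) if the minimal polynomial of `x` has degree `[L : K]`, a `K`-embedding of `L` into an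
algebraically closed field is determined by its value at `x`. -/
theorem eval_injective_of_natDegree_minpoly {K L Ω : Type*} [Field K] [Field L] [Field Ω]
    [Algebra K L] [Algebra K Ω] [FiniteDimensional K L] [Algebra.IsSeparable K L]
    [IsAlgClosed Ω] (x : L) (hdeg : (minpoly K x).natDegree = Module.finrank K L) :
    Function.Injective (fun f : L →ₐ[K] Ω => f x) := by
  classical
  have hrange := Algebra.IsAlgebraic.range_eval_eq_rootSet_minpoly (F := K) (K := L) Ω x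
  have hcard : Fintype.card ((minpoly K x).rootSet Ω) = (minpoly K x).natDegree :=
    Polynomial.card_rootSet_eq_natDegree (Algebra.IsSeparable.isSeparable K x)
      (IsAlgClosed.splits _)
  have h1 : (Finset.univ.image (fun f : L →ₐ[K] Ω => f x)).card
      = (Finset.univ : Finset (L →ₐ[K] Ω)).card := by
    rw [Finset.card_univ, AlgHom.card, ← hdeg, ← hcard, ← Set.toFinset_card,
      ← Set.toFinset_range]
    congr 1
    exact Set.toFinset_congr hrange
  have h2 := Finset.card_image_iff.mp h1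
  intro f g hfg
  exact h2 (Finset.mem_coe.mpr (Finset.mem_univ f)) (Finset.mem_coe.mpr (Finset.mem_univ g)) hfg

end EvalInj

section Main

variable {k : Type*} [Field k] [CharZero k]

set_option maxHeartbeats 1600000 in
/-- **(CONJ), subfield form.**  The norm from `F' = k(x_e : e ∣ Nℓ)` down to
`E = k(x_{dℓ} : d ∣ N)` of an element `y` of `k(x_d : d ∣ N)`. -/
theorem norm_subfield (N ℓ : ℕ) (hℓ : ℓ.Prime) (hN : N ≠ 0) (hℓN : ¬ ℓ ∣ N)
    (ζ : kˣ) (hζ : IsPrimitiveRoot ζ ℓ)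
    (Φ : Polynomial (Polynomial k))
    (hprod : spec k Φ (xj k ℓ) = (X - C (xj k (ℓ * ℓ))) *
        ∏ b ∈ Finset.range ℓ, (X - C (twist (ζ ^ b) (xj k 1))))
    (hfin : (betaField k N ℓ).relfinrank (kap k (N * ℓ)) = ℓ + 1)
    (y : LaurentSeries k) (hy : y ∈ kap k N)
    (hy' : y ∈ extendScalars (betaField_le (k := k) (N := N) (ℓ := ℓ) hN hℓ.ne_zero)) :
    ((Algebra.norm (betaField k N ℓ)
        (⟨y, hy'⟩ : ↥(extendScalars (betaField_le (k := k) (N := N) (ℓ := ℓ) hN hℓ.ne_zero))) :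
          betaField k N ℓ) : LaurentSeries k)
      = V k (ℓ * ℓ) y * ∏ b ∈ Finset.range ℓ, twist (ζ ^ b) y := by
  classical
  have hℓ0 : ℓ ≠ 0 := hℓ.ne_zero
  haveI : NeZero ℓ := ⟨hℓ0⟩
  have hNℓ : N * ℓ ≠ 0 := mul_ne_zero hN hℓ0
  set hEF := betaField_le (k := k) (N := N) (ℓ := ℓ) hN hℓ0 with hEFdef
  -- abbreviations
  let ι : LaurentSeries k →+* AlgebraicClosure (LaurentSeries k) := algebraMap _ _
  have hιinj : Function.Injective ι := RingHom.injective ι
  have hmemL : ∀ {z : LaurentSeries k}, z ∈ kap k (N * ℓ) → z ∈ extendScalars hEF :=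
    fun {z} hz => (mem_extendScalars hEF).mpr hz
  have hκL : ∀ {z : LaurentSeries k}, z ∈ kap k N → z ∈ extendScalars hEF :=
    fun {z} hz => hmemL (kap_mono hNℓ (Dvd.intro ℓ rfl) hz)
  -- finiteness
  have hfr : Module.finrank (betaField k N ℓ) ↥(extendScalars hEF) = ℓ + 1 := by
    rw [← relfinrank_eq_finrank_of_le hEF]; exact hfin
  haveI : FiniteDimensional (betaField k N ℓ) ↥(extendScalars hEF) :=
    Module.finite_of_finrank_pos (by rw [hfr]; exact Nat.succ_pos ℓ)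
  -- the twists fix `E`
  have hfix : ∀ b : ℕ, ∀ e ∈ betaField k N ℓ, twist (ζ ^ b) e = e := by
    intro b e he
    obtain ⟨e', -, rfl⟩ := mem_betaField.mp he
    rw [V_apply]
    refine twist_qExpand_of_pow_eq_one _ ℓ ?_ e'
    rw [← pow_mul, mul_comm, pow_mul, hζ.pow_eq_one, one_pow]
  let σ : ℕ → (↥(extendScalars hEF) →ₐ[betaField k N ℓ] AlgebraicClosure (LaurentSeries k)) :=
    fun b => embOf hEF (twist (ζ ^ b)) (hfix b)
  have hσ : ∀ (b : ℕ) (x : ↥(extendScalars hEF)), σ b x = ι (twist (ζ ^ b) (x : LaurentSeries k)) :=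
    fun b x => rfl
  -- `x_1 ∈ F'`
  have hx1 : xj k 1 ∈ extendScalars hEF := hmemL (xj_mem_kap hNℓ (one_dvd _))
  -- the `σ b`, `b < ℓ`, are pairwise distinct
  have hσinj : Set.InjOn σ (Finset.range ℓ : Set ℕ) := by
    intro b hb b' hb' h
    have h1 : σ b ⟨xj k 1, hx1⟩ = σ b' ⟨xj k 1, hx1⟩ := by rw [h]
    rw [hσ, hσ] at h1
    have h2 := hιinj h1
    have h3 : (twist (ζ ^ b) (xj k 1)).coeff (-1) = (twist (ζ ^ b') (xj k 1)).coeff (-1) := by
      rw [h2]
    rw [coeff_twist_neg_one, coeff_twist_neg_one, xj_one, coeff_jqModC_neg_one, mul_one,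
      mul_one] at h3
    have h4 : (ζ ^ b)⁻¹ = (ζ ^ b')⁻¹ := Units.ext h3
    have h5 : ζ ^ b = ζ ^ b' := inv_injective h4
    exact hζ.pow_inj (Finset.mem_range.mp hb) (Finset.mem_range.mp hb') h5
  -- separability (characteristic zero)
  haveI : CharZero (betaField k N ℓ) :=
    charZero_of_injective_algebraMap (algebraMap k (betaField k N ℓ)).injective
  -- the number of embeddings
  have hcard : Fintype.card
      (↥(extendScalars hEF) →ₐ[betaField k N ℓ] AlgebraicClosure (LaurentSeries k)) = ℓ + 1 := by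
    rw [AlgHom.card, hfr]
  -- the extra embedding
  obtain ⟨τ, hτ⟩ : ∃ τ : ↥(extendScalars hEF) →ₐ[betaField k N ℓ]
      AlgebraicClosure (LaurentSeries k), τ ∉ (Finset.range ℓ).image σ := by
    by_contra hcon
    push Not at hcon
    have h1 : (Finset.univ : Finset (↥(extendScalars hEF) →ₐ[betaField k N ℓ]
        AlgebraicClosure (LaurentSeries k))) ⊆ (Finset.range ℓ).image σ := fun τ _ => hcon τ
    have h2 := Finset.card_le_card h1
    rw [Finset.card_univ, hcard] at h2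
    have h3 := h2.trans Finset.card_image_le
    rw [Finset.card_range] at h3
    omega
  have huniv : (Finset.univ : Finset (↥(extendScalars hEF) →ₐ[betaField k N ℓ]
      AlgebraicClosure (LaurentSeries k))) = insert τ ((Finset.range ℓ).image σ) := by
    symm
    apply Finset.eq_univ_of_card
    rw [Finset.card_insert_of_notMem hτ, Finset.card_image_of_injOn hσinj, Finset.card_range,
      hcard]
  -- `E` consists of series in `q^ℓ`
  have hEV : ∀ e ∈ betaField k N ℓ, ∃ e', V k ℓ e' = e := fun e he => by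
    obtain ⟨e', -, h⟩ := mem_betaField.mp he
    exact ⟨e', h⟩
  have h2 : (spec k Φ (xj k ℓ)).eval (xj k 1) = 0 := by
    rw [hprod, eval_mul, eval_prod, Finset.prod_eq_zero (Finset.mem_range.mpr hℓ.pos) (by
      rw [pow_zero, twist_one, eval_sub, eval_X, eval_C]; exact sub_self _), mul_zero]
  -- the value of `τ` at `x_d`, `d ∣ N`
  have hτx : ∀ d, d ∣ N → ∀ hxd : xj k d ∈ extendScalars hEF,
      τ ⟨xj k d, hxd⟩ = ι (V k (ℓ * ℓ) (xj k d)) := by
    intro d hdN hxd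
    have hd0 : d ≠ 0 := ne_zero_of_dvd_ne_zero hN hdN
    have hcop : Nat.Coprime d ℓ :=
      ((Nat.Prime.coprime_iff_not_dvd hℓ).mpr (fun h => hℓN (h.trans hdN))).symm
    have hxE : xj k (ℓ * d) ∈ betaField k N ℓ := by
      rw [← V_xj k ℓ d hℓ0 hd0]
      exact V_mem_betaField (xj_mem_kap hN hdN)
    obtain ⟨f₀, hf₀, -⟩ := exists_spec_lift (betaField k N ℓ) Φ hxE
    have hPd := spec_factor ℓ d hℓ0 hd0 ζ Φ hprod
    have hroot : (spec k Φ (xj k (ℓ * d))).eval (xj k d) = 0 := by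
      have h := spec_eval_V Φ _ _ d h2
      rwa [V_xj k d ℓ hd0 hℓ0, V_xj k d 1 hd0 one_ne_zero, mul_one, mul_comm d ℓ] at h
    -- `x_d` as an element of `L` is a root of `f₀`
    have h1 : Polynomial.aeval (⟨xj k d, hxd⟩ : ↥(extendScalars hEF)) f₀ = 0 := by
      apply Subtype.ext
      have e : ((Polynomial.aeval (⟨xj k d, hxd⟩ : ↥(extendScalars hEF)) f₀ :
          ↥(extendScalars hEF)) : LaurentSeries k)
          = Polynomial.aeval (xj k d) f₀ :=
        (Polynomial.aeval_algebraMap_apply (LaurentSeries k)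
          (⟨xj k d, hxd⟩ : ↥(extendScalars hEF)) f₀).symm
      rw [e, Polynomial.aeval_def, ← eval_map, hf₀, hroot]
      rfl
    have hint : IsIntegral (betaField k N ℓ) (⟨xj k d, hxd⟩ : ↥(extendScalars hEF)) :=
      Algebra.IsIntegral.isIntegral _
    -- degree of the minimal polynomial
    have hmin : (minpoly (betaField k N ℓ) (⟨xj k d, hxd⟩ : ↥(extendScalars hEF))).natDegree
        = ℓ + 1 := by
      have hm : minpoly (betaField k N ℓ) (xj k d)
          = minpoly (betaField k N ℓ) (⟨xj k d, hxd⟩ : ↥(extendScalars hEF)) :=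
        minpoly.algebraMap_eq (A := betaField k N ℓ) (B := ↥(extendScalars hEF))
          (B' := LaurentSeries k)
          (RingHom.injective (algebraMap ↥(extendScalars hEF) (LaurentSeries k)))
          (⟨xj k d, hxd⟩ : ↥(extendScalars hEF))
      have hint' : IsIntegral (betaField k N ℓ) (xj k d) := by
        have := hint.map (IsScalarTower.toAlgHom (betaField k N ℓ) ↥(extendScalars hEF)
          (LaurentSeries k))
        exact this
      have hle := le_natDegree_minpoly ℓ hℓ0 (betaField k N ℓ) hEV (xj k d) (xj_ne_zero k d)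
        (isCoprime_order_xj hd0 hcop) hint'
      have hdvd := minpoly.degree_dvd hint
      rw [hfr] at hdvd
      rw [hm] at hle
      exact eq_succ_of_dvd_of_le hℓ.two_le hdvd hle
    have hinj := eval_injective_of_natDegree_minpoly
      (Ω := AlgebraicClosure (LaurentSeries k)) (⟨xj k d, hxd⟩ : ↥(extendScalars hEF))
      (hmin.trans hfr.symm)
    -- `τ x_d` is a root of the image polynomial
    have h3 : Polynomial.aeval (τ ⟨xj k d, hxd⟩) f₀ = 0 := by
      rw [Polynomial.aeval_algHom_apply, h1, map_zero]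
    have h4 : ((spec k Φ (xj k (ℓ * d))).map ι).eval (τ ⟨xj k d, hxd⟩) = 0 := by
      rw [← hf₀, Polynomial.map_map, eval_map]
      exact h3
    rw [hPd, Polynomial.map_mul, Polynomial.map_sub, Polynomial.map_X, Polynomial.map_C,
      Polynomial.map_prod, eval_mul, eval_sub, eval_X, eval_C, eval_prod, mul_eq_zero,
      Finset.prod_eq_zero_iff] at h4
    rcases h4 with h4 | ⟨b, -, h4⟩
    · exact sub_eq_zero.mp h4
    · exfalso
      rw [Polynomial.map_sub, Polynomial.map_X, Polynomial.map_C, eval_sub, eval_X, eval_C,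
        sub_eq_zero] at h4
      obtain ⟨c, hc, hbc⟩ := exists_twist_eq ℓ d hℓ hd0 hcop ζ hζ.pow_eq_one b
      rw [hbc] at h4
      have h5 : τ = σ c := hinj (by
        show τ ⟨xj k d, hxd⟩ = σ c ⟨xj k d, hxd⟩
        rw [h4, hσ])
      exact hτ (Finset.mem_image.mpr ⟨c, Finset.mem_range.mpr hc, h5.symm⟩)
  -- `τ` on `k(x_d : d ∣ N)`
  have hτκ : ∀ z, z ∈ kap k N → ∀ hz' : z ∈ extendScalars hEF,
      τ ⟨z, hz'⟩ = ι (V k (ℓ * ℓ) z) := by
    intro z hz
    unfold kap at hz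
    induction hz using IntermediateField.adjoin_induction with
    | mem x hx =>
      obtain ⟨d, hd, rfl⟩ := hx
      have hd' : d ∣ N ∧ N ≠ 0 := by simpa using hd
      intro hz'
      exact hτx d hd'.1 hz'
    | algebraMap c =>
      intro hz'
      have e : (⟨algebraMap k (LaurentSeries k) c, hz'⟩ : ↥(extendScalars hEF))
          = algebraMap (betaField k N ℓ) ↥(extendScalars hEF)
              (algebraMap k (betaField k N ℓ) c) := rfl
      rw [e, τ.commutes, AlgHom.commutes]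
      rfl
    | add x y hx hy ihx ihy =>
      intro hz'
      have hx' : x ∈ extendScalars hEF := hκL hx
      have hy' : y ∈ extendScalars hEF := hκL hy
      have e : (⟨x + y, hz'⟩ : ↥(extendScalars hEF)) = ⟨x, hx'⟩ + ⟨y, hy'⟩ := rfl
      rw [e, map_add, ihx hx', ihy hy', map_add, map_add]
    | inv x hx ihx =>
      intro hz'
      have hx' : x ∈ extendScalars hEF := hκL hx
      have e : (⟨x⁻¹, hz'⟩ : ↥(extendScalars hEF)) = (⟨x, hx'⟩)⁻¹ := rfl
      rw [e, map_inv₀, ihx hx', map_inv₀, map_inv₀]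
    | mul x y hx hy ihx ihy =>
      intro hz'
      have hx' : x ∈ extendScalars hEF := hκL hx
      have hy' : y ∈ extendScalars hEF := hκL hy
      have e : (⟨x * y, hz'⟩ : ↥(extendScalars hEF)) = ⟨x, hx'⟩ * ⟨y, hy'⟩ := rfl
      rw [e, map_mul, ihx hx', ihy hy', map_mul, map_mul]
  -- the norm as a product over the embeddings
  have hnorm := Algebra.norm_eq_prod_embeddings (betaField k N ℓ)
    (AlgebraicClosure (LaurentSeries k)) (⟨y, hy'⟩ : ↥(extendScalars hEF))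
  rw [huniv, Finset.prod_insert hτ, Finset.prod_image (fun a ha b hb h => hσinj ha hb h),
    hτκ y hy hy'] at hnorm
  simp only [hσ] at hnorm
  rw [← map_prod, ← map_mul] at hnorm
  exact hιinj hnorm

end Main

end

end Fermat.Agent.S37.H27
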