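import Mathlib
import Fermat.Agent.S37.ChartLit_helper92
import Fermat.Agent.S37.ModelUnit_helper92
import Fermat.Agent.S37.ChartCongrCls_helper66
import Fermat.Agent.S37.ConstModel_helper22
import Fermat.Agent.S37.ChartCmpL3_helper53
import Fermat.Agent.S37.GalChart_helper15
import Fermat.Agent.S37.RatModel_helper5
import Fermat.Agent.S37.ConstTop_helper27

/-!
# S37: (CONST-CORE) at the three chart coordinates (helper92)

`H27.ConstCore L A x` (the Prop of `ConstTop_helper27`: a function of `Fbar_L` whose orders sum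
to zero on every residue character class of the two charts of `x` has constant Gauss reduction)
for the three chart coordinates of the route:

* `constCore_j_level`     : `x = H58.jBar L`,         `ℓ ∤ L`, `ℓ ≠ 2, 3`;
* `constCore_two_level`   : `x = H69.hauptBar2 L hL`, `ℓ ∤ L`, `ℓ ≠ 2`, `2 ∣ L`;
* `constCore_three_level` : `x = H69.hauptBar3 L hL`, `ℓ ∤ L`, `ℓ ≠ 3`, `3 ∣ L`;

and, in the literal shapes asked for by `H27.constStmt_of_levels` (`ConstTop_helper27`):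

* `constCore_j`     : `H27.ConstCore N A (H58.jBar N)`                       (`ℓ ∤ N`, `ℓ ≠ 2, 3`);
* `constCore_two`   : `H27.ConstCore (N * 2) A (H69.hauptBar2 (N * 2) _)`   (`ℓ = 3 ∤ N`);
* `constCore_three` : `H27.ConstCore (N * 3) A (H69.hauptBar3 (N * 3) _)`   (`ℓ = 2 ∤ N`).

Assembly only (no new mathematics), every step a landed theorem:
`const_of_coordReg` (one number field `K0`: the two chart packages `H92.CoordReg` of a coordinate
`ξ` of the `K0`-model with `toBar ξ = x`, a Gauss unit `u` with `f = c0 * toBar u`, rationality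
of the places of `T`; two calls of `H66.chart_congr_of_classes`, then
`H22.const_of_model_unit`), `const_core` (choice of `K0 = ℚ(C0 ∪ C1 ∪ C2)`:
`H92.exists_model_unit`, `H05.exists_rational_model`, `H92.coordReg_of_reg`),
`constCore_of_chart` (the literal chart data `⟹ H27.ConstCore`), and the three instances via
`H92.chartLit_j / _two / _three`.
-/

set_option autoImplicit false
set_option synthInstance.maxHeartbeats 400000

open ModularCurve AlgebraicCurve IntermediateField Polynomial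

namespace Fermat.Agent.S37.H92

noncomputable section

open Fermat.Agent.S18

local notation "Qb" => AlgebraicClosure ℚ

section Core

variable (A : ValuationSubring (AlgebraicClosure ℚ))
  (K0 : IntermediateField ℚ (AlgebraicClosure ℚ))
  (L : ℕ) [NeZero L] (ℓ : ℕ) [Fact ℓ.Prime]

set_option maxHeartbeats 6400000 in
/-- the core at one number field `K0`, from the chart packages of a coordinate `ξ` with
`toBar ξ = x`. -/
theorem const_of_coordReg [Algebra.IsAlgebraic K0 (AlgebraicClosure ℚ)]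
    [IsDiscreteValuationRing ↥(H61.A0 A K0)]
    [CharP (IsLocalRing.ResidueField ↥(H61.A0 A K0)) ℓ] (hℓL : ¬ ℓ ∣ L)
    (π : ↥(H61.A0 A K0)) (hπ : Irreducible π)
    (ξ : ↥(modularFunctionFieldFullC K0 L))
    (hc : CoordReg (H61.A0 A K0) ℓ L hℓL π ξ)
    (x : ↥(modularFunctionFieldBar L)) (hξx : H74.toBar K0 L ξ = x)
    (f : ↥(modularFunctionFieldBar L))
    (u : ↥(modularFunctionFieldFullC K0 L)) (c0 : K0) (hc0 : c0 ≠ 0) (hu0 : u ≠ 0)
    (hu : u ∈ H93.gaussWFull K0 L (H61.A0 A K0) ℓ hℓL)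
    (hu' : u⁻¹ ∈ H93.gaussWFull K0 L (H61.A0 A K0) ℓ hℓL)
    (hfu : f = algebraMap Qb ↥(modularFunctionFieldBar L) (algebraMap K0 Qb c0) *
      H74.toBar K0 L u)
    (hug : ∀ w : Place Qb ↥(modularFunctionFieldBar L), w.ord (H74.toBar K0 L u) = w.ord f)
    (T : Finset (Place Qb ↥(modularFunctionFieldBar L)))
    (hT : ∀ w : Place Qb ↥(modularFunctionFieldBar L), w.ord f ≠ 0 → w ∈ T)
    (hratb : ∀ w ∈ T, ∀ y ∈ (H74.restrictModel K0 L w).toValuationSubring,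
        ∃ c : K0, y - algebraMap K0 ↥(modularFunctionFieldFullC K0 L) c ∈
          (H74.restrictModel K0 L w).toValuationSubring.nonunits)
    (huniq : ∀ w ∈ T, ∀ w' : Place Qb ↥(modularFunctionFieldBar L),
        H74.restrictModel K0 L w' = H74.restrictModel K0 L w → w' = w)
    (hclsU : ∀ w₀ : Place Qb ↥(modularFunctionFieldBar L),
      ∀ S' : Finset (Place Qb ↥(modularFunctionFieldBar L)),
        (∀ w, w ∈ S' ↔ w ∈ T ∧ ∀ y ∈ H58.chartRing A L x, ∃ c c' : Qb, c ∈ A ∧ c' ∈ A ∧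
          H34.EvalAt w y c ∧ H34.EvalAt w₀ y c' ∧ c - c' ∈ A.nonunits) →
        ∑ w ∈ S', w.ord f = 0)
    (hclsV : ∀ w₀ : Place Qb ↥(modularFunctionFieldBar L),
      ∀ S' : Finset (Place Qb ↥(modularFunctionFieldBar L)),
        (∀ w, w ∈ S' ↔ w ∈ T ∧ ∀ y ∈ H58.chartRing A L x⁻¹, ∃ c c' : Qb, c ∈ A ∧ c' ∈ A ∧
          H34.EvalAt w y c ∧ H34.EvalAt w₀ y c' ∧ c - c' ∈ A.nonunits) →
        ∑ w ∈ S', w.ord f = 0) :
    ∃ (c : Qb) (Z1 Z2 : LaurentSeries ↥A), c ≠ 0 ∧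
      coeffMap (IsLocalRing.residue ↥A) Z2 ≠ 0 ∧
      coeffMap (IsLocalRing.residue ↥A) Z1 = coeffMap (IsLocalRing.residue ↥A) Z2 ∧
      (f : LaurentSeries Qb) * coeffMap A.subtype Z2 = HahnSeries.C c * coeffMap A.subtype Z1 := by
  have htow : IsScalarTower ↥(H61.A0 A K0) K0 ↥(modularFunctionFieldFullC K0 L) :=
    IsScalarTower.of_algebraMap_eq fun _ => rfl
  have hBRU : ∀ b ∈ H97.chartU ↥(H61.A0 A K0) ξ, H74.toBar K0 L b ∈ H58.chartRing A L x :=
    fun b hb => hξx ▸ H53.toBar_mem_chartRing A L K0 ξ b hb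
  have hBRV : ∀ b ∈ H97.chartV ↥(H61.A0 A K0) ξ, H74.toBar K0 L b ∈ H58.chartRing A L x⁻¹ :=
    fun b hb => hξx ▸ H53.toBar_mem_chartRing_inv A L K0 ξ b hb
  have hfinU : ∀ w : Place Qb ↥(modularFunctionFieldBar L),
      (∀ b ∈ H97.chartU ↥(H61.A0 A K0) ξ, ∃ c ∈ A, H34.EvalAt w (H74.toBar K0 L b) c) →
      H34.IsFin A (H58.chartRing A L x) w := by
    intro w h
    obtain ⟨c, hcA, he⟩ := h ξ (H97.mem_chartU_self ξ)
    rw [hξx] at he
    exact H15b.isFin_chartRing A L x w ⟨c, hcA, he⟩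
  have hfinV : ∀ w : Place Qb ↥(modularFunctionFieldBar L),
      (∀ b ∈ H97.chartV ↥(H61.A0 A K0) ξ, ∃ c ∈ A, H34.EvalAt w (H74.toBar K0 L b) c) →
      H34.IsFin A (H58.chartRing A L x⁻¹) w := by
    intro w h
    obtain ⟨c, hcA, he⟩ := h ξ⁻¹ (H97.inv_mem_chartV ξ)
    rw [map_inv₀, hξx] at he
    exact H15b.isFin_chartRing A L x⁻¹ w ⟨c, hcA, he⟩
  have hU := (H66.chart_congr_of_classes K0 L ↥(H61.A0 A K0) A (fun a => a.2) π
    (H93.gaussWFull K0 L (H61.A0 A K0) ℓ hℓL) (H97.chartU ↥(H61.A0 A K0) ξ) u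
    hc.regU.pi_ne hc.regU.inj hc.regU.arch hc.regU.amax hc.regU.pi_mem hc.regU.nonunits
    hc.regU.le hc.regU.noeth hc.regU.frac hc.regU.sat hc.regU.reg hu0 hu hu'
    (H58.chartRing A L x) hBRU hfinU f hug T hT hratb huniq hclsU).1
  have hV := (H66.chart_congr_of_classes K0 L ↥(H61.A0 A K0) A (fun a => a.2) π
    (H93.gaussWFull K0 L (H61.A0 A K0) ℓ hℓL) (H97.chartV ↥(H61.A0 A K0) ξ) u
    hc.regV.pi_ne hc.regV.inj hc.regV.arch hc.regV.amax hc.regV.pi_mem hc.regV.nonunits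
    hc.regV.le hc.regV.noeth hc.regV.frac hc.regV.sat hc.regV.reg hu0 hu hu'
    (H58.chartRing A L x⁻¹) hBRV hfinV f hug T hT hratb huniq hclsV).1
  exact H22.const_of_model_unit A K0 L ℓ hℓL π hπ.not_isUnit ξ hc.coord_mem hc.inv_mem
    hc.regU.le hc.regV.le u hu0 hu hu' hU hV f c0 hc0 hfu

end Core

section Top

variable (A : ValuationSubring (AlgebraicClosure ℚ)) (L : ℕ) [NeZero L] (ℓ : ℕ) [Fact ℓ.Prime]

set_option maxHeartbeats 6400000 in
/-- **The core of the (a)-assembly**: one function at level `L`. -/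
theorem const_core (hℓL : ¬ ℓ ∣ L) (hA : A.LiesOverPrime ℓ)
    (x : ↥(modularFunctionFieldBar L))
    (hChart : ∃ C0 : Finset Qb, ∀ K0 : IntermediateField ℚ Qb, FiniteDimensional ℚ K0 →
      (∀ c ∈ C0, c ∈ K0) →
      ∃ (xA xA' : LaurentSeries (H61.A0 A K0))
      (hx : H93.iotaA (H61.A0 A K0) xA ∈ modularFunctionFieldFullC K0 L),
      xA * xA' = 1 ∧
      H74.toBar K0 L (⟨H93.iotaA (H61.A0 A K0) xA, hx⟩ : modularFunctionFieldFullC K0 L) = x ∧
      (∀ P : Polynomial (IsLocalRing.ResidueField (H61.A0 A K0)),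
        H93.evC P (H93.redA (H61.A0 A K0) xA) = 0 → P = 0) ∧
      (⟨jqModC K0, jqModC_mem_full K0 L⟩ : modularFunctionFieldFullC K0 L) ∈
        IntermediateField.adjoin K0
          {(⟨H93.iotaA (H61.A0 A K0) xA, hx⟩ : modularFunctionFieldFullC K0 L)} ∧
      (∀ π : H61.A0 A K0, Irreducible π →
        ∀ n : Ideal (H97.chartU (↥(H61.A0 A K0))
            (⟨H93.iotaA (H61.A0 A K0) xA, hx⟩ : modularFunctionFieldFullC K0 L)), n.IsMaximal →
        algebraMap (↥(H61.A0 A K0)) (H97.chartU (↥(H61.A0 A K0))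
            (⟨H93.iotaA (H61.A0 A K0) xA, hx⟩ : modularFunctionFieldFullC K0 L)) π ∈ n →
        ∃ τ ∈ n, ∀ a : H97.chartU (↥(H61.A0 A K0))
            (⟨H93.iotaA (H61.A0 A K0) xA, hx⟩ : modularFunctionFieldFullC K0 L),
          a ∉ Ideal.span {algebraMap (↥(H61.A0 A K0)) (H97.chartU (↥(H61.A0 A K0))
            (⟨H93.iotaA (H61.A0 A K0) xA, hx⟩ : modularFunctionFieldFullC K0 L)) π} →
          ∃ (e : ℕ) (d u : H97.chartU (↥(H61.A0 A K0))
            (⟨H93.iotaA (H61.A0 A K0) xA, hx⟩ : modularFunctionFieldFullC K0 L)),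
            d ∉ n ∧ u ∉ n ∧
            a * d - u * τ ^ e ∈ Ideal.span {algebraMap (↥(H61.A0 A K0)) (H97.chartU (↥(H61.A0 A K0))
            (⟨H93.iotaA (H61.A0 A K0) xA, hx⟩ : modularFunctionFieldFullC K0 L)) π}) ∧
      (∀ π : H61.A0 A K0, Irreducible π →
        ∀ n : Ideal (H97.chartV (↥(H61.A0 A K0))
            (⟨H93.iotaA (H61.A0 A K0) xA, hx⟩ : modularFunctionFieldFullC K0 L)), n.IsMaximal →
        algebraMap (↥(H61.A0 A K0)) (H97.chartV (↥(H61.A0 A K0))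
            (⟨H93.iotaA (H61.A0 A K0) xA, hx⟩ : modularFunctionFieldFullC K0 L)) π ∈ n →
        ∃ τ ∈ n, ∀ a : H97.chartV (↥(H61.A0 A K0))
            (⟨H93.iotaA (H61.A0 A K0) xA, hx⟩ : modularFunctionFieldFullC K0 L),
          a ∉ Ideal.span {algebraMap (↥(H61.A0 A K0)) (H97.chartV (↥(H61.A0 A K0))
            (⟨H93.iotaA (H61.A0 A K0) xA, hx⟩ : modularFunctionFieldFullC K0 L)) π} →
          ∃ (e : ℕ) (d u : H97.chartV (↥(H61.A0 A K0))
            (⟨H93.iotaA (H61.A0 A K0) xA, hx⟩ : modularFunctionFieldFullC K0 L)),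
            d ∉ n ∧ u ∉ n ∧
            a * d - u * τ ^ e ∈ Ideal.span {algebraMap (↥(H61.A0 A K0)) (H97.chartV (↥(H61.A0 A K0))
            (⟨H93.iotaA (H61.A0 A K0) xA, hx⟩ : modularFunctionFieldFullC K0 L)) π}))
    (f : ↥(modularFunctionFieldBar L)) (hf : f ≠ 0)
    (T : Finset (Place Qb ↥(modularFunctionFieldBar L)))
    (hT : ∀ w : Place Qb ↥(modularFunctionFieldBar L), w.ord f ≠ 0 → w ∈ T)
    (hclsU : ∀ w₀ : Place Qb ↥(modularFunctionFieldBar L),
      ∀ S' : Finset (Place Qb ↥(modularFunctionFieldBar L)),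
        (∀ w, w ∈ S' ↔ w ∈ T ∧ ∀ y ∈ H58.chartRing A L x, ∃ c c' : Qb, c ∈ A ∧ c' ∈ A ∧
          H34.EvalAt w y c ∧ H34.EvalAt w₀ y c' ∧ c - c' ∈ A.nonunits) →
        ∑ w ∈ S', w.ord f = 0)
    (hclsV : ∀ w₀ : Place Qb ↥(modularFunctionFieldBar L),
      ∀ S' : Finset (Place Qb ↥(modularFunctionFieldBar L)),
        (∀ w, w ∈ S' ↔ w ∈ T ∧ ∀ y ∈ H58.chartRing A L x⁻¹, ∃ c c' : Qb, c ∈ A ∧ c' ∈ A ∧
          H34.EvalAt w y c ∧ H34.EvalAt w₀ y c' ∧ c - c' ∈ A.nonunits) →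
        ∑ w ∈ S', w.ord f = 0) :
    ∃ (c : Qb) (Z1 Z2 : LaurentSeries ↥A), c ≠ 0 ∧
      coeffMap (IsLocalRing.residue ↥A) Z2 ≠ 0 ∧
      coeffMap (IsLocalRing.residue ↥A) Z1 = coeffMap (IsLocalRing.residue ↥A) Z2 ∧
      (f : LaurentSeries Qb) * coeffMap A.subtype Z2 = HahnSeries.C c * coeffMap A.subtype Z1 := by
  classical
  obtain ⟨C0, hC0⟩ := hChart
  obtain ⟨C1, hC1⟩ := exists_model_unit L ℓ hℓL A f hf
  obtain ⟨C2, hC2⟩ := H05.exists_rational_model L T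
  set K0 : IntermediateField ℚ Qb :=
    IntermediateField.adjoin ℚ ((C0 ∪ C1 ∪ C2 : Finset Qb) : Set Qb) with hK0
  have hfd : FiniteDimensional ℚ K0 :=
    IntermediateField.finiteDimensional_adjoin
      (fun x _ => ((AlgebraicClosure.isAlgebraic ℚ).isAlgebraic x).isIntegral)
  have hmem : ∀ c ∈ C0 ∪ C1 ∪ C2, c ∈ K0 := fun c hc =>
    IntermediateField.subset_adjoin ℚ _ (Finset.mem_coe.mpr hc)
  have hℓ : ℓ.Prime := Fact.out
  have hdvr : IsDiscreteValuationRing ↥(H61.A0 A K0) :=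
    H86.isDiscreteValuationRing_A0 A K0 hℓ hA
  have hchar : CharP (IsLocalRing.ResidueField ↥(H61.A0 A K0)) ℓ :=
    H86.charP_residueField_A0 A K0 hℓ hA
  have halg : Algebra.IsAlgebraic K0 (AlgebraicClosure ℚ) := isAlgebraic_bar K0
  obtain ⟨xA, xA', hx, hxx, hξx, hxtr, hJx, hregU, hregV⟩ := hC0 K0 hfd
    (fun c hc => hmem c (Finset.mem_union_left _ (Finset.mem_union_left _ hc)))
  obtain ⟨f0, u, c0, -, hc0, -, hu0, hu, hu', hfu, hug⟩ := hC1 K0
    (fun c hc => hmem c (Finset.mem_union_left _ (Finset.mem_union_right _ hc)))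
  obtain ⟨hratb, huniq, -⟩ := hC2 K0
    (fun c hc => hmem c (Finset.mem_union_right _ hc))
  obtain ⟨π, hπ⟩ := IsDiscreteValuationRing.exists_irreducible ↥(H61.A0 A K0)
  have hc := coordReg_of_reg (H61.A0 A K0) ℓ L hℓL π hπ xA xA' hxx hx hxtr hJx
    (hregU π hπ) (hregV π hπ)
  exact const_of_coordReg A K0 L ℓ hℓL π hπ _ hc x hξx f u c0 hc0 hu0 hu hu' hfu hug T hT
    hratb huniq hclsU hclsV

set_option maxHeartbeats 1600000 in
/-- **(CONST-CORE) from the literal chart data** of the coordinate `x`. -/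
theorem constCore_of_chart (hℓL : ¬ ℓ ∣ L) (hA : A.LiesOverPrime ℓ)
    (x : ↥(modularFunctionFieldBar L))
    (hChart : ∃ C0 : Finset Qb, ∀ K0 : IntermediateField ℚ Qb, FiniteDimensional ℚ K0 →
      (∀ c ∈ C0, c ∈ K0) →
      ∃ (xA xA' : LaurentSeries (H61.A0 A K0))
      (hx : H93.iotaA (H61.A0 A K0) xA ∈ modularFunctionFieldFullC K0 L),
      xA * xA' = 1 ∧
      H74.toBar K0 L (⟨H93.iotaA (H61.A0 A K0) xA, hx⟩ : modularFunctionFieldFullC K0 L) = x ∧
      (∀ P : Polynomial (IsLocalRing.ResidueField (H61.A0 A K0)),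
        H93.evC P (H93.redA (H61.A0 A K0) xA) = 0 → P = 0) ∧
      (⟨jqModC K0, jqModC_mem_full K0 L⟩ : modularFunctionFieldFullC K0 L) ∈
        IntermediateField.adjoin K0
          {(⟨H93.iotaA (H61.A0 A K0) xA, hx⟩ : modularFunctionFieldFullC K0 L)} ∧
      (∀ π : H61.A0 A K0, Irreducible π →
        ∀ n : Ideal (H97.chartU (↥(H61.A0 A K0))
            (⟨H93.iotaA (H61.A0 A K0) xA, hx⟩ : modularFunctionFieldFullC K0 L)), n.IsMaximal →
        algebraMap (↥(H61.A0 A K0)) (H97.chartU (↥(H61.A0 A K0))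
            (⟨H93.iotaA (H61.A0 A K0) xA, hx⟩ : modularFunctionFieldFullC K0 L)) π ∈ n →
        ∃ τ ∈ n, ∀ a : H97.chartU (↥(H61.A0 A K0))
            (⟨H93.iotaA (H61.A0 A K0) xA, hx⟩ : modularFunctionFieldFullC K0 L),
          a ∉ Ideal.span {algebraMap (↥(H61.A0 A K0)) (H97.chartU (↥(H61.A0 A K0))
            (⟨H93.iotaA (H61.A0 A K0) xA, hx⟩ : modularFunctionFieldFullC K0 L)) π} →
          ∃ (e : ℕ) (d u : H97.chartU (↥(H61.A0 A K0))
            (⟨H93.iotaA (H61.A0 A K0) xA, hx⟩ : modularFunctionFieldFullC K0 L)),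
            d ∉ n ∧ u ∉ n ∧
            a * d - u * τ ^ e ∈ Ideal.span {algebraMap (↥(H61.A0 A K0)) (H97.chartU (↥(H61.A0 A K0))
            (⟨H93.iotaA (H61.A0 A K0) xA, hx⟩ : modularFunctionFieldFullC K0 L)) π}) ∧
      (∀ π : H61.A0 A K0, Irreducible π →
        ∀ n : Ideal (H97.chartV (↥(H61.A0 A K0))
            (⟨H93.iotaA (H61.A0 A K0) xA, hx⟩ : modularFunctionFieldFullC K0 L)), n.IsMaximal →
        algebraMap (↥(H61.A0 A K0)) (H97.chartV (↥(H61.A0 A K0))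
            (⟨H93.iotaA (H61.A0 A K0) xA, hx⟩ : modularFunctionFieldFullC K0 L)) π ∈ n →
        ∃ τ ∈ n, ∀ a : H97.chartV (↥(H61.A0 A K0))
            (⟨H93.iotaA (H61.A0 A K0) xA, hx⟩ : modularFunctionFieldFullC K0 L),
          a ∉ Ideal.span {algebraMap (↥(H61.A0 A K0)) (H97.chartV (↥(H61.A0 A K0))
            (⟨H93.iotaA (H61.A0 A K0) xA, hx⟩ : modularFunctionFieldFullC K0 L)) π} →
          ∃ (e : ℕ) (d u : H97.chartV (↥(H61.A0 A K0))
            (⟨H93.iotaA (H61.A0 A K0) xA, hx⟩ : modularFunctionFieldFullC K0 L)),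
            d ∉ n ∧ u ∉ n ∧
            a * d - u * τ ^ e ∈ Ideal.span {algebraMap (↥(H61.A0 A K0)) (H97.chartV (↥(H61.A0 A K0))
            (⟨H93.iotaA (H61.A0 A K0) xA, hx⟩ : modularFunctionFieldFullC K0 L)) π})) :
    H27.ConstCore L A x := by
  intro f hf T hT hU hV
  refine const_core A L ℓ hℓL hA x hChart f hf T hT ?_ ?_
  · intro w₀ S' hS'
    exact hU w₀ S' fun w => (hS' w).trans (and_congr_right fun _ => H87.samePair_iff.symm)
  · intro w₀ S' hS'
    exact hV w₀ S' fun w => (hS' w).trans (and_congr_right fun _ => H87.samePair_iff.symm)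

set_option maxHeartbeats 1600000 in
/-- **(CONST-CORE) for the coordinate `j`** (`ℓ ∤ 6 L`). -/
theorem constCore_j_level (hℓL : ¬ ℓ ∣ L) (hA : A.LiesOverPrime ℓ) (h2 : ℓ ≠ 2) (h3 : ℓ ≠ 3) :
    H27.ConstCore L A (H58.jBar L) :=
  constCore_of_chart A L ℓ hℓL hA _
    ⟨∅, fun K0 hfd _ => by
      have := hfd
      exact chartLit_j A K0 L ℓ hℓL hA h2 h3 (H58.jBar L) rfl⟩

set_option maxHeartbeats 1600000 in
/-- **(CONST-CORE) for the coordinate `t₂`** (`ℓ ∤ 2 L`, `2 ∣ L`). -/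
theorem constCore_two_level (hℓL : ¬ ℓ ∣ L) (hA : A.LiesOverPrime ℓ) (h2 : ℓ ≠ 2) (hL : 2 ∣ L) :
    H27.ConstCore L A (H69.hauptBar2 L hL) :=
  constCore_of_chart A L ℓ hℓL hA _
    ⟨∅, fun K0 hfd _ => by
      have := hfd
      exact chartLit_two A K0 L ℓ hℓL hA h2 hL (H69.hauptBar2 L hL) rfl⟩

set_option maxHeartbeats 1600000 in
/-- **(CONST-CORE) for the coordinate `t₃`** (`ℓ ∤ 3 L`, `3 ∣ L`). -/
theorem constCore_three_level (hℓL : ¬ ℓ ∣ L) (hA : A.LiesOverPrime ℓ) (h3 : ℓ ≠ 3) (hL : 3 ∣ L) :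
    H27.ConstCore L A (H69.hauptBar3 L hL) :=
  constCore_of_chart A L ℓ hℓL hA _
    ⟨∅, fun K0 hfd _ => by
      have := hfd
      exact chartLit_three A K0 L ℓ hℓL hA h3 hL (H69.hauptBar3 L hL) rfl⟩

end Top

/-! ### the three exports in the shapes of `H27.constStmt_of_levels` -/

section Exports

/-- **(CONST-CORE), `ℓ ≠ 2, 3`**: level `N`, coordinate `j`. -/
theorem constCore_j (N ℓ : ℕ) [NeZero N] (hℓ : ℓ.Prime) (hℓN : ¬ ℓ ∣ N) (h2 : ℓ ≠ 2)
    (h3 : ℓ ≠ 3) (A : ValuationSubring (AlgebraicClosure ℚ)) (hA : A.LiesOverPrime ℓ) :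
    H27.ConstCore N A (H58.jBar N) := by
  have : Fact ℓ.Prime := ⟨hℓ⟩
  exact constCore_j_level A N ℓ hℓN hA h2 h3

/-- **(CONST-CORE), `ℓ = 3`**: level `N * 2`, coordinate `t₂`. -/
theorem constCore_two (N : ℕ) [NeZero N] (hN : ¬ 3 ∣ N)
    (A : ValuationSubring (AlgebraicClosure ℚ)) (hA : A.LiesOverPrime 3) :
    H27.ConstCore (N * 2) A (H69.hauptBar2 (N * 2) (dvd_mul_left 2 N)) := by
  have : Fact (Nat.Prime 3) := ⟨Nat.prime_three⟩
  have hL : ¬ 3 ∣ N * 2 := fun h =>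
    ((Nat.Prime.dvd_mul Nat.prime_three).mp h).elim hN (by norm_num)
  exact constCore_two_level A (N * 2) 3 hL hA (by norm_num) (dvd_mul_left 2 N)

/-- **(CONST-CORE), `ℓ = 2`**: level `N * 3`, coordinate `t₃`. -/
theorem constCore_three (N : ℕ) [NeZero N] (hN : ¬ 2 ∣ N)
    (A : ValuationSubring (AlgebraicClosure ℚ)) (hA : A.LiesOverPrime 2) :
    H27.ConstCore (N * 3) A (H69.hauptBar3 (N * 3) (dvd_mul_left 3 N)) := by
  have : Fact (Nat.Prime 2) := ⟨Nat.prime_two⟩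
  have hL : ¬ 2 ∣ N * 3 := fun h =>
    ((Nat.Prime.dvd_mul Nat.prime_two).mp h).elim hN (by norm_num)
  exact constCore_three_level A (N * 3) 2 hL hA (by norm_num) (dvd_mul_left 3 N)

end Exports

end

end Fermat.Agent.S37.H92
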