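import Mathlib
import Fermat.Agent.S37.Gal_helper34
import Fermat.Agent.S37.TransferAlg_helper59

/-!
# S37 node (ES): generic lemmas for the chart instantiation (helper26)

* `norm_isIntegralElem` : the norm of an element integral over `b ∘ f` is integral over `f`;
* `exists_evalAt_of_isIntegralElem` : an element integral over `A[u]` has a value in `A` at a
  place of degree one at which `u` has a value in `A`;
* `pow_sub_one_mem_nonunits`, `eval₂_sub_one_mem_nonunits` : values `≡ 1` modulo `m_A`;
* `frobenius_facts` : the elementary content of `A.IsFrobeniusAt φ ℓ`.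
-/

set_option autoImplicit false

open AlgebraicCurve Polynomial

namespace Fermat.Agent.S37.H26

open Fermat.Agent.S37

noncomputable section

section Norm

/-- The norm (along a field homomorphism `b : K → L`) of an element integral over `b ∘ f` is
integral over `f`. -/
theorem norm_isIntegralElem {R K L : Type*} [CommRing R] [Field K] [Field L] (f : R →+* K)
    (b : K →+* L) {x : L} (hx : (b.comp f).IsIntegralElem x) :
    f.IsIntegralElem (letI := b.toAlgebra; Algebra.norm K x) := by
  let _i1 : Algebra K L := b.toAlgebra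
  let _i2 : Algebra R K := f.toAlgebra
  let _i3 : Algebra R L := (b.comp f).toAlgebra
  have _i4 : IsScalarTower R K L := IsScalarTower.of_algebraMap_eq fun _ => rfl
  exact Algebra.isIntegral_norm K (R := R) (show IsIntegral R x from hx)

end Norm

section Values

variable {K E : Type*} [Field K] [Field E] [Algebra K E]

/-- `u ≡ 1` implies `u ^ n ≡ 1` modulo the maximal ideal. -/
theorem pow_sub_one_mem_nonunits (A : ValuationSubring K) {u : K} (hu : u - 1 ∈ A.nonunits)
    (n : ℕ) : u ^ n - 1 ∈ A.nonunits := by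
  have huA : u ∈ A := by
    have := add_mem (ValuationSubring.nonunits_subset hu : u - 1 ∈ A) A.one_mem
    rwa [sub_add_cancel] at this
  induction n with
  | zero => rw [pow_zero, sub_self]; exact zero_mem _
  | succ n ih =>
    have e : u ^ (n + 1) - 1 = u ^ n * (u - 1) + (u ^ n - 1) := by ring
    rw [e]
    exact add_mem (H34.mul_mem_nonunits (pow_mem huA n) hu) ih

/-- A polynomial over `A` with constant coefficient `1` takes a value `≡ 1` at a point of the
maximal ideal. -/
theorem eval₂_sub_one_mem_nonunits (A : ValuationSubring K) (s : (↥A)[X]) (hs : s.coeff 0 = 1)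
    {c : K} (hc : c ∈ A.nonunits) : eval₂ A.subtype c s - 1 ∈ A.nonunits := by
  have hcA : c ∈ A := ValuationSubring.nonunits_subset hc
  have e : s = s.divX * X + C 1 := by
    rw [← hs]
    exact (divX_mul_X_add s).symm
  have e2 : eval₂ A.subtype c s - 1 = eval₂ A.subtype c s.divX * c := by
    conv_lhs => rw [e]
    rw [eval₂_add, eval₂_mul, eval₂_X, eval₂_C, map_one, add_sub_cancel_right]
  rw [e2]
  refine H34.mul_mem_nonunits ?_ hc
  rw [eval₂_eq_sum_range]
  exact sum_mem fun i _ => mul_mem (SetLike.coe_mem _) (pow_mem hcA i)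

/-- An element integral over `A[u]` has a value in `A` at a place of degree one at which `u` has
a value in `A`. -/
theorem exists_evalAt_of_isIntegralElem (A : ValuationSubring K) (W : Place K E)
    (hdeg : W.deg = 1) {u : E} {cu : K} (hcu : cu ∈ A) (hu : H34.EvalAt W u cu) {z : E}
    (hz : (eval₂RingHom ((algebraMap K E).comp A.subtype) u).IsIntegralElem z) :
    ∃ c ∈ A, H34.EvalAt W z c := by
  set ψ : ↥A →+* E := (algebraMap K E).comp A.subtype with hψ
  have hψO : ∀ a, ψ a ∈ W.toValuationSubring := fun a => W.algebraMap_mem' _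
  have hzO : z ∈ W.toValuationSubring :=
    H59.mem_of_isIntegralElem W.toValuationSubring ψ hψO hu.mem hz
  obtain ⟨c, hc⟩ := H34.exists_evalAt W hdeg hzO
  refine ⟨c, ?_, hc⟩
  obtain ⟨p, hp, hpz⟩ := hz
  -- evaluate the integrality equation at `W`
  have h1 : ∀ r : (↥A)[X], H34.EvalAt W (eval₂RingHom ψ u r) (eval₂RingHom A.subtype cu r) := by
    intro r
    rw [coe_eval₂RingHom, coe_eval₂RingHom]
    exact H34.EvalAt.eval₂ ψ A.subtype (fun a => H34.evalAt_algebraMap W (a : K)) r hu
  have h2 : H34.EvalAt W (eval₂ (eval₂RingHom ψ u) z p) (eval₂ (eval₂RingHom A.subtype cu) c p) :=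
    H34.EvalAt.eval₂ (eval₂RingHom ψ u) (eval₂RingHom A.subtype cu) h1 p hc
  rw [hpz] at h2
  have h3 : eval₂ (eval₂RingHom A.subtype cu) c p = 0 := h2.unique (H34.evalAt_zero W)
  -- `c` is a root of a monic polynomial with coefficients in `A`
  refine H59.mem_of_monic_root A (p.map (eval₂RingHom A.subtype cu)) (hp.map _) ?_ ?_
  · rw [eval_map]; exact h3
  · intro n
    rw [coeff_map, coe_eval₂RingHom, eval₂_eq_sum_range]
    exact sum_mem fun i _ => mul_mem (SetLike.coe_mem _) (pow_mem hcu i)

/-- for an element of `A`: either it lies in the maximal ideal or its inverse lies in `A`. -/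
theorem mem_nonunits_or_inv_mem (A : ValuationSubring K) (c : K) :
    c ∈ A.nonunits ∨ c⁻¹ ∈ A := by
  by_cases h : c⁻¹ ∈ A
  · exact Or.inr h
  · exact Or.inl ((ValuationSubring.mem_nonunits_iff_or A).mpr (Or.inr h))

end Values

section Frobenius

variable {K L : Type*} [Field K] [Field L] [Algebra K L]

/-- The elementary content of `A.IsFrobeniusAt φ ℓ`: `φ` and `φ⁻¹` preserve `A`, and
`φ a ≡ a ^ ℓ` modulo the maximal ideal. -/
theorem frobenius_facts {A : ValuationSubring L} {φ : L ≃ₐ[K] L} {ℓ : ℕ}
    (hφ : A.IsFrobeniusAt φ ℓ) :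
    (∀ a ∈ A, φ a ∈ A) ∧ (∀ a ∈ A, φ.symm a ∈ A) ∧ (∀ a ∈ A, φ a - a ^ ℓ ∈ A.nonunits) := by
  set g : A.decompositionSubgroup K := ⟨φ, hφ.mem_decompositionSubgroup⟩ with hg
  refine ⟨fun a ha => ?_, fun a ha => ?_, fun a ha => ?_⟩
  · exact (g • (⟨a, ha⟩ : A)).2
  · exact (g⁻¹ • (⟨a, ha⟩ : A)).2
  · have h1 : IsLocalRing.residue A (g • (⟨a, ha⟩ : A)) = IsLocalRing.residue A (⟨a, ha⟩ ^ ℓ) := by
      rw [map_pow, ← hφ.smul_residue_eq]
      rfl
    rw [H34.residue_eq_residue_iff] at h1
    exact h1

end Frobenius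

end

end Fermat.Agent.S37.H26
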