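import Mathlib
import Fermat.Prelude.Def_ModularCurve_HeckeOperator
import Fermat.Prelude.Def_ModularCurve_ArithmeticGalois
import Fermat.Agent.S37.Gal_helper34
import Fermat.Agent.S37.Kron_helper17

/-!
# S37 node (ES-val) (helper26)

The congruence `χ_P(z) = χ_(φP)(y) * χ_(φ⁻¹P)(y) ^ ℓ` for a function `z` of level `N` whose
`q`-expansion is `A`-integral with reduction `ȳ(q^ℓ) * Frob(ȳ)` (this is what (CONJ) + (KRON)
give for `z = Norm_β(α y)`), at a place `P` which is finite for a chart ring `B`.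

The chart ring `B` is an arbitrary subring of the function field; what is used about it:
* `hser`  : every `y ∈ B` has an `A`-integral `q`-expansion;
* `hsat`  : (SAT-A) `y ∈ B` with reduction `0` lies in `m_A B`;
* `hgal`, `hgal'` : `B` is stable under the Frobenius `φ` and its inverse;
* a multiplier `h ∈ B` with `h(P) ≡ 1` and `h * z ∈ B` (`h = 1` if `z ∈ B`).
-/

set_option autoImplicit false

open AlgebraicCurve ModularCurve

namespace Fermat.Agent.S37.H26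

open Fermat.Agent.S37 Fermat.Agent.S28

noncomputable section

section Val

variable (N : ℕ) (ℓ : ℕ) [Fact ℓ.Prime] [NeZero ℓ]

/-- a unit of `A` times an element outside `m_A`-congruence: cancel a factor `≡ 1`. -/
theorem mem_nonunits_of_mul_mem_nonunits {K : Type*} [Field K] (A : ValuationSubring K)
    {u x : K} (hu : u - 1 ∈ A.nonunits) (hux : u * x ∈ A.nonunits) : x ∈ A.nonunits := by
  have huA : u ∈ A := by
    have := add_mem (ValuationSubring.nonunits_subset hu : u - 1 ∈ A) A.one_mem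
    rwa [sub_add_cancel] at this
  have hu' : u ∉ A.nonunits := by
    intro h
    have h1 : (1 : K) ∈ A.nonunits := by
      have := sub_mem h hu
      rwa [sub_sub_cancel] at this
    rw [ValuationSubring.mem_nonunits_iff_or] at h1
    rcases h1 with h1 | h1
    · exact one_ne_zero h1
    · exact h1 (by rw [inv_one]; exact A.one_mem)
  rw [ValuationSubring.mem_nonunits_iff_or, not_or, not_not] at hu'
  have e : x = u⁻¹ * (u * x) := by
    rw [← mul_assoc, inv_mul_cancel₀ hu'.1, one_mul]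
  rw [e]
  exact H34.mul_mem_nonunits hu'.2 hux

omit [Fact ℓ.Prime] [NeZero ℓ] in
/-- bookkeeping: the expansion of `h z - h (y₂^ℓ y₁)`. -/
theorem coeffMap_combo (A : ValuationSubring (AlgebraicClosure ℚ))
    (h z y₁ y₂ : ↥(modularFunctionFieldBar N))
    (H G Y₁ Y₂ : LaurentSeries ↥A)
    (hH : coeffMap A.subtype H = (h : LaurentSeries (AlgebraicClosure ℚ)))
    (hG : coeffMap A.subtype G = (z : LaurentSeries (AlgebraicClosure ℚ)))
    (hy₁ : coeffMap A.subtype Y₁ = (y₁ : LaurentSeries (AlgebraicClosure ℚ)))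
    (hy₂ : coeffMap A.subtype Y₂ = (y₂ : LaurentSeries (AlgebraicClosure ℚ))) :
    coeffMap A.subtype (H * G - H * (Y₂ ^ ℓ * Y₁))
      = ((h * z - h * (y₂ ^ ℓ * y₁) : ↥(modularFunctionFieldBar N)) :
          LaurentSeries (AlgebraicClosure ℚ)) := by
  rw [map_sub, map_mul, map_mul, map_mul, map_pow, hH, hG, hy₁, hy₂]
  rfl

/-- **(ES-val), reduction form.**  If `z` has an `A`-integral expansion with reduction
`ȳ(q^ℓ) * Frob(ȳ)`, then `z(P) ≡ y(φP) * y(φ⁻¹P)^ℓ` modulo `m_A`. -/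
theorem es_val_of_red (A : ValuationSubring (AlgebraicClosure ℚ))
    [CharP (IsLocalRing.ResidueField ↥A) ℓ]
    (φ : AlgebraicClosure ℚ ≃ₐ[ℚ] AlgebraicClosure ℚ)
    (hφA : ∀ a ∈ A, φ a ∈ A) (hφA' : ∀ a ∈ A, φ.symm a ∈ A)
    (hfrob : ∀ a ∈ A, φ a - a ^ ℓ ∈ A.nonunits)
    (B : Subring ↥(modularFunctionFieldBar N))
    (hser : ∀ y ∈ B, ∃ Y : LaurentSeries ↥A,
      coeffMap A.subtype Y = ((y : ↥(modularFunctionFieldBar N)) : LaurentSeries (AlgebraicClosure ℚ)))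
    (hsat : ∀ y ∈ B, ∀ Y : LaurentSeries ↥A,
      coeffMap A.subtype Y = ((y : ↥(modularFunctionFieldBar N)) : LaurentSeries (AlgebraicClosure ℚ)) →
      coeffMap (IsLocalRing.residue ↥A) Y = 0 →
      ∃ a ∈ A.nonunits, ∃ y' ∈ B,
        y = algebraMap (AlgebraicClosure ℚ) ↥(modularFunctionFieldBar N) a * y')
    (hgal : ∀ y ∈ B, arithmeticGalois (modularFunctionFieldFull N) φ • y ∈ B)
    (hgal' : ∀ y ∈ B, (arithmeticGalois (modularFunctionFieldFull N) φ)⁻¹ • y ∈ B)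
    (P : Place (AlgebraicClosure ℚ) ↥(modularFunctionFieldBar N)) (hP : H34.IsFin A B P)
    (y : ↥(modularFunctionFieldBar N)) (hy : y ∈ B) (z : ↥(modularFunctionFieldBar N))
    (hz : ∀ Y : LaurentSeries ↥A,
      coeffMap A.subtype Y = (y : LaurentSeries (AlgebraicClosure ℚ)) →
      ∃ G : LaurentSeries ↥A, coeffMap A.subtype G = (z : LaurentSeries (AlgebraicClosure ℚ)) ∧
        coeffMap (IsLocalRing.residue ↥A) G
          = qExpand (IsLocalRing.ResidueField ↥A) ℓ (coeffMap (IsLocalRing.residue ↥A) Y)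
            * coeffMap (frobenius (IsLocalRing.ResidueField ↥A) ℓ)
                (coeffMap (IsLocalRing.residue ↥A) Y))
    (h : ↥(modularFunctionFieldBar N)) (hh : h ∈ B) (ch : AlgebraicClosure ℚ)
    (hch : H34.EvalAt P h ch) (hch1 : ch - 1 ∈ A.nonunits) (hhz : h * z ∈ B)
    (c₀ c₁ c₂ : AlgebraicClosure ℚ) (h₀ : H34.EvalAt P z c₀)
    (h₁ : H34.EvalAt (arithmeticGalois (modularFunctionFieldFull N) φ • P) y c₁)
    (h₂ : H34.EvalAt ((arithmeticGalois (modularFunctionFieldFull N) φ)⁻¹ • P) y c₂)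
    (hc₁ : c₁ ∈ A) (hc₂ : c₂ ∈ A) :
    c₀ - c₁ * c₂ ^ ℓ ∈ A.nonunits := by
  set g := arithmeticGalois (modularFunctionFieldFull N) φ with hg
  obtain ⟨Y, hY⟩ := hser y hy
  obtain ⟨G, hG, hGred⟩ := hz Y hY
  obtain ⟨H, hH⟩ := hser h hh
  -- restrictions of `φ`, `φ⁻¹` to `A`
  let φA : ↥A →+* ↥A :=
    ((φ : AlgebraicClosure ℚ →+* AlgebraicClosure ℚ).comp A.subtype).codRestrict A.toSubring
      (fun a => hφA a a.2)
  let φA' : ↥A →+* ↥A :=
    ((φ.symm : AlgebraicClosure ℚ →+* AlgebraicClosure ℚ).comp A.subtype).codRestrict A.toSubring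
      (fun a => hφA' a a.2)
  have hφAcoe : ∀ a : ↥A, ((φA a : ↥A) : AlgebraicClosure ℚ) = φ (a : AlgebraicClosure ℚ) :=
    fun a => rfl
  have hφA'coe : ∀ a : ↥A, ((φA' a : ↥A) : AlgebraicClosure ℚ) = φ.symm (a : AlgebraicClosure ℚ) :=
    fun a => rfl
  -- expansions of `g • y` and `g⁻¹ • y`
  have hy₁ : coeffMap A.subtype (coeffMap φA Y)
      = ((g • y : ↥(modularFunctionFieldBar N)) : LaurentSeries (AlgebraicClosure ℚ)) := by
    rw [hg, coe_arithmeticGalois_smul, ← hY, coeffMap_coeffMap, coeffMap_coeffMap]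
    exact coeffMap_congr (RingHom.ext fun a => rfl) Y
  have hy₂ : coeffMap A.subtype (coeffMap φA' Y)
      = ((g⁻¹ • y : ↥(modularFunctionFieldBar N)) : LaurentSeries (AlgebraicClosure ℚ)) := by
    rw [hg, ← map_inv, coe_arithmeticGalois_smul, ← hY, coeffMap_coeffMap, coeffMap_coeffMap]
    exact coeffMap_congr (RingHom.ext fun a => rfl) Y
  -- reductions
  have hresφ : ∀ a : ↥A, IsLocalRing.residue ↥A (φA a) = (IsLocalRing.residue ↥A a) ^ ℓ := by
    intro a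
    rw [← map_pow, H34.residue_eq_residue_iff]
    have := hfrob a a.2
    simpa [hφAcoe] using this
  have hres₁ : coeffMap (IsLocalRing.residue ↥A) (coeffMap φA Y)
      = coeffMap (frobenius (IsLocalRing.ResidueField ↥A) ℓ)
          (coeffMap (IsLocalRing.residue ↥A) Y) := by
    rw [coeffMap_coeffMap, coeffMap_coeffMap]
    refine coeffMap_congr (RingHom.ext fun a => ?_) Y
    simp only [RingHom.comp_apply, frobenius_def]
    exact hresφ a
  have hres₂ : coeffMap (IsLocalRing.residue ↥A) (coeffMap φA' Y) ^ ℓ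
      = qExpand (IsLocalRing.ResidueField ↥A) ℓ (coeffMap (IsLocalRing.residue ↥A) Y) := by
    rw [H55.pow_char_eq_qExpand_coeffMap_frobenius ℓ, coeffMap_coeffMap, coeffMap_coeffMap]
    congr 1
    refine coeffMap_congr (RingHom.ext fun a => ?_) Y
    simp only [RingHom.comp_apply, frobenius_def]
    rw [← hresφ (φA' a)]
    congr 1
    apply Subtype.ext
    rw [hφAcoe, hφA'coe, AlgEquiv.apply_symm_apply]
  -- the difference
  have hdB : h * z - h * ((g⁻¹ • y) ^ ℓ * (g • y)) ∈ B :=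
    B.sub_mem hhz (B.mul_mem hh (B.mul_mem (B.pow_mem (hgal' y hy) ℓ) (hgal y hy)))
  have hD : coeffMap A.subtype (H * G - H * (coeffMap φA' Y ^ ℓ * coeffMap φA Y))
      = ((h * z - h * ((g⁻¹ • y) ^ ℓ * (g • y)) : ↥(modularFunctionFieldBar N)) :
          LaurentSeries (AlgebraicClosure ℚ)) :=
    coeffMap_combo N ℓ A h z (g • y) (g⁻¹ • y) H G _ _ hH hG hy₁ hy₂
  have hDred : coeffMap (IsLocalRing.residue ↥A)
      (H * G - H * (coeffMap φA' Y ^ ℓ * coeffMap φA Y)) = 0 := by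
    rw [map_sub, map_mul, map_mul, map_mul, map_pow, hGred, hres₁, hres₂, sub_self]
  obtain ⟨a, ha, d', hd', hdd'⟩ := hsat _ hdB _ hD hDred
  -- values at `P`
  obtain ⟨e, he, hev⟩ := hP d' hd'
  have hv₁ : H34.EvalAt P (g • y) (φ c₂) := by
    have := h₂.smul g
    rwa [smul_inv_smul] at this
  have hv₂ : H34.EvalAt P (g⁻¹ • y) (φ.symm c₁) := by
    have := h₁.smul g⁻¹
    rwa [inv_smul_smul] at this
  have hvd : H34.EvalAt P (h * z - h * ((g⁻¹ • y) ^ ℓ * (g • y)))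
      (ch * c₀ - ch * ((φ.symm c₁) ^ ℓ * φ c₂)) :=
    (hch.mul h₀).sub (hch.mul ((hv₂.pow ℓ).mul hv₁))
  have hvd' : H34.EvalAt P (h * z - h * ((g⁻¹ • y) ^ ℓ * (g • y))) (a * e) := by
    rw [hdd']
    exact (H34.evalAt_algebraMap P a).mul hev
  have heq := hvd.unique hvd'
  have hae : a * e ∈ A.nonunits := by
    rw [mul_comm]
    exact H34.mul_mem_nonunits he ha
  have hx : c₀ - (φ.symm c₁) ^ ℓ * φ c₂ ∈ A.nonunits := by
    refine mem_nonunits_of_mul_mem_nonunits A hch1 ?_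
    rw [mul_sub, heq]
    exact hae
  -- Frobenius congruences for the values
  have hu : φ.symm c₁ ∈ A := hφA' c₁ hc₁
  have hf₁ : c₁ - (φ.symm c₁) ^ ℓ ∈ A.nonunits := by
    have := hfrob _ hu
    rwa [AlgEquiv.apply_symm_apply] at this
  have hf₂ : φ c₂ - c₂ ^ ℓ ∈ A.nonunits := hfrob c₂ hc₂
  have h3 : (φ.symm c₁) ^ ℓ * φ c₂ - c₁ * c₂ ^ ℓ ∈ A.nonunits := by
    have e1 : (φ.symm c₁) ^ ℓ * φ c₂ - c₁ * c₂ ^ ℓ
        = c₁ * (φ c₂ - c₂ ^ ℓ) - φ c₂ * (c₁ - (φ.symm c₁) ^ ℓ) := by ring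
    rw [e1]
    exact sub_mem (H34.mul_mem_nonunits hc₁ hf₂) (H34.mul_mem_nonunits (hφA c₂ hc₂) hf₁)
  have := add_mem hx h3
  rwa [sub_add_sub_cancel] at this

/-- **(ES-val).**  `hconj` is the output of (CONJ) for `z = Norm_β(α y)`; (KRON) is
`H17.kron_valuationSubring`. -/
theorem es_val [NeZero (ℓ * ℓ)] (A : ValuationSubring (AlgebraicClosure ℚ))
    [CharP (IsLocalRing.ResidueField ↥A) ℓ]
    (φ : AlgebraicClosure ℚ ≃ₐ[ℚ] AlgebraicClosure ℚ)
    (hφA : ∀ a ∈ A, φ a ∈ A) (hφA' : ∀ a ∈ A, φ.symm a ∈ A)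
    (hfrob : ∀ a ∈ A, φ a - a ^ ℓ ∈ A.nonunits)
    (ζ : (AlgebraicClosure ℚ)ˣ) (hζ : ζ ^ ℓ = 1)
    (B : Subring ↥(modularFunctionFieldBar N))
    (hser : ∀ y ∈ B, ∃ Y : LaurentSeries ↥A,
      coeffMap A.subtype Y = ((y : ↥(modularFunctionFieldBar N)) : LaurentSeries (AlgebraicClosure ℚ)))
    (hsat : ∀ y ∈ B, ∀ Y : LaurentSeries ↥A,
      coeffMap A.subtype Y = ((y : ↥(modularFunctionFieldBar N)) : LaurentSeries (AlgebraicClosure ℚ)) →
      coeffMap (IsLocalRing.residue ↥A) Y = 0 →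
      ∃ a ∈ A.nonunits, ∃ y' ∈ B,
        y = algebraMap (AlgebraicClosure ℚ) ↥(modularFunctionFieldBar N) a * y')
    (hgal : ∀ y ∈ B, arithmeticGalois (modularFunctionFieldFull N) φ • y ∈ B)
    (hgal' : ∀ y ∈ B, (arithmeticGalois (modularFunctionFieldFull N) φ)⁻¹ • y ∈ B)
    (P : Place (AlgebraicClosure ℚ) ↥(modularFunctionFieldBar N)) (hP : H34.IsFin A B P)
    (y : ↥(modularFunctionFieldBar N)) (hy : y ∈ B) (z : ↥(modularFunctionFieldBar N))
    (hconj : qExpand (AlgebraicClosure ℚ) ℓ (z : LaurentSeries (AlgebraicClosure ℚ))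
      = qExpand (AlgebraicClosure ℚ) (ℓ * ℓ) (y : LaurentSeries (AlgebraicClosure ℚ))
        * ∏ b ∈ Finset.range ℓ, H20.twist (ζ ^ b) (y : LaurentSeries (AlgebraicClosure ℚ)))
    (h : ↥(modularFunctionFieldBar N)) (hh : h ∈ B) (ch : AlgebraicClosure ℚ)
    (hch : H34.EvalAt P h ch) (hch1 : ch - 1 ∈ A.nonunits) (hhz : h * z ∈ B)
    (c₀ c₁ c₂ : AlgebraicClosure ℚ) (h₀ : H34.EvalAt P z c₀)
    (h₁ : H34.EvalAt (arithmeticGalois (modularFunctionFieldFull N) φ • P) y c₁)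
    (h₂ : H34.EvalAt ((arithmeticGalois (modularFunctionFieldFull N) φ)⁻¹ • P) y c₂)
    (hc₁ : c₁ ∈ A) (hc₂ : c₂ ∈ A) :
    c₀ - c₁ * c₂ ^ ℓ ∈ A.nonunits := by
  refine es_val_of_red N ℓ A φ hφA hφA' hfrob B hser hsat hgal hgal' P hP y hy z ?_ h hh ch hch
    hch1 hhz c₀ c₁ c₂ h₀ h₁ h₂ hc₁ hc₂
  intro Y hY
  refine H17.kron_valuationSubring ℓ A ζ hζ Y _ ?_
  rw [hY]
  exact hconj

end Val

end

end Fermat.Agent.S37.H26
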