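import Mathlib
import Fermat.Prelude.Def_ModularCurve_HeckeOperator
import Fermat.Prelude.Def_ModularCurve_ArithmeticGalois
import Fermat.Agent.S18.ConstK_helper2
import Fermat.Agent.S18.ValRing_helper86
import Fermat.Agent.S37.SatA_helper58
import Fermat.Agent.S37.PhiInt_helper20
import Fermat.Agent.S37.Conj_helper16
import Fermat.Agent.S37.ESCore_helper26
import Fermat.Agent.S37.ESVal_helper26
import Fermat.Agent.S37.ESGen_helper26

/-!
# S37 node (ES): the Eichler–Shimura congruence relation on the two `j`-charts (helper26)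

`B := H58.chartRing A N (H58.jBar N)` (integral closure of `A[j]` in `Qbar(X₀(N))`),
`Boo := H58.chartRing A N (H58.jBar N)⁻¹`, `g := arithmeticGalois (modularFunctionFieldFull N) φ`
for a Frobenius element `φ` at `A`.

* `es_chart_j`    : for a `B`-finite place `P`,
  `T_ℓ(P) - g • P - ℓ • g⁻¹ • P` is a sum of differences of `B`-finite places with the same residue
  character;
* `es_chart_jInv` : the same with `Boo` for a `j`-infinite place `P` (`IsInf`).

The norm specialisation (VAL) along `β` enters as the hypothesis `hval`.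
-/

set_option autoImplicit false

open AlgebraicCurve ModularCurve Polynomial

namespace Fermat.Agent.S37.H26

open Fermat.Agent.S37 Fermat.Agent.S18 Fermat.Agent.S28

noncomputable section

local notation "Qb" => AlgebraicClosure ℚ

/-! ### Chart homomorphisms and algebra maps -/

section ChartMaps

variable (A : ValuationSubring Qb) (N M : ℕ)

/-- an algebra map between the function fields intertwines the chart homomorphisms. -/
theorem algHom_comp_chartHom
    (θ : ↥(modularFunctionFieldBar N) →ₐ[Qb] ↥(modularFunctionFieldBar M))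
    (x : ↥(modularFunctionFieldBar N)) :
    (θ : ↥(modularFunctionFieldBar N) →+* ↥(modularFunctionFieldBar M)).comp (H58.chartHom A N x)
      = eval₂RingHom (H58.constHom A M) (θ x) := by
  refine Polynomial.ringHom_ext (fun a => ?_) ?_
  · simp only [RingHom.comp_apply, H58.chartHom_C, coe_eval₂RingHom, eval₂_C, RingHom.coe_coe]
    rw [H58.constHom_apply, H58.constHom_apply, AlgHom.commutes]
  · simp only [RingHom.comp_apply, H58.chartHom_X, coe_eval₂RingHom, eval₂_X, RingHom.coe_coe]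

/-- the image under an algebra map of an element of a chart ring is integral over the image
chart. -/
theorem isIntegralElem_map_chart
    (θ : ↥(modularFunctionFieldBar N) →ₐ[Qb] ↥(modularFunctionFieldBar M))
    {x y : ↥(modularFunctionFieldBar N)} (hy : y ∈ H58.chartRing A N x) :
    (eval₂RingHom (H58.constHom A M) (θ x)).IsIntegralElem (θ y) := by
  have h := RingHom.IsIntegralElem.map hy
    (θ : ↥(modularFunctionFieldBar N) →+* ↥(modularFunctionFieldBar M))
  rwa [algHom_comp_chartHom] at h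

theorem jBar_ne_zero : H58.jBar N ≠ 0 := by
  intro h
  have h1 : ((H58.jBar N : ↥(modularFunctionFieldBar N)) : LaurentSeries Qb).coeff (-1) = 1 := by
    rw [H58.coe_jBar]
    exact H20.coeff_jqModC_neg_one Qb
  rw [h] at h1
  simp at h1

end ChartMaps

/-! ### The modular equation on the two charts -/

section PhiInt

variable (A : ValuationSubring Qb) (N ℓ : ℕ) [NeZero N] [NeZero ℓ]

/-- the norm along `β = heckeBetaBar` -/
abbrev normBeta (z : ↥(modularFunctionFieldBar (N * ℓ))) : ↥(modularFunctionFieldBar N) :=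
  letI := algebraAlong (heckeBetaBar Qb N ℓ)
  Algebra.norm ↥(modularFunctionFieldBar N) z

/-- **(PHI-INT) at `(α j, β j)`**: `α j` is integral over `A[β j]`, `β j` over `A[α j]`, and
`s(β j⁻¹) * α j⁻¹` is integral over `A[β j⁻¹]` for a polynomial `s = 1 + X (…)` over `A`. -/
theorem phiInt_inst (hℓ : ℓ.Prime) :
    ∃ s : (↥A)[X], s.coeff 0 = 1 ∧
      (eval₂RingHom (H58.constHom A (N * ℓ)) (heckeBetaBar Qb N ℓ (H58.jBar N))).IsIntegralElem
        (heckeAlphaBar Qb N ℓ (H58.jBar N)) ∧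
      (eval₂RingHom (H58.constHom A (N * ℓ)) (heckeAlphaBar Qb N ℓ (H58.jBar N))).IsIntegralElem
        (heckeBetaBar Qb N ℓ (H58.jBar N)) ∧
      (eval₂RingHom (H58.constHom A (N * ℓ)) (heckeBetaBar Qb N ℓ (H58.jBar N)⁻¹)).IsIntegralElem
        (eval₂ (H58.constHom A (N * ℓ)) (heckeBetaBar Qb N ℓ (H58.jBar N)⁻¹) s
          * heckeAlphaBar Qb N ℓ (H58.jBar N)⁻¹) := by
  have hℓ0 : ((ℓ : ℕ) : Qb) ≠ 0 := Nat.cast_ne_zero.mpr hℓ.ne_zero
  obtain ⟨u, Φ, s, -, -, -, -, hs, H⟩ := H20.exists_phiInt_of_isAlgClosed A ℓ hℓ hℓ0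
  have hj := jBar_ne_zero N
  obtain ⟨-, -, h3, h4, h5⟩ := H ↥(modularFunctionFieldBar (N * ℓ)) (H58.constHom A (N * ℓ))
    ((modularFunctionFieldBar (N * ℓ)).val : ↥(modularFunctionFieldBar (N * ℓ)) →+*
      LaurentSeries Qb)
    Subtype.val_injective (fun a => rfl)
    (heckeAlphaBar Qb N ℓ (H58.jBar N)) (heckeBetaBar Qb N ℓ (H58.jBar N)) rfl rfl
  have h6 := h5 (heckeAlphaBar Qb N ℓ (H58.jBar N)⁻¹) (heckeBetaBar Qb N ℓ (H58.jBar N)⁻¹)
    (by rw [← map_mul, inv_mul_cancel₀ hj, map_one])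
    (by rw [← map_mul, inv_mul_cancel₀ hj, map_one])
  exact ⟨s, hs, h3, h4, h6.1⟩

end PhiInt

/-! ### Norms of chart elements -/

section NormChart

variable (A : ValuationSubring Qb) (N ℓ : ℕ) [NeZero N] [NeZero ℓ]

/-- **`N'(y) ∈ B` for `y ∈ B`** (chart `j`). -/
theorem norm_mem_chartRing_j (hℓ : ℓ.Prime) {y : ↥(modularFunctionFieldBar N)}
    (hy : y ∈ H58.chartRing A N (H58.jBar N)) :
    normBeta N ℓ (heckeAlphaBar Qb N ℓ y) ∈ H58.chartRing A N (H58.jBar N) := by
  obtain ⟨s, -, h3, -, -⟩ := phiInt_inst A N ℓ hℓ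
  have h1 := isIntegralElem_map_chart A N (N * ℓ) (heckeAlphaBar Qb N ℓ) hy
  have h2 := H59.isIntegralElem_trans (H58.constHom A (N * ℓ)) h3 h1
  rw [← algHom_comp_chartHom A N (N * ℓ) (heckeBetaBar Qb N ℓ) (H58.jBar N)] at h2
  exact norm_isIntegralElem (H58.chartHom A N (H58.jBar N))
    ((heckeBetaBar Qb N ℓ : ↥(modularFunctionFieldBar N) →ₐ[Qb]
      ↥(modularFunctionFieldBar (N * ℓ))) : ↥(modularFunctionFieldBar N) →+*
      ↥(modularFunctionFieldBar (N * ℓ))) h2

/-- **The multiplier on the chart at infinity**: there is `s = 1 + X (…)` over `A` such that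
for every `y ∈ Boo` some power of `h0 := s(1/j)` multiplies `N'(y)` into `Boo`. -/
theorem exists_mult_jInv (hℓ : ℓ.Prime) :
    ∃ s : (↥A)[X], s.coeff 0 = 1 ∧ ∀ y ∈ H58.chartRing A N (H58.jBar N)⁻¹, ∃ M : ℕ,
      H58.chartHom A N (H58.jBar N)⁻¹ s ^ M * normBeta N ℓ (heckeAlphaBar Qb N ℓ y)
        ∈ H58.chartRing A N (H58.jBar N)⁻¹ := by
  obtain ⟨s, hs, -, -, h5⟩ := phiInt_inst A N ℓ hℓ
  refine ⟨s, hs, fun y hy => ?_⟩
  have h1 := isIntegralElem_map_chart A N (N * ℓ) (heckeAlphaBar Qb N ℓ) hy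
  obtain ⟨M, hM⟩ := H20.exists_pow_mul_isIntegralElem (H58.constHom A (N * ℓ)) _ _ s h5 _ h1
  have hcomp := algHom_comp_chartHom A N (N * ℓ) (heckeBetaBar Qb N ℓ) (H58.jBar N)⁻¹
  rw [← hcomp] at hM
  have hn := norm_isIntegralElem (H58.chartHom A N (H58.jBar N)⁻¹)
    ((heckeBetaBar Qb N ℓ : ↥(modularFunctionFieldBar N) →ₐ[Qb]
      ↥(modularFunctionFieldBar (N * ℓ))) : ↥(modularFunctionFieldBar N) →+*
      ↥(modularFunctionFieldBar (N * ℓ))) hM
  -- rewrite the norm
  have he : eval₂ (H58.constHom A (N * ℓ)) (heckeBetaBar Qb N ℓ (H58.jBar N)⁻¹) s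
      = heckeBetaBar Qb N ℓ (H58.chartHom A N (H58.jBar N)⁻¹ s) := by
    have := congrArg (fun f : (↥A)[X] →+* ↥(modularFunctionFieldBar (N * ℓ)) => f s) hcomp
    simpa using this.symm
  let _i : Algebra ↥(modularFunctionFieldBar N) ↥(modularFunctionFieldBar (N * ℓ)) :=
    algebraAlong (heckeBetaBar Qb N ℓ)
  refine ⟨M * Module.finrank ↥(modularFunctionFieldBar N) ↥(modularFunctionFieldBar (N * ℓ)), ?_⟩
  have hnorm : Algebra.norm ↥(modularFunctionFieldBar N)
      (eval₂ (H58.constHom A (N * ℓ)) (heckeBetaBar Qb N ℓ (H58.jBar N)⁻¹) s ^ M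
        * heckeAlphaBar Qb N ℓ y)
      = H58.chartHom A N (H58.jBar N)⁻¹ s
          ^ (M * Module.finrank ↥(modularFunctionFieldBar N) ↥(modularFunctionFieldBar (N * ℓ)))
        * Algebra.norm ↥(modularFunctionFieldBar N) (heckeAlphaBar Qb N ℓ y) := by
    rw [map_mul, map_pow, he]
    have h7 : Algebra.norm ↥(modularFunctionFieldBar N)
        (heckeBetaBar Qb N ℓ (H58.chartHom A N (H58.jBar N)⁻¹ s))
        = H58.chartHom A N (H58.jBar N)⁻¹ s
          ^ Module.finrank ↥(modularFunctionFieldBar N) ↥(modularFunctionFieldBar (N * ℓ)) :=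
      Algebra.norm_algebraMap (S := ↥(modularFunctionFieldBar (N * ℓ)))
        (H58.chartHom A N (H58.jBar N)⁻¹ s)
    rw [h7, ← pow_mul, mul_comm M]
  rw [← hnorm]
  exact hn

end NormChart

/-! ### Finite and infinite places -/

section Places

variable (A : ValuationSubring Qb) (N ℓ : ℕ) [NeZero N] [NeZero ℓ]

/-- `P` is `j`-infinite with respect to `A`: `1/j` has a value in the maximal ideal of `A`. -/
def IsInf (P : Place Qb ↥(modularFunctionFieldBar N)) : Prop :=
  ∃ c ∈ A.nonunits, H34.EvalAt P (H58.jBar N)⁻¹ c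

variable {A N}

/-- a place at which the chart coordinate has a value in `A` is finite for the chart ring. -/
theorem isFin_of_evalAt {x : ↥(modularFunctionFieldBar N)}
    {P : Place Qb ↥(modularFunctionFieldBar N)} {c : Qb} (hc : c ∈ A)
    (h : H34.EvalAt P x c) : H34.IsFin A (H58.chartRing A N x) P := fun _ hy =>
  exists_evalAt_of_isIntegralElem A P (H2.deg_bar N P) hc h hy

/-- a `j`-infinite place is finite for the chart ring at infinity. -/
theorem isFin_of_isInf {P : Place Qb ↥(modularFunctionFieldBar N)} (hP : IsInf A N P) :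
    H34.IsFin A (H58.chartRing A N (H58.jBar N)⁻¹) P := by
  obtain ⟨c, hc, h⟩ := hP
  exact isFin_of_evalAt (ValuationSubring.nonunits_subset hc) h

variable (A N)

/-- **`B`-finiteness passes from `W|β` to `W|α`.** -/
theorem isFin_restrict_alpha_j (hℓ : ℓ.Prime) (hα : HeckeAlphaBarIntegral Qb N ℓ)
    (hβ : HeckeBetaBarIntegral Qb N ℓ) (W : Place Qb ↥(modularFunctionFieldBar (N * ℓ)))
    (hW : H34.IsFin A (H58.chartRing A N (H58.jBar N)) (W.restrictAlong (heckeBetaBar Qb N ℓ) hβ)) :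
    H34.IsFin A (H58.chartRing A N (H58.jBar N)) (W.restrictAlong (heckeAlphaBar Qb N ℓ) hα) := by
  obtain ⟨s, -, h3, -, -⟩ := phiInt_inst A N ℓ hℓ
  obtain ⟨cj, hcj, hj'⟩ := hW _ (H58.self_mem_chartRing A N (H58.jBar N))
  have hj := (evalAt_restrictAlong_iff _ hβ W _ _).mp hj'
  intro y hy
  have h1 := isIntegralElem_map_chart A N (N * ℓ) (heckeAlphaBar Qb N ℓ) hy
  have h2 := H59.isIntegralElem_trans (H58.constHom A (N * ℓ)) h3 h1
  obtain ⟨c, hc, hev⟩ := exists_evalAt_of_isIntegralElem A W (H2.deg_bar (N * ℓ) W) hcj hj h2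
  exact ⟨c, hc, (evalAt_restrictAlong_iff _ hα W y c).mpr hev⟩

/-- **`j`-infiniteness passes from `W|β` to `W|α`.** -/
theorem isInf_restrict_alpha (hℓ : ℓ.Prime) (hα : HeckeAlphaBarIntegral Qb N ℓ)
    (hβ : HeckeBetaBarIntegral Qb N ℓ) (W : Place Qb ↥(modularFunctionFieldBar (N * ℓ)))
    (hW : IsInf A N (W.restrictAlong (heckeBetaBar Qb N ℓ) hβ)) :
    IsInf A N (W.restrictAlong (heckeAlphaBar Qb N ℓ) hα) := by
  obtain ⟨s, hs, -, h4, h5⟩ := phiInt_inst A N ℓ hℓ
  obtain ⟨c₀, hc₀, h0'⟩ := hW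
  have h0 := (evalAt_restrictAlong_iff _ hβ W _ _).mp h0'
  have hc₀A : c₀ ∈ A := ValuationSubring.nonunits_subset hc₀
  have hj := jBar_ne_zero N
  have h1A : (1 : Qb) ∉ A.nonunits := by
    rw [ValuationSubring.mem_nonunits_iff_or]
    rintro (h | h)
    · exact one_ne_zero h
    · exact h (by rw [inv_one]; exact A.one_mem)
  -- the value of `s(β j⁻¹)`
  have hσ : H34.EvalAt W (eval₂ (H58.constHom A (N * ℓ)) (heckeBetaBar Qb N ℓ (H58.jBar N)⁻¹) s)
      (eval₂ A.subtype c₀ s) :=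
    H34.EvalAt.eval₂ (H58.constHom A (N * ℓ)) A.subtype
      (fun a => H34.evalAt_algebraMap W (a : Qb)) s h0
  have hcs := eval₂_sub_one_mem_nonunits A s hs hc₀
  have hcsA : eval₂ A.subtype c₀ s ∈ A := by
    have := add_mem (ValuationSubring.nonunits_subset hcs : _ ∈ A) A.one_mem
    rwa [sub_add_cancel] at this
  have hcs' : eval₂ A.subtype c₀ s ∉ A.nonunits := by
    intro h
    apply h1A
    have := sub_mem h hcs
    rwa [sub_sub_cancel] at this
  rw [ValuationSubring.mem_nonunits_iff_or, not_or, not_not] at hcs'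
  -- the value of `t = s(β j⁻¹) * α j⁻¹`
  obtain ⟨ct, hct, ht⟩ := exists_evalAt_of_isIntegralElem A W (H2.deg_bar (N * ℓ) W) hc₀A h0 h5
  have hσ0 : eval₂ (H58.constHom A (N * ℓ)) (heckeBetaBar Qb N ℓ (H58.jBar N)⁻¹) s ≠ 0 := by
    intro h
    rw [h] at hσ
    exact hcs'.1 (hσ.unique (H34.evalAt_zero W))
  have hx : H34.EvalAt W (heckeAlphaBar Qb N ℓ (H58.jBar N)⁻¹)
      ((eval₂ A.subtype c₀ s)⁻¹ * ct) := by
    have := (hσ.inv hcs'.1).mul ht
    rwa [← mul_assoc, inv_mul_cancel₀ hσ0, one_mul] at this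
  refine ⟨(eval₂ A.subtype c₀ s)⁻¹ * ct, ?_, (evalAt_restrictAlong_iff _ hα W _ _).mpr hx⟩
  set c := (eval₂ A.subtype c₀ s)⁻¹ * ct with hc
  by_cases hc0 : c = 0
  · rw [hc0]; exact zero_mem _
  rcases mem_nonunits_or_inv_mem A c with h | h
  · exact h
  · exfalso
    -- `α j` has the value `c⁻¹ ∈ A`, hence `β j` has a value in `A`
    have hxj : H34.EvalAt W (heckeAlphaBar Qb N ℓ (H58.jBar N)) c⁻¹ := by
      have := hx.inv hc0
      rwa [← map_inv₀, inv_inv] at this
    obtain ⟨cy, hcy, hy⟩ := exists_evalAt_of_isIntegralElem A W (H2.deg_bar (N * ℓ) W) h hxj h4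
    have h1 : H34.EvalAt W (1 : ↥(modularFunctionFieldBar (N * ℓ))) (cy * c₀) := by
      have := hy.mul h0
      rwa [← map_mul, mul_inv_cancel₀ hj, map_one] at this
    have h2 : cy * c₀ = 1 := h1.unique (H34.evalAt_one W)
    apply h1A
    rw [← h2]
    exact H34.mul_mem_nonunits hcy hc₀

end Places

/-! ### Galois action on the charts -/

section Galois

/-- an automorphism whose inverse preserves `A` preserves the maximal ideal of `A`. -/
theorem algEquiv_mem_nonunits {K L : Type*} [Field K] [Field L] [Algebra K L]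
    (A : ValuationSubring L) (φ : L ≃ₐ[K] L) (hφ' : ∀ a ∈ A, φ.symm a ∈ A) {c : L}
    (hc : c ∈ A.nonunits) : φ c ∈ A.nonunits := by
  rw [ValuationSubring.mem_nonunits_iff_or] at hc ⊢
  rcases hc with rfl | hc
  · left; exact map_zero φ
  · right
    intro h
    apply hc
    have := hφ' _ h
    rwa [← map_inv₀, AlgEquiv.symm_apply_apply] at this

variable (A : ValuationSubring Qb) (N : ℕ)

/-- chart rings of Galois-fixed coordinates are stable under the decomposition group. -/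
theorem smul_mem_chartRing {φ : Qb ≃ₐ[ℚ] Qb} (hdec : φ ∈ A.decompositionSubgroup ℚ)
    (x : ↥(modularFunctionFieldBar N))
    (hx : ∀ σ : Qb ≃ₐ[ℚ] Qb, arithmeticRingAut (modularFunctionFieldFull N) σ x = x)
    {y : ↥(modularFunctionFieldBar N)} (hy : y ∈ H58.chartRing A N x) :
    arithmeticGalois (modularFunctionFieldFull N) φ • y ∈ H58.chartRing A N x :=
  H58.arithmeticRingAut_mem_chartRing A N ⟨φ, hdec⟩ x (hx φ) hy

theorem inv_smul_mem_chartRing {φ : Qb ≃ₐ[ℚ] Qb} (hdec : φ ∈ A.decompositionSubgroup ℚ)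
    (x : ↥(modularFunctionFieldBar N))
    (hx : ∀ σ : Qb ≃ₐ[ℚ] Qb, arithmeticRingAut (modularFunctionFieldFull N) σ x = x)
    {y : ↥(modularFunctionFieldBar N)} (hy : y ∈ H58.chartRing A N x) :
    (arithmeticGalois (modularFunctionFieldFull N) φ)⁻¹ • y ∈ H58.chartRing A N x := by
  have h := H58.arithmeticRingAut_mem_chartRing A N (⟨φ, hdec⟩⁻¹ : A.decompositionSubgroup ℚ) x
    (hx _) hy
  rw [← map_inv]
  exact h

/-- the frozen Galois action on a function, as the coefficientwise ring automorphism. -/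
theorem galois_smul_eq_of_fixed {φ : Qb ≃ₐ[ℚ] Qb} {x : ↥(modularFunctionFieldBar N)}
    (hx : arithmeticRingAut (modularFunctionFieldFull N) φ x = x) :
    arithmeticGalois (modularFunctionFieldFull N) φ • x = x := by
  rw [SemilinearAut.smul_def, toRingAut_arithmeticGalois]
  exact hx

theorem galois_inv_smul_eq_of_fixed {φ : Qb ≃ₐ[ℚ] Qb} {x : ↥(modularFunctionFieldBar N)}
    (hx : arithmeticRingAut (modularFunctionFieldFull N) φ⁻¹ x = x) :
    (arithmeticGalois (modularFunctionFieldFull N) φ)⁻¹ • x = x := by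
  rw [← map_inv]
  exact galois_smul_eq_of_fixed N hx

/-- `j`-infiniteness is preserved by an automorphism preserving `A` in both directions. -/
theorem isInf_smul {φ : Qb ≃ₐ[ℚ] Qb} (hφA' : ∀ a ∈ A, φ.symm a ∈ A)
    {P : Place Qb ↥(modularFunctionFieldBar N)} (hP : IsInf A N P) :
    IsInf A N (arithmeticGalois (modularFunctionFieldFull N) φ • P) := by
  obtain ⟨c, hc, h⟩ := hP
  refine ⟨φ c, algEquiv_mem_nonunits A φ hφA' hc, ?_⟩
  have h1 := h.smul (arithmeticGalois (modularFunctionFieldFull N) φ)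
  rw [galois_smul_eq_of_fixed N (H58.arithmeticRingAut_jBar_inv N φ)] at h1
  exact h1

theorem isInf_inv_smul {φ : Qb ≃ₐ[ℚ] Qb} (hφA : ∀ a ∈ A, φ a ∈ A)
    {P : Place Qb ↥(modularFunctionFieldBar N)} (hP : IsInf A N P) :
    IsInf A N ((arithmeticGalois (modularFunctionFieldFull N) φ)⁻¹ • P) := by
  obtain ⟨c, hc, h⟩ := hP
  refine ⟨φ.symm c, algEquiv_mem_nonunits A φ.symm (fun a ha => hφA a ha) hc, ?_⟩
  have h1 := h.smul (arithmeticGalois (modularFunctionFieldFull N) φ)⁻¹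
  rw [galois_inv_smul_eq_of_fixed N (H58.arithmeticRingAut_jBar_inv N φ⁻¹)] at h1
  exact h1

/-- the value of the multiplier `s(1/j) ^ M` at a `j`-infinite place is `≡ 1`. -/
theorem evalAt_mult (s : (↥A)[X]) (hs : s.coeff 0 = 1) (M : ℕ)
    {P : Place Qb ↥(modularFunctionFieldBar N)} (hP : IsInf A N P) :
    ∃ ch : Qb, H34.EvalAt P (H58.chartHom A N (H58.jBar N)⁻¹ s ^ M) ch ∧ ch - 1 ∈ A.nonunits := by
  obtain ⟨c, hc, h⟩ := hP
  refine ⟨eval₂ A.subtype c s ^ M, ?_,
    pow_sub_one_mem_nonunits A (eval₂_sub_one_mem_nonunits A s hs hc) M⟩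
  have h1 : H34.EvalAt P (H58.chartHom A N (H58.jBar N)⁻¹ s) (eval₂ A.subtype c s) := by
    unfold H58.chartHom
    rw [coe_eval₂RingHom]
    exact H34.EvalAt.eval₂ (H58.constHom A N) A.subtype
      (fun a => H34.evalAt_algebraMap P (a : Qb)) s h
  exact h1.pow M

end Galois

/-! ### The congruence relation on a chart -/

section Main

variable (A : ValuationSubring Qb) (N ℓ : ℕ) [NeZero N] [NeZero ℓ]

set_option maxHeartbeats 400000 in
/-- **(ES) on a chart**, generic in the chart coordinate `x` (Galois-fixed, with integral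
expansions and (SAT-A)) and in the class `Good` of places at which the statement is made. -/
theorem es_chart_aux (hℓ : ℓ.Prime) (hℓN : ¬ ℓ ∣ N) (hA : A.LiesOverPrime ℓ)
    (φ : Qb ≃ₐ[ℚ] Qb) (hφ : A.IsFrobeniusAt φ ℓ)
    (hα : HeckeAlphaBarIntegral Qb N ℓ) (hβ : HeckeBetaBarIntegral Qb N ℓ)
    [HasPrincipalDivisors Qb ↥(modularFunctionFieldBar (N * ℓ))]
    (hval : ∀ (P : Place Qb ↥(modularFunctionFieldBar N)) (z : ↥(modularFunctionFieldBar (N * ℓ)))
      (c : Place Qb ↥(modularFunctionFieldBar (N * ℓ)) → Qb),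
      (∀ W ∈ Place.fiberAlong (heckeBetaBar Qb N ℓ) hβ P, H34.EvalAt W z (c W)) →
      H34.EvalAt P (normBeta N ℓ z)
        (∏ W ∈ Place.fiberAlong (heckeBetaBar Qb N ℓ) hβ P,
          c W ^ W.ramificationIndexAlong (heckeBetaBar Qb N ℓ)))
    (x : ↥(modularFunctionFieldBar N))
    (hx : ∀ σ : Qb ≃ₐ[ℚ] Qb, arithmeticRingAut (modularFunctionFieldFull N) σ x = x)
    (hser : ∀ y ∈ H58.chartRing A N x, ∃ Y : LaurentSeries ↥A,
      coeffMap A.subtype Y = ((y : ↥(modularFunctionFieldBar N)) : LaurentSeries Qb))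
    (hsat : ∀ y ∈ H58.chartRing A N x, ∀ Y : LaurentSeries ↥A,
      coeffMap A.subtype Y = ((y : ↥(modularFunctionFieldBar N)) : LaurentSeries Qb) →
      coeffMap (IsLocalRing.residue ↥A) Y = 0 →
      ∃ a : ↥A, a ∈ IsLocalRing.maximalIdeal ↥A ∧
        ∃ y' ∈ H58.chartRing A N x, y = H58.constHom A N a * y')
    (Good : Place Qb ↥(modularFunctionFieldBar N) → Prop)
    (hGfin : ∀ P, Good P → H34.IsFin A (H58.chartRing A N x) P)
    (hGg : ∀ P, Good P → Good (arithmeticGalois (modularFunctionFieldFull N) φ • P))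
    (hGg' : ∀ P, Good P → Good ((arithmeticGalois (modularFunctionFieldFull N) φ)⁻¹ • P))
    (hGW : ∀ W : Place Qb ↥(modularFunctionFieldBar (N * ℓ)),
      Good (W.restrictAlong (heckeBetaBar Qb N ℓ) hβ) →
      Good (W.restrictAlong (heckeAlphaBar Qb N ℓ) hα))
    (hmult : ∀ P, Good P → ∀ y ∈ H58.chartRing A N x, ∃ h ∈ H58.chartRing A N x,
      (∃ ch : Qb, H34.EvalAt P h ch ∧ ch - 1 ∈ A.nonunits) ∧
      h * normBeta N ℓ (heckeAlphaBar Qb N ℓ y) ∈ H58.chartRing A N x)
    (P : Place Qb ↥(modularFunctionFieldBar N)) (hP : Good P) :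
    heckeDivBar hα hβ (Finsupp.single P 1)
        - Finsupp.single (arithmeticGalois (modularFunctionFieldFull N) φ • P) 1
        - ℓ • Finsupp.single ((arithmeticGalois (modularFunctionFieldFull N) φ)⁻¹ • P) (1 : ℤ) ∈
      AddSubgroup.closure {d : Place Qb ↥(modularFunctionFieldBar N) →₀ ℤ |
        ∃ a b : Place Qb ↥(modularFunctionFieldBar N),
          (b = arithmeticGalois (modularFunctionFieldFull N) φ • P ∨
            b = (arithmeticGalois (modularFunctionFieldFull N) φ)⁻¹ • P) ∧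
          (∃ W : Place Qb ↥(modularFunctionFieldBar (N * ℓ)),
            W.restrictAlong (heckeBetaBar Qb N ℓ) hβ = P ∧
            W.restrictAlong (heckeAlphaBar Qb N ℓ) hα = a) ∧
          H34.IsFin A (H58.chartRing A N x) a ∧ H34.IsFin A (H58.chartRing A N x) b ∧
          (∀ y ∈ H58.chartRing A N x, ∀ c c' : Qb, H34.EvalAt a y c → H34.EvalAt b y c' →
            c - c' ∈ A.nonunits) ∧
          d = Finsupp.single a 1 - Finsupp.single b 1} := by
  have _i1 : Fact ℓ.Prime := ⟨hℓ⟩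
  have _i2 : CharP (IsLocalRing.ResidueField ↥A) ℓ := H86.charP_residueField A hA hℓ
  have _i3 : IsAlgClosed (IsLocalRing.ResidueField ↥A) := H86.isAlgClosed_residueField A
  obtain ⟨hφA, hφA', hfrob⟩ := frobenius_facts hφ
  have hℓ0 : ((ℓ : ℕ) : Qb) ≠ 0 := Nat.cast_ne_zero.mpr hℓ.ne_zero
  obtain ⟨ζ, hζ⟩ := H20.exists_isPrimitiveRoot_unit Qb ℓ hℓ hℓ0
  have hdec := hφ.mem_decompositionSubgroup
  have hQ₁ := hGfin _ (hGg P hP)
  have hQ₂ := hGfin _ (hGg' P hP)
  refine es_core (heckeBetaBar Qb N ℓ) (heckeAlphaBar Qb N ℓ) hβ hα A (H58.chartRing A N x)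
    (fun a ha => H58.constHom_mem_chartRing A N x ⟨a, ha⟩) P _ _ ℓ hQ₁ hQ₂
    (fun W hWP => hGfin _ (hGW W (hWP ▸ hP))) (fun W _ => ?_)
    (fun y _ c hc => hval P _ c hc) ?_
  · -- inertia degree one
    have h1 : (W.restrictAlong (heckeAlphaBar Qb N ℓ) hα).deg * W.inertiaDegAlong
        (heckeAlphaBar Qb N ℓ) hα = W.deg := by
      let _j1 : Algebra ↥(modularFunctionFieldBar N) ↥(modularFunctionFieldBar (N * ℓ)) :=
        algebraAlong (heckeAlphaBar Qb N ℓ)
      have _j2 := isScalarTower_along (heckeAlphaBar Qb N ℓ)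
      have _j3 := isIntegral_along (heckeAlphaBar Qb N ℓ) hα
      exact W.deg_restrict_mul_inertiaDeg
    rw [H2.deg_bar N, H2.deg_bar (N * ℓ), one_mul] at h1
    exact h1
  · intro y hy c₀ c₁ c₂ h₀ h₁ h₂
    obtain ⟨h, hh, ⟨ch, hch, hch1⟩, hhz⟩ := hmult P hP y hy
    have hc₁ : c₁ ∈ A := by
      obtain ⟨c, hc, hev⟩ := hQ₁ y hy
      rw [h₁.unique hev]; exact hc
    have hc₂ : c₂ ∈ A := by
      obtain ⟨c, hc, hev⟩ := hQ₂ y hy
      rw [h₂.unique hev]; exact hc
    refine es_val N ℓ A φ hφA hφA' hfrob ζ hζ.pow_eq_one (H58.chartRing A N x) hser ?_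
      (fun y hy => smul_mem_chartRing A N hdec x hx hy)
      (fun y hy => inv_smul_mem_chartRing A N hdec x hx hy) P (hGfin P hP) y hy
      (normBeta N ℓ (heckeAlphaBar Qb N ℓ y)) (H16.qExpand_norm_alpha N ℓ hℓ hℓN ζ hζ y)
      h hh ch hch hch1 hhz c₀ c₁ c₂ h₀ h₁ h₂ hc₁ hc₂
    intro y hy Y hY hred
    obtain ⟨a, ha, y', hy', hyy'⟩ := hsat y hy Y hY hred
    exact ⟨(a : Qb), ValuationSubring.coe_mem_nonunits_iff.mpr ha, y', hy', hyy'⟩

/-- **(ES) on the chart `j`**: for a `B`-finite place `P` (`B` the integral closure of `A[j]`),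
`T_ℓ(P) - φ P - ℓ φ⁻¹ P` is a sum of differences of `B`-finite places with the same residue
character. -/
theorem es_chart_j (hℓ : ℓ.Prime) (hℓN : ¬ ℓ ∣ N) (hA : A.LiesOverPrime ℓ)
    (φ : Qb ≃ₐ[ℚ] Qb) (hφ : A.IsFrobeniusAt φ ℓ)
    (hα : HeckeAlphaBarIntegral Qb N ℓ) (hβ : HeckeBetaBarIntegral Qb N ℓ)
    [HasPrincipalDivisors Qb ↥(modularFunctionFieldBar (N * ℓ))]
    (hval : ∀ (P : Place Qb ↥(modularFunctionFieldBar N)) (z : ↥(modularFunctionFieldBar (N * ℓ)))
      (c : Place Qb ↥(modularFunctionFieldBar (N * ℓ)) → Qb),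
      (∀ W ∈ Place.fiberAlong (heckeBetaBar Qb N ℓ) hβ P, H34.EvalAt W z (c W)) →
      H34.EvalAt P (normBeta N ℓ z)
        (∏ W ∈ Place.fiberAlong (heckeBetaBar Qb N ℓ) hβ P,
          c W ^ W.ramificationIndexAlong (heckeBetaBar Qb N ℓ)))
    (P : Place Qb ↥(modularFunctionFieldBar N))
    (hP : H34.IsFin A (H58.chartRing A N (H58.jBar N)) P) :
    heckeDivBar hα hβ (Finsupp.single P 1)
        - Finsupp.single (arithmeticGalois (modularFunctionFieldFull N) φ • P) 1
        - ℓ • Finsupp.single ((arithmeticGalois (modularFunctionFieldFull N) φ)⁻¹ • P) (1 : ℤ) ∈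
      AddSubgroup.closure {d : Place Qb ↥(modularFunctionFieldBar N) →₀ ℤ |
        ∃ a b : Place Qb ↥(modularFunctionFieldBar N),
          (b = arithmeticGalois (modularFunctionFieldFull N) φ • P ∨
            b = (arithmeticGalois (modularFunctionFieldFull N) φ)⁻¹ • P) ∧
          (∃ W : Place Qb ↥(modularFunctionFieldBar (N * ℓ)),
            W.restrictAlong (heckeBetaBar Qb N ℓ) hβ = P ∧
            W.restrictAlong (heckeAlphaBar Qb N ℓ) hα = a) ∧
          H34.IsFin A (H58.chartRing A N (H58.jBar N)) a ∧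
          H34.IsFin A (H58.chartRing A N (H58.jBar N)) b ∧
          (∀ y ∈ H58.chartRing A N (H58.jBar N), ∀ c c' : Qb, H34.EvalAt a y c →
            H34.EvalAt b y c' → c - c' ∈ A.nonunits) ∧
          d = Finsupp.single a 1 - Finsupp.single b 1} := by
  have _i1 : Fact ℓ.Prime := ⟨hℓ⟩
  obtain ⟨hφA, hφA', -⟩ := frobenius_facts hφ
  have hdec := hφ.mem_decompositionSubgroup
  have hx := H58.arithmeticRingAut_jBar N
  refine es_chart_aux A N ℓ hℓ hℓN hA φ hφ hα hβ hval (H58.jBar N) hx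
    (fun y hy => H58.exists_series_of_mem_chartRing_j hℓ hA hy)
    (fun y hy Y hY hred => H58.sat_chartRing_j hℓN hA hy Y hY hred)
    (fun P => H34.IsFin A (H58.chartRing A N (H58.jBar N)) P) (fun _ h => h)
    (fun P hP => H34.IsFin.smul _ hP (fun a ha => hφA a ha)
      (fun y hy => inv_smul_mem_chartRing A N hdec _ hx hy))
    (fun P hP => H34.IsFin.smul _ hP (fun a ha => hφA' a ha)
      (fun y hy => by rw [inv_inv]; exact smul_mem_chartRing A N hdec _ hx hy))
    (isFin_restrict_alpha_j A N ℓ hℓ hα hβ)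
    (fun P _ y hy => ⟨1, Subring.one_mem _, ⟨1, H34.evalAt_one P, by
      rw [sub_self]; exact zero_mem _⟩, by
      rw [one_mul]; exact norm_mem_chartRing_j A N ℓ hℓ hy⟩) P hP

/-- **(ES) on the chart `1/j`**: for a `j`-infinite place `P` (`Boo` the integral closure of
`A[1/j]`), `T_ℓ(P) - φ P - ℓ φ⁻¹ P` is a sum of differences of `Boo`-finite places with the same
residue character. -/
theorem es_chart_jInv (hℓ : ℓ.Prime) (hℓN : ¬ ℓ ∣ N) (hA : A.LiesOverPrime ℓ)
    (φ : Qb ≃ₐ[ℚ] Qb) (hφ : A.IsFrobeniusAt φ ℓ)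
    (hα : HeckeAlphaBarIntegral Qb N ℓ) (hβ : HeckeBetaBarIntegral Qb N ℓ)
    [HasPrincipalDivisors Qb ↥(modularFunctionFieldBar (N * ℓ))]
    (hval : ∀ (P : Place Qb ↥(modularFunctionFieldBar N)) (z : ↥(modularFunctionFieldBar (N * ℓ)))
      (c : Place Qb ↥(modularFunctionFieldBar (N * ℓ)) → Qb),
      (∀ W ∈ Place.fiberAlong (heckeBetaBar Qb N ℓ) hβ P, H34.EvalAt W z (c W)) →
      H34.EvalAt P (normBeta N ℓ z)
        (∏ W ∈ Place.fiberAlong (heckeBetaBar Qb N ℓ) hβ P,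
          c W ^ W.ramificationIndexAlong (heckeBetaBar Qb N ℓ)))
    (P : Place Qb ↥(modularFunctionFieldBar N)) (hP : IsInf A N P) :
    heckeDivBar hα hβ (Finsupp.single P 1)
        - Finsupp.single (arithmeticGalois (modularFunctionFieldFull N) φ • P) 1
        - ℓ • Finsupp.single ((arithmeticGalois (modularFunctionFieldFull N) φ)⁻¹ • P) (1 : ℤ) ∈
      AddSubgroup.closure {d : Place Qb ↥(modularFunctionFieldBar N) →₀ ℤ |
        ∃ a b : Place Qb ↥(modularFunctionFieldBar N),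
          (b = arithmeticGalois (modularFunctionFieldFull N) φ • P ∨
            b = (arithmeticGalois (modularFunctionFieldFull N) φ)⁻¹ • P) ∧
          (∃ W : Place Qb ↥(modularFunctionFieldBar (N * ℓ)),
            W.restrictAlong (heckeBetaBar Qb N ℓ) hβ = P ∧
            W.restrictAlong (heckeAlphaBar Qb N ℓ) hα = a) ∧
          H34.IsFin A (H58.chartRing A N (H58.jBar N)⁻¹) a ∧
          H34.IsFin A (H58.chartRing A N (H58.jBar N)⁻¹) b ∧
          (∀ y ∈ H58.chartRing A N (H58.jBar N)⁻¹, ∀ c c' : Qb, H34.EvalAt a y c →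
            H34.EvalAt b y c' → c - c' ∈ A.nonunits) ∧
          d = Finsupp.single a 1 - Finsupp.single b 1} := by
  have _i1 : Fact ℓ.Prime := ⟨hℓ⟩
  obtain ⟨hφA, hφA', -⟩ := frobenius_facts hφ
  have hx := H58.arithmeticRingAut_jBar_inv N
  obtain ⟨s, hs, Hs⟩ := exists_mult_jInv A N ℓ hℓ
  refine es_chart_aux A N ℓ hℓ hℓN hA φ hφ hα hβ hval (H58.jBar N)⁻¹ hx
    (fun y hy => H58.exists_series_of_mem_chartRing_jInv hℓ hA hy)
    (fun y hy Y hY hred => H58.sat_chartRing_jInv hℓN hA hy Y hY hred)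
    (IsInf A N) (fun _ h => isFin_of_isInf h) (fun _ h => isInf_smul A N hφA' h)
    (fun _ h => isInf_inv_smul A N hφA h)
    (isInf_restrict_alpha A N ℓ hℓ hα hβ) ?_ P hP
  intro Q hQ y hy
  obtain ⟨M, hM⟩ := Hs y hy
  exact ⟨H58.chartHom A N (H58.jBar N)⁻¹ s ^ M,
    Subring.pow_mem _ (H58.chartHom_mem_chartRing A N _ s) M, evalAt_mult A N s hs M hQ, hM⟩

end Main

end

end Fermat.Agent.S37.H26
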