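import Mathlib
import Fermat.Agent.S37.Gal_helper34

/-!
# S37 node (GAL), chart part (helper34)

* `evalHom A x : A[X] →+* F`, `X ↦ x`; "`y` integral over `A[x]`" is
  `(evalHom A x).IsIntegralElem y`.
* `isFin_of_isIntegralElem` : at a place where `x` has a value in `A`, every `y` integral over
  `A[x]` has a value in `A`.
* decomposition group / inertia / Frobenius facts for the residue characters `charOf`.
-/

set_option autoImplicit false

open ModularCurve AlgebraicCurve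
open scoped Pointwise

namespace Fermat.Agent.S37.H34

noncomputable section

section GenericChart

variable {K F : Type*} [Field K] [Field F] [Algebra K F]

/-- the chart homomorphism `A[X] → F`, `X ↦ x`. -/
def evalHom (A : ValuationSubring K) (x : F) : Polynomial A →+* F :=
  Polynomial.eval₂RingHom ((algebraMap K F).comp A.subtype) x

theorem evalHom_apply (A : ValuationSubring K) (x : F) (q : Polynomial A) :
    evalHom A x q = q.eval₂ ((algebraMap K F).comp A.subtype) x := rfl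

theorem evalAt_evalHom (A : ValuationSubring K) {x : F} {P : Place K F} {c : K}
    (hx : EvalAt P x c) (q : Polynomial A) :
    EvalAt P (evalHom A x q) (q.eval₂ A.subtype c) :=
  EvalAt.eval₂ ((algebraMap K F).comp A.subtype) A.subtype
    (fun a => evalAt_algebraMap P (a : K)) q hx

/-- an element integral over `A[x]` is regular at every place where `x` is regular. -/
theorem mem_of_isIntegralElem (A : ValuationSubring K) {x : F} {P : Place K F}
    (hx : x ∈ P.toValuationSubring) {y : F} (hy : (evalHom A x).IsIntegralElem y) :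
    y ∈ P.toValuationSubring := by
  obtain ⟨p, hp, hroot⟩ := hy
  have hmem : ∀ q : Polynomial A, evalHom A x q ∈ P.toValuationSubring := by
    intro q
    rw [evalHom_apply, Polynomial.eval₂_eq_sum_range]
    exact sum_mem fun i _ => mul_mem (P.algebraMap_mem' _) (pow_mem hx i)
  let f' : Polynomial A →+* P.toValuationSubring :=
    { toFun := fun q => ⟨evalHom A x q, hmem q⟩
      map_one' := Subtype.ext (map_one _)
      map_mul' := fun a b => Subtype.ext (map_mul _ a b)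
      map_zero' := Subtype.ext (map_zero _)
      map_add' := fun a b => Subtype.ext (map_add _ a b) }
  have hcomp : (algebraMap P.toValuationSubring F).comp f' = evalHom A x := RingHom.ext fun _ => rfl
  have hint : IsIntegral P.toValuationSubring y := by
    refine ⟨p.map f', hp.map _, ?_⟩
    rw [Polynomial.eval₂_map, hcomp]
    exact hroot
  obtain ⟨z, hz⟩ := (IsIntegrallyClosed.isIntegral_iff (R := P.toValuationSubring) (K := F)).mp hint
  rw [← hz]
  exact z.2

/-- **(G2)** at a place of degree one where `x` has a value in `A`, every `y` integral over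
`A[x]` has a value in `A`. -/
theorem exists_evalAt_of_isIntegralElem (A : ValuationSubring K) {x : F} {P : Place K F}
    (hP : P.deg = 1) (hx : ∃ c ∈ A, EvalAt P x c) {y : F}
    (hy : (evalHom A x).IsIntegralElem y) : ∃ c ∈ A, EvalAt P y c := by
  obtain ⟨c, hc, hxc⟩ := hx
  have hyP := mem_of_isIntegralElem A hxc.mem hy
  obtain ⟨c', hc'⟩ := exists_evalAt P hP hyP
  refine ⟨c', ?_, hc'⟩
  obtain ⟨p, hp, hroot⟩ := hy
  have h1 : EvalAt P (p.eval₂ (evalHom A x) y)
      (p.eval₂ (Polynomial.eval₂RingHom A.subtype c) c') :=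
    EvalAt.eval₂ _ _ (fun q => evalAt_evalHom A hxc q) p hc'
  rw [hroot] at h1
  have h2 : p.eval₂ (Polynomial.eval₂RingHom A.subtype c) c' = 0 :=
    h1.unique (evalAt_zero P)
  have hcomp : (algebraMap A K).comp (Polynomial.evalRingHom (⟨c, hc⟩ : A)) =
      Polynomial.eval₂RingHom A.subtype c := by
    refine RingHom.ext fun q => ?_
    show A.subtype (q.eval (⟨c, hc⟩ : A)) = q.eval₂ A.subtype c
    rw [← Polynomial.eval₂_id, Polynomial.hom_eval₂]
    rfl
  have hint : IsIntegral A c' := by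
    refine ⟨p.map (Polynomial.evalRingHom (⟨c, hc⟩ : A)), hp.map _, ?_⟩
    rw [Polynomial.eval₂_map, hcomp]
    exact h2
  obtain ⟨z, hz⟩ := (IsIntegrallyClosed.isIntegral_iff (R := A) (K := K)).mp hint
  rw [← hz]
  exact z.2

/-- **(G2)**, `IsFin` form. -/
theorem isFin_of_isIntegralElem (A : ValuationSubring K) {x : F} {B : Subring F}
    (hB : ∀ y ∈ B, (evalHom A x).IsIntegralElem y) {P : Place K F}
    (hP : P.deg = 1) (hx : ∃ c ∈ A, EvalAt P x c) : IsFin A B P :=
  fun y hy => exists_evalAt_of_isIntegralElem A hP hx (hB y hy)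

/-- the restriction to `A` of a ring endomorphism of `K` preserving `A`. -/
def restrictHom (φ : K →+* K) (A : ValuationSubring K) (h : ∀ a ∈ A, φ a ∈ A) : A →+* A where
  toFun a := ⟨φ a, h a a.2⟩
  map_one' := Subtype.ext (map_one φ)
  map_mul' a b := Subtype.ext (map_mul φ (a : K) (b : K))
  map_zero' := Subtype.ext (map_zero φ)
  map_add' a b := Subtype.ext (map_add φ (a : K) (b : K))

@[simp] theorem coe_restrictHom (φ : K →+* K) (A : ValuationSubring K) (h : ∀ a ∈ A, φ a ∈ A)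
    (a : A) : ((restrictHom φ A h a : A) : K) = φ a := rfl

/-- **(G2)** a semilinear automorphism fixing `x` whose base automorphism preserves `A`
preserves integrality over `A[x]`. -/
theorem isIntegralElem_smul (g : SemilinearAut K F) (A : ValuationSubring K) {x : F}
    (hgA : ∀ a ∈ A, SemilinearAut.baseAut g a ∈ A) (hx : g • x = x) {y : F}
    (hy : (evalHom A x).IsIntegralElem y) : (evalHom A x).IsIntegralElem (g • y) := by
  obtain ⟨p, hp, hroot⟩ := hy
  set τ : A →+* A := restrictHom (SemilinearAut.baseAut g : K →+* K) A hgA with hτ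
  have hcomp : ((SemilinearAut.toRingAut g : F ≃+* F) : F →+* F).comp (evalHom A x) =
      (evalHom A x).comp (Polynomial.mapRingHom τ) := by
    refine Polynomial.ringHom_ext (fun a => ?_) ?_
    · show SemilinearAut.toRingAut g (evalHom A x (Polynomial.C a)) =
        evalHom A x ((Polynomial.C a).map τ)
      rw [Polynomial.map_C, evalHom_apply, evalHom_apply, Polynomial.eval₂_C, Polynomial.eval₂_C]
      exact SemilinearAut.commutes g (a : K)
    · show SemilinearAut.toRingAut g (evalHom A x Polynomial.X) =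
        evalHom A x ((Polynomial.X : Polynomial A).map τ)
      rw [Polynomial.map_X, evalHom_apply, Polynomial.eval₂_X]
      exact hx
  refine ⟨p.map (Polynomial.mapRingHom τ), hp.map _, ?_⟩
  rw [Polynomial.eval₂_map, ← hcomp]
  have h1 := Polynomial.hom_eval₂ p (evalHom A x)
    ((SemilinearAut.toRingAut g : F ≃+* F) : F →+* F) y
  rw [hroot, map_zero] at h1
  exact h1.symm

theorem smul_eq_of_smul_eq (g : SemilinearAut K F) {x : F} (hx : g • x = x) : g⁻¹ • x = x := by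
  rw [inv_smul_eq_iff, hx]

/-- `x`-finiteness is preserved. -/
theorem exists_evalAt_smul (g : SemilinearAut K F) (A : ValuationSubring K) {x : F}
    (hgA : ∀ a ∈ A, SemilinearAut.baseAut g a ∈ A) (hx : g • x = x) {P : Place K F}
    (h : ∃ c ∈ A, EvalAt P x c) : ∃ c ∈ A, EvalAt (g • P) x c := by
  obtain ⟨c, hc, hev⟩ := h
  refine ⟨_, hgA c hc, ?_⟩
  have := hev.smul g
  rwa [hx] at this

/-- **(c), abstract form**: an automorphism preserving `A`, `m_A` and `B` preserves equality of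
residue characters. -/
theorem evalAt_smul_rel (g : SemilinearAut K F) {A : ValuationSubring K} {B : Subring F}
    {P P' : Place K F} (h : IsFin A B P) (h' : IsFin A B P')
    (hgm : ∀ a ∈ A.nonunits, SemilinearAut.baseAut g a ∈ A.nonunits)
    (hgB : ∀ y ∈ B, g⁻¹ • y ∈ B)
    (hrel : ∀ y ∈ B, ∀ c c' : K, EvalAt P y c → EvalAt P' y c' → c - c' ∈ A.nonunits)
    {y : F} (hy : y ∈ B) {c c' : K} (hc : EvalAt (g • P) y c) (hc' : EvalAt (g • P') y c') :
    c - c' ∈ A.nonunits := by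
  obtain ⟨d, -, hd⟩ := h _ (hgB y hy)
  obtain ⟨d', -, hd'⟩ := h' _ (hgB y hy)
  have e1 : c = SemilinearAut.baseAut g d := hc.unique (hd.of_inv_smul g)
  have e2 : c' = SemilinearAut.baseAut g d' := hc'.unique (hd'.of_inv_smul g)
  rw [e1, e2, ← map_sub]
  exact hgm _ (hrel _ (hgB y hy) d d' hd hd')

end GenericChart

/-! ### decomposition group, inertia, Frobenius on `A` -/

section Galois

variable {L : Type*} [Field L] [Algebra ℚ L]

theorem mem_of_mem_decomposition {A : ValuationSubring L} {σ : L ≃ₐ[ℚ] L}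
    (hσ : σ ∈ A.decompositionSubgroup ℚ) {a : L} (ha : a ∈ A) : σ a ∈ A := by
  have h1 : σ • a ∈ σ • A := ValuationSubring.smul_mem_pointwise_smul σ a A ha
  rw [MulAction.mem_stabilizer_iff.mp hσ] at h1
  exact h1

theorem mem_nonunits_of_mem_decomposition {A : ValuationSubring L} {σ : L ≃ₐ[ℚ] L}
    (hσ : σ ∈ A.decompositionSubgroup ℚ) {a : L} (ha : a ∈ A.nonunits) : σ a ∈ A.nonunits := by
  rw [ValuationSubring.mem_nonunits_iff_or] at ha ⊢
  rcases ha with rfl | ha
  · left; exact map_zero σ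
  · right
    intro hcon
    apply ha
    have h1 := mem_of_mem_decomposition (inv_mem hσ) hcon
    rw [map_inv₀] at h1
    have h2 : σ⁻¹ (σ a) = a := σ.symm_apply_apply a
    rwa [h2] at h1

theorem mem_decomposition_of_mem_inertia {A : ValuationSubring L} {σ : L ≃ₐ[ℚ] L}
    (hσ : σ ∈ A.inertiaSubgroupIn ℚ) : σ ∈ A.decompositionSubgroup ℚ := by
  obtain ⟨g, -, rfl⟩ := hσ
  exact g.2

/-- inertia acts trivially on `A / m`. -/
theorem sub_mem_nonunits_of_mem_inertia {A : ValuationSubring L} {σ : L ≃ₐ[ℚ] L}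
    (hσ : σ ∈ A.inertiaSubgroupIn ℚ) {a : L} (ha : a ∈ A) : σ a - a ∈ A.nonunits := by
  obtain ⟨g, hg, rfl⟩ := hσ
  have h0 : MulSemiringAction.toRingAut (A.decompositionSubgroup ℚ)
      (IsLocalRing.ResidueField A) g = 1 := MonoidHom.mem_ker.mp hg
  have h1 : g • (IsLocalRing.residue A ⟨a, ha⟩) = IsLocalRing.residue A ⟨a, ha⟩ :=
    congrArg (fun e : RingAut (IsLocalRing.ResidueField A) =>
      e (IsLocalRing.residue A ⟨a, ha⟩)) h0
  rw [← IsLocalRing.ResidueField.residue_smul] at h1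
  exact (residue_eq_residue_iff (g • (⟨a, ha⟩ : A)) ⟨a, ha⟩).mp h1

/-- a Frobenius element acts as the `ℓ`-th power on `A / m`. -/
theorem sub_pow_mem_nonunits_of_isFrobeniusAt {A : ValuationSubring L} {φ : L ≃ₐ[ℚ] L} {ℓ : ℕ}
    (hφ : A.IsFrobeniusAt φ ℓ) {a : L} (ha : a ∈ A) : φ a - a ^ ℓ ∈ A.nonunits := by
  have h1 := hφ.smul_residue_eq (IsLocalRing.residue A ⟨a, ha⟩)
  rw [← IsLocalRing.ResidueField.residue_smul, ← map_pow] at h1
  exact (residue_eq_residue_iff _ _).mp h1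

end Galois

/-! ### the arithmetic Galois action on places and residue characters -/

section Arithmetic

variable {L : Type*} [Field L] [Algebra ℚ L]
variable (F₀ : IntermediateField ℚ (LaurentSeries ℚ))

/-- the arithmetic Galois action `arithmeticGalois F₀ σ`, as a reducible abbreviation. -/
abbrev gal (σ : L ≃ₐ[ℚ] L) : SemilinearAut L (laurentBaseChange L F₀) :=
  arithmeticGalois F₀ σ

theorem gal_inv (σ : L ≃ₐ[ℚ] L) : gal F₀ σ⁻¹ = (gal F₀ σ)⁻¹ :=
  map_inv (arithmeticGalois F₀) σ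

theorem coe_gal_smul (σ : L ≃ₐ[ℚ] L) (y : laurentBaseChange L F₀) :
    ((gal F₀ σ • y : laurentBaseChange L F₀) : LaurentSeries L) =
      coeffMap (σ : L →+* L) (y : LaurentSeries L) := rfl

/-- **(G1)** for the arithmetic Galois action: `(σ y)(σ P) = σ (y(P))`. -/
theorem EvalAt.gal_smul (σ : L ≃ₐ[ℚ] L) {P : Place L (laurentBaseChange L F₀)}
    {y : laurentBaseChange L F₀} {c : L} (h : EvalAt P y c) :
    EvalAt (gal F₀ σ • P) (gal F₀ σ • y) (σ c) :=
  h.smul (gal F₀ σ)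

theorem EvalAt.gal_of_inv_smul (σ : L ≃ₐ[ℚ] L) {P : Place L (laurentBaseChange L F₀)}
    {y : laurentBaseChange L F₀} {c : L} (h : EvalAt P ((gal F₀ σ)⁻¹ • y) c) :
    EvalAt (gal F₀ σ • P) y (σ c) :=
  h.of_inv_smul (gal F₀ σ)

variable {F₀}
variable {A : ValuationSubring L} {x : laurentBaseChange L F₀}
  {B : Subring (laurentBaseChange L F₀)}

/-- **(G2)** the decomposition group preserves the chart ring. -/
theorem gal_smul_mem (hB : ∀ y, y ∈ B ↔ (evalHom A x).IsIntegralElem y) {σ : L ≃ₐ[ℚ] L}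
    (hσ : σ ∈ A.decompositionSubgroup ℚ) (hx : gal F₀ σ • x = x)
    {y : laurentBaseChange L F₀} (hy : y ∈ B) : gal F₀ σ • y ∈ B :=
  (hB _).mpr (isIntegralElem_smul (gal F₀ σ) A
    (fun _ ha => mem_of_mem_decomposition hσ ha) hx ((hB y).mp hy))

theorem gal_inv_smul_mem (hB : ∀ y, y ∈ B ↔ (evalHom A x).IsIntegralElem y) {σ : L ≃ₐ[ℚ] L}
    (hσ : σ ∈ A.decompositionSubgroup ℚ) (hx : gal F₀ σ • x = x)
    {y : laurentBaseChange L F₀} (hy : y ∈ B) : (gal F₀ σ)⁻¹ • y ∈ B := by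
  have hx' : gal F₀ σ⁻¹ • x = x := by
    rw [gal_inv]; exact smul_eq_of_smul_eq _ hx
  have := gal_smul_mem hB (inv_mem hσ) hx' hy
  rwa [gal_inv] at this

/-- **(G2)** the decomposition group preserves `B`-finiteness. -/
theorem IsFin.gal_smul (hB : ∀ y, y ∈ B ↔ (evalHom A x).IsIntegralElem y) {σ : L ≃ₐ[ℚ] L}
    (hσ : σ ∈ A.decompositionSubgroup ℚ) (hx : gal F₀ σ • x = x)
    {P : Place L (laurentBaseChange L F₀)} (h : IsFin A B P) :
    IsFin A B (gal F₀ σ • P) :=
  h.smul (gal F₀ σ) (fun _ ha => mem_of_mem_decomposition hσ ha)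
    (fun _ hy => gal_inv_smul_mem hB hσ hx hy)

/-- **(c)** the decomposition group preserves equality of residue characters. -/
theorem charOf_gal_congr (hB : ∀ y, y ∈ B ↔ (evalHom A x).IsIntegralElem y) {σ : L ≃ₐ[ℚ] L}
    (hσ : σ ∈ A.decompositionSubgroup ℚ) (hx : gal F₀ σ • x = x)
    {P P' : Place L (laurentBaseChange L F₀)} (h : IsFin A B P) (h' : IsFin A B P')
    (heq : charOf h = charOf h') :
    charOf (h.gal_smul hB hσ hx) = charOf (h'.gal_smul hB hσ hx) := by
  rw [charOf_eq_iff] at heq ⊢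
  intro y hy c c' hc hc'
  exact evalAt_smul_rel (gal F₀ σ) h h'
    (fun _ ha => mem_nonunits_of_mem_decomposition hσ ha)
    (fun _ hy => gal_inv_smul_mem hB hσ hx hy) heq hy hc hc'

/-- **(b), from triviality of inertia on `B / m B`.** -/
theorem charOf_inertia_of_triv (hB : ∀ y, y ∈ B ↔ (evalHom A x).IsIntegralElem y)
    {σ : L ≃ₐ[ℚ] L} (hσ : σ ∈ A.inertiaSubgroupIn ℚ) (hx : gal F₀ σ • x = x)
    (htriv : ∀ y ∈ B, ∃ a ∈ A.nonunits, ∃ y' ∈ B,
      (gal F₀ σ)⁻¹ • y - y = algebraMap L (laurentBaseChange L F₀) a * y')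
    {P : Place L (laurentBaseChange L F₀)} (h : IsFin A B P) :
    charOf (h.gal_smul hB (mem_decomposition_of_mem_inertia hσ) hx) = charOf h := by
  have hσD := mem_decomposition_of_mem_inertia hσ
  rw [charOf_eq_iff]
  intro y hy c c' hc hc'
  exact evalAt_smul_congr (gal F₀ σ) h
    (fun _ ha => sub_mem_nonunits_of_mem_inertia hσ ha)
    (fun _ hy => gal_inv_smul_mem hB hσD hx hy) htriv hy hc' hc

/-- inertia acts trivially on `B / m B`, from the `q`-expansion principle in the shapes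
`hexp` (every element of `B` has an `A`-integral expansion) and `hsat` (an element of `B` whose
expansion reduces to `0` lies in `m B`). -/
theorem inertia_triv (hB : ∀ y, y ∈ B ↔ (evalHom A x).IsIntegralElem y)
    (hexp : ∀ y ∈ B, ∃ Y : LaurentSeries A,
      coeffMap A.subtype Y = ((y : laurentBaseChange L F₀) : LaurentSeries L))
    (hsat : ∀ y ∈ B, ∀ Y : LaurentSeries A,
      coeffMap A.subtype Y = ((y : laurentBaseChange L F₀) : LaurentSeries L) →
      coeffMap (IsLocalRing.residue A) Y = 0 →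
      ∃ a : A, a ∈ IsLocalRing.maximalIdeal A ∧ ∃ y' ∈ B,
        y = algebraMap L (laurentBaseChange L F₀) (a : L) * y')
    {σ : L ≃ₐ[ℚ] L} (hσ : σ ∈ A.inertiaSubgroupIn ℚ) (hx : gal F₀ σ • x = x) :
    ∀ y ∈ B, ∃ a ∈ A.nonunits, ∃ y' ∈ B,
      (gal F₀ σ)⁻¹ • y - y = algebraMap L (laurentBaseChange L F₀) a * y' := by
  intro y hy
  have hσD := mem_decomposition_of_mem_inertia hσ
  have hσi : σ⁻¹ ∈ A.inertiaSubgroupIn ℚ := inv_mem hσ
  have hσiD := mem_decomposition_of_mem_inertia hσi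
  set τ : A →+* A := restrictHom ((σ⁻¹ : L ≃ₐ[ℚ] L) : L →+* L) A
    (fun _ ha => mem_of_mem_decomposition hσiD ha) with hτ
  have hz : (gal F₀ σ)⁻¹ • y - y ∈ B :=
    sub_mem (gal_inv_smul_mem hB hσD hx hy) hy
  obtain ⟨Y, hY⟩ := hexp y hy
  have hZ : coeffMap A.subtype (coeffMap τ Y - Y) =
      ((((gal F₀ σ)⁻¹ • y - y : laurentBaseChange L F₀)) : LaurentSeries L) := by
    have h1 : ((((gal F₀ σ)⁻¹ • y : laurentBaseChange L F₀)) : LaurentSeries L) =
        coeffMap ((σ⁻¹ : L ≃ₐ[ℚ] L) : L →+* L) (y : LaurentSeries L) := by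
      rw [← gal_inv]
      exact coe_gal_smul F₀ σ⁻¹ y
    rw [map_sub, hY, coeffMap_coeffMap]
    show _ = ((((gal F₀ σ)⁻¹ • y : laurentBaseChange L F₀)) : LaurentSeries L)
      - (y : LaurentSeries L)
    rw [h1, ← hY, coeffMap_coeffMap]
    rfl
  have hred : coeffMap (IsLocalRing.residue A) (coeffMap τ Y - Y) = 0 := by
    rw [map_sub, coeffMap_coeffMap, sub_eq_zero]
    refine coeffMap_congr (RingHom.ext fun a => ?_) Y
    show IsLocalRing.residue A (τ a) = IsLocalRing.residue A a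
    rw [residue_eq_residue_iff]
    exact sub_mem_nonunits_of_mem_inertia hσi a.2
  obtain ⟨a, ha, y', hy', e⟩ := hsat _ hz _ hZ hred
  exact ⟨(a : L), ValuationSubring.coe_mem_nonunits_iff.mpr ha, y', hy', e⟩

/-- **(b)** inertia fixes the residue characters. -/
theorem charOf_inertia (hB : ∀ y, y ∈ B ↔ (evalHom A x).IsIntegralElem y)
    (hexp : ∀ y ∈ B, ∃ Y : LaurentSeries A,
      coeffMap A.subtype Y = ((y : laurentBaseChange L F₀) : LaurentSeries L))
    (hsat : ∀ y ∈ B, ∀ Y : LaurentSeries A,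
      coeffMap A.subtype Y = ((y : laurentBaseChange L F₀) : LaurentSeries L) →
      coeffMap (IsLocalRing.residue A) Y = 0 →
      ∃ a : A, a ∈ IsLocalRing.maximalIdeal A ∧ ∃ y' ∈ B,
        y = algebraMap L (laurentBaseChange L F₀) (a : L) * y')
    {σ : L ≃ₐ[ℚ] L} (hσ : σ ∈ A.inertiaSubgroupIn ℚ) (hx : gal F₀ σ • x = x)
    {P : Place L (laurentBaseChange L F₀)} (h : IsFin A B P) :
    charOf (h.gal_smul hB (mem_decomposition_of_mem_inertia hσ) hx) = charOf h :=
  charOf_inertia_of_triv hB hσ hx (inertia_triv hB hexp hsat hσ hx) h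

/-! ### (G4): Frobenius -/

/-- **(G4), relational**: the value of `y` at `φ P` is congruent to the `ℓ`-th power of the
value of `φ⁻¹ y` at `P`. -/
theorem evalAt_frob {φ : L ≃ₐ[ℚ] L} {ℓ : ℕ} (hφ : A.IsFrobeniusAt φ ℓ)
    {P : Place L (laurentBaseChange L F₀)} {y : laurentBaseChange L F₀} {c c' : L}
    (hc : EvalAt P ((gal F₀ φ)⁻¹ • y) c) (hcA : c ∈ A)
    (hc' : EvalAt (gal F₀ φ • P) y c') : c' - c ^ ℓ ∈ A.nonunits := by
  have e : c' = φ c := hc'.unique (hc.gal_of_inv_smul F₀ φ)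
  rw [e]
  exact sub_pow_mem_nonunits_of_isFrobeniusAt hφ hcA

/-- **(G4), relational, inverse form**: the `ℓ`-th power of the value of `y` at `φ⁻¹ P` is
congruent to the value of `φ y` at `P`. -/
theorem evalAt_frob_inv {φ : L ≃ₐ[ℚ] L} {ℓ : ℕ} (hφ : A.IsFrobeniusAt φ ℓ)
    {P : Place L (laurentBaseChange L F₀)} {y : laurentBaseChange L F₀} {c c' : L}
    (hc : EvalAt P (gal F₀ φ • y) c)
    (hc' : EvalAt ((gal F₀ φ)⁻¹ • P) y c') (hcA' : c' ∈ A) :
    c - c' ^ ℓ ∈ A.nonunits := by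
  have h1 : EvalAt (gal F₀ φ • ((gal F₀ φ)⁻¹ • P))
      (gal F₀ φ • y) (φ c') := hc'.gal_smul F₀ φ
  rw [smul_inv_smul] at h1
  have e : c = φ c' := hc.unique h1
  rw [e]
  exact sub_pow_mem_nonunits_of_isFrobeniusAt hφ hcA'

omit [Algebra ℚ L] in
theorem residue_pow_eq (a b : A) (ℓ : ℕ) (h : (a : L) - (b : L) ^ ℓ ∈ A.nonunits) :
    IsLocalRing.residue A a = IsLocalRing.residue A b ^ ℓ := by
  rw [← map_pow, residue_eq_residue_iff]
  exact h

/-- **(G4)** `χ_{φP}(y) = χ_P(φ⁻¹ y) ^ ℓ`. -/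
theorem charOf_frob {φ : L ≃ₐ[ℚ] L} {ℓ : ℕ} (hφ : A.IsFrobeniusAt φ ℓ)
    {P : Place L (laurentBaseChange L F₀)} (h : IsFin A B P)
    (h' : IsFin A B (gal F₀ φ • P)) {y : laurentBaseChange L F₀} (hy : y ∈ B)
    (hy' : (gal F₀ φ)⁻¹ • y ∈ B) :
    charOf h' ⟨y, hy⟩ = charOf h ⟨(gal F₀ φ)⁻¹ • y, hy'⟩ ^ ℓ := by
  rw [charOf_apply, charOf_apply]
  exact residue_pow_eq _ _ ℓ (evalAt_frob hφ (evalAt_valHom h ⟨_, hy'⟩)
    (valHom h ⟨_, hy'⟩).2 (evalAt_valHom h' ⟨y, hy⟩))

/-- **(G4)** `χ_{φ⁻¹P}(y) ^ ℓ = χ_P(φ y)`. -/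
theorem charOf_frob_inv {φ : L ≃ₐ[ℚ] L} {ℓ : ℕ} (hφ : A.IsFrobeniusAt φ ℓ)
    {P : Place L (laurentBaseChange L F₀)} (h : IsFin A B P)
    (h' : IsFin A B ((gal F₀ φ)⁻¹ • P)) {y : laurentBaseChange L F₀} (hy : y ∈ B)
    (hy' : gal F₀ φ • y ∈ B) :
    charOf h' ⟨y, hy⟩ ^ ℓ = charOf h ⟨gal F₀ φ • y, hy'⟩ := by
  rw [charOf_apply, charOf_apply]
  exact (residue_pow_eq _ _ ℓ (evalAt_frob_inv hφ (evalAt_valHom h ⟨_, hy'⟩)
    (evalAt_valHom h' ⟨y, hy⟩) (valHom h' ⟨y, hy⟩).2)).symm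

/-- **(G4), the right-hand side of the congruence relation**:
`χ_{φP}(y) · χ_{φ⁻¹P}(y)^ℓ = χ_P((φ⁻¹y)^ℓ · φy)`. -/
theorem charOf_frob_mul {φ : L ≃ₐ[ℚ] L} {ℓ : ℕ} (hφ : A.IsFrobeniusAt φ ℓ)
    {P : Place L (laurentBaseChange L F₀)} (h : IsFin A B P)
    (h' : IsFin A B (gal F₀ φ • P))
    (h'' : IsFin A B ((gal F₀ φ)⁻¹ • P)) {y : laurentBaseChange L F₀} (hy : y ∈ B)
    (hy' : (gal F₀ φ)⁻¹ • y ∈ B) (hy'' : gal F₀ φ • y ∈ B) :
    charOf h' ⟨y, hy⟩ * charOf h'' ⟨y, hy⟩ ^ ℓ =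
      charOf h ⟨((gal F₀ φ)⁻¹ • y) ^ ℓ * gal F₀ φ • y,
        mul_mem (pow_mem hy' ℓ) hy''⟩ := by
  rw [charOf_frob hφ h h' hy hy', charOf_frob_inv hφ h h'' hy hy'', ← map_pow, ← map_mul]
  rfl

end Arithmetic

end

end Fermat.Agent.S37.H34
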