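/-
S37, (a)-assembly, node (A1) in the literal shape of the consumer `ConstAsm_helper8`:
from the landed counting form of (TRANSFER) (`H87.TransferAt`) to the `Qbar`-level `hsum`
over the "same residue character as `w₀`" classes.

Thin layer on top of `SumTransfer_helper53` / `SumOrd_helper53` / `TransferFn_helper87`.
-/
import Mathlib
import Fermat.Agent.S37.SumTransfer_helper53

set_option autoImplicit false

namespace Fermat.Agent.S37.H86

open AlgebraicCurve Fermat.Agent.S37.H34 Fermat.Agent.S37.H87 Fermat.Agent.S37.H53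

noncomputable section

section Class

variable {K : Type*} [Field K] (A : ValuationSubring K) {F' : Type*} [Field F'] [Algebra K F']

/-- `w` and `w₀` are `R'`-finite with the same residue character: relational form, values
in `K`. -/
def SameCharAt (R' : Subring F') (w w₀ : Place K F') : Prop :=
  ∀ y ∈ R', ∃ c c' : K, c ∈ A ∧ c' ∈ A ∧ EvalAt w y c ∧ EvalAt w₀ y c' ∧ c - c' ∈ A.nonunits

variable {A}

theorem SameCharAt.isFin_left {R' : Subring F'} {w w₀ : Place K F'}
    (h : SameCharAt A R' w w₀) : IsFin A R' w := by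
  intro y hy
  obtain ⟨c, c', hc, -, hwc, -, -⟩ := h y hy
  exact ⟨c, hc, hwc⟩

theorem SameCharAt.isFin_right {R' : Subring F'} {w w₀ : Place K F'}
    (h : SameCharAt A R' w w₀) : IsFin A R' w₀ := by
  intro y hy
  obtain ⟨c, c', -, hc', -, hwc', -⟩ := h y hy
  exact ⟨c', hc', hwc'⟩

/-- The class of `w₀` is the set of `R'`-finite places with the residue character of `w₀`. -/
theorem sameCharAt_iff {R' : Subring F'} {w w₀ : Place K F'} (h₀ : IsFin A R' w₀) :
    SameCharAt A R' w w₀ ↔ ∃ h : IsFin A R' w, charOf h = charOf h₀ := by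
  constructor
  · intro hs
    refine ⟨hs.isFin_left, (charOf_eq_iff hs.isFin_left h₀).mpr ?_⟩
    intro y hy c c' hc hc'
    obtain ⟨d, d', -, -, hd, hd', hdd⟩ := hs y hy
    rwa [hc.unique hd, hc'.unique hd']
  · rintro ⟨h, heq⟩ y hy
    refine ⟨(valHom h ⟨y, hy⟩ : K), (valHom h₀ ⟨y, hy⟩ : K), (valHom h ⟨y, hy⟩).2,
      (valHom h₀ ⟨y, hy⟩).2, evalAt_valHom h ⟨y, hy⟩, evalAt_valHom h₀ ⟨y, hy⟩, ?_⟩
    exact (charOf_eq_iff h h₀).mp heq y hy _ _ (evalAt_valHom h ⟨y, hy⟩)
      (evalAt_valHom h₀ ⟨y, hy⟩)

theorem not_sameCharAt_of_not_isFin {R' : Subring F'} {w₀ : Place K F'}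
    (h₀ : ¬ IsFin A R' w₀) (w : Place K F') : ¬ SameCharAt A R' w w₀ :=
  fun h => h₀ h.isFin_right

end Class

section Transfer

variable {K : Type*} [Field K] (A : ValuationSubring K)
  {F F' : Type*} [Field F] [Field F'] [Algebra K F] [Algebra K F'] [Algebra F F']
  [IsScalarTower K F F'] [Algebra.IsIntegral F F'] [HasPrincipalDivisors K F']

/-- **(TRANSFER), single-class counting form.** For a generator pair `v₁ ~ v₂` satisfying the
landed `H87.TransferAt`, the places above `v₁` and above `v₂` in the residue class of any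
place `w₀` have the same total ramification. -/
theorem fiberMass_sameCharAt_eq (R' : Subring F') {v₁ v₂ : Place K F}
    (h : TransferAt A R' v₁ v₂) (w₀ : Place K F')
    [DecidablePred fun w : Place K F' => SameCharAt A R' w w₀] :
    fiberMass F' (fun w => SameCharAt A R' w w₀) v₁ =
      fiberMass F' (fun w => SameCharAt A R' w w₀) v₂ := by
  by_cases h₀ : IsFin A R' w₀
  · exact fiberMass_eq_of_transferAt A R' v₁ v₂ h (fun χ => χ = charOf h₀) _
      (fun w => sameCharAt_iff h₀)
  · refine fiberMass_eq_of_transferAt A R' v₁ v₂ h (fun _ => False) _ (fun w => ?_)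
    constructor
    · intro hw
      exact (not_sameCharAt_of_not_isFin h₀ w hw).elim
    · rintro ⟨-, hF⟩
      exact hF.elim

/-- The same with the sums written out (the literal line of the consumer). -/
theorem sum_fiber_sameCharAt_eq (R' : Subring F') {v₁ v₂ : Place K F}
    (h : TransferAt A R' v₁ v₂) (w₀ : Place K F')
    [DecidablePred fun w : Place K F' => SameCharAt A R' w w₀] :
    ∑ w ∈ (v₁.fiber F').filter (fun w => SameCharAt A R' w w₀), (w.ramificationIndex F : ℤ) =
      ∑ w ∈ (v₂.fiber F').filter (fun w => SameCharAt A R' w w₀),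
        (w.ramificationIndex F : ℤ) :=
  fiberMass_sameCharAt_eq A R' h w₀

/-- **`hT`** for the support of the pullback: a place upstairs at which `f` has nonzero order
lies in the support of the pullback of `D`, if `m • D = div f`. -/
theorem mem_support_pullback_of_ord_ne_zero' {D : Divisor K F} {f : F} {m : ℕ}
    (hdiv : ∀ P : Place K F, (m • D) P = P.ord f) {w : Place K F'}
    (hw : w.ord (algebraMap F F' f) ≠ 0) : w ∈ (Divisor.pullback F' D).support := by
  rw [Finsupp.mem_support_iff]
  intro h
  apply hw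
  rw [← Divisor.pullback_apply_eq_ord hdiv w, map_nsmul, Finsupp.smul_apply, h, smul_zero]

/-- **(A1) = the `Qbar`-level `hsum`, instance-free form.** `D ∈ Div~` (closure of the
`P - P'`, `rel P P'`), every generator pair satisfies (TRANSFER) on the chart `R'`,
`m • D = div f`. Then for every place `w₀` upstairs the total order of `f` along the places of
a finite set `T ⊇ supp (div f)` in the residue class of `w₀` is `0`. -/
theorem hsum_of_transferAt (rel : Place K F → Place K F → Prop) (R' : Subring F')
    (hR : ∀ P P', rel P P' → TransferAt A R' P P')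
    {D : Divisor K F}
    (hD : D ∈ AddSubgroup.closure
      {d : Divisor K F | ∃ P P', rel P P' ∧ d = Finsupp.single P 1 - Finsupp.single P' 1})
    (m : ℕ) (f : F) (hdiv : ∀ P : Place K F, (m • D) P = P.ord f)
    (w₀ : Place K F') (T : Finset (Place K F'))
    (hT : ∀ w, w.ord (algebraMap F F' f) ≠ 0 → w ∈ T)
    (S : Finset (Place K F'))
    (hS : ∀ w, w ∈ S ↔ w ∈ T ∧ ∀ y ∈ R', ∃ c c' : K, c ∈ A ∧ c' ∈ A ∧ EvalAt w y c ∧
      EvalAt w₀ y c' ∧ c - c' ∈ A.nonunits) :
    ∑ w ∈ S, w.ord (algebraMap F F' f) = 0 := by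
  classical
  refine sum_ord_algebraMap_eq_zero (fun w => SameCharAt A R' w w₀) rel
    (fun P P' h => fiberMass_sameCharAt_eq A R' (hR P P' h) w₀) hD (m : ℤ) f (fun P => ?_) S
    (fun w hp hne => (hS w).mpr ⟨hT w hne, hp⟩) (fun w hw => ((hS w).mp hw).2)
  rw [← hdiv P, Finsupp.smul_apply, nsmul_eq_mul]

open Classical in
/-- **(A1)**, filter form (classical decidability), for `T` any finite superset of the zeros
and poles of `f` upstairs. -/
theorem hsum_filter_of_transferAt (rel : Place K F → Place K F → Prop) (R' : Subring F')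
    (hR : ∀ P P', rel P P' → TransferAt A R' P P')
    {D : Divisor K F}
    (hD : D ∈ AddSubgroup.closure
      {d : Divisor K F | ∃ P P', rel P P' ∧ d = Finsupp.single P 1 - Finsupp.single P' 1})
    (m : ℕ) (f : F) (hdiv : ∀ P : Place K F, (m • D) P = P.ord f)
    (T : Finset (Place K F')) (hT : ∀ w, w.ord (algebraMap F F' f) ≠ 0 → w ∈ T)
    (w₀ : Place K F') :
    ∑ w ∈ T.filter (fun w => SameCharAt A R' w w₀), w.ord (algebraMap F F' f) = 0 :=
  hsum_of_transferAt A rel R' hR hD m f hdiv w₀ T hT _ (fun _ => Finset.mem_filter)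

end Transfer

end

end Fermat.Agent.S37.H86
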