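/-
S37, node TOP (helper27): the frozen statement from a "reduction kernel" `K1` at each prime.

`K1Data N ℓ hℓ A φ`: an additive subgroup `K1` of `J₀(N)` (think: classes of divisors whose
reduction at `A` is the zero divisor) such that
 (a) `K1` has no torsion of order prime to `ℓ`;
 (b) inertia at `A` acts trivially modulo `K1`;
 (c) the Frobenius element `φ` preserves `K1`;
 (d) `φ² - T_ℓ φ + ℓ` maps `J₀(N)` into `K1` (Eichler-Shimura congruence relation).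
`result_of_K1`: from that data at every `ℓ ∤ N`, `A`, `φ`, the packaged statement
`SpecializationExists` (with `J' = J / K0`, `K0` the largest Hecke submodule inside `K1`).
-/
import Mathlib
import Fermat.Prelude.Def_ModularCurve_HeckeModule
import Fermat.Agent.S54.Frob

set_option autoImplicit false

open ModularCurve

namespace Fermat.Agent.S37.H27

/-- The data at one prime: see the file header. -/
def K1Data (N : ℕ) [NeZero N] (ℓ : ℕ) (hℓ : ℓ.Prime)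
    (A : ValuationSubring (AlgebraicClosure ℚ))
    (φ : AlgebraicClosure ℚ ≃ₐ[ℚ] AlgebraicClosure ℚ) : Prop :=
  ∃ K1 : AddSubgroup (JZero N),
    (∀ x ∈ K1, ∀ m : ℕ, ¬ ℓ ∣ m → m • x = 0 → x = 0) ∧
    (∀ σ ∈ A.inertiaSubgroupIn ℚ, ∀ x : JZero N, σ • x - x ∈ K1) ∧
    (∀ x ∈ K1, φ • x ∈ K1) ∧
    (∀ x : JZero N, φ • φ • x - heckeOperatorBar N ⟨ℓ, hℓ⟩ (φ • x) + ℓ • x ∈ K1)

/-- Two Frobenius elements at `A` differ by an element of the inertia group. -/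
theorem inv_mul_mem_inertiaSubgroupIn {A : ValuationSubring (AlgebraicClosure ℚ)} {ℓ : ℕ}
    {φ σ : AlgebraicClosure ℚ ≃ₐ[ℚ] AlgebraicClosure ℚ}
    (hφ : A.IsFrobeniusAt φ ℓ) (hσ : A.IsFrobeniusAt σ ℓ) :
    φ⁻¹ * σ ∈ A.inertiaSubgroupIn ℚ := by
  obtain ⟨hφd, hφr⟩ := hφ
  obtain ⟨hσd, hσr⟩ := hσ
  refine ⟨(⟨φ, hφd⟩ : A.decompositionSubgroup ℚ)⁻¹ * ⟨σ, hσd⟩, ?_, rfl⟩
  show _ ∈ MonoidHom.ker _
  rw [MonoidHom.mem_ker]
  ext x
  show ((⟨φ, hφd⟩ : A.decompositionSubgroup ℚ)⁻¹ * ⟨σ, hσd⟩) • x = x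
  rw [mul_smul, hσr x, ← hφr x, inv_smul_smul]

/-- **TOP**: the frozen statement S37 from `K1Data` at every prime `ℓ ∤ N`. -/
theorem result_of_K1 (N p : ℕ) [NeZero N] (hcomm : ModularCurve.HeckeOperatorsCommuteBar N)
    (hK1 : ∀ (ℓ : ℕ) (hℓ : ℓ.Prime), ¬ ℓ ∣ N →
      ∀ A : ValuationSubring (AlgebraicClosure ℚ), A.LiesOverPrime ℓ →
      ∀ φ : AlgebraicClosure ℚ ≃ₐ[ℚ] AlgebraicClosure ℚ, A.IsFrobeniusAt φ ℓ →
        K1Data N ℓ hℓ A φ) :
    letI := ModularCurve.heckeModuleBar N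
    ∀ (_ : SMulCommClass (AlgebraicClosure ℚ ≃ₐ[ℚ] AlgebraicClosure ℚ) ModularCurve.HeckeAlg
        (ModularCurve.JZero N)),
      ModularCurve.SpecializationExists (K := ℚ) (L := AlgebraicClosure ℚ) N p
        (ModularCurve.JZero N) := by
  letI := ModularCurve.heckeModuleBar N
  intro hsm ℓ hℓ hℓNp A hA
  have hℓN : ¬ ℓ ∣ N := fun h => hℓNp (dvd_mul_of_dvd_left h p)
  have hℓp : ¬ ℓ ∣ p := fun h => hℓNp (dvd_mul_of_dvd_right h N)
  haveI := Fermat.Agent.S54.H86.isGalois_algebraicClosure_rat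
  obtain ⟨φ, hφ⟩ := Fermat.Agent.S54.H86.exists_isFrobeniusAt A hℓ hA
  obtain ⟨K1, ha, hb, hc, hd⟩ := hK1 ℓ hℓ hℓN A hA φ hφ
  haveI : SMulCommClass HeckeAlg (AlgebraicClosure ℚ ≃ₐ[ℚ] AlgebraicClosure ℚ) (JZero N) :=
    SMulCommClass.symm _ _ _
  -- the largest Hecke submodule inside `K1`
  let K0 : Submodule HeckeAlg (JZero N) :=
    { carrier := {x | ∀ T : HeckeAlg, T • x ∈ K1}
      add_mem' := fun {x y} hx hy T => by
        rw [smul_add]; exact K1.add_mem (hx T) (hy T)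
      zero_mem' := fun T => by
        rw [smul_zero]; exact K1.zero_mem
      smul_mem' := fun c x hx T => by
        rw [← mul_smul]; exact hx (T * c) }
  have hK0mem : ∀ x : JZero N, x ∈ K0 ↔ ∀ T : HeckeAlg, T • x ∈ K1 := fun x => Iff.rfl
  have hK0le : ∀ x ∈ K0, x ∈ K1 := fun x hx => by
    have := hx 1
    rwa [one_smul] at this
  have hK0φ : ∀ x ∈ K0, φ • x ∈ K0 := fun x hx T => by
    rw [smul_comm T φ x]
    exact hc _ (hx T)
  have hK0in : ∀ σ ∈ A.inertiaSubgroupIn ℚ, ∀ x : JZero N, σ • x - x ∈ K0 :=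
    fun σ hσ x T => by
      rw [smul_sub, smul_comm T σ x]
      exact hb σ hσ (T • x)
  let Fl : JZero N →ₗ[HeckeAlg] JZero N := DistribSMul.toLinearMap HeckeAlg (JZero N) φ
  have hFl : ∀ x : JZero N, Fl x = φ • x := fun x => rfl
  let F : (JZero N ⧸ K0) →ₗ[HeckeAlg] (JZero N ⧸ K0) :=
    K0.mapQ K0 Fl (fun x hx => hK0φ x hx)
  have hF : ∀ x : JZero N, F (K0.mkQ x) = K0.mkQ (φ • x) := fun x => rfl
  refine ⟨JZero N ⧸ K0, inferInstance, inferInstance, K0.mkQ.toAddMonoidHom, F.toAddMonoidHom,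
    ⟨?_, ?_, ?_, ?_⟩, ?_⟩
  · -- hecke_comm
    intro T x
    exact map_smul K0.mkQ T x
  · -- inertia_comm
    intro σ hσ x
    exact (Submodule.Quotient.eq K0).mpr (hK0in σ hσ x)
  · -- frobenius_comm
    intro σ hσ x
    show K0.mkQ (σ • x) = F (K0.mkQ x)
    rw [hF]
    refine (Submodule.Quotient.eq K0).mpr ?_
    have h1 := hK0φ _ (hK0in _ (inv_mul_mem_inertiaSubgroupIn hφ hσ) x)
    rwa [smul_sub, mul_smul, smul_inv_smul] at h1
  · -- injective_torsion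
    rintro x ⟨n, hn⟩ hx
    have hxK0 : x ∈ K0 := (Submodule.Quotient.mk_eq_zero K0).mp hx
    exact ha x (hK0le x hxK0) (p ^ n) (fun h => hℓp (hℓ.dvd_of_dvd_pow h)) hn
  · -- SpecialFibreRelation
    intro y
    obtain ⟨x, rfl⟩ := K0.mkQ_surjective y
    show F (F (K0.mkQ x)) - heckeGen ⟨ℓ, hℓ⟩ • F (K0.mkQ x) + ℓ • K0.mkQ x = 0
    rw [hF, hF, ← map_smul, ← map_nsmul, ← map_sub, ← map_add]
    refine (Submodule.Quotient.mk_eq_zero K0).mpr ?_
    intro T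
    have h1 := hd (T • x)
    rw [← heckeModuleBar_heckeGen_smul hcomm] at h1
    have h2 : T • (φ • φ • x - heckeGen ⟨ℓ, hℓ⟩ • φ • x + ℓ • x)
        = φ • φ • T • x - heckeGen ⟨ℓ, hℓ⟩ • φ • T • x + ℓ • T • x := by
      rw [smul_add, smul_sub, smul_comm T φ (φ • x), smul_comm T φ x,
        smul_comm T (heckeGen ⟨ℓ, hℓ⟩) (φ • x), smul_comm T φ x, smul_comm T ℓ x]
    rw [h2]
    exact h1

end Fermat.Agent.S37.H27
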