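import Mathlib
import Fermat.Prelude.Def_ModularCurve_HeckeModule
import Fermat.Agent.S37.Top_helper27

/-!
# S37: the generic `K1` skeleton (helper96)

For an ARBITRARY relation `rel` on the places of a function field, `divSim rel` is the subgroup
of divisors generated by the `a - b` with `rel a b`, and `k1 rel` is the group of classes of the
degree-zero divisors in `divSim rel`.  For `Fbar_N` and the frozen Galois / Hecke actions:

* `k1_inertia` : `(∀ σ ∈ inertia, ∀ P, rel (σ P) P) → ∀ σ ∈ inertia, ∀ x, σ • x - x ∈ k1 rel`;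
* `k1_es` : `(HI)` and `∀ P, φφP - T_ℓ(φP) + ℓ P ∈ divSim rel`
  `→ ∀ x, φ • φ • x - heckeOperatorBar N ℓ (φ • x) + ℓ • x ∈ k1 rel`;
* `k1_torsion` : `(∀ D ∈ divSim rel, ∀ m, ¬ ℓ ∣ m → m • D principal → D principal)`
  `→ ∀ x ∈ k1 rel, ∀ m, ¬ ℓ ∣ m → m • x = 0 → x = 0`;
* `es_shift` : the Eichler–Shimura shape `T_ℓ(P) - φP - ℓ φ⁻¹P ∈ divSim rel` (all `P`) gives the
  shifted shape `φφP - T_ℓ(φP) + ℓ P ∈ divSim rel` consumed by `k1_es`;
* `k1Data_of_rel`, `RelData`, `result_of_relData` : the corollaries for `H27.K1Data` and the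
  frozen statement through `H27.result_of_K1`.
-/

set_option autoImplicit false

open ModularCurve AlgebraicCurve

namespace Fermat.Agent.S37.H96

noncomputable section

section Generic

variable {K F : Type*} [Field K] [Field F] [Algebra K F]

/-- The subgroup of divisors generated by the differences `a - b` of related places. -/
def divSim (rel : Place K F → Place K F → Prop) : AddSubgroup (Divisor K F) :=
  AddSubgroup.closure {d | ∃ a b, rel a b ∧ d = Finsupp.single a 1 - Finsupp.single b 1}

theorem single_sub_single_mem_divSim {rel : Place K F → Place K F → Prop} {a b : Place K F}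
    (h : rel a b) : (Finsupp.single a 1 - Finsupp.single b 1 : Divisor K F) ∈ divSim rel :=
  AddSubgroup.subset_closure ⟨a, b, h, rfl⟩

theorem divSim_mono {rel rel' : Place K F → Place K F → Prop}
    (h : ∀ a b, rel a b → rel' a b) : divSim rel ≤ divSim rel' := by
  apply AddSubgroup.closure_mono
  rintro d ⟨a, b, hab, rfl⟩
  exact ⟨a, b, h a b hab, rfl⟩

/-- A closure over a set of differences of related places lies in `divSim`. -/
theorem closure_le_divSim {rel : Place K F → Place K F → Prop} {S : Set (Divisor K F)}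
    (h : ∀ d ∈ S, ∃ a b, rel a b ∧ d = Finsupp.single a 1 - Finsupp.single b 1) :
    AddSubgroup.closure S ≤ divSim rel :=
  AddSubgroup.closure_mono fun d hd => h d hd

theorem single_eq_zsmul (P : Place K F) (n : ℤ) :
    (Finsupp.single P n : Divisor K F) = n • Finsupp.single P 1 := by
  rw [Finsupp.smul_single, smul_eq_mul, mul_one]

/-- If `g` moves every place inside its class, then `g • D - D ∈ divSim` for every divisor. -/
theorem smul_sub_mem_divSim (g : SemilinearAut K F) (rel : Place K F → Place K F → Prop)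
    (h : ∀ P, rel (g • P) P) (D : Divisor K F) : g • D - D ∈ divSim rel := by
  induction D using Finsupp.induction_linear with
  | zero => rw [smul_zero, sub_zero]; exact (divSim rel).zero_mem
  | add D E hD hE =>
    have e : g • (D + E) - (D + E) = (g • D - D) + (g • E - E) := by
      rw [smul_add]; abel
    rw [e]
    exact (divSim rel).add_mem hD hE
  | single P n =>
    have e : g • (Finsupp.single P n : Divisor K F) - Finsupp.single P n =
        n • (Finsupp.single (g • P) 1 - Finsupp.single P 1) := by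
      rw [SemilinearAut.smul_single, smul_sub, ← single_eq_zsmul, ← single_eq_zsmul]
    rw [e]
    exact (divSim rel).zsmul_mem (single_sub_single_mem_divSim (h P)) n

/-- If `g` preserves `rel`, it preserves `divSim rel`. -/
theorem smul_mem_divSim (g : SemilinearAut K F) (rel : Place K F → Place K F → Prop)
    (h : ∀ a b, rel a b → rel (g • a) (g • b)) {D : Divisor K F} (hD : D ∈ divSim rel) :
    g • D ∈ divSim rel := by
  induction hD using AddSubgroup.closure_induction with
  | mem d hd =>
    obtain ⟨a, b, hab, rfl⟩ := hd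
    rw [smul_sub, SemilinearAut.smul_single, SemilinearAut.smul_single]
    exact single_sub_single_mem_divSim (h a b hab)
  | zero => rw [smul_zero]; exact (divSim rel).zero_mem
  | add D E _ _ hD hE => rw [smul_add]; exact (divSim rel).add_mem hD hE
  | neg D _ hD => rw [smul_neg]; exact (divSim rel).neg_mem hD

/-- Linearity of the quadratic relation: if `g g P - T (g P) + n P ∈ divSim` for every place `P`,
the same holds for every divisor. -/
theorem quadratic_mem_divSim (g : SemilinearAut K F) (rel : Place K F → Place K F → Prop)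
    (T : Divisor K F →+ Divisor K F) (n : ℕ)
    (h : ∀ P : Place K F, g • g • (Finsupp.single P 1 : Divisor K F) -
      T (g • Finsupp.single P 1) + n • Finsupp.single P 1 ∈ divSim rel)
    (D : Divisor K F) : g • g • D - T (g • D) + n • D ∈ divSim rel := by
  induction D using Finsupp.induction_linear with
  | zero =>
    rw [smul_zero, smul_zero, map_zero, smul_zero, sub_zero, add_zero]
    exact (divSim rel).zero_mem
  | add D E hD hE =>
    have e : g • g • (D + E) - T (g • (D + E)) + n • (D + E) =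
        (g • g • D - T (g • D) + n • D) + (g • g • E - T (g • E) + n • E) := by
      rw [smul_add, smul_add, map_add, smul_add]; abel
    rw [e]
    exact (divSim rel).add_mem hD hE
  | single P k =>
    have e : g • g • (Finsupp.single P k : Divisor K F) - T (g • Finsupp.single P k) +
          n • Finsupp.single P k =
        k • (g • g • (Finsupp.single P 1 : Divisor K F) - T (g • Finsupp.single P 1) +
          n • Finsupp.single P 1) := by
      rw [single_eq_zsmul P k, smul_comm g k, smul_comm g k, map_zsmul,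
        smul_comm n k, smul_add, smul_sub]
    rw [e]
    exact (divSim rel).zsmul_mem (h P) k

/-- The classes of the degree-zero divisors in `divSim rel`. -/
def k1 (rel : Place K F → Place K F → Prop) : AddSubgroup (Pic0 K F) where
  carrier := {x | ∃ D : Divisor.degZero (K := K) (F := F),
    (D : Divisor K F) ∈ divSim rel ∧ Pic0.mk D = x}
  zero_mem' := ⟨0, (divSim rel).zero_mem, rfl⟩
  add_mem' := by
    rintro _ _ ⟨D, hD, rfl⟩ ⟨E, hE, rfl⟩
    exact ⟨D + E, (divSim rel).add_mem hD hE, rfl⟩
  neg_mem' := by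
    rintro _ ⟨D, hD, rfl⟩
    exact ⟨-D, (divSim rel).neg_mem hD, rfl⟩

theorem mk_mem_k1 {rel : Place K F → Place K F → Prop}
    {D : Divisor.degZero (K := K) (F := F)} (hD : (D : Divisor K F) ∈ divSim rel) :
    Pic0.mk D ∈ k1 rel :=
  ⟨D, hD, rfl⟩

/-- `(b)`/`(c)` on classes. -/
theorem smul_sub_mem_k1 (g : SemilinearAut K F) (rel : Place K F → Place K F → Prop)
    (h : ∀ P, rel (g • P) P) (x : Pic0 K F) : g • x - x ∈ k1 rel := by
  obtain ⟨D, rfl⟩ := Pic0.mk_surjective x
  rw [SemilinearAut.pic0_smul_mk]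
  exact ⟨SemilinearAut.degZeroSMulHom g D - D, smul_sub_mem_divSim g rel h (D : Divisor K F), rfl⟩

theorem smul_mem_k1 (g : SemilinearAut K F) (rel : Place K F → Place K F → Prop)
    (h : ∀ a b, rel a b → rel (g • a) (g • b)) {x : Pic0 K F} (hx : x ∈ k1 rel) :
    g • x ∈ k1 rel := by
  obtain ⟨D, hD, rfl⟩ := hx
  rw [SemilinearAut.pic0_smul_mk]
  exact ⟨SemilinearAut.degZeroSMulHom g D, smul_mem_divSim g rel h hD, rfl⟩

/-- `(a)` on classes: no `m`-torsion in `k1 rel`. -/
theorem eq_zero_of_mem_k1 (rel : Place K F → Place K F → Prop) (m : ℕ)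
    (h : ∀ D ∈ divSim rel, m • D ∈ Divisor.principal (K := K) (F := F) →
      D ∈ Divisor.principal (K := K) (F := F))
    {x : Pic0 K F} (hx : x ∈ k1 rel) (hmx : m • x = 0) : x = 0 := by
  obtain ⟨D, hD, rfl⟩ := hx
  have h1 : Pic0.mk (m • D) = 0 := hmx
  have h2 : ((m • D : Divisor.degZero (K := K) (F := F)) : Divisor K F) ∈
      Divisor.principal (K := K) (F := F) :=
    AddSubgroup.mem_addSubgroupOf.mp ((QuotientAddGroup.eq_zero_iff _).mp h1)
  rw [AddSubgroup.coe_nsmul] at h2
  have h3 := h (D : Divisor K F) hD h2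
  exact (QuotientAddGroup.eq_zero_iff _).mpr (AddSubgroup.mem_addSubgroupOf.mpr h3)

/-- The pointwise quadratic relation, from its form on single places. -/
theorem quadratic_pointwise_of_single (g : SemilinearAut K F)
    (rel : Place K F → Place K F → Prop) (Tdiv : Divisor K F →+ Divisor K F) (n : ℕ)
    (h : ∀ P : Place K F, Finsupp.single (g • g • P) 1 - Tdiv (Finsupp.single (g • P) 1) +
      n • Finsupp.single P (1 : ℤ) ∈ divSim rel) (P : Place K F) :
    g • g • (Finsupp.single P 1 : Divisor K F) - Tdiv (g • Finsupp.single P 1) +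
      n • Finsupp.single P 1 ∈ divSim rel := by
  rw [SemilinearAut.smul_single, SemilinearAut.smul_single]
  exact h P

/-- `(d)` on classes: the quadratic relation, from its pointwise form on divisors. -/
theorem quadratic_mem_k1 (g : SemilinearAut K F) (rel : Place K F → Place K F → Prop)
    (Tdiv : Divisor K F →+ Divisor K F)
    (C : Divisor.degZero (K := K) (F := F) →+ Divisor.degZero (K := K) (F := F))
    (hC : ∀ E : Divisor.degZero (K := K) (F := F), (C E : Divisor K F) = Tdiv E)
    (T : Pic0 K F → Pic0 K F) (hT : ∀ E, T (Pic0.mk E) = Pic0.mk (C E)) (n : ℕ)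
    (h : ∀ P : Place K F, g • g • (Finsupp.single P 1 : Divisor K F) -
      Tdiv (g • Finsupp.single P 1) + n • Finsupp.single P 1 ∈ divSim rel)
    (x : Pic0 K F) : g • g • x - T (g • x) + n • x ∈ k1 rel := by
  obtain ⟨D, rfl⟩ := Pic0.mk_surjective x
  have hx : g • g • Pic0.mk D - T (g • Pic0.mk D) + n • Pic0.mk D =
      Pic0.mk (SemilinearAut.degZeroSMulHom g (SemilinearAut.degZeroSMulHom g D) -
        C (SemilinearAut.degZeroSMulHom g D) + n • D) := by
    rw [SemilinearAut.pic0_smul_mk, SemilinearAut.pic0_smul_mk, hT]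
    rfl
  rw [hx]
  refine mk_mem_k1 ?_
  have key := quadratic_mem_divSim g rel Tdiv n h (D : Divisor K F)
  have e : ((SemilinearAut.degZeroSMulHom g (SemilinearAut.degZeroSMulHom g D) -
        C (SemilinearAut.degZeroSMulHom g D) + n • D :
        Divisor.degZero (K := K) (F := F)) : Divisor K F) =
      g • g • (D : Divisor K F) - Tdiv (g • (D : Divisor K F)) + n • (D : Divisor K F) := by
    rw [AddSubgroup.coe_add, AddSubgroup.coe_sub, AddSubgroup.coe_nsmul, hC]
    rfl
  rw [e]
  exact key

/-- The Eichler–Shimura shape `T P - g P - n g'P ∈ divSim` (`g'` a left inverse of `g` on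
places) at every place gives the shifted shape `g g P - T (g P) + n P ∈ divSim`. -/
theorem es_shift_generic (g g' : SemilinearAut K F) (hg : ∀ P : Place K F, g' • g • P = P)
    (rel : Place K F → Place K F → Prop) (Tdiv : Divisor K F →+ Divisor K F) (n : ℕ)
    (hes : ∀ P : Place K F, Tdiv (Finsupp.single P 1) - Finsupp.single (g • P) 1 -
      n • Finsupp.single (g' • P) (1 : ℤ) ∈ divSim rel) (P : Place K F) :
    Finsupp.single (g • g • P) 1 - Tdiv (Finsupp.single (g • P) 1) +
      n • Finsupp.single P (1 : ℤ) ∈ divSim rel := by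
  have h1 := hes (g • P)
  rw [hg] at h1
  have h3 := (divSim rel).neg_mem h1
  have e : Finsupp.single (g • g • P) 1 - Tdiv (Finsupp.single (g • P) 1) +
        n • Finsupp.single P (1 : ℤ) =
      -(Tdiv (Finsupp.single (g • P) 1) - Finsupp.single (g • g • P) 1 -
        n • Finsupp.single P (1 : ℤ)) := by
    abel
  rw [e]
  exact h3

/-- `(d)` on classes, from the shifted relation on single places. -/
theorem quadratic_mem_k1_of_single (g : SemilinearAut K F) (rel : Place K F → Place K F → Prop)
    (Tdiv : Divisor K F →+ Divisor K F)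
    (C : Divisor.degZero (K := K) (F := F) →+ Divisor.degZero (K := K) (F := F))
    (hC : ∀ E : Divisor.degZero (K := K) (F := F), (C E : Divisor K F) = Tdiv E)
    (T : Pic0 K F → Pic0 K F) (hT : ∀ E, T (Pic0.mk E) = Pic0.mk (C E)) (n : ℕ)
    (h : ∀ P : Place K F, Finsupp.single (g • g • P) 1 - Tdiv (Finsupp.single (g • P) 1) +
      n • Finsupp.single P (1 : ℤ) ∈ divSim rel)
    (x : Pic0 K F) : g • g • x - T (g • x) + n • x ∈ k1 rel :=
  quadratic_mem_k1 g rel Tdiv C hC T hT n (quadratic_pointwise_of_single g rel Tdiv n h) x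

end Generic

section Modular

variable {N : ℕ} [NeZero N]

/-- The frozen Hecke operator on a class, through the frozen correspondence on divisors. -/
theorem heckeOperatorBar_mk {ℓ : ℕ} [NeZero ℓ] (hℓ : ℓ.Prime)
    (hα : HeckeAlphaBarIntegral (AlgebraicClosure ℚ) N ℓ)
    (hβ : HeckeBetaBarIntegral (AlgebraicClosure ℚ) N ℓ)
    [HasPrincipalDivisors (AlgebraicClosure ℚ)
      (laurentBaseChange (AlgebraicClosure ℚ) (modularFunctionFieldFull (N * ℓ)))]
    (hFI : FundamentalIdentityAlong (AlgebraicClosure ℚ)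
      (heckeBetaBar (AlgebraicClosure ℚ) N ℓ) hβ)
    (hfin : FiniteAlong (AlgebraicClosure ℚ) (heckeAlphaBar (AlgebraicClosure ℚ) N ℓ))
    (hN : NormFormulaAlong (AlgebraicClosure ℚ) (heckeAlphaBar (AlgebraicClosure ℚ) N ℓ) hfin)
    (D : Divisor.degZero (K := AlgebraicClosure ℚ) (F := modularFunctionFieldBar N)) :
    heckeOperatorBar N ⟨ℓ, hℓ⟩ (Pic0.mk D) =
      Pic0.mk (Pic0.degZeroCorrespondence (heckeBetaBar (AlgebraicClosure ℚ) N ℓ)
        (heckeAlphaBar (AlgebraicClosure ℚ) N ℓ) hβ hα hFI D) := by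
  show heckeOperatorAlong (AlgebraicClosure ℚ) N ℓ (Pic0.mk D) = _
  rw [heckeOperatorAlong_eq hα hβ hFI hfin hN]
  rfl

omit [NeZero N] in
/-- **(b)** inertia acts trivially modulo `k1 rel`. -/
theorem k1_inertia (A : ValuationSubring (AlgebraicClosure ℚ))
    (rel : Place (AlgebraicClosure ℚ) (modularFunctionFieldBar N) →
      Place (AlgebraicClosure ℚ) (modularFunctionFieldBar N) → Prop)
    (Rb : ∀ σ ∈ A.inertiaSubgroupIn ℚ,
      ∀ P : Place (AlgebraicClosure ℚ) (modularFunctionFieldBar N),
        rel (arithmeticGalois (modularFunctionFieldFull N) σ • P) P) :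
    ∀ σ ∈ A.inertiaSubgroupIn ℚ, ∀ x : JZero N, σ • x - x ∈ k1 rel := fun σ hσ x =>
  smul_sub_mem_k1 (arithmeticGalois (modularFunctionFieldFull N) σ) rel (Rb σ hσ) x

omit [NeZero N] in
/-- **(c)** (only needed for `H27.K1Data`) a `rel`-preserving element preserves `k1 rel`. -/
theorem k1_smul_mem (φ : AlgebraicClosure ℚ ≃ₐ[ℚ] AlgebraicClosure ℚ)
    (rel : Place (AlgebraicClosure ℚ) (modularFunctionFieldBar N) →
      Place (AlgebraicClosure ℚ) (modularFunctionFieldBar N) → Prop)
    (Rc : ∀ a b : Place (AlgebraicClosure ℚ) (modularFunctionFieldBar N), rel a b →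
      rel (arithmeticGalois (modularFunctionFieldFull N) φ • a)
        (arithmeticGalois (modularFunctionFieldFull N) φ • b)) :
    ∀ x ∈ k1 rel, φ • x ∈ k1 rel := fun _ hx =>
  smul_mem_k1 (arithmeticGalois (modularFunctionFieldFull N) φ) rel Rc hx

omit [NeZero N] in
/-- The Eichler–Shimura shape at every place gives the shifted shape consumed by `k1_es`. -/
theorem es_shift (φ : AlgebraicClosure ℚ ≃ₐ[ℚ] AlgebraicClosure ℚ)
    (rel : Place (AlgebraicClosure ℚ) (modularFunctionFieldBar N) →
      Place (AlgebraicClosure ℚ) (modularFunctionFieldBar N) → Prop)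
    (Tdiv : Divisor (AlgebraicClosure ℚ) (modularFunctionFieldBar N) →+
      Divisor (AlgebraicClosure ℚ) (modularFunctionFieldBar N)) (n : ℕ)
    (hes : ∀ P : Place (AlgebraicClosure ℚ) (modularFunctionFieldBar N),
      Tdiv (Finsupp.single P 1) -
          Finsupp.single (arithmeticGalois (modularFunctionFieldFull N) φ • P) 1 -
          n • Finsupp.single (arithmeticGalois (modularFunctionFieldFull N) φ⁻¹ • P) (1 : ℤ) ∈
        divSim rel)
    (P : Place (AlgebraicClosure ℚ) (modularFunctionFieldBar N)) :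
    Finsupp.single (arithmeticGalois (modularFunctionFieldFull N) φ •
          arithmeticGalois (modularFunctionFieldFull N) φ • P) 1 -
        Tdiv (Finsupp.single (arithmeticGalois (modularFunctionFieldFull N) φ • P) 1) +
        n • Finsupp.single P (1 : ℤ) ∈ divSim rel :=
  es_shift_generic (arithmeticGalois (modularFunctionFieldFull N) φ)
    (arithmeticGalois (modularFunctionFieldFull N) φ⁻¹)
    (fun Q => by rw [map_inv, inv_smul_smul]) rel Tdiv n hes P

set_option maxHeartbeats 400000 in
/-- **(d)** the Eichler–Shimura relation modulo `k1 rel`, from `(HI)` and the shifted relation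
`φφP - T_ℓ(φP) + ℓ P ∈ divSim rel` on single places (`T_ℓ = heckeDivBar`, the frozen
correspondence `α_* β^*` on divisors). -/
theorem k1_es {ℓ : ℕ} [NeZero ℓ] (hℓ : ℓ.Prime)
    (φ : AlgebraicClosure ℚ ≃ₐ[ℚ] AlgebraicClosure ℚ)
    (rel : Place (AlgebraicClosure ℚ) (modularFunctionFieldBar N) →
      Place (AlgebraicClosure ℚ) (modularFunctionFieldBar N) → Prop)
    (hHI : HeckeInputsAlong (AlgebraicClosure ℚ) N ℓ)
    (Rd : ∀ (hα : HeckeAlphaBarIntegral (AlgebraicClosure ℚ) N ℓ)
      (hβ : HeckeBetaBarIntegral (AlgebraicClosure ℚ) N ℓ)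
      (_ : HasPrincipalDivisors (AlgebraicClosure ℚ)
        (laurentBaseChange (AlgebraicClosure ℚ) (modularFunctionFieldFull (N * ℓ))))
      (P : Place (AlgebraicClosure ℚ) (modularFunctionFieldBar N)),
        Finsupp.single (arithmeticGalois (modularFunctionFieldFull N) φ •
            arithmeticGalois (modularFunctionFieldFull N) φ • P) 1 -
          heckeDivBar hα hβ
            (Finsupp.single (arithmeticGalois (modularFunctionFieldFull N) φ • P) 1) +
          ℓ • Finsupp.single P (1 : ℤ) ∈ divSim rel) :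
    ∀ x : JZero N, φ • φ • x - heckeOperatorBar N ⟨ℓ, hℓ⟩ (φ • x) + ℓ • x ∈ k1 rel := by
  obtain ⟨hα, hβ, hP, hfin, hFI, hN⟩ := hHI
  intro x
  have key := quadratic_mem_k1_of_single (K := AlgebraicClosure ℚ)
    (F := modularFunctionFieldBar N)
    (arithmeticGalois (modularFunctionFieldFull N) φ) rel
    (heckeDivBar hα hβ)
    (Pic0.degZeroCorrespondence (heckeBetaBar (AlgebraicClosure ℚ) N ℓ)
      (heckeAlphaBar (AlgebraicClosure ℚ) N ℓ) hβ hα hFI)
    (fun E => rfl)
    (fun y => heckeOperatorBar N ⟨ℓ, hℓ⟩ y)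
    (fun E => heckeOperatorBar_mk hℓ hα hβ hFI hfin hN E) ℓ
    (fun P => Rd hα hβ hP P) x
  exact key

omit [NeZero N] in
/-- **(a)** no prime-to-`ℓ` torsion in `k1 rel`. -/
theorem k1_torsion {ℓ : ℕ}
    (rel : Place (AlgebraicClosure ℚ) (modularFunctionFieldBar N) →
      Place (AlgebraicClosure ℚ) (modularFunctionFieldBar N) → Prop)
    (Ra : ∀ D ∈ divSim rel, ∀ m : ℕ, ¬ ℓ ∣ m →
      m • D ∈ Divisor.principal (K := AlgebraicClosure ℚ) (F := modularFunctionFieldBar N) →
      D ∈ Divisor.principal (K := AlgebraicClosure ℚ) (F := modularFunctionFieldBar N)) :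
    ∀ x ∈ k1 rel, ∀ m : ℕ, ¬ ℓ ∣ m → m • x = 0 → x = 0 := fun _ hx m hm hmx =>
  eq_zero_of_mem_k1 rel m (fun D hD => Ra D hD m hm) hx hmx

/-- **`H27.K1Data` from the four pointwise statements** (with `Rc`: `φ` preserves `rel`). -/
theorem k1Data_of_rel {ℓ : ℕ} [NeZero ℓ] (hℓ : ℓ.Prime)
    (A : ValuationSubring (AlgebraicClosure ℚ))
    (φ : AlgebraicClosure ℚ ≃ₐ[ℚ] AlgebraicClosure ℚ)
    (rel : Place (AlgebraicClosure ℚ) (modularFunctionFieldBar N) →
      Place (AlgebraicClosure ℚ) (modularFunctionFieldBar N) → Prop)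
    (Rb : ∀ σ ∈ A.inertiaSubgroupIn ℚ,
      ∀ P : Place (AlgebraicClosure ℚ) (modularFunctionFieldBar N),
        rel (arithmeticGalois (modularFunctionFieldFull N) σ • P) P)
    (Rc : ∀ a b : Place (AlgebraicClosure ℚ) (modularFunctionFieldBar N), rel a b →
      rel (arithmeticGalois (modularFunctionFieldFull N) φ • a)
        (arithmeticGalois (modularFunctionFieldFull N) φ • b))
    (hHI : HeckeInputsAlong (AlgebraicClosure ℚ) N ℓ)
    (Rd : ∀ (hα : HeckeAlphaBarIntegral (AlgebraicClosure ℚ) N ℓ)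
      (hβ : HeckeBetaBarIntegral (AlgebraicClosure ℚ) N ℓ)
      (_ : HasPrincipalDivisors (AlgebraicClosure ℚ)
        (laurentBaseChange (AlgebraicClosure ℚ) (modularFunctionFieldFull (N * ℓ))))
      (P : Place (AlgebraicClosure ℚ) (modularFunctionFieldBar N)),
        Finsupp.single (arithmeticGalois (modularFunctionFieldFull N) φ •
            arithmeticGalois (modularFunctionFieldFull N) φ • P) 1 -
          heckeDivBar hα hβ
            (Finsupp.single (arithmeticGalois (modularFunctionFieldFull N) φ • P) 1) +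
          ℓ • Finsupp.single P (1 : ℤ) ∈ divSim rel)
    (Ra : ∀ D ∈ divSim rel, ∀ m : ℕ, ¬ ℓ ∣ m →
      m • D ∈ Divisor.principal (K := AlgebraicClosure ℚ) (F := modularFunctionFieldBar N) →
      D ∈ Divisor.principal (K := AlgebraicClosure ℚ) (F := modularFunctionFieldBar N)) :
    H27.K1Data N ℓ hℓ A φ :=
  ⟨k1 rel, k1_torsion rel Ra, k1_inertia A rel Rb, k1_smul_mem φ rel Rc,
    k1_es hℓ φ rel hHI Rd⟩

/-- The four pointwise statements, bundled: the data the nodes (GAL), (HI), (ES), (a) must
deliver at one prime `ℓ`, valuation ring `A` and Frobenius element `φ`. -/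
def RelData (N : ℕ) [NeZero N] (ℓ : ℕ) (hℓ : ℓ.Prime)
    (A : ValuationSubring (AlgebraicClosure ℚ))
    (φ : AlgebraicClosure ℚ ≃ₐ[ℚ] AlgebraicClosure ℚ) : Prop :=
  haveI : NeZero ℓ := ⟨hℓ.ne_zero⟩
  ∃ rel : Place (AlgebraicClosure ℚ) (modularFunctionFieldBar N) →
      Place (AlgebraicClosure ℚ) (modularFunctionFieldBar N) → Prop,
    (∀ σ ∈ A.inertiaSubgroupIn ℚ,
      ∀ P : Place (AlgebraicClosure ℚ) (modularFunctionFieldBar N),
        rel (arithmeticGalois (modularFunctionFieldFull N) σ • P) P) ∧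
    (∀ a b : Place (AlgebraicClosure ℚ) (modularFunctionFieldBar N), rel a b →
      rel (arithmeticGalois (modularFunctionFieldFull N) φ • a)
        (arithmeticGalois (modularFunctionFieldFull N) φ • b)) ∧
    HeckeInputsAlong (AlgebraicClosure ℚ) N ℓ ∧
    (∀ (hα : HeckeAlphaBarIntegral (AlgebraicClosure ℚ) N ℓ)
      (hβ : HeckeBetaBarIntegral (AlgebraicClosure ℚ) N ℓ)
      (_ : HasPrincipalDivisors (AlgebraicClosure ℚ)
        (laurentBaseChange (AlgebraicClosure ℚ) (modularFunctionFieldFull (N * ℓ))))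
      (P : Place (AlgebraicClosure ℚ) (modularFunctionFieldBar N)),
        Finsupp.single (arithmeticGalois (modularFunctionFieldFull N) φ •
            arithmeticGalois (modularFunctionFieldFull N) φ • P) 1 -
          heckeDivBar hα hβ
            (Finsupp.single (arithmeticGalois (modularFunctionFieldFull N) φ • P) 1) +
          ℓ • Finsupp.single P (1 : ℤ) ∈ divSim rel) ∧
    (∀ D ∈ divSim rel, ∀ m : ℕ, ¬ ℓ ∣ m →
      m • D ∈ Divisor.principal (K := AlgebraicClosure ℚ) (F := modularFunctionFieldBar N) →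
      D ∈ Divisor.principal (K := AlgebraicClosure ℚ) (F := modularFunctionFieldBar N))

theorem k1Data_of_relData {ℓ : ℕ} {hℓ : ℓ.Prime} {A : ValuationSubring (AlgebraicClosure ℚ)}
    {φ : AlgebraicClosure ℚ ≃ₐ[ℚ] AlgebraicClosure ℚ} (h : RelData N ℓ hℓ A φ) :
    H27.K1Data N ℓ hℓ A φ := by
  have : NeZero ℓ := ⟨hℓ.ne_zero⟩
  obtain ⟨rel, Rb, Rc, hHI, Rd, Ra⟩ := h
  exact k1Data_of_rel hℓ A φ rel Rb Rc hHI Rd Ra

/-- **S37 from `RelData`.** The frozen statement from the four pointwise statements at every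
prime `ℓ ∤ N`, every `A` over `ℓ` and every Frobenius element `φ` at `A`. -/
theorem result_of_relData (N p : ℕ) [NeZero N] (hcomm : HeckeOperatorsCommuteBar N)
    (h : ∀ (ℓ : ℕ) (hℓ : ℓ.Prime), ¬ ℓ ∣ N →
      ∀ A : ValuationSubring (AlgebraicClosure ℚ), A.LiesOverPrime ℓ →
      ∀ φ : AlgebraicClosure ℚ ≃ₐ[ℚ] AlgebraicClosure ℚ, A.IsFrobeniusAt φ ℓ →
        RelData N ℓ hℓ A φ) :
    letI := heckeModuleBar N
    ∀ (_ : SMulCommClass (AlgebraicClosure ℚ ≃ₐ[ℚ] AlgebraicClosure ℚ) HeckeAlg (JZero N)),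
      SpecializationExists (K := ℚ) (L := AlgebraicClosure ℚ) N p (JZero N) :=
  H27.result_of_K1 N p hcomm fun ℓ hℓ hℓN A hA φ hφ => k1Data_of_relData (h ℓ hℓ hℓN A hA φ hφ)

end Modular

end

end Fermat.Agent.S37.H96
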