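import Mathlib

/-!
# S37 (VAL), commutative algebra core: the residue of a norm (helper37)

`O` a local ring with maximal ideal `m` and residue field `κ`, `S` a finite free `O`-algebra.
If `z ∈ S` is congruent to `c q ∈ O` modulo every prime `q` of `S` over `m`, and these primes have
residue degree one, then `N_{S/O}(z) ≡ ∏_q (c q) ^ e_q` modulo `m`
(`residue_norm_eq_prod_of_inertiaDeg`).

Proof: the norm commutes with the base change to `κ`; the fibre `κ ⊗ S` is an Artinian
`κ`-algebra, hence the product of its localisations at its primes; on each local factor `z` is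
`scalar + nilpotent`, so its norm is `scalar ^ dimension`, and the dimension of the factor at `q`
is `e_q * f_q`.
-/

set_option autoImplicit false

open Polynomial TensorProduct

namespace Fermat.Agent.S37.H37


/-- the norm of `scalar + nilpotent` on a finite dimensional algebra over a field. -/
theorem norm_eq_pow_of_isNilpotent_sub {k A : Type*} [CommRing k] [IsDomain k] [Ring A]
    [Algebra k A] [Module.Free k A] [Module.Finite k A] (x : A) (c : k) (h : IsNilpotent (x - algebraMap k A c)) :
    Algebra.norm k x = c ^ Module.finrank k A := by
  set g : Module.End k A := algebraMap k (Module.End k A) c - Algebra.lmul k A x with hg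
  have hgn : IsNilpotent g := by
    have h1 : g = - Algebra.lmul k A (x - algebraMap k A c) := by
      rw [hg, map_sub, neg_sub]
      congr 1
      ext y
      simp [Algebra.smul_def]
    rw [h1]
    exact (h.map (Algebra.lmul k A)).neg
  have h2 := LinearMap.eval_charpoly g c
  rw [hgn.charpoly_eq_X_pow_finrank, eval_pow, eval_X, hg, sub_sub_cancel] at h2
  rw [Algebra.norm_apply, ← h2]

/-- determinant of a block diagonal matrix with blocks of varying size. -/
theorem det_blockDiagonal'_eq_prod {o : Type*} [Fintype o] [DecidableEq o] {m' : o → Type*}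
    [∀ i, Fintype (m' i)] [∀ i, DecidableEq (m' i)] {R : Type*} [CommRing R]
    (d : ∀ i, Matrix (m' i) (m' i) R) : (Matrix.blockDiagonal' d).det = ∏ i, (d i).det := by
  classical
  let _ : LinearOrder o := LinearOrder.lift' (Fintype.equivFin o) (Fintype.equivFin o).injective
  rw [(Matrix.blockTriangular_blockDiagonal' d).det_fintype]
  refine Finset.prod_congr rfl fun k _ => ?_
  have : (Matrix.blockDiagonal' d).toSquareBlock Sigma.fst k
      = (d k).submatrix (Equiv.sigmaSubtype k) (Equiv.sigmaSubtype k) := by
    ext ⟨⟨i, a⟩, hi⟩ ⟨⟨j, c⟩, hj⟩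
    simp only at hi hj
    subst hi
    subst hj
    simp [Matrix.toSquareBlock_def, Matrix.blockDiagonal'_apply, Equiv.sigmaSubtype]
  rw [this, Matrix.det_submatrix_equiv_self]

/-- the norm on a finite product of algebras is the product of the norms. -/
theorem norm_pi_eq_prod {k : Type*} [CommRing k] {ι : Type*} [Fintype ι] [DecidableEq ι]
    (A : ι → Type*) [∀ i, Ring (A i)] [∀ i, Algebra k (A i)] [∀ i, Module.Free k (A i)]
    [∀ i, Module.Finite k (A i)] (x : Π i, A i) :
    Algebra.norm k x = ∏ i, Algebra.norm k (x i) := by
  classical
  let b : ∀ i, Module.Basis (Module.Free.ChooseBasisIndex k (A i)) k (A i) :=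
    fun i => Module.Free.chooseBasis k (A i)
  rw [Algebra.norm_eq_matrix_det (Pi.basis b)]
  have hM : Algebra.leftMulMatrix (Pi.basis b) x
      = Matrix.blockDiagonal' (fun i => Algebra.leftMulMatrix (b i) (x i)) := by
    ext ⟨i, a⟩ ⟨j, c⟩
    rw [Algebra.leftMulMatrix_eq_repr_mul, Matrix.blockDiagonal'_apply, Pi.basis_repr,
      Pi.basis_apply]
    by_cases hij : i = j
    · subst hij
      simp [Algebra.leftMulMatrix_eq_repr_mul]
    · rw [dif_neg hij]
      have : (x * Pi.single j ((b j) c)) i = 0 := by
        rw [Pi.mul_apply, Pi.single_eq_of_ne hij, mul_zero]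
      simp [this]
  rw [hM, det_blockDiagonal'_eq_prod]
  refine Finset.prod_congr rfl fun i _ => ?_
  rw [Algebra.norm_eq_matrix_det (b i)]



section Fiber

variable {R : Type*} [CommRing R] (p : Ideal R) [p.IsPrime] (S : Type*) [CommRing S] [Algebra R S]

/-- the norm commutes with passage to the fibre. -/
theorem norm_one_tmul [Module.Free R S] [Module.Finite R S] (z : S) :
    Algebra.norm p.ResidueField ((1 : p.ResidueField) ⊗ₜ[R] z : p.Fiber S)
      = algebraMap R p.ResidueField (Algebra.norm R z) := by
  rw [Algebra.norm_apply, ← Algebra.baseChange_lmul, LinearMap.det_baseChange, Algebra.norm_apply]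

open IsLocalRing Module OrderIso PrimeSpectrum in
/-- the local factor of the fibre at a prime has dimension `e * f`. -/
theorem ramificationIdx_mul_inertiaDeg_eq_finrank [Algebra.QuasiFinite R S]
    (q : PrimeSpectrum (p.Fiber S)) :
    (q.1.comap Algebra.TensorProduct.includeRight : Ideal S).ramificationIdx R *
      (q.1.comap Algebra.TensorProduct.includeRight : Ideal S).inertiaDeg R
      = finrank p.ResidueField (Localization.AtPrime q.1) := by
  set r := q.1.comap Algebra.TensorProduct.includeRight
  let := Localization.AtPrime.algebraOfLiesOver p r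
  rw [Ideal.ramificationIdx_eq p r, Ideal.inertiaDeg_eq p r]
  let Rp := Localization.AtPrime p
  let Sq := Localization.AtPrime q.1
  let Sr := Localization.AtPrime r
  let κp := p.ResidueField
  let κr := r.ResidueField
  let A := Sr ⧸ p.map (algebraMap R Sr)
  suffices length Sr A * finrank κp κr = finrank κp Sq by simpa using congr_arg ENat.toNat this
  calc length Sr A * finrank κp κr = length Sr A * length κp κr := by rw [length_eq_finrank]
    _ = length Rp A := (length_restrictScalars Rp Sr A).symm
    _ = length Rp Sq := (Ideal.Fiber.localizationAlgEquivQuotient p q.1).toLinearEquiv.length_eq.symm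
    _ = length κp Sq := length_eq_of_surjective residue_surjective
    _ = finrank κp Sq := length_eq_finrank κp Sq

open PrimeSpectrum in
/-- the norm on the fibre is the product of the norms of the local factors. -/
theorem norm_fiber_eq_prod [Algebra.QuasiFinite R S] [Fintype (PrimeSpectrum (p.Fiber S))]
    (x : p.Fiber S) :
    Algebra.norm p.ResidueField x = ∏ Q : PrimeSpectrum (p.Fiber S),
      Algebra.norm p.ResidueField (algebraMap (p.Fiber S) (Localization.AtPrime Q.asIdeal) x) := by
  classical
  have hfin (Q : Ideal (p.Fiber S)) [Q.IsPrime] :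
      Module.Finite p.ResidueField (Localization.AtPrime Q) :=
    Module.Finite.of_surjective
      (Algebra.algHom p.ResidueField (p.Fiber S) (Localization.AtPrime Q)).toLinearMap
      (IsArtinianRing.localization_surjective Q.primeCompl (Localization.AtPrime Q))
  have : ∀ Q : PrimeSpectrum (p.Fiber S),
      Module.Finite p.ResidueField (Localization.AtPrime Q.asIdeal) := fun Q => hfin Q.asIdeal
  rw [← Algebra.norm_eq_of_algEquiv
    ((toPiLocalizationEquiv (p.Fiber S)).restrictScalars p.ResidueField) x]
  exact norm_pi_eq_prod (k := p.ResidueField)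
    (fun Q : PrimeSpectrum (p.Fiber S) => Localization.AtPrime Q.asIdeal) _

open PrimeSpectrum IsLocalRing in
/-- the norm of `scalar + element of the prime` on the local factor of the fibre. -/
theorem norm_localization_of_sub_mem [Algebra.QuasiFinite R S] (Q : PrimeSpectrum (p.Fiber S))
    (x : p.Fiber S) (c : p.ResidueField)
    (h : x - algebraMap p.ResidueField (p.Fiber S) c ∈ Q.asIdeal) :
    Algebra.norm p.ResidueField (algebraMap (p.Fiber S) (Localization.AtPrime Q.asIdeal) x)
      = c ^ Module.finrank p.ResidueField (Localization.AtPrime Q.asIdeal) := by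
  have hfin : Module.Finite p.ResidueField (Localization.AtPrime Q.asIdeal) :=
    Module.Finite.of_surjective
      (Algebra.algHom p.ResidueField (p.Fiber S) (Localization.AtPrime Q.asIdeal)).toLinearMap
      (IsArtinianRing.localization_surjective Q.asIdeal.primeCompl
        (Localization.AtPrime Q.asIdeal))
  refine norm_eq_pow_of_isNilpotent_sub (k := p.ResidueField)
    (A := Localization.AtPrime Q.asIdeal) _ c ?_
  have h1 : algebraMap (p.Fiber S) (Localization.AtPrime Q.asIdeal) x
      - algebraMap p.ResidueField (Localization.AtPrime Q.asIdeal) c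
      = algebraMap (p.Fiber S) (Localization.AtPrime Q.asIdeal)
          (x - algebraMap p.ResidueField (p.Fiber S) c) := by
    rw [map_sub, ← IsScalarTower.algebraMap_apply]
  have hart : IsArtinianRing (Localization.AtPrime Q.asIdeal) :=
    IsArtinianRing.of_finite p.ResidueField _
  have hkd : Ring.KrullDimLE 0 (Localization.AtPrime Q.asIdeal) :=
    IsArtinianRing.instKrullDimLEOfNatNat (Localization.AtPrime Q.asIdeal)
  rw [h1, Ring.KrullDimLE.isNilpotent_iff_mem_maximalIdeal]
  exact (IsLocalization.AtPrime.to_map_mem_maximal_iff (Localization.AtPrime Q.asIdeal)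
    Q.asIdeal _).mpr h

open PrimeSpectrum in
/-- the residue of the norm, in the residue field of the prime. -/
theorem algebraMap_norm_eq_prod [Module.Free R S] [Module.Finite R S] [Fintype (p.primesOver S)]
    (z : S) (c : p.primesOver S → R) (hc : ∀ q, z - algebraMap R S (c q) ∈ q.1) :
    algebraMap R p.ResidueField (Algebra.norm R z)
      = ∏ q : p.primesOver S,
          algebraMap R p.ResidueField (c q) ^ (q.1.ramificationIdx R * q.1.inertiaDeg R) := by
  classical
  let _ := Fintype.ofFinite (PrimeSpectrum (p.Fiber S))
  rw [← norm_one_tmul, norm_fiber_eq_prod,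
    ← (primesOverOrderIsoFiber R S p).symm.toEquiv.prod_comp]
  refine Finset.prod_congr rfl fun Q _ => ?_
  rw [norm_localization_of_sub_mem p S Q _
    (algebraMap R p.ResidueField (c ((primesOverOrderIsoFiber R S p).symm Q))) ?_,
    ← ramificationIdx_mul_inertiaDeg_eq_finrank]
  · rfl
  · have h1 : ((1 : p.ResidueField) ⊗ₜ[R] z : p.Fiber S)
        - algebraMap p.ResidueField (p.Fiber S)
            (algebraMap R p.ResidueField (c ((primesOverOrderIsoFiber R S p).symm Q)))
        = Algebra.TensorProduct.includeRight
            (z - algebraMap R S (c ((primesOverOrderIsoFiber R S p).symm Q))) := by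
      have h2 : ∀ r : R, algebraMap p.ResidueField (p.Fiber S) (algebraMap R p.ResidueField r)
          = (1 : p.ResidueField) ⊗ₜ[R] (algebraMap R S r) := by
        intro r
        rw [Algebra.TensorProduct.algebraMap_apply, Algebra.algebraMap_self, RingHom.id_apply,
          Algebra.algebraMap_eq_smul_one r, TensorProduct.smul_tmul,
          ← Algebra.algebraMap_eq_smul_one r]
      rw [h2, Algebra.TensorProduct.includeRight_apply, TensorProduct.tmul_sub]
    rw [h1]
    exact hc ((primesOverOrderIsoFiber R S p).symm Q)

end Fiber

section Core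

open IsLocalRing

/-- **(V1)**: for a finite free algebra `S` over a local ring `O` whose primes over the maximal
ideal have residue degree one, the residue of the norm of `z` is the product of the residues of
`z` at these primes, with the ramification indices as multiplicities. -/
theorem residue_norm_eq_prod_of_inertiaDeg {O S : Type*} [CommRing O] [IsLocalRing O]
    [CommRing S] [Algebra O S] [Module.Free O S] [Module.Finite O S]
    [Fintype ((maximalIdeal O).primesOver S)]
    (hdeg : ∀ q : (maximalIdeal O).primesOver S, q.1.inertiaDeg O = 1)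
    (z : S) (c : (maximalIdeal O).primesOver S → O)
    (hc : ∀ q, z - algebraMap O S (c q) ∈ q.1) :
    Algebra.norm O z - ∏ q, c q ^ q.1.ramificationIdx O ∈ maximalIdeal O := by
  rw [← Ideal.algebraMap_residueField_eq_zero, map_sub, map_prod, sub_eq_zero,
    algebraMap_norm_eq_prod (maximalIdeal O) S z c hc]
  refine Finset.prod_congr rfl fun q _ => ?_
  rw [hdeg q, mul_one, map_pow]

end Core

end Fermat.Agent.S37.H37
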