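import Mathlib
import Fermat.Prelude.Def_AlgebraicCurve_Correspondence
import Fermat.Agent.S37.NormFormula_helper37
import Fermat.Agent.S37.NormRes_helper37

/-!
# S37 (VAL), Place form: specialisation of a norm at a place (helper37)

`K ⊆ F ⊆ F'` fields, `F'/F` finite, characteristic zero, places of `F'` of degree one.  If
`z ∈ F'` has the constant value `c w` at every place `w` above the place `v` of `F`, then the norm
of `z` has the value `∏_{w | v} c w ^ e_w` at `v`.

`normSpecAt_of_core` is the adapter from the commutative algebra statement `NormResCore` for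
`O_v ⊆ C = integralClosure O_v F'` to the Place form; `normResCore_intClV` proves `NormResCore`
from `NormRes_helper37.residue_norm_eq_prod_of_inertiaDeg`; `normSpecAt` is the result.
-/

set_option autoImplicit false
set_option linter.unusedSectionVars false

open AlgebraicCurve IsDedekindDomain WithZero

namespace Fermat.Agent.S37.H37

/-- the abstract statement "the residue of the norm is the product of the residues with
ramification multiplicities" for a finite algebra over a local ring. -/
def NormResCore (O S : Type*) [CommRing O] [IsLocalRing O] [CommRing S] [Algebra O S]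
    [Fintype ((IsLocalRing.maximalIdeal O).primesOver S)] : Prop :=
  ∀ (z : S) (c : (IsLocalRing.maximalIdeal O).primesOver S → O),
    (∀ q, z - algebraMap O S (c q) ∈ q.1) →
    Algebra.norm O z - ∏ q, c q ^ q.1.ramificationIdx O ∈ IsLocalRing.maximalIdeal O

section NormSpec

variable {K F F' : Type*} [Field K] [Field F] [Field F'] [Algebra K F] [Algebra K F']
  [Algebra F F'] [IsScalarTower K F F'] [FiniteDimensional F F'] [CharZero F]

attribute [local instance 50] valAlg
attribute [local instance] intClV_algK

/-- every height one prime of the integral closure of `O_v` lies over the maximal ideal. -/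
theorem hos_mem_primesOver (v : Place K F) (P : HeightOneSpectrum (intClV F' v)) :
    P.asIdeal ∈ (IsLocalRing.maximalIdeal v.toValuationSubring).primesOver (intClV F' v) := by
  have hmax : P.asIdeal.IsMaximal := P.isMaximal
  have hint : Algebra.IsIntegral v.toValuationSubring (intClV F' v) := inferInstance
  have hcm : (P.asIdeal.under v.toValuationSubring).IsMaximal :=
    Ideal.isMaximal_comap_of_isIntegral_of_isMaximal P.asIdeal
  exact ⟨P.isPrime, ⟨(IsLocalRing.eq_maximalIdeal hcm).symm⟩⟩

theorem mem_toPlace_iff (v : Place K F)
    (q : (IsLocalRing.maximalIdeal v.toValuationSubring).primesOver (intClV F' v)) (f : F') :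
    f ∈ (toPlace v q).toValuationSubring ↔ (toHOS v q).valuation F' f ≤ 1 :=
  Valuation.mem_valuationSubring_iff _ _

theorem mem_nonunits_toPlace_iff (v : Place K F)
    (q : (IsLocalRing.maximalIdeal v.toValuationSubring).primesOver (intClV F' v)) (f : F') :
    f ∈ (toPlace v q).toValuationSubring.nonunits ↔ (toHOS v q).valuation F' f < 1 := by
  rw [ValuationSubring.mem_nonunits_iff]
  exact ((Valuation.isEquiv_valuation_valuationSubring ((toHOS v q).valuation F')).symm).lt_one_iff_lt_one

/-- an element of the big field which is regular at every place above `v` is integral over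
`O_v`. -/
theorem mem_intClV_of_forall_mem (v : Place K F) (z : F')
    (hz : ∀ q : (IsLocalRing.maximalIdeal v.toValuationSubring).primesOver (intClV F' v),
      z ∈ (toPlace v q).toValuationSubring) :
    ∃ z₀ : intClV F' v, algebraMap (intClV F' v) F' z₀ = z := by
  have h := HeightOneSpectrum.mem_integers_of_valuation_le_one (R := intClV F' v) F' z
    (fun P => by
      have := (mem_toPlace_iff v ⟨P.asIdeal, hos_mem_primesOver v P⟩ z).mp (hz _)
      exact this)
  exact h

/-- a coordinate of the integral closure has a constant value modulo each prime over `v`, when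
the place cut out by the prime has degree one. -/
theorem exists_sub_mem_of_deg (v : Place K F)
    (q : (IsLocalRing.maximalIdeal v.toValuationSubring).primesOver (intClV F' v))
    (hq : (toPlace v q).deg = 1) (s : intClV F' v) :
    ∃ a : K, s - algebraMap K (intClV F' v) a ∈ q.1 := by
  set w := toPlace v q with hw
  have hs : algebraMap (intClV F' v) F' s ∈ w.toValuationSubring :=
    (mem_toPlace_iff v q _).mpr ((toHOS v q).valuation_le_one s)
  have hspan := (finrank_eq_one_iff_of_nonzero' (K := K) (1 : w.ResidueField) one_ne_zero).mp hq
  obtain ⟨a, ha⟩ := hspan (IsLocalRing.residue w.toValuationSubring ⟨_, hs⟩)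
  refine ⟨a, ?_⟩
  have humem : (⟨_, hs⟩ - algebraMap K w.toValuationSubring a : w.toValuationSubring) ∈
      IsLocalRing.maximalIdeal w.toValuationSubring := by
    rw [← IsLocalRing.residue_eq_zero_iff, map_sub, sub_eq_zero, ← ha, Algebra.smul_def, mul_one,
      IsScalarTower.algebraMap_apply K w.toValuationSubring w.ResidueField a,
      IsLocalRing.ResidueField.algebraMap_eq]
  have h1 : algebraMap (intClV F' v) F' s - algebraMap K F' a ∈ w.toValuationSubring.nonunits :=
    ValuationSubring.coe_mem_nonunits_iff.mpr humem
  rw [mem_nonunits_toPlace_iff, IsScalarTower.algebraMap_apply K (intClV F' v) F' a, ← map_sub] at h1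
  exact ((toHOS v q).valuation_lt_one_iff_mem _).mp h1

/-- products over the fibre of a place are products over the primes of the integral closure. -/
theorem prod_fiber_eq [HasPrincipalDivisors K F'] (v : Place K F)
    [Fintype ((IsLocalRing.maximalIdeal v.toValuationSubring).primesOver (intClV F' v))]
    {M : Type*} [CommMonoid M] (g : Place K F' → M) :
    ∏ w ∈ v.fiber F', g w
      = ∏ q : (IsLocalRing.maximalIdeal v.toValuationSubring).primesOver (intClV F' v),
          g (toPlace v q) := by
  symm
  refine Finset.prod_bij (fun q _ => toPlace v q) (fun q _ => ?_) (fun q _ q' _ h => ?_)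
    (fun w hw => ?_) (fun q _ => rfl)
  · exact Place.mem_fiber.mpr (restrict_toPlace v q)
  · exact toPlace_injective v h
  · obtain ⟨q, hq⟩ := exists_toPlace_eq v w (Place.mem_fiber.mp hw)
    exact ⟨q, Finset.mem_univ _, hq⟩

/-- **(VAL), Place form, from the commutative algebra core.** -/
theorem normSpecAt_of_core [HasPrincipalDivisors K F'] (v : Place K F)
    [Fintype ((IsLocalRing.maximalIdeal v.toValuationSubring).primesOver (intClV F' v))]
    (hcore : NormResCore v.toValuationSubring (intClV F' v))
    (z : F') (c : Place K F' → K)
    (hz : ∀ w ∈ v.fiber F', z - algebraMap K F' (c w) ∈ w.toValuationSubring.nonunits) :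
    Algebra.norm F z - algebraMap K F (∏ w ∈ v.fiber F', c w ^ w.ramificationIndex F) ∈
      v.toValuationSubring.nonunits := by
  have hfib : ∀ q : (IsLocalRing.maximalIdeal v.toValuationSubring).primesOver (intClV F' v),
      toPlace v q ∈ v.fiber F' := fun q => Place.mem_fiber.mpr (restrict_toPlace v q)
  -- `z` is integral
  obtain ⟨z₀, hz₀⟩ := mem_intClV_of_forall_mem v z (fun q => by
    have h1 : z - algebraMap K F' (c (toPlace v q)) ∈ (toPlace v q).toValuationSubring :=
      ValuationSubring.nonunits_subset (hz _ (hfib q))
    have h2 := add_mem h1 ((toPlace v q).algebraMap_mem' (c (toPlace v q)))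
    rwa [sub_add_cancel] at h2)
  -- the values, as elements of `O_v`
  set c' : (IsLocalRing.maximalIdeal v.toValuationSubring).primesOver (intClV F' v) →
      v.toValuationSubring := fun q => algebraMap K v.toValuationSubring (c (toPlace v q)) with hc'
  have hc : ∀ q, z₀ - algebraMap v.toValuationSubring (intClV F' v) (c' q) ∈ q.1 := by
    intro q
    have h1 := hz _ (hfib q)
    rw [mem_nonunits_toPlace_iff, ← hz₀,
      IsScalarTower.algebraMap_apply K (intClV F' v) F' (c (toPlace v q)), ← map_sub] at h1
    exact ((toHOS v q).valuation_lt_one_iff_mem _).mp h1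
  have hmain := hcore z₀ c' hc
  -- transport of the norm
  have hnorm : Algebra.norm F z
      = ((Algebra.norm v.toValuationSubring z₀ : v.toValuationSubring) : F) := by
    rw [← hz₀, ← Algebra.algebraMap_intNorm (A := v.toValuationSubring) (K := F) z₀,
      Algebra.intNorm_eq_norm]
    rfl
  have hprod : algebraMap K F (∏ w ∈ v.fiber F', c w ^ w.ramificationIndex F)
      = ((∏ q, c' q ^ q.1.ramificationIdx v.toValuationSubring : v.toValuationSubring) : F) := by
    rw [prod_fiber_eq v, map_prod]
    have hcoe : ((∏ q, c' q ^ q.1.ramificationIdx v.toValuationSubring : v.toValuationSubring) : F)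
        = ∏ q, ((c' q ^ q.1.ramificationIdx v.toValuationSubring : v.toValuationSubring) : F) :=
      map_prod v.toValuationSubring.subtype _ _
    rw [hcoe]
    refine Finset.prod_congr rfl fun q _ => ?_
    have he : (toPlace v q).ramificationIndex F = q.1.ramificationIdx v.toValuationSubring := by
      exact_mod_cast ramificationIndex_toPlace v q
    rw [he, map_pow]
    rfl
  rw [hnorm, hprod]
  have : ((Algebra.norm v.toValuationSubring z₀ : v.toValuationSubring) : F)
      - ((∏ q, c' q ^ q.1.ramificationIdx v.toValuationSubring : v.toValuationSubring) : F)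
      = ((Algebra.norm v.toValuationSubring z₀
          - ∏ q, c' q ^ q.1.ramificationIdx v.toValuationSubring : v.toValuationSubring) : F) := rfl
  rw [this]
  exact ValuationSubring.coe_mem_nonunits_iff.mpr hmain

/-- the prime of the integral closure cut out by a place of degree one has residue degree one. -/
theorem inertiaDeg_eq_one_of_deg_toPlace (v : Place K F)
    (q : (IsLocalRing.maximalIdeal v.toValuationSubring).primesOver (intClV F' v))
    (hq : (toPlace v q).deg = 1) : q.1.inertiaDeg v.toValuationSubring = 1 := by
  have : q.1.LiesOver (IsLocalRing.maximalIdeal v.toValuationSubring) := q.2.2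
  have : q.1.IsPrime := q.2.1
  have : q.1.IsMaximal := Ideal.IsPrime.isMaximal q.2.1 (ne_bot_of_mem_primesOver v q)
  rw [Ideal.inertiaDeg_eq_of_isMaximal (IsLocalRing.maximalIdeal v.toValuationSubring) q.1]
  let _ : Field (v.toValuationSubring ⧸ IsLocalRing.maximalIdeal v.toValuationSubring) :=
    Ideal.Quotient.field _
  let _ : Field (intClV F' v ⧸ q.1) := Ideal.Quotient.field _
  have hsurj : Function.Surjective
      (algebraMap (v.toValuationSubring ⧸ IsLocalRing.maximalIdeal v.toValuationSubring)
        (intClV F' v ⧸ q.1)) := by
    intro w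
    obtain ⟨s, rfl⟩ := Ideal.Quotient.mk_surjective w
    obtain ⟨a, ha⟩ := exists_sub_mem_of_deg v q hq s
    refine ⟨Ideal.Quotient.mk _ (algebraMap K v.toValuationSubring a), ?_⟩
    rw [Ideal.Quotient.algebraMap_mk_of_liesOver]
    exact (Ideal.Quotient.eq.mpr ha).symm
  have hbij : Function.Bijective
      (algebraMap (v.toValuationSubring ⧸ IsLocalRing.maximalIdeal v.toValuationSubring)
        (intClV F' v ⧸ q.1)) :=
    ⟨RingHom.injective _, hsurj⟩
  rw [← Module.finrank_self (v.toValuationSubring ⧸ IsLocalRing.maximalIdeal v.toValuationSubring)]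
  exact ((AlgEquiv.ofBijective (Algebra.ofId _ _) hbij).toLinearEquiv.finrank_eq).symm

/-- the commutative algebra core holds for the integral closure of `O_v`, when the places above
`v` have degree one. -/
theorem normResCore_intClV [HasPrincipalDivisors K F'] (v : Place K F)
    [Fintype ((IsLocalRing.maximalIdeal v.toValuationSubring).primesOver (intClV F' v))]
    (hdeg' : ∀ w ∈ v.fiber F', w.deg = 1) :
    NormResCore v.toValuationSubring (intClV F' v) := fun z c hc =>
  residue_norm_eq_prod_of_inertiaDeg
    (fun q => inertiaDeg_eq_one_of_deg_toPlace v q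
      (hdeg' _ (Place.mem_fiber.mpr (restrict_toPlace v q)))) z c hc

/-- **(VAL), Place form**: if `z` has the constant value `c w` at every place `w` above `v`
(all of degree one), then the norm of `z` has the value `∏_{w | v} c w ^ e_w` at `v`. -/
theorem normSpecAt [HasPrincipalDivisors K F'] (v : Place K F)
    (hdeg' : ∀ w ∈ v.fiber F', w.deg = 1) (z : F') (c : Place K F' → K)
    (hz : ∀ w ∈ v.fiber F', z - algebraMap K F' (c w) ∈ w.toValuationSubring.nonunits) :
    Algebra.norm F z - algebraMap K F (∏ w ∈ v.fiber F', c w ^ w.ramificationIndex F) ∈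
      v.toValuationSubring.nonunits := by
  let _ : Fintype ((IsLocalRing.maximalIdeal v.toValuationSubring).primesOver (intClV F' v)) :=
    (finite_primesOver v).fintype
  exact normSpecAt_of_core v (normResCore_intClV v hdeg') z c hz

end NormSpec

section Along

variable {K F F' : Type*} [Field K] [Field F] [Field F'] [Algebra K F] [Algebra K F']

/-- **(VAL) along a `K`-embedding** `φ : F → F'` (the form in which the Hecke correspondence and
the level-raising maps consume it). -/
theorem normSpecAt_along [CharZero F] [HasPrincipalDivisors K F'] (φ : F →ₐ[K] F')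
    (hφ : φ.toRingHom.IsIntegral) (hfin : FiniteAlong K φ) (v : Place K F) :
    letI := algebraAlong φ
    haveI := isScalarTower_along φ
    haveI := isIntegral_along φ hφ
    (∀ w ∈ v.fiber F', w.deg = 1) → ∀ (z : F') (c : Place K F' → K),
      (∀ w ∈ v.fiber F', z - algebraMap K F' (c w) ∈ w.toValuationSubring.nonunits) →
      Algebra.norm F z - algebraMap K F (∏ w ∈ v.fiber F', c w ^ w.ramificationIndex F) ∈
        v.toValuationSubring.nonunits := by
  let _ := algebraAlong φ
  have := isScalarTower_along φ
  have : FiniteDimensional F F' := hfin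
  intro hdeg' z c hz
  exact normSpecAt v hdeg' z c hz

end Along

end Fermat.Agent.S37.H37
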