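/-
S37, node (VAL) second seat (helper67): norm specialisation, abstract core.

`norm_sub_prod_mem_maximalIdeal`: for a local ring `R`, a Dedekind domain `S` that is a finite free
`R`-algebra with all residue degrees over the maximal ideal `p` of `R` equal to one, and `z : S`
with `z ≡ c P` modulo every prime `P` of `S` over `p`:  `Norm_{S/R} z ≡ ∏ P, c P ^ e(P | p)` mod `p`.

Ingredients: reduction of the norm modulo `p` (`norm_quotient_mk`), the Chinese remainder
decomposition of `S / pS`, the determinant of a diagonal endomorphism of a dependent product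
(`det_pi_dep`) and the determinant of `c + nilpotent` (`det_of_isNilpotent_sub_smul`).
Mathlib only.
-/
import Mathlib

set_option autoImplicit false
set_option linter.style.haveILetI false
set_option linter.deprecated false

namespace Fermat.Agent.S37.H67

open Module

section DetPi

/-- determinant of a dependent block diagonal matrix -/
theorem det_blockDiagonal'_dep {o : Type*} [Fintype o] [DecidableEq o] {n : o → Type*}
    [∀ i, Fintype (n i)] [∀ i, DecidableEq (n i)] {R : Type*} [CommRing R]
    (d : ∀ i, Matrix (n i) (n i) R) :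
    (Matrix.blockDiagonal' d).det = ∏ i, (d i).det := by
  classical
  letI : LinearOrder o := LinearOrder.lift' (Fintype.equivFin o) (Equiv.injective _)
  rw [(Matrix.blockTriangular_blockDiagonal' d).det_fintype]
  refine Finset.prod_congr rfl fun k _ => ?_
  let e : n k ≃ {x : (Σ i, n i) // x.1 = k} :=
    { toFun := fun a => ⟨⟨k, a⟩, rfl⟩
      invFun := fun x => x.2 ▸ x.1.2
      left_inv := fun a => rfl
      right_inv := by
        rintro ⟨⟨i, a⟩, h⟩
        subst h
        rfl }
  rw [← Matrix.det_submatrix_equiv_self e]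
  congr 1
  ext a a'
  simp [Matrix.toSquareBlock, Matrix.toSquareBlockProp, e]

/-- determinant of a diagonal endomorphism of a dependent product -/
theorem det_pi_dep {ι : Type*} [Fintype ι] [DecidableEq ι] {R : Type*} [CommRing R]
    {M : ι → Type*} [∀ i, AddCommGroup (M i)] [∀ i, Module R (M i)] [∀ i, Module.Free R (M i)]
    [∀ i, Module.Finite R (M i)] (f : ∀ i, M i →ₗ[R] M i) :
    LinearMap.det (LinearMap.pi fun i => (f i).comp (LinearMap.proj i)) =
      ∏ i, LinearMap.det (f i) := by
  classical
  let b : ∀ i, Basis (Free.ChooseBasisIndex R (M i)) R (M i) := fun i => Free.chooseBasis R (M i)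
  let B : Basis (Σ i, Free.ChooseBasisIndex R (M i)) R (∀ i, M i) := Pi.basis b
  have hmat : LinearMap.toMatrix B B (LinearMap.pi fun i => (f i).comp (LinearMap.proj i)) =
      Matrix.blockDiagonal' fun i => LinearMap.toMatrix (b i) (b i) (f i) := by
    ext ⟨i, a⟩ ⟨j, c⟩
    rw [LinearMap.toMatrix_apply]
    by_cases hij : i = j
    · subst hij
      rw [Matrix.blockDiagonal'_apply_eq, LinearMap.toMatrix_apply]
      simp [B, Pi.basis_repr, Pi.basis_apply]
    · rw [Matrix.blockDiagonal'_apply_ne _ _ _ hij]
      simp [B, Pi.basis_repr, Pi.basis_apply, Pi.single_eq_of_ne hij]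
  rw [← LinearMap.det_toMatrix B, hmat, det_blockDiagonal'_dep]
  exact Finset.prod_congr rfl fun i _ => LinearMap.det_toMatrix (b i) (f i)

end DetPi

section Abstract

open IsLocalRing Ideal UniqueFactorizationMonoid Polynomial

variable {R S : Type*} [CommRing R] [CommRing S] [Algebra R S]

attribute [local instance] Ideal.Quotient.field

/-- the norm commutes with reduction modulo the maximal ideal of a local base ring -/
theorem norm_quotient_mk [IsLocalRing R] [Module.Free R S] [Module.Finite R S] (x : S) :
    Algebra.norm (R ⧸ maximalIdeal R)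
        (Ideal.Quotient.mk ((maximalIdeal R).map (algebraMap R S)) x) =
      Ideal.Quotient.mk (maximalIdeal R) (Algebra.norm R x) := by
  let ι := Module.Free.ChooseBasisIndex R S
  let b : Module.Basis ι R S := Module.Free.chooseBasis R S
  rw [Algebra.norm_eq_matrix_det b, Algebra.norm_eq_matrix_det (basisQuotient b),
    RingHom.map_det]
  congr 1
  ext i j
  simp only [Algebra.leftMulMatrix_apply, Algebra.coe_lmul_eq_mul, LinearMap.toMatrix_apply,
    basisQuotient_apply, LinearMap.mul_apply', RingHom.mapMatrix_apply, Matrix.map_apply,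
    ← map_mul, basisQuotient_repr]

/-- determinant of `c + nilpotent` -/
theorem det_of_isNilpotent_sub_smul {k M : Type*} [Field k] [AddCommGroup M] [Module k M]
    [Module.Finite k M] (f : Module.End k M) (μ : k) (h : IsNilpotent (f - μ • 1)) :
    LinearMap.det f = μ ^ finrank k M := by
  have hcp := h.charpoly_eq_X_pow_finrank
  rw [LinearMap.charpoly_sub_smul] at hcp
  have h0 : f.charpoly.coeff 0 = (-μ) ^ finrank k M := by
    rw [coeff_zero_eq_eval_zero]
    have := congrArg (Polynomial.eval (-μ)) hcp
    rw [eval_comp, eval_add, eval_X, eval_C, neg_add_cancel, eval_pow, eval_X] at this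
    exact this
  rw [LinearMap.det_eq_sign_charpoly_coeff, h0, ← mul_pow]
  simp

/-- multiplication by an element `y` with `y - μ` nilpotent has determinant `μ ^ dim` -/
theorem det_mulLeft_of_pow_eq_zero {k A : Type*} [Field k] [CommRing A] [Algebra k A]
    [Module.Finite k A] (y : A) (μ : k) (n : ℕ) (h : (y - algebraMap k A μ) ^ n = 0) :
    LinearMap.det (LinearMap.mulLeft k y) = μ ^ finrank k A := by
  apply det_of_isNilpotent_sub_smul
  refine ⟨n, ?_⟩
  have h1 : LinearMap.mulLeft k y - μ • (1 : Module.End k A) =
      LinearMap.mulLeft k (y - algebraMap k A μ) := by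
    ext a
    simp [Algebra.smul_def, sub_mul]
  rw [h1, LinearMap.pow_mulLeft, h]
  ext a
  simp

/-- multiplication by `z ≡ c mod P` on `S / P ^ e` has determinant `c ^ (e * f)` -/
theorem det_mulLeft_quotient_pow (p : Ideal R) [p.IsMaximal] [IsDedekindDomain S]
    [Module.Finite R S] (P : (factors (map (algebraMap R S) p)).toFinset)
    (z : S) (c : R) (hz : z - algebraMap R S c ∈ (P : Ideal S)) :
    LinearMap.det (LinearMap.mulLeft (R ⧸ p)
        (Ideal.Quotient.mk ((P : Ideal S) ^ ramificationIdx' p P.1) z)) =
      (Ideal.Quotient.mk p c) ^ (ramificationIdx' p P.1 * inertiaDeg' p (P : Ideal S)) := by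
  rw [← Factors.finrank_pow_ramificationIdx p P]
  apply det_mulLeft_of_pow_eq_zero _ _ (ramificationIdx' p P.1)
  have h0 : algebraMap (R ⧸ p) (S ⧸ (P : Ideal S) ^ ramificationIdx' p P.1)
      (Ideal.Quotient.mk p c) =
      Ideal.Quotient.mk ((P : Ideal S) ^ ramificationIdx' p P.1) (algebraMap R S c) := rfl
  rw [h0, ← map_sub, ← map_pow]
  exact Ideal.Quotient.eq_zero_iff_mem.mpr (Ideal.pow_mem_pow hz _)

/-- the norm of `S / pS` over `R / p` is the product of the determinants on the local factors -/
theorem norm_quotient_eq_prod (p : Ideal R) [p.IsMaximal] [IsDedekindDomain S]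
    [Module.Finite R S] (hp : map (algebraMap R S) p ≠ ⊥) (x : S) :
    Algebra.norm (R ⧸ p) (Ideal.Quotient.mk (map (algebraMap R S) p) x) =
      ∏ P : (factors (map (algebraMap R S) p)).toFinset,
        LinearMap.det (LinearMap.mulLeft (R ⧸ p)
          (Ideal.Quotient.mk ((P : Ideal S) ^ ramificationIdx' p P.1) x)) := by
  classical
  rw [Algebra.norm_apply]
  let E := Factors.piQuotientLinearEquiv S p hp
  rw [← LinearMap.det_conj _ E]
  have hE : (E : _ →ₗ[R ⧸ p] _) ∘ₗ
      (Algebra.lmul (R ⧸ p) (S ⧸ map (algebraMap R S) p)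
        (Ideal.Quotient.mk (map (algebraMap R S) p) x)) ∘ₗ (E.symm : _ →ₗ[R ⧸ p] _) =
      LinearMap.pi fun P : (factors (map (algebraMap R S) p)).toFinset =>
        (LinearMap.mulLeft (R ⧸ p)
          (Ideal.Quotient.mk ((P : Ideal S) ^ ramificationIdx' p P.1) x)).comp
          (LinearMap.proj P) := by
    refine LinearMap.ext fun y => funext fun P => ?_
    have h1 : E ((Ideal.Quotient.mk (map (algebraMap R S) p) x) * E.symm y) =
        E (Ideal.Quotient.mk (map (algebraMap R S) p) x) * E (E.symm y) :=
      map_mul (Factors.piQuotientEquiv p hp) _ _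
    have h2 : E (Ideal.Quotient.mk (map (algebraMap R S) p) x) =
        fun _ => Ideal.Quotient.mk _ x := Factors.piQuotientEquiv_mk p hp x
    simp only [LinearMap.coe_comp, LinearEquiv.coe_coe, Function.comp_apply,
      LinearMap.pi_apply, LinearMap.proj_apply, LinearMap.mulLeft_apply]
    show E ((Ideal.Quotient.mk (map (algebraMap R S) p) x) * E.symm y) P = _
    rw [h1, h2, LinearEquiv.apply_symm_apply]
    rfl
  rw [hE, det_pi_dep]

/-- **Norm specialisation, abstract form.**  `R` local, `S` a Dedekind domain that is a finite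
free `R`-algebra, all residue degrees over the maximal ideal equal to one.  If `z ≡ c P` modulo
every prime `P` of `S` over the maximal ideal `p` of `R`, then
`Norm z ≡ ∏ P, c P ^ e(P | p)` modulo `p`. -/
theorem norm_sub_prod_mem_maximalIdeal [IsLocalRing R] [IsDedekindDomain S] [Module.Free R S]
    [Module.Finite R S] (hp : map (algebraMap R S) (maximalIdeal R) ≠ ⊥)
    (hf : ∀ P : (factors (map (algebraMap R S) (maximalIdeal R))).toFinset,
      inertiaDeg' (maximalIdeal R) (P : Ideal S) = 1)
    (z : S) (c : (factors (map (algebraMap R S) (maximalIdeal R))).toFinset → R)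
    (hz : ∀ P : (factors (map (algebraMap R S) (maximalIdeal R))).toFinset,
      z - algebraMap R S (c P) ∈ (P : Ideal S)) :
    Algebra.norm R z - ∏ P : (factors (map (algebraMap R S) (maximalIdeal R))).toFinset,
      c P ^ ramificationIdx' (maximalIdeal R) (P : Ideal S) ∈ maximalIdeal R := by
  rw [← Ideal.Quotient.eq, ← norm_quotient_mk, norm_quotient_eq_prod _ hp, map_prod]
  refine Finset.prod_congr rfl fun P _ => ?_
  rw [det_mulLeft_quotient_pow _ P z (c P) (hz P), hf P, mul_one, map_pow]

end Abstract

end Fermat.Agent.S37.H67
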