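import Mathlib
import Fermat.Prelude.Def_AlgebraicCurve_DivisorPushPull
import Fermat.Prelude.Def_AlgebraicCurve_Correspondence
import Fermat.Agent.S24.FundId_b_helper92
import Fermat.Agent.S37.NormValCore_helper67

/-!
# S37, node (VAL): specialisation of the norm at a place (helper67)

`F ⊆ F'` a finite separable extension of function fields over `K`, all places of `F'` of
degree one.  If `z : F'` has the constant value `c w` at every place `w` of `F'` above a
place `v` of `F`, then `N_{F'/F} z` has the value `∏ c w ^ e_w` at `v`:

* `norm_sub_prod_mem_nonunits` (separable), `norm_sub_prod_mem_nonunits_of_charZero`;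
* `norm_sub_prod_mem_nonunits_along` : the same along an embedding `φ : F →ₐ[K] F'`, in the
  vocabulary `Place.fiberAlong` / `Place.ramificationIndexAlong` / `algebraAlong`.

The proof goes through the integral closure `S` of the valuation ring `O_v` in `F'`
(a Dedekind domain, free of finite rank over `O_v`), the dictionary
"nonzero primes of `S`" = "places of `F'` above `v`", and the abstract statement
`norm_sub_prod_mem_maximalIdeal` of `NormValCore_helper67`.
-/

set_option autoImplicit false
set_option linter.style.haveILetI false
set_option linter.deprecated false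
set_option linter.unusedSectionVars false

namespace Fermat.Agent.S37.H67

open AlgebraicCurve IsDedekindDomain IsLocalRing Ideal UniqueFactorizationMonoid WithZero
open Fermat.Agent.S24

section Places

variable {K F F' : Type*} [Field K] [Field F] [Field F'] [Algebra K F] [Algebra K F']
  [Algebra F F'] [IsScalarTower K F F']

/-- a valuation subring containing the image of `R` contains everything integral over `R` -/
theorem mem_valuationSubring_of_isIntegral {R E : Type*} [CommRing R] [Field E] [Algebra R E]
    (V : ValuationSubring E) (hV : ∀ r : R, algebraMap R E r ∈ V) {x : E} (hx : IsIntegral R x) :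
    x ∈ V := by
  obtain ⟨P, hP, hPx⟩ := hx
  let φ : R →+* V := (algebraMap R E).codRestrict V.toSubring hV
  have hint : IsIntegral V x := by
    refine ⟨P.map φ, hP.map _, ?_⟩
    rw [Polynomial.eval₂_map]
    exact hPx
  obtain ⟨c, hc⟩ := (IsIntegrallyClosed.isIntegral_iff (R := V) (K := E)).mp hint
  rw [← hc]
  exact c.2

variable [FiniteDimensional F F'] [Algebra.IsSeparable F F']

variable (F') in
/-- the integral closure in `F'` of the valuation ring of a place `v` of `F` -/
abbrev icl (v : Place K F) : Subalgebra v.toValuationSubring F' :=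
  integralClosure v.toValuationSubring F'

variable (v : Place K F)

theorem isDedekindDomain_icl : IsDedekindDomain (icl F' v) :=
  integralClosure.isDedekindDomain v.toValuationSubring F F'

theorem finite_icl : Module.Finite v.toValuationSubring (icl F' v) :=
  IsIntegralClosure.finite v.toValuationSubring F F' _

theorem free_icl : Module.Free v.toValuationSubring (icl F' v) :=
  IsIntegralClosure.module_free v.toValuationSubring F F' _

theorem isFractionRing_icl : IsFractionRing (icl F' v) F' :=
  integralClosure.isFractionRing_of_finite_extension F F'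

/-- the constant field acts on the integral closure -/
@[reducible] noncomputable def algebraKIcl : Algebra K (icl F' v) :=
  ((algebraMap v.toValuationSubring (icl F' v)).comp (algebraMap K v.toValuationSubring)).toAlgebra

attribute [local instance] isDedekindDomain_icl finite_icl free_icl isFractionRing_icl algebraKIcl

theorem isScalarTower_K_icl : IsScalarTower K (icl F' v) F' :=
  IsScalarTower.of_algebraMap_eq fun a => by
    show algebraMap K F' a = algebraMap F F' (algebraMap K F a)
    rw [← IsScalarTower.algebraMap_apply]

attribute [local instance] isScalarTower_K_icl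

/-- the place of `F'` attached to a nonzero prime of the integral closure -/
noncomputable def plc (Q : HeightOneSpectrum (icl F' v)) : Place K F' :=
  Place.ofHeightOneSpectrum (K := K) Q

theorem algebraMap_mem_plc (Q : HeightOneSpectrum (icl F' v)) (s : icl F' v) :
    (s : F') ∈ (plc v Q).toValuationSubring :=
  H92.algebraMap_mem_ofHeightOneSpectrum (K := K) Q s

theorem plc_restrict (Q : HeightOneSpectrum (icl F' v)) : (plc v Q).restrict F = v := by
  symm
  apply H92.eq_of_le
  intro x hx
  rw [Place.restrict_toValuationSubring, ValuationSubring.mem_comap]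
  exact algebraMap_mem_plc v Q (algebraMap v.toValuationSubring (icl F' v) ⟨x, hx⟩)

theorem plc_injective : Function.Injective (plc (F' := F') v) := by
  intro Q Q' h
  have h1 := H92.center_ofHeightOneSpectrum (K := K) (F := F') Q
  have h2 := H92.center_ofHeightOneSpectrum (K := K) (F := F') Q'
  rw [← h1, ← h2]
  unfold plc at h
  congr 1

/-- the integral closure lies in the valuation ring of every place over `v` -/
theorem icl_le_of_restrict {w : Place K F'} (hw : w.restrict F = v) (s : icl F' v) :
    algebraMap (icl F' v) F' s ∈ w.toValuationSubring := by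
  apply mem_valuationSubring_of_isIntegral (R := v.toValuationSubring) w.toValuationSubring _ s.2
  intro r
  have : (r : F) ∈ (w.restrict F).toValuationSubring := by
    rw [hw]
    exact r.2
  exact this

/-- every place over `v` comes from a prime of the integral closure -/
theorem exists_plc_eq {w : Place K F'} (hw : w.restrict F = v) :
    ∃ Q : HeightOneSpectrum (icl F' v), plc v Q = w :=
  ⟨H92.center w (icl_le_of_restrict v hw), H92.ofHeightOneSpectrum_center w _⟩

/-- membership in a prime of the integral closure, read off from the place -/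
theorem mem_asIdeal_iff (Q : HeightOneSpectrum (icl F' v)) {s : icl F' v} (hs : s ≠ 0) :
    s ∈ Q.asIdeal ↔ 0 < (plc v Q).ord (s : F') :=
  (H92.ofHeightOneSpectrum_ord_pos_iff (K := K) Q hs).symm

theorem algebraMap_icl_injective :
    Function.Injective (algebraMap v.toValuationSubring (icl F' v)) := by
  intro a b hab
  have h1 : algebraMap F F' (a : F) = algebraMap F F' (b : F) := congrArg Subtype.val hab
  exact Subtype.ext ((algebraMap F F').injective h1)

theorem coe_algebraMap_icl (r : v.toValuationSubring) :
    ((algebraMap v.toValuationSubring (icl F' v) r : icl F' v) : F') = algebraMap F F' (r : F) :=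
  rfl

theorem coe_algebraMap_K_icl (a : K) :
    ((algebraMap v.toValuationSubring (icl F' v) (algebraMap K v.toValuationSubring a) :
      icl F' v) : F') = algebraMap K F' a := by
  rw [coe_algebraMap_icl]
  exact (IsScalarTower.algebraMap_apply K F F' a).symm

/-- the order at `plc v Q` of an element of `F` -/
theorem ord_plc_algebraMap (Q : HeightOneSpectrum (icl F' v)) (x : F) :
    (plc v Q).ord (algebraMap F F' x) = ((plc v Q).ramificationIndex F : ℤ) * v.ord x := by
  rw [Place.ord_restrict, plc_restrict]

theorem ord_pos_of_mem_maximalIdeal {r : v.toValuationSubring}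
    (hr : r ∈ maximalIdeal v.toValuationSubring) (h0 : r ≠ 0) : 0 < v.ord (r : F) := by
  have h0' : (r : F) ≠ 0 := fun h => h0 (Subtype.ext h)
  rw [H92.ord_pos_iff_mem_nonunits v h0', ValuationSubring.mem_nonunits_iff_exists_mem_maximalIdeal]
  exact ⟨r.2, hr⟩

theorem map_maximalIdeal_le (Q : HeightOneSpectrum (icl F' v)) :
    (maximalIdeal v.toValuationSubring).map (algebraMap v.toValuationSubring (icl F' v)) ≤
      Q.asIdeal := by
  rw [Ideal.map_le_iff_le_comap]
  intro r hr
  rw [Ideal.mem_comap]
  by_cases h0 : r = 0
  · rw [h0, map_zero]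
    exact Q.asIdeal.zero_mem
  have hs : algebraMap v.toValuationSubring (icl F' v) r ≠ 0 := fun h =>
    h0 (algebraMap_icl_injective v (by rw [h, map_zero]))
  rw [mem_asIdeal_iff v Q hs, coe_algebraMap_icl, ord_plc_algebraMap]
  have he : 0 < (plc v Q).ramificationIndex F := (plc v Q).ramificationIndex_pos (F := F)
  have hr' := ord_pos_of_mem_maximalIdeal v hr h0
  positivity

theorem map_maximalIdeal_ne_bot :
    (maximalIdeal v.toValuationSubring).map (algebraMap v.toValuationSubring (icl F' v)) ≠ ⊥ := by
  rw [Ne, Ideal.map_eq_bot_iff_of_injective (algebraMap_icl_injective v)]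
  exact IsDiscreteValuationRing.not_a_field _

theorem asIdeal_mem_factors (Q : HeightOneSpectrum (icl F' v)) :
    Q.asIdeal ∈ (factors ((maximalIdeal v.toValuationSubring).map
      (algebraMap v.toValuationSubring (icl F' v)))).toFinset := by
  rw [Multiset.mem_toFinset, factors_eq_normalizedFactors,
    Ideal.mem_normalizedFactors_iff (map_maximalIdeal_ne_bot v)]
  exact ⟨Q.isPrime, map_maximalIdeal_le v Q⟩

/-- a factor of the extended maximal ideal as a height one prime -/
noncomputable def hos (P : (factors ((maximalIdeal v.toValuationSubring).map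
    (algebraMap v.toValuationSubring (icl F' v)))).toFinset) : HeightOneSpectrum (icl F' v) :=
  ⟨P, Ideal.Factors.isPrime _ P, Ideal.Factors.ne_bot _ P⟩

theorem hos_asIdeal (P : (factors ((maximalIdeal v.toValuationSubring).map
    (algebraMap v.toValuationSubring (icl F' v)))).toFinset) : (hos v P).asIdeal = P := rfl


/-- a non-unit of the valuation ring of `plc v Q` lying in the integral closure is in `Q` -/
theorem mem_asIdeal_of_mem_nonunits (Q : HeightOneSpectrum (icl F' v)) {s : icl F' v}
    (h : (s : F') ∈ (plc v Q).toValuationSubring.nonunits) : s ∈ Q.asIdeal := by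
  by_cases hs : s = 0
  · rw [hs]
    exact Q.asIdeal.zero_mem
  have hs' : (s : F') ≠ 0 := fun h0 => hs (Subtype.ext h0)
  rw [mem_asIdeal_iff v Q hs, H92.ord_pos_iff_mem_nonunits _ hs']
  exact h

/-- the abstract ramification index agrees with the one of the place -/
theorem ramificationIdx'_eq (Q : HeightOneSpectrum (icl F' v)) :
    ramificationIdx' (maximalIdeal v.toValuationSubring) Q.asIdeal
      = (plc v Q).ramificationIndex F := by
  obtain ⟨π, hπ⟩ := IsDiscreteValuationRing.exists_irreducible v.toValuationSubring
  have hπ0 : π ≠ 0 := hπ.ne_zero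
  have hs0 : algebraMap v.toValuationSubring (icl F' v) π ≠ 0 := fun h =>
    hπ0 (algebraMap_icl_injective v (by rw [h, map_zero]))
  have hs0' : ((algebraMap v.toValuationSubring (icl F' v) π : icl F' v) : F') ≠ 0 := fun h =>
    hs0 (Subtype.ext h)
  have hord : (plc v Q).ord ((algebraMap v.toValuationSubring (icl F' v) π : icl F' v) : F')
      = ((plc v Q).ramificationIndex F : ℤ) := by
    rw [coe_algebraMap_icl, ord_plc_algebraMap, v.ord_coe_irreducible hπ, mul_one]
  have hval0 : Q.valuation F' ((algebraMap v.toValuationSubring (icl F' v) π : icl F' v) : F')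
      ≠ 0 := by
    rw [Ne, map_eq_zero]
    exact hs0'
  have hlog : log (Q.valuation F' ((algebraMap v.toValuationSubring (icl F' v) π : icl F' v) : F'))
      = -((plc v Q).ramificationIndex F : ℤ) := by
    have h1 : (plc v Q).ord ((algebraMap v.toValuationSubring (icl F' v) π : icl F' v) : F')
        = -log (Q.valuation F' ((algebraMap v.toValuationSubring (icl F' v) π : icl F' v) : F')) :=
      H92.ofHeightOneSpectrum_ord (K := K) Q hs0'
    rw [h1] at hord
    omega
  have key : ∀ n : ℕ, (maximalIdeal v.toValuationSubring).map
      (algebraMap v.toValuationSubring (icl F' v)) ≤ Q.asIdeal ^ n ↔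
        n ≤ (plc v Q).ramificationIndex F := by
    intro n
    rw [hπ.maximalIdeal_eq, Ideal.map_span, Set.image_singleton, Ideal.span_singleton_le_iff_mem,
      ← HeightOneSpectrum.intValuation_le_pow_iff_mem, ← Q.valuation_of_algebraMap (K := F')]
    refine (WithZero.log_le_iff_le_exp hval0).symm.trans ?_
    rw [hlog]
    omega
  apply Ideal.ramificationIdx'_spec
  · exact (key _).mpr le_rfl
  · rw [key]
    omega

/-- at a place of degree one every regular function has a value in the constant field -/
theorem exists_sub_mem_nonunits_of_deg {E : Type*} [Field E] [Algebra K E] (w : Place K E)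
    (hw : w.deg = 1) {g : E} (hg : g ∈ w.toValuationSubring) :
    ∃ a : K, g - algebraMap K E a ∈ w.toValuationSubring.nonunits := by
  have hspan := (finrank_eq_one_iff_of_nonzero' (K := K)
    (1 : w.ResidueField) one_ne_zero).mp hw
  obtain ⟨a, ha⟩ := hspan (IsLocalRing.residue w.toValuationSubring ⟨g, hg⟩)
  refine ⟨a, ?_⟩
  have humem : (⟨g, hg⟩ - algebraMap K w.toValuationSubring a : w.toValuationSubring) ∈
      IsLocalRing.maximalIdeal w.toValuationSubring := by
    rw [← IsLocalRing.residue_eq_zero_iff, map_sub, sub_eq_zero, ← ha, Algebra.smul_def, mul_one,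
      IsScalarTower.algebraMap_apply K w.toValuationSubring w.ResidueField a,
      IsLocalRing.ResidueField.algebraMap_eq]
  rw [ValuationSubring.mem_nonunits_iff_exists_mem_maximalIdeal]
  exact ⟨(⟨g, hg⟩ - algebraMap K w.toValuationSubring a : w.toValuationSubring).2, humem⟩

/-- residue degree one, from degree one of the place -/
theorem inertiaDeg'_eq_one (Q : HeightOneSpectrum (icl F' v)) (hdeg : (plc v Q).deg = 1) :
    inertiaDeg' (maximalIdeal v.toValuationSubring) Q.asIdeal = 1 := by
  haveI : Q.asIdeal.LiesOver (maximalIdeal v.toValuationSubring) :=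
    Ideal.Factors.liesOver (maximalIdeal v.toValuationSubring)
      ⟨Q.asIdeal, asIdeal_mem_factors v Q⟩
  haveI := Q.isPrime
  rw [inertiaDeg'_algebraMap]
  letI : Field (v.toValuationSubring ⧸ maximalIdeal v.toValuationSubring) :=
    Ideal.Quotient.field _
  refine (finrank_eq_one_iff_of_nonzero' (1 : icl F' v ⧸ Q.asIdeal) one_ne_zero).mpr ?_
  intro w
  obtain ⟨s, rfl⟩ := Ideal.Quotient.mk_surjective w
  obtain ⟨a, ha⟩ := exists_sub_mem_nonunits_of_deg (plc v Q) hdeg (algebraMap_mem_plc v Q s)
  refine ⟨Ideal.Quotient.mk _ (algebraMap K v.toValuationSubring a), ?_⟩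
  rw [Algebra.smul_def, mul_one, Ideal.Quotient.algebraMap_mk_of_liesOver, Ideal.Quotient.eq,
    ← neg_mem_iff, neg_sub]
  apply mem_asIdeal_of_mem_nonunits v Q
  show (s : F') - ((algebraMap v.toValuationSubring (icl F' v)
    (algebraMap K v.toValuationSubring a) : icl F' v) : F') ∈ _
  rw [coe_algebraMap_K_icl]
  exact ha

/-- a function regular at all the places `plc v Q` lies in the integral closure -/
theorem exists_icl_eq (z : F') (hz : ∀ Q : HeightOneSpectrum (icl F' v),
    z ∈ (plc v Q).toValuationSubring) : ∃ s : icl F' v, (s : F') = z := by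
  have h := HeightOneSpectrum.mem_integers_of_valuation_le_one (R := icl F' v) F' z
    (fun Q => (Valuation.mem_valuationSubring_iff _ _).mp (hz Q))
  obtain ⟨s, hs⟩ := h
  exact ⟨s, hs⟩

end Places

section Main

variable {K F F' : Type*} [Field K] [Field F] [Field F'] [Algebra K F] [Algebra K F']
  [Algebra F F'] [IsScalarTower K F F'] [FiniteDimensional F F'] [HasPrincipalDivisors K F']

attribute [local instance] isDedekindDomain_icl finite_icl free_icl isFractionRing_icl algebraKIcl
  isScalarTower_K_icl

/-- **(VAL)**: specialisation of the norm at a place.  If `z` has the constant value `c w` at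
every place `w` of `F'` above `v`, then `N_{F'/F} z` has the value `∏ c w ^ e_w` at `v`. -/
theorem norm_sub_prod_mem_nonunits [Algebra.IsSeparable F F']
    (hdeg : ∀ w : Place K F', w.deg = 1) (v : Place K F) (z : F')
    (c : Place K F' → K)
    (hz : ∀ w ∈ v.fiber F', z - algebraMap K F' (c w) ∈ w.toValuationSubring.nonunits) :
    Algebra.norm F z - algebraMap K F (∏ w ∈ v.fiber F', c w ^ w.ramificationIndex F) ∈
      v.toValuationSubring.nonunits := by
  classical
  have hfib : ∀ Q : HeightOneSpectrum (icl F' v), plc v Q ∈ v.fiber F' := fun Q =>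
    Place.mem_fiber.mpr (plc_restrict v Q)
  obtain ⟨s, rfl⟩ : ∃ s : icl F' v, (s : F') = z := by
    apply exists_icl_eq v z
    intro Q
    have h1 := hz _ (hfib Q)
    have h2 : z - algebraMap K F' (c (plc v Q)) ∈ (plc v Q).toValuationSubring :=
      (ValuationSubring.mem_nonunits_iff_exists_mem_maximalIdeal.mp h1).1
    have h3 := add_mem h2 ((plc v Q).algebraMap_mem' (c (plc v Q)))
    rwa [sub_add_cancel] at h3
  have hmain := norm_sub_prod_mem_maximalIdeal (R := v.toValuationSubring) (S := icl F' v)
    (map_maximalIdeal_ne_bot v)
    (fun P => inertiaDeg'_eq_one v (hos v P) (hdeg _))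
    s (fun P => algebraMap K v.toValuationSubring (c (plc v (hos v P))))
    (fun P => by
      apply mem_asIdeal_of_mem_nonunits v (hos v P)
      show (s : F') - ((algebraMap v.toValuationSubring (icl F' v)
        (algebraMap K v.toValuationSubring (c (plc v (hos v P)))) : icl F' v) : F') ∈ _
      rw [coe_algebraMap_K_icl]
      exact hz _ (hfib _))
  have hnorm : Algebra.norm F (s : F') =
      algebraMap v.toValuationSubring F (Algebra.norm v.toValuationSubring s) := by
    haveI := IsIntegralClosure.isLocalization v.toValuationSubring F F' (icl F' v)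
    exact Algebra.norm_localization v.toValuationSubring
      (nonZeroDivisors v.toValuationSubring) s
  have hprod : algebraMap K F (∏ w ∈ v.fiber F', c w ^ w.ramificationIndex F) =
      algebraMap v.toValuationSubring F
        (∏ P : (factors ((maximalIdeal v.toValuationSubring).map
          (algebraMap v.toValuationSubring (icl F' v)))).toFinset,
          algebraMap K v.toValuationSubring (c (plc v (hos v P))) ^
            ramificationIdx' (maximalIdeal v.toValuationSubring) (P : Ideal (icl F' v))) := by
    rw [map_prod, map_prod]
    symm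
    apply Finset.prod_bij (fun P _ => plc v (hos v P))
    · intro P _
      exact hfib _
    · intro P _ P' _ h
      exact Subtype.ext (congrArg HeightOneSpectrum.asIdeal (plc_injective v h))
    · intro w hw
      obtain ⟨Q, hQ⟩ := exists_plc_eq v (Place.mem_fiber.mp hw)
      refine ⟨⟨Q.asIdeal, asIdeal_mem_factors v Q⟩, Finset.mem_univ _, ?_⟩
      rw [← hQ]
      rfl
    · intro P _
      rw [map_pow, map_pow, ← hos_asIdeal v P, ramificationIdx'_eq]
      rfl
  have hfinal : ∀ d : v.toValuationSubring, d ∈ maximalIdeal v.toValuationSubring →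
      algebraMap v.toValuationSubring F d ∈ v.toValuationSubring.nonunits := by
    intro d hd
    rw [ValuationSubring.mem_nonunits_iff_exists_mem_maximalIdeal]
    exact ⟨d.2, hd⟩
  rw [hnorm, hprod, ← map_sub]
  exact hfinal _ hmain

/-- **(VAL)** in characteristic zero. -/
theorem norm_sub_prod_mem_nonunits_of_charZero [CharZero F]
    (hdeg : ∀ w : Place K F', w.deg = 1) (v : Place K F) (z : F')
    (c : Place K F' → K)
    (hz : ∀ w ∈ v.fiber F', z - algebraMap K F' (c w) ∈ w.toValuationSubring.nonunits) :
    Algebra.norm F z - algebraMap K F (∏ w ∈ v.fiber F', c w ^ w.ramificationIndex F) ∈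
      v.toValuationSubring.nonunits :=
  norm_sub_prod_mem_nonunits hdeg v z c hz

end Main

section Along

variable {K F F' : Type*} [Field K] [Field F] [Field F'] [Algebra K F] [Algebra K F']
  [HasPrincipalDivisors K F']

/-- **(VAL)** along an embedding `φ : F →ₐ[K] F'` of function fields, characteristic zero. -/
theorem norm_sub_prod_mem_nonunits_along [CharZero F] (φ : F →ₐ[K] F')
    (hφ : φ.toRingHom.IsIntegral) (hfin : FiniteAlong K φ)
    (hdeg : ∀ w : Place K F', w.deg = 1) (v : Place K F) (z : F') (c : Place K F' → K)
    (hz : ∀ w ∈ Place.fiberAlong φ hφ v,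
      z - algebraMap K F' (c w) ∈ w.toValuationSubring.nonunits) :
    (letI := algebraAlong φ; Algebra.norm F z)
        - algebraMap K F (∏ w ∈ Place.fiberAlong φ hφ v, c w ^ w.ramificationIndexAlong φ) ∈
      v.toValuationSubring.nonunits := by
  letI := algebraAlong φ
  haveI := isScalarTower_along φ
  haveI : Module.Finite F F' := hfin
  exact norm_sub_prod_mem_nonunits_of_charZero hdeg v z c hz

end Along

end Fermat.Agent.S37.H67
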