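import Mathlib
import Fermat.Prelude.Def_AlgebraicCurve_DivisorClassGroup
import Fermat.Agent.S18.Charts_helper97

/-!
# S37, node (OVERLAP): the `M = 1` case of (TRANSFER)

For a coordinate `x` (in the application `x = j`) the chart at infinity `chartV A x` is
`chartU A x` with `x` inverted on the overlap.  Hence at a place where `x` has a unit value, the
values of the functions of `chartV A x` are determined by the values of the functions of
`chartU A x`: two places with the same residue character on `chartU A x`, at which the residue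
of `x` is nonzero, have the same residue character on `chartV A x`.
-/

set_option autoImplicit false

namespace Fermat.Agent.S37.H30

open AlgebraicCurve Fermat.Agent.S18.H97

variable {K F : Type*} [Field K] [Field F] [Algebra K F]

/-- `y` is regular at `P` with value `c`. -/
def ValAt (P : Place K F) (y : F) (c : K) : Prop :=
  y - algebraMap K F c ∈ P.toValuationSubring.nonunits

theorem valAt_iff (P : Place K F) (y : F) (c : K) :
    ValAt P y c ↔ y - algebraMap K F c ∈ P.toValuationSubring.nonunits := Iff.rfl

theorem valAt_iff_lt (P : Place K F) (y : F) (c : K) :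
    ValAt P y c ↔ P.toValuationSubring.valuation (y - algebraMap K F c) < 1 :=
  ValuationSubring.mem_nonunits_iff _

/-- Nonzero constants are units at every place. -/
theorem valuation_algebraMap (P : Place K F) {c : K} (hc : c ≠ 0) :
    P.toValuationSubring.valuation (algebraMap K F c) = 1 := by
  have h1 : P.toValuationSubring.valuation (algebraMap K F c) ≤ 1 :=
    (ValuationSubring.valuation_le_one_iff _ _).mpr (P.algebraMap_mem' c)
  have h2 : P.toValuationSubring.valuation (algebraMap K F c⁻¹) ≤ 1 :=
    (ValuationSubring.valuation_le_one_iff _ _).mpr (P.algebraMap_mem' c⁻¹)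
  have h3 : P.toValuationSubring.valuation (algebraMap K F c) *
      P.toValuationSubring.valuation (algebraMap K F c⁻¹) = 1 := by
    rw [← map_mul, ← map_mul, mul_inv_cancel₀ hc, map_one, map_one]
  refine le_antisymm h1 ?_
  calc (1 : P.toValuationSubring.ValueGroup)
      = P.toValuationSubring.valuation (algebraMap K F c) *
          P.toValuationSubring.valuation (algebraMap K F c⁻¹) := h3.symm
    _ ≤ P.toValuationSubring.valuation (algebraMap K F c) := mul_le_of_le_one_right' h2

/-- A function with a value at `P` is regular at `P`. -/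
theorem ValAt.mem {P : Place K F} {y : F} {c : K} (h : ValAt P y c) :
    y ∈ P.toValuationSubring := by
  have h1 : y - algebraMap K F c ∈ P.toValuationSubring :=
    P.toValuationSubring.nonunits_le h
  have := add_mem h1 (P.algebraMap_mem' c)
  simpa using this

/-- A function with a nonzero value at `P` is a unit at `P`. -/
theorem ValAt.valuation_eq_one {P : Place K F} {y : F} {c : K} (h : ValAt P y c) (hc : c ≠ 0) :
    P.toValuationSubring.valuation y = 1 := by
  rw [valAt_iff_lt] at h
  have h2 := valuation_algebraMap P hc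
  have h3 : y = algebraMap K F c + (y - algebraMap K F c) := by ring
  rw [h3, Valuation.map_add_eq_of_lt_left _ (by rw [h2]; exact h), h2]

theorem ValAt.add {P : Place K F} {y z : F} {c d : K} (hy : ValAt P y c) (hz : ValAt P z d) :
    ValAt P (y + z) (c + d) := by
  rw [valAt_iff_lt] at *
  have : y + z - algebraMap K F (c + d) = (y - algebraMap K F c) + (z - algebraMap K F d) := by
    rw [map_add]; ring
  rw [this]
  exact lt_of_le_of_lt (Valuation.map_add _ _ _) (max_lt hy hz)

theorem ValAt.mul {P : Place K F} {y z : F} {c d : K} (hy : ValAt P y c) (hz : ValAt P z d) :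
    ValAt P (y * z) (c * d) := by
  have hzm := (ValuationSubring.valuation_le_one_iff _ _).mpr hz.mem
  have hcm := (ValuationSubring.valuation_le_one_iff _ _).mpr (P.algebraMap_mem' c)
  rw [valAt_iff_lt] at *
  have : y * z - algebraMap K F (c * d)
      = (y - algebraMap K F c) * z + algebraMap K F c * (z - algebraMap K F d) := by
    rw [map_mul]; ring
  rw [this]
  refine lt_of_le_of_lt (Valuation.map_add _ _ _) (max_lt ?_ ?_)
  · rw [map_mul]
    exact mul_lt_of_lt_of_le_one hy hzm
  · rw [map_mul]
    exact mul_lt_of_le_one_of_lt hcm hz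

theorem valAt_one (P : Place K F) : ValAt P (1 : F) (1 : K) := by
  rw [valAt_iff_lt, map_one, sub_self, map_zero]
  exact zero_lt_one

theorem ValAt.pow {P : Place K F} {y : F} {c : K} (hy : ValAt P y c) (n : ℕ) :
    ValAt P (y ^ n) (c ^ n) := by
  induction n with
  | zero => simpa using valAt_one P
  | succ n ih => rw [pow_succ, pow_succ]; exact ih.mul hy

/-- Values are unique. -/
theorem ValAt.unique {P : Place K F} {y : F} {c d : K} (hc : ValAt P y c) (hd : ValAt P y d) :
    c = d := by
  by_contra hne
  rw [valAt_iff_lt] at hc hd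
  have h1 : algebraMap K F (c - d) = (y - algebraMap K F d) - (y - algebraMap K F c) := by
    rw [map_sub]; ring
  have h2 : P.toValuationSubring.valuation (algebraMap K F (c - d)) < 1 := by
    rw [h1]
    exact lt_of_le_of_lt (Valuation.map_sub _ _ _) (max_lt hd hc)
  rw [valuation_algebraMap P (sub_ne_zero.mpr hne)] at h2
  exact lt_irrefl _ h2

/-- Division by a function with a nonzero value. -/
theorem ValAt.of_mul {P : Place K F} {x y : F} {c b : K} (hx : ValAt P x c) (hc : c ≠ 0)
    (hxy : ValAt P (x * y) b) : ValAt P y (b / c) := by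
  have hxv := hx.valuation_eq_one hc
  have hcv := valuation_algebraMap P hc
  have hym : P.toValuationSubring.valuation y ≤ 1 := by
    have := (ValuationSubring.valuation_le_one_iff _ _).mpr hxy.mem
    rwa [map_mul, hxv, one_mul] at this
  rw [valAt_iff_lt] at hx hxy ⊢
  have hc' : algebraMap K F c ≠ 0 := (map_ne_zero _).mpr hc
  have key : algebraMap K F c * (y - algebraMap K F (b / c))
      = (x * y - algebraMap K F b) - (x - algebraMap K F c) * y := by
    rw [map_div₀]
    field_simp
    ring
  have h2 : P.toValuationSubring.valuation (algebraMap K F c * (y - algebraMap K F (b / c))) < 1 := by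
    rw [key]
    refine lt_of_le_of_lt (Valuation.map_sub _ _ _) (max_lt hxy ?_)
    rw [map_mul]
    exact mul_lt_of_lt_of_le_one hx hym
  rwa [map_mul, hcv, one_mul] at h2

/-- The value of the inverse. -/
theorem ValAt.inv {P : Place K F} {x : F} {c : K} (hx : ValAt P x c) (hc : c ≠ 0) :
    ValAt P x⁻¹ c⁻¹ := by
  have hx0 : x ≠ 0 := by
    rintro rfl
    have := hx.valuation_eq_one hc
    rw [map_zero] at this
    exact zero_ne_one this
  have h := ValAt.of_mul (y := x⁻¹) (b := 1) hx hc (by
    rw [mul_inv_cancel₀ hx0]; exact valAt_one P)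
  rwa [one_div] at h

section Overlap

variable {A : Type*} [CommRing A] [Algebra A K] [Algebra A F]

/-- **(O1)** Value transport from the finite chart to the chart at infinity: if `x` has the
nonzero value `c` at `P` and `x ^ n * y` has the value `b`, then `y` has the value `b / c ^ n`. -/
theorem valAt_of_pow_mul {P : Place K F} {x y : F} {c b : K} (n : ℕ) (hx : ValAt P x c)
    (hc : c ≠ 0) (hxy : ValAt P (x ^ n * y) b) : ValAt P y (b / c ^ n) :=
  ValAt.of_mul (hx.pow n) (pow_ne_zero n hc) hxy

/-- Every function of the chart at infinity is `x ^ (-n)` times a function of the finite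
chart. -/
theorem exists_pow_mul_mem_chartU_of_mem_chartV {x : F} (hx : x ≠ 0) {y : F}
    (hy : y ∈ chartV A x) : ∃ n : ℕ, x ^ n * y ∈ chartU A x :=
  exists_pow_mul_mem_chartU hx (chartV_le_chartUV x hy)

/-- **(O2) (OVERLAP)**: two places with the same residue character on the finite chart
`chartU A x`, at which the residue of `x` is nonzero, are regular on the chart at infinity
`chartV A x` and have the same residue character there. -/
theorem overlap_pair {k : Type*} [Field k] (res : A →+* k)
    (hunit : ∀ a : A, res a ≠ 0 → IsUnit a) (P P' : Place K F) {x : F} (hx0 : x ≠ 0)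
    (c c' : A) (hc : ValAt P x (algebraMap A K c)) (hc' : ValAt P' x (algebraMap A K c'))
    (hcc : res c = res c') (hres : res c ≠ 0)
    (hU : ∀ y ∈ chartU A x, ∃ a a' : A, ValAt P y (algebraMap A K a) ∧
      ValAt P' y (algebraMap A K a') ∧ res a = res a') :
    ∀ y ∈ chartV A x, ∃ a a' : A, ValAt P y (algebraMap A K a) ∧
      ValAt P' y (algebraMap A K a') ∧ res a = res a' := by
  intro y hy
  obtain ⟨n, hn⟩ := exists_pow_mul_mem_chartU_of_mem_chartV (A := A) hx0 hy
  obtain ⟨b, b', hb, hb', hbb⟩ := hU _ hn
  obtain ⟨u, rfl⟩ := hunit c hres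
  obtain ⟨u', rfl⟩ := hunit c' (hcc ▸ hres)
  have hu0 : algebraMap A K (u : A) ≠ 0 := (u.isUnit.map (algebraMap A K)).ne_zero
  have hu0' : algebraMap A K (u' : A) ≠ 0 := (u'.isUnit.map (algebraMap A K)).ne_zero
  have e : ∀ (v : Aˣ) (d : A), algebraMap A K (d * ((v⁻¹ : Aˣ) : A) ^ n)
      = algebraMap A K d / algebraMap A K (v : A) ^ n := by
    intro v d
    have hv : algebraMap A K ((v⁻¹ : Aˣ) : A) = (algebraMap A K (v : A))⁻¹ :=
      eq_inv_of_mul_eq_one_right (by rw [← map_mul, Units.mul_inv, map_one])
    rw [map_mul, map_pow, hv, inv_pow, div_eq_mul_inv]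
  refine ⟨b * ((u⁻¹ : Aˣ) : A) ^ n, b' * ((u'⁻¹ : Aˣ) : A) ^ n, ?_, ?_, ?_⟩
  · rw [e]
    exact valAt_of_pow_mul n hc hu0 hb
  · rw [e]
    exact valAt_of_pow_mul n hc' hu0' hb'
  · have h1 : res ((u⁻¹ : Aˣ) : A) = res ((u'⁻¹ : Aˣ) : A) := by
      have hA : res (u : A) * res ((u⁻¹ : Aˣ) : A) = 1 := by
        rw [← map_mul, Units.mul_inv, map_one]
      have hB : res (u' : A) * res ((u'⁻¹ : Aˣ) : A) = 1 := by
        rw [← map_mul, Units.mul_inv, map_one]
      rw [← hcc] at hB
      exact mul_left_cancel₀ hres (hA.trans hB.symm)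
    rw [map_mul, map_mul, map_pow, map_pow, hbb, h1]

/-- **(OVERLAP)**, symmetric form: from the chart at infinity to the finite chart, at places where
the residue of `x⁻¹` is nonzero. -/
theorem overlap_pair_inv {k : Type*} [Field k] (res : A →+* k)
    (hunit : ∀ a : A, res a ≠ 0 → IsUnit a) (P P' : Place K F) {x : F} (hx0 : x ≠ 0)
    (c c' : A) (hc : ValAt P x⁻¹ (algebraMap A K c)) (hc' : ValAt P' x⁻¹ (algebraMap A K c'))
    (hcc : res c = res c') (hres : res c ≠ 0)
    (hV : ∀ y ∈ chartV A x, ∃ a a' : A, ValAt P y (algebraMap A K a) ∧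
      ValAt P' y (algebraMap A K a') ∧ res a = res a') :
    ∀ y ∈ chartU A x, ∃ a a' : A, ValAt P y (algebraMap A K a) ∧
      ValAt P' y (algebraMap A K a') ∧ res a = res a' := by
  have h := overlap_pair (x := x⁻¹) res hunit P P' (inv_ne_zero hx0) c c' hc hc' hcc hres hV
  rw [chartV_inv] at h
  exact h

end Overlap

end Fermat.Agent.S37.H30
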