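import Mathlib
import Fermat.Agent.S37.PhiInt_helper20
import Fermat.Agent.S37.Kron_helper17
import Fermat.Agent.S18.GaussDVR_helper93

/-!
# S37 (PHI-RED, helper85): Kronecker's congruence at `X = 0` for the modular polynomial

Let `Φ ∈ A[X][X]` be the modular polynomial of prime level `l` in the product form of
`S28.H20.modRhs` (as produced by `S37.H20.exists_modEq_ring`), and `res : A →+* k` a ring hom to
a field of characteristic `l` with `res u = 1` for the root of unity `u`.  Then

* `(Φ.coeff 0).map res = X ^ (l + 1)`   (`Φ(0, Y) ≡ Y ^ (l + 1)`), hence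
* `(reflect (l + 1) (Φ.coeff 0)).map res = 1`: the multiplier polynomial `s` of (PHI-INT)
  reduces to `1`, i.e. all its coefficients of positive degree lie in the kernel of `res`.

So the multiplier `h0 = s(1/j)` of the chart at infinity satisfies `h0 ≡ 1` modulo the maximal
ideal, at every place where `1/j` has an integral value, and its expansion reduces to `1`.
-/

set_option autoImplicit false

open Polynomial

noncomputable section

namespace Fermat.Agent.S37.H85

open ModularCurve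

/-! ### Characteristic `l` -/

section Field

variable {k : Type*} [Field k] (l : ℕ) [NeZero l] [CharP k l]

/-- `j(q) ^ l = j(q ^ l)` in characteristic `l`. -/
theorem jqModC_pow_char (hl : l.Prime) : jqModC k ^ l = qExpand k l (jqModC k) := by
  have : Fact l.Prime := ⟨hl⟩
  rw [Fermat.Agent.S28.H55.pow_char_eq_qExpand_coeffMap_frobenius l (jqModC k), coeffMap_jqModC]

/-- `j(q ^ (l * l)) = j(q ^ l) ^ l` in characteristic `l`. -/
theorem qExpand_mul_self_jqModC (hl : l.Prime) :
    qExpand k (l * l) (jqModC k) = qExpand k l (jqModC k) ^ l := by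
  rw [← qExpand_qExpand, ← jqModC_pow_char l hl, map_pow, jqModC_pow_char l hl]

/-- The constant coefficient of the right-hand side of the modular equation for `u = 1` in
characteristic `l`. -/
theorem coeff_zero_modRhs_one (hl : l.Prime) :
    (Fermat.Agent.S28.H20.modRhs k l (1 : kˣ)).coeff 0 = qExpand k l (jqModC k) ^ (l + 1) := by
  have : Fact l.Prime := ⟨hl⟩
  have hC : CharP (LaurentSeries k) l :=
    charP_of_injective_ringHom (f := (HahnSeries.C : k →+* LaurentSeries k))
      HahnSeries.C_injective l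
  rw [Fermat.Agent.S37.H20.coeff_modRhs_zero]
  have h1 : ∀ b ∈ Finset.range l,
      -(Fermat.Agent.S28.H20.twist ((1 : kˣ) ^ b) (jqModC k)) = -(jqModC k) := by
    intro b _
    rw [one_pow, Fermat.Agent.S28.H20.twist_one]
  rw [Finset.prod_congr rfl h1, Finset.prod_const, Finset.card_range]
  have h2 : (-(jqModC k)) ^ l = -(jqModC k ^ l) := by
    have h := map_neg (frobenius (LaurentSeries k) l) (jqModC k)
    simpa only [frobenius_def] using h
  rw [h2, jqModC_pow_char l hl, qExpand_mul_self_jqModC l hl, mul_neg, neg_neg, pow_succ]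

omit [CharP k l] in
/-- `j(q ^ l)` is transcendental over `k`, in the form: evaluation at it is injective. -/
theorem aeval_qExpand_jqModC_injective :
    Function.Injective (aeval (R := k) (qExpand k l (jqModC k))) := by
  rw [injective_iff_map_eq_zero]
  intro P hP
  have h := Fermat.Agent.S28.H20.coeff_aeval_qExpand_jqModC (K := k) l P
  rw [hP, HahnSeries.coeff_zero] at h
  exact Polynomial.leadingCoeff_eq_zero.mp h.symm

variable {A : Type*} [CommRing A]

/-- **Kronecker's congruence at `X = 0`**: `Φ(0, Y) ≡ Y ^ (l + 1)`. -/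
theorem map_coeff_zero_of_modEq (hl : l.Prime) (res : A →+* k) (u : Aˣ) (hu : res (u : A) = 1)
    (Φ : A[X][X])
    (hΦ : Φ.map (aeval (R := A) (qExpand A l (jqModC A))).toRingHom
      = Fermat.Agent.S28.H20.modRhs A l u) :
    (Φ.coeff 0).map res = X ^ (l + 1) := by
  have h1 := Fermat.Agent.S28.H20.modEq_baseChange l res u Φ hΦ
  have hu' : Units.map (res : A →* k) u = 1 := by
    ext
    simpa using hu
  rw [hu'] at h1
  have h2 := Fermat.Agent.S37.H20.aeval_coeff_eq l 1 _ h1 0
  rw [Polynomial.coeff_map, coe_mapRingHom, coeff_zero_modRhs_one l hl] at h2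
  apply aeval_qExpand_jqModC_injective l
  rw [h2, map_pow, aeval_X]

/-- The multiplier polynomial `s = reflect (l + 1) (Φ(0, Y))` reduces to `1`. -/
theorem map_reflect_of_modEq (hl : l.Prime) (res : A →+* k) (u : Aˣ) (hu : res (u : A) = 1)
    (Φ : A[X][X])
    (hΦ : Φ.map (aeval (R := A) (qExpand A l (jqModC A))).toRingHom
      = Fermat.Agent.S28.H20.modRhs A l u) :
    (reflect (l + 1) (Φ.coeff 0)).map res = 1 := by
  rw [← Polynomial.reflect_map, map_coeff_zero_of_modEq l hl res u hu Φ hΦ, reflect_monomial,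
    revAt_le le_rfl, Nat.sub_self, pow_zero]

/-- Coefficient form: the coefficients of positive degree of `s` are killed by `res`. -/
theorem map_coeff_reflect_of_modEq (hl : l.Prime) (res : A →+* k) (u : Aˣ)
    (hu : res (u : A) = 1) (Φ : A[X][X])
    (hΦ : Φ.map (aeval (R := A) (qExpand A l (jqModC A))).toRingHom
      = Fermat.Agent.S28.H20.modRhs A l u) (i : ℕ) (hi : 1 ≤ i) :
    res ((reflect (l + 1) (Φ.coeff 0)).coeff i) = 0 := by
  have h := congrArg (fun p : k[X] => p.coeff i) (map_reflect_of_modEq l hl res u hu Φ hΦ)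
  simp only [Polynomial.coeff_map] at h
  rw [h, Polynomial.coeff_one, if_neg (by omega)]

/-- Evaluation form: `s(c) ≡ 1` for every `c`. -/
theorem map_eval_reflect_of_modEq (hl : l.Prime) (res : A →+* k) (u : Aˣ)
    (hu : res (u : A) = 1) (Φ : A[X][X])
    (hΦ : Φ.map (aeval (R := A) (qExpand A l (jqModC A))).toRingHom
      = Fermat.Agent.S28.H20.modRhs A l u) (c : A) :
    res ((reflect (l + 1) (Φ.coeff 0)).eval c) = 1 := by
  rw [← Polynomial.eval₂_at_apply, ← Polynomial.eval_map,
    map_reflect_of_modEq l hl res u hu Φ hΦ, Polynomial.eval_one]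

/-- Expansion form: the expansion of `s(x)` reduces to `1`, for every Laurent series `x`. -/
theorem coeffMap_evC_reflect_of_modEq (hl : l.Prime) (res : A →+* k) (u : Aˣ)
    (hu : res (u : A) = 1) (Φ : A[X][X])
    (hΦ : Φ.map (aeval (R := A) (qExpand A l (jqModC A))).toRingHom
      = Fermat.Agent.S28.H20.modRhs A l u) (x : LaurentSeries A) :
    coeffMap res (Fermat.Agent.S18.H93.evC (reflect (l + 1) (Φ.coeff 0)) x) = 1 := by
  rw [Fermat.Agent.S18.H93.coeffMap_evC, map_reflect_of_modEq l hl res u hu Φ hΦ,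
    Fermat.Agent.S18.H93.evC_one]

end Field

/-! ### Valuation subrings -/

section Val

variable {K : Type*} [Field K] (A : ValuationSubring K)

/-- In a valuation ring, finitely many elements of the maximal ideal have a common divisor in
the maximal ideal. -/
theorem exists_dvd_of_forall_mem_maximalIdeal (s : Finset A)
    (hs : ∀ x ∈ s, x ∈ IsLocalRing.maximalIdeal A) :
    ∃ a ∈ IsLocalRing.maximalIdeal A, ∀ x ∈ s, a ∣ x := by
  classical
  induction s using Finset.induction_on with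
  | empty => exact ⟨0, zero_mem _, fun x hx => absurd hx (Finset.notMem_empty x)⟩
  | insert y t _ ih =>
    obtain ⟨a, ha, hat⟩ := ih (fun x hx => hs x (Finset.mem_insert_of_mem hx))
    rcases ValuationRing.dvd_total a y with h | h
    · refine ⟨a, ha, fun x hx => ?_⟩
      rcases Finset.mem_insert.mp hx with rfl | hx'
      · exact h
      · exact hat x hx'
    · refine ⟨y, hs y (Finset.mem_insert_self y t), fun x hx => ?_⟩
      rcases Finset.mem_insert.mp hx with rfl | hx'
      · exact dvd_rfl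
      · exact h.trans (hat x hx')

/-- A polynomial over a valuation ring all of whose coefficients lie in the maximal ideal is
`C a * p'` with `a` in the maximal ideal. -/
theorem exists_eq_C_mul_of_forall_coeff_mem (p : A[X])
    (hp : ∀ i, p.coeff i ∈ IsLocalRing.maximalIdeal A) :
    ∃ a ∈ IsLocalRing.maximalIdeal A, ∃ p' : A[X], p = C a * p' := by
  classical
  obtain ⟨a, ha, hdvd⟩ := exists_dvd_of_forall_mem_maximalIdeal A (p.support.image p.coeff)
    (fun x hx => by
      obtain ⟨i, -, rfl⟩ := Finset.mem_image.mp hx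
      exact hp i)
  have h : C a ∣ p := by
    rw [Polynomial.C_dvd_iff_dvd_coeff]
    intro i
    by_cases hi : i ∈ p.support
    · exact hdvd _ (Finset.mem_image_of_mem _ hi)
    · rw [Polynomial.notMem_support_iff.mp hi]
      exact dvd_zero a
  obtain ⟨p', hp'⟩ := h
  exact ⟨a, ha, p', hp'⟩

variable (l : ℕ) [NeZero l] [CharP (IsLocalRing.ResidueField A) l]

omit [NeZero l] in
/-- A unit of `A` which is an `l`-th root of unity reduces to `1` in residue
characteristic `l`. -/
theorem residue_unit_eq_one (hl : l.Prime) (u : (↥A)ˣ) (hu : (u : ↥A) ^ l = 1) :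
    IsLocalRing.residue A (u : ↥A) = 1 := by
  have : Fact l.Prime := ⟨hl⟩
  refine H17.eq_one_of_pow_char_eq_one l _ ?_
  rw [← map_pow, hu, map_one]

variable (u : (↥A)ˣ) (Φ : (↥A)[X][X])

/-- **(PHI-RED) over a valuation subring**: `s` reduces to `1`. -/
theorem map_residue_reflect (hl : l.Prime) (hu : (u : ↥A) ^ l = 1)
    (hΦ : Φ.map (aeval (R := ↥A) (qExpand ↥A l (jqModC ↥A))).toRingHom
      = Fermat.Agent.S28.H20.modRhs ↥A l u) :
    (reflect (l + 1) (Φ.coeff 0)).map (IsLocalRing.residue A) = 1 :=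
  map_reflect_of_modEq l hl _ u (residue_unit_eq_one A l hl u hu) Φ hΦ

/-- The coefficients of positive degree of `s` lie in the maximal ideal. -/
theorem coeff_reflect_mem_maximalIdeal (hl : l.Prime) (hu : (u : ↥A) ^ l = 1)
    (hΦ : Φ.map (aeval (R := ↥A) (qExpand ↥A l (jqModC ↥A))).toRingHom
      = Fermat.Agent.S28.H20.modRhs ↥A l u) (i : ℕ) (hi : 1 ≤ i) :
    (reflect (l + 1) (Φ.coeff 0)).coeff i ∈ IsLocalRing.maximalIdeal A := by
  rw [← IsLocalRing.residue_eq_zero_iff]
  exact map_coeff_reflect_of_modEq l hl _ u (residue_unit_eq_one A l hl u hu) Φ hΦ i hi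

/-- `s(c) - 1` lies in the maximal ideal for every `c`. -/
theorem eval_reflect_sub_one_mem_maximalIdeal (hl : l.Prime) (hu : (u : ↥A) ^ l = 1)
    (hΦ : Φ.map (aeval (R := ↥A) (qExpand ↥A l (jqModC ↥A))).toRingHom
      = Fermat.Agent.S28.H20.modRhs ↥A l u) (c : ↥A) :
    (reflect (l + 1) (Φ.coeff 0)).eval c - 1 ∈ IsLocalRing.maximalIdeal A := by
  rw [← IsLocalRing.residue_eq_zero_iff, map_sub, map_one, sub_eq_zero]
  exact map_eval_reflect_of_modEq l hl _ u (residue_unit_eq_one A l hl u hu) Φ hΦ c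

/-- **Global form**: `s - 1 = C a * s'` with `a` in the maximal ideal (so that
`s(x) - 1 = a * s'(x)` for every chart coordinate `x`). -/
theorem exists_reflect_sub_one_eq_C_mul (hl : l.Prime) (hu : (u : ↥A) ^ l = 1)
    (hΦ : Φ.map (aeval (R := ↥A) (qExpand ↥A l (jqModC ↥A))).toRingHom
      = Fermat.Agent.S28.H20.modRhs ↥A l u) :
    ∃ a ∈ IsLocalRing.maximalIdeal A, ∃ s' : (↥A)[X],
      reflect (l + 1) (Φ.coeff 0) - 1 = C a * s' := by
  refine exists_eq_C_mul_of_forall_coeff_mem A _ (fun i => ?_)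
  rw [← IsLocalRing.residue_eq_zero_iff]
  have h : ((reflect (l + 1) (Φ.coeff 0) - 1).map (IsLocalRing.residue A)) = 0 := by
    rw [Polynomial.map_sub, map_residue_reflect A l u Φ hl hu hΦ, Polynomial.map_one, sub_self]
  have h' := congrArg (fun p : (IsLocalRing.ResidueField A)[X] => p.coeff i) h
  simpa only [Polynomial.coeff_map, Polynomial.coeff_zero] using h'

/-- The expansion of `s(x)` reduces to `1`, for every `A`-integral Laurent series `x`. -/
theorem coeffMap_residue_evC_reflect (hl : l.Prime) (hu : (u : ↥A) ^ l = 1)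
    (hΦ : Φ.map (aeval (R := ↥A) (qExpand ↥A l (jqModC ↥A))).toRingHom
      = Fermat.Agent.S28.H20.modRhs ↥A l u) (x : LaurentSeries ↥A) :
    coeffMap (IsLocalRing.residue A)
      (Fermat.Agent.S18.H93.evC (reflect (l + 1) (Φ.coeff 0)) x) = 1 :=
  coeffMap_evC_reflect_of_modEq l hl _ u (residue_unit_eq_one A l hl u hu) Φ hΦ x

end Val

/-! ### Packaged forms: (PHI-INT) of `S37.H20` together with (PHI-RED) for the same `Φ`, `s` -/

section Packaged

universe v

/-- **(PHI-INT) + (PHI-RED) over a valuation subring** `A` (residue characteristic `l`) of a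
field `K` containing a primitive `l`-th root of unity `ζ`: the package of
`S37.H20.exists_phiInt_valuationSubring`, for `s = reflect (l + 1) (Φ.coeff 0)`, together with
`s ≡ 1` modulo the maximal ideal in four forms. -/
theorem exists_phiInt_red_valuationSubring {K : Type*} [Field K] (A : ValuationSubring K)
    (l : ℕ) [NeZero l] [CharP (IsLocalRing.ResidueField A) l] (hl : l.Prime) (ζ : K)
    (hζ : IsPrimitiveRoot ζ l) :
    ∃ (u : (↥A)ˣ) (Φ : (↥A)[X][X]) (s : (↥A)[X]), ((u : ↥A) : K) = ζ ∧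
      Φ.Monic ∧ Φ.natDegree = l + 1 ∧
      Φ.map (aeval (R := ↥A) (qExpand ↥A l (jqModC ↥A))).toRingHom
        = Fermat.Agent.S28.H20.modRhs ↥A l u ∧
      s = reflect (l + 1) (Φ.coeff 0) ∧
      s.coeff 0 = 1 ∧
      s.map (IsLocalRing.residue A) = 1 ∧
      (∃ a ∈ IsLocalRing.maximalIdeal A, ∃ s' : (↥A)[X], s - 1 = C a * s') ∧
      (∀ c : ↥A, s.eval c - 1 ∈ IsLocalRing.maximalIdeal A) ∧
      (∀ x : LaurentSeries ↥A,
        coeffMap (IsLocalRing.residue A) (Fermat.Agent.S18.H93.evC s x) = 1) ∧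
      ∀ (S : Type v) [CommRing S] (ψ : ↥A →+* S) (ι : S →+* LaurentSeries K),
        Function.Injective ι → (∀ a : ↥A, ι (ψ a) = algebraMap K (LaurentSeries K) (a : K)) →
        ∀ x y : S, ι x = jqModC K → ι y = qExpand K l (jqModC K) →
          eval₂ (eval₂RingHom ψ y) x Φ = 0 ∧ eval₂ (eval₂RingHom ψ x) y Φ = 0 ∧
          (eval₂RingHom ψ y).IsIntegralElem x ∧ (eval₂RingHom ψ x).IsIntegralElem y ∧
          ∀ x' y' : S, x' * x = 1 → y' * y = 1 →
            (eval₂RingHom ψ y').IsIntegralElem (eval₂ ψ y' s * x') ∧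
            (eval₂RingHom ψ x').IsIntegralElem (eval₂ ψ x' s * y') := by
  have hζl : ζ ^ l = 1 := hζ.pow_eq_one
  have hζ0 : ζ ≠ 0 := hζ.ne_zero hl.ne_zero
  have hinv : ζ⁻¹ ^ l = 1 := by rw [inv_pow, hζl, inv_one]
  let u : (↥A)ˣ :=
    { val := ⟨ζ, Fermat.Agent.S37.H20.mem_valuationSubring_of_pow_eq_one' A hl.ne_zero hζl⟩
      inv := ⟨ζ⁻¹, Fermat.Agent.S37.H20.mem_valuationSubring_of_pow_eq_one' A hl.ne_zero hinv⟩
      val_inv := Subtype.ext (mul_inv_cancel₀ hζ0)
      inv_val := Subtype.ext (inv_mul_cancel₀ hζ0) }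
  have hu : (u : ↥A) ^ l = 1 := Subtype.ext hζl
  have huζ : IsPrimitiveRoot (A.subtype (u : ↥A)) l := hζ
  obtain ⟨Φ, hmonic, hdeg, hΦ, h0, h0deg, hk⟩ :=
    Fermat.Agent.S37.H20.exists_modEq_ring A.subtype A.subtype_injective l hl u huζ
  have hs0 : (reflect (l + 1) (Φ.coeff 0)).coeff 0 = 1 := by
    rw [coeff_reflect, revAt_le (Nat.zero_le _), Nat.sub_zero, ← h0deg]
    exact h0.coeff_natDegree
  refine ⟨u, Φ, reflect (l + 1) (Φ.coeff 0), rfl, hmonic, hdeg, hΦ, rfl, hs0,
    map_residue_reflect A l u Φ hl hu hΦ, exists_reflect_sub_one_eq_C_mul A l u Φ hl hu hΦ,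
    eval_reflect_sub_one_mem_maximalIdeal A l u Φ hl hu hΦ,
    coeffMap_residue_evC_reflect A l u Φ hl hu hΦ, ?_⟩
  intro S _ ψ ι hι hψ x y hx hy
  obtain ⟨h1, h2⟩ :=
    Fermat.Agent.S37.H20.eval₂_eval₂_eq_zero A.subtype ψ ι l u hι hψ Φ hΦ hx hy
  refine ⟨h1, h2, ⟨Φ, hmonic, h1⟩, ⟨Φ, hmonic, h2⟩, ?_⟩
  intro x' y' hx' hy'
  exact (Fermat.Agent.S37.H20.isIntegralElem_inv_of_modEq A.subtype ψ ι l u hι hψ Φ hdeg hΦ
    h0 h0deg hk hx hy hx' hy').2

/-- **(PHI-INT) + (PHI-RED) over a valuation subring of an algebraically closed field** in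
which `l ≠ 0`, with residue characteristic `l` (the frozen case: `K = AlgebraicClosure ℚ`, `A`
over `l`). -/
theorem exists_phiInt_red_of_isAlgClosed {K : Type*} [Field K] [IsAlgClosed K]
    (A : ValuationSubring K) (l : ℕ) [NeZero l] [CharP (IsLocalRing.ResidueField A) l]
    (hl : l.Prime) (hlK : (l : K) ≠ 0) :
    ∃ (u : (↥A)ˣ) (Φ : (↥A)[X][X]) (s : (↥A)[X]), IsPrimitiveRoot ((u : ↥A) : K) l ∧
      Φ.Monic ∧ Φ.natDegree = l + 1 ∧
      Φ.map (aeval (R := ↥A) (qExpand ↥A l (jqModC ↥A))).toRingHom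
        = Fermat.Agent.S28.H20.modRhs ↥A l u ∧
      s = reflect (l + 1) (Φ.coeff 0) ∧
      s.coeff 0 = 1 ∧
      s.map (IsLocalRing.residue A) = 1 ∧
      (∃ a ∈ IsLocalRing.maximalIdeal A, ∃ s' : (↥A)[X], s - 1 = C a * s') ∧
      (∀ c : ↥A, s.eval c - 1 ∈ IsLocalRing.maximalIdeal A) ∧
      (∀ x : LaurentSeries ↥A,
        coeffMap (IsLocalRing.residue A) (Fermat.Agent.S18.H93.evC s x) = 1) ∧
      ∀ (S : Type v) [CommRing S] (ψ : ↥A →+* S) (ι : S →+* LaurentSeries K),
        Function.Injective ι → (∀ a : ↥A, ι (ψ a) = algebraMap K (LaurentSeries K) (a : K)) →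
        ∀ x y : S, ι x = jqModC K → ι y = qExpand K l (jqModC K) →
          eval₂ (eval₂RingHom ψ y) x Φ = 0 ∧ eval₂ (eval₂RingHom ψ x) y Φ = 0 ∧
          (eval₂RingHom ψ y).IsIntegralElem x ∧ (eval₂RingHom ψ x).IsIntegralElem y ∧
          ∀ x' y' : S, x' * x = 1 → y' * y = 1 →
            (eval₂RingHom ψ y').IsIntegralElem (eval₂ ψ y' s * x') ∧
            (eval₂RingHom ψ x').IsIntegralElem (eval₂ ψ x' s * y') := by
  obtain ⟨ζ, hζ⟩ := Fermat.Agent.S28.H20.exists_isPrimitiveRoot_unit K l hl hlK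
  have hζ' : IsPrimitiveRoot (ζ : K) l := IsPrimitiveRoot.coe_units_iff.mpr hζ
  obtain ⟨u, Φ, s, hu, h⟩ := exists_phiInt_red_valuationSubring A l hl (ζ : K) hζ'
  exact ⟨u, Φ, s, hu ▸ hζ', h⟩

end Packaged

end Fermat.Agent.S37.H85
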