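import Mathlib
import Fermat.Prelude.Def_ModularCurve_ArithmeticGalois
import Fermat.Agent.S24.FundId_helper32
import Fermat.Agent.S24.FundId_b_helper92
import Fermat.Agent.S24.Basics_helper19
import Fermat.Agent.S18.PlaceModel_helper74
import Fermat.Agent.S18.Desc_helper92

/-!
# S37, node (RAT) (helper52): finitely many places are rational over a large number field

`Qb = AlgebraicClosure ℚ`, `Fb L = modularFunctionFieldBar L`.  For a number field
`K ≤ Qb` the `K`-model is `modularFunctionFieldFullC K L`, with comparison map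
`H74.toBar K L` and restriction of places `H74.restrictModel K L`.

* `exists_cut` (generic): a place `P` of a function field over an algebraically closed field of
  characteristic zero is cut out by two functions: `0 < ord_P x`, `0 < ord_P f`, and `P` is the
  only place with this property.
* `smul_toBar` : the arithmetic Galois action fixes the functions defined over a field fixed
  by `σ`.
* `exists_rational_place` : for a place `P` of `Fb L` there is a number field `K1` (containing a
  given one) such that for EVERY number field `K2 ≥ K1`: `P` is fixed by `Gal(Qb/K2)`, the values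
  at `P` of the functions of the `K2`-model lie in `K2`, `P` is the only place of `Fb L` above
  its restriction to the `K2`-model, and the `K2`-model contains a uniformiser of `P`.
* `exists_rational` : the same for a finite set of places.
* `mem_of_centred` (generic): a value in `Frac A` of an element of a chart `B` at a place centred
  on the special fibre lies in `A`.
-/

set_option autoImplicit false
set_option synthInstance.maxHeartbeats 400000

open AlgebraicCurve ModularCurve IntermediateField

namespace Fermat.Agent.S37.H52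

open Fermat.Agent.S24 Fermat.Agent.S18

noncomputable section

section Generic

variable {K F : Type*} [Field K] [Field F] [Algebra K F]

/-- a nonzero constant is not a nonunit of the valuation ring of a place. -/
theorem algebraMap_notMem_nonunits (P : Place K F) {c : K} (hc : c ≠ 0) :
    algebraMap K F c ∉ P.toValuationSubring.nonunits := by
  rw [ValuationSubring.mem_nonunits_iff_or]
  push Not
  refine ⟨fun h => hc ((map_eq_zero _).mp h), ?_⟩
  rw [← map_inv₀]
  exact P.algebraMap_mem' _

/-- `0 < ord_P f` in terms of the nonunits. -/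
theorem ord_pos_iff (P : Place K F) (f : F) :
    0 < P.ord f ↔ f ≠ 0 ∧ f ∈ P.toValuationSubring.nonunits := by
  constructor
  · intro h
    have hf : f ≠ 0 := by
      rintro rfl
      simp at h
    exact ⟨hf, (H92.ord_pos_iff_mem_nonunits P hf).mp h⟩
  · rintro ⟨hf, h⟩
    exact (H92.ord_pos_iff_mem_nonunits P hf).mpr h

/-- **(R0)** a place is cut out by two functions. -/
theorem exists_cut [IsAlgClosed K] [CharZero K] (x0 : F) (hx0 : Transcendental K x0)
    [FiniteDimensional K⟮x0⟯ F] (P : Place K F) :
    ∃ x f : F, 0 < P.ord x ∧ 0 < P.ord f ∧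
      ∀ P' : Place K F, 0 < P'.ord x → 0 < P'.ord f → P' = P := by
  classical
  obtain ⟨x, hx, hfin, hPx⟩ :
      ∃ x : F, Transcendental K x ∧ FiniteDimensional K⟮x⟯ F ∧ 0 < P.ord x := by
    by_cases hmem : x0 ∈ P.toValuationSubring
    · obtain ⟨c, hc⟩ := H19.residue_eq x0 hx0 inferInstance P hmem
      rcases hc with hc | hc
      · exact absurd (hc ▸ isAlgebraic_algebraMap c) hx0
      · exact ⟨x0 - algebraMap K F c, H32.transcendental_sub_algebraMap hx0 c,
          (H32.finiteDimensional_congr (H32.adjoin_sub_algebraMap x0 c)).mpr inferInstance, hc⟩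
    · refine ⟨x0⁻¹, H32.transcendental_inv hx0,
        (H32.finiteDimensional_congr (H32.adjoin_inv_eq x0)).mpr inferInstance, ?_⟩
      rw [Place.ord_inv]
      have : ¬ 0 ≤ P.ord x0 := fun h => hmem (H92.mem_of_ord_nonneg P h)
      omega
  have hZ := H32.finite_zeros hx
  obtain ⟨f, -, -, hPf, hSf⟩ := H32.exists_integral_separating x hx P hPx
    (hZ.toFinset.erase P) (fun v hv => by simpa using Finset.mem_of_mem_erase hv)
    (Finset.notMem_erase _ _)
  refine ⟨x, f, hPx, hPf, fun P' hP'x hP'f => ?_⟩
  by_contra hne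
  have hmem : P' ∈ hZ.toFinset.erase P := Finset.mem_erase.mpr ⟨hne, by simpa using hP'x⟩
  have := hSf P' hmem
  omega

/-- zero is a nonunit. -/
theorem zero_mem_nonunits' (P : Place K F) : (0 : F) ∈ P.toValuationSubring.nonunits :=
  (ValuationSubring.mem_nonunits_iff_or _).mpr (Or.inl rfl)

/-- the nonunits of the valuation ring of a place are closed under subtraction. -/
theorem sub_mem_nonunits (P : Place K F) {a b : F} (ha : a ∈ P.toValuationSubring.nonunits)
    (hb : b ∈ P.toValuationSubring.nonunits) : a - b ∈ P.toValuationSubring.nonunits := by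
  rw [ValuationSubring.mem_nonunits_iff_exists_mem_maximalIdeal] at ha hb ⊢
  obtain ⟨ha1, ha2⟩ := ha
  obtain ⟨hb1, hb2⟩ := hb
  exact ⟨sub_mem ha1 hb1, Ideal.sub_mem _ ha2 hb2⟩

/-- a nonunit times an element of the valuation ring is a nonunit. -/
theorem mul_mem_nonunits (P : Place K F) {a b : F} (ha : a ∈ P.toValuationSubring.nonunits)
    (hb : b ∈ P.toValuationSubring) : a * b ∈ P.toValuationSubring.nonunits := by
  rw [ValuationSubring.mem_nonunits_iff_exists_mem_maximalIdeal] at ha ⊢
  obtain ⟨ha1, ha2⟩ := ha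
  exact ⟨mul_mem ha1 hb, Ideal.mul_mem_right (⟨b, hb⟩ : P.toValuationSubring) _ ha2⟩

/-- a semilinear automorphism carries the nonunits at `P` to the nonunits at `g • P`. -/
theorem smul_mem_nonunits (g : SemilinearAut K F) (P : Place K F) {z : F}
    (hz : z ∈ P.toValuationSubring.nonunits) : g • z ∈ (g • P).toValuationSubring.nonunits := by
  by_cases hz0 : z = 0
  · rw [hz0, smul_zero]
    exact zero_mem_nonunits' _
  · have h1 : 0 < P.ord z := (ord_pos_iff P z).mpr ⟨hz0, hz⟩
    rw [← SemilinearAut.ord_smul g P z] at h1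
    exact ((ord_pos_iff _ _).mp h1).2

/-- a place all of whose values lie in the constant field has degree one. -/
theorem deg_eq_one_of_forall_value (Q : Place K F)
    (h : ∀ y ∈ Q.toValuationSubring, ∃ c : K, y - algebraMap K F c ∈
      Q.toValuationSubring.nonunits) : Q.deg = 1 := by
  have hsurj : Function.Surjective (algebraMap K Q.ResidueField) := by
    intro r
    obtain ⟨a, rfl⟩ := IsLocalRing.residue_surjective r
    obtain ⟨c, hc⟩ := h a.1 a.2
    refine ⟨c, ?_⟩
    have hmem : a - algebraMap K Q.toValuationSubring c ∈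
        IsLocalRing.maximalIdeal Q.toValuationSubring := by
      rw [ValuationSubring.mem_nonunits_iff_exists_mem_maximalIdeal] at hc
      obtain ⟨h1, h2⟩ := hc
      exact h2
    have := (IsLocalRing.residue_eq_zero_iff _).mpr hmem
    rw [map_sub, sub_eq_zero] at this
    rw [this]
    rfl
  have hbij : Function.Bijective (Algebra.linearMap K Q.ResidueField) :=
    ⟨(algebraMap K Q.ResidueField).injective, hsurj⟩
  have := (LinearEquiv.ofBijective _ hbij).finrank_eq
  rw [Module.finrank_self] at this
  exact this.symm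

end Generic

section Centred

/-- **(R3)** a value in `Frac A` at a place centred on the special fibre of a chart lies in
`A`. -/
theorem mem_of_centred {A K0 F : Type*} [CommRing A] [IsDomain A] [IsDiscreteValuationRing A]
    [Field K0] [Field F] [Algebra A K0] [IsFractionRing A K0] [Algebra K0 F] [Algebra A F]
    [IsScalarTower A K0 F] (π : A) (hπ : Irreducible π) (B : Subalgebra A F) (n : Ideal B)
    (hn : n ≠ ⊤) (hπn : algebraMap A B π ∈ n) (Q : Place K0 F)
    (hcen : ∀ b : B, (b : F) ∈ Q.toValuationSubring.nonunits → b ∈ n)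
    (b : B) (c : K0) (hc : (b : F) - algebraMap K0 F c ∈ Q.toValuationSubring.nonunits) :
    ∃ a : A, algebraMap A K0 a = c := by
  by_cases hc0 : c = 0
  · exact ⟨0, by rw [map_zero, hc0]⟩
  rcases ValuationRing.isInteger_or_isInteger A c with ⟨a, ha⟩ | ⟨a', ha'⟩
  · exact ⟨a, ha⟩
  by_cases hu : IsUnit a'
  · obtain ⟨u, rfl⟩ := hu
    refine ⟨((u⁻¹ : Aˣ) : A), ?_⟩
    have h1 : algebraMap A K0 ((u⁻¹ : Aˣ) : A) * algebraMap A K0 (u : A) = 1 := by
      rw [← map_mul, Units.inv_mul, map_one]
    rw [ha'] at h1
    have h2 := congrArg (· * c) h1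
    simp only [mul_assoc, inv_mul_cancel₀ hc0, mul_one, one_mul] at h2
    exact h2
  · exfalso
    have hmem : a' ∈ IsLocalRing.maximalIdeal A := (IsLocalRing.mem_maximalIdeal a').mpr hu
    rw [hπ.maximalIdeal_eq, Ideal.mem_span_singleton] at hmem
    obtain ⟨a, rfl⟩ := hmem
    -- the element `b * (π a) - 1` of `B` is a nonunit at `Q`, hence lies in `n`
    have hval : ((b * algebraMap A B (π * a) - 1 : B) : F) =
        ((b : F) - algebraMap K0 F c) * algebraMap K0 F c⁻¹ := by
      have e1 : ((algebraMap A B (π * a) : B) : F) = algebraMap K0 F c⁻¹ := by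
        show algebraMap A F (π * a) = _
        rw [IsScalarTower.algebraMap_apply A K0 F, ha']
      have e2 : algebraMap K0 F c * algebraMap K0 F c⁻¹ = 1 := by
        rw [← map_mul, mul_inv_cancel₀ hc0, map_one]
      show (b : F) * ((algebraMap A B (π * a) : B) : F) - 1 = _
      rw [e1, sub_mul, e2]
    have h1 : ((b * algebraMap A B (π * a) - 1 : B) : F) ∈ Q.toValuationSubring.nonunits := by
      rw [hval]
      exact mul_mem_nonunits Q hc (Q.algebraMap_mem' _)
    have h2 := hcen _ h1
    have h3 : b * algebraMap A B (π * a) ∈ n := by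
      rw [map_mul, ← mul_assoc, mul_comm _ (algebraMap A B π), mul_assoc]
      exact Ideal.mul_mem_right _ _ hπn
    have h4 : (1 : B) ∈ n := by
      have := n.sub_mem h3 h2
      simpa using this
    exact hn ((Ideal.eq_top_iff_one n).mpr h4)

end Centred

section Modular

local notation "Qb" => AlgebraicClosure ℚ

variable (L : ℕ) [NeZero L]

omit [NeZero L] in
/-- `Qb` is Galois over every number field inside it. -/
theorem isGalois_top (K : IntermediateField ℚ Qb) : IsGalois (↥K) Qb := by
  have h0 : IsGalois ℚ Qb := by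
    have h : (DivisionRing.toRatAlgebra : Algebra ℚ Qb) = AlgebraicClosure.instAlgebra ℚ :=
      Subsingleton.elim _ _
    rw [h]
    infer_instance
  exact IsGalois.tower_top_intermediateField K

/-- the arithmetic Galois action fixes the functions defined over a field fixed by `σ`. -/
theorem smul_toBar (K : IntermediateField ℚ Qb) (σ : Qb ≃ₐ[ℚ] Qb) (hσ : ∀ a ∈ K, σ a = a)
    (y : ↥(modularFunctionFieldFullC (↥K) L)) :
    arithmeticGalois (modularFunctionFieldFull L) σ • (H74.toBar (↥K) L y) =
      H74.toBar (↥K) L y := by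
  apply Subtype.ext
  rw [coe_arithmeticGalois_smul, H74.coe_toBar, coeffMap_coeffMap]
  refine coeffMap_congr (RingHom.ext fun a => ?_) _
  exact hσ a a.2

omit [NeZero L] in
/-- the arithmetic Galois action on constants. -/
theorem smul_const (σ : Qb ≃ₐ[ℚ] Qb) (c : Qb) :
    arithmeticGalois (modularFunctionFieldFull L) σ •
        (algebraMap Qb ↥(modularFunctionFieldBar L) c) =
      algebraMap Qb ↥(modularFunctionFieldBar L) (σ c) :=
  SemilinearAut.smul_algebraMap _ c

/-- a function of the `K1`-model is a function of the `K2`-model for `K1 ≤ K2`. -/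
theorem exists_toBar_eq {K1 K2 : IntermediateField ℚ Qb} (h : K1 ≤ K2)
    (y : ↥(modularFunctionFieldFullC (↥K1) L)) :
    ∃ y' : ↥(modularFunctionFieldFullC (↥K2) L), H74.toBar (↥K2) L y' = H74.toBar (↥K1) L y := by
  obtain ⟨y0, hy0, hy⟩ := H92.model_mono h L ⟨y.1, y.2, rfl⟩
  exact ⟨⟨y0, hy0⟩, Subtype.ext hy⟩

/-- **rationality of a place over a number field `K`**: `P` is fixed by `Gal(Qb/K)`, the values
at `P` of the functions of the `K`-model lie in `K`, `P` is determined by its restriction to the
`K`-model, and the `K`-model contains a uniformiser of `P`. -/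
structure RatAt (P : Place Qb ↥(modularFunctionFieldBar L)) (K : IntermediateField ℚ Qb) :
    Prop where
  stab : ∀ σ : Qb ≃ₐ[ℚ] Qb, (∀ a ∈ K, σ a = a) →
    arithmeticGalois (modularFunctionFieldFull L) σ • P = P
  value : ∀ y : ↥(modularFunctionFieldFullC (↥K) L), H74.toBar (↥K) L y ∈ P.toValuationSubring →
    ∃ c : K, H74.toBar (↥K) L (y - algebraMap (↥K) ↥(modularFunctionFieldFullC (↥K) L) c) ∈
      P.toValuationSubring.nonunits
  uniq : ∀ P' : Place Qb ↥(modularFunctionFieldBar L),
    (∀ y : ↥(modularFunctionFieldFullC (↥K) L), H74.toBar (↥K) L y ∈ P'.toValuationSubring ↔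
      H74.toBar (↥K) L y ∈ P.toValuationSubring) → P' = P
  unif : ∃ t : ↥(modularFunctionFieldFullC (↥K) L), P.ord (H74.toBar (↥K) L t) = 1

/-- positivity of the order of a model function only depends on the restriction of the place
to the model. -/
theorem ord_toBar_pos_of_iff (K : IntermediateField ℚ Qb)
    {P P' : Place Qb ↥(modularFunctionFieldBar L)}
    (h : ∀ y : ↥(modularFunctionFieldFullC (↥K) L), H74.toBar (↥K) L y ∈ P'.toValuationSubring ↔
      H74.toBar (↥K) L y ∈ P.toValuationSubring)
    (x : ↥(modularFunctionFieldFullC (↥K) L)) (hx : 0 < P.ord (H74.toBar (↥K) L x)) :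
    0 < P'.ord (H74.toBar (↥K) L x) := by
  rw [ord_pos_iff] at hx ⊢
  refine ⟨hx.1, ?_⟩
  have h2 := hx.2
  rw [ValuationSubring.mem_nonunits_iff_or] at h2 ⊢
  right
  have h3 := h2.resolve_left hx.1
  rw [← map_inv₀] at h3 ⊢
  exact fun h4 => h3 ((h x⁻¹).mp h4)

/-- **(R1)+(R2), one place.**  For a place `P` of `Fb L` there is a number field `K1` containing
a given one such that `P` is rational over every number field `K2 ≥ K1`. -/
theorem exists_rational_place (P : Place Qb ↥(modularFunctionFieldBar L))
    (K0 : IntermediateField ℚ Qb) [FiniteDimensional ℚ K0] :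
    ∃ K1 : IntermediateField ℚ Qb, K0 ≤ K1 ∧ FiniteDimensional ℚ K1 ∧
      ∀ K2 : IntermediateField ℚ Qb, K1 ≤ K2 → RatAt L P K2 := by
  have := H10.finiteDimensional_FN L
  obtain ⟨x, f, hx, hf, hcut⟩ := exists_cut _ (H10.transcendental_jBar L) P
  obtain ⟨t, ht⟩ := H92.exists_ord_eq_one P
  -- descend `x`, `f`, `t` to a number field
  obtain ⟨K1, hK01, hK1, hmod⟩ := H92.exists_model_family L
    (fun i : Fin 3 => (![x, f, t] i : LaurentSeries Qb))
    (fun i => (![x, f, t] i).2) K0
  refine ⟨K1, hK01, hK1, fun K2 hK12 => ?_⟩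
  have hdesc : ∀ z : ↥(modularFunctionFieldBar L),
      (∃ y0 ∈ modularFunctionFieldFullC (↥K1) L, coeffMap (algebraMap K1 Qb) y0 = (z : LaurentSeries Qb)) →
      ∃ z2 : ↥(modularFunctionFieldFullC (↥K2) L), H74.toBar (↥K2) L z2 = z := by
    rintro z ⟨y0, hy0, hy⟩
    obtain ⟨z2, hz2⟩ := exists_toBar_eq L hK12 ⟨y0, hy0⟩
    exact ⟨z2, hz2.trans (Subtype.ext hy)⟩
  obtain ⟨x2, rfl⟩ := hdesc x (hmod 0)
  obtain ⟨f2, rfl⟩ := hdesc f (hmod 1)
  obtain ⟨t2, rfl⟩ := hdesc t (hmod 2)
  -- the stabiliser
  have hstab : ∀ σ : Qb ≃ₐ[ℚ] Qb, (∀ a ∈ K2, σ a = a) →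
      arithmeticGalois (modularFunctionFieldFull L) σ • P = P := by
    intro σ hσ
    apply hcut
    · rw [← smul_toBar L K2 σ hσ x2, SemilinearAut.ord_smul]
      exact hx
    · rw [← smul_toBar L K2 σ hσ f2, SemilinearAut.ord_smul]
      exact hf
  refine ⟨hstab, ?_, ?_, ⟨t2, ht⟩⟩
  · -- values
    intro y hy
    obtain ⟨c, hc⟩ := H19.residue_eq _ (H10.transcendental_jBar L) (H10.finiteDimensional_FN L) P hy
    have hz : H74.toBar (↥K2) L y - algebraMap Qb ↥(modularFunctionFieldBar L) c ∈
        P.toValuationSubring.nonunits := by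
      rcases hc with hc | hc
      · rw [hc, sub_self]
        exact zero_mem_nonunits' _
      · exact ((ord_pos_iff P _).mp hc).2
    have hfix : c ∈ Set.range (algebraMap (↥K2) Qb) := by
      have := isGalois_top K2
      rw [InfiniteGalois.mem_range_algebraMap_iff_fixed]
      intro τ
      set σ : Qb ≃ₐ[ℚ] Qb := τ.restrictScalars ℚ with hσdef
      have hσ : ∀ a ∈ K2, σ a = a := fun a ha => τ.commutes ⟨a, ha⟩
      have h1 := smul_mem_nonunits (arithmeticGalois (modularFunctionFieldFull L) σ) P hz
      rw [hstab σ hσ, smul_sub, smul_toBar L K2 σ hσ y, smul_const] at h1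
      have h2 := sub_mem_nonunits P hz h1
      rw [sub_sub_sub_cancel_left, ← map_sub] at h2
      by_contra hne
      exact algebraMap_notMem_nonunits P (sub_ne_zero.mpr hne) h2
    obtain ⟨c2, rfl⟩ := hfix
    refine ⟨c2, ?_⟩
    rw [map_sub, H74.toBar_algebraMap]
    exact hz
  · -- uniqueness above the restriction
    intro P' hP'
    exact hcut P' (ord_toBar_pos_of_iff L K2 hP' x2 hx) (ord_toBar_pos_of_iff L K2 hP' f2 hf)

/-- **(R2), finite sets of places.** -/
theorem exists_rational (S : Finset (Place Qb ↥(modularFunctionFieldBar L)))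
    (K0 : IntermediateField ℚ Qb) [FiniteDimensional ℚ K0] :
    ∃ K1 : IntermediateField ℚ Qb, K0 ≤ K1 ∧ FiniteDimensional ℚ K1 ∧
      ∀ K2 : IntermediateField ℚ Qb, K1 ≤ K2 → ∀ P ∈ S, RatAt L P K2 := by
  classical
  induction S using Finset.induction_on with
  | empty => exact ⟨K0, le_rfl, inferInstance, fun _ _ P hP => absurd hP (Finset.notMem_empty P)⟩
  | insert P S _ ih =>
    obtain ⟨K1, h01, hK1, h1⟩ := ih
    obtain ⟨K1', h11', hK1', h1'⟩ := exists_rational_place L P K1
    refine ⟨K1', h01.trans h11', hK1', fun K2 h2 Q hQ => ?_⟩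
    rcases Finset.mem_insert.mp hQ with rfl | hQ
    · exact h1' K2 h2
    · exact h1 K2 (h11'.trans h2) Q hQ

/-! ### Restricted-place forms -/

omit [NeZero L] in
/-- `Qb` is algebraic over every subfield (instance argument of `H74.restrictModel`). -/
theorem isAlgebraic_top (K : IntermediateField ℚ Qb) : Algebra.IsAlgebraic (↥K) Qb := by
  have h : Algebra.IsAlgebraic ℚ Qb := AlgebraicClosure.isAlgebraic ℚ
  exact Algebra.IsAlgebraic.tower_top (K := ℚ) (↥K)

/-- nonunits of the restriction of a place to the model. -/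
theorem mem_nonunits_restrictModel_iff (K : IntermediateField ℚ Qb) [Algebra.IsAlgebraic (↥K) Qb]
    (P : Place Qb ↥(modularFunctionFieldBar L)) (z : ↥(modularFunctionFieldFullC (↥K) L)) :
    z ∈ (H74.restrictModel (↥K) L P).toValuationSubring.nonunits ↔
      H74.toBar (↥K) L z ∈ P.toValuationSubring.nonunits := by
  rw [ValuationSubring.mem_nonunits_iff_or, ValuationSubring.mem_nonunits_iff_or,
    H74.mem_restrictModel_iff, map_inv₀, map_eq_zero]

variable {L}

/-- values on the restricted place: the restriction of a rational place has all its values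
in `K`. -/
theorem RatAt.value_restrict {P : Place Qb ↥(modularFunctionFieldBar L)}
    {K : IntermediateField ℚ Qb} [Algebra.IsAlgebraic (↥K) Qb] (h : RatAt L P K)
    (y : ↥(modularFunctionFieldFullC (↥K) L))
    (hy : y ∈ (H74.restrictModel (↥K) L P).toValuationSubring) :
    ∃ c : K, y - algebraMap (↥K) ↥(modularFunctionFieldFullC (↥K) L) c ∈
      (H74.restrictModel (↥K) L P).toValuationSubring.nonunits := by
  obtain ⟨c, hc⟩ := h.value y ((H74.mem_restrictModel_iff (↥K) L P y).mp hy)
  exact ⟨c, (mem_nonunits_restrictModel_iff L K P _).mpr hc⟩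

/-- a rational place is the only place above its restriction to the model. -/
theorem RatAt.eq_of_restrictModel_eq {P : Place Qb ↥(modularFunctionFieldBar L)}
    {K : IntermediateField ℚ Qb} [Algebra.IsAlgebraic (↥K) Qb] (h : RatAt L P K)
    {P' : Place Qb ↥(modularFunctionFieldBar L)}
    (heq : H74.restrictModel (↥K) L P' = H74.restrictModel (↥K) L P) : P' = P := by
  apply h.uniq
  intro y
  rw [← H74.mem_restrictModel_iff, ← H74.mem_restrictModel_iff, heq]

/-- orders at a rational place are the orders at its restriction. -/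
theorem RatAt.ord_toBar {P : Place Qb ↥(modularFunctionFieldBar L)}
    {K : IntermediateField ℚ Qb} [Algebra.IsAlgebraic (↥K) Qb] (h : RatAt L P K)
    (y : ↥(modularFunctionFieldFullC (↥K) L)) :
    P.ord (H74.toBar (↥K) L y) = (H74.restrictModel (↥K) L P).ord y :=
  H74.ord_toBar_eq_of_exists (↥K) L P h.unif y

/-- the restriction of a rational place has degree one. -/
theorem RatAt.deg_restrictModel {P : Place Qb ↥(modularFunctionFieldBar L)}
    {K : IntermediateField ℚ Qb} [Algebra.IsAlgebraic (↥K) Qb] (h : RatAt L P K) :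
    (H74.restrictModel (↥K) L P).deg = 1 :=
  deg_eq_one_of_forall_value _ fun y hy => h.value_restrict y hy

/-- rationality is monotone in the number field. -/
theorem RatAt.stab_of_le {P : Place Qb ↥(modularFunctionFieldBar L)}
    {K K' : IntermediateField ℚ Qb} (h : RatAt L P K) (hKK' : K ≤ K') (σ : Qb ≃ₐ[ℚ] Qb)
    (hσ : ∀ a ∈ K', σ a = a) : arithmeticGalois (modularFunctionFieldFull L) σ • P = P :=
  h.stab σ fun a ha => hσ a (hKK' ha)

end Modular

end

end Fermat.Agent.S37.H52
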