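/-
S37 (helper72): the TYPE normal form of the generators of `DivT`.

The relation of the Stmts is `SameChar B P P' ∨ SameChar Boo P P'` (`B`, `Boo` the integral
closures of `A[j]`, `A[1/j]`), with no condition on the type of the places in the `Boo`-branch.
This file shows, for an arbitrary chart coordinate `x ≠ 0` of a function field:

* `sameCharOn_of_sameCharOn_inv` : two places with the same character on the `x⁻¹`-chart at which
  `x⁻¹` has a UNIT value have the same character on the `x`-chart (the overlap of the charts);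
* `rel_normalForm` : a related pair either has the same character on the `x`-chart, or has the
  same character on the `x⁻¹`-chart and `x⁻¹` has values in the maximal ideal at both places
  (the pair is "at infinity").

So the consumers of the relation ((TRANSFER), the hsum bridge of (UNIT')) only have to treat the
two typed cases.
-/
import Mathlib
import Fermat.Agent.S37.Gal_helper34
import Fermat.Agent.S37.PhiInt_helper20

set_option autoImplicit false

open AlgebraicCurve Polynomial

namespace Fermat.Agent.S37.H72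

open Fermat.Agent.S37.H34 (EvalAt)

section

variable {K F : Type*} [Field K] [Field F] [Algebra K F]

/-- The chart homomorphism `A[X] → F`, `X ↦ x` (for the modular function field this is
`H58.chartHom A N x`, by `rfl`). -/
def chHom (A : ValuationSubring K) (x : F) : Polynomial A →+* F :=
  Polynomial.eval₂RingHom ((algebraMap K F).comp A.subtype) x

/-- `P` and `P'` have the same residue character on the set `R` of functions: every `y ∈ R` has
values `c, c' ∈ A` at `P, P'` with `c ≡ c'` modulo the maximal ideal. -/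
def SameCharOn (A : ValuationSubring K) (R : Set F) (P P' : Place K F) : Prop :=
  ∀ y ∈ R, ∃ c c' : A, EvalAt P y (c : K) ∧ EvalAt P' y (c' : K) ∧
    c - c' ∈ IsLocalRing.maximalIdeal A

theorem SameCharOn.symm {A : ValuationSubring K} {R : Set F} {P P' : Place K F}
    (h : SameCharOn A R P P') : SameCharOn A R P' P := by
  intro y hy
  obtain ⟨c, c', hc, hc', hcc⟩ := h y hy
  refine ⟨c', c, hc', hc, ?_⟩
  have := (IsLocalRing.maximalIdeal A).neg_mem hcc
  rwa [neg_sub] at this

theorem sub_mem_maximalIdeal_iff (A : ValuationSubring K) (c c' : A) :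
    c - c' ∈ IsLocalRing.maximalIdeal A ↔ IsLocalRing.residue A c = IsLocalRing.residue A c' := by
  rw [← IsLocalRing.residue_eq_zero_iff, map_sub, sub_eq_zero]

/-- Clearing denominators: an element integral over `A[x]` becomes integral over `A[x⁻¹]` after
multiplication by a power of `x⁻¹`. -/
theorem exists_pow_inv_mul_isIntegralElem (A : ValuationSubring K) {x : F} (hx : x ≠ 0) {y : F}
    (hy : (chHom A x).IsIntegralElem y) :
    ∃ n : ℕ, (chHom A x⁻¹).IsIntegralElem (x⁻¹ ^ n * y) := by
  have hsv : (eval₂RingHom ((algebraMap K F).comp A.subtype) x⁻¹).IsIntegralElem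
      (eval₂ ((algebraMap K F).comp A.subtype) x⁻¹ (X : Polynomial A) * x) := by
    rw [eval₂_X, inv_mul_cancel₀ hx]
    exact RingHom.isIntegralElem_one _
  obtain ⟨M, hM⟩ := Fermat.Agent.S37.H20.exists_pow_mul_isIntegralElem
    ((algebraMap K F).comp A.subtype) x⁻¹ x (X : Polynomial A) hsv y hy
  rw [eval₂_X] at hM
  exact ⟨M, hM⟩

theorem self_isIntegralElem (A : ValuationSubring K) (x : F) : (chHom A x).IsIntegralElem x := by
  have h : chHom A x (X : Polynomial A) = x := by
    rw [chHom, coe_eval₂RingHom, eval₂_X]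
  have h' := RingHom.isIntegralElem_map (f := chHom A x) (x := (X : Polynomial A))
  rwa [h] at h'

theorem coe_unit_mul_inv (A : ValuationSubring K) (u : Aˣ) :
    ((u : A) : K) * (((u⁻¹ : Aˣ) : A) : K) = 1 := by
  have h1 : ((u : A) * ((u⁻¹ : Aˣ) : A) : A) = 1 := u.mul_inv
  have h2 := congrArg (fun a : A => (a : K)) h1
  simpa only [MulMemClass.coe_mul, OneMemClass.coe_one] using h2

theorem coe_inv_unit (A : ValuationSubring K) (u : Aˣ) :
    (((u⁻¹ : Aˣ) : A) : K) = ((u : A) : K)⁻¹ := by
  exact eq_inv_of_mul_eq_one_right (coe_unit_mul_inv A u)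

/-- value of `y` from the value of `x⁻¹ ^ n * y` at a place where `x⁻¹` has a unit value. -/
theorem evalAt_of_pow_inv_mul (A : ValuationSubring K) {x : F} (hx : x ≠ 0) (P : Place K F)
    (u : Aˣ) (hu : EvalAt P x⁻¹ ((u : A) : K)) (n : ℕ) {y : F} (b : A)
    (hb : EvalAt P (x⁻¹ ^ n * y) (b : K)) :
    EvalAt P y ((((u⁻¹ : Aˣ) : A) ^ n * b : A) : K) := by
  have hu0 : ((u : A) : K) ≠ 0 := by
    intro h0
    have h1 : ((u : A) : K) * (((u⁻¹ : Aˣ) : A) : K) = 1 := coe_unit_mul_inv A u
    rw [h0, zero_mul] at h1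
    exact zero_ne_one h1
  have h1 : EvalAt P (x⁻¹ ^ n) (((u : A) : K) ^ n) := hu.pow n
  have h2 : EvalAt P (x⁻¹ ^ n)⁻¹ ((((u : A) : K) ^ n)⁻¹) := h1.inv (pow_ne_zero n hu0)
  have h3 := h2.mul hb
  have e1 : (x⁻¹ ^ n)⁻¹ * (x⁻¹ ^ n * y) = y := by
    rw [← mul_assoc, inv_mul_cancel₀ (pow_ne_zero n (inv_ne_zero hx)), one_mul]
  have e2 : ((((u⁻¹ : Aˣ) : A) ^ n * b : A) : K) = (((u : A) : K) ^ n)⁻¹ * (b : K) := by
    push_cast
    rw [coe_inv_unit, inv_pow]
  rw [e1] at h3
  rw [e2]
  exact h3

/-- **The overlap of the two charts.**  If `P`, `P'` have the same character on the `x⁻¹`-chart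
and `x⁻¹` has a unit value at `P`, then they have the same character on the `x`-chart. -/
theorem sameCharOn_of_sameCharOn_inv (A : ValuationSubring K) {x : F} (hx : x ≠ 0)
    (P P' : Place K F)
    (h : SameCharOn A {y | (chHom A x⁻¹).IsIntegralElem y} P P')
    (c₀ : A) (hc₀ : EvalAt P x⁻¹ (c₀ : K)) (hunit : c₀ ∉ IsLocalRing.maximalIdeal A) :
    SameCharOn A {y | (chHom A x).IsIntegralElem y} P P' := by
  -- the values of `x⁻¹`
  obtain ⟨d, d', hd, hd', hdd⟩ := h x⁻¹ (self_isIntegralElem A x⁻¹)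
  have hd0 : d = c₀ := Subtype.ext (hd.unique hc₀)
  subst hd0
  have hunit' : d' ∉ IsLocalRing.maximalIdeal A := by
    intro hmem
    apply hunit
    have := (IsLocalRing.maximalIdeal A).add_mem hdd hmem
    rwa [sub_add_cancel] at this
  obtain ⟨u, rfl⟩ := IsLocalRing.notMem_maximalIdeal.mp hunit
  obtain ⟨u', rfl⟩ := IsLocalRing.notMem_maximalIdeal.mp hunit'
  intro y hy
  obtain ⟨n, hn⟩ := exists_pow_inv_mul_isIntegralElem A hx hy
  obtain ⟨b, b', hb, hb', hbb⟩ := h _ hn
  refine ⟨((u⁻¹ : Aˣ) : A) ^ n * b, ((u'⁻¹ : Aˣ) : A) ^ n * b',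
    evalAt_of_pow_inv_mul A hx P u hd n b hb, evalAt_of_pow_inv_mul A hx P' u' hd' n b' hb', ?_⟩
  rw [sub_mem_maximalIdeal_iff] at hdd hbb ⊢
  have e : IsLocalRing.residue A ((u⁻¹ : Aˣ) : A) = IsLocalRing.residue A ((u'⁻¹ : Aˣ) : A) := by
    have h1 : IsLocalRing.residue A ((u⁻¹ : Aˣ) : A) = (IsLocalRing.residue A (u : A))⁻¹ := by
      rw [map_units_inv]
    have h2 : IsLocalRing.residue A ((u'⁻¹ : Aˣ) : A) = (IsLocalRing.residue A (u' : A))⁻¹ := by
      rw [map_units_inv]
    rw [h1, h2, hdd]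
  rw [map_mul, map_mul, map_pow, map_pow, e, hbb]

/-- **Normal form of a related pair.**  A pair with the same character on the `x`-chart or on
the `x⁻¹`-chart either has the same character on the `x`-chart, or has the same character on the
`x⁻¹`-chart with `x⁻¹` taking values in the maximal ideal at both places. -/
theorem rel_normalForm (A : ValuationSubring K) {x : F} (hx : x ≠ 0) (P P' : Place K F)
    (h : SameCharOn A {y | (chHom A x).IsIntegralElem y} P P' ∨
      SameCharOn A {y | (chHom A x⁻¹).IsIntegralElem y} P P') :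
    SameCharOn A {y | (chHom A x).IsIntegralElem y} P P' ∨
      (SameCharOn A {y | (chHom A x⁻¹).IsIntegralElem y} P P' ∧
        ∃ c c' : A, c ∈ IsLocalRing.maximalIdeal A ∧ c' ∈ IsLocalRing.maximalIdeal A ∧
          EvalAt P x⁻¹ (c : K) ∧ EvalAt P' x⁻¹ (c' : K)) := by
  rcases h with h | h
  · exact Or.inl h
  · obtain ⟨d, d', hd, hd', hdd⟩ := h x⁻¹ (self_isIntegralElem A x⁻¹)
    by_cases hdm : d ∈ IsLocalRing.maximalIdeal A
    · refine Or.inr ⟨h, d, d', hdm, ?_, hd, hd'⟩
      have := (IsLocalRing.maximalIdeal A).sub_mem hdm hdd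
      rwa [sub_sub_cancel] at this
    · exact Or.inl (sameCharOn_of_sameCharOn_inv A hx P P' h d hd hdm)

/-- The mirror statement (exchange `x` and `x⁻¹`): the same character on the `x`-chart with a
unit value of `x` gives the same character on the `x⁻¹`-chart. -/
theorem sameCharOn_inv_of_sameCharOn (A : ValuationSubring K) {x : F} (hx : x ≠ 0)
    (P P' : Place K F)
    (h : SameCharOn A {y | (chHom A x).IsIntegralElem y} P P')
    (c₀ : A) (hc₀ : EvalAt P x (c₀ : K)) (hunit : c₀ ∉ IsLocalRing.maximalIdeal A) :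
    SameCharOn A {y | (chHom A x⁻¹).IsIntegralElem y} P P' := by
  have h' : SameCharOn A {y | (chHom A x⁻¹⁻¹).IsIntegralElem y} P P' := by
    rw [inv_inv]; exact h
  have hc₀' : EvalAt P x⁻¹⁻¹ (c₀ : K) := by
    rw [inv_inv]; exact hc₀
  exact sameCharOn_of_sameCharOn_inv A (inv_ne_zero hx) P P' h' c₀ hc₀' hunit

/-! ### Bridge to the bundled vocabulary `H34.IsFin` / `H34.charOf` -/

open Fermat.Agent.S37.H34 (IsFin charOf)

theorem SameCharOn.isFin_left {A : ValuationSubring K} {R : Subring F} {P P' : Place K F}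
    (h : SameCharOn A (R : Set F) P P') : IsFin A R P := by
  intro y hy
  obtain ⟨c, _, hc, _, _⟩ := h y hy
  exact ⟨c, c.2, hc⟩

theorem SameCharOn.isFin_right {A : ValuationSubring K} {R : Subring F} {P P' : Place K F}
    (h : SameCharOn A (R : Set F) P P') : IsFin A R P' := by
  intro y hy
  obtain ⟨_, c', _, hc', _⟩ := h y hy
  exact ⟨c', c'.2, hc'⟩

/-- the relational `SameCharOn` is equality of the residue characters `H34.charOf`. -/
theorem SameCharOn.charOf_eq {A : ValuationSubring K} {R : Subring F} {P P' : Place K F}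
    (h : SameCharOn A (R : Set F) P P') (h₁ : IsFin A R P) (h₂ : IsFin A R P') :
    charOf h₁ = charOf h₂ := by
  rw [Fermat.Agent.S37.H34.charOf_eq_iff]
  intro y hy c c' hc hc'
  obtain ⟨d, d', hd, hd', hdd⟩ := h y hy
  rw [hc.unique hd, hc'.unique hd']
  have := ValuationSubring.coe_mem_nonunits_iff.mpr hdd
  simpa using this

theorem sameCharOn_of_charOf_eq {A : ValuationSubring K} {R : Subring F} {P P' : Place K F}
    (h₁ : IsFin A R P) (h₂ : IsFin A R P') (heq : charOf h₁ = charOf h₂) :
    SameCharOn A (R : Set F) P P' := by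
  intro y hy
  obtain ⟨c, hcA, hc⟩ := h₁ y hy
  obtain ⟨c', hcA', hc'⟩ := h₂ y hy
  refine ⟨⟨c, hcA⟩, ⟨c', hcA'⟩, hc, hc', ?_⟩
  have h := (Fermat.Agent.S37.H34.charOf_eq_iff h₁ h₂).mp heq y hy c c' hc hc'
  have h' : (((⟨c, hcA⟩ : A) - ⟨c', hcA'⟩ : A) : K) ∈ A.nonunits := by simpa using h
  exact ValuationSubring.coe_mem_nonunits_iff.mp h'

/-- a value in the maximal ideal gives a vanishing residue character. -/
theorem charOf_eq_zero_of_evalAt {A : ValuationSubring K} {R : Subring F} {P : Place K F}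
    (h : IsFin A R P) {y : F} (hy : y ∈ R) (c : A) (hc : EvalAt P y (c : K))
    (hcm : c ∈ IsLocalRing.maximalIdeal A) : charOf h ⟨y, hy⟩ = 0 := by
  rw [Fermat.Agent.S37.H34.charOf_eq_of_evalAt h ⟨y, hy⟩ hc c.2]
  exact (IsLocalRing.residue_eq_zero_iff _).mpr hcm

end

end Fermat.Agent.S37.H72
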