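import Mathlib
import Fermat.Agent.S18.GaussFull_helper93
import Fermat.Agent.S18.Desc_helper61
import Fermat.Agent.S18.DvrK0_helper86
import Fermat.Agent.S28.Gauss_helper36
import Fermat.Agent.S28.GaussJ_helper93

/-!
# S37, node (SAT-A), independent second seat (helper15)

Saturation of the two chart rings of `X_0`-type models over the frozen valuation ring
`A ⊆ ℚ̄` (NOT a DVR): for the chart coordinate `x = j` or `x = 1/j` of
`F = ℚ̄(j(q^d) : d ∣ N)` and `y ∈ F` integral over `A[x]`: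

* `y` lies in the Gauss valuation ring `gaussWFull ℚ̄ N A ℓ hℓN` (so it has a ratio expansion
  `y * iota Y2 = iota Y1` with `red Y2 ≠ 0`), and
* if the Gauss reduction of `y` vanishes (`y` a non-unit of the Gauss ring; equivalently
  `red Y1 = 0` for one/any such ratio), then `y = a * w` with `a ∈ 𝔪_A` and `w` integral over
  `A[x]`:  `B ∩ 𝔪_W = 𝔪_A B`.

Proof: descent to a number field `K0 ⊆ ℚ̄` containing a field of definition of `y` and all
coefficients of an integrality equation; `A0 = A ∩ K0` is a DVR (helper86), where the statement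
is helper93's `gauss_chart_full`; then extension of constants back to `ℚ̄`.

The core `sat_chart` is stated for any chart coordinate `x` which descends, with its chart
properties, to all sufficiently large number fields; `sat_J` / `sat_Jinv` are the two instances.
-/

set_option autoImplicit false

noncomputable section

open HahnSeries ModularCurve Polynomial
open Fermat.Agent.S18
open Fermat.Agent.S18.H93 (iotaA redA constHom chartHom gaussWFull gaussRhoFull jFullC)

namespace Fermat.Agent.S37.H15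

/-- `ℚ̄`. -/
abbrev Qb : Type := AlgebraicClosure ℚ

section Up

variable (N : ℕ) (K0 : IntermediateField ℚ Qb)

/-- Extension of constants `K0 → ℚ̄` on the level-`N` function fields. -/
def up : ↥(modularFunctionFieldFullC K0 N) →+* ↥(modularFunctionFieldFullC Qb N) where
  toFun y := ⟨coeffMap (algebraMap K0 Qb) (y : LaurentSeries K0), H61.coeffMap_mem_fullC _ N y.2⟩
  map_one' := Subtype.ext (map_one _)
  map_mul' _ _ := Subtype.ext (map_mul _ _ _)
  map_zero' := Subtype.ext (map_zero _)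
  map_add' _ _ := Subtype.ext (map_add _ _ _)

theorem coe_up (y : ↥(modularFunctionFieldFullC K0 N)) :
    ((up N K0 y : ↥(modularFunctionFieldFullC Qb N)) : LaurentSeries Qb) =
      coeffMap (algebraMap K0 Qb) (y : LaurentSeries K0) := rfl

theorem up_injective : Function.Injective (up N K0) := (up N K0).injective

variable (A : ValuationSubring Qb)

theorem up_constHom (a : H86.A0 A K0) :
    up N K0 (constHom (H86.A0 A K0) (modularFunctionFieldFullC K0 N) a) =
      constHom A (modularFunctionFieldFullC Qb N) (H86.incl A K0 a) := by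
  apply Subtype.ext
  rw [coe_up, H93.coe_constHom, H93.coe_constHom, ← H86.coeffMap_subtype_incl, H93.coeffMap_C]

/-- The chart homomorphisms over `A0` and `A` are compatible. -/
theorem chartHom_comp (x0 : ↥(modularFunctionFieldFullC K0 N)) :
    (chartHom A (up N K0 x0)).comp (Polynomial.mapRingHom (H86.incl A K0)) =
      (up N K0).comp (chartHom (H86.A0 A K0) x0) := by
  apply Polynomial.ringHom_ext
  · intro a
    rw [RingHom.comp_apply, RingHom.comp_apply, Polynomial.coe_mapRingHom, Polynomial.map_C,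
      H93.chartHom_C, H93.chartHom_C, up_constHom]
  · rw [RingHom.comp_apply, RingHom.comp_apply, Polynomial.coe_mapRingHom, Polynomial.map_X,
      H93.chartHom_X, H93.chartHom_X]

/-- Integrality over `A0[x0]` ascends to integrality over `A[x]`. -/
theorem isIntegralElem_up {x0 w0 : ↥(modularFunctionFieldFullC K0 N)}
    (h : (chartHom (H86.A0 A K0) x0).IsIntegralElem w0) :
    (chartHom A (up N K0 x0)).IsIntegralElem (up N K0 w0) := by
  obtain ⟨P, hP, h0⟩ := h
  refine ⟨P.map (Polynomial.mapRingHom (H86.incl A K0)), hP.map _, ?_⟩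
  rw [Polynomial.eval₂_map, chartHom_comp, ← Polynomial.hom_eval₂, h0, map_zero]

/-- Integrality over `A[x]` descends to `A0[x0]` as soon as `K0` contains the coefficients of an
integrality equation. -/
theorem isIntegralElem_of_up {x0 y0 : ↥(modularFunctionFieldFullC K0 N)}
    (P : Polynomial (Polynomial A)) (hP : P.Monic)
    (h0 : Polynomial.eval₂ (chartHom A (up N K0 x0)) (up N K0 y0) P = 0)
    (hK : ∀ i j : ℕ, (((P.coeff i).coeff j : A) : Qb) ∈ K0) :
    (chartHom (H86.A0 A K0) x0).IsIntegralElem y0 := by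
  have hlift : P ∈ Polynomial.lifts (Polynomial.mapRingHom (H86.incl A K0)) := by
    rw [Polynomial.lifts_iff_coeff_lifts]
    intro i
    have hi : P.coeff i ∈ Polynomial.lifts (H86.incl A K0) := by
      rw [Polynomial.lifts_iff_coeff_lifts]
      intro j
      obtain ⟨c, hc⟩ := H86.exists_incl_eq A K0 (hK i j)
      exact ⟨c, hc⟩
    obtain ⟨q, hq⟩ := (Polynomial.mem_lifts _).mp hi
    exact ⟨q, by rw [Polynomial.coe_mapRingHom]; exact hq⟩
  obtain ⟨Q, hQ, -, hQm⟩ := Polynomial.lifts_and_natDegree_eq_and_monic hlift hP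
  refine ⟨Q, hQm, up_injective N K0 ?_⟩
  rw [map_zero, Polynomial.hom_eval₂, ← chartHom_comp, ← Polynomial.eval₂_map, hQ]
  exact h0

end Up

section Gauss

variable (N : ℕ) [NeZero N] (K0 : IntermediateField ℚ Qb) (A : ValuationSubring Qb)
  (ℓ : ℕ) [Fact ℓ.Prime] [CharP (IsLocalRing.ResidueField A) ℓ]
  [CharP (IsLocalRing.ResidueField (H86.A0 A K0)) ℓ] (hℓN : ¬ ℓ ∣ N)

omit [NeZero N] [Fact ℓ.Prime] [CharP (IsLocalRing.ResidueField A) ℓ]
  [CharP (IsLocalRing.ResidueField (H86.A0 A K0)) ℓ] in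
/-- A ratio expansion over `A0` maps to a ratio expansion over `A`. -/
theorem ratio_up {y0 : ↥(modularFunctionFieldFullC K0 N)} {Z1 Z2 : LaurentSeries (H86.A0 A K0)}
    (hZ : (y0 : LaurentSeries K0) * iotaA (H86.A0 A K0) Z2 = iotaA (H86.A0 A K0) Z1) :
    ((up N K0 y0 : ↥(modularFunctionFieldFullC Qb N)) : LaurentSeries Qb) *
        iotaA A (coeffMap (H86.incl A K0) Z2) = iotaA A (coeffMap (H86.incl A K0) Z1) := by
  rw [coe_up]
  show _ * coeffMap A.subtype _ = coeffMap A.subtype _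
  rw [H86.coeffMap_subtype_incl, H86.coeffMap_subtype_incl, ← map_mul]
  exact congrArg _ hZ

/-- The Gauss ring over `A0` maps into the Gauss ring over `A`. -/
theorem up_mem_gaussWFull {y0 : ↥(modularFunctionFieldFullC K0 N)}
    (h : y0 ∈ gaussWFull K0 N (H86.A0 A K0) ℓ hℓN) :
    up N K0 y0 ∈ gaussWFull Qb N A ℓ hℓN := by
  rw [H93.mem_gaussWFull_iff] at h ⊢
  obtain ⟨Z1, Z2, h2, hZ⟩ := h
  exact ⟨coeffMap (H86.incl A K0) Z1, coeffMap (H86.incl A K0) Z2,
    fun h0 => h2 ((H86.coeffMap_residue_incl_eq_zero_iff A K0 Z2).mp h0), ratio_up N K0 A hZ⟩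

/-- Non-units of the Gauss ring over `A` coming from the Gauss ring over `A0` are non-units
there. -/
theorem mem_nonunits_of_up {y0 : ↥(modularFunctionFieldFullC K0 N)}
    (h : y0 ∈ gaussWFull K0 N (H86.A0 A K0) ℓ hℓN)
    (hnu : up N K0 y0 ∈ (gaussWFull Qb N A ℓ hℓN).nonunits) :
    y0 ∈ (gaussWFull K0 N (H86.A0 A K0) ℓ hℓN).nonunits := by
  obtain ⟨Z1, Z2, h2, hZ⟩ := (H93.mem_gaussWFull_iff K0 N _ ℓ hℓN y0).mp h
  have hup := up_mem_gaussWFull N K0 A ℓ hℓN h
  have h2' : redA A (coeffMap (H86.incl A K0) Z2) ≠ 0 :=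
    fun h0 => h2 ((H86.coeffMap_residue_incl_eq_zero_iff A K0 Z2).mp h0)
  have e1 := H93.coe_gaussRhoFull_mul Qb N A ℓ hℓN ⟨up N K0 y0, hup⟩ _ _ h2' (ratio_up N K0 A hZ)
  rw [(H93.mem_nonunits_gaussWFull_iff Qb N A ℓ hℓN ⟨up N K0 y0, hup⟩).mp hnu] at e1
  have e2 : redA A (coeffMap (H86.incl A K0) Z1) = 0 := by
    rw [← e1, ZeroMemClass.coe_zero, zero_mul]
  have e3 : redA (H86.A0 A K0) Z1 = 0 := (H86.coeffMap_residue_incl_eq_zero_iff A K0 Z1).mp e2
  have e4 := H93.coe_gaussRhoFull_mul K0 N _ ℓ hℓN ⟨y0, h⟩ Z1 Z2 h2 hZ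
  rw [e3] at e4
  have e5 : gaussRhoFull K0 N (H86.A0 A K0) ℓ hℓN ⟨y0, h⟩ = 0 := by
    apply Subtype.ext
    rcases mul_eq_zero.mp e4 with h5 | h5
    · exact h5
    · exact absurd h5 h2
  exact (H93.mem_nonunits_gaussWFull_iff K0 N _ ℓ hℓN ⟨y0, h⟩).mpr e5

end Gauss

section Main

variable (N : ℕ) [NeZero N] (A : ValuationSubring Qb)
  (ℓ : ℕ) [Fact ℓ.Prime] [CharP (IsLocalRing.ResidueField A) ℓ] (hℓN : ¬ ℓ ∣ N)

/-- Shortcut (the canonical instance, found slowly by unification over the subfield `K0`). -/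
local instance (priority := high) algebraSubfield (K0 : IntermediateField ℚ Qb)
    (F : IntermediateField K0 (LaurentSeries K0)) : Algebra K0 F := SubalgebraClass.toAlgebra F

/-- A chart coordinate `x` of `ℚ̄(j(q^d) : d ∣ N)` **descends** (relative to `A`): over every
sufficiently large number field `K0 ⊆ ℚ̄` it comes from an element `x0` of the level-`N` field
over `K0` with an `A ∩ K0`-integral expansion whose reduction is transcendental over the
residue field, and `j ∈ K0(x0)`. -/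
def ChartDescends (x : ↥(modularFunctionFieldFullC Qb N)) : Prop :=
  ∃ K1 : IntermediateField ℚ Qb, FiniteDimensional ℚ K1 ∧
    ∀ K0 : IntermediateField ℚ Qb, K1 ≤ K0 →
      ∃ x0 : ↥(modularFunctionFieldFullC K0 N), up N K0 x0 = x ∧
        ∃ xA0 : LaurentSeries (H86.A0 A K0),
          (x0 : LaurentSeries K0) = iotaA (H86.A0 A K0) xA0 ∧
          Transcendental (IsLocalRing.ResidueField (H86.A0 A K0)) (redA (H86.A0 A K0) xA0) ∧
          jFullC K0 N ∈ IntermediateField.adjoin K0 {x0}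

/-- **(SAT-A), core.**  For a chart coordinate `x` which descends and `y` integral over `A[x]`:
`y` lies in the Gauss ring of `A`, and if `y` is a non-unit there, then `y = a * w` with
`a ∈ 𝔪_A` and `w` integral over `A[x]`. -/
theorem sat_chart (hA : A.LiesOverPrime ℓ) (x : ↥(modularFunctionFieldFullC Qb N))
    (hx : ChartDescends N A x) (y : ↥(modularFunctionFieldFullC Qb N))
    (hy : (chartHom A x).IsIntegralElem y) :
    y ∈ gaussWFull Qb N A ℓ hℓN ∧
      (y ∈ (gaussWFull Qb N A ℓ hℓN).nonunits →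
        ∃ a : A, a ∈ IsLocalRing.maximalIdeal A ∧ ∃ w : ↥(modularFunctionFieldFullC Qb N),
          (chartHom A x).IsIntegralElem w ∧
            y = constHom A (modularFunctionFieldFullC Qb N) a * w) := by
  classical
  obtain ⟨P, hPm, hP0⟩ := hy
  obtain ⟨K1, hK1, hx⟩ := hx
  obtain ⟨K2, hK2, hC, hS⟩ := H61.exists_defOver_finset N {(y : LaurentSeries Qb)}
    (by
      intro z hz
      rw [Finset.mem_singleton] at hz
      rw [hz, H61.modularFunctionFieldBar_eq_fullC]
      exact y.2)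
    (P.coeffs.biUnion fun c => c.coeffs.image A.subtype)
  have hfin : FiniteDimensional ℚ ↥(K1 ⊔ K2) := IntermediateField.finiteDimensional_sup K1 K2
  obtain ⟨y0s, hy0s, hy0e⟩ :=
    (hS _ (Finset.mem_singleton_self _)).mono (le_sup_right : K2 ≤ K1 ⊔ K2)
  obtain ⟨x0, rfl, xA0, hxA0, hxtr, hJx⟩ := hx (K1 ⊔ K2) le_sup_left
  have hyup : up N (K1 ⊔ K2) ⟨y0s, hy0s⟩ = y := Subtype.ext hy0e
  have hℓ : ℓ.Prime := Fact.out
  have := H86.isDiscreteValuationRing_A0 A (K1 ⊔ K2) hℓ hA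
  have := H86.charP_residueField_A0 A (K1 ⊔ K2) hℓ hA
  obtain ⟨π, hπ⟩ := IsDiscreteValuationRing.exists_irreducible (H86.A0 A (K1 ⊔ K2))
  have hKmem : ∀ i j : ℕ, (((P.coeff i).coeff j : A) : Qb) ∈ K1 ⊔ K2 := by
    intro i j
    by_cases hi : P.coeff i = 0
    · rw [hi, Polynomial.coeff_zero]
      exact zero_mem _
    by_cases hj : (P.coeff i).coeff j = 0
    · rw [hj]
      exact zero_mem _
    refine (le_sup_right : K2 ≤ K1 ⊔ K2) (hC _ ?_)
    rw [Finset.mem_biUnion]
    exact ⟨P.coeff i, Polynomial.coeff_mem_coeffs hi,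
      Finset.mem_image.mpr ⟨(P.coeff i).coeff j, Polynomial.coeff_mem_coeffs hj, rfl⟩⟩
  have hy0int : (chartHom (H86.A0 A (K1 ⊔ K2)) x0).IsIntegralElem ⟨y0s, hy0s⟩ :=
    isIntegralElem_of_up N (K1 ⊔ K2) A P hPm (by rw [hyup]; exact hP0) hKmem
  obtain ⟨hy0W, hy0sat⟩ := H93.gauss_chart_full (K1 ⊔ K2 : IntermediateField ℚ Qb) N
    (H86.A0 A (K1 ⊔ K2)) ℓ hℓN hπ x0 xA0 hxA0 hxtr hJx ⟨y0s, hy0s⟩ hy0int
  refine ⟨hyup ▸ up_mem_gaussWFull N (K1 ⊔ K2) A ℓ hℓN hy0W, fun hnu => ?_⟩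
  have hnu0 := mem_nonunits_of_up N (K1 ⊔ K2) A ℓ hℓN hy0W (by rw [hyup]; exact hnu)
  obtain ⟨w0, hw0W, hw0⟩ := H93.exists_eq_mul_of_mem_nonunits_full
    (K1 ⊔ K2 : IntermediateField ℚ Qb) N (H86.A0 A (K1 ⊔ K2)) ℓ hℓN hπ _ hnu0
  refine ⟨H86.incl A (K1 ⊔ K2) π, H86.incl_mem_maximalIdeal_of_irreducible A (K1 ⊔ K2) hπ,
    up N (K1 ⊔ K2) w0, isIntegralElem_up N (K1 ⊔ K2) A (hy0sat w0 hw0W hw0), ?_⟩
  rw [← hyup, hw0, map_mul, up_constHom]

omit [NeZero N] in
/-- The coordinate `j` descends. -/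
theorem chartDescends_J : ChartDescends N A (jFullC Qb N) := by
  refine ⟨⊥, inferInstance, fun K0 _ => ⟨jFullC K0 N, Subtype.ext (coeffMap_jqModC _),
    jqModC (H86.A0 A K0), (coeffMap_jqModC _).symm, ?_,
    IntermediateField.mem_adjoin_simple_self K0 _⟩⟩
  show Transcendental _ (coeffMap (IsLocalRing.residue _) (jqModC (H86.A0 A K0)))
  rw [coeffMap_jqModC]
  exact Fermat.Agent.S28.H93.transcendental_jqModC _

omit [NeZero N] in
/-- The coordinate `1/j` descends. -/
theorem chartDescends_Jinv : ChartDescends N A (jFullC Qb N)⁻¹ := by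
  refine ⟨⊥, inferInstance, fun K0 _ => ⟨(jFullC K0 N)⁻¹, ?_,
    Fermat.Agent.S28.H36.jInv (H86.A0 A K0), ?_, ?_, ?_⟩⟩
  · rw [map_inv₀]
    congr 1
    exact Subtype.ext (coeffMap_jqModC _)
  · rw [IntermediateField.coe_inv]
    show (jqModC K0)⁻¹ = coeffMap _ (Fermat.Agent.S28.H36.jInv _)
    rw [Fermat.Agent.S28.H36.coeffMap_jInv, Fermat.Agent.S28.H36.jInv_eq_inv]
  · show Transcendental _ (coeffMap (IsLocalRing.residue _)
      (Fermat.Agent.S28.H36.jInv (H86.A0 A K0)))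
    rw [Fermat.Agent.S28.H36.coeffMap_jInv, Fermat.Agent.S28.H36.jInv_eq_inv]
    exact Fermat.Agent.S28.H93.transcendental_jqModC_inv _
  · have h := inv_mem (IntermediateField.mem_adjoin_simple_self K0 (jFullC K0 N)⁻¹)
    rwa [inv_inv] at h

/-- **(SAT-A) at the chart `j`.** -/
theorem sat_J (hA : A.LiesOverPrime ℓ) (y : ↥(modularFunctionFieldFullC Qb N))
    (hy : (chartHom A (jFullC Qb N)).IsIntegralElem y) :
    y ∈ gaussWFull Qb N A ℓ hℓN ∧
      (y ∈ (gaussWFull Qb N A ℓ hℓN).nonunits →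
        ∃ a : A, a ∈ IsLocalRing.maximalIdeal A ∧ ∃ w : ↥(modularFunctionFieldFullC Qb N),
          (chartHom A (jFullC Qb N)).IsIntegralElem w ∧
            y = constHom A (modularFunctionFieldFullC Qb N) a * w) :=
  sat_chart N A ℓ hℓN hA _ (chartDescends_J N A) y hy

/-- **(SAT-A) at the chart `1/j`.** -/
theorem sat_Jinv (hA : A.LiesOverPrime ℓ) (y : ↥(modularFunctionFieldFullC Qb N))
    (hy : (chartHom A (jFullC Qb N)⁻¹).IsIntegralElem y) :
    y ∈ gaussWFull Qb N A ℓ hℓN ∧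
      (y ∈ (gaussWFull Qb N A ℓ hℓN).nonunits →
        ∃ a : A, a ∈ IsLocalRing.maximalIdeal A ∧ ∃ w : ↥(modularFunctionFieldFullC Qb N),
          (chartHom A (jFullC Qb N)⁻¹).IsIntegralElem w ∧
            y = constHom A (modularFunctionFieldFullC Qb N) a * w) :=
  sat_chart N A ℓ hℓN hA _ (chartDescends_Jinv N A) y hy

end Main

section Ratio

variable (N : ℕ) [NeZero N] (A : ValuationSubring Qb) (ℓ : ℕ) [Fact ℓ.Prime]

/-- Every `y` integral over `A[x]` is a ratio of `A`-integral series with non-vanishing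
reduction of the denominator. -/
theorem exists_ratio_of_isIntegralElem (hA : A.LiesOverPrime ℓ) (hℓN : ¬ ℓ ∣ N)
    (x : ↥(modularFunctionFieldFullC Qb N)) (hx : ChartDescends N A x)
    (y : ↥(modularFunctionFieldFullC Qb N)) (hy : (chartHom A x).IsIntegralElem y) :
    ∃ Y1 Y2 : LaurentSeries A, redA A Y2 ≠ 0 ∧
      (y : LaurentSeries Qb) * iotaA A Y2 = iotaA A Y1 := by
  have := H86.charP_residueField A hA (Fact.out : ℓ.Prime)
  exact (H93.mem_gaussWFull_iff Qb N A ℓ hℓN y).mp (sat_chart N A ℓ hℓN hA x hx y hy).1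

/-- **(SAT-A), ratio form** (no Gauss ring in the statement): if `y` is integral over `A[x]`
and `y * iota Y2 = iota Y1` with `red Y2 ≠ 0`, `red Y1 = 0`, then `y = a * w` with `a ∈ 𝔪_A` and
`w` integral over `A[x]`. -/
theorem sat_chart_ratio (hA : A.LiesOverPrime ℓ) (hℓN : ¬ ℓ ∣ N)
    (x : ↥(modularFunctionFieldFullC Qb N)) (hx : ChartDescends N A x)
    (y : ↥(modularFunctionFieldFullC Qb N)) (hy : (chartHom A x).IsIntegralElem y)
    (Y1 Y2 : LaurentSeries A) (h2 : redA A Y2 ≠ 0) (h1 : redA A Y1 = 0)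
    (h : (y : LaurentSeries Qb) * iotaA A Y2 = iotaA A Y1) :
    ∃ a : A, a ∈ IsLocalRing.maximalIdeal A ∧ ∃ w : ↥(modularFunctionFieldFullC Qb N),
      (chartHom A x).IsIntegralElem w ∧
        y = constHom A (modularFunctionFieldFullC Qb N) a * w := by
  have := H86.charP_residueField A hA (Fact.out : ℓ.Prime)
  obtain ⟨hW, hsat⟩ := sat_chart N A ℓ hℓN hA x hx y hy
  apply hsat
  rw [H93.mem_nonunits_gaussWFull_iff Qb N A ℓ hℓN ⟨y, hW⟩]
  apply Subtype.ext
  have e := H93.coe_gaussRhoFull_mul Qb N A ℓ hℓN ⟨y, hW⟩ Y1 Y2 h2 h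
  rw [h1] at e
  rcases mul_eq_zero.mp e with h5 | h5
  · exact h5
  · exact absurd h5 h2

/-- **(SAT-A), series form**: `y = iota Y` integral over `A[x]` with `red Y = 0`. -/
theorem sat_chart_series (hA : A.LiesOverPrime ℓ) (hℓN : ¬ ℓ ∣ N)
    (x : ↥(modularFunctionFieldFullC Qb N)) (hx : ChartDescends N A x)
    (y : ↥(modularFunctionFieldFullC Qb N)) (hy : (chartHom A x).IsIntegralElem y)
    (Y : LaurentSeries A) (h1 : redA A Y = 0) (h : (y : LaurentSeries Qb) = iotaA A Y) :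
    ∃ a : A, a ∈ IsLocalRing.maximalIdeal A ∧ ∃ w : ↥(modularFunctionFieldFullC Qb N),
      (chartHom A x).IsIntegralElem w ∧
        y = constHom A (modularFunctionFieldFullC Qb N) a * w :=
  sat_chart_ratio N A ℓ hA hℓN x hx y hy Y 1 (by rw [map_one]; exact one_ne_zero) h1
    (by rw [map_one, mul_one]; exact h)

/-- Constants of `𝔪_A` are non-units of the Gauss ring. -/
theorem constHom_mem_nonunits (hℓN : ¬ ℓ ∣ N) [CharP (IsLocalRing.ResidueField A) ℓ] (a : A)
    (ha : a ∈ IsLocalRing.maximalIdeal A) :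
    constHom A (modularFunctionFieldFullC Qb N) a ∈ (gaussWFull Qb N A ℓ hℓN).nonunits := by
  have hmem : constHom A (modularFunctionFieldFullC Qb N) a ∈ gaussWFull Qb N A ℓ hℓN :=
    H93.constHom_mem_gaussW (H93.fullData Qb N A ℓ hℓN) a
  rw [H93.mem_nonunits_gaussWFull_iff Qb N A ℓ hℓN ⟨_, hmem⟩]
  apply Subtype.ext
  have h := H93.coe_gaussRho_constHom (H93.fullData Qb N A ℓ hℓN) a
  rw [ZeroMemClass.coe_zero]
  refine h.trans ?_
  rw [(IsLocalRing.residue_eq_zero_iff a).mpr ha, map_zero]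

/-- **(SAT-A), iff form**: for `y` integral over `A[x]`, the Gauss reduction of `y` vanishes iff
`y ∈ 𝔪_A B`. -/
theorem sat_chart_iff (hA : A.LiesOverPrime ℓ) (hℓN : ¬ ℓ ∣ N)
    [CharP (IsLocalRing.ResidueField A) ℓ]
    (x : ↥(modularFunctionFieldFullC Qb N)) (hx : ChartDescends N A x)
    (y : ↥(modularFunctionFieldFullC Qb N)) (hy : (chartHom A x).IsIntegralElem y) :
    y ∈ (gaussWFull Qb N A ℓ hℓN).nonunits ↔
      ∃ a : A, a ∈ IsLocalRing.maximalIdeal A ∧ ∃ w : ↥(modularFunctionFieldFullC Qb N),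
        (chartHom A x).IsIntegralElem w ∧
          y = constHom A (modularFunctionFieldFullC Qb N) a * w := by
  refine ⟨(sat_chart N A ℓ hℓN hA x hx y hy).2, ?_⟩
  rintro ⟨a, ha, w, hw, rfl⟩
  have hwW := (sat_chart N A ℓ hℓN hA x hx w hw).1
  have haW := constHom_mem_nonunits N A ℓ hℓN a ha
  have haW' : constHom A (modularFunctionFieldFullC Qb N) a ∈ gaussWFull Qb N A ℓ hℓN :=
    H93.constHom_mem_gaussW (H93.fullData Qb N A ℓ hℓN) a
  have e : (⟨constHom A (modularFunctionFieldFullC Qb N) a * w,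
      mul_mem haW' hwW⟩ : gaussWFull Qb N A ℓ hℓN) = ⟨_, haW'⟩ * ⟨w, hwW⟩ := rfl
  rw [H93.mem_nonunits_gaussWFull_iff Qb N A ℓ hℓN ⟨_, mul_mem haW' hwW⟩, e, map_mul,
    (H93.mem_nonunits_gaussWFull_iff Qb N A ℓ hℓN ⟨_, haW'⟩).mp haW, zero_mul]

end Ratio

/-! ### Transport to any presentation of the function field (e.g. `modularFunctionFieldBar N`)

The statements below are for an intermediate field `F` which is *equal* to
`modularFunctionFieldFullC ℚ̄ N` (`H61.modularFunctionFieldBar_eq_fullC` for the frozen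
`modularFunctionFieldBar N`) and chart coordinates given by their `q`-expansions. -/

section Transport

variable (N : ℕ) [NeZero N] (A : ValuationSubring Qb) (ℓ : ℕ) [Fact ℓ.Prime]

/-- **(SAT-A), chart `j`, ratio form, any presentation `F` of the function field.** -/
theorem sat_J_ratio (F : IntermediateField Qb (LaurentSeries Qb))
    (hF : F = modularFunctionFieldFullC Qb N) (hA : A.LiesOverPrime ℓ) (hℓN : ¬ ℓ ∣ N)
    (jF : F) (hjF : (jF : LaurentSeries Qb) = jqModC Qb)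
    (y : F) (hy : (chartHom A jF).IsIntegralElem y)
    (Y1 Y2 : LaurentSeries A) (h2 : redA A Y2 ≠ 0) (h1 : redA A Y1 = 0)
    (h : (y : LaurentSeries Qb) * iotaA A Y2 = iotaA A Y1) :
    ∃ a : A, a ∈ IsLocalRing.maximalIdeal A ∧ ∃ w : F,
      (chartHom A jF).IsIntegralElem w ∧ y = constHom A F a * w := by
  subst hF
  obtain rfl : jF = jFullC Qb N := Subtype.ext hjF
  exact sat_chart_ratio N A ℓ hA hℓN _ (chartDescends_J N A) y hy Y1 Y2 h2 h1 h

/-- **(SAT-A), chart `1/j`, ratio form, any presentation `F` of the function field.** -/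
theorem sat_Jinv_ratio (F : IntermediateField Qb (LaurentSeries Qb))
    (hF : F = modularFunctionFieldFullC Qb N) (hA : A.LiesOverPrime ℓ) (hℓN : ¬ ℓ ∣ N)
    (xF : F) (hxF : (xF : LaurentSeries Qb) = (jqModC Qb)⁻¹)
    (y : F) (hy : (chartHom A xF).IsIntegralElem y)
    (Y1 Y2 : LaurentSeries A) (h2 : redA A Y2 ≠ 0) (h1 : redA A Y1 = 0)
    (h : (y : LaurentSeries Qb) * iotaA A Y2 = iotaA A Y1) :
    ∃ a : A, a ∈ IsLocalRing.maximalIdeal A ∧ ∃ w : F,
      (chartHom A xF).IsIntegralElem w ∧ y = constHom A F a * w := by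
  subst hF
  obtain rfl : xF = (jFullC Qb N)⁻¹ := Subtype.ext hxF
  exact sat_chart_ratio N A ℓ hA hℓN _ (chartDescends_Jinv N A) y hy Y1 Y2 h2 h1 h

/-- Ratio expansions exist on the chart `j` (any presentation `F`). -/
theorem exists_ratio_J (F : IntermediateField Qb (LaurentSeries Qb))
    (hF : F = modularFunctionFieldFullC Qb N) (hA : A.LiesOverPrime ℓ) (hℓN : ¬ ℓ ∣ N)
    (jF : F) (hjF : (jF : LaurentSeries Qb) = jqModC Qb)
    (y : F) (hy : (chartHom A jF).IsIntegralElem y) :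
    ∃ Y1 Y2 : LaurentSeries A, redA A Y2 ≠ 0 ∧
      (y : LaurentSeries Qb) * iotaA A Y2 = iotaA A Y1 := by
  subst hF
  obtain rfl : jF = jFullC Qb N := Subtype.ext hjF
  exact exists_ratio_of_isIntegralElem N A ℓ hA hℓN _ (chartDescends_J N A) y hy

/-- Ratio expansions exist on the chart `1/j` (any presentation `F`). -/
theorem exists_ratio_Jinv (F : IntermediateField Qb (LaurentSeries Qb))
    (hF : F = modularFunctionFieldFullC Qb N) (hA : A.LiesOverPrime ℓ) (hℓN : ¬ ℓ ∣ N)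
    (xF : F) (hxF : (xF : LaurentSeries Qb) = (jqModC Qb)⁻¹)
    (y : F) (hy : (chartHom A xF).IsIntegralElem y) :
    ∃ Y1 Y2 : LaurentSeries A, redA A Y2 ≠ 0 ∧
      (y : LaurentSeries Qb) * iotaA A Y2 = iotaA A Y1 := by
  subst hF
  obtain rfl : xF = (jFullC Qb N)⁻¹ := Subtype.ext hxF
  exact exists_ratio_of_isIntegralElem N A ℓ hA hℓN _ (chartDescends_Jinv N A) y hy

/-- **(SAT-A) on the frozen `modularFunctionFieldBar N`, chart `j`.** -/
theorem sat_J_bar (hA : A.LiesOverPrime ℓ) (hℓN : ¬ ℓ ∣ N)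
    (jF : ↥(modularFunctionFieldBar N)) (hjF : (jF : LaurentSeries Qb) = jqModC Qb)
    (y : ↥(modularFunctionFieldBar N)) (hy : (chartHom A jF).IsIntegralElem y)
    (Y1 Y2 : LaurentSeries A) (h2 : redA A Y2 ≠ 0) (h1 : redA A Y1 = 0)
    (h : (y : LaurentSeries Qb) * iotaA A Y2 = iotaA A Y1) :
    ∃ a : A, a ∈ IsLocalRing.maximalIdeal A ∧ ∃ w : ↥(modularFunctionFieldBar N),
      (chartHom A jF).IsIntegralElem w ∧ y = constHom A (modularFunctionFieldBar N) a * w :=
  sat_J_ratio N A ℓ _ (H61.modularFunctionFieldBar_eq_fullC N) hA hℓN jF hjF y hy Y1 Y2 h2 h1 h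

/-- **(SAT-A) on the frozen `modularFunctionFieldBar N`, chart `1/j`.** -/
theorem sat_Jinv_bar (hA : A.LiesOverPrime ℓ) (hℓN : ¬ ℓ ∣ N)
    (xF : ↥(modularFunctionFieldBar N)) (hxF : (xF : LaurentSeries Qb) = (jqModC Qb)⁻¹)
    (y : ↥(modularFunctionFieldBar N)) (hy : (chartHom A xF).IsIntegralElem y)
    (Y1 Y2 : LaurentSeries A) (h2 : redA A Y2 ≠ 0) (h1 : redA A Y1 = 0)
    (h : (y : LaurentSeries Qb) * iotaA A Y2 = iotaA A Y1) :
    ∃ a : A, a ∈ IsLocalRing.maximalIdeal A ∧ ∃ w : ↥(modularFunctionFieldBar N),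
      (chartHom A xF).IsIntegralElem w ∧ y = constHom A (modularFunctionFieldBar N) a * w :=
  sat_Jinv_ratio N A ℓ _ (H61.modularFunctionFieldBar_eq_fullC N) hA hℓN xF hxF y hy Y1 Y2 h2 h1
    h

end Transport

end Fermat.Agent.S37.H15
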