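import Mathlib
import Fermat.Agent.S37.ConstTop_helper27
import Fermat.Agent.S37.TransferMod_helper72

/-!
# S37: the three (TRANSFER) statements of `ConstTop_helper27` (helper27)

`H27.TransferStmt N L A (levelIncl N L h) _ x` for the three charts of the route
(`x = j` at level `N`, `x = t₂` at level `N * 2`, `x = t₃` at level `N * 3`), from the landed
modular instance `TransferMod_helper72` (`H72.transferAt_j / _two / _three`).
-/

set_option autoImplicit false

open ModularCurve AlgebraicCurve

namespace Fermat.Agent.S37.H27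

noncomputable section

local notation "Qb" => AlgebraicClosure ℚ

/-- (TRANSFER) along `levelIncl N L h`, coordinate `j` upstairs. -/
theorem transferStmt_level_j (N L : ℕ) [NeZero N] [NeZero L] (h : N ∣ L)
    (A : ValuationSubring Qb) :
    TransferStmt N L A (levelIncl N L h) (levelIncl_isIntegral N L h) (H58.jBar L) := by
  unfold TransferStmt
  letI := algebraAlong (levelIncl N L h)
  haveI := isScalarTower_along (levelIncl N L h)
  haveI : FiniteDimensional ↥(modularFunctionFieldBar N) ↥(modularFunctionFieldBar L) :=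
    H37.finiteAlong_FN N L (levelIncl N L h)
  intro v₁ v₂ hv
  exact H72.transferAt_j N L A (coe_levelIncl N L h) v₁ v₂ hv

/-- (TRANSFER) along `levelIncl N L h`, coordinate `t₂` upstairs (`2 ∣ L`, `2` a unit of `A`). -/
theorem transferStmt_level_two (N L : ℕ) [NeZero N] [NeZero L] (h : N ∣ L) (hL : 2 ∣ L)
    (A : ValuationSubring Qb) (h2 : (2 : Qb)⁻¹ ∈ A) :
    TransferStmt N L A (levelIncl N L h) (levelIncl_isIntegral N L h)
      (Fermat.Agent.S18.H69.hauptBar2 L hL) := by
  unfold TransferStmt
  letI := algebraAlong (levelIncl N L h)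
  haveI := isScalarTower_along (levelIncl N L h)
  haveI : FiniteDimensional ↥(modularFunctionFieldBar N) ↥(modularFunctionFieldBar L) :=
    H37.finiteAlong_FN N L (levelIncl N L h)
  intro v₁ v₂ hv
  exact H72.transferAt_two N L A (coe_levelIncl N L h) hL h2 v₁ v₂ hv

/-- (TRANSFER) along `levelIncl N L h`, coordinate `t₃` upstairs (`3 ∣ L`, `3` a unit of `A`). -/
theorem transferStmt_level_three (N L : ℕ) [NeZero N] [NeZero L] (h : N ∣ L) (hL : 3 ∣ L)
    (A : ValuationSubring Qb) (h3 : (3 : Qb)⁻¹ ∈ A) :
    TransferStmt N L A (levelIncl N L h) (levelIncl_isIntegral N L h)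
      (Fermat.Agent.S18.H69.hauptBar3 L hL) := by
  unfold TransferStmt
  letI := algebraAlong (levelIncl N L h)
  haveI := isScalarTower_along (levelIncl N L h)
  haveI : FiniteDimensional ↥(modularFunctionFieldBar N) ↥(modularFunctionFieldBar L) :=
    H37.finiteAlong_FN N L (levelIncl N L h)
  intro v₁ v₂ hv
  exact H72.transferAt_three N L A (coe_levelIncl N L h) hL h3 v₁ v₂ hv

/-- **(T-j)** -/
theorem transferStmt_j (N : ℕ) [NeZero N] (A : ValuationSubring Qb) :
    TransferStmt N N A (levelIncl N N dvd_rfl) (levelIncl_isIntegral N N dvd_rfl) (H58.jBar N) :=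
  transferStmt_level_j N N dvd_rfl A

/-- **(T-2)** -/
theorem transferStmt_two (N : ℕ) [NeZero N] (A : ValuationSubring Qb)
    (hA : A.LiesOverPrime 3) :
    TransferStmt N (N * 2) A (levelIncl N (N * 2) (dvd_mul_right N 2))
      (levelIncl_isIntegral N (N * 2) (dvd_mul_right N 2))
      (Fermat.Agent.S18.H69.hauptBar2 (N * 2) (dvd_mul_left 2 N)) :=
  transferStmt_level_two N (N * 2) (dvd_mul_right N 2) (dvd_mul_left 2 N) A
    (H72.two_inv_mem Nat.prime_three hA (by decide))

/-- **(T-3)** -/
theorem transferStmt_three (N : ℕ) [NeZero N] (A : ValuationSubring Qb)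
    (hA : A.LiesOverPrime 2) :
    TransferStmt N (N * 3) A (levelIncl N (N * 3) (dvd_mul_right N 3))
      (levelIncl_isIntegral N (N * 3) (dvd_mul_right N 3))
      (Fermat.Agent.S18.H69.hauptBar3 (N * 3) (dvd_mul_left 3 N)) :=
  transferStmt_level_three N (N * 3) (dvd_mul_right N 3) (dvd_mul_left 3 N) A
    (H72.three_inv_mem Nat.prime_two hA (by decide))

end

end Fermat.Agent.S37.H27
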