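import Mathlib
import Fermat.Agent.S18.BaseUFD_helper8
import Fermat.Agent.S18.StmtBase_helper8
import Fermat.Agent.S18.NoPole_helper32

/-!
# S37, node (UNIT'): generic local lemma

Generic commutative algebra in the vocabulary of `S18/KCStmts_helper63` (a base domain `A` with
an element `π`, a field `F`, the Gauss valuation ring `V` with uniformiser `π`, a chart `B`).

* `local_unit_of_ord_zero`: at a regular closed point `n` of the special fibre, an element of the
  fraction field which is a unit along `π` and has order zero at every valuation centred in `n`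
  is a unit at `n` (variant of `H08.local_unit_mul_pow`).
* `section_principal`: at a regular closed point `n`, the kernel of an `A`-section `s : B → A`
  through `n` is generated at `n` by `τ - s τ`.
* `unit_mod_of_sections`: if the divisor of `u` near the special fibre of the chart is
  `∑ e i • (s i - s' i)` for pairs of `A`-sections with `s i ≡ s' i` modulo `π`, then `u` and
  `u⁻¹` are congruent modulo `π V` to elements of `B` (the reduction of `u` is a unit of `B/π`).
-/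

set_option autoImplicit false

namespace Fermat.Agent.S37.H42

open Fermat.Agent.S18 IsLocalRing

section Val

variable {F : Type*} [Field F] {v : F → ℤ}

theorem val_one (hmul : ∀ x y : F, x ≠ 0 → y ≠ 0 → v (x * y) = v x + v y) : v 1 = 0 := by
  have := hmul 1 1 one_ne_zero one_ne_zero
  rw [mul_one] at this
  omega

theorem val_inv (hmul : ∀ x y : F, x ≠ 0 → y ≠ 0 → v (x * y) = v x + v y) {x : F}
    (hx : x ≠ 0) : v x⁻¹ = - v x := by
  have := hmul x x⁻¹ hx (inv_ne_zero hx)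
  rw [mul_inv_cancel₀ hx, val_one hmul] at this
  omega

theorem val_pow (hmul : ∀ x y : F, x ≠ 0 → y ≠ 0 → v (x * y) = v x + v y) {x : F}
    (hx : x ≠ 0) (k : ℕ) : v (x ^ k) = k * v x := by
  induction k with
  | zero => simp [val_one hmul]
  | succ k ih =>
    rw [pow_succ, hmul _ _ (pow_ne_zero k hx) hx, ih]
    push_cast
    ring

theorem val_prod (hmul : ∀ x y : F, x ≠ 0 → y ≠ 0 → v (x * y) = v x + v y) {ι : Type*}
    (s : Finset ι) (f : ι → F) (hf : ∀ i ∈ s, f i ≠ 0) :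
    v (∏ i ∈ s, f i) = ∑ i ∈ s, v (f i) := by
  classical
  induction s using Finset.induction_on with
  | empty => simp [val_one hmul]
  | insert a s ha ih =>
    have h1 : f a ≠ 0 := hf a (Finset.mem_insert_self a s)
    have h2 : ∀ i ∈ s, f i ≠ 0 := fun i hi => hf i (Finset.mem_insert_of_mem hi)
    rw [Finset.prod_insert ha, Finset.sum_insert ha,
      hmul _ _ h1 (Finset.prod_ne_zero_iff.mpr h2), ih h2]

end Val

section Chart

variable {B F : Type*} [CommRing B] [Field F] [Algebra B F] [IsDomain B] [IsNoetherianRing B]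
  [IsFractionRing B F]

/-- **Local unit criterion.** At a regular closed point `n` of the special fibre `π = 0`, an `f`
in the fraction field which is a unit along `π` and has order zero at every additive valuation
centred in `n` (nonnegative on `B`, zero off `n`, zero at `π`) is a unit at `n`. -/
theorem local_unit_of_ord_zero {π : B} (hπ : Prime π) (hreg : H08.RegAt π) {f : F} (hf : f ≠ 0)
    (hfπ : ∃ c d : B, ¬ π ∣ c ∧ ¬ π ∣ d ∧ f * algebraMap B F d = algebraMap B F c)
    (n : Ideal B) (hn : n.IsMaximal) (hπn : π ∈ n)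
    (hdiv : ∀ v : F → ℤ, (∀ x y : F, x ≠ 0 → y ≠ 0 → v (x * y) = v x + v y) →
      (∀ x y : F, x ≠ 0 → y ≠ 0 → x + y ≠ 0 → min (v x) (v y) ≤ v (x + y)) →
      (∀ b : B, b ≠ 0 → 0 ≤ v (algebraMap B F b)) → v (algebraMap B F π) = 0 →
      (∀ b : B, b ∉ n → v (algebraMap B F b) = 0) → v f = 0) :
    ∃ c e : B, c ∉ n ∧ e ∉ n ∧ f * algebraMap B F e = algebraMap B F c := by
  classical
  haveI := hn
  obtain ⟨τ, hτn, hτ⟩ := hreg n hn hπn
  have hS : n.primeCompl ≤ nonZeroDivisors B := by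
    intro x hx
    exact mem_nonZeroDivisors_of_ne_zero (fun h => hx (h ▸ n.zero_mem))
  let R := Localization.subalgebra.ofField F n.primeCompl hS
  haveI hloc : IsLocalization.AtPrime R n :=
    Localization.subalgebra.isLocalization_ofField F n.primeCompl hS
  haveI : IsLocalRing R := IsLocalization.AtPrime.isLocalRing R n
  haveI : IsNoetherianRing R := IsLocalization.isNoetherianRing n.primeCompl R inferInstance
  have hinjBR : Function.Injective (algebraMap B R) := IsLocalization.injective R hS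
  have hmax : maximalIdeal R = Ideal.span {algebraMap B R π, algebraMap B R τ} := by
    rw [← IsLocalization.AtPrime.map_eq_maximalIdeal n R]
    apply le_antisymm
    · rw [Ideal.map_le_iff_le_comap]
      intro x hx
      obtain ⟨s, hs, hsx⟩ := hτ x hx
      have h1 : algebraMap B R (s * x) ∈ Ideal.span {algebraMap B R π, algebraMap B R τ} := by
        have := Ideal.mem_map_of_mem (algebraMap B R) hsx
        rwa [Ideal.map_span, Set.image_pair] at this
      rw [map_mul] at h1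
      have hu : IsUnit (algebraMap B R s) := IsLocalization.map_units R (⟨s, hs⟩ : n.primeCompl)
      exact (Ideal.unit_mul_mem_iff_mem _ hu).mp h1
    · rw [Ideal.span_le]
      rintro y (rfl | rfl)
      · exact Ideal.mem_map_of_mem _ hπn
      · exact Ideal.mem_map_of_mem _ hτn
  have hdisj : Disjoint (n.primeCompl : Set B) (Ideal.span {π} : Ideal B) := by
    rw [Set.disjoint_left]
    intro x hx hx'
    exact hx ((Ideal.span_singleton_le_iff_mem _).mpr hπn hx')
  have hπprime : (Ideal.span {π}).IsPrime := (Ideal.span_singleton_prime hπ.ne_zero).mpr hπ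
  have hπ'0 : algebraMap B R π ≠ 0 := fun h => hπ.ne_zero (hinjBR (by rw [h, map_zero]))
  have hπ' : Prime (algebraMap B R π) := by
    have := IsLocalization.isPrime_of_isPrime_disjoint n.primeCompl R (Ideal.span {π}) hπprime hdisj
    rw [Ideal.map_span, Set.image_singleton] at this
    exact (Ideal.span_singleton_prime hπ'0).mp this
  haveI : UniqueFactorizationMonoid R := H08.ufm_of_maximalIdeal_eq_span_pair hπ' hmax
  have hndvd : ∀ c : B, ¬ π ∣ c → ¬ algebraMap B R π ∣ algebraMap B R c := by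
    intro c hc hdvd
    apply hc
    have h1 : algebraMap B R c ∈ Ideal.map (algebraMap B R) (Ideal.span {π}) := by
      rw [Ideal.map_span, Set.image_singleton]
      exact Ideal.mem_span_singleton.mpr hdvd
    have h2 : c ∈ (Ideal.map (algebraMap B R) (Ideal.span {π})).under B := h1
    rw [IsLocalization.under_map_of_isPrime_disjoint n.primeCompl R hπprime hdisj] at h2
    exact Ideal.mem_span_singleton.mp h2
  have key : ∀ p : R, Prime p → ((0 : ℕ) : ℤ) ∣ H08.pOrd p f := by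
    intro p hp
    have h0 : H08.pOrd p f = 0 := by
      by_cases hpπ : p ∣ algebraMap B R π
      · obtain ⟨c, d, hc, hd, hcd⟩ := hfπ
        have hass : algebraMap B R π ∣ p := ((hp.dvd_prime_iff_associated hπ').mp hpπ).symm.dvd
        have hc' : ¬ p ∣ algebraMap B R c := fun h => hndvd c hc (hass.trans h)
        have hd' : ¬ p ∣ algebraMap B R d := fun h => hndvd d hd (hass.trans h)
        have hc0 : algebraMap B R c ≠ 0 := fun h => hc' (h ▸ dvd_zero p)
        have hd0 : algebraMap B R d ≠ 0 := fun h => hd' (h ▸ dvd_zero p)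
        rw [H08.pOrd_eq hp hc0 hd0 (by
          rw [← IsScalarTower.algebraMap_apply, ← IsScalarTower.algebraMap_apply]; exact hcd),
          multiplicity_eq_zero.mpr hc', multiplicity_eq_zero.mpr hd']
        simp
      · apply hdiv (H08.pOrd p) (fun x y hx hy => H08.pOrd_mul hp hx hy)
          (fun x y hx hy hxy => H08.pOrd_add hp hx hy hxy)
        · intro b hb
          rw [IsScalarTower.algebraMap_apply B R F]
          exact H08.pOrd_algebraMap_nonneg hp (fun h => hb (hinjBR (by rw [h, map_zero])))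
        · rw [IsScalarTower.algebraMap_apply B R F, H08.pOrd_algebraMap hp hπ'0,
            multiplicity_eq_zero.mpr hpπ]
          rfl
        · intro b hb
          have hu : IsUnit (algebraMap B R b) :=
            IsLocalization.map_units R (⟨b, hb⟩ : n.primeCompl)
          rw [IsScalarTower.algebraMap_apply B R F, H08.pOrd_algebraMap hp hu.ne_zero,
            multiplicity_eq_zero.mpr (fun h => hp.not_isUnit (isUnit_of_dvd_unit h hu))]
          rfl
    rw [h0]
    exact dvd_zero _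
  obtain ⟨w, g, hg, hfw⟩ := H08.exists_unit_mul_pow (R := R) 0 f hf key
  obtain ⟨a, s, has⟩ := IsLocalization.exists_mk'_eq n.primeCompl (w : R)
  have ha : a ∈ n.primeCompl :=
    (IsLocalization.AtPrime.isUnit_mk'_iff R n a s).mp (has ▸ w.isUnit)
  have hws : (w : R) * algebraMap B R s = algebraMap B R a := by
    rw [← has]; exact IsLocalization.mk'_spec R a s
  refine ⟨a, s, ha, s.2, ?_⟩
  rw [IsScalarTower.algebraMap_apply B R F, IsScalarTower.algebraMap_apply B R F a, ← hws,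
    map_mul, hfw]
  ring

end Chart

section Section

variable {A B : Type*} [CommRing A] [IsDomain A] [CommRing B] [IsDomain B] [IsNoetherianRing B]
  [Algebra A B]

/-- **The kernel of a section is principal at a regular closed point.**  Let `s : B → A` be an
`A`-section through the maximal ideal `n ∋ π` (i.e. `ker s ⊆ n`), and let `τ ∈ n` generate `n`
together with `π` at `n`.  If `π ∣ s τ`, then `ker s` is generated at `n` by `τ - s τ`. -/
theorem section_principal (s : B →ₐ[A] A) {π : A} (hπ0 : π ≠ 0) (n : Ideal B) (hn : n.IsMaximal)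
    (hπn : algebraMap A B π ∈ n) (hsn : ∀ b : B, s b = 0 → b ∈ n) {τ : B}
    (hτ : ∀ x ∈ n, ∃ d : B, d ∉ n ∧ d * x ∈ Ideal.span {algebraMap A B π, τ})
    (hτs : π ∣ s τ) (b : B) (hb : s b = 0) :
    ∃ d c : B, d ∉ n ∧ d * b = c * (τ - algebraMap A B (s τ)) := by
  classical
  haveI := hn
  haveI : n.IsPrime := hn.isPrime
  obtain ⟨a₁, ha₁⟩ := hτs
  set g : B := τ - algebraMap A B (s τ) with hg
  have hS : n.primeCompl ≤ nonZeroDivisors B := by
    intro x hx
    exact mem_nonZeroDivisors_of_ne_zero (fun h => hx (h ▸ n.zero_mem))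
  let R := Localization.AtPrime n
  haveI : IsNoetherianRing R := IsLocalization.isNoetherianRing n.primeCompl R inferInstance
  have hinjBR : Function.Injective (algebraMap B R) := IsLocalization.injective R hS
  set p : Ideal B := RingHom.ker (s : B →+* A) with hp
  set pR : Ideal R := p.map (algebraMap B R) with hpR
  have hπmem : algebraMap B R (algebraMap A B π) ∈ maximalIdeal R := by
    rw [← IsLocalization.AtPrime.map_eq_maximalIdeal n R]
    exact Ideal.mem_map_of_mem _ hπn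
  have hjac : Ideal.span {algebraMap B R (algebraMap A B π)} ≤ Ideal.jacobson (⊥ : Ideal R) := by
    rw [IsLocalRing.jacobson_eq_maximalIdeal ⊥ bot_ne_top, Ideal.span_le]
    rintro x rfl; exact hπmem
  have key : pR ≤ Ideal.span {algebraMap B R g} ⊔
      Ideal.span {algebraMap B R (algebraMap A B π)} • pR := by
    rw [hpR, Ideal.map_le_iff_le_comap]
    intro x hx
    have hx0 : s x = 0 := hx
    obtain ⟨d, hd, hdx⟩ := hτ x (hsn x hx0)
    obtain ⟨α, β, hαβ⟩ := Ideal.mem_span_pair.mp hdx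
    set y : B := α + β * algebraMap A B a₁ with hy
    have e1 : d * x = β * g + algebraMap A B π * y := by
      rw [← hαβ, hg, hy, ha₁, map_mul]
      ring
    have hsy : s y = 0 := by
      have h1 := congrArg s e1
      rw [map_mul, hx0, mul_zero, map_add, map_mul, map_mul, hg, map_sub, AlgHom.commutes,
        AlgHom.commutes] at h1
      simp only [Algebra.algebraMap_self, RingHom.id_apply, sub_self, mul_zero, zero_add] at h1
      exact (mul_eq_zero.mp h1.symm).resolve_left hπ0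
    have hyp : y ∈ p := hsy
    have hu : IsUnit (algebraMap B R d) := IsLocalization.map_units R (⟨d, hd⟩ : n.primeCompl)
    rw [Ideal.mem_comap]
    have h2 : algebraMap B R d * algebraMap B R x ∈ Ideal.span {algebraMap B R g} ⊔
        Ideal.span {algebraMap B R (algebraMap A B π)} • pR := by
      rw [← map_mul, e1, map_add, map_mul, map_mul]
      refine Submodule.add_mem_sup (Ideal.mem_span_singleton'.mpr ⟨_, rfl⟩) ?_
      exact Submodule.smul_mem_smul (Ideal.mem_span_singleton_self _)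
        (Ideal.mem_map_of_mem _ hyp)
    exact (Ideal.unit_mul_mem_iff_mem _ hu).mp h2
  have hle : pR ≤ Ideal.span {algebraMap B R g} :=
    Submodule.le_of_le_smul_of_le_jacobson_bot (IsNoetherian.noetherian pR) hjac key
  have hb' : algebraMap B R b ∈ Ideal.span {algebraMap B R g} :=
    hle (Ideal.mem_map_of_mem _ (show b ∈ p from hb))
  obtain ⟨r, hr⟩ := Ideal.mem_span_singleton'.mp hb'
  obtain ⟨c, d, hcd⟩ := IsLocalization.exists_mk'_eq n.primeCompl r
  refine ⟨d, c, d.2, ?_⟩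
  apply hinjBR
  have h3 : r * algebraMap B R d = algebraMap B R c := by
    rw [← hcd]; exact IsLocalization.mk'_spec R c d
  rw [map_mul, map_mul, ← hr, ← h3]
  ring

end Section

section Main

variable {A F : Type*} [CommRing A] [IsDomain A] [Field F] [Algebra A F]

omit [IsDomain A] in
/-- saturation for all powers of `π` from saturation for `π` (universe-polymorphic copy of
`H63.sat_pow`). -/
theorem sat_pow_aux {π : A} {V : ValuationSubring F} {B : Subalgebra A F}
    (hπ : algebraMap A F π ≠ 0) (hπV : algebraMap A F π ∈ V)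
    (hsat : ∀ x ∈ B, (∃ y ∈ V, x = algebraMap A F π * y) → ∃ b ∈ B, x = algebraMap A F π * b) :
    ∀ n : ℕ, ∀ x ∈ B, (∃ y ∈ V, x = algebraMap A F π ^ n * y) →
      ∃ b ∈ B, x = algebraMap A F π ^ n * b := by
  intro n
  induction n with
  | zero =>
    intro x hx _
    exact ⟨x, hx, by rw [pow_zero, one_mul]⟩
  | succ n ih =>
    rintro x hx ⟨y, hy, e⟩
    obtain ⟨b, hb, e1⟩ := hsat x hx ⟨algebraMap A F π ^ n * y,
      V.mul_mem _ _ (V.pow_mem hπV _) hy, by rw [e, pow_succ]; ring⟩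
    have e2 : b = algebraMap A F π ^ n * y := by
      apply mul_left_cancel₀ hπ
      rw [← e1, e, pow_succ]
      ring
    obtain ⟨b', hb', e3⟩ := ih b hb ⟨y, hy, e2⟩
    exact ⟨b', hb', by rw [e1, e3, pow_succ]; ring⟩

/-- One half of `unit_mod_of_sections` (for `u ≠ 0`). -/
theorem unit_mod_core
    (π : A) (V : ValuationSubring F) (B : Subalgebra A F)
    (hπ : π ≠ 0) (hinj : Function.Injective (algebraMap A F))
    (hfield : ∀ a : A, ¬ π ∣ a → ∃ a' c : A, a * a' = 1 + π * c)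
    (hπV : algebraMap A F π ∈ V.nonunits)
    (hVπ : ∀ x ∈ V.nonunits, ∃ y ∈ V, x = algebraMap A F π * y)
    (hBV : ∀ x ∈ B, x ∈ V)
    (hnoeth : IsNoetherianRing B)
    (hfrac : ∀ x : F, ∃ a ∈ B, ∃ b ∈ B, b ≠ 0 ∧ x * b = a)
    (hsat : ∀ x ∈ B, (∃ y ∈ V, x = algebraMap A F π * y) → ∃ b ∈ B, x = algebraMap A F π * b)
    (hreg : ∀ n : Ideal B, n.IsMaximal → algebraMap A B π ∈ n →
      ∃ τ ∈ n, ∀ a : B, a ∉ Ideal.span {algebraMap A B π} →
        ∃ (e : ℕ) (d u : B), d ∉ n ∧ u ∉ n ∧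
          a * d - u * τ ^ e ∈ Ideal.span {algebraMap A B π})
    {ι : Type*} [Fintype ι] (s s' : ι → (B →ₐ[A] A)) (e : ι → ℕ)
    (hcong : ∀ i (b : B), π ∣ s i b - s' i b)
    (hker : ∀ i, ∃ b : B, b ≠ 0 ∧ s i b = 0) (hker' : ∀ i, ∃ b : B, b ≠ 0 ∧ s' i b = 0)
    (u : F) (hu : u ∈ V) (hu' : u⁻¹ ∈ V) (hu0 : u ≠ 0)
    (hdiv : ∀ v : F → ℤ, (∀ x y : F, x ≠ 0 → y ≠ 0 → v (x * y) = v x + v y) →
      (∀ x y : F, x ≠ 0 → y ≠ 0 → x + y ≠ 0 → min (v x) (v y) ≤ v (x + y)) →
      (∀ b : B, b ≠ 0 → 0 ≤ v (b : F)) → v (algebraMap A F π) = 0 →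
      ∀ n : Ideal B, n.IsMaximal → algebraMap A B π ∈ n → (∀ b : B, b ∉ n → v (b : F) = 0) →
      ∃ k k' : ι → ℤ,
        (∀ i, (∀ b : B, b ≠ 0 → s i b = 0 → k i ≤ v (b : F)) ∧
          ∃ b : B, b ≠ 0 ∧ s i b = 0 ∧ v (b : F) = k i) ∧
        (∀ i, (∀ b : B, b ≠ 0 → s' i b = 0 → k' i ≤ v (b : F)) ∧
          ∃ b : B, b ≠ 0 ∧ s' i b = 0 ∧ v (b : F) = k' i) ∧
        v u = ∑ i, (e i : ℤ) * (k i - k' i)) :
    ∃ c ∈ B, ∃ y ∈ V, u - c = algebraMap A F π * y := by
  classical
  haveI := hnoeth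
  set ϖ : F := algebraMap A F π with hϖ
  set πB : B := algebraMap A B π with hπB
  have hϖ0 : ϖ ≠ 0 := fun h => hπ (hinj (by rw [← hϖ, h, map_zero]))
  have hϖV : ϖ ∈ V := hBV _ (B.algebraMap_mem π)
  have hϖinv : ϖ⁻¹ ∉ V := by
    rcases (V.mem_nonunits_iff_or).mp hπV with h | h
    · exact absurd h hϖ0
    · exact h
  have hnu_mul : ∀ c ∈ V, ϖ * c ∈ V.nonunits := by
    intro c hc
    rw [ValuationSubring.mem_nonunits_iff_or]
    by_cases h0 : ϖ * c = 0
    · left; exact h0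
    right
    intro hinv
    apply hϖinv
    have hc0 : c ≠ 0 := right_ne_zero_of_mul h0
    have : ϖ⁻¹ = (ϖ * c)⁻¹ * c := by field_simp
    rw [this]
    exact V.mul_mem _ _ hinv hc
  have hunit : ∀ x ∈ V, x ∉ V.nonunits → x ≠ 0 ∧ x⁻¹ ∈ V := by
    intro x _ hnu
    rw [ValuationSubring.mem_nonunits_iff_or] at hnu
    push Not at hnu
    exact hnu
  have hdvd_iff : ∀ x : B, πB ∣ x ↔ (x : F) ∈ V.nonunits := by
    intro x
    constructor
    · rintro ⟨c, rfl⟩
      exact hnu_mul _ (hBV _ c.2)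
    · intro hx
      obtain ⟨y, hy, e⟩ := hVπ _ hx
      obtain ⟨b, hb, e'⟩ := hsat _ x.2 ⟨y, hy, e⟩
      exact ⟨⟨b, hb⟩, Subtype.ext e'⟩
  have hnd_unit : ∀ x : B, ¬ πB ∣ x → (x : F) ≠ 0 ∧ (x : F)⁻¹ ∈ V := fun x hx =>
    hunit _ (hBV _ x.2) (fun h => hx ((hdvd_iff x).mpr h))
  have hπB0 : πB ≠ 0 := by
    intro h
    apply hϖ0
    exact congrArg Subtype.val h
  have hprime : Prime πB := by
    refine ⟨hπB0, ?_, ?_⟩
    · intro hu
      have h1 := (hdvd_iff 1).mp hu.dvd
      rw [ValuationSubring.mem_nonunits_iff_or] at h1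
      rcases h1 with h1 | h1
      · exact one_ne_zero h1
      · apply h1
        simp
    · intro x y hxy
      have h1 := (hdvd_iff (x * y)).mp hxy
      by_contra hcon
      push Not at hcon
      obtain ⟨hx0, hxi⟩ := hnd_unit x hcon.1
      obtain ⟨hy0, hyi⟩ := hnd_unit y hcon.2
      rw [ValuationSubring.mem_nonunits_iff_or] at h1
      rcases h1 with h1 | h1
      · exact mul_ne_zero hx0 hy0 h1
      · apply h1
        rw [Subalgebra.coe_mul, mul_inv]
        exact V.mul_mem _ _ hxi hyi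
  haveI hfaith : FaithfulSMul B F :=
    (faithfulSMul_iff_algebraMap_injective B F).mpr Subtype.val_injective
  haveI hFR : IsFractionRing B F := IsFractionRing.of_field B F (fun z => by
    obtain ⟨a, ha, b, hb, hb0, e⟩ := hfrac z
    refine ⟨⟨a, ha⟩, ⟨b, hb⟩, ?_⟩
    rw [eq_div_iff (by exact hb0)]
    exact e)
  have hVfrac : ∀ y ∈ V, ∃ a b : B, ¬ πB ∣ b ∧ y * (b : F) = (a : F) := by
    intro y hy
    obtain ⟨a₀, ha₀, b₀, hb₀, hb₀0, e⟩ := hfrac y
    obtain ⟨k, b', hb', eb⟩ := WfDvdMonoid.max_power_factor (a₀ := (⟨b₀, hb₀⟩ : B))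
      (fun h => hb₀0 (congrArg Subtype.val h)) hprime.irreducible
    have eb' : b₀ = ϖ ^ k * (b' : F) := by
      have := congrArg Subtype.val eb
      rw [Subalgebra.coe_mul, Subalgebra.coe_pow] at this
      exact this
    obtain ⟨a', ha', ea⟩ := sat_pow_aux hϖ0 hϖV hsat k a₀ ha₀
      ⟨y * b', V.mul_mem _ _ hy (hBV _ b'.2), by rw [← e, eb']; ring⟩
    refine ⟨⟨a', ha'⟩, b', hb', ?_⟩
    apply mul_left_cancel₀ (pow_ne_zero k hϖ0)
    show ϖ ^ k * (y * b') = ϖ ^ k * a'
    rw [← ea, ← e, eb']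
    ring
  have hregAt : H08.RegAt πB := H08.regAt_of_reg hreg
  have coe_ne : ∀ b : B, b ≠ 0 → (b : F) ≠ 0 := fun b hb h => hb (Subtype.ext h)
  -- `u` in fraction form
  obtain ⟨c₀, d₀, hd₀, e₀⟩ := hVfrac u hu
  have hc₀ : ¬ πB ∣ c₀ := by
    intro h
    have h1 := (hdvd_iff c₀).mp h
    obtain ⟨hd0, hdi⟩ := hnd_unit d₀ hd₀
    rw [ValuationSubring.mem_nonunits_iff_or] at h1
    rcases h1 with h1 | h1
    · rw [← e₀] at h1
      exact mul_ne_zero hu0 hd0 h1
    · apply h1
      rw [← e₀, mul_inv]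
      exact V.mul_mem _ _ hu' hdi
  -- the ideal of denominators
  let I : Ideal B :=
    { carrier := {d | ∃ c ∈ B, ∃ y ∈ V, u * (d : F) - c = ϖ * y}
      add_mem' := by
        rintro d₁ d₂ ⟨c₁, hc₁, y₁, hy₁, e₁⟩ ⟨c₂, hc₂, y₂, hy₂, e₂⟩
        refine ⟨c₁ + c₂, B.add_mem hc₁ hc₂, y₁ + y₂, V.add_mem _ _ hy₁ hy₂, ?_⟩
        rw [Subalgebra.coe_add]
        linear_combination e₁ + e₂
      zero_mem' := ⟨0, B.zero_mem, 0, V.zero_mem, by simp⟩
      smul_mem' := by
        rintro r d ⟨c, hc, y, hy, e⟩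
        refine ⟨(r : F) * c, B.mul_mem r.2 hc, (r : F) * y, V.mul_mem _ _ (hBV _ r.2) hy, ?_⟩
        rw [smul_eq_mul, Subalgebra.coe_mul]
        linear_combination (r : F) * e }
  by_cases hI : I = ⊤
  · have h1 : (1 : B) ∈ I := by rw [hI]; trivial
    obtain ⟨c, hc, y, hy, e⟩ := h1
    exact ⟨c, hc, y, hy, by simpa using e⟩
  · exfalso
    obtain ⟨n, hn, hIn⟩ := Ideal.exists_le_maximal I hI
    have hπI : πB ∈ I := ⟨0, B.zero_mem, u, hu, by
      show u * ϖ - 0 = ϖ * u
      ring⟩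
    have hπn : πB ∈ n := hIn hπI
    haveI hnp : n.IsPrime := hn.isPrime
    obtain ⟨τ, hτn, hτ⟩ := hregAt n hn hπn
    have hone : (1 : B) ∉ n := (Ideal.ne_top_iff_one n).mp hn.ne_top
    -- sections through `n`
    have hthr_dvd : ∀ t : B →ₐ[A] A, (∀ b : B, t b = 0 → b ∈ n) → ∀ b ∈ n, π ∣ t b := by
      intro t ht b hb
      by_contra hnd
      obtain ⟨a', c, hac⟩ := hfield _ hnd
      have h1 : b - algebraMap A B (t b) ∈ n := ht _ (by rw [map_sub, AlgHom.commutes]; simp)
      have h2 : algebraMap A B (t b) ∈ n := by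
        have : algebraMap A B (t b) = b - (b - algebraMap A B (t b)) := by ring
        rw [this]; exact n.sub_mem hb h1
      apply hone
      have : (1 : B) = algebraMap A B (t b) * algebraMap A B a' - πB * algebraMap A B c := by
        rw [hπB, ← map_mul, ← map_mul, ← map_sub, hac]; simp
      rw [this]
      exact n.sub_mem (n.mul_mem_right _ h2) (n.mul_mem_right _ hπn)
    have hthr_swap : ∀ t t' : B →ₐ[A] A, (∀ b : B, π ∣ t b - t' b) →
        (∀ b : B, t b = 0 → b ∈ n) → ∀ b : B, t' b = 0 → b ∈ n := by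
      intro t t' htt ht b hb
      have h1 : b - algebraMap A B (t b) ∈ n := ht _ (by rw [map_sub, AlgHom.commutes]; simp)
      obtain ⟨c, hc⟩ := htt b
      rw [hb, sub_zero] at hc
      have h2 : algebraMap A B (t b) ∈ n := by
        rw [hc, map_mul]; exact n.mul_mem_right _ hπn
      have : b = (b - algebraMap A B (t b)) + algebraMap A B (t b) := by ring
      rw [this]; exact n.add_mem h1 h2
    set g : ι → B := fun i => τ - algebraMap A B (s i τ) with hg
    set g' : ι → B := fun i => τ - algebraMap A B (s' i τ) with hg'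
    let S : Finset ι := Finset.univ.filter (fun i => ∀ b : B, s i b = 0 → b ∈ n)
    have hS_mem : ∀ i, i ∈ S ↔ ∀ b : B, s i b = 0 → b ∈ n := by
      intro i; simp [S]
    have hS' : ∀ i, i ∈ S ↔ ∀ b : B, s' i b = 0 → b ∈ n := fun i =>
      ⟨fun h => hthr_swap (s i) (s' i) (hcong i) ((hS_mem i).mp h),
       fun h => (hS_mem i).mpr (hthr_swap (s' i) (s i) (fun b => by
          obtain ⟨c, hc⟩ := hcong i b
          exact ⟨-c, by linear_combination -hc⟩) h)⟩
    have hprin : ∀ i ∈ S, ∀ b : B, s i b = 0 → ∃ d c : B, d ∉ n ∧ d * b = c * g i :=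
      fun i hi b hb => section_principal (s i) hπ n hn hπn ((hS_mem i).mp hi) hτ
        (hthr_dvd (s i) ((hS_mem i).mp hi) τ hτn) b hb
    have hprin' : ∀ i ∈ S, ∀ b : B, s' i b = 0 → ∃ d c : B, d ∉ n ∧ d * b = c * g' i :=
      fun i hi b hb => section_principal (s' i) hπ n hn hπn ((hS' i).mp hi) hτ
        (hthr_dvd (s' i) ((hS' i).mp hi) τ hτn) b hb
    have hsg : ∀ i, s i (g i) = 0 := by
      intro i; simp [hg]
    have hsg' : ∀ i, s' i (g' i) = 0 := by
      intro i; simp [hg']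
    -- generic facts about a section through `n` with its local equation
    have hne : ∀ (t : B →ₐ[A] A) (γ : B), (∃ b : B, b ≠ 0 ∧ t b = 0) →
        (∀ b : B, t b = 0 → ∃ d c : B, d ∉ n ∧ d * b = c * γ) → γ ≠ 0 := by
      intro t γ hk hp h0
      obtain ⟨b, hb0, hb⟩ := hk
      obtain ⟨d, c, hd, hdc⟩ := hp b hb
      rw [h0, mul_zero] at hdc
      rcases mul_eq_zero.mp hdc with h | h
      · exact hd (h ▸ n.zero_mem)
      · exact hb0 h
    have hnotdvd : ∀ (t : B →ₐ[A] A) (γ : B), t γ = 0 → γ ≠ 0 →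
        (∀ b : B, t b = 0 → ∃ d c : B, d ∉ n ∧ d * b = c * γ) → ¬ πB ∣ γ := by
      rintro t γ htγ hγ0 hp ⟨x, hx⟩
      have hsx : t x = 0 := by
        have h1 := htγ
        rw [hx, map_mul, hπB, AlgHom.commutes] at h1
        simp only [Algebra.algebraMap_self, RingHom.id_apply] at h1
        exact (mul_eq_zero.mp h1).resolve_left hπ
      have hx0 : x ≠ 0 := by
        rintro rfl
        exact hγ0 (by rw [hx, mul_zero])
      obtain ⟨d, c, hd, hdc⟩ := hp x hsx
      have : d = c * πB := by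
        apply mul_right_cancel₀ hx0
        rw [hdc, hx]; ring
      exact hd (this ▸ n.mul_mem_left c hπn)
    have hg0 : ∀ i ∈ S, g i ≠ 0 := fun i hi => hne (s i) (g i) (hker i) (hprin i hi)
    have hg0' : ∀ i ∈ S, g' i ≠ 0 := fun i hi => hne (s' i) (g' i) (hker' i) (hprin' i hi)
    have hgπ : ∀ i ∈ S, ¬ πB ∣ g i := fun i hi =>
      hnotdvd (s i) (g i) (hsg i) (hg0 i hi) (hprin i hi)
    have hgπ' : ∀ i ∈ S, ¬ πB ∣ g' i := fun i hi =>
      hnotdvd (s' i) (g' i) (hsg' i) (hg0' i hi) (hprin' i hi)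
    have hgg : ∀ i, πB ∣ g i - g' i := by
      intro i
      obtain ⟨c, hc⟩ := hcong i τ
      refine ⟨- algebraMap A B c, ?_⟩
      have h1 : g i - g' i = - algebraMap A B (s i τ - s' i τ) := by
        simp only [hg, hg', map_sub]; ring
      rw [h1, hc, map_mul]
      ring
    set P : B := ∏ i ∈ S, g i ^ e i with hP
    set Q : B := ∏ i ∈ S, g' i ^ e i with hQ
    have hPπ : ¬ πB ∣ P := by
      intro h
      obtain ⟨i, hi, hdvd⟩ := (Prime.dvd_finsetProd_iff hprime _).mp h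
      exact hgπ i hi (hprime.dvd_of_dvd_pow hdvd)
    have hQπ : ¬ πB ∣ Q := by
      intro h
      obtain ⟨i, hi, hdvd⟩ := (Prime.dvd_finsetProd_iff hprime _).mp h
      exact hgπ' i hi (hprime.dvd_of_dvd_pow hdvd)
    have hPQ : πB ∣ P - Q := by
      rw [← Ideal.mem_span_singleton, ← Ideal.Quotient.eq, hP, hQ, map_prod, map_prod]
      refine Finset.prod_congr rfl fun i _ => ?_
      rw [map_pow, map_pow, Ideal.Quotient.eq.mpr (Ideal.mem_span_singleton.mpr (hgg i))]
    have hP0 : P ≠ 0 := fun h => hPπ (h ▸ dvd_zero _)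
    have hQ0 : Q ≠ 0 := fun h => hQπ (h ▸ dvd_zero _)
    have hPF : (P : F) ≠ 0 := coe_ne P hP0
    have hQF : (Q : F) ≠ 0 := coe_ne Q hQ0
    have hPcoe : (P : F) = ∏ i ∈ S, (g i : F) ^ e i := by
      rw [hP]
      exact (map_prod B.val _ _).trans (Finset.prod_congr rfl fun i _ => map_pow B.val _ _)
    have hQcoe : (Q : F) = ∏ i ∈ S, (g' i : F) ^ e i := by
      rw [hQ]
      exact (map_prod B.val _ _).trans (Finset.prod_congr rfl fun i _ => map_pow B.val _ _)
    set un : F := u * (Q : F) * (P : F)⁻¹ with hun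
    have hun0 : un ≠ 0 := mul_ne_zero (mul_ne_zero hu0 hQF) (inv_ne_zero hPF)
    have hfπ : ∃ c d : B, ¬ πB ∣ c ∧ ¬ πB ∣ d ∧ un * algebraMap B F d = algebraMap B F c := by
      refine ⟨c₀ * Q, d₀ * P, ?_, ?_, ?_⟩
      · intro h
        rcases hprime.dvd_or_dvd h with h | h
        · exact hc₀ h
        · exact hQπ h
      · intro h
        rcases hprime.dvd_or_dvd h with h | h
        · exact hd₀ h
        · exact hPπ h
      · show un * ((d₀ * P : B) : F) = ((c₀ * Q : B) : F)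
        rw [Subalgebra.coe_mul, Subalgebra.coe_mul, hun, ← e₀]
        field_simp
    obtain ⟨c, ee, hc, hee, hce⟩ := local_unit_of_ord_zero hprime hregAt hun0 hfπ n hn hπn (by
      intro v hmul hadd hnn hvπ hcen
      obtain ⟨k, k', hk, hk', hvu⟩ := hdiv v hmul hadd hnn hvπ n hn hπn hcen
      have hval : ∀ (t : B →ₐ[A] A) (γ : B) (κ : ℤ), t γ = 0 → γ ≠ 0 →
          (∀ b : B, t b = 0 → ∃ d c : B, d ∉ n ∧ d * b = c * γ) →
          ((∀ b : B, b ≠ 0 → t b = 0 → κ ≤ v (b : F)) ∧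
            ∃ b : B, b ≠ 0 ∧ t b = 0 ∧ v (b : F) = κ) → v (γ : F) = κ := by
        rintro t γ κ htγ hγ0 hp ⟨hle, b₀, hb₀0, hb₀, hvb₀⟩
        apply le_antisymm
        · obtain ⟨d, c, hd, hdc⟩ := hp b₀ hb₀
          have hd0 : d ≠ 0 := fun h => hd (h ▸ n.zero_mem)
          have hc0 : c ≠ 0 := by
            rintro rfl
            rw [zero_mul] at hdc
            rcases mul_eq_zero.mp hdc with h | h
            · exact hd0 h
            · exact hb₀0 h
          have h1 : v (d : F) + v (b₀ : F) = v (c : F) + v (γ : F) := by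
            rw [← hmul _ _ (coe_ne d hd0) (coe_ne b₀ hb₀0), ← hmul _ _ (coe_ne c hc0) (coe_ne γ hγ0),
              ← Subalgebra.coe_mul, ← Subalgebra.coe_mul, hdc]
          have h2 : v (d : F) = 0 := hcen d hd
          have h3 : 0 ≤ v (c : F) := hnn c hc0
          rw [← hvb₀]
          omega
        · exact hle γ hγ0 htγ
      have hzero : ∀ (t : B →ₐ[A] A) (κ : ℤ), ¬ (∀ b : B, t b = 0 → b ∈ n) →
          ((∀ b : B, b ≠ 0 → t b = 0 → κ ≤ v (b : F)) ∧
            ∃ b : B, b ≠ 0 ∧ t b = 0 ∧ v (b : F) = κ) → κ = 0 := by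
        rintro t κ hnot ⟨hle, b₀, hb₀0, hb₀, hvb₀⟩
        push Not at hnot
        obtain ⟨b, hb, hbn⟩ := hnot
        have hb0 : b ≠ 0 := fun h => hbn (h ▸ n.zero_mem)
        have h1 := hle b hb0 hb
        have h2 : v (b : F) = 0 := hcen b hbn
        have h3 : 0 ≤ v (b₀ : F) := hnn b₀ hb₀0
        omega
      have hvg : ∀ i ∈ S, v (g i : F) = k i := fun i hi =>
        hval (s i) (g i) (k i) (hsg i) (hg0 i hi) (hprin i hi) (hk i)
      have hvg' : ∀ i ∈ S, v (g' i : F) = k' i := fun i hi =>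
        hval (s' i) (g' i) (k' i) (hsg' i) (hg0' i hi) (hprin' i hi) (hk' i)
      have hk0 : ∀ i, i ∉ S → k i = 0 := fun i hi =>
        hzero (s i) (k i) (fun h => hi ((hS_mem i).mpr h)) (hk i)
      have hk0' : ∀ i, i ∉ S → k' i = 0 := fun i hi =>
        hzero (s' i) (k' i) (fun h => hi ((hS' i).mpr h)) (hk' i)
      have hvP : v (P : F) = ∑ i ∈ S, (e i : ℤ) * k i := by
        rw [hPcoe, val_prod hmul _ _ (fun i hi => pow_ne_zero _ (coe_ne _ (hg0 i hi)))]
        refine Finset.sum_congr rfl fun i hi => ?_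
        rw [val_pow hmul (coe_ne _ (hg0 i hi)), hvg i hi]
      have hvQ : v (Q : F) = ∑ i ∈ S, (e i : ℤ) * k' i := by
        rw [hQcoe, val_prod hmul _ _ (fun i hi => pow_ne_zero _ (coe_ne _ (hg0' i hi)))]
        refine Finset.sum_congr rfl fun i hi => ?_
        rw [val_pow hmul (coe_ne _ (hg0' i hi)), hvg' i hi]
      have hvu' : v u = ∑ i ∈ S, (e i : ℤ) * (k i - k' i) := by
        rw [hvu]
        symm
        apply Finset.sum_subset (Finset.subset_univ S)
        intro i _ hi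
        rw [hk0 i hi, hk0' i hi]
        ring
      rw [hun, hmul _ _ (mul_ne_zero hu0 hQF) (inv_ne_zero hPF), hmul _ _ hu0 hQF,
        val_inv hmul hPF, hvP, hvQ, hvu']
      simp only [mul_sub, Finset.sum_sub_distrib]
      ring)
    apply hee
    apply hIn
    obtain ⟨z, hz⟩ := hPQ
    obtain ⟨_, hPinv⟩ := hnd_unit P hPπ
    refine ⟨c, c.2, u * (ee : F) * (z : F) * (P : F)⁻¹,
      V.mul_mem _ _ (V.mul_mem _ _ (V.mul_mem _ _ hu (hBV _ ee.2)) (hBV _ z.2)) hPinv, ?_⟩
    have hz' : (P : F) - (Q : F) = ϖ * (z : F) := by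
      have := congrArg Subtype.val hz
      rw [Subalgebra.coe_sub, Subalgebra.coe_mul] at this
      exact this
    have hce' : u * (Q : F) * (P : F)⁻¹ * (ee : F) = (c : F) := hce
    have hPP : (P : F) * (P : F)⁻¹ = 1 := mul_inv_cancel₀ hPF
    rw [← hce']
    linear_combination (u * (ee : F) * (P : F)⁻¹) * hz' - (u * (ee : F)) * hPP

/-- **(UNIT'), generic local lemma.**  One chart `B` of the KCStmts setting (Gauss valuation ring
`V` with uniformiser `π`, `B ∩ πV = πB`, regular special fibre), `A/π` a field.  Let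
`s i, s' i : B → A` be pairs of `A`-sections with the same reduction modulo `π`, and let `u` be
a unit of `V` whose order at every additive valuation `v` centred at a closed point of the
special fibre of `B` is `∑ e i * (k i - k' i)`, where `k i` (resp. `k' i`) is the minimum of
`v` on the kernel of `s i` (resp. `s' i`).  Then `u` and `u⁻¹` are congruent modulo `πV` to
elements of `B`: the reduction of `u` is a unit of `B/πB`. -/
theorem unit_mod_of_sections
    (π : A) (V : ValuationSubring F) (B : Subalgebra A F)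
    (hπ : π ≠ 0) (hinj : Function.Injective (algebraMap A F))
    (hfield : ∀ a : A, ¬ π ∣ a → ∃ a' c : A, a * a' = 1 + π * c)
    (hπV : algebraMap A F π ∈ V.nonunits)
    (hVπ : ∀ x ∈ V.nonunits, ∃ y ∈ V, x = algebraMap A F π * y)
    (hBV : ∀ x ∈ B, x ∈ V)
    (hnoeth : IsNoetherianRing B)
    (hfrac : ∀ x : F, ∃ a ∈ B, ∃ b ∈ B, b ≠ 0 ∧ x * b = a)
    (hsat : ∀ x ∈ B, (∃ y ∈ V, x = algebraMap A F π * y) → ∃ b ∈ B, x = algebraMap A F π * b)
    (hreg : ∀ n : Ideal B, n.IsMaximal → algebraMap A B π ∈ n →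
      ∃ τ ∈ n, ∀ a : B, a ∉ Ideal.span {algebraMap A B π} →
        ∃ (e : ℕ) (d u : B), d ∉ n ∧ u ∉ n ∧
          a * d - u * τ ^ e ∈ Ideal.span {algebraMap A B π})
    {ι : Type*} [Fintype ι] (s s' : ι → (B →ₐ[A] A)) (e : ι → ℕ)
    (hcong : ∀ i (b : B), π ∣ s i b - s' i b)
    (hker : ∀ i, ∃ b : B, b ≠ 0 ∧ s i b = 0) (hker' : ∀ i, ∃ b : B, b ≠ 0 ∧ s' i b = 0)
    (u : F) (hu : u ∈ V) (hu' : u⁻¹ ∈ V)
    (hdiv : ∀ v : F → ℤ, (∀ x y : F, x ≠ 0 → y ≠ 0 → v (x * y) = v x + v y) →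
      (∀ x y : F, x ≠ 0 → y ≠ 0 → x + y ≠ 0 → min (v x) (v y) ≤ v (x + y)) →
      (∀ b : B, b ≠ 0 → 0 ≤ v (b : F)) → v (algebraMap A F π) = 0 →
      ∀ n : Ideal B, n.IsMaximal → algebraMap A B π ∈ n → (∀ b : B, b ∉ n → v (b : F) = 0) →
      ∃ k k' : ι → ℤ,
        (∀ i, (∀ b : B, b ≠ 0 → s i b = 0 → k i ≤ v (b : F)) ∧
          ∃ b : B, b ≠ 0 ∧ s i b = 0 ∧ v (b : F) = k i) ∧
        (∀ i, (∀ b : B, b ≠ 0 → s' i b = 0 → k' i ≤ v (b : F)) ∧
          ∃ b : B, b ≠ 0 ∧ s' i b = 0 ∧ v (b : F) = k' i) ∧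
        v u = ∑ i, (e i : ℤ) * (k i - k' i)) :
    (∃ c ∈ B, ∃ y ∈ V, u - c = algebraMap A F π * y) ∧
      (∃ c ∈ B, ∃ y ∈ V, u⁻¹ - c = algebraMap A F π * y) := by
  by_cases hu0 : u = 0
  · subst hu0
    exact ⟨⟨0, B.zero_mem, 0, V.zero_mem, by simp⟩, ⟨0, B.zero_mem, 0, V.zero_mem, by simp⟩⟩
  refine ⟨unit_mod_core π V B hπ hinj hfield hπV hVπ hBV hnoeth hfrac hsat hreg s s' e hcong
      hker hker' u hu hu' hu0 hdiv, ?_⟩
  refine unit_mod_core π V B hπ hinj hfield hπV hVπ hBV hnoeth hfrac hsat hreg s' s e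
    (fun i b => by
      obtain ⟨c, hc⟩ := hcong i b
      exact ⟨-c, by linear_combination -hc⟩)
    hker' hker u⁻¹ hu' (by rwa [inv_inv]) (inv_ne_zero hu0) ?_
  intro v hmul hadd hnn hvπ n hn hπn hcen
  obtain ⟨k, k', hk, hk', hvu⟩ := hdiv v hmul hadd hnn hvπ n hn hπn hcen
  refine ⟨k', k, hk', hk, ?_⟩
  rw [val_inv hmul hu0, hvu, ← Finset.sum_neg_distrib]
  refine Finset.sum_congr rfl fun i _ => ?_
  ring

end Main

section Glue

variable {A F E : Type*} [CommRing A] [Field F] [Algebra A F] [Field E] [Algebra A E]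

/-- Reduction preserves integrality over `A[y]`: if `x ∈ V` is integral over `A[y]`, `y ∈ V`,
and `ρ : V → E` is a ring homomorphism compatible with the `A`-algebra structures, then `ρ x` is
integral over `A[ρ y]`. -/
theorem isIntegral_adjoin_map (V : ValuationSubring F) (hAV : ∀ a : A, algebraMap A F a ∈ V)
    (ρ : V →+* E) (hρA : ∀ a : A, ρ ⟨algebraMap A F a, hAV a⟩ = algebraMap A E a)
    (y : F) (hy : y ∈ V) (x : F) (hx : x ∈ V)
    (hint : IsIntegral (Algebra.adjoin A {y}) x) :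
    IsIntegral (Algebra.adjoin A {ρ ⟨y, hy⟩}) (ρ ⟨x, hx⟩) := by
  have hle : ∀ z ∈ Algebra.adjoin A {y}, ∃ hz : z ∈ V, ρ ⟨z, hz⟩ ∈ Algebra.adjoin A {ρ ⟨y, hy⟩} := by
    intro z hz
    induction hz using Algebra.adjoin_induction with
    | mem z hz =>
      rw [Set.mem_singleton_iff] at hz
      subst hz
      exact ⟨hy, Algebra.subset_adjoin (Set.mem_singleton _)⟩
    | algebraMap a =>
      exact ⟨hAV a, by rw [hρA]; exact Subalgebra.algebraMap_mem _ a⟩
    | add z w _ _ hz hw =>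
      obtain ⟨hz1, hz2⟩ := hz
      obtain ⟨hw1, hw2⟩ := hw
      refine ⟨V.add_mem _ _ hz1 hw1, ?_⟩
      have : ρ ⟨z + w, V.add_mem _ _ hz1 hw1⟩ = ρ ⟨z, hz1⟩ + ρ ⟨w, hw1⟩ := by
        rw [← map_add]; rfl
      rw [this]
      exact Subalgebra.add_mem _ hz2 hw2
    | mul z w _ _ hz hw =>
      obtain ⟨hz1, hz2⟩ := hz
      obtain ⟨hw1, hw2⟩ := hw
      refine ⟨V.mul_mem _ _ hz1 hw1, ?_⟩
      have : ρ ⟨z * w, V.mul_mem _ _ hz1 hw1⟩ = ρ ⟨z, hz1⟩ * ρ ⟨w, hw1⟩ := by
        rw [← map_mul]; rfl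
      rw [this]
      exact Subalgebra.mul_mem _ hz2 hw2
  let incl : ↥(Algebra.adjoin A {y}) →+* V :=
    (algebraMap ↥(Algebra.adjoin A {y}) F).codRestrict V.toSubring (fun z => (hle z z.2).1)
  let φ : ↥(Algebra.adjoin A {y}) →+* ↥(Algebra.adjoin A {ρ ⟨y, hy⟩}) :=
    (ρ.comp incl).codRestrict (Algebra.adjoin A {ρ ⟨y, hy⟩}).toSubring (fun z => (hle z z.2).2)
  obtain ⟨P, hP, hPx⟩ := hint
  refine ⟨P.map φ, hP.map _, ?_⟩
  rw [Polynomial.eval₂_map]
  have h1 : (algebraMap ↥(Algebra.adjoin A {ρ ⟨y, hy⟩}) E).comp φ = ρ.comp incl := by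
    ext z; rfl
  rw [h1, ← Polynomial.hom_eval₂]
  have h2 : Polynomial.eval₂ incl (⟨x, hx⟩ : V) P = 0 := by
    apply Subtype.ext
    have h3 := Polynomial.hom_eval₂ P incl V.subtype (⟨x, hx⟩ : V)
    exact h3.trans hPx
  rw [h2, map_zero]

/-- **(UNIT'), glue.**  If the reduction of `u` agrees with the reduction of an element of the
chart `BU` (integral over `A[j]`) and with the reduction of an element of the chart `BV`
(integral over `A[j⁻¹]`), then the reduction of `u` is integral over `A`. -/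
theorem isIntegral_residue_of_two_charts (V : ValuationSubring F) (BU BV : Subalgebra A F)
    (j : F) (hAV : ∀ a : A, algebraMap A F a ∈ V) (hjV : j ∈ V) (hjV' : j⁻¹ ∈ V)
    (hBU : ∀ x ∈ BU, x ∈ V) (hBV : ∀ x ∈ BV, x ∈ V)
    (hintU : ∀ x ∈ BU, IsIntegral (Algebra.adjoin A {j}) x)
    (hintV : ∀ x ∈ BV, IsIntegral (Algebra.adjoin A {j⁻¹}) x)
    (ρ : V →+* E) (hρA : ∀ a : A, ρ ⟨algebraMap A F a, hAV a⟩ = algebraMap A E a)
    (u : V) (cU cV : F) (hcU : cU ∈ BU) (hcV : cV ∈ BV)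
    (hU : ρ u = ρ ⟨cU, hBU cU hcU⟩) (hV : ρ u = ρ ⟨cV, hBV cV hcV⟩) :
    IsIntegral A (ρ u) := by
  have h1 : IsIntegral (Algebra.adjoin A {ρ ⟨j, hjV⟩}) (ρ u) := by
    rw [hU]
    exact isIntegral_adjoin_map V hAV ρ hρA j hjV cU (hBU cU hcU) (hintU cU hcU)
  have h2 : IsIntegral (Algebra.adjoin A {ρ ⟨j⁻¹, hjV'⟩}) (ρ u) := by
    rw [hV]
    exact isIntegral_adjoin_map V hAV ρ hρA j⁻¹ hjV' cV (hBV cV hcV) (hintV cV hcV)
  have hinv : ρ ⟨j⁻¹, hjV'⟩ = (ρ ⟨j, hjV⟩)⁻¹ := by
    by_cases hj0 : j = 0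
    · subst hj0
      have e1 : (⟨(0 : F)⁻¹, hjV'⟩ : V) = 0 := Subtype.ext (by simp)
      have e2 : (⟨(0 : F), hjV⟩ : V) = 0 := rfl
      rw [e1, e2, map_zero, inv_zero]
    · have e : ρ ⟨j, hjV⟩ * ρ ⟨j⁻¹, hjV'⟩ = 1 := by
        rw [← map_mul]
        have : (⟨j, hjV⟩ : V) * ⟨j⁻¹, hjV'⟩ = 1 := Subtype.ext (mul_inv_cancel₀ hj0)
        rw [this, map_one]
      exact eq_inv_of_mul_eq_one_right e
  rw [hinv] at h2
  exact H32.isIntegral_of_adjoin_of_adjoin_inv (ρ ⟨j, hjV⟩) (ρ u) h1 h2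

end Glue

end Fermat.Agent.S37.H42
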