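import Mathlib
import Fermat.Agent.S18.StmtBase_helper8

/-!
# S37, node (UNIT'): horizontal divisors of total weight zero through a closed point

Generic commutative algebra in the vocabulary of the Kummer core `H63.StmtBase`.

A chart `B` (noetherian, integrally closed, fraction field `F`) over a discrete valuation ring
`A` with uniformiser `π`, inside the Gauss valuation ring `V` of `F` (uniformiser `π`,
`B ∩ πV = πB`), with regular special fibre.  Let `u` be a unit of `V` whose divisor on the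
generic fibre of the chart is `∑ d i • [O i]` for finitely many `Frac A`-rational places `O i`.
If at every closed point `n` of the special fibre the places passing through `n` have total
weight `0`, then `u` is congruent modulo `πV` to an element of `B`.
-/

set_option autoImplicit false

open IsLocalRing

namespace Fermat.Agent.S37.H89

open Fermat.Agent.S18.H08

/-! ### Valuation subrings: small lemmas -/

section VS

variable {K : Type*} [Field K] (V : ValuationSubring K)

theorem mul_mem_nonunits_left {x y : K} (hx : x ∈ V.nonunits) (hy : y ∈ V) :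
    x * y ∈ V.nonunits := by
  rw [ValuationSubring.mem_nonunits_iff] at hx ⊢
  rw [map_mul]
  have hy' : V.valuation y ≤ 1 := (V.valuation_le_one_iff y).mpr hy
  calc V.valuation x * V.valuation y ≤ V.valuation x * 1 := mul_le_mul_right hy' _
    _ = V.valuation x := mul_one _
    _ < 1 := hx

theorem mul_mem_nonunits_right {x y : K} (hx : x ∈ V) (hy : y ∈ V.nonunits) :
    x * y ∈ V.nonunits := by
  rw [mul_comm]; exact mul_mem_nonunits_left V hy hx

theorem add_mem_nonunits {x y : K} (hx : x ∈ V.nonunits) (hy : y ∈ V.nonunits) :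
    x + y ∈ V.nonunits := by
  rw [ValuationSubring.mem_nonunits_iff] at hx hy ⊢
  exact Valuation.map_add_lt _ hx hy

theorem neg_mem_nonunits {x : K} (hx : x ∈ V.nonunits) : -x ∈ V.nonunits := by
  rw [ValuationSubring.mem_nonunits_iff] at hx ⊢
  rwa [Valuation.map_neg]

theorem sub_mem_nonunits {x y : K} (hx : x ∈ V.nonunits) (hy : y ∈ V.nonunits) :
    x - y ∈ V.nonunits := by
  rw [sub_eq_add_neg]; exact add_mem_nonunits V hx (neg_mem_nonunits V hy)

theorem mem_of_mem_nonunits {x : K} (hx : x ∈ V.nonunits) : x ∈ V := by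
  rw [ValuationSubring.mem_nonunits_iff] at hx
  exact (V.valuation_le_one_iff x).mp hx.le

theorem inv_mem_of_notMem_nonunits {x : K} (hx : x ∉ V.nonunits) : x⁻¹ ∈ V := by
  rw [ValuationSubring.mem_nonunits_iff_or] at hx
  push Not at hx
  exact hx.2

theorem zero_mem_nonunits : (0 : K) ∈ V.nonunits := by
  rw [ValuationSubring.mem_nonunits_iff_or]; left; rfl

/-- `x` is a principal unit of `V`. -/
def IsOneUnit (x : K) : Prop := x - 1 ∈ V.nonunits

theorem IsOneUnit.one : IsOneUnit V 1 := by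
  unfold IsOneUnit; rw [sub_self]; exact zero_mem_nonunits V

theorem IsOneUnit.mem {x : K} (h : IsOneUnit V x) : x ∈ V := by
  have : x = (x - 1) + 1 := by ring
  rw [this]; exact V.add_mem _ _ (mem_of_mem_nonunits V h) V.one_mem

theorem IsOneUnit.mul {x y : K} (hx : IsOneUnit V x) (hy : IsOneUnit V y) :
    IsOneUnit V (x * y) := by
  unfold IsOneUnit at *
  have : x * y - 1 = (x - 1) * y + (y - 1) := by ring
  rw [this]
  exact add_mem_nonunits V (mul_mem_nonunits_left V hx (IsOneUnit.mem V hy)) hy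

theorem IsOneUnit.valuation_eq {x : K} (h : IsOneUnit V x) : V.valuation x = 1 := by
  have h1 : V.valuation (x - 1) < 1 := (V.mem_nonunits_iff).mp h
  have : x = 1 + (x - 1) := by ring
  rw [this]
  exact (V.valuation).map_one_add_of_lt h1

theorem IsOneUnit.ne_zero {x : K} (h : IsOneUnit V x) : x ≠ 0 := by
  rintro rfl
  have := IsOneUnit.valuation_eq V h
  simp at this

theorem IsOneUnit.inv {x : K} (h : IsOneUnit V x) : IsOneUnit V x⁻¹ := by
  have hx0 := IsOneUnit.ne_zero V h
  have hv := IsOneUnit.valuation_eq V h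
  have hinv : x⁻¹ ∈ V := by
    rw [← V.valuation_le_one_iff, map_inv₀, hv, inv_one]
  unfold IsOneUnit at *
  have : x⁻¹ - 1 = -((x - 1) * x⁻¹) := by field_simp; ring
  rw [this]
  exact neg_mem_nonunits V (mul_mem_nonunits_left V h hinv)

theorem IsOneUnit.zpow {x : K} (h : IsOneUnit V x) (k : ℤ) : IsOneUnit V (x ^ k) := by
  have hpow : ∀ m : ℕ, IsOneUnit V (x ^ m) := by
    intro m
    induction m with
    | zero => rw [pow_zero]; exact IsOneUnit.one V
    | succ m ih => rw [pow_succ]; exact IsOneUnit.mul V ih h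
  cases k with
  | ofNat m => simpa using hpow m
  | negSucc m => rw [zpow_negSucc]; exact IsOneUnit.inv V (hpow _)

end VS

/-! ### The order at a prime element of a UFD: complements to `H08.pOrd` -/

section POrd

variable {R K : Type*} [CommRing R] [IsDomain R] [UniqueFactorizationMonoid R]
  [Field K] [Algebra R K] [IsFractionRing R K]

theorem pOrd_one {p : R} (hp : Prime p) : pOrd p (1 : K) = 0 := by
  have h := pOrd_mul (K := K) hp (one_ne_zero) (one_ne_zero)
  rw [mul_one] at h
  omega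

theorem pOrd_inv {p : R} (hp : Prime p) {x : K} (hx : x ≠ 0) : pOrd p x⁻¹ = - pOrd p x := by
  have h := pOrd_mul (K := K) hp hx (inv_ne_zero hx)
  rw [mul_inv_cancel₀ hx, pOrd_one hp] at h
  omega

theorem pOrd_pow {p : R} (hp : Prime p) {x : K} (hx : x ≠ 0) (k : ℕ) :
    pOrd p (x ^ k) = k * pOrd p x := by
  induction k with
  | zero => simp [pOrd_one hp]
  | succ k ih =>
    rw [pow_succ, pOrd_mul hp (pow_ne_zero k hx) hx, ih]
    push_cast; ring

theorem pOrd_zpow {p : R} (hp : Prime p) {x : K} (hx : x ≠ 0) (k : ℤ) :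
    pOrd p (x ^ k) = k * pOrd p x := by
  cases k with
  | ofNat k => simpa using pOrd_pow hp hx k
  | negSucc k =>
    rw [zpow_negSucc, pOrd_inv hp (pow_ne_zero _ hx), pOrd_pow hp hx, Int.negSucc_eq]
    push_cast; ring

theorem pOrd_prod {p : R} (hp : Prime p) {ι : Type*} (s : Finset ι) (f : ι → K)
    (hf : ∀ i ∈ s, f i ≠ 0) : pOrd p (∏ i ∈ s, f i) = ∑ i ∈ s, pOrd p (f i) := by
  classical
  induction s using Finset.induction_on with
  | empty => simp [pOrd_one hp]
  | insert a s ha ih =>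
    rw [Finset.prod_insert ha, Finset.sum_insert ha,
      pOrd_mul hp (hf a (Finset.mem_insert_self a s))
        (Finset.prod_ne_zero_iff.mpr fun i hi => hf i (Finset.mem_insert_of_mem hi)),
      ih fun i hi => hf i (Finset.mem_insert_of_mem hi)]

theorem pOrd_algebraMap_of_not_dvd {p a : R} (hp : Prime p) (ha : ¬ p ∣ a) :
    pOrd p (algebraMap R K a) = 0 := by
  have ha0 : a ≠ 0 := fun h => ha (h ▸ dvd_zero p)
  rw [pOrd_algebraMap hp ha0, multiplicity_eq_zero.mpr ha]
  rfl

theorem pOrd_algebraMap_pos {p a : R} (hp : Prime p) (ha0 : a ≠ 0) (ha : p ∣ a) :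
    0 < pOrd p (algebraMap R K a) := by
  rw [pOrd_algebraMap hp ha0]
  have : multiplicity p a ≠ 0 := fun h => (multiplicity_eq_zero.mp h) ha
  omega

theorem pOrd_self {p : R} (hp : Prime p) : pOrd p (algebraMap R K p) = 1 := by
  rw [pOrd_algebraMap hp hp.ne_zero, multiplicity_self]
  rfl

omit [IsDomain R] [UniqueFactorizationMonoid R] in
theorem pOrd_associated {p q : R} (h : Associated p q) (x : K) : pOrd p x = pOrd q x := by
  unfold pOrd
  rw [multiplicity_eq_of_associated_left h, multiplicity_eq_of_associated_left h]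

theorem exists_frac_of_nonneg {p : R} (hp : Prime p) {x : K} (hx : x ≠ 0) (h : 0 ≤ pOrd p x) :
    ∃ a b : R, a ≠ 0 ∧ ¬ p ∣ b ∧ x * algebraMap R K b = algebraMap R K a := by
  have hinj := IsFractionRing.injective R K
  obtain ⟨a, b, hab, hxab⟩ := IsFractionRing.exists_reduced_fraction (A := R) x
  have hb0 : (b : R) ≠ 0 := nonZeroDivisors.coe_ne_zero b
  have hxb : x * algebraMap R K b = algebraMap R K a := by
    rw [← hxab]; exact IsLocalization.mk'_spec K a b
  have ha0 : a ≠ 0 := by
    rintro rfl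
    rw [map_zero] at hxb
    rcases mul_eq_zero.mp hxb with h1 | h1
    · exact hx h1
    · exact hb0 (hinj (by rw [h1, map_zero]))
  refine ⟨a, b, ha0, ?_, hxb⟩
  intro hpb
  have hpa : ¬ p ∣ a := fun hpa => hp.not_isUnit (hab hpa hpb)
  rw [pOrd_eq hp ha0 hb0 hxb, multiplicity_eq_zero.mpr hpa] at h
  have : multiplicity p (b : R) ≠ 0 := fun h0 => (multiplicity_eq_zero.mp h0) hpb
  simp only [Nat.cast_zero, zero_sub] at h
  omega

theorem exists_frac_of_pos {p : R} (hp : Prime p) {x : K} (hx : x ≠ 0) (h : 0 < pOrd p x) :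
    ∃ a b : R, p ∣ a ∧ ¬ p ∣ b ∧ x * algebraMap R K b = algebraMap R K a := by
  obtain ⟨a, b, ha0, hb, hxb⟩ := exists_frac_of_nonneg hp hx h.le
  refine ⟨a, b, ?_, hb, hxb⟩
  by_contra hpa
  have hb0 : b ≠ 0 := fun h0 => hb (h0 ▸ dvd_zero p)
  rw [pOrd_eq hp ha0 hb0 hxb, multiplicity_eq_zero.mpr hpa, multiplicity_eq_zero.mpr hb] at h
  simp at h

theorem exists_unit_of_pOrd_eq_zero {x : K} (hx : x ≠ 0)
    (h : ∀ p : R, Prime p → pOrd p x = 0) : ∃ w : Rˣ, x = algebraMap R K w := by
  obtain ⟨w, g, _, hfw⟩ := exists_unit_mul_pow (R := R) 0 x hx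
    (fun p hp => by rw [h p hp]; exact dvd_zero _)
  exact ⟨w, by rw [hfw, pow_zero, mul_one]⟩

/-- The valuation subring of a prime element. -/
noncomputable def ordRing {p : R} (hp : Prime p) : ValuationSubring K :=
  ordSubring (pOrd p) (fun _ _ hx hy => pOrd_mul hp hx hy)
    (fun _ _ hx hy hxy => pOrd_add hp hx hy hxy)

theorem mem_ordRing {p : R} (hp : Prime p) {x : K} :
    x ∈ ordRing (K := K) hp ↔ x = 0 ∨ 0 ≤ pOrd p x := Iff.rfl

theorem algebraMap_mem_ordRing {p : R} (hp : Prime p) (r : R) :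
    algebraMap R K r ∈ ordRing (K := K) hp := by
  rw [mem_ordRing]
  by_cases hr : r = 0
  · left; rw [hr, map_zero]
  · right; exact pOrd_algebraMap_nonneg hp hr

theorem mem_nonunits_ordRing {p : R} (hp : Prime p) {x : K} :
    x ∈ (ordRing (K := K) hp).nonunits ↔ x = 0 ∨ 0 < pOrd p x := by
  rw [ValuationSubring.mem_nonunits_iff_or]
  by_cases hx : x = 0
  · simp [hx]
  · rw [mem_ordRing, pOrd_inv hp hx]
    simp only [hx, inv_eq_zero, false_or]
    omega

theorem ordRing_congr {p q : R} (hp : Prime p) (hq : Prime q) (h : Associated p q) :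
    ordRing (K := K) hp = ordRing hq := by
  ext x
  rw [mem_ordRing, mem_ordRing, pOrd_associated h]

end POrd

/-! ### The local core: a UFD local ring `R` inside the Gauss valuation ring -/

section LocalCore

variable {R K : Type*} [CommRing R] [IsDomain R] [IsLocalRing R] [Field K] [Algebra R K]
  [IsFractionRing R K]

omit [IsDomain R] [IsLocalRing R] [IsFractionRing R K] in
theorem algebraMap_units_inv (η : Rˣ) :
    algebraMap R K ((η⁻¹ : Rˣ) : R) = (algebraMap R K (η : R))⁻¹ := by
  have h1 : algebraMap R K ((η⁻¹ : Rˣ) : R) * algebraMap R K (η : R) = 1 := by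
    rw [← map_mul, Units.inv_mul, map_one]
  exact eq_inv_of_mul_eq_one_left h1

omit [IsDomain R] [IsLocalRing R] [IsFractionRing R K] in
theorem algebraMap_units_zpow (η : Rˣ) (k : ℤ) :
    algebraMap R K ((η ^ k : Rˣ) : R) = algebraMap R K (η : R) ^ k := by
  cases k with
  | ofNat m => simp
  | negSucc m =>
    rw [zpow_negSucc, zpow_negSucc, algebraMap_units_inv, Units.val_pow_eq_pow_val, map_pow]

omit [IsDomain R] [Field K] [Algebra R K] [IsFractionRing R K] in
/-- Two elements of the maximal ideal which, each together with `π`, generate the maximal ideal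
are congruent modulo `π` up to a unit. -/
theorem exists_unit_congr {π g g' : R} (hπ : Prime π) (hg'π : ¬ π ∣ g')
    (hgmem : g ∈ maximalIdeal R) (hg'mem : g' ∈ maximalIdeal R)
    (hgm : ∀ x ∈ maximalIdeal R, x ∈ Ideal.span {π, g})
    (hg'm : ∀ x ∈ maximalIdeal R, x ∈ Ideal.span {π, g'}) :
    ∃ η : Rˣ, π ∣ g' - η * g := by
  obtain ⟨a, b, hab⟩ := Ideal.mem_span_pair.mp (hgm g' hg'mem)
  have hb : IsUnit b := by
    by_contra hb
    have hbm : b ∈ maximalIdeal R := (IsLocalRing.mem_maximalIdeal b).mpr hb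
    obtain ⟨c, e, hce⟩ := Ideal.mem_span_pair.mp (hg'm b hbm)
    have h1 : π ∣ g' * (1 - e * g) := ⟨a + c * g, by linear_combination (-1 : R) * hab - g * hce⟩
    rcases hπ.dvd_or_dvd h1 with h2 | h2
    · exact hg'π h2
    · have hπm : π ∈ maximalIdeal R := (IsLocalRing.mem_maximalIdeal π).mpr hπ.not_isUnit
      have h3 : 1 - e * g ∈ maximalIdeal R := by
        obtain ⟨k, hk⟩ := h2
        rw [hk]; exact Ideal.mul_mem_right _ _ hπm
      have h4 : (1 : R) ∈ maximalIdeal R := by
        have : (1 : R) = (1 - e * g) + e * g := by ring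
        rw [this]; exact Ideal.add_mem _ h3 (Ideal.mul_mem_left _ _ hgmem)
      exact (Ideal.ne_top_iff_one _).mp (IsLocalRing.maximalIdeal.isMaximal R).ne_top h4
  obtain ⟨η, rfl⟩ := hb
  exact ⟨η, ⟨a, by linear_combination (-1 : R) * hab⟩⟩

/-- **Local core.**  `R` a local UFD inside the valuation ring `V` with `R ∩ m_V = πR`, `u` a
unit of `V` whose divisor away from `π` is `∑ d i • (g i)` with `(π, g i)` the maximal ideal for
every `i` and `∑ d i = 0`.  Then `u` is congruent modulo `m_V` to a unit of `R`. -/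
theorem local_core [UniqueFactorizationMonoid R] {π : R} (hπ : Prime π)
    (V : ValuationSubring K) (hRV : ∀ r : R, algebraMap R K r ∈ V)
    (hπV : algebraMap R K π ∈ V.nonunits)
    (hsatR : ∀ r : R, algebraMap R K r ∈ V.nonunits → π ∣ r)
    {u : K} (hu : u ∈ V) (hu' : u⁻¹ ∈ V) (hu0 : u ≠ 0)
    {ι : Type*} (T : Finset ι) (g : ι → R) (d : ι → ℤ)
    (hg : ∀ i ∈ T, Prime (g i)) (hgπ : ∀ i ∈ T, ¬ π ∣ g i)
    (hgm : ∀ i ∈ T, ∀ x ∈ maximalIdeal R, x ∈ Ideal.span {π, g i})
    (hord : ∀ p : R, Prime p → ¬ π ∣ p →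
      pOrd p u = ∑ i ∈ T, d i * pOrd p (algebraMap R K (g i)))
    (hsum : ∑ i ∈ T, d i = 0) :
    ∃ ε : Rˣ, u - algebraMap R K ε ∈ V.nonunits := by
  classical
  have hinj := IsFractionRing.injective R K
  have hgK : ∀ i ∈ T, algebraMap R K (g i) ≠ 0 := fun i hi h =>
    (hg i hi).ne_zero (hinj (by rw [h, map_zero]))
  -- Step 1: `u` has order `0` at `π`
  have hπu : pOrd π u = 0 := by
    obtain ⟨a, b, hab, hxab⟩ := IsFractionRing.exists_reduced_fraction (A := R) u
    have hb0 : (b : R) ≠ 0 := nonZeroDivisors.coe_ne_zero b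
    have hub : u * algebraMap R K b = algebraMap R K a := by
      rw [← hxab]; exact IsLocalization.mk'_spec K a b
    have ha0 : a ≠ 0 := by
      rintro rfl
      rw [map_zero] at hub
      rcases mul_eq_zero.mp hub with h1 | h1
      · exact hu0 h1
      · exact hb0 (hinj (by rw [h1, map_zero]))
    have hπa : ¬ π ∣ a := by
      intro hπa
      have hπb : ¬ π ∣ (b : R) := fun hπb => hπ.not_isUnit (hab hπa hπb)
      apply hπb
      apply hsatR
      have h1 : algebraMap R K a ∈ V.nonunits := by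
        obtain ⟨c, rfl⟩ := hπa
        rw [map_mul]; exact mul_mem_nonunits_left V hπV (hRV c)
      have h2 : algebraMap R K (b : R) = u⁻¹ * algebraMap R K a := by
        rw [← hub]; field_simp
      rw [h2]; exact mul_mem_nonunits_right V hu' h1
    have hπb : ¬ π ∣ (b : R) := by
      intro hπb
      apply hπa
      apply hsatR
      rw [← hub]
      obtain ⟨c, hc⟩ := hπb
      rw [hc, map_mul]
      exact mul_mem_nonunits_right V hu (mul_mem_nonunits_left V hπV (hRV c))
    rw [pOrd_eq hπ ha0 hb0 hub, multiplicity_eq_zero.mpr hπa, multiplicity_eq_zero.mpr hπb]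
    simp
  -- Step 2: `u = ε0 * w`
  set w : K := ∏ i ∈ T, algebraMap R K (g i) ^ d i with hw
  have hw0 : w ≠ 0 := Finset.prod_ne_zero_iff.mpr fun i hi => zpow_ne_zero _ (hgK i hi)
  have hpw : ∀ p : R, Prime p →
      pOrd p w = ∑ i ∈ T, d i * pOrd p (algebraMap R K (g i)) := by
    intro p hp
    rw [hw, pOrd_prod hp T _ (fun i hi => zpow_ne_zero _ (hgK i hi))]
    exact Finset.sum_congr rfl fun i hi => pOrd_zpow hp (hgK i hi) (d i)
  have hkey : ∀ p : R, Prime p → pOrd p (u / w) = 0 := by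
    intro p hp
    rw [div_eq_mul_inv, pOrd_mul hp hu0 (inv_ne_zero hw0), pOrd_inv hp hw0, hpw p hp]
    by_cases hπp : π ∣ p
    · have hass : Associated π p := (hπ.dvd_prime_iff_associated hp).mp hπp
      have h1 : pOrd p u = 0 := by rw [← pOrd_associated hass, hπu]
      have h2 : ∀ i ∈ T, d i * pOrd p (algebraMap R K (g i)) = 0 := by
        intro i hi
        rw [pOrd_algebraMap_of_not_dvd hp (fun h => hgπ i hi (hπp.trans h)), mul_zero]
      rw [h1, Finset.sum_eq_zero h2]; simp
    · rw [hord p hp hπp]; ring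
  obtain ⟨ε0, hε0⟩ := exists_unit_of_pOrd_eq_zero (R := R) (div_ne_zero hu0 hw0) hkey
  have huw : u = algebraMap R K ε0 * w := by rw [← hε0]; field_simp
  -- Step 3
  rcases T.eq_empty_or_nonempty with hT | ⟨i0, hi0⟩
  · refine ⟨ε0, ?_⟩
    rw [huw, hw, hT, Finset.prod_empty, mul_one, sub_self]
    exact zero_mem_nonunits V
  · set γ : K := algebraMap R K (g i0) with hγ
    have hmem : ∀ i ∈ T, g i ∈ maximalIdeal R := fun i hi =>
      (IsLocalRing.mem_maximalIdeal _).mpr (hg i hi).not_isUnit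
    have hγinv : γ⁻¹ ∈ V := inv_mem_of_notMem_nonunits V (fun h => hgπ i0 hi0 (hsatR _ h))
    have hγ0 : γ ≠ 0 := hgK i0 hi0
    have hfac : ∀ i ∈ T, ∃ e r : K, (∃ η : Rˣ, e = algebraMap R K η) ∧ IsOneUnit V r ∧
        algebraMap R K (g i) = e * r * γ := by
      intro i hi
      obtain ⟨η, s, hs⟩ := exists_unit_congr hπ (hgπ i hi) (hmem i0 hi0) (hmem i hi)
        (hgm i0 hi0) (hgm i hi)
      have hηK : algebraMap R K (η : R) ≠ 0 := fun h =>
        η.ne_zero (hinj (by rw [h, map_zero]))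
      have h2 : algebraMap R K ((η⁻¹ : Rˣ) : R) = (algebraMap R K η)⁻¹ :=
        algebraMap_units_inv η
      refine ⟨algebraMap R K η, algebraMap R K (g i) / (algebraMap R K η * γ), ⟨η, rfl⟩, ?_, ?_⟩
      · unfold IsOneUnit
        have h1 : algebraMap R K (g i) =
            algebraMap R K η * γ + algebraMap R K π * algebraMap R K s := by
          rw [hγ, ← map_mul, ← map_mul, ← map_add, ← hs]; congr 1; ring
        have h3 : algebraMap R K (g i) / (algebraMap R K η * γ) - 1 =
            algebraMap R K π *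
              (algebraMap R K s * algebraMap R K ((η⁻¹ : Rˣ) : R) * γ⁻¹) := by
          rw [h1, h2]; field_simp; ring
        rw [h3]
        exact mul_mem_nonunits_left V hπV
          (V.mul_mem _ _ (V.mul_mem _ _ (hRV _) (hRV _)) hγinv)
      · field_simp
    have hind : ∀ T' : Finset ι, T' ⊆ T → ∃ e r : K, (∃ η : Rˣ, e = algebraMap R K η) ∧
        IsOneUnit V r ∧
        ∏ i ∈ T', algebraMap R K (g i) ^ d i = e * r * γ ^ (∑ i ∈ T', d i) := by
      intro T'
      induction T' using Finset.induction_on with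
      | empty => intro _; exact ⟨1, 1, ⟨1, by simp⟩, IsOneUnit.one V, by simp⟩
      | insert j T' hj ih =>
        intro hsub
        obtain ⟨e, r, ⟨η, he⟩, hr, hprod⟩ := ih (fun i hi => hsub (Finset.mem_insert_of_mem hi))
        obtain ⟨e', r', ⟨η', he'⟩, hr', hgj⟩ := hfac j (hsub (Finset.mem_insert_self j T'))
        refine ⟨e' ^ d j * e, r' ^ d j * r, ⟨η' ^ d j * η, ?_⟩,
          IsOneUnit.mul V (IsOneUnit.zpow V hr' _) hr, ?_⟩
        · rw [Units.val_mul, map_mul, he, he', algebraMap_units_zpow]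
        · rw [Finset.prod_insert hj, Finset.sum_insert hj, hprod, hgj, mul_zpow, mul_zpow,
            zpow_add₀ hγ0]
          ring
    obtain ⟨e, r, ⟨η, he⟩, hr, hprod⟩ := hind T (Finset.Subset.refl T)
    rw [hsum, zpow_zero, mul_one] at hprod
    refine ⟨ε0 * η, ?_⟩
    have h4 : u - algebraMap R K ((ε0 * η : Rˣ) : R) =
        algebraMap R K ((ε0 * η : Rˣ) : R) * (r - 1) := by
      rw [huw, hw, hprod, he, Units.val_mul, map_mul]; ring
    rw [h4]
    exact mul_mem_nonunits_right V (hRV _) hr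

end LocalCore

/-! ### Valuation rings centred on a local UFD -/

section Center

variable {R K : Type*} [CommRing R] [IsDomain R] [Field K] [Algebra R K] [IsFractionRing R K]

/-- A valuation ring `O ≠ K` containing the regular local ring `R` (maximal ideal `(π, τ)`) in
which `π` is invertible is centred at a principal prime `(g)` of `R`. -/
theorem exists_prime_center [IsNoetherianRing R] [IsLocalRing R] {π τ : R} (hπ : Prime π)
    (hmax : maximalIdeal R = Ideal.span {π, τ})
    (O : ValuationSubring K) (hRO : ∀ r : R, algebraMap R K r ∈ O)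
    (hπO : (algebraMap R K π)⁻¹ ∈ O) {t : K} (ht0 : t ≠ 0) (ht : t ∈ O.nonunits) :
    ∃ g : R, Prime g ∧ ¬ π ∣ g ∧ ∀ r : R, algebraMap R K r ∈ O.nonunits ↔ g ∣ r := by
  have hinj := IsFractionRing.injective R K
  have hufm : UniqueFactorizationMonoid R := ufm_of_maximalIdeal_eq_span_pair hπ hmax
  let φ : R →+* O := (algebraMap R K).codRestrict O hRO
  let q : Ideal R := Ideal.comap φ (maximalIdeal O)
  have hq : ∀ r : R, r ∈ q ↔ algebraMap R K r ∈ O.nonunits := by
    intro r
    rw [ValuationSubring.mem_nonunits_iff_exists_mem_maximalIdeal]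
    constructor
    · intro h; exact ⟨hRO r, h⟩
    · rintro ⟨_, h⟩; exact h
  have hqprime : q.IsPrime := Ideal.comap_isPrime φ _
  have hπq : π ∉ q := by
    rw [hq, ValuationSubring.mem_nonunits_iff_or]
    push Not
    exact ⟨fun h => hπ.ne_zero (hinj (by rw [h, map_zero])), hπO⟩
  obtain ⟨a, b, ha0, _, hab⟩ := exists_frac (R := R) t ht0
  have haq : a ∈ q := by
    rw [hq, ← hab]; exact mul_mem_nonunits_left O ht (hRO b)
  obtain ⟨g, hg⟩ := isPrincipal_of_notMem hπ hmax q hπq
  rw [Ideal.submodule_span_eq] at hg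
  have hg0 : g ≠ 0 := by
    rintro rfl
    rw [hg] at haq
    simp at haq
    exact ha0 haq
  have hgprime : Prime g := by
    rw [← Ideal.span_singleton_prime hg0, ← hg]; exact hqprime
  refine ⟨g, hgprime, ?_, ?_⟩
  · rintro ⟨c, hc⟩
    rcases hgprime.irreducible.isUnit_or_isUnit hc with h | h
    · exact hπ.not_isUnit h
    · apply hπq
      have hgq : g ∈ q := by rw [hg]; exact Ideal.mem_span_singleton_self g
      obtain ⟨c', hc'⟩ := h.exists_right_inv
      have : π = g * c' := by rw [hc, mul_assoc, hc', mul_one]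
      rw [this]; exact Ideal.mul_mem_right _ _ hgq
  · intro r
    rw [← hq, hg, Ideal.mem_span_singleton]

variable [UniqueFactorizationMonoid R]

/-- A valuation ring containing `R` whose centre on `R` is `(g)` is the valuation ring of `g`. -/
theorem ordRing_eq_of_center (O : ValuationSubring K) (hRO : ∀ r : R, algebraMap R K r ∈ O)
    {g : R} (hg : Prime g) (hgO : ∀ r : R, algebraMap R K r ∈ O.nonunits ↔ g ∣ r) :
    ordRing (K := K) hg = O := by
  ext x
  by_cases hx : x = 0
  · rw [hx]; exact ⟨fun _ => O.zero_mem, fun _ => (ordRing hg).zero_mem⟩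
  constructor
  · intro h
    rw [mem_ordRing] at h
    obtain ⟨a, b, _, hb, hab⟩ := exists_frac_of_nonneg hg hx (h.resolve_left hx)
    have hbinv : (algebraMap R K b)⁻¹ ∈ O :=
      inv_mem_of_notMem_nonunits O (fun h => hb ((hgO b).mp h))
    have hb0 : algebraMap R K b ≠ 0 := by
      intro h0
      apply hb
      have : b = 0 := IsFractionRing.injective R K (by rw [h0, map_zero])
      rw [this]; exact dvd_zero g
    have : x = algebraMap R K a * (algebraMap R K b)⁻¹ := by
      rw [← hab]; field_simp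
    rw [this]; exact O.mul_mem _ _ (hRO a) hbinv
  · intro h
    rw [mem_ordRing]
    right
    by_contra hneg
    push Not at hneg
    have hpos : 0 < pOrd g x⁻¹ := by rw [pOrd_inv hg hx]; omega
    obtain ⟨a, b, ha, hb, hab⟩ := exists_frac_of_pos hg (inv_ne_zero hx) hpos
    have hbinv : (algebraMap R K b)⁻¹ ∈ O :=
      inv_mem_of_notMem_nonunits O (fun h => hb ((hgO b).mp h))
    have hb0 : algebraMap R K b ≠ 0 := by
      intro h0
      apply hb
      have : b = 0 := IsFractionRing.injective R K (by rw [h0, map_zero])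
      rw [this]; exact dvd_zero g
    have hxinv : x⁻¹ = algebraMap R K a * (algebraMap R K b)⁻¹ := by
      rw [← hab]; field_simp
    have h1 : x⁻¹ ∈ O.nonunits := by
      rw [hxinv]; exact mul_mem_nonunits_left O ((hgO a).mpr ha) hbinv
    rw [ValuationSubring.mem_nonunits_iff_or, inv_inv] at h1
    rcases h1 with h1 | h1
    · exact inv_ne_zero hx h1
    · exact h1 h

theorem pOrd_eq_one_of_uniformiser {g : R} (hg : Prime g) {t : K} (ht0 : t ≠ 0)
    (ht : t ∈ (ordRing (K := K) hg).nonunits)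
    (htgen : ∀ x ∈ (ordRing (K := K) hg).nonunits, ∃ y ∈ ordRing (K := K) hg, x = t * y) :
    pOrd g t = 1 := by
  have h1 : 0 < pOrd g t := ((mem_nonunits_ordRing hg).mp ht).resolve_left ht0
  have hgK : algebraMap R K g ≠ 0 := fun h =>
    hg.ne_zero (IsFractionRing.injective R K (by rw [h, map_zero]))
  have h2 : algebraMap R K g ∈ (ordRing (K := K) hg).nonunits := by
    rw [mem_nonunits_ordRing]; right; rw [pOrd_self hg]; exact one_pos
  obtain ⟨y, hy, hgy⟩ := htgen _ h2
  have hy0 : y ≠ 0 := by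
    rintro rfl
    rw [mul_zero] at hgy
    exact hgK hgy
  have h3 : 0 ≤ pOrd g y := ((mem_ordRing hg).mp hy).resolve_left hy0
  have h4 := pOrd_mul (K := K) hg ht0 hy0
  rw [← hgy, pOrd_self hg] at h4
  omega

theorem pOrd_eq_of_unit_mul_zpow {g : R} (hg : Prime g) {u t : K} (hu0 : u ≠ 0) (ht0 : t ≠ 0)
    (ht1 : pOrd g t = 1) (d : ℤ)
    (h : u * t ^ (-d) ∈ ordRing (K := K) hg ∧ (u * t ^ (-d))⁻¹ ∈ ordRing (K := K) hg) :
    pOrd g u = d := by
  have hw0 : u * t ^ (-d) ≠ 0 := mul_ne_zero hu0 (zpow_ne_zero _ ht0)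
  have h1 : 0 ≤ pOrd g (u * t ^ (-d)) := ((mem_ordRing hg).mp h.1).resolve_left hw0
  have h2 : 0 ≤ pOrd g (u * t ^ (-d))⁻¹ :=
    ((mem_ordRing hg).mp h.2).resolve_left (inv_ne_zero hw0)
  rw [pOrd_inv hg hw0] at h2
  have h3 := pOrd_mul (K := K) hg hu0 (zpow_ne_zero (-d) ht0)
  rw [pOrd_zpow hg ht0, ht1] at h3
  omega

end Center

/-! ### The chart: one closed point of the special fibre -/

section Chart

variable {A B F : Type*} [CommRing A] [IsDomain A] [IsDiscreteValuationRing A]
  [CommRing B] [IsDomain B] [IsNoetherianRing B] [Field F]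
  [Algebra A B] [Algebra A F] [Algebra B F] [IsScalarTower A B F] [IsFractionRing B F]

/-- **(UNIT'), local form.**  At a closed point `n` of the special fibre of the chart `B`: if the
rational sections through `n` in the divisor of the Gauss unit `u` have total weight `0`, then the
reduction of `u` is a unit at `n`: `u e ≡ c` modulo `m_V` with `c, e ∉ n`. -/
theorem chart_local {ϖ : A} (hϖ : Irreducible ϖ) (hinjA : Function.Injective (algebraMap A F))
    (hπ : Prime (algebraMap A B ϖ)) (hreg : RegAt (algebraMap A B ϖ))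
    (V : ValuationSubring F) (hBV : ∀ b : B, algebraMap B F b ∈ V)
    (hπV : algebraMap A F ϖ ∈ V.nonunits)
    (hsat : ∀ b : B, algebraMap B F b ∈ V.nonunits → algebraMap A B ϖ ∣ b)
    {u : F} (hu0 : u ≠ 0) (hu : u ∈ V) (hu' : u⁻¹ ∈ V)
    {ι : Type*} (S : Finset ι) (O : ι → ValuationSubring F) (t : ι → F) (d : ι → ℤ)
    (hOinj : ∀ i ∈ S, ∀ j ∈ S, O i = O j → i = j)
    (hO : ∀ i ∈ S, (algebraMap A F ϖ)⁻¹ ∈ O i)
    (ht : ∀ i ∈ S, t i ≠ 0 ∧ t i ∈ (O i).nonunits ∧
      ∀ x ∈ (O i).nonunits, ∃ y ∈ O i, x = t i * y)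
    (hrat : ∀ i ∈ S, ∀ b : B, algebraMap B F b ∈ O i → ∃ a a' : A, a' ≠ 0 ∧
      algebraMap B F b - algebraMap A F a / algebraMap A F a' ∈ (O i).nonunits)
    (hordS : ∀ i ∈ S, u * t i ^ (- d i) ∈ O i ∧ (u * t i ^ (- d i))⁻¹ ∈ O i)
    (hord0 : ∀ O' : ValuationSubring F, (∀ b : B, algebraMap B F b ∈ O') →
      (∀ a : A, a ≠ 0 → (algebraMap A F a)⁻¹ ∈ O') → (∀ i ∈ S, O i ≠ O') → u ∈ O' ∧ u⁻¹ ∈ O')
    (n : Ideal B) (hn : n.IsMaximal) (hπn : algebraMap A B ϖ ∈ n)
    (T : Finset ι) (hT : ∀ i, i ∈ T ↔ i ∈ S ∧ (∀ b : B, algebraMap B F b ∈ O i) ∧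
      ∀ b : B, algebraMap B F b ∈ (O i).nonunits → b ∈ n)
    (hsum : ∑ i ∈ T, d i = 0) :
    ∃ c e : B, c ∉ n ∧ e ∉ n ∧ u * algebraMap B F e - algebraMap B F c ∈ V.nonunits := by
  classical
  have := hn
  set π : B := algebraMap A B ϖ with hπdef
  have hAF : ∀ a : A, algebraMap A F a = algebraMap B F (algebraMap A B a) := fun a =>
    IsScalarTower.algebraMap_apply A B F a
  have hinjBF : Function.Injective (algebraMap B F) := IsFractionRing.injective B F
  obtain ⟨τ, hτn, hτ⟩ := hreg n hn hπn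
  have hS : n.primeCompl ≤ nonZeroDivisors B := by
    intro x hx
    exact mem_nonZeroDivisors_of_ne_zero (fun h => hx (h ▸ n.zero_mem))
  let R := Localization.subalgebra.ofField F n.primeCompl hS
  have hloc : IsLocalization.AtPrime R n :=
    Localization.subalgebra.isLocalization_ofField F n.primeCompl hS
  have : IsLocalRing R := IsLocalization.AtPrime.isLocalRing R n
  have : IsNoetherianRing R := IsLocalization.isNoetherianRing n.primeCompl R inferInstance
  have hinjBR : Function.Injective (algebraMap B R) := IsLocalization.injective R hS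
  have hBRF : ∀ b : B, algebraMap R F (algebraMap B R b) = algebraMap B F b := fun b =>
    (IsScalarTower.algebraMap_apply B R F b).symm
  have hmax : maximalIdeal R = Ideal.span {algebraMap B R π, algebraMap B R τ} := by
    rw [← IsLocalization.AtPrime.map_eq_maximalIdeal n R]
    apply le_antisymm
    · rw [Ideal.map_le_iff_le_comap]
      intro x hx
      obtain ⟨s, hs, hsx⟩ := hτ x hx
      have h1 : algebraMap B R (s * x) ∈ Ideal.span {algebraMap B R π, algebraMap B R τ} := by
        have := Ideal.mem_map_of_mem (algebraMap B R) hsx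
        rwa [Ideal.map_span, Set.image_pair] at this
      rw [map_mul] at h1
      have hu : IsUnit (algebraMap B R s) := IsLocalization.map_units R (⟨s, hs⟩ : n.primeCompl)
      exact (Ideal.unit_mul_mem_iff_mem _ hu).mp h1
    · rw [Ideal.span_le]
      rintro y (rfl | rfl)
      · exact Ideal.mem_map_of_mem _ hπn
      · exact Ideal.mem_map_of_mem _ hτn
  have hdisj : Disjoint (n.primeCompl : Set B) (Ideal.span {π} : Ideal B) := by
    rw [Set.disjoint_left]
    intro x hx hx'
    exact hx ((Ideal.span_singleton_le_iff_mem _).mpr hπn hx')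
  have hπprime : (Ideal.span {π}).IsPrime := (Ideal.span_singleton_prime hπ.ne_zero).mpr hπ
  have hπ'0 : algebraMap B R π ≠ 0 := fun h => hπ.ne_zero (hinjBR (by rw [h, map_zero]))
  have hπ' : Prime (algebraMap B R π) := by
    have := IsLocalization.isPrime_of_isPrime_disjoint n.primeCompl R (Ideal.span {π}) hπprime hdisj
    rw [Ideal.map_span, Set.image_singleton] at this
    exact (Ideal.span_singleton_prime hπ'0).mp this
  have : UniqueFactorizationMonoid R := ufm_of_maximalIdeal_eq_span_pair hπ' hmax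
  have hmemn : ∀ b : B, algebraMap B R b ∈ maximalIdeal R ↔ b ∈ n := fun b =>
    IsLocalization.AtPrime.to_map_mem_maximal_iff R n b
  -- fractions
  have hfracR : ∀ r : R, ∃ b s : B, s ∉ n ∧
      algebraMap R F r * algebraMap B F s = algebraMap B F b ∧
      r * algebraMap B R s = algebraMap B R b := by
    intro r
    obtain ⟨b, s, hbs⟩ := IsLocalization.exists_mk'_eq n.primeCompl r
    have h1 : r * algebraMap B R s = algebraMap B R b := by
      rw [← hbs]; exact IsLocalization.mk'_spec R b s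
    refine ⟨b, s, s.2, ?_, h1⟩
    rw [← hBRF, ← hBRF, ← map_mul, h1]
  -- `R` inside a valuation ring whose centre on `B` lies in `n`
  have hRin : ∀ W : ValuationSubring F, (∀ b : B, algebraMap B F b ∈ W) →
      (∀ b : B, algebraMap B F b ∈ W.nonunits → b ∈ n) → ∀ r : R, algebraMap R F r ∈ W := by
    intro W hBW hcen r
    obtain ⟨b, s, hs, hrs, _⟩ := hfracR r
    have hsinv : (algebraMap B F s)⁻¹ ∈ W :=
      inv_mem_of_notMem_nonunits W (fun h => hs (hcen s h))
    have hs0 : algebraMap B F s ≠ 0 := by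
      intro h0
      apply hs
      have : s = 0 := hinjBF (by rw [h0, map_zero])
      rw [this]; exact n.zero_mem
    have : algebraMap R F r = algebraMap B F b * (algebraMap B F s)⁻¹ := by
      rw [← hrs]; field_simp
    rw [this]; exact W.mul_mem _ _ (hBW b) hsinv
  have hcenV : ∀ b : B, algebraMap B F b ∈ V.nonunits → b ∈ n := fun b hb => by
    obtain ⟨c, rfl⟩ := hsat b hb
    exact Ideal.mul_mem_right _ _ hπn
  have hRV : ∀ r : R, algebraMap R F r ∈ V := hRin V hBV hcenV
  have hπVR : algebraMap R F (algebraMap B R π) ∈ V.nonunits := by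
    rw [hBRF, hπdef, ← hAF]; exact hπV
  have hsatR : ∀ r : R, algebraMap R F r ∈ V.nonunits → algebraMap B R π ∣ r := by
    intro r hr
    obtain ⟨b, s, hs, hrs, hrs'⟩ := hfracR r
    have hb : algebraMap B F b ∈ V.nonunits := by
      rw [← hrs]; exact mul_mem_nonunits_left V hr (hBV s)
    obtain ⟨b', rfl⟩ := hsat b hb
    have hsu : IsUnit (algebraMap B R s) := IsLocalization.map_units R (⟨s, hs⟩ : n.primeCompl)
    obtain ⟨s', hs'⟩ := hsu.exists_right_inv
    refine ⟨algebraMap B R b' * s', ?_⟩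
    calc r = r * (algebraMap B R s * s') := by rw [hs', mul_one]
      _ = (r * algebraMap B R s) * s' := by ring
      _ = algebraMap B R π * (algebraMap B R b' * s') := by rw [hrs', map_mul]; ring
  -- the primes `g i`
  have hexg : ∀ i, ∃ gi : R, i ∈ T → (Prime gi ∧ ¬ algebraMap B R π ∣ gi ∧
      ∀ r : R, algebraMap R F r ∈ (O i).nonunits ↔ gi ∣ r) := by
    intro i
    by_cases hi : i ∈ T
    · obtain ⟨hiS, hBO, hcen⟩ := (hT i).mp hi
      have hπO : (algebraMap R F (algebraMap B R π))⁻¹ ∈ O i := by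
        rw [hBRF, hπdef, ← hAF]; exact hO i hiS
      obtain ⟨g, hg1, hg2, hg3⟩ := exists_prime_center hπ' hmax (O i) (hRin (O i) hBO hcen) hπO
        (ht i hiS).1 (ht i hiS).2.1
      exact ⟨g, fun _ => ⟨hg1, hg2, hg3⟩⟩
    · exact ⟨0, fun h => absurd h hi⟩
  choose g hg using hexg
  have hgO : ∀ i (hi : i ∈ T), ordRing (K := F) (hg i hi).1 = O i := by
    intro i hi
    obtain ⟨hiS, hBO, hcen⟩ := (hT i).mp hi
    exact ordRing_eq_of_center (O i) (hRin (O i) hBO hcen) (hg i hi).1 (hg i hi).2.2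
  have hgt : ∀ i (hi : i ∈ T), pOrd (g i) (t i) = 1 := by
    intro i hi
    obtain ⟨hiS, _, _⟩ := (hT i).mp hi
    have h1 := ht i hiS
    rw [← hgO i hi] at h1
    exact pOrd_eq_one_of_uniformiser (hg i hi).1 h1.1 h1.2.1 h1.2.2
  have hgu : ∀ i (hi : i ∈ T), pOrd (g i) u = d i := by
    intro i hi
    obtain ⟨hiS, _, _⟩ := (hT i).mp hi
    have h1 := hordS i hiS
    rw [← hgO i hi] at h1
    exact pOrd_eq_of_unit_mul_zpow (hg i hi).1 hu0 (ht i hiS).1 (hgt i hi) (d i) h1
  have hginj : ∀ i (hi : i ∈ T) j (hj : j ∈ T), Associated (g i) (g j) → i = j := by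
    intro i hi j hj hass
    apply hOinj i ((hT i).mp hi).1 j ((hT j).mp hj).1
    rw [← hgO i hi, ← hgO j hj]
    exact ordRing_congr _ _ hass
  -- rationality: values of `B` at the sections through `n` lie in `A`
  have hratA : ∀ i ∈ T, ∀ b : B, ∃ a : A,
      algebraMap B F (b - algebraMap A B a) ∈ (O i).nonunits := by
    intro i hi b
    obtain ⟨hiS, hBO, hcen⟩ := (hT i).mp hi
    obtain ⟨a, a', ha', hmem⟩ := hrat i hiS b (hBO b)
    have ha'F : algebraMap A F a' ≠ 0 := fun h => ha' (hinjA (by rw [h, map_zero]))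
    have hcase : ∀ c : A, a' * c = a → ∃ a : A,
        algebraMap B F (b - algebraMap A B a) ∈ (O i).nonunits := by
      intro c hc
      refine ⟨c, ?_⟩
      have : algebraMap A F a / algebraMap A F a' = algebraMap A F c := by
        rw [← hc, map_mul]; field_simp
      rw [map_sub, ← hAF, ← this]; exact hmem
    obtain ⟨c, hc | hc⟩ := ValuationRing.cond a' a
    · exact hcase c hc
    · by_cases hcu : IsUnit c
      · obtain ⟨c', hc'⟩ := hcu.exists_right_inv
        exact hcase c' (by rw [← hc, mul_assoc, hc', mul_one])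
      · exfalso
        have hcm : c ∈ maximalIdeal A := (IsLocalRing.mem_maximalIdeal c).mpr hcu
        rw [hϖ.maximalIdeal_eq, Ideal.mem_span_singleton] at hcm
        obtain ⟨c1, rfl⟩ := hcm
        have h1 : algebraMap A F (ϖ * c1) * (algebraMap A F a / algebraMap A F a') = 1 := by
          have hZ : algebraMap A F a' = algebraMap A F a * algebraMap A F (ϖ * c1) := by
            rw [← map_mul, hc]
          have hY : algebraMap A F a ≠ 0 := left_ne_zero_of_mul (hZ ▸ ha'F)
          have hX : algebraMap A F (ϖ * c1) ≠ 0 := right_ne_zero_of_mul (hZ ▸ ha'F)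
          rw [hZ]; field_simp
        have h2 : algebraMap B F (algebraMap A B (ϖ * c1) * b - 1) ∈ (O i).nonunits := by
          have : algebraMap B F (algebraMap A B (ϖ * c1) * b - 1) =
              algebraMap A F (ϖ * c1) *
                (algebraMap B F b - algebraMap A F a / algebraMap A F a') := by
            rw [mul_sub, h1, map_sub, map_mul, map_one, ← hAF]
          rw [this]
          exact mul_mem_nonunits_right (O i) (by rw [hAF]; exact hBO _) hmem
        have h3 := hcen _ h2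
        have h4 : algebraMap A B (ϖ * c1) * b ∈ n := by
          rw [map_mul, mul_assoc]; exact Ideal.mul_mem_right _ _ hπn
        have h5 : (1 : B) ∈ n := by
          have : (1 : B) = algebraMap A B (ϖ * c1) * b - (algebraMap A B (ϖ * c1) * b - 1) := by
            ring
          rw [this]; exact Ideal.sub_mem _ h4 h3
        exact (Ideal.ne_top_iff_one n).mp hn.ne_top h5
  have hgm : ∀ i ∈ T, ∀ x ∈ maximalIdeal R, x ∈ Ideal.span {algebraMap B R π, g i} := by
    intro i hi x hx
    obtain ⟨hiS, hBO, hcen⟩ := (hT i).mp hi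
    obtain ⟨b, s, hs, _, hxs⟩ := hfracR x
    have hbn : b ∈ n := by
      rw [← hmemn, ← hxs]; exact Ideal.mul_mem_right _ _ hx
    obtain ⟨a, ha⟩ := hratA i hi b
    have hba : b - algebraMap A B a ∈ n := hcen _ ha
    have han : algebraMap A B a ∈ n := by
      have : algebraMap A B a = b - (b - algebraMap A B a) := by ring
      rw [this]; exact Ideal.sub_mem _ hbn hba
    have hau : ¬ IsUnit a := fun h => by
      have h1 : IsUnit (algebraMap A B a) := h.map _
      exact hn.ne_top (Ideal.eq_top_of_isUnit_mem _ han h1)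
    have haϖ : ϖ ∣ a := by
      have : a ∈ maximalIdeal A := (IsLocalRing.mem_maximalIdeal a).mpr hau
      rwa [hϖ.maximalIdeal_eq, Ideal.mem_span_singleton] at this
    obtain ⟨a1, rfl⟩ := haϖ
    have hg1 : g i ∣ algebraMap B R (b - algebraMap A B (ϖ * a1)) := by
      rw [← (hg i hi).2.2, hBRF]; exact ha
    obtain ⟨r1, hr1⟩ := hg1
    have hsu : IsUnit (algebraMap B R s) := IsLocalization.map_units R (⟨s, hs⟩ : n.primeCompl)
    rw [← Ideal.mul_unit_mem_iff_mem _ hsu, hxs]
    have : algebraMap B R b = algebraMap B R (algebraMap A B a1) * algebraMap B R π +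
        r1 * g i := by
      have h2 : algebraMap B R b = algebraMap B R (b - algebraMap A B (ϖ * a1)) +
          algebraMap B R (algebraMap A B (ϖ * a1)) := by rw [← map_add]; congr 1; ring
      rw [h2, hr1, map_mul, map_mul, hπdef]; ring
    rw [this]
    exact Ideal.mem_span_pair.mpr ⟨_, _, rfl⟩
  -- the divisor of `u` at the primes of `R`
  have hordR : ∀ p : R, Prime p → ¬ algebraMap B R π ∣ p →
      pOrd p u = ∑ i ∈ T, d i * pOrd p (algebraMap R F (g i)) := by
    intro p hp hπp
    by_cases hex : ∃ i0 ∈ T, Associated p (g i0)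
    · obtain ⟨i0, hi0, hass⟩ := hex
      rw [Finset.sum_eq_single i0]
      · rw [pOrd_associated hass u, hgu i0 hi0, pOrd_associated hass, pOrd_self (hg i0 hi0).1,
          mul_one]
      · intro i hi hne
        have hnd : ¬ p ∣ g i := by
          intro hdvd
          have h1 : Associated p (g i) := (hp.dvd_prime_iff_associated (hg i hi).1).mp hdvd
          exact hne (hginj i hi i0 hi0 (h1.symm.trans hass))
        rw [pOrd_algebraMap_of_not_dvd hp hnd, mul_zero]
      · intro h; exact absurd hi0 h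
    · push Not at hex
      have hzero : ∑ i ∈ T, d i * pOrd p (algebraMap R F (g i)) = 0 := by
        apply Finset.sum_eq_zero
        intro i hi
        have hnd : ¬ p ∣ g i := fun hdvd =>
          hex i hi ((hp.dvd_prime_iff_associated (hg i hi).1).mp hdvd)
        rw [pOrd_algebraMap_of_not_dvd hp hnd, mul_zero]
      rw [hzero]
      -- the valuation ring of `p`
      have hBp : ∀ b : B, algebraMap B F b ∈ ordRing (K := F) hp := fun b => by
        rw [← hBRF]; exact algebraMap_mem_ordRing hp _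
      have hcenp : ∀ b : B, algebraMap B F b ∈ (ordRing (K := F) hp).nonunits → b ∈ n := by
        intro b hb
        rw [← hBRF, mem_nonunits_ordRing] at hb
        rcases hb with hb | hb
        · have : b = 0 := hinjBF (by rw [← hBRF, hb, map_zero])
          rw [this]; exact n.zero_mem
        · rw [← hmemn]
          have hdvd : p ∣ algebraMap B R b := by
            by_contra hnd
            rw [pOrd_algebraMap_of_not_dvd hp hnd] at hb
            exact lt_irrefl _ hb
          obtain ⟨c, hc⟩ := hdvd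
          rw [hc]
          exact Ideal.mul_mem_right _ _ ((IsLocalRing.mem_maximalIdeal p).mpr hp.not_isUnit)
      have hAp : ∀ a : A, a ≠ 0 → (algebraMap A F a)⁻¹ ∈ ordRing (K := F) hp := by
        intro a ha
        obtain ⟨k, w, rfl⟩ := IsDiscreteValuationRing.eq_unit_mul_pow_irreducible ha hϖ
        have hnd : ¬ p ∣ algebraMap B R (algebraMap A B ((w : A) * ϖ ^ k)) := by
          rw [map_mul, map_mul, map_pow, map_pow]
          intro hdvd
          rcases hp.dvd_or_dvd hdvd with h | h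
          · have hwu : IsUnit (algebraMap B R (algebraMap A B (w : A))) :=
              (w.isUnit.map _).map _
            exact hp.not_isUnit (isUnit_of_dvd_unit h hwu)
          · have h1 := hp.dvd_of_dvd_pow h
            exact hπp (((hp.dvd_prime_iff_associated hπ').mp h1).symm.dvd)
        have h0 : algebraMap A F ((w : A) * ϖ ^ k) ≠ 0 := fun h =>
          ha (hinjA (by rw [h, map_zero]))
        rw [mem_ordRing]
        right
        rw [pOrd_inv hp h0, hAF, ← hBRF, pOrd_algebraMap_of_not_dvd hp hnd]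
        simp
      by_cases hSp : ∀ i ∈ S, O i ≠ ordRing (K := F) hp
      · have h1 := hord0 _ hBp hAp hSp
        have h2 : 0 ≤ pOrd p u := ((mem_ordRing hp).mp h1.1).resolve_left hu0
        have h3 : 0 ≤ pOrd p u⁻¹ := ((mem_ordRing hp).mp h1.2).resolve_left (inv_ne_zero hu0)
        rw [pOrd_inv hp hu0] at h3
        omega
      · exfalso
        push Not at hSp
        obtain ⟨i, hiS, hOi⟩ := hSp
        have hiT : i ∈ T := (hT i).mpr ⟨hiS, by rw [hOi]; exact hBp, by rw [hOi]; exact hcenp⟩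
        apply hex i hiT
        have h1 : algebraMap R F p ∈ (O i).nonunits := by
          rw [hOi, mem_nonunits_ordRing]; right; rw [pOrd_self hp]; exact one_pos
        have h2 : g i ∣ p := ((hg i hiT).2.2 p).mp h1
        exact (((hg i hiT).1.dvd_prime_iff_associated hp).mp h2).symm
  obtain ⟨ε, hε⟩ := local_core hπ' V hRV hπVR hsatR hu hu' hu0 T g d
    (fun i hi => (hg i hi).1) (fun i hi => (hg i hi).2.1) hgm hordR hsum
  obtain ⟨a, s, has⟩ := IsLocalization.exists_mk'_eq n.primeCompl (ε : R)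
  have ha : a ∈ n.primeCompl :=
    (IsLocalization.AtPrime.isUnit_mk'_iff R n a s).mp (has ▸ ε.isUnit)
  have hεs : (ε : R) * algebraMap B R s = algebraMap B R a := by
    rw [← has]; exact IsLocalization.mk'_spec R a s
  refine ⟨a, s, ha, s.2, ?_⟩
  have : u * algebraMap B F s - algebraMap B F a =
      (u - algebraMap R F ε) * algebraMap B F s := by
    rw [sub_mul, ← hBRF a, ← hεs, map_mul, hBRF]
  rw [this]
  exact mul_mem_nonunits_left V hε (hBV s)

end Chart

/-! ### The global statement on one chart, in the vocabulary of `H63.StmtBase` -/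

/-- **(UNIT').**  `A` a discrete valuation ring with uniformiser `π`, `V` the Gauss valuation ring
of `F` (`m_V = πV`), `B` a noetherian chart with fraction field `F`, `B ≤ V`, `B ∩ πV = πB`,
regular special fibre (`hreg`, the literal hypothesis of `H63.StmtBase`).  Let `u` be a unit of
`V` whose divisor on the generic fibre of the chart is `∑ i ∈ S, d i • [O i]`: the `O i` are
pairwise distinct valuation rings of `F` containing `π⁻¹`, with uniformisers `t i`, rational over
`Frac A` (`hrat`), `u` has order `d i` at `O i` (`hordS`) and is a unit at every other valuation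
ring of `F` containing `B` and `Frac A` (`hord0`).  If for every closed point `n` of the special
fibre the `O i` centred in `n` have total weight `0` (`hsum`), then `u` is congruent modulo `πV`
to an element of `B`. -/
theorem unit_congr (A F : Type) [CommRing A] [IsDomain A] [IsDiscreteValuationRing A]
    [Field F] [Algebra A F]
    (π : A) (V : ValuationSubring F) (B : Subalgebra A F) (u : F)
    (hπ : Irreducible π) (hinj : Function.Injective (algebraMap A F))
    (hπV : algebraMap A F π ∈ V.nonunits)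
    (hVπ : ∀ x ∈ V.nonunits, ∃ y ∈ V, x = algebraMap A F π * y)
    (hBV : ∀ x ∈ B, x ∈ V)
    (hnoeth : IsNoetherianRing B)
    (hfrac : ∀ x : F, ∃ a ∈ B, ∃ b ∈ B, b ≠ 0 ∧ x * b = a)
    (hsat : ∀ x ∈ B, (∃ y ∈ V, x = algebraMap A F π * y) → ∃ b ∈ B, x = algebraMap A F π * b)
    (hreg : ∀ n : Ideal B, n.IsMaximal → algebraMap A B π ∈ n →
      ∃ τ ∈ n, ∀ a : B, a ∉ Ideal.span {algebraMap A B π} →
        ∃ (e : ℕ) (d u : B), d ∉ n ∧ u ∉ n ∧
          a * d - u * τ ^ e ∈ Ideal.span {algebraMap A B π})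
    (hu : u ∈ V) (hu' : u⁻¹ ∈ V)
    {ι : Type*} (S : Finset ι) (O : ι → ValuationSubring F) (t : ι → F) (d : ι → ℤ)
    (hOinj : ∀ i ∈ S, ∀ j ∈ S, O i = O j → i = j)
    (hO : ∀ i ∈ S, (algebraMap A F π)⁻¹ ∈ O i)
    (ht : ∀ i ∈ S, t i ≠ 0 ∧ t i ∈ (O i).nonunits ∧
      ∀ x ∈ (O i).nonunits, ∃ y ∈ O i, x = t i * y)
    (hrat : ∀ i ∈ S, ∀ b ∈ B, b ∈ O i → ∃ a a' : A, a' ≠ 0 ∧
      b - algebraMap A F a / algebraMap A F a' ∈ (O i).nonunits)
    (hordS : ∀ i ∈ S, u * t i ^ (- d i) ∈ O i ∧ (u * t i ^ (- d i))⁻¹ ∈ O i)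
    (hord0 : ∀ O' : ValuationSubring F, (∀ b ∈ B, b ∈ O') →
      (∀ a : A, a ≠ 0 → (algebraMap A F a)⁻¹ ∈ O') → (∀ i ∈ S, O i ≠ O') → u ∈ O' ∧ u⁻¹ ∈ O')
    (hsum : ∀ n : Ideal B, n.IsMaximal → algebraMap A B π ∈ n → ∀ T : Finset ι,
      (∀ i, i ∈ T ↔ i ∈ S ∧ (∀ b ∈ B, b ∈ O i) ∧
        ∀ b : B, (b : F) ∈ (O i).nonunits → b ∈ n) → ∑ i ∈ T, d i = 0) :
    ∃ c ∈ B, ∃ y ∈ V, u - c = algebraMap A F π * y := by
  classical
  by_cases hu0 : u = 0
  · exact ⟨0, B.zero_mem, 0, V.zero_mem, by rw [hu0]; simp⟩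
  have := hnoeth
  set ϖ : F := algebraMap A F π with hϖ
  set πB : B := algebraMap A B π with hπB
  have hϖ0 : ϖ ≠ 0 := fun h => hπ.ne_zero (hinj (by rw [← hϖ, h, map_zero]))
  have hdvd_iff : ∀ x : B, πB ∣ x ↔ (x : F) ∈ V.nonunits := by
    intro x
    constructor
    · rintro ⟨c, rfl⟩
      exact mul_mem_nonunits_left V hπV (hBV _ c.2)
    · intro hx
      obtain ⟨y, hy, e⟩ := hVπ _ hx
      obtain ⟨b, hb, e'⟩ := hsat _ x.2 ⟨y, hy, e⟩
      exact ⟨⟨b, hb⟩, Subtype.ext e'⟩
  have hπB0 : πB ≠ 0 := fun h => hϖ0 (congrArg Subtype.val h)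
  have hprime : Prime πB := by
    refine ⟨hπB0, ?_, ?_⟩
    · intro hunit
      have h1 := (hdvd_iff 1).mp hunit.dvd
      rw [ValuationSubring.mem_nonunits_iff_or] at h1
      rcases h1 with h1 | h1
      · exact one_ne_zero h1
      · apply h1
        simp
    · intro x y hxy
      have h1 := (hdvd_iff (x * y)).mp hxy
      by_contra hcon
      push Not at hcon
      have hx : (x : F) ∉ V.nonunits := fun h => hcon.1 ((hdvd_iff x).mpr h)
      have hy : (y : F) ∉ V.nonunits := fun h => hcon.2 ((hdvd_iff y).mpr h)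
      rw [ValuationSubring.mem_nonunits_iff_or] at hx hy h1
      push Not at hx hy
      rcases h1 with h1 | h1
      · exact mul_ne_zero hx.1 hy.1 h1
      · apply h1
        rw [Subalgebra.coe_mul, mul_inv]
        exact V.mul_mem _ _ hx.2 hy.2
  have hfaith : FaithfulSMul B F :=
    (faithfulSMul_iff_algebraMap_injective B F).mpr Subtype.val_injective
  have hFR : IsFractionRing B F := IsFractionRing.of_field B F (fun z => by
    obtain ⟨a, ha, b, hb, hb0, e⟩ := hfrac z
    refine ⟨⟨a, ha⟩, ⟨b, hb⟩, ?_⟩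
    rw [eq_div_iff (by exact hb0)]
    exact e)
  have hregAt : RegAt πB := regAt_of_reg hreg
  -- the ideal of denominators of `u` modulo `πV`
  let I : Ideal B :=
    { carrier := {e | ∃ c : B, u * (e : F) - (c : F) ∈ V.nonunits}
      add_mem' := by
        rintro e₁ e₂ ⟨c₁, h₁⟩ ⟨c₂, h₂⟩
        refine ⟨c₁ + c₂, ?_⟩
        have : u * ((e₁ + e₂ : B) : F) - ((c₁ + c₂ : B) : F) =
            (u * (e₁ : F) - (c₁ : F)) + (u * (e₂ : F) - (c₂ : F)) := by
          push_cast; ring
        rw [this]; exact add_mem_nonunits V h₁ h₂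
      zero_mem' := ⟨0, by simp [zero_mem_nonunits V]⟩
      smul_mem' := by
        rintro b e ⟨c, h⟩
        refine ⟨b * c, ?_⟩
        have : u * ((b • e : B) : F) - ((b * c : B) : F) =
            (b : F) * (u * (e : F) - (c : F)) := by
          simp only [smul_eq_mul]; push_cast; ring
        rw [this]; exact mul_mem_nonunits_right V (hBV _ b.2) h }
  have hI : I = ⊤ := by
    by_contra hne
    obtain ⟨n, hn, hIn⟩ := Ideal.exists_le_maximal I hne
    have hπI : πB ∈ I := ⟨0, by
      have : u * ((πB : B) : F) - ((0 : B) : F) = u * ϖ := by simp [hπB, hϖ]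
      rw [this]; exact mul_mem_nonunits_right V hu hπV⟩
    have hπn : πB ∈ n := hIn hπI
    let T : Finset ι := S.filter (fun i => (∀ b : B, algebraMap B F b ∈ O i) ∧
      ∀ b : B, algebraMap B F b ∈ (O i).nonunits → b ∈ n)
    have hT : ∀ i, i ∈ T ↔ i ∈ S ∧ (∀ b : B, algebraMap B F b ∈ O i) ∧
        ∀ b : B, algebraMap B F b ∈ (O i).nonunits → b ∈ n := fun i => Finset.mem_filter
    have hsumT : ∑ i ∈ T, d i = 0 := by
      apply hsum n hn hπn T
      intro i
      rw [hT i]
      constructor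
      · rintro ⟨h1, h2, h3⟩
        exact ⟨h1, fun b hb => h2 ⟨b, hb⟩, h3⟩
      · rintro ⟨h1, h2, h3⟩
        exact ⟨h1, fun b => h2 _ b.2, h3⟩
    obtain ⟨c, e, _, he, hce⟩ := chart_local (A := A) (B := B) (F := F) hπ hinj hprime hregAt V
      (fun b => hBV _ b.2) hπV (fun b hb => (hdvd_iff b).mpr hb) hu0 hu hu' S O t d hOinj hO ht
      (fun i hi b hb => hrat i hi b b.2 hb) hordS
      (fun O' hB hA hS => hord0 O' (fun b hb => hB ⟨b, hb⟩) hA hS) n hn hπn T hT hsumT
    exact he (hIn ⟨c, hce⟩)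
  have h1 : (1 : B) ∈ I := by rw [hI]; trivial
  obtain ⟨c, hc⟩ := h1
  have hc' : u - (c : F) ∈ V.nonunits := by simpa using hc
  obtain ⟨y, hy, e⟩ := hVπ _ hc'
  exact ⟨c, c.2, y, hy, e⟩

/-- **(UNIT'), both directions**: under the hypotheses of `unit_congr`, both `u` and `u⁻¹` are
congruent modulo `πV` to elements of `B`; i.e. the reduction of `u` is a unit of `B/πB`. -/
theorem unit_congr_both (A F : Type) [CommRing A] [IsDomain A] [IsDiscreteValuationRing A]
    [Field F] [Algebra A F]
    (π : A) (V : ValuationSubring F) (B : Subalgebra A F) (u : F)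
    (hπ : Irreducible π) (hinj : Function.Injective (algebraMap A F))
    (hπV : algebraMap A F π ∈ V.nonunits)
    (hVπ : ∀ x ∈ V.nonunits, ∃ y ∈ V, x = algebraMap A F π * y)
    (hBV : ∀ x ∈ B, x ∈ V)
    (hnoeth : IsNoetherianRing B)
    (hfrac : ∀ x : F, ∃ a ∈ B, ∃ b ∈ B, b ≠ 0 ∧ x * b = a)
    (hsat : ∀ x ∈ B, (∃ y ∈ V, x = algebraMap A F π * y) → ∃ b ∈ B, x = algebraMap A F π * b)
    (hreg : ∀ n : Ideal B, n.IsMaximal → algebraMap A B π ∈ n →
      ∃ τ ∈ n, ∀ a : B, a ∉ Ideal.span {algebraMap A B π} →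
        ∃ (e : ℕ) (d u : B), d ∉ n ∧ u ∉ n ∧
          a * d - u * τ ^ e ∈ Ideal.span {algebraMap A B π})
    (hu : u ∈ V) (hu' : u⁻¹ ∈ V)
    {ι : Type*} (S : Finset ι) (O : ι → ValuationSubring F) (t : ι → F) (d : ι → ℤ)
    (hOinj : ∀ i ∈ S, ∀ j ∈ S, O i = O j → i = j)
    (hO : ∀ i ∈ S, (algebraMap A F π)⁻¹ ∈ O i)
    (ht : ∀ i ∈ S, t i ≠ 0 ∧ t i ∈ (O i).nonunits ∧
      ∀ x ∈ (O i).nonunits, ∃ y ∈ O i, x = t i * y)
    (hrat : ∀ i ∈ S, ∀ b ∈ B, b ∈ O i → ∃ a a' : A, a' ≠ 0 ∧
      b - algebraMap A F a / algebraMap A F a' ∈ (O i).nonunits)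
    (hordS : ∀ i ∈ S, u * t i ^ (- d i) ∈ O i ∧ (u * t i ^ (- d i))⁻¹ ∈ O i)
    (hord0 : ∀ O' : ValuationSubring F, (∀ b ∈ B, b ∈ O') →
      (∀ a : A, a ≠ 0 → (algebraMap A F a)⁻¹ ∈ O') → (∀ i ∈ S, O i ≠ O') → u ∈ O' ∧ u⁻¹ ∈ O')
    (hsum : ∀ n : Ideal B, n.IsMaximal → algebraMap A B π ∈ n → ∀ T : Finset ι,
      (∀ i, i ∈ T ↔ i ∈ S ∧ (∀ b ∈ B, b ∈ O i) ∧
        ∀ b : B, (b : F) ∈ (O i).nonunits → b ∈ n) → ∑ i ∈ T, d i = 0) :
    (∃ c ∈ B, ∃ y ∈ V, u - c = algebraMap A F π * y) ∧
      (∃ c ∈ B, ∃ y ∈ V, u⁻¹ - c = algebraMap A F π * y) := by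
  refine ⟨unit_congr A F π V B u hπ hinj hπV hVπ hBV hnoeth hfrac hsat hreg hu hu' S O t d
    hOinj hO ht hrat hordS hord0 hsum, ?_⟩
  refine unit_congr A F π V B u⁻¹ hπ hinj hπV hVπ hBV hnoeth hfrac hsat hreg hu'
    (by rwa [inv_inv]) S O t (fun i => - d i) hOinj hO ht hrat ?_ ?_ ?_
  · intro i hi
    have h := hordS i hi
    have e : u⁻¹ * t i ^ (- - d i) = (u * t i ^ (- d i))⁻¹ := by
      rw [mul_inv, ← zpow_neg]
    rw [e, inv_inv]; exact ⟨h.2, h.1⟩
  · intro O' hB hA hS
    have h := hord0 O' hB hA hS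
    rw [inv_inv]; exact ⟨h.2, h.1⟩
  · intro n hn hπn T hT
    rw [Finset.sum_neg_distrib, hsum n hn hπn T hT, neg_zero]

end Fermat.Agent.S37.H89
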