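/-
S37, node (UNIT') (helper6): the GENERIC LOCAL LEMMA of route K (#1482 (5)).

Setting = one chart of `H63.StmtBase`: `A` a base domain with element `π`, `F` a field, `V` the Gauss
valuation ring (uniformiser `π`), `B ⊆ V` a noetherian chart with `Frac B = F`, `B ∩ πV = πB`,
regular special fibre at the closed point `n ∋ π` (hypothesis (REG), literal `StmtBase` form).
`K0` is a field with `K0 = Frac A` inside `F` (hypotheses `hAK`, `hKA`; no instance is asked).

* `eexp_sub_eq_sum` (abstract core): for `u = a / b`, `e_n(a) - e_n(b) = ∑_q ord_q(u) * e_n(g_q)`, the sum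
  over the horizontal primes `q ⊆ n` (local generators `g_q`) at which `u` has nonzero order.
* `gPlace` : the place of `F / K0` attached to a local generator.
* `unit_at_closed_point` (U1): if the places of `F / K0` centred in `n` at which the Gauss unit `u` has
  nonzero order are rational (`B = A + q_P`) and their orders add up to `0`, then `u ≡ a / b` mod `π V`
  with `a, b ∈ B \ n`.
* `unit_mod_of_local` (U2), `unit_mod_of_places`, `unit_mod_of_finset`, `isUnit_mod_of_finset`: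
  local-to-global: `u ≡` an element of `B` mod `π V` (and the same for `u⁻¹`).

Imports: Mathlib, Prelude `Place`, the landed local algebra of helper67 (KC1Local / KC1Val) and
`H63.sat_pow`.  Complete proofs, standard axioms only.
-/
import Mathlib
import Fermat.Prelude.Def_AlgebraicCurve_DivisorClassGroup
import Fermat.Agent.S18.KC1Val_helper67
import Fermat.Agent.S18.KCStmts_helper63

set_option autoImplicit false

namespace Fermat.Agent.S37.H06

open Fermat.Agent.S18 Fermat.Agent.S18.H67 AlgebraicCurve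

/-! ### Local generators: independence of choices -/

section Gen

variable {B : Type*} [CommRing B] [IsDomain B] [IsNoetherianRing B]
variable {n : Ideal B} [n.IsPrime] {π τ : B}

omit [IsNoetherianRing B] in
/-- Two local generators of the same prime differ by a unit at `n`. -/
theorem locGen_cofactor {g g' : B} {q : Ideal B} (h : LocGen n π τ g q)
    (h' : LocGen n π τ g' q) : ∃ Δ' c, Δ' ∉ n ∧ c ∉ n ∧ Δ' * g = g' * c := by
  obtain ⟨Δ', hΔ', hgen'⟩ := h'.gen
  obtain ⟨c, hc⟩ := hgen' g h.g_mem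
  obtain ⟨Δ, hΔ, hgen⟩ := h.gen
  obtain ⟨c', hc'⟩ := hgen g' h'.g_mem
  refine ⟨Δ', c, hΔ', fun hcn => ?_, hc⟩
  have h1 : g * (Δ * Δ') = g * (c' * c) := by
    linear_combination Δ * hc + c * hc'
  have h2 : Δ * Δ' = c' * c := mul_left_cancel₀ h.g_ne_zero h1
  exact notMem_mul_of_prime hΔ hΔ' (h2 ▸ n.mul_mem_left c' hcn)

/-- The order along a local generator depends only on the prime. -/
theorem gOrd_congr {g g' : B} {q : Ideal B} [q.IsPrime] (h : LocGen n π τ g q)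
    (h' : LocGen n π τ g' q) {x : B} (hx : x ≠ 0) : gOrd n g' x = gOrd n g x := by
  obtain ⟨s, hs, x', hx', hx'q⟩ := h.exists_eq hx
  obtain ⟨Δ', c, hΔ', hc, hcg⟩ := locGen_cofactor h h'
  refine h'.gOrd_eq (s := Δ' ^ gOrd n g x * s) (b' := c ^ gOrd n g x * x')
    (notMem_mul_of_prime (notMem_pow_of_prime hΔ' _) hs) ?_ ?_
  · have h1 : Δ' ^ gOrd n g x * s * x = (Δ' * g) ^ gOrd n g x * x' := by
      rw [mul_pow]; linear_combination Δ' ^ gOrd n g x * hx'
    rw [h1, hcg, mul_pow]; ring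
  · intro hmem
    rcases Ideal.IsPrime.mem_or_mem ‹q.IsPrime› hmem with h1 | h1
    · exact hc (h.q_le (Ideal.IsPrime.mem_of_pow_mem ‹q.IsPrime› _ h1))
    · exact hx'q h1

omit [IsNoetherianRing B] in
/-- Two primes with local generators, one containing the generator of the other, coincide. -/
theorem locGen_ideal_eq {g g' : B} {q q' : Ideal B} [q.IsPrime] [q'.IsPrime]
    (h : LocGen n π τ g q) (h' : LocGen n π τ g' q') (hg : g ∈ q') : q = q' := by
  obtain ⟨Δ, hΔ, hgen⟩ := h.gen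
  obtain ⟨Δ', hΔ', hgen'⟩ := h'.gen
  have hle : q ≤ q' := by
    intro x hx
    obtain ⟨y, hy⟩ := hgen x hx
    have h1 : Δ * x ∈ q' := by rw [hy]; exact q'.mul_mem_right y hg
    exact (Ideal.IsPrime.mem_or_mem ‹q'.IsPrime› h1).resolve_left (fun hd => hΔ (h'.q_le hd))
  refine le_antisymm hle ?_
  by_cases hg' : g' ∈ q
  · intro x hx
    obtain ⟨y, hy⟩ := hgen' x hx
    have h1 : Δ' * x ∈ q := by rw [hy]; exact q.mul_mem_right y hg'
    exact (Ideal.IsPrime.mem_or_mem ‹q.IsPrime› h1).resolve_left (fun hd => hΔ' (h.q_le hd))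
  · exfalso
    obtain ⟨c, hc⟩ := hgen' g hg
    have hcq : c ∈ q := by
      have h1 : g' * c ∈ q := by rw [← hc]; exact q.mul_mem_left Δ' h.g_mem
      exact (Ideal.IsPrime.mem_or_mem ‹q.IsPrime› h1).resolve_left hg'
    obtain ⟨c'', hc''⟩ := hgen c hcq
    have h1 : g * (Δ * Δ') = g * (g' * c'') := by
      linear_combination Δ * hc + g' * hc''
    have h2 : Δ * Δ' = g' * c'' := mul_left_cancel₀ h.g_ne_zero h1
    exact notMem_mul_of_prime hΔ hΔ' (h2 ▸ n.mul_mem_right c'' (h'.q_le h'.g_mem))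

theorem gOrd_self {g : B} {q : Ideal B} [q.IsPrime] (h : LocGen n π τ g q) : gOrd n g g = 1 :=
  h.gOrd_eq (s := 1) (b' := 1) one_notMem_of_prime (by ring)
    ((Ideal.ne_top_iff_one q).mp (Ideal.IsPrime.ne_top ‹_›))

theorem gOrd_one {g : B} {q : Ideal B} [q.IsPrime] (h : LocGen n π τ g q) : gOrd n g 1 = 0 :=
  h.gOrd_eq_zero_of_notMem ((Ideal.ne_top_iff_one q).mp (Ideal.IsPrime.ne_top ‹_›))

theorem gOrd_pow {g : B} {q : Ideal B} [q.IsPrime] (h : LocGen n π τ g q) {x : B} (hx : x ≠ 0)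
    (k : ℕ) : gOrd n g (x ^ k) = k * gOrd n g x := by
  induction k with
  | zero => simp [gOrd_one h]
  | succ k ih => rw [pow_succ, h.gOrd_mul (pow_ne_zero k hx) hx, ih]; ring

theorem gOrd_prod_pow {g : B} {q : Ideal B} [q.IsPrime] (h : LocGen n π τ g q) {I : Type*}
    (T : Finset I) (f : I → B) (k : I → ℕ) (hf : ∀ i ∈ T, f i ≠ 0) :
    gOrd n g (∏ i ∈ T, f i ^ k i) = ∑ i ∈ T, k i * gOrd n g (f i) := by
  classical
  induction T using Finset.induction_on with
  | empty => simp [gOrd_one h]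
  | insert i S hi ih =>
    rw [Finset.prod_insert hi, Finset.sum_insert hi,
      h.gOrd_mul (pow_ne_zero _ (hf i (Finset.mem_insert_self i S)))
        (Finset.prod_ne_zero_iff.mpr fun j hj => pow_ne_zero _ (hf j (Finset.mem_insert_of_mem hj))),
      gOrd_pow h (hf i (Finset.mem_insert_self i S)),
      ih (fun j hj => hf j (Finset.mem_insert_of_mem hj))]

omit [IsDomain B] [IsNoetherianRing B] in
theorem eexp_prod_pow {I : Type*} (T : Finset I) (f : I → B) (k e : I → ℕ)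
    (hf : ∀ i ∈ T, EExp n π τ (f i) (e i)) :
    EExp n π τ (∏ i ∈ T, f i ^ k i) (∑ i ∈ T, k i * e i) := by
  classical
  induction T using Finset.induction_on with
  | empty => simpa using EExp.zero_of_notMem (n := n) (π := π) (τ := τ) one_notMem_of_prime
  | insert i S hi ih =>
    rw [Finset.prod_insert hi, Finset.sum_insert hi]
    exact ((hf i (Finset.mem_insert_self i S)).pow (k i)).mul
      (ih fun j hj => hf j (Finset.mem_insert_of_mem hj))

omit [IsDomain B] [IsNoetherianRing B] in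
/-- A prime through which a "section" `τ - π y` passes has a local generator of order one on the
special fibre. -/
theorem eexp_one_of_section {g : B} {q : Ideal B} (h : LocGen n π τ g q) {y : B}
    (hy : τ - π * y ∈ q) {eg : ℕ} (heg : EExp n π τ g eg) : eg = 1 := by
  have hπ := h.prime_pi
  have hpos : 0 < eg := EExp.pos h.pi_mem (h.q_le h.g_mem) heg
  have hnd : ∀ x : B, x ∉ n → ¬ π ∣ x := fun x hx ⟨z, hz⟩ => hx (hz ▸ n.mul_mem_right z h.pi_mem)
  have hpg' : ¬ π ∣ τ - π * y := by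
    intro hd
    have hτ : π ∣ τ := by
      have e : τ = (τ - π * y) + π * y := by ring
      rw [e]; exact dvd_add hd (dvd_mul_right π y)
    obtain ⟨d, u, hd', hu, x, hx⟩ := heg
    have h1 : π ∣ g * d := by
      have e : g * d = π * x + u * τ ^ eg := by rw [← hx]; ring
      rw [e]
      exact dvd_add (dvd_mul_right π x) (Dvd.dvd.mul_left (dvd_pow hτ hpos.ne') u)
    exact (hπ.dvd_or_dvd h1).elim h.not_dvd (hnd d hd')
  obtain ⟨Δ, hΔ, hgen⟩ := h.gen
  obtain ⟨z, hz⟩ := hgen _ hy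
  have hpΔg : ¬ π ∣ Δ * (τ - π * y) := fun hd => (hπ.dvd_or_dvd hd).elim (hnd Δ hΔ) hpg'
  have hpz : ¬ π ∣ z := fun hd => hpΔg (hz ▸ Dvd.dvd.mul_left hd g)
  obtain ⟨ez, hez⟩ := h.reg z hpz
  have Eg' : EExp n π τ (τ - π * y) 1 :=
    ⟨1, 1, one_notMem_of_prime, one_notMem_of_prime, ⟨-y, by ring⟩⟩
  have E1 : EExp n π τ (Δ * (τ - π * y)) (0 + 1) := (EExp.zero_of_notMem hΔ).mul Eg'
  have E2 : EExp n π τ (Δ * (τ - π * y)) (eg + ez) := hz ▸ heg.mul hez
  have h3 := EExp.unique hπ h.pi_mem h.tau_mem hpΔg E1 E2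
  omega

end Gen

/-! ### The abstract core: the order on the special fibre as a sum of horizontal orders -/

section Core

variable {B F : Type*} [CommRing B] [IsDomain B] [IsNoetherianRing B] [Field F]
variable {ι : B →+* F} (hι : Function.Injective ι)
variable (hfrac : ∀ x : F, ∃ a b : B, b ≠ 0 ∧ x * ι b = ι a)
variable {n : Ideal B} [n.IsPrime] {π τ : B}

include hι in
theorem fOrd_congr {g g' : B} {q : Ideal B} [q.IsPrime] (h : LocGen n π τ g q)
    (h' : LocGen n π τ g' q) {x : F} (hx : x ≠ 0) :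
    fOrd ι hfrac n g' x = fOrd ι hfrac n g x := by
  obtain ⟨a, b, hb, hab⟩ := hfrac x
  have ha : a ≠ 0 := by
    rintro rfl
    rw [map_zero] at hab
    exact (mul_ne_zero hx ((map_ne_zero_iff ι hι).mpr hb)) hab
  rw [fOrd_eq hfrac hι h' hx hb hab, fOrd_eq hfrac hι h hx hb hab, gOrd_congr h h' ha,
    gOrd_congr h h' hb]

include hι in
theorem fOrd_zpow {g : B} {q : Ideal B} [q.IsPrime] (h : LocGen n π τ g q) {x : F} (hx : x ≠ 0)
    (m : ℤ) : fOrd ι hfrac n g (x ^ m) = m * fOrd ι hfrac n g x := by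
  obtain ⟨k, rfl | rfl⟩ := m.eq_nat_or_neg
  · rw [zpow_natCast, fOrd_pow hfrac hι h hx]
  · rw [zpow_neg, zpow_natCast, fOrd_inv hfrac hι h (pow_ne_zero k hx), fOrd_pow hfrac hι h hx]
    ring

include hι in
theorem fOrd_gen {g : B} {q : Ideal B} [q.IsPrime] (h : LocGen n π τ g q) :
    fOrd ι hfrac n g (ι g) = 1 := by
  rw [fOrd_map hfrac hι h h.g_ne_zero, gOrd_self h]; rfl

include hι in
/-- **Core formula.**  For `u = a / b` with `a, b` prime to `π`: the difference of the orders of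
`a, b` on the special fibre at `n` is the sum, over the horizontal primes through `n` at which `u`
has nonzero order, of `ord_q(u) * e_n(g_q)`. -/
theorem eexp_sub_eq_sum (hπ : Prime π) (hπn : π ∈ n) (hτ : τ ∈ n)
    (hreg : ∀ a : B, ¬ π ∣ a → ∃ e, EExp n π τ a e)
    {u : F} {a b : B} (hpa : ¬ π ∣ a) (hpb : ¬ π ∣ b) (hab : u * ι b = ι a)
    {ea eb : ℕ} (hea : EExp n π τ a ea) (heb : EExp n π τ b eb)
    {I : Type*} (T : Finset I) (q : I → Ideal B) (g : I → B) (e : I → ℕ)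
    (hq : ∀ i ∈ T, (q i).IsPrime) (hLG : ∀ i ∈ T, LocGen n π τ (g i) (q i))
    (hE : ∀ i ∈ T, EExp n π τ (g i) (e i))
    (hinj : ∀ i ∈ T, ∀ j ∈ T, q i = q j → i = j)
    (hout : ∀ (g' : B) (q' : Ideal B) [q'.IsPrime], LocGen n π τ g' q' → (∀ i ∈ T, q i ≠ q') →
      fOrd ι hfrac n g' u = 0) :
    (ea : ℤ) - eb = ∑ i ∈ T, fOrd ι hfrac n (g i) u * e i := by
  classical
  have ha0 : a ≠ 0 := fun h => hpa (h ▸ dvd_zero π)
  have hb0 : b ≠ 0 := fun h => hpb (h ▸ dvd_zero π)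
  have hιne : ∀ x : B, x ≠ 0 → ι x ≠ 0 := fun x hx => (map_ne_zero_iff ι hι).mpr hx
  have hu0 : u ≠ 0 := by
    rintro rfl
    rw [zero_mul] at hab
    exact hιne a ha0 hab.symm
  set c : I → ℤ := fun i => fOrd ι hfrac n (g i) u with hc
  set Gp : B := ∏ i ∈ T, g i ^ (c i).toNat with hGp
  set Gm : B := ∏ i ∈ T, g i ^ (- c i).toNat with hGm
  have hg0 : ∀ i ∈ T, g i ≠ 0 := fun i hi => (hLG i hi).g_ne_zero
  have hGp0 : Gp ≠ 0 := Finset.prod_ne_zero_iff.mpr fun i hi => pow_ne_zero _ (hg0 i hi)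
  have hGm0 : Gm ≠ 0 := Finset.prod_ne_zero_iff.mpr fun i hi => pow_ne_zero _ (hg0 i hi)
  have hpG : ∀ k : I → ℕ, ¬ π ∣ ∏ i ∈ T, g i ^ k i := by
    intro k hd
    obtain ⟨i, hi, hdi⟩ := (Prime.dvd_finsetProd_iff hπ _).mp hd
    exact (hLG i hi).not_dvd (hπ.dvd_of_dvd_pow hdi)
  set u' : F := u * ι Gm * (ι Gp)⁻¹ with hu'
  have hGpF : ι Gp ≠ 0 := hιne _ hGp0
  have hu'0 : u' ≠ 0 := mul_ne_zero (mul_ne_zero hu0 (hιne _ hGm0)) (inv_ne_zero hGpF)
  have hab' : u' * ι (b * Gp) = ι (a * Gm) := by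
    rw [hu', map_mul, map_mul, ← hab]
    field_simp
  have hpa' : ¬ π ∣ a * Gm := fun hd => (hπ.dvd_or_dvd hd).elim hpa (hpG _)
  have hpb' : ¬ π ∣ b * Gp := fun hd => (hπ.dvd_or_dvd hd).elim hpb (hpG _)
  have hdiv : ∀ (g' : B) (q' : Ideal B) [q'.IsPrime], LocGen n π τ g' q' →
      ((0 : ℕ) : ℤ) ∣ fOrd ι hfrac n g' u' := by
    intro g' q' _ h'
    have key : fOrd ι hfrac n g' u'
        = fOrd ι hfrac n g' u - ∑ i ∈ T, c i * (gOrd n g' (g i) : ℤ) := by
      rw [fOrd_eq hfrac hι h' hu'0 (mul_ne_zero hb0 hGp0) hab', fOrd_eq hfrac hι h' hu0 hb0 hab,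
        h'.gOrd_mul ha0 hGm0, h'.gOrd_mul hb0 hGp0, hGm, hGp, gOrd_prod_pow h' T g _ hg0,
        gOrd_prod_pow h' T g _ hg0]
      push_cast
      have hs : ∑ i ∈ T, ((- c i).toNat : ℤ) * (gOrd n g' (g i) : ℤ)
          - ∑ i ∈ T, ((c i).toNat : ℤ) * (gOrd n g' (g i) : ℤ)
          = - ∑ i ∈ T, c i * (gOrd n g' (g i) : ℤ) := by
        rw [← Finset.sum_sub_distrib, ← Finset.sum_neg_distrib]
        refine Finset.sum_congr rfl fun i _ => ?_
        have h0 : ((- c i).toNat : ℤ) - ((c i).toNat : ℤ) = - c i := by omega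
        rw [← sub_mul, h0]; ring
      linarith
    rw [Int.natCast_zero, zero_dvd_iff, key]
    by_cases hex : ∃ i₀ ∈ T, q i₀ = q'
    · obtain ⟨i₀, hi₀, rfl⟩ := hex
      have h1 : fOrd ι hfrac n g' u = c i₀ := fOrd_congr hι hfrac (hLG i₀ hi₀) h' hu0
      have h2 : ∑ i ∈ T, c i * (gOrd n g' (g i) : ℤ) = c i₀ := by
        rw [Finset.sum_eq_single i₀]
        · rw [gOrd_congr (hLG i₀ hi₀) h' (hg0 i₀ hi₀), gOrd_self (hLG i₀ hi₀)]; simp
        · intro i hi hne
          have := hq i hi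
          have hgi : g i ∉ q i₀ := fun hmem =>
            hne (hinj i hi i₀ hi₀ (locGen_ideal_eq (hLG i hi) h' hmem))
          rw [h'.gOrd_eq_zero_of_notMem hgi]; simp
        · intro h; exact absurd hi₀ h
      rw [h1, h2]; ring
    · push Not at hex
      have h1 : fOrd ι hfrac n g' u = 0 := hout g' q' h' hex
      have h2 : ∑ i ∈ T, c i * (gOrd n g' (g i) : ℤ) = 0 := by
        refine Finset.sum_eq_zero fun i hi => ?_
        have := hq i hi
        have hgi : g i ∉ q' := fun hmem => hex i hi (locGen_ideal_eq (hLG i hi) h' hmem)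
        rw [h'.gOrd_eq_zero_of_notMem hgi]; simp
      rw [h1, h2]; ring
  obtain ⟨t, t', z', ht, ht', hz', hrel⟩ :=
    exists_unit_mul_pow hι hfrac hπ hπn hτ hreg hu'0 hdiv hpa' hpb' hab'
  rw [pow_zero, mul_one] at hrel
  have heq : a * Gm * t' = b * Gp * t := by
    apply hι
    rw [map_mul, map_mul, map_mul, map_mul, ← hab]
    rw [hu'] at hrel
    have h1 : u * ι Gm * ι t' = ι t * ι Gp := by
      rw [← hrel]; field_simp
    linear_combination ι b * h1
  have E1 : EExp n π τ (a * Gm * t') (ea + ∑ i ∈ T, (- c i).toNat * e i + 0) :=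
    (hea.mul (eexp_prod_pow T g _ e hE)).mul (EExp.zero_of_notMem ht')
  have E2 : EExp n π τ (b * Gp * t) (eb + ∑ i ∈ T, (c i).toNat * e i + 0) :=
    (heb.mul (eexp_prod_pow T g _ e hE)).mul (EExp.zero_of_notMem ht)
  rw [← heq] at E2
  have hnd : ¬ π ∣ a * Gm * t' := fun hd =>
    (hπ.dvd_or_dvd hd).elim hpa' (fun ⟨y, hy⟩ => ht' (hy ▸ n.mul_mem_right y hπn))
  have h3 := EExp.unique hπ hπn hτ hnd E1 E2
  have h4 : (ea : ℤ) + ∑ i ∈ T, ((- c i).toNat : ℤ) * e i
      = eb + ∑ i ∈ T, ((c i).toNat : ℤ) * e i := by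
    have h5 := congrArg (Nat.cast (R := ℤ)) h3
    push_cast at h5
    linarith
  have h5 : ∑ i ∈ T, ((c i).toNat : ℤ) * e i - ∑ i ∈ T, ((- c i).toNat : ℤ) * e i
      = ∑ i ∈ T, c i * e i := by
    rw [← Finset.sum_sub_distrib]
    refine Finset.sum_congr rfl fun i _ => ?_
    have h0 : ((c i).toNat : ℤ) - ((- c i).toNat : ℤ) = c i := by omega
    rw [← sub_mul, h0]
  linarith

end Core

/-! ### The place attached to a local generator -/

section PlaceOf

variable {B F : Type*} [CommRing B] [IsDomain B] [IsNoetherianRing B] [Field F]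
variable {ι : B →+* F} (hι : Function.Injective ι)
variable (hfrac : ∀ x : F, ∃ a b : B, b ≠ 0 ∧ x * ι b = ι a)
variable {n : Ideal B} [n.IsPrime] {π τ g : B} {q : Ideal B} [q.IsPrime]

theorem isPrincipalIdealRing_gValSubring (h : LocGen n π τ g q) :
    IsPrincipalIdealRing (gValSubring hfrac hι h) := by
  classical
  refine ⟨fun I => ?_⟩
  by_cases hI : I = ⊥
  · exact ⟨⟨0, by rw [hI]; simp⟩⟩
  obtain ⟨x, hxI, hx0⟩ := Submodule.exists_mem_ne_zero_of_ne_bot hI
  have hex : ∃ k : ℕ, ∃ x ∈ I, x ≠ 0 ∧ fOrd ι hfrac n g (x : F) = k := by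
    have hxF : (x : F) ≠ 0 := fun h0 => hx0 (Subtype.ext h0)
    have h1 : 0 ≤ fOrd ι hfrac n g (x : F) := x.2.resolve_left hxF
    exact ⟨(fOrd ι hfrac n g (x : F)).toNat, x, hxI, hx0, (Int.toNat_of_nonneg h1).symm⟩
  obtain ⟨x₀, hx₀I, hx₀0, hx₀k⟩ := Nat.find_spec hex
  have hx₀F : (x₀ : F) ≠ 0 := fun h0 => hx₀0 (Subtype.ext h0)
  refine ⟨⟨x₀, le_antisymm ?_ ?_⟩⟩
  · intro y hy
    by_cases hy0 : y = 0
    · rw [hy0]; exact Submodule.zero_mem _
    have hyF : (y : F) ≠ 0 := fun h0 => hy0 (Subtype.ext h0)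
    have h1 : 0 ≤ fOrd ι hfrac n g (y : F) := y.2.resolve_left hyF
    have h2 : (Nat.find hex : ℤ) ≤ fOrd ι hfrac n g (y : F) := by
      have h3 := Nat.find_min' hex (m := (fOrd ι hfrac n g (y : F)).toNat)
        ⟨y, hy, hy0, (Int.toNat_of_nonneg h1).symm⟩
      omega
    have hz : (y : F) * (x₀ : F)⁻¹ ∈ gValSubring hfrac hι h := by
      right
      rw [fOrd_mul hfrac hι h hyF (inv_ne_zero hx₀F), fOrd_inv hfrac hι h hx₀F, hx₀k]
      omega
    rw [Submodule.mem_span_singleton]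
    refine ⟨⟨_, hz⟩, Subtype.ext ?_⟩
    show (y : F) * (x₀ : F)⁻¹ * (x₀ : F) = (y : F)
    rw [mul_assoc, inv_mul_cancel₀ hx₀F, mul_one]
  · rw [Submodule.span_le]
    intro y hy
    rw [Set.mem_singleton_iff.mp hy]
    exact hx₀I

variable {K0 : Type*} [Field K0] [Algebra K0 F]

/-- The place of `F / K0` attached to a local generator (`K0 ⊆ Frac` of the elements of `B`
dividing a power of `π`). -/
noncomputable def gPlace (h : LocGen n π τ g q)
    (hK : ∀ c : K0, ∃ a b : B, b ≠ 0 ∧ (∃ k : ℕ, b ∣ π ^ k) ∧ algebraMap K0 F c * ι b = ι a) :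
    Place K0 F where
  toValuationSubring := gValSubring hfrac hι h
  algebraMap_mem' := by
    intro c
    obtain ⟨a, b, hb, ⟨k, hk⟩, hab⟩ := hK c
    have hιb : ι b ≠ 0 := (map_ne_zero_iff ι hι).mpr hb
    have e : algebraMap K0 F c = ι a * (ι b)⁻¹ := by
      rw [← hab]; field_simp
    rw [e]
    exact (gValSubring hfrac hι h).mul_mem _ _ (map_mem_gValSubring hfrac hι h a)
      (inv_map_mem_gValSubring hfrac hι h hb hk)
  ne_top' := by
    intro htop
    have h1 : (ι g)⁻¹ ∈ gValSubring hfrac hι h := by rw [htop]; exact ValuationSubring.mem_top _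
    have hG : ι g ≠ 0 := (map_ne_zero_iff ι hι).mpr h.g_ne_zero
    rcases h1 with h1 | h1
    · exact inv_ne_zero hG h1
    · rw [fOrd_inv hfrac hι h hG, fOrd_gen hι hfrac h] at h1
      omega
  isPrincipalIdealRing' := isPrincipalIdealRing_gValSubring hι hfrac h

theorem gPlace_toValuationSubring (h : LocGen n π τ g q)
    (hK : ∀ c : K0, ∃ a b : B, b ≠ 0 ∧ (∃ k : ℕ, b ∣ π ^ k) ∧ algebraMap K0 F c * ι b = ι a) :
    (gPlace hι hfrac h hK).toValuationSubring = gValSubring hfrac hι h := rfl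

/-- The centre of `gPlace` on `B` is `q`. -/
theorem map_mem_nonunits_gValSubring_iff (h : LocGen n π τ g q) (b : B) :
    ι b ∈ (gValSubring hfrac hι h).nonunits ↔ b ∈ q := by
  rw [ValuationSubring.mem_nonunits_iff_or]
  by_cases hb : b = 0
  · rw [hb, map_zero]; simp
  have hιb : ι b ≠ 0 := (map_ne_zero_iff ι hι).mpr hb
  constructor
  · rintro (h0 | h0)
    · exact absurd h0 hιb
    · by_contra hbq
      apply h0
      right
      rw [fOrd_inv hfrac hι h hιb, fOrd_map hfrac hι h hb, h.gOrd_eq_zero_of_notMem hbq]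
      simp
  · intro hbq
    right
    rintro (h0 | h0)
    · exact inv_ne_zero hιb h0
    · rw [fOrd_inv hfrac hι h hιb, fOrd_map hfrac hι h hb] at h0
      have := h.one_le_gOrd hb hbq
      omega

include hι in
/-- A place whose valuation ring is cut out by `fOrd` has `ord = fOrd`. -/
theorem ord_eq_fOrd (h : LocGen n π τ g q) (P : Place K0 F)
    (hP : ∀ x : F, x ∈ P.toValuationSubring ↔ x = 0 ∨ 0 ≤ fOrd ι hfrac n g x) {x : F}
    (hx : x ≠ 0) : P.ord x = fOrd ι hfrac n g x := by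
  obtain ⟨ϖ, hϖ⟩ := IsDiscreteValuationRing.exists_irreducible P.toValuationSubring
  have hϖF : (ϖ : F) ≠ 0 := fun h0 => hϖ.ne_zero (Subtype.ext h0)
  have hunit : ∀ w : P.toValuationSubringˣ,
      ((w : P.toValuationSubring) : F) ≠ 0 ∧
        fOrd ι hfrac n g ((w : P.toValuationSubring) : F) = 0 := by
    intro w
    have hw0 : ((w : P.toValuationSubring) : F) ≠ 0 := by
      intro h0
      exact w.ne_zero (Subtype.ext h0)
    have h1 := ((hP _).mp (w : P.toValuationSubring).2).resolve_left hw0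
    have h2 : (((w⁻¹ : P.toValuationSubringˣ) : P.toValuationSubring) : F)
        = ((w : P.toValuationSubring) : F)⁻¹ := by
      apply eq_inv_of_mul_eq_one_left
      have h3 : ((w⁻¹ : P.toValuationSubringˣ) : P.toValuationSubring) * (w : P.toValuationSubring)
          = 1 := by simp
      exact congrArg Subtype.val h3
    have h3 := ((hP _).mp ((w⁻¹ : P.toValuationSubringˣ) : P.toValuationSubring).2).resolve_left
      (by rw [h2]; exact inv_ne_zero hw0)
    rw [h2, fOrd_inv hfrac hι h hw0] at h3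
    exact ⟨hw0, by omega⟩
  have hkey : ∀ y : F, y ≠ 0 →
      fOrd ι hfrac n g y = P.ord y * fOrd ι hfrac n g (ϖ : F) := by
    intro y hy
    obtain ⟨w, hw⟩ := P.exists_unit_mul_zpow hy hϖ
    conv_lhs => rw [hw]
    rw [fOrd_mul hfrac hι h (hunit w).1 (zpow_ne_zero _ hϖF), (hunit w).2,
      fOrd_zpow hι hfrac h hϖF, zero_add]
  have hG : ι g ≠ 0 := (map_ne_zero_iff ι hι).mpr h.g_ne_zero
  have h1 := hkey (ι g) hG
  rw [fOrd_gen hι hfrac h] at h1
  have hk0 : 0 ≤ fOrd ι hfrac n g (ϖ : F) := ((hP _).mp ϖ.2).resolve_left hϖF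
  have hk1 : fOrd ι hfrac n g (ϖ : F) = 1 :=
    Int.eq_one_of_dvd_one hk0 ⟨P.ord (ι g), by rw [h1]; ring⟩
  rw [hkey x hx, hk1, mul_one]

theorem gPlace_ord (h : LocGen n π τ g q)
    (hK : ∀ c : K0, ∃ a b : B, b ≠ 0 ∧ (∃ k : ℕ, b ∣ π ^ k) ∧ algebraMap K0 F c * ι b = ι a)
    {x : F} (hx : x ≠ 0) : (gPlace hι hfrac h hK).ord x = fOrd ι hfrac n g x :=
  ord_eq_fOrd hι hfrac h _ (fun _ => Iff.rfl) hx

end PlaceOf

/-! ### The centre of a place, and its local generator -/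

section Centre

variable {B F : Type*} [CommRing B] [Field F] {ι : B →+* F}

/-- The centre on `B` of a valuation ring containing `ι B`. -/
def centre (O : ValuationSubring F) (hO : ∀ b : B, ι b ∈ O) : Ideal B where
  carrier := {b | ι b ∈ O.nonunits}
  add_mem' := fun {a b} ha hb => by
    show ι (a + b) ∈ O.nonunits
    rw [map_add]; exact O.nonunits.add_mem ha hb
  zero_mem' := by
    show ι 0 ∈ O.nonunits
    rw [map_zero]; exact O.nonunits.zero_mem
  smul_mem' := fun c x hx => by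
    show ι (c • x) ∈ O.nonunits
    have hx' : O.valuation (ι x) < 1 := hx
    rw [smul_eq_mul, map_mul, ValuationSubring.mem_nonunits_iff, map_mul]
    exact lt_of_le_of_lt (mul_le_of_le_one_left' ((O.valuation_le_one_iff _).mpr (hO c))) hx'

theorem mem_centre {O : ValuationSubring F} {hO : ∀ b : B, ι b ∈ O} {b : B} :
    b ∈ centre O hO ↔ ι b ∈ O.nonunits := Iff.rfl

theorem centre_isPrime (O : ValuationSubring F) (hO : ∀ b : B, ι b ∈ O) :
    (centre O hO).IsPrime := by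
  refine ⟨?_, ?_⟩
  · rw [Ideal.ne_top_iff_one]
    intro h1
    have h2 : ι (1 : B) ∈ O.nonunits := h1
    rw [map_one, ValuationSubring.mem_nonunits_iff, map_one] at h2
    exact lt_irrefl _ h2
  · intro a b hab
    have hab' : ι (a * b) ∈ O.nonunits := hab
    rw [map_mul, ValuationSubring.mem_nonunits_iff, map_mul] at hab'
    by_contra hcon
    push Not at hcon
    have ha : O.valuation (ι a) = 1 :=
      le_antisymm ((O.valuation_le_one_iff _).mpr (hO a))
        (not_lt.mp (fun hlt => hcon.1 (show ι a ∈ O.nonunits from hlt)))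
    have hb : O.valuation (ι b) = 1 :=
      le_antisymm ((O.valuation_le_one_iff _).mpr (hO b))
        (not_lt.mp (fun hlt => hcon.2 (show ι b ∈ O.nonunits from hlt)))
    rw [ha, hb, mul_one] at hab'
    exact lt_irrefl _ hab'

/-- Elements outside the centre are units of `O`. -/
theorem inv_mem_of_notMem_centre {O : ValuationSubring F} {hO : ∀ b : B, ι b ∈ O} {b : B}
    (hb : b ∉ centre O hO) : (ι b)⁻¹ ∈ O := by
  by_contra h
  exact hb (mem_centre.mpr ((ValuationSubring.mem_nonunits_iff_or O).mpr (Or.inr h)))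

end Centre

section CentreGen

variable {B F : Type*} [CommRing B] [IsDomain B] [IsNoetherianRing B] [Field F]
variable {ι : B →+* F} (hι : Function.Injective ι)
variable (hfrac : ∀ x : F, ∃ a b : B, b ≠ 0 ∧ x * ι b = ι a)
variable {n : Ideal B} [n.IsPrime] {π τ : B}

include hι in
/-- A valuation ring `O ≠ ⊤` of `F` containing `ι B`, centred inside `n`, in which `π` is a unit:
its centre `q` has a local generator `g` and `O = {fOrd_g ≥ 0}`. -/
theorem exists_locGen_of_valuationSubring (hπ : Prime π) (hπn : π ∈ n) (hτ : τ ∈ n)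
    (hreg : ∀ a : B, ¬ π ∣ a → ∃ e, EExp n π τ a e)
    (O : ValuationSubring F) (hOtop : O ≠ ⊤) (hO : ∀ b : B, ι b ∈ O)
    (hOn : ∀ b : B, ι b ∈ O.nonunits → b ∈ n) (hOπ : (ι π)⁻¹ ∈ O) :
    ∃ (q : Ideal B) (g : B), q.IsPrime ∧ LocGen n π τ g q ∧
      (∀ b : B, b ∈ q ↔ ι b ∈ O.nonunits) ∧
      (∀ x : F, x ∈ O ↔ x = 0 ∨ 0 ≤ fOrd ι hfrac n g x) := by
  classical
  have hιne : ∀ x : B, x ≠ 0 → ι x ≠ 0 := fun x hx => (map_ne_zero_iff ι hι).mpr hx
  set q : Ideal B := centre O hO with hq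
  have hqp : q.IsPrime := centre_isPrime O hO
  have hqn : q ≤ n := fun b hb => hOn b hb
  have hπq : π ∉ q := by
    intro hmem
    rcases (ValuationSubring.mem_nonunits_iff_or O).mp (mem_centre.mp hmem) with h0 | h0
    · exact hιne π hπ.ne_zero h0
    · exact h0 hOπ
  have hq0 : q ≠ ⊥ := by
    intro hbot
    apply hOtop
    refine SetLike.ext fun x => ⟨fun _ => ValuationSubring.mem_top x, fun _ => ?_⟩
    obtain ⟨a, b, hb, hab⟩ := hfrac x
    have hbq : b ∉ q := by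
      rw [hbot]; exact fun h0 => hb (Ideal.mem_bot.mp h0)
    have e : x = ι a * (ι b)⁻¹ := by
      rw [← hab]; field_simp [hιne b hb]
    rw [e]
    exact O.mul_mem _ _ (hO a) (inv_mem_of_notMem_centre hbq)
  obtain ⟨g, hgq, hpg, hgen⟩ := exists_local_generator n π τ hπ hπn hreg q hπq hq0
  have h : LocGen n π τ g q := ⟨hπ, hπn, hτ, hreg, hqn, hπq, hgq, hpg, hgen⟩
  have hG : ι g ≠ 0 := hιne g h.g_ne_zero
  have hgnu : ι g ∈ O.nonunits := hgq
  refine ⟨q, g, hqp, h, fun b => Iff.rfl, fun x => ?_⟩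
  by_cases hx : x = 0
  · rw [hx]; exact ⟨fun _ => Or.inl rfl, fun _ => O.zero_mem⟩
  obtain ⟨a, b, hb, hab⟩ := hfrac x
  have ha : a ≠ 0 := by
    rintro rfl
    rw [map_zero] at hab
    exact (mul_ne_zero hx (hιne b hb)) hab
  obtain ⟨sa, hsa, a', haeq, ha'q⟩ := h.exists_eq ha
  obtain ⟨sb, hsb, b', hbeq, hb'q⟩ := h.exists_eq hb
  have hsaq : sa ∉ q := fun hmem => hsa (hqn hmem)
  have hsbq : sb ∉ q := fun hmem => hsb (hqn hmem)
  have hsa0 : ι sa ≠ 0 := hιne sa (fun h0 => hsa (h0 ▸ n.zero_mem))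
  have hsb0 : ι sb ≠ 0 := hιne sb (fun h0 => hsb (h0 ▸ n.zero_mem))
  have ha'0 : ι a' ≠ 0 := hιne a' (fun h0 => ha'q (h0 ▸ q.zero_mem))
  have hb'0 : ι b' ≠ 0 := hιne b' (fun h0 => hb'q (h0 ▸ q.zero_mem))
  have e1 : ι sa * ι a = ι g ^ gOrd n g a * ι a' := by
    rw [← map_mul, haeq, map_mul, map_pow]
  have e2 : ι sb * ι b = ι g ^ gOrd n g b * ι b' := by
    rw [← map_mul, hbeq, map_mul, map_pow]
  have hmain : x * (ι g ^ gOrd n g b * (ι b' * ι sa)) = ι g ^ gOrd n g a * (ι a' * ι sb) := by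
    linear_combination (ι sa * ι sb) * hab - (x * ι sa) * e2 + ι sb * e1
  have hford : fOrd ι hfrac n g x = (gOrd n g a : ℤ) - (gOrd n g b : ℤ) :=
    fOrd_eq hfrac hι h hx hb hab
  rw [hford]
  constructor
  · intro hxO
    right
    by_contra hlt
    push Not at hlt
    obtain ⟨d, hd⟩ : ∃ d : ℕ, gOrd n g b = gOrd n g a + (d + 1) :=
      ⟨gOrd n g b - gOrd n g a - 1, by omega⟩
    -- `x⁻¹` is a nonunit of `O`
    have hxinv : x⁻¹ = ι g * (ι g ^ d * (ι b' * ι sa) * ((ι a')⁻¹ * (ι sb)⁻¹)) := by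
      rw [hd, pow_add] at hmain
      have hGa : ι g ^ gOrd n g a ≠ 0 := pow_ne_zero _ hG
      have h2 : x * (ι g ^ (d + 1) * (ι b' * ι sa)) = ι a' * ι sb := by
        apply mul_left_cancel₀ hGa
        linear_combination hmain
      rw [inv_eq_iff_eq_inv, eq_comm, inv_eq_iff_eq_inv]
      field_simp
      rw [pow_succ] at h2
      linear_combination h2
    have hnu : x⁻¹ ∈ O.nonunits := by
      rw [hxinv, ValuationSubring.mem_nonunits_iff, map_mul]
      have hmem : ι g ^ d * (ι b' * ι sa) * ((ι a')⁻¹ * (ι sb)⁻¹) ∈ O :=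
        O.mul_mem _ _ (O.mul_mem _ _ (O.pow_mem (hO g) d) (O.mul_mem _ _ (hO b') (hO sa)))
          (O.mul_mem _ _ (inv_mem_of_notMem_centre ha'q) (inv_mem_of_notMem_centre hsbq))
      exact lt_of_le_of_lt (mul_le_of_le_one_right' ((O.valuation_le_one_iff _).mpr hmem)) hgnu
    rcases (ValuationSubring.mem_nonunits_iff_or O).mp hnu with h0 | h0
    · exact inv_ne_zero hx h0
    · rw [inv_inv] at h0; exact h0 hxO
  · rintro (h0 | h0)
    · exact absurd h0 hx
    · obtain ⟨d, hd⟩ : ∃ d : ℕ, gOrd n g a = gOrd n g b + d := ⟨gOrd n g a - gOrd n g b, by omega⟩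
      have hxe : x = ι g ^ d * (ι a' * ι sb) * ((ι b')⁻¹ * (ι sa)⁻¹) := by
        rw [hd, pow_add] at hmain
        have hGb : ι g ^ gOrd n g b ≠ 0 := pow_ne_zero _ hG
        have h2 : x * (ι b' * ι sa) = ι g ^ d * (ι a' * ι sb) := by
          apply mul_left_cancel₀ hGb
          linear_combination hmain
        field_simp
        linear_combination h2
      rw [hxe]
      exact O.mul_mem _ _ (O.mul_mem _ _ (O.pow_mem (hO g) d) (O.mul_mem _ _ (hO a') (hO sb)))
        (O.mul_mem _ _ (inv_mem_of_notMem_centre hb'q) (inv_mem_of_notMem_centre hsaq))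

end CentreGen

/-! ### (U1), abstract form -/

section Abs

variable {B F : Type*} [CommRing B] [IsDomain B] [IsNoetherianRing B] [Field F]
variable {ι : B →+* F} (hι : Function.Injective ι)
variable (hfrac : ∀ x : F, ∃ a b : B, b ≠ 0 ∧ x * ι b = ι a)
variable {n : Ideal B} [n.IsPrime] {π τ : B}
variable {K0 : Type*} [Field K0] [Algebra K0 F]

include hι hfrac in
/-- **(U1), abstract form.**  `u = a / b` with `a, b` prime to `π`; `T` a finite set of places of
`F / K0` centred in `n`, containing every such place at which `u` has nonzero order; through every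
place of `T` where `u` has nonzero order passes a section `τ - π y`; the orders add up to `0`.
Then `a b' ≡ b a'` mod `π` with `a', b' ∉ n`. -/
theorem unit_local_abs (hπ : Prime π) (hπn : π ∈ n) (hτ : τ ∈ n)
    (hreg : ∀ a : B, ¬ π ∣ a → ∃ e, EExp n π τ a e)
    (hK : ∀ c : K0, ∃ a b : B, b ≠ 0 ∧ (∃ k : ℕ, b ∣ π ^ k) ∧ algebraMap K0 F c * ι b = ι a)
    (hπK : ∀ P : Place K0 F, (ι π)⁻¹ ∈ P.toValuationSubring)
    {u : F} {a b : B} (hpa : ¬ π ∣ a) (hpb : ¬ π ∣ b) (hab : u * ι b = ι a)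
    (T : Finset (Place K0 F))
    (hTc : ∀ P ∈ T, (∀ b : B, ι b ∈ P.toValuationSubring) ∧
      ∀ b : B, ι b ∈ P.toValuationSubring.nonunits → b ∈ n)
    (hT : ∀ P : Place K0 F, (∀ b : B, ι b ∈ P.toValuationSubring) →
      (∀ b : B, ι b ∈ P.toValuationSubring.nonunits → b ∈ n) → P.ord u ≠ 0 → P ∈ T)
    (hrat : ∀ P ∈ T, P.ord u ≠ 0 → ∃ y : B, ι (τ - π * y) ∈ P.toValuationSubring.nonunits)
    (hsum : ∑ P ∈ T, P.ord u = 0) :
    ∃ a' b' x : B, a' ∉ n ∧ b' ∉ n ∧ a * b' - b * a' = π * x := by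
  classical
  have ha0 : a ≠ 0 := fun h => hpa (h ▸ dvd_zero π)
  have hb0 : b ≠ 0 := fun h => hpb (h ▸ dvd_zero π)
  have hιne : ∀ x : B, x ≠ 0 → ι x ≠ 0 := fun x hx => (map_ne_zero_iff ι hι).mpr hx
  have hu0 : u ≠ 0 := by
    rintro rfl
    rw [zero_mul] at hab
    exact hιne a ha0 hab.symm
  obtain ⟨ea, hea⟩ := hreg a hpa
  obtain ⟨eb, heb⟩ := hreg b hpb
  have hex : ∀ P : {P // P ∈ T}, ∃ (q : Ideal B) (g : B) (e : ℕ), q.IsPrime ∧
      LocGen n π τ g q ∧ EExp n π τ g e ∧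
      (∀ b : B, b ∈ q ↔ ι b ∈ P.1.toValuationSubring.nonunits) ∧
      (∀ x : F, x ∈ P.1.toValuationSubring ↔ x = 0 ∨ 0 ≤ fOrd ι hfrac n g x) := by
    rintro ⟨P, hP⟩
    obtain ⟨q, g, hq, hLG, hmem, hval⟩ :=
      exists_locGen_of_valuationSubring hι hfrac hπ hπn hτ hreg P.toValuationSubring P.ne_top'
        (hTc P hP).1 (hTc P hP).2 (hπK P)
    obtain ⟨e, he⟩ := hreg g hLG.not_dvd
    exact ⟨q, g, e, hq, hLG, he, hmem, hval⟩
  choose q g e hq hLG hE hmem hval using hex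
  have hord : ∀ (P : {P // P ∈ T}) (x : F), x ≠ 0 → P.1.ord x = fOrd ι hfrac n (g P) x := by
    intro P x hx
    have := hq P
    exact ord_eq_fOrd hι hfrac (hLG P) P.1 (hval P) hx
  have hmain := eexp_sub_eq_sum hι hfrac hπ hπn hτ hreg hpa hpb hab hea heb T.attach q g e
    (fun P _ => hq P) (fun P _ => hLG P) (fun P _ => hE P)
    (by
      intro P _ P' _ hqq
      apply Subtype.ext
      apply Place.ext
      ext x
      rw [hval P x, hval P' x]
      by_cases hx : x = 0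
      · simp [hx]
      · have := hq P
        have h' : LocGen n π τ (g P') (q P) := hqq ▸ hLG P'
        rw [fOrd_congr hι hfrac (hLG P) h' hx])
    (by
      intro g' q' _ h' hne
      by_contra hne0
      have hP'ord : (gPlace hι hfrac h' hK).ord u = fOrd ι hfrac n g' u :=
        gPlace_ord hι hfrac h' hK hu0
      have hP'T : gPlace hι hfrac h' hK ∈ T :=
        hT _ (fun b => map_mem_gValSubring hfrac hι h' b)
          (fun b hb => h'.q_le ((map_mem_nonunits_gValSubring_iff hι hfrac h' b).mp hb))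
          (by rw [hP'ord]; exact hne0)
      apply hne ⟨_, hP'T⟩ (Finset.mem_attach _ _)
      ext b
      rw [hmem ⟨_, hP'T⟩ b]
      exact map_mem_nonunits_gValSubring_iff hι hfrac h' b)
  have hsum' : ∑ P ∈ T.attach, fOrd ι hfrac n (g P) u * (e P : ℤ) = 0 := by
    have h1 : ∀ P ∈ T.attach, fOrd ι hfrac n (g P) u * (e P : ℤ) = P.1.ord u := by
      intro P _
      rw [← hord P u hu0]
      by_cases h0 : P.1.ord u = 0
      · rw [h0, zero_mul]
      · obtain ⟨y, hy⟩ := hrat P.1 P.2 h0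
        have h2 : e P = 1 := eexp_one_of_section (hLG P) ((hmem P _).mpr hy) (hE P)
        rw [h2]; simp
    rw [Finset.sum_congr rfl h1, Finset.sum_attach T (fun P => P.ord u)]
    exact hsum
  have hee : ea = eb := by
    rw [hsum'] at hmain; omega
  subst hee
  obtain ⟨d₁, u₁, hd₁, hu₁, x₁, hx₁⟩ := hea
  obtain ⟨d₂, u₂, hd₂, hu₂, x₂, hx₂⟩ := heb
  exact ⟨d₂ * u₁, d₁ * u₂, x₁ * u₂ - x₂ * u₁, notMem_mul_of_prime hd₂ hu₁,
    notMem_mul_of_prime hd₁ hu₂, by linear_combination u₂ * hx₁ - u₁ * hx₂⟩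

end Abs

/-! ### (U1), (U2) in the vocabulary of `H63.StmtBase` -/

section Chart

variable {A F K0 : Type} [CommRing A] [Field F] [Algebra A F] [Field K0] [Algebra K0 F]

/-- The place `P` of `F / K0` is centred in the ideal `n` of the chart `B`: `B ⊆ O_P` and the
elements of `B` that are nonunits of `O_P` lie in `n`. -/
def Centred (B : Subalgebra A F) (n : Ideal B) (P : Place K0 F) : Prop :=
  (∀ b ∈ B, b ∈ P.toValuationSubring) ∧
    ∀ b : B, (b : F) ∈ P.toValuationSubring.nonunits → b ∈ n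

omit [Field K0] [Algebra K0 F] in
/-- **(U2), local to global.**  If at every closed point `n ∋ π` of the chart `u ≡ a / b` mod `π V`
with `a, b ∈ B \ n`, then `u` is congruent mod `π V` to an element of `B`. -/
theorem unit_mod_of_local (π : A) (V : ValuationSubring F) (B : Subalgebra A F)
    (hBV : ∀ x ∈ B, x ∈ V) (u : F) (hu : u ∈ V)
    (hloc : ∀ n : Ideal B, n.IsMaximal → algebraMap A B π ∈ n →
      ∃ a b : B, a ∉ n ∧ b ∉ n ∧ ∃ y ∈ V, u * b - a = algebraMap A F π * y) :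
    ∃ a ∈ B, ∃ y ∈ V, u - a = algebraMap A F π * y := by
  let I : Ideal ↥B :=
    { carrier := {b | ∃ a : ↥B, ∃ y ∈ V, u * (b : F) - (a : F) = algebraMap A F π * y}
      add_mem' := by
        rintro b₁ b₂ ⟨a₁, y₁, hy₁, h₁⟩ ⟨a₂, y₂, hy₂, h₂⟩
        refine ⟨a₁ + a₂, y₁ + y₂, V.add_mem _ _ hy₁ hy₂, ?_⟩
        push_cast
        linear_combination h₁ + h₂
      zero_mem' := ⟨0, 0, V.zero_mem, by simp⟩
      smul_mem' := by
        rintro c b ⟨a, y, hy, h⟩
        refine ⟨c * a, (c : F) * y, V.mul_mem _ _ (hBV _ c.2) hy, ?_⟩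
        rw [smul_eq_mul]
        push_cast
        linear_combination (c : F) * h }
  have hItop : I = ⊤ := by
    by_contra hI
    obtain ⟨n, hnmax, hIn⟩ := Ideal.exists_le_maximal I hI
    have hπI : algebraMap A B π ∈ I := by
      refine ⟨0, u, hu, ?_⟩
      have e : ((algebraMap A B π : ↥B) : F) = algebraMap A F π := rfl
      rw [e]; push_cast; ring
    obtain ⟨a, b, ha, hb, y, hy, h⟩ := hloc n hnmax (hIn hπI)
    exact hb (hIn ⟨a, y, hy, h⟩)
  have h1 : (1 : ↥B) ∈ I := by rw [hItop]; trivial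
  obtain ⟨a, y, hy, h⟩ := h1
  exact ⟨a, a.2, y, hy, by simpa using h⟩

set_option maxHeartbeats 800000 in
/-- **(U1), the generic local lemma of (UNIT').**  One chart `B` of `H63.StmtBase` (hypotheses
`hπ … hsat`, literal), `K0 = Frac A` inside `F` (`hAK`, `hKA`), `n ∋ π` a closed point with (REG).
`u` a unit of the Gauss ring `V`; `T` a finite set of places of `F / K0` centred in `n` containing
every such place with `ord_P u ≠ 0`; the places of `T` with `ord_P u ≠ 0` are rational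
(`B = A + q_P`); `∑_{P ∈ T} ord_P u = 0`.  Then `u ≡ a / b` mod `π V` with `a, b ∈ B \ n`. -/
theorem unit_at_closed_point (π : A) (V : ValuationSubring F) (B : Subalgebra A F)
    (hπ : π ≠ 0) (hinj : Function.Injective (algebraMap A F))
    (harch : ∀ c : A, c ≠ 0 → ∃ k : ℕ, c ∣ π ^ k)
    (hπV : algebraMap A F π ∈ V.nonunits)
    (hVπ : ∀ x ∈ V.nonunits, ∃ y ∈ V, x = algebraMap A F π * y)
    (hBV : ∀ x ∈ B, x ∈ V) (hnoeth : IsNoetherianRing B)
    (hfrac : ∀ x : F, ∃ a ∈ B, ∃ b ∈ B, b ≠ 0 ∧ x * b = a)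
    (hsat : ∀ x ∈ B, (∃ y ∈ V, x = algebraMap A F π * y) → ∃ b ∈ B, x = algebraMap A F π * b)
    (hAK : ∀ a : A, ∃ c : K0, algebraMap K0 F c = algebraMap A F a)
    (hKA : ∀ c : K0, ∃ a b : A, b ≠ 0 ∧ algebraMap K0 F c * algebraMap A F b = algebraMap A F a)
    (n : Ideal B) (hn : n.IsMaximal) (hπn : algebraMap A B π ∈ n)
    (hreg : ∃ τ ∈ n, ∀ a : B, a ∉ Ideal.span {algebraMap A B π} →
      ∃ (e : ℕ) (d u : B), d ∉ n ∧ u ∉ n ∧ a * d - u * τ ^ e ∈ Ideal.span {algebraMap A B π})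
    (u : F) (hu0 : u ≠ 0) (hu : u ∈ V) (hu' : u⁻¹ ∈ V)
    (T : Finset (Place K0 F)) (hTc : ∀ P ∈ T, Centred B n P)
    (hT : ∀ P : Place K0 F, Centred B n P → P.ord u ≠ 0 → P ∈ T)
    (hrat : ∀ P ∈ T, P.ord u ≠ 0 →
      ∀ b ∈ B, ∃ c : A, b - algebraMap A F c ∈ P.toValuationSubring.nonunits)
    (hsum : ∑ P ∈ T, P.ord u = 0) :
    ∃ a b : B, a ∉ n ∧ b ∉ n ∧ ∃ y ∈ V, u * b - a = algebraMap A F π * y := by
  classical
  have := hnoeth
  have := hn.isPrime
  set ϖ : F := algebraMap A F π with hϖ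
  let ι : ↥B →+* F := B.val.toRingHom
  have hιv : ∀ b : ↥B, ι b = (b : F) := fun _ => rfl
  have hι : Function.Injective ι := Subtype.val_injective
  let πB : ↥B := algebraMap A B π
  have hπBv : (πB : F) = ϖ := rfl
  have hϖ0 : ϖ ≠ 0 := fun h => hπ (hinj (by rw [← hϖ, h, map_zero]))
  -- valuation facts
  have hone : (1 : F) ∉ V.nonunits := by
    intro h
    rw [V.mem_nonunits_iff, map_one] at h
    exact lt_irrefl _ h
  have hnuV : ∀ x ∈ V.nonunits, x ∈ V := fun x hx => V.nonunits_subset hx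
  have hnu_mul : ∀ x ∈ V.nonunits, ∀ y ∈ V, x * y ∈ V.nonunits := by
    intro x hx y hy
    rw [V.mem_nonunits_iff] at hx ⊢
    rw [map_mul]
    exact lt_of_le_of_lt (mul_le_of_le_one_right' ((V.valuation_le_one_iff y).mpr hy)) hx
  have hunitV : ∀ x ∈ V, x ∉ V.nonunits → x⁻¹ ∈ V := by
    intro x hx hxn
    rw [V.mem_nonunits_iff, not_lt] at hxn
    have h1 : V.valuation x = 1 := le_antisymm ((V.valuation_le_one_iff x).mpr hx) hxn
    rw [← V.valuation_le_one_iff, map_inv₀, h1, inv_one]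
  have hprod : ∀ x ∈ V, ∀ y ∈ V, x * y ∈ V.nonunits → x ∈ V.nonunits ∨ y ∈ V.nonunits := by
    intro x hx y hy hxy
    by_contra hcon
    push Not at hcon
    have h1 := hunitV x hx hcon.1
    have h2 := hunitV y hy hcon.2
    have hx0 : x ≠ 0 := fun h => hcon.1 (h ▸ V.nonunits.zero_mem)
    have hy0 : y ≠ 0 := fun h => hcon.2 (h ▸ V.nonunits.zero_mem)
    apply hone
    have h3 := hnu_mul _ hxy _ (V.mul_mem _ _ h1 h2)
    have e : x * y * (x⁻¹ * y⁻¹) = 1 := by field_simp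
    rwa [e] at h3
  -- divisibility by `π` in `B` versus nonunits of `V`
  have hdvd_of : ∀ b : ↥B, (b : F) ∈ V.nonunits → πB ∣ b := by
    intro b hb
    obtain ⟨y, hy, e⟩ := hVπ _ hb
    obtain ⟨b', hb', e'⟩ := hsat _ b.2 ⟨y, hy, e⟩
    exact ⟨⟨b', hb'⟩, Subtype.ext e'⟩
  have hnu_of : ∀ b : ↥B, πB ∣ b → (b : F) ∈ V.nonunits := by
    rintro b ⟨c, rfl⟩
    exact hnu_mul _ hπV _ (hBV _ c.2)
  have hπB : Prime πB := by
    refine ⟨fun h => hϖ0 (congrArg Subtype.val h), ?_, ?_⟩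
    · intro hu
      obtain ⟨c, hc⟩ := hu.exists_right_inv
      apply hone
      have h1 := hnu_mul _ hπV _ (hBV _ c.2)
      have e : ϖ * (c : F) = 1 := congrArg Subtype.val hc
      rwa [e] at h1
    · intro a b hab
      have h1 := hnu_of _ hab
      rcases hprod _ (hBV _ a.2) _ (hBV _ b.2) h1 with h | h
      · exact Or.inl (hdvd_of a h)
      · exact Or.inr (hdvd_of b h)
  have hfrac' : ∀ x : F, ∃ a b : ↥B, b ≠ 0 ∧ x * ι b = ι a := by
    intro x
    obtain ⟨a, ha, b, hb, hb0, e⟩ := hfrac x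
    exact ⟨⟨a, ha⟩, ⟨b, hb⟩, fun h => hb0 (congrArg Subtype.val h), e⟩
  -- normalised fractions for units of `V`
  have hstrip : ∀ x : F, x ∈ V → x ∉ V.nonunits →
      ∃ a b : ↥B, ¬ πB ∣ a ∧ ¬ πB ∣ b ∧ x * ι b = ι a := by
    intro x hxV hxn
    obtain ⟨a, b, hb0, e⟩ := hfrac' x
    obtain ⟨k, b₀, hb₀, rfl⟩ := WfDvdMonoid.max_power_factor' hb0 hπB.not_isUnit
    have e' : (a : F) = ϖ ^ k * (x * (b₀ : F)) := by
      rw [← hιv a, ← e, hιv]
      push_cast
      rw [hπBv]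
      ring
    obtain ⟨a₀, ha₀, ea₀⟩ := H63.sat_pow (π := π) (V := V) (B := B) hϖ0 (hnuV _ hπV) hsat k
      (a : F) a.2 ⟨x * (b₀ : F), V.mul_mem _ _ hxV (hBV _ b₀.2), e'⟩
    have hxb : x * (b₀ : F) = a₀ := by
      apply mul_left_cancel₀ (pow_ne_zero k hϖ0)
      rw [← e', ea₀]
    refine ⟨⟨a₀, ha₀⟩, b₀, ?_, hb₀, hxb⟩
    intro hd
    have h1 : x * (b₀ : F) ∈ V.nonunits := by
      rw [hxb]; exact hnu_of _ hd
    rcases hprod _ hxV _ (hBV _ b₀.2) h1 with h | h
    · exact hxn h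
    · exact hb₀ (hdvd_of b₀ h)
  have hunu : u ∉ V.nonunits := fun h =>
    ((ValuationSubring.mem_nonunits_iff_or V).mp h).elim hu0 (fun h' => h' hu')
  obtain ⟨a, b, hpa, hpb, hab⟩ := hstrip u hu hunu
  obtain ⟨τ, hτn, hτ⟩ := hreg
  have hreg' : ∀ a : ↥B, ¬ πB ∣ a → ∃ e, EExp n πB τ a e := by
    intro a ha
    obtain ⟨e, d, u, hd, hu, hmem⟩ := hτ a (fun h => ha (Ideal.mem_span_singleton.mp h))
    exact ⟨e, d, u, hd, hu, Ideal.mem_span_singleton.mp hmem⟩
  have hAB0 : ∀ c : A, c ≠ 0 → algebraMap A B c ≠ 0 := by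
    intro c hc h0
    apply hc
    apply hinj
    rw [map_zero]
    exact congrArg Subtype.val h0
  have hABdvd : ∀ c : A, c ≠ 0 → ∃ k : ℕ, algebraMap A B c ∣ πB ^ k := by
    intro c hc
    obtain ⟨k, hk⟩ := harch c hc
    refine ⟨k, ?_⟩
    have h1 := map_dvd (algebraMap A B) hk
    rwa [map_pow] at h1
  have hK : ∀ c : K0, ∃ a b : ↥B, b ≠ 0 ∧ (∃ k : ℕ, b ∣ πB ^ k) ∧
      algebraMap K0 F c * ι b = ι a := by
    intro c
    obtain ⟨a, b, hb, hab⟩ := hKA c
    exact ⟨algebraMap A B a, algebraMap A B b, hAB0 b hb, hABdvd b hb, hab⟩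
  have hπK : ∀ P : Place K0 F, (ι πB)⁻¹ ∈ P.toValuationSubring := by
    intro P
    obtain ⟨c, hc⟩ := hAK π
    have e : (ι πB)⁻¹ = algebraMap K0 F c⁻¹ := by
      rw [map_inv₀, hc]; rfl
    rw [e]; exact P.algebraMap_mem' _
  -- rationality gives a section through every place of `T` where `u` has nonzero order
  have hrat' : ∀ P ∈ T, P.ord u ≠ 0 →
      ∃ y : ↥B, ι (τ - πB * y) ∈ P.toValuationSubring.nonunits := by
    intro P hP h0
    obtain ⟨c, hc⟩ := hrat P hP h0 (τ : F) τ.2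
    have hcoe : ((τ - algebraMap A B c : ↥B) : F) = (τ : F) - algebraMap A F c := rfl
    have hmem : τ - algebraMap A B c ∈ n := (hTc P hP).2 _ (by rw [hcoe]; exact hc)
    have hcn : algebraMap A B c ∈ n := by
      have e : algebraMap A B c = τ - (τ - algebraMap A B c) := by ring
      rw [e]; exact n.sub_mem hτn hmem
    have hdvd : πB ∣ algebraMap A B c := by
      by_cases hc0 : c = 0
      · rw [hc0, map_zero]; exact dvd_zero _
      obtain ⟨k, c', hc'⟩ := hABdvd c hc0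
      by_contra hnd
      have h2 : πB ^ k ∣ algebraMap A B c * c' := ⟨1, by rw [mul_one, hc']⟩
      obtain ⟨c'', rfl⟩ := hπB.pow_dvd_of_dvd_mul_left k hnd h2
      have h3 : algebraMap A B c * c'' = 1 := by
        have h4 : πB ^ k * (algebraMap A B c * c'') = πB ^ k * 1 := by
          rw [mul_one]; linear_combination -hc'
        exact mul_left_cancel₀ (pow_ne_zero k hπB.ne_zero) h4
      have h5 : (1 : ↥B) ∈ n := by rw [← h3]; exact n.mul_mem_right c'' hcn
      exact one_notMem_of_prime h5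
    obtain ⟨y, hy⟩ := hdvd
    refine ⟨y, ?_⟩
    rw [← hy]
    exact hc
  obtain ⟨a', b', x, ha', hb', hrel⟩ :=
    unit_local_abs hι hfrac' hπB hπn hτn hreg' hK hπK hpa hpb hab T
      (fun P hP => ⟨fun b => (hTc P hP).1 _ b.2, fun b hb => (hTc P hP).2 b hb⟩)
      (fun P h1 h2 h0 => hT P ⟨fun b hb => h1 ⟨b, hb⟩, fun b hb => h2 b hb⟩ h0) hrat' hsum
  have hbnu : (b : F) ∉ V.nonunits := fun h => hpb (hdvd_of b h)
  have hb0 : (b : F) ≠ 0 := fun h => hbnu (h ▸ V.nonunits.zero_mem)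
  refine ⟨a', b', ha', hb', (x : F) * (b : F)⁻¹, ?_, ?_⟩
  · exact V.mul_mem _ _ (hBV _ x.2) (hunitV _ (hBV _ b.2) hbnu)
  · have hrelF : (a : F) * (b' : F) - (b : F) * (a' : F) = ϖ * (x : F) := by
      have h1 := congrArg Subtype.val hrel
      push_cast at h1
      rw [hπBv] at h1
      exact h1
    have hab'' : u * (b : F) = (a : F) := hab
    field_simp
    linear_combination hrelF + (b' : F) * hab''

/-- **(UNIT'), one chart.**  (U1) at every closed point `n ∋ π` + (U2): both `u` and `u⁻¹` are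
congruent mod `π V` to elements of `B`, i.e. the reduction of `u` is a unit of `B / π B`. -/
theorem unit_mod_of_places (π : A) (V : ValuationSubring F) (B : Subalgebra A F)
    (hπ : π ≠ 0) (hinj : Function.Injective (algebraMap A F))
    (harch : ∀ c : A, c ≠ 0 → ∃ k : ℕ, c ∣ π ^ k)
    (hπV : algebraMap A F π ∈ V.nonunits)
    (hVπ : ∀ x ∈ V.nonunits, ∃ y ∈ V, x = algebraMap A F π * y)
    (hBV : ∀ x ∈ B, x ∈ V) (hnoeth : IsNoetherianRing B)
    (hfrac : ∀ x : F, ∃ a ∈ B, ∃ b ∈ B, b ≠ 0 ∧ x * b = a)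
    (hsat : ∀ x ∈ B, (∃ y ∈ V, x = algebraMap A F π * y) → ∃ b ∈ B, x = algebraMap A F π * b)
    (hAK : ∀ a : A, ∃ c : K0, algebraMap K0 F c = algebraMap A F a)
    (hKA : ∀ c : K0, ∃ a b : A, b ≠ 0 ∧ algebraMap K0 F c * algebraMap A F b = algebraMap A F a)
    (hreg : ∀ n : Ideal B, n.IsMaximal → algebraMap A B π ∈ n →
      ∃ τ ∈ n, ∀ a : B, a ∉ Ideal.span {algebraMap A B π} →
        ∃ (e : ℕ) (d u : B), d ∉ n ∧ u ∉ n ∧
          a * d - u * τ ^ e ∈ Ideal.span {algebraMap A B π})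
    (u : F) (hu0 : u ≠ 0) (hu : u ∈ V) (hu' : u⁻¹ ∈ V)
    (hdata : ∀ n : Ideal B, n.IsMaximal → algebraMap A B π ∈ n →
      ∃ T : Finset (Place K0 F), (∀ P ∈ T, Centred B n P) ∧
        (∀ P : Place K0 F, Centred B n P → P.ord u ≠ 0 → P ∈ T) ∧
        (∀ P ∈ T, P.ord u ≠ 0 →
          ∀ b ∈ B, ∃ c : A, b - algebraMap A F c ∈ P.toValuationSubring.nonunits) ∧
        ∑ P ∈ T, P.ord u = 0) :
    (∃ a ∈ B, ∃ y ∈ V, u - a = algebraMap A F π * y) ∧
      (∃ a ∈ B, ∃ y ∈ V, u⁻¹ - a = algebraMap A F π * y) := by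
  constructor
  · refine unit_mod_of_local π V B hBV u hu fun n hn hπn => ?_
    obtain ⟨T, hTc, hT, hrat, hsum⟩ := hdata n hn hπn
    exact unit_at_closed_point π V B hπ hinj harch hπV hVπ hBV hnoeth hfrac hsat hAK hKA n hn hπn
      (hreg n hn hπn) u hu0 hu hu' T hTc hT hrat hsum
  · refine unit_mod_of_local π V B hBV u⁻¹ hu' fun n hn hπn => ?_
    obtain ⟨T, hTc, hT, hrat, hsum⟩ := hdata n hn hπn
    refine unit_at_closed_point π V B hπ hinj harch hπV hVπ hBV hnoeth hfrac hsat hAK hKA n hn hπn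
      (hreg n hn hπn) u⁻¹ (inv_ne_zero hu0) hu' (by rw [inv_inv]; exact hu) T hTc ?_ ?_ ?_
    · intro P hP h0
      exact hT P hP (by rw [Place.ord_inv] at h0; exact fun h => h0 (by rw [h, neg_zero]))
    · intro P hP h0
      exact hrat P hP (by rw [Place.ord_inv] at h0; exact fun h => h0 (by rw [h, neg_zero]))
    · simp only [Place.ord_inv, Finset.sum_neg_distrib, hsum, neg_zero]

open Classical in
/-- **(UNIT'), one chart, global support.**  `S` a finite set of places of `F / K0` containing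
every place `P ⊇ B` with `ord_P u ≠ 0`; the places of `S` containing `B` are rational; at every
closed point `n ∋ π` the orders of `u` at the places of `S` centred in `n` add up to `0`
(this is what (TRANSFER) provides).  Then the reduction of `u` is a unit of `B / π B`. -/
theorem unit_mod_of_finset (π : A) (V : ValuationSubring F) (B : Subalgebra A F)
    (hπ : π ≠ 0) (hinj : Function.Injective (algebraMap A F))
    (harch : ∀ c : A, c ≠ 0 → ∃ k : ℕ, c ∣ π ^ k)
    (hπV : algebraMap A F π ∈ V.nonunits)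
    (hVπ : ∀ x ∈ V.nonunits, ∃ y ∈ V, x = algebraMap A F π * y)
    (hBV : ∀ x ∈ B, x ∈ V) (hnoeth : IsNoetherianRing B)
    (hfrac : ∀ x : F, ∃ a ∈ B, ∃ b ∈ B, b ≠ 0 ∧ x * b = a)
    (hsat : ∀ x ∈ B, (∃ y ∈ V, x = algebraMap A F π * y) → ∃ b ∈ B, x = algebraMap A F π * b)
    (hAK : ∀ a : A, ∃ c : K0, algebraMap K0 F c = algebraMap A F a)
    (hKA : ∀ c : K0, ∃ a b : A, b ≠ 0 ∧ algebraMap K0 F c * algebraMap A F b = algebraMap A F a)
    (hreg : ∀ n : Ideal B, n.IsMaximal → algebraMap A B π ∈ n →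
      ∃ τ ∈ n, ∀ a : B, a ∉ Ideal.span {algebraMap A B π} →
        ∃ (e : ℕ) (d u : B), d ∉ n ∧ u ∉ n ∧
          a * d - u * τ ^ e ∈ Ideal.span {algebraMap A B π})
    (u : F) (hu0 : u ≠ 0) (hu : u ∈ V) (hu' : u⁻¹ ∈ V)
    (S : Finset (Place K0 F))
    (hS : ∀ P : Place K0 F, (∀ b ∈ B, b ∈ P.toValuationSubring) → P.ord u ≠ 0 → P ∈ S)
    (hrat : ∀ P ∈ S, (∀ b ∈ B, b ∈ P.toValuationSubring) → P.ord u ≠ 0 →
      ∀ b ∈ B, ∃ c : A, b - algebraMap A F c ∈ P.toValuationSubring.nonunits)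
    (hsum : ∀ n : Ideal B, n.IsMaximal → algebraMap A B π ∈ n →
      ∑ P ∈ S.filter (fun P => Centred B n P), P.ord u = 0) :
    (∃ a ∈ B, ∃ y ∈ V, u - a = algebraMap A F π * y) ∧
      (∃ a ∈ B, ∃ y ∈ V, u⁻¹ - a = algebraMap A F π * y) := by
  refine unit_mod_of_places π V B hπ hinj harch hπV hVπ hBV hnoeth hfrac hsat hAK hKA hreg u hu0
    hu hu' fun n hn hπn => ⟨S.filter (fun P => Centred B n P), ?_, ?_, ?_, hsum n hn hπn⟩
  · intro P hP
    exact (Finset.mem_filter.mp hP).2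
  · intro P hP h0
    exact Finset.mem_filter.mpr ⟨hS P hP.1 h0, hP⟩
  · intro P hP h0
    exact hrat P (Finset.mem_filter.mp hP).1 (Finset.mem_filter.mp hP).2.1 h0

end Chart

end Fermat.Agent.S37.H06
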